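import Fermat.Agent.TaylorWiles.Defs
import Fermat.Agent.PoitouTate.Decomp
import Fermat.Agent.PoitouTate.LocalFields
import Fermat.Agent.RT.LocalGalois

/-!
Local conditions away from `p`: unramified classes, Taylor–Wiles primes.
-/

set_option autoImplicit false

open ExtCitation Module

noncomputable section

namespace FLTA.TaylorWiles

open FLTA.PT FLTA.TW

attribute [local instance] FLTA.PT.factPrime

/-- The local Galois group maps onto the decomposition group. -/
theorem exists_loc_eq (q : Nat.Primes) {σ : GQ}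
    (hσ : σ ∈ (primeLocalPlace q).decompositionSubgroup ℚ) : ∃ g : Gl q, loc q g = σ := by
  classical
  haveI := isGalois_ql q
  let C : Qb → Set (Ql q ≃ₐ[ℚ_[(q : ℕ)]] Ql q) := fun x => {γ | γ (iota q x) = iota q (σ x)}
  have hclosed : ∀ x, IsClosed (C x) := by
    intro x
    rcases (C x).eq_empty_or_nonempty with h | ⟨γ₀, hγ₀⟩
    · rw [h]; exact isClosed_empty
    set y := iota q x
    have hopen : IsOpen
        ((MulAction.stabilizer (Ql q ≃ₐ[ℚ_[(q : ℕ)]] Ql q) y : Subgroup _) :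
          Set (Ql q ≃ₐ[ℚ_[(q : ℕ)]] Ql q)) := by
      haveI : FiniteDimensional ℚ_[(q : ℕ)] (IntermediateField.adjoin ℚ_[(q : ℕ)] {y}) :=
        IntermediateField.adjoin.finiteDimensional (Algebra.IsAlgebraic.isAlgebraic y).isIntegral
      refine Subgroup.isOpen_mono (fun γ hγ => ?_)
        (IntermediateField.fixingSubgroup_isOpen (IntermediateField.adjoin ℚ_[(q : ℕ)] {y}))
      exact (IntermediateField.mem_fixingSubgroup_iff _ _).1 hγ y
        (IntermediateField.mem_adjoin_simple_self _ y)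
    have e : C x = (fun γ => γ₀⁻¹ * γ) ⁻¹'
        ((MulAction.stabilizer (Ql q ≃ₐ[ℚ_[(q : ℕ)]] Ql q) y : Subgroup _) :
          Set (Ql q ≃ₐ[ℚ_[(q : ℕ)]] Ql q)) := by
      ext γ
      show γ y = _ ↔ γ₀⁻¹ (γ y) = y
      rw [← show γ₀ y = iota q (σ x) from hγ₀]
      exact ⟨fun h => by rw [h]; exact γ₀.symm_apply_apply y,
        fun h => by conv_rhs => rw [← h]
                    exact (γ₀.apply_symm_apply (γ y)).symm⟩
    rw [e]
    exact (Subgroup.isClosed_of_isOpen _ hopen).preimage (continuous_const_mul γ₀⁻¹)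
  have hfin : ∀ T : Finset Qb, (⋂ x ∈ T, C x).Nonempty := by
    intro T
    obtain ⟨F, hF, hmem, hT⟩ := exists_lvlQ_fixes T
    obtain ⟨g, hg⟩ := exists_loc_inv_mul_mem q hσ hmem
    refine ⟨locAut q g, Set.mem_iInter₂.2 fun x hx => ?_⟩
    show locAut q g (iota q x) = iota q (σ x)
    rw [← iota_loc]
    have h := (IntermediateField.mem_fixingSubgroup_iff _ _).1 hg x (hT x hx)
    rw [AlgEquiv.mul_apply] at h
    congr 1
    conv_lhs => rw [← h]
    exact (loc q g).apply_symm_apply (σ x)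
  obtain ⟨γ, hγ⟩ := CompactSpace.iInter_nonempty hclosed hfin
  obtain ⟨g, rfl⟩ := locAut_surjective q γ
  refine ⟨g, AlgEquiv.ext fun x => (iota q).injective ?_⟩
  rw [iota_loc]
  exact Set.mem_iInter.1 hγ x

variable (p : ℕ) [Fact p.Prime] {k : Type} [Field k] [Finite k] [Algebra (ZMod p) k]
variable (M : GQ →* Matrix (Fin 2) (Fin 2) k)

/-- Deformations unramified at `q` give unramified classes. -/
theorem unramified_locQ_mem (q : Nat.Primes) (x : Z1 lvlQ (ad0Rep p M))
    (ρ : GaloisRepAdic (DualNumber k)) (hx : IsDefoOf M (x : GQ → Ad0 k) ρ)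
    (hur : ρ.IsUnramifiedAt (q : ℕ)) :
    locQ (ad0Rep p M) q (clsQ (ad0Rep p M) x) ∈ unrCond (ad0Rep p M) q := by
  obtain ⟨b, hb⟩ := hx
  refine ⟨⟨pp1 (loc q) LinearMap.id (x : GQ → Ad0 k),
    pp1_mem_Z1 (lvlQ_le_lvlLoc q) (fun _ _ => rfl) x.2⟩, ?_, rfl⟩
  refine (Submodule.mem_iInf _).2 fun s => LinearMap.mem_ker.2 ?_
  show (x : GQ → Ad0 k) (loc q (s : Gl q)) = 0
  set σ := loc q (s : Gl q)
  have h1 := hb σ
  rw [hur _ (primeLocalPlace_liesOverPrime q) σ s.2, LinearMap.toMatrix_one] at h1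
  have hM : M σ = 1 := by
    ext i j
    have := congrArg (fun N : Matrix (Fin 2) (Fin 2) (DualNumber k) => (N i j).fst) h1
    by_cases hij : i = j <;> simpa [defoMat, Matrix.one_apply, hij, eq_comm] using this
  apply Subtype.ext
  ext i j
  have := congrArg (fun N : Matrix (Fin 2) (Fin 2) (DualNumber k) => (N i j).snd) h1
  by_cases hij : i = j <;> simpa [defoMat, hM, Matrix.one_apply, hij, eq_comm] using this

omit [Finite k] in
/-- A dual class which is not a coboundary at Frobenius is nonzero locally. -/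
theorem locQ_ad0Dual_ne_zero_of_frobenius (q : Nat.Primes) (x : Z1 lvlQ (ad0Dual p M)) (φ : GQ)
    (A : ValuationSubring Qb) (hA : A.LiesOverPrime (q : ℕ)) (hφ : A.IsFrobeniusAt φ (q : ℕ))
    (hx : ¬ ∃ m : Ad0 k, (x : GQ → Ad0 k) φ = ad0Dual p M φ m - m) :
    locQ (ad0Dual p M) q (clsQ (ad0Dual p M) x) ≠ 0 := by
  intro h
  apply hx
  obtain ⟨m, hm⟩ := (mem_B1 _).1 ((H1cπ_eq_zero (lvlLoc q) _ (f := ⟨pp1 (loc q) LinearMap.id
    (x : GQ → Ad0 k), pp1_mem_Z1 (lvlQ_le_lvlLoc q) (fun _ _ => rfl) x.2⟩)).1 h)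
  obtain ⟨γ, hγ⟩ := FLTA.Galois.exists_smul_eq q.2 hA (primeLocalPlace_liesOverPrime q)
  have hφ0 : (primeLocalPlace q).IsFrobeniusAt (γ * φ * γ⁻¹) (q : ℕ) :=
    hγ ▸ FLTA.Galois.isFrobeniusAt_smul γ hφ
  obtain ⟨g, hg⟩ := exists_loc_eq q hφ0.mem_decompositionSubgroup
  have h0 : (x : GQ → Ad0 k) (γ * φ * γ⁻¹) = (ad0Dual p M) (γ * φ * γ⁻¹) m - m := by
    rw [← hg]
    exact (congrFun hm g).symm
  obtain ⟨hcoc, -⟩ := (mem_Z1 _ _).1 x.2
  set f := (x : GQ → Ad0 k) with hf
  have hγinv : ∀ v, (ad0Dual p M) γ⁻¹ ((ad0Dual p M) γ v) = v := fun v => by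
    rw [← Module.End.mul_apply, ← map_mul, inv_mul_cancel, map_one, Module.End.one_apply]
  have h1 : f 1 = 0 := by simpa using hcoc 1 1
  have hfinv : (ad0Dual p M) γ (f γ⁻¹) = -f γ := by
    have := hcoc γ γ⁻¹
    rw [mul_inv_cancel, h1] at this
    exact eq_neg_of_add_eq_zero_left this.symm
  refine ⟨(ad0Dual p M) γ⁻¹ m + (ad0Dual p M) γ⁻¹ (f γ), ?_⟩
  have e1 : f (γ * φ * γ⁻¹) = (ad0Dual p M) γ ((ad0Dual p M) φ (f γ⁻¹)) + (ad0Dual p M) γ (f φ) + f γ := by
    rw [hcoc, hcoc, map_mul (ad0Dual p M) γ φ, Module.End.mul_apply, add_assoc]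
  rw [e1, map_mul (ad0Dual p M), map_mul (ad0Dual p M), Module.End.mul_apply, Module.End.mul_apply] at h0
  have e2 : f γ⁻¹ = -(ad0Dual p M) γ⁻¹ (f γ) := by
    rw [← map_neg, ← hfinv, hγinv]
  rw [e2, map_neg ((ad0Dual p M) φ), map_neg ((ad0Dual p M) γ)] at h0
  have e3 := congrArg ((ad0Dual p M) γ⁻¹) h0
  simp only [map_add, map_sub, map_neg, hγinv] at e3
  simp only [map_add]
  linear_combination (norm := abel) e3

/-- A functional which is injective on the trace-zero commutant of a nonscalar matrix. -/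
theorem exists_functional_commutant (h2 : (2 : k) ≠ 0) (A : Matrix (Fin 2) (Fin 2) k)
    (hA : ∀ s : k, A ≠ s • 1) :
    ∃ π : Ad0 k →ₗ[ZMod p] k, ∀ X : Ad0 k, A * X.1 = X.1 * A → π X = 0 → X = 0 := by
  let coord : Fin 2 → Fin 2 → (Ad0 k →ₗ[ZMod p] k) := fun i j =>
    { toFun := fun X => X.1 i j
      map_add' := fun X Y => rfl
      map_smul' := fun c X => rfl }
  have htr : ∀ X : Ad0 k, X.1 0 0 + X.1 1 1 = 0 := fun X => by
    have h : X.1.trace = 0 := X.2
    rwa [Matrix.trace_fin_two] at h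
  have fin : ∀ X : Ad0 k, X.1 0 1 = 0 → X.1 1 0 = 0 → X.1 0 0 = X.1 1 1 → X = 0 := by
    intro X h01 h10 hd
    have h00 : X.1 0 0 = 0 := by
      have := htr X
      rw [← hd, ← two_mul] at this
      exact (mul_eq_zero.1 this).resolve_left h2
    have h11 : X.1 1 1 = 0 := by rw [← hd]; exact h00
    apply Subtype.ext
    ext i j
    fin_cases i <;> fin_cases j <;> simpa
  have entry : ∀ X : Ad0 k, A * X.1 = X.1 * A → ∀ i j,
      A i 0 * X.1 0 j + A i 1 * X.1 1 j = X.1 i 0 * A 0 j + X.1 i 1 * A 1 j := by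
    intro X h i j
    have := congrFun (congrFun h i) j
    rwa [Matrix.mul_apply, Matrix.mul_apply, Fin.sum_univ_two, Fin.sum_univ_two] at this
  by_cases h01 : A 0 1 = 0
  · by_cases h10 : A 1 0 = 0
    · have hne : A 0 0 - A 1 1 ≠ 0 := fun h => hA (A 0 0) (by
        rw [sub_eq_zero] at h
        ext i j
        fin_cases i <;> fin_cases j <;> simp [h01, h10, h])
      refine ⟨coord 0 0, fun X hX hπ => ?_⟩
      change X.1 0 0 = 0 at hπ
      have e01 := entry X hX 0 1
      have e10 := entry X hX 1 0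
      simp only [h01, h10] at e01 e10
      refine fin X ((mul_eq_zero.1 (show (A 0 0 - A 1 1) * X.1 0 1 = 0 by linear_combination e01)
        ).resolve_left hne) ((mul_eq_zero.1 (show (A 0 0 - A 1 1) * X.1 1 0 = 0 by
        linear_combination -e10)).resolve_left hne) ?_
      have := htr X
      rw [hπ, zero_add] at this
      rw [hπ, this]
    · refine ⟨coord 1 0, fun X hX hπ => ?_⟩
      change X.1 1 0 = 0 at hπ
      have e00 := entry X hX 0 0
      have e10 := entry X hX 1 0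
      rw [hπ] at e00
      rw [hπ] at e10
      have hX01 : X.1 0 1 = 0 := (mul_eq_zero.1 (show A 1 0 * X.1 0 1 = 0 by
        linear_combination -e00)).resolve_left h10
      refine fin X hX01 hπ ?_
      exact sub_eq_zero.1 ((mul_eq_zero.1 (show A 1 0 * (X.1 0 0 - X.1 1 1) = 0 by
        linear_combination e10)).resolve_left h10)
  · refine ⟨coord 0 1, fun X hX hπ => ?_⟩
    change X.1 0 1 = 0 at hπ
    have e00 := entry X hX 0 0
    have e01 := entry X hX 0 1
    rw [hπ] at e00
    rw [hπ] at e01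
    have hX10 : X.1 1 0 = 0 := (mul_eq_zero.1 (show A 0 1 * X.1 1 0 = 0 by
      linear_combination e00)).resolve_left h01
    refine fin X hπ hX10 ?_
    exact (sub_eq_zero.1 ((mul_eq_zero.1 (show A 0 1 * (X.1 1 1 - X.1 0 0) = 0 by
      linear_combination e01)).resolve_left h01)).symm

omit [Fact p.Prime] [Algebra (ZMod p) k] [Finite k] in
theorem ne_smul_one_of_charpoly {A : Matrix (Fin 2) (Fin 2) k}
    (hdist : ∃ α β : k, α ≠ β ∧ A.charpoly =
      (Polynomial.X - Polynomial.C α) * (Polynomial.X - Polynomial.C β)) (s : k) : A ≠ s • 1 := by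
  obtain ⟨α, β, hne, hc⟩ := hdist
  rintro rfl
  rw [Matrix.charpoly_fin_two] at hc
  have key : ∀ t : k, (t - α) * (t - β) = (t - s) * (t - s) := fun t => by
    have := congrArg (Polynomial.eval t) hc
    simp [Matrix.trace_fin_two, Matrix.det_fin_two] at this
    linear_combination -this
  have hα : α = s := by
    have := key α
    simp only [sub_self, zero_mul] at this
    exact sub_eq_zero.1 (mul_self_eq_zero.1 this.symm)
  have hβ : β = s := by
    have := key β
    simp only [sub_self, mul_zero] at this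
    exact sub_eq_zero.1 (mul_self_eq_zero.1 this.symm)
  exact hne (hα.trans hβ.symm)

omit [Finite k] in
theorem finrank_Ad0 : finrank k (Ad0 k) = 3 := by
  have h := LinearMap.finrank_range_add_finrank_ker (Matrix.traceLinearMap (Fin 2) k k)
  have hr : LinearMap.range (Matrix.traceLinearMap (Fin 2) k k) = ⊤ :=
    LinearMap.range_eq_top.2 fun c => ⟨Matrix.single 0 0 c, by simp⟩
  rw [hr, finrank_top, Module.finrank_self, Module.finrank_matrix, Module.finrank_self,
    Fintype.card_fin] at h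
  show finrank k ↥(LinearMap.ker (Matrix.traceLinearMap (Fin 2) k k)) = 3
  omega

/-- At a Taylor–Wiles prime the whole of local `H¹` is only one dimension bigger than `H⁰`. -/
theorem finrank_H1L_taylorWiles (hp : p ≠ 2) (q : Nat.Primes) (hq : p ∣ (q : ℕ) - 1)
    (hM : Smooth lvlQ (ad0Rep p M)) (hur : ∀ s ∈ inertiaG q, M (loc q s) = 1)
    (φ : GQ) (hφ : (primeLocalPlace q).IsFrobeniusAt φ (q : ℕ))
    (hdist : ∃ α β : k, α ≠ β ∧ (M φ).charpoly =
      (Polynomial.X - Polynomial.C α) * (Polynomial.X - Polynomial.C β)) :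
    finrank (ZMod p) (H1L (ad0Rep p M) q) ≤
      finrank (ZMod p) (fixedBy ((ad0Rep p M).comp (loc q)) ⊤) + finrank (ZMod p) k := by
  have hpp : p.Prime := Fact.out
  have hqp : p ≠ (q : ℕ) := by
    intro h
    rw [← h] at hq
    have := hpp.two_le
    have := Nat.le_of_dvd (by omega) hq
    omega
  have hqone : ((q : ℕ) : ZMod p) = 1 := by
    obtain ⟨d, hd⟩ := hq
    rw [show (q : ℕ) = p * d + 1 by have := q.2.two_le; omega]
    simp
  haveI : CharP k p := charP_of_injective_algebraMap (algebraMap (ZMod p) k).injective p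
  have h2 : (2 : k) ≠ 0 := fun h => hp
    ((Nat.prime_dvd_prime_iff_eq hpp Nat.prime_two).1
      ((CharP.cast_eq_zero_iff k p 2).1 (by simpa using h)))
  have hA := primeLocalPlace_liesOverPrime q
  set σl := (ad0Rep p M).comp (loc q)
  obtain ⟨τ, hτ⟩ := FLTA.RT.LocalGalois.exists_isTameGenerator (p := p) q.2 hpp hqp hA
  obtain ⟨T, hT⟩ := exists_loc_eq q (FLTA.Galois.inertiaSubgroupIn_le_decompositionSubgroup hτ.1)
  obtain ⟨F, hF⟩ := exists_loc_eq q hφ.mem_decompositionSubgroup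
  obtain ⟨π, hπ⟩ := exists_functional_commutant p h2 (M φ) (ne_smul_one_of_charpoly hdist)
  have hTI : T ∈ inertiaG q := by rw [mem_inertiaG, hT]; exact hτ.1
  have htriv : ∀ i ∈ inertiaG q, ∀ v : Ad0 k, σl i v = v := by
    intro i hi v
    apply Subtype.ext
    show M (loc q i) * v.1 * M (loc q i)⁻¹ = v.1
    have hinv : M (loc q i)⁻¹ = 1 := by
      rw [← map_inv (loc q)]
      exact hur _ ((inertiaG q).inv_mem hi)
    rw [hur i hi, hinv, one_mul, mul_one]
  -- what a cocycle does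
  have key : ∀ y : Z1 (lvlLoc q) σl,
      (σl F ((y : Gl q → Ad0 k) T) = (y : Gl q → Ad0 k) T) ∧
      ((y : Gl q → Ad0 k) F = 0 → (y : Gl q → Ad0 k) T = 0 → y = 0) := by
    intro y
    obtain ⟨hcoc, W, ⟨U, hU, rfl⟩, hconst⟩ := (mem_Z1 _ _).1 y.2
    set f := (y : Gl q → Ad0 k)
    have h1 : f 1 = 0 := by simpa using hcoc 1 1
    obtain ⟨N, hN, hNmem, hNU⟩ := exists_normal_level ⟨U, hU, le_rfl⟩
    haveI : Normal ℚ N := by
      haveI := FLTA.Galois.qbar_isGalois
      haveI : IsGalois ℚ N := (InfiniteGalois.normal_iff_isGalois N).1 hNmem.1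
      infer_instance
    obtain ⟨c, hc⟩ := IsAlgClosed.exists_pow_nat_eq ((q : ℕ) : Qb)
      (pow_pos hpp.pos (Module.finrank ℚ N))
    have hadd : ∀ g, ∀ i ∈ inertiaG q, f (g * i) = σl g (f i) + f g := fun g i _ => hcoc g i
    have hhom : ∀ i ∈ inertiaG q, ∀ j, f (i * j) = f i + f j := by
      intro i hi j
      rw [hcoc, htriv i hi, add_comm]
    have hpow : ∀ i ∈ inertiaG q, ∀ m : ℕ, f (i ^ m) = m • f i := by
      intro i hi m
      induction m with
      | zero => rw [pow_zero, h1, zero_smul]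
      | succ m ih => rw [pow_succ, hhom _ (pow_mem hi m), ih, succ_nsmul]
    have hkill : ∀ i ∈ inertiaG q, loc q i c = c → f i = 0 := by
      intro i hi hic
      obtain ⟨m, -, hpm, hm⟩ :=
        FLTA.RT.LocalGalois.exists_pow_mem_fixingSubgroup q.2 hA hpp hqp N hc hi hic
      have h := hconst 1 (i ^ m) (by rw [Subgroup.mem_comap, map_pow]; exact hNU hm)
      rw [one_mul, h1, hpow i hi, ← Nat.cast_smul_eq_nsmul (ZMod p)] at h
      exact (smul_eq_zero.1 h).resolve_left fun h' => hpm ((ZMod.natCast_eq_zero_iff _ _).1 h')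
    have hgen : ∀ i ∈ inertiaG q, ∀ j : ℕ, loc q i c = (τ ^ j) c → f i = j • f T := by
      intro i hi j hj
      have hi' : (T ^ j)⁻¹ * i ∈ inertiaG q := mul_mem (inv_mem (pow_mem hTI j)) hi
      have h := hkill _ hi' (by
        rw [map_mul, map_inv, map_pow, hT, AlgEquiv.mul_apply, hj, ← AlgEquiv.mul_apply,
          inv_mul_cancel, AlgEquiv.one_apply])
      have e := hhom _ (pow_mem hTI j) ((T ^ j)⁻¹ * i)
      rwa [mul_inv_cancel_left, h, add_zero, hpow T hTI] at e
    refine ⟨?_, fun hF0 hT0 => Subtype.ext (funext fun g => ?_)⟩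
    · have hi : F * T * F⁻¹ ∈ inertiaG q := by
        rw [mem_inertiaG, map_mul, map_mul, map_inv, hF, hT]
        exact FLTA.Galois.inertia_conj_mem hφ.mem_decompositionSubgroup hτ.1
      have hn' := FLTA.RT.LocalGalois.not_dvd_pow_of_ne q.2 hpp hqp (Module.finrank ℚ N)
      have hc0 : c ≠ 0 := fun h => by
        rw [h, zero_pow (pow_pos hpp.pos _).ne'] at hc
        exact q.2.ne_zero (by exact_mod_cast hc.symm)
      have hq0 : ((q : ℕ) : Qb) ≠ 0 := Nat.cast_ne_zero.2 q.2.ne_zero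
      have hζ := (hτ.isPrimitiveRoot q.2 hpp hc).pow_eq_one
      set c' := φ⁻¹ c with hc'def
      have hc' : c' ^ p ^ Module.finrank ℚ N = ((q : ℕ) : Qb) := by
        rw [hc'def, ← map_pow, hc, map_natCast]
      have hτc' : τ c' = τ c / c * c' := by
        have h1 : τ (c' / c) = c' / c :=
          FLTA.Galois.inertia_apply_rootOfUnity q.2 hA hτ.1 hn'
            (by rw [div_pow, hc, hc', div_self hq0])
        rw [map_div₀] at h1
        have hτc0 : τ c ≠ 0 := fun h => hc0 ((map_eq_zero_iff _ τ.injective).mp h)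
        field_simp at h1 ⊢
        linear_combination h1
      have he : loc q (F * T * F⁻¹) c = (τ ^ (q : ℕ)) c := by
        rw [hτ.pow_apply q.2 hA hpp hqp hc, map_mul, map_mul, map_inv, hF, hT,
          AlgEquiv.mul_apply, AlgEquiv.mul_apply, ← hc'def, hτc', map_mul,
          FLTA.Galois.frobenius_apply_rootOfUnity q.2 hA hφ hn' hζ, hc'def, ← AlgEquiv.mul_apply,
          mul_inv_cancel, AlgEquiv.one_apply]
      have h := hgen _ hi _ he
      rw [← Nat.cast_smul_eq_nsmul (ZMod p), hqone, one_smul] at h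
      have hFinv : σl F (f F⁻¹) + f F = 0 := by rw [← hcoc, mul_inv_cancel, h1]
      rw [hcoc, map_mul σl, Module.End.mul_apply, htriv T hTI, hcoc F T] at h
      calc σl F (f T) = σl F (f F⁻¹) + (σl F (f T) + f F) - (σl F (f F⁻¹) + f F) := by abel
        _ = f T := by rw [h, hFinv, sub_zero]
    · show f g = 0
      obtain ⟨j, ι, hι, he⟩ := FLTA.Galois.exists_pow_mul_inertia_eq q.2 hA hφ
        (loc_mem_decompositionSubgroup q g) N
      obtain ⟨i, hi⟩ := exists_loc_eq q (FLTA.Galois.inertiaSubgroupIn_le_decompositionSubgroup hι)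
      have hiI : i ∈ inertiaG q := by rw [mem_inertiaG, hi]; exact hι
      have hu : (F ^ j * i)⁻¹ * g ∈ U.comap (loc q) := by
        rw [Subgroup.mem_comap]
        apply hNU
        rw [IntermediateField.mem_fixingSubgroup_iff]
        intro x hx
        rw [map_mul, map_inv, map_mul, map_pow, hF, hi, AlgEquiv.mul_apply, he x hx,
          ← AlgEquiv.mul_apply, inv_mul_cancel, AlgEquiv.one_apply]
      have e := hconst (F ^ j * i) _ hu
      rw [mul_inv_cancel_left] at e
      have hFj : f (F ^ j) = 0 := by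
        clear e hu he
        induction j with
        | zero => rw [pow_zero, h1]
        | succ j ih => rw [pow_succ, hcoc, hF0, ih, map_zero, add_zero]
      obtain ⟨jj, -, hjj⟩ : ∃ jj, jj < p ^ Module.finrank ℚ N ∧ (τ c / c) ^ jj = loc q i c / c := by
        haveI : NeZero (p ^ Module.finrank ℚ N) := ⟨(pow_pos hpp.pos _).ne'⟩
        refine (hτ.isPrimitiveRoot q.2 hpp hc).eq_pow_of_pow_eq_one ?_
        rw [div_pow, ← map_pow, hc, map_natCast,
          div_self (Nat.cast_ne_zero.2 q.2.ne_zero)]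
      have hc0 : c ≠ 0 := fun h => by
        rw [h, zero_pow (pow_pos hpp.pos _).ne'] at hc
        exact q.2.ne_zero (by exact_mod_cast hc.symm)
      have hi0 : f i = 0 := by
        rw [hgen i hiI jj (by rw [hτ.pow_apply q.2 hA hpp hqp hc, hjj, div_mul_cancel₀ _ hc0]),
          hT0, smul_zero]
      rw [e, hcoc, hFj, hi0, map_zero, add_zero]
  -- count
  let E : Z1 (lvlLoc q) σl →ₗ[ZMod p] Ad0 k × k :=
    (((LinearMap.proj F).prod (π.comp (LinearMap.proj T))).comp (Z1 (lvlLoc q) σl).subtype)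
  have hE : Function.Injective E := by
    refine LinearMap.ker_eq_bot.1 (LinearMap.ker_eq_bot'.2 fun y hy => ?_)
    obtain ⟨h1, h2⟩ := Prod.ext_iff.1 hy
    have hfix := (key y).1
    refine (key y).2 h1 (hπ _ ?_ h2)
    have h3 : M φ * ((y : Gl q → Ad0 k) T).1 * M φ⁻¹ = ((y : Gl q → Ad0 k) T).1 := by
      have := congrArg Subtype.val hfix
      rwa [show (σl F ((y : Gl q → Ad0 k) T)).1 =
        M (loc q F) * ((y : Gl q → Ad0 k) T).1 * M (loc q F)⁻¹ from rfl, hF] at this
    conv_rhs => rw [← h3]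
    rw [mul_assoc _ (M φ⁻¹), ← map_mul, inv_mul_cancel, map_one, mul_one]
  haveI : Finite (Z1 (lvlLoc q) σl) := Finite.of_injective E hE
  haveI : Module.Finite (ZMod p) (Z1 (lvlLoc q) σl) := Module.Finite.of_finite
  haveI : Module.Finite (ZMod p) k := Module.Finite.of_finite
  have h5 : finrank (ZMod p) (Ad0 k) = 3 * finrank (ZMod p) k := by
    rw [← finrank_mul_finrank (ZMod p) k (Ad0 k), finrank_Ad0, mul_comm]
  have hZ : finrank (ZMod p) (Z1 (lvlLoc q) σl) ≤ 4 * finrank (ZMod p) k := by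
    refine (LinearMap.finrank_le_finrank_of_injective hE).trans ?_
    rw [Module.finrank_prod, h5]
    omega
  have hd0 : ∀ m, d0 σl m ∈ Z1 (lvlLoc q) σl := fun m => by
    refine (mem_Z1 _ _).2 ⟨fun g h => by simp [map_mul, map_sub], ?_⟩
    obtain ⟨V', hV', hfix⟩ := hM m
    exact ⟨_, ⟨V', hV', rfl⟩, fun g s hs => by
      simp only [d0_apply, σl, MonoidHom.comp_apply, map_mul, Module.End.mul_apply, hfix _ hs]⟩
  let D := (d0 σl).codRestrict (Z1 (lvlLoc q) σl) hd0
  have hDker : LinearMap.ker D = fixedBy σl ⊤ := by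
    ext m
    rw [LinearMap.mem_ker, mem_fixedBy]
    exact ⟨fun h s _ => sub_eq_zero.1 (congrFun (congrArg Subtype.val h) s),
      fun h => Subtype.ext (funext fun s => sub_eq_zero.2 (h s trivial))⟩
  have hDle : LinearMap.range D ≤ (B1 σl).comap (Z1 (lvlLoc q) σl).subtype := by
    rintro _ ⟨m, rfl⟩
    exact ⟨m, rfl⟩
  have h3 := LinearMap.finrank_range_add_finrank_ker (K := ZMod p) (V := Ad0 k)
    (V₂ := Z1 (lvlLoc q) σl) D
  rw [hDker, h5] at h3
  have h4 := Submodule.finrank_mono hDle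
  have h6 := LinearMap.finrank_range_add_finrank_ker (K := ZMod p) (V := Z1 (lvlLoc q) σl)
    (V₂ := H1c (lvlLoc q) σl) (H1cπ (lvlLoc q) σl)
  rw [Submodule.range_mkQ, finrank_top, Submodule.ker_mkQ] at h6
  change finrank (ZMod p) (H1c (lvlLoc q) σl) ≤
    finrank (ZMod p) (fixedBy σl ⊤) + finrank (ZMod p) k
  omega

end FLTA.TaylorWiles

end
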