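import Fermat.Agent.TaylorWiles.Setup
import Fermat.Agent.TaylorWiles.LocalAway
import Fermat.Agent.RT.LocalGalois
import Fermat.Agent.Deformation.AdicMatrix

/-!
# Deformations constant at a site, and invariants at a site
-/

set_option autoImplicit false

open ExtCitation Module Matrix
open scoped Pointwise

noncomputable section

namespace FLTA.TW

open FLTA.PT

variable {p : ℕ} [Fact p.Prime] {k : Type} [Field k] [Finite k] [Algebra (ZMod p) k]

omit [Finite k] in
theorem map_fst_mul_dual (A B : Matrix (Fin 2) (Fin 2) (DualNumber k)) :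
    (A * B).map TrivSqZeroExt.fst = A.map TrivSqZeroExt.fst * B.map TrivSqZeroExt.fst := by
  ext i j
  simp [Matrix.mul_apply, Fin.sum_univ_two]

omit [Finite k] in
theorem map_snd_mul_dual (A B : Matrix (Fin 2) (Fin 2) (DualNumber k)) :
    (A * B).map TrivSqZeroExt.snd = A.map TrivSqZeroExt.fst * B.map TrivSqZeroExt.snd +
      A.map TrivSqZeroExt.snd * B.map TrivSqZeroExt.fst := by
  ext i j
  simp [Matrix.mul_apply, Fin.sum_univ_two, TrivSqZeroExt.snd_mul]
  ring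

omit [Finite k] in
/-- A deformation with constant matrices in some basis on a set is given by a coboundary there. -/
theorem exists_coboundary_of_const (hp : p ≠ 2) (M : GQ →* Matrix (Fin 2) (Fin 2) k)
    (x : GQ → Ad0 k) (S : Set GQ) (U W : Matrix (Fin 2) (Fin 2) (DualNumber k)) (hWU : W * U = 1)
    (h : ∀ σ ∈ S, ∃ C : Matrix (Fin 2) (Fin 2) k,
      U * defoMat M x σ = C.map TrivSqZeroExt.inl * U) :
    ∃ v : Ad0 k, ∀ σ ∈ S, x σ = ad0Rep p M σ v - v := by
  have h2 := two_ne_zero_of p (k := k) hp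
  set U₀ := U.map TrivSqZeroExt.fst
  set U₁ := U.map TrivSqZeroExt.snd
  set W₀ := W.map TrivSqZeroExt.fst
  have hWU0 : W₀ * U₀ = 1 := by
    rw [← map_fst_mul_dual, hWU]
    exact Matrix.map_one _ (by simp) (by simp)
  have hUW0 : U₀ * W₀ = 1 := mul_eq_one_comm.mp hWU0
  set V := W₀ * U₁
  refine ⟨⟨V - (V.trace * (2 : k)⁻¹) • 1, ?_⟩, fun σ hσ => Subtype.ext ?_⟩
  · rw [LinearMap.mem_ker, Matrix.traceLinearMap_apply, Matrix.trace_sub, Matrix.trace_smul,
      Matrix.trace_one, Fintype.card_fin, smul_eq_mul]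
    field_simp
    push_cast
    ring
  obtain ⟨C, hC⟩ := h σ hσ
  have hf : (defoMat M x σ).map TrivSqZeroExt.fst = M σ := by
    ext i j; simp [defoMat]
  have hs : (defoMat M x σ).map TrivSqZeroExt.snd = (x σ).1 * M σ := by
    ext i j; simp [defoMat]
  have hC0 : (C.map (TrivSqZeroExt.inl : k → DualNumber k)).map TrivSqZeroExt.fst = C := by ext i j; simp
  have hC1 : (C.map (TrivSqZeroExt.inl : k → DualNumber k)).map TrivSqZeroExt.snd = (0 : Matrix (Fin 2) (Fin 2) k) := by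
    ext i j; simp
  have e0 := congrArg (fun X => X.map TrivSqZeroExt.fst) hC
  have e1 := congrArg (fun X => X.map TrivSqZeroExt.snd) hC
  simp only [map_fst_mul_dual, hf, hC0] at e0
  simp only [map_snd_mul_dual, hf, hs, hC0, hC1, zero_mul, add_zero] at e1
  have hCeq : C = U₀ * M σ * W₀ := by rw [e0, mul_assoc, hUW0, mul_one]
  have key : (x σ).1 * M σ = M σ * V - V * M σ := by
    have e2 := congrArg (fun X => W₀ * X) e1
    have hWU0' : W₀ * U.map TrivSqZeroExt.fst = 1 := hWU0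
    simp only [mul_add, hCeq] at e2
    rw [eq_sub_iff_add_eq]
    have hl : W₀ * (U₀ * ((x σ).1 * M σ)) = (x σ).1 * M σ := by rw [← mul_assoc, hWU0, one_mul]
    have hr : W₀ * (U₀ * M σ * W₀ * U₁) = M σ * V := by
      simp only [V, ← mul_assoc, hWU0, one_mul]
    calc (x σ).1 * M σ + V * M σ = W₀ * (U₀ * ((x σ).1 * M σ)) + W₀ * (U₁ * M σ) := by
          rw [hl]; simp only [V, mul_assoc]
      _ = W₀ * (U₀ * M σ * W₀ * U₁) := e2
      _ = M σ * V := hr
  have hMM : M σ * M σ⁻¹ = 1 := mul_inv_matrix M σ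
  have e3 := congrArg (fun X => X * M σ⁻¹) key
  simp only [mul_assoc, hMM, mul_one, sub_mul] at e3
  rw [Submodule.coe_sub, coe_ad0Rep_apply]
  simp only [mul_sub, sub_mul, Matrix.mul_smul, Matrix.smul_mul, mul_one, hMM, mul_assoc]
  rw [e3]
  abel

omit [Finite k] in
/-- Powers of an infinitesimal deformation of the identity. -/
theorem one_add_inr_pow (X : Matrix (Fin 2) (Fin 2) k) (n : ℕ) :
    (1 + X.map TrivSqZeroExt.inr : Matrix (Fin 2) (Fin 2) (DualNumber k)) ^ n =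
      1 + (n • X).map TrivSqZeroExt.inr := by
  induction n with
  | zero => ext i j <;> simp
  | succ n ih =>
    have h0 : (n • X).map TrivSqZeroExt.inr * X.map TrivSqZeroExt.inr =
        (0 : Matrix (Fin 2) (Fin 2) (DualNumber k)) := by
      ext i j <;> simp [Matrix.mul_apply]
    rw [pow_succ, ih, add_mul, mul_add, mul_add, one_mul, one_mul, mul_one, h0, add_zero,
      succ_nsmul]
    ext i j <;> simp <;> ring

variable {M : GQ →* Matrix (Fin 2) (Fin 2) k}

/-- A deformation which is constant at Frobenius and a tame generator is locally trivial. -/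
theorem locQ_eq_zero_of_site (hp : p ≠ 2) (s : Nat.Primes) (hsp : (s : ℕ) ≠ p)
    {A : ValuationSubring Qb} (hA : A.LiesOverPrime (s : ℕ))
    (hur : ∀ σ ∈ A.inertiaSubgroupIn ℚ, M σ = 1) {Φ τ : GQ} (hΦ : A.IsFrobeniusAt Φ (s : ℕ))
    (hτ : RT.LocalGalois.IsTameGenerator A (s : ℕ) p τ)
    (x : Z1 lvlQ (ad0Rep p M)) (ρ' : GaloisRepAdic (DualNumber k))
    (hx : IsDefoOf M (x : GQ → Ad0 k) ρ') (b : Module.Basis (Fin 2) (DualNumber k) ρ'.V)
    (hΦ0 : ∀ i j, TrivSqZeroExt.snd (LinearMap.toMatrix b b (ρ'.ρ Φ) i j) = 0)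
    (hτ0 : ∀ i j, TrivSqZeroExt.snd (LinearMap.toMatrix b b (ρ'.ρ τ) i j) = 0) :
    locQ (ad0Rep p M) s (clsQ (ad0Rep p M) x) = 0 := by
  have : Finite (DualNumber k) := inferInstanceAs (Finite (k × k))
  have : IsArtinianRing (DualNumber k) := isArtinian_of_finite
  have hpp : p.Prime := Fact.out
  have : CharP k p := charP_of_injective_algebraMap (algebraMap (ZMod p) k).injective p
  obtain ⟨bx, hbx⟩ := hx
  let N : GQ →* Matrix (Fin 2) (Fin 2) (DualNumber k) :=
    (LinearMap.toMatrixAlgEquiv b).toMonoidHom.comp ρ'.ρ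
  have hfin : ∃ L : IntermediateField ℚ Qb, FiniteDimensional ℚ L ∧
      ∀ σ : GQ, (∀ t ∈ L, σ t = t) → ρ'.ρ σ = 1 := by
    obtain ⟨L, hL, h1⟩ := Deformation.exists_level_eq_one_of_artinian ρ'
    refine ⟨L, hL, fun σ hσ => ?_⟩
    have h2 := h1 σ hσ
    rw [Deformation.toMat_apply, ← LinearMap.toMatrix_one (Deformation.repBasis ρ')] at h2
    exact (LinearMap.toMatrix _ _).injective h2
  have hpro : ∀ σ ∈ A.inertiaSubgroupIn ℚ, ∃ j : ℕ, ρ'.ρ σ ^ p ^ j = 1 := by
    intro σ hσ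
    refine ⟨1, (LinearMap.toMatrixAlgEquiv bx).injective ?_⟩
    rw [map_pow, map_one]
    show LinearMap.toMatrix bx bx (ρ'.ρ σ) ^ p ^ 1 = 1
    rw [hbx, defoMat, hur σ hσ, mul_one, Matrix.map_one _ (by simp) (by simp), one_add_inr_pow,
      pow_one]
    have : p • ((x : GQ → Ad0 k) σ).1 = 0 := by
      rw [← Nat.cast_smul_eq_nsmul k, CharP.cast_eq_zero, zero_smul]
    rw [this]
    ext i j <;> simp
  have hconst : ∀ σ ∈ A.decompositionSubgroup ℚ,
      ∃ C : Matrix (Fin 2) (Fin 2) k, N σ = C.map TrivSqZeroExt.inl := by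
    intro σ hσ
    obtain ⟨i, j, hij⟩ := RT.LocalGalois.exists_apply_eq_pow_mul_pow ρ'.ρ s.2 hA hpp hsp.symm hτ
      hfin hpro hΦ hσ
    have hN : ∀ g, N g = LinearMap.toMatrix b b (ρ'.ρ g) := fun g => rfl
    have h1 : ∀ g, (∀ i j, TrivSqZeroExt.snd (LinearMap.toMatrix b b (ρ'.ρ g) i j) = 0) →
        ((N g).map TrivSqZeroExt.fst).map TrivSqZeroExt.inl = N g := fun g hg => by
      ext a c
      · simp
      · simp [hN, hg a c]
    refine ⟨(N Φ).map TrivSqZeroExt.fst ^ i * (N τ).map TrivSqZeroExt.fst ^ j, ?_⟩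
    let L := (TrivSqZeroExt.inlHom k k).mapMatrix (m := Fin 2)
    have e : N σ = N Φ ^ i * N τ ^ j := by
      have := congrArg (LinearMap.toMatrixAlgEquiv b) hij
      simpa [N, map_mul, map_pow] using this
    rw [e, ← h1 Φ hΦ0, ← h1 τ hτ0]
    exact (by rw [map_mul, map_pow, map_pow]; rfl :
      L ((N Φ).map TrivSqZeroExt.fst ^ i * (N τ).map TrivSqZeroExt.fst ^ j) = _).symm
  -- a coboundary on the decomposition group of `A`
  obtain ⟨v, hv⟩ := exists_coboundary_of_const hp M (x : GQ → Ad0 k) (A.decompositionSubgroup ℚ)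
    (b.toMatrix bx) (bx.toMatrix b) (Module.Basis.toMatrix_mul_toMatrix_flip bx b) fun σ hσ => by
    obtain ⟨C, hC⟩ := hconst σ hσ
    refine ⟨C, ?_⟩
    rw [← hC, ← hbx σ]
    show b.toMatrix bx * LinearMap.toMatrix bx bx (ρ'.ρ σ) =
      LinearMap.toMatrix b b (ρ'.ρ σ) * b.toMatrix bx
    rw [basis_toMatrix_mul_linearMap_toMatrix, linearMap_toMatrix_mul_basis_toMatrix]
  -- transfer to the standard place
  obtain ⟨γ, hγ⟩ := FLTA.Galois.exists_smul_eq s.2 (primeLocalPlace_liesOverPrime s) hA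
  obtain ⟨hcoc, -⟩ := (mem_Z1 _ _).1 x.2
  set f := (x : GQ → Ad0 k) with hfdef
  have hγinv : ∀ w, (ad0Rep p M) γ⁻¹ ((ad0Rep p M) γ w) = w := fun w => by
    rw [← Module.End.mul_apply, ← map_mul, inv_mul_cancel, map_one, Module.End.one_apply]
  have h1 : f 1 = 0 := by simpa using hcoc 1 1
  refine (H1cπ_eq_zero (lvlLoc s) _ (f := ⟨pp1 (loc s) LinearMap.id f,
    pp1_mem_Z1 (lvlQ_le_lvlLoc s) (fun _ _ => rfl) x.2⟩)).2
      ((mem_B1 _).2 ⟨(ad0Rep p M) γ⁻¹ v + (ad0Rep p M) γ⁻¹ (f γ), funext fun t => ?_⟩)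
  show (ad0Rep p M) (loc s t) _ - _ = f (loc s t)
  set σ := loc s t
  have hσA : γ * σ * γ⁻¹ ∈ A.decompositionSubgroup ℚ := by
    show (γ * σ * γ⁻¹) • A = A
    rw [← hγ, ← mul_smul, inv_mul_cancel_right, mul_smul, loc_smul_primeLocalPlace]
  have h0 := hv _ hσA
  have hfinv : (ad0Rep p M) γ (f γ⁻¹) = -f γ := by
    have := hcoc γ γ⁻¹
    rw [mul_inv_cancel, h1] at this
    exact eq_neg_of_add_eq_zero_left this.symm
  have e1 : f (γ * σ * γ⁻¹) =
      (ad0Rep p M) γ ((ad0Rep p M) σ (f γ⁻¹)) + (ad0Rep p M) γ (f σ) + f γ := by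
    rw [hcoc, hcoc, map_mul (ad0Rep p M) γ σ, Module.End.mul_apply, add_assoc]
  rw [e1, map_mul (ad0Rep p M), map_mul (ad0Rep p M), Module.End.mul_apply,
    Module.End.mul_apply] at h0
  have e2 : f γ⁻¹ = -(ad0Rep p M) γ⁻¹ (f γ) := by rw [← map_neg, ← hfinv, hγinv]
  rw [e2, map_neg ((ad0Rep p M) σ), map_neg ((ad0Rep p M) γ)] at h0
  have e3 := congrArg ((ad0Rep p M) γ⁻¹) h0
  simp only [map_add, map_sub, map_neg, hγinv] at e3
  simp only [map_add]
  linear_combination (norm := abel) -e3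

/-- Lower bounds for the invariants at a site. -/
theorem mul_le_finrank_fixedBy_site (hp : p ≠ 2) (s : Nat.Primes) {A : ValuationSubring Qb}
    (hA : A.LiesOverPrime (s : ℕ))
    (hfin : GaloisFactorsThroughFiniteLevel M)
    (hur : ∀ B : ValuationSubring Qb, B.LiesOverPrime (s : ℕ) →
      ∀ σ ∈ B.inertiaSubgroupIn ℚ, M σ = 1)
    {Φ : GQ} (hΦ : A.IsFrobeniusAt Φ (s : ℕ)) {h : ℕ}
    (hh : h ≤ 1 ∨ h ≤ 3 ∧ ∃ c : k, M Φ = c • 1) :
    finrank (ZMod p) k * h ≤ finrank (ZMod p) (fixedBy ((ad0Rep p M).comp (loc s)) ⊤) := by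
  have h2 := two_ne_zero_of p (k := k) hp
  obtain ⟨γ, hγ⟩ := FLTA.Galois.exists_smul_eq s.2 (primeLocalPlace_liesOverPrime s) hA
  set Φ₀ := γ⁻¹ * Φ * γ
  have hΦ₀ : (primeLocalPlace s).IsFrobeniusAt Φ₀ (s : ℕ) := by
    have h1 := FLTA.Galois.isFrobeniusAt_smul γ⁻¹ hΦ
    rw [inv_inv, ← hγ, inv_smul_smul] at h1
    exact h1
  obtain ⟨F, hF, hF1⟩ := hfin
  -- every local element acts as a power of Frobenius
  have hpow : ∀ t : Gl s, ∃ i : ℕ, M (loc s t) = M Φ₀ ^ i := by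
    intro t
    obtain ⟨i, ι, hι, he⟩ := FLTA.Galois.exists_pow_mul_inertia_eq s.2
      (primeLocalPlace_liesOverPrime s) hΦ₀ (loc_mem_decompositionSubgroup s t) F
    refine ⟨i, ?_⟩
    have h1 : M ((Φ₀ ^ i * ι)⁻¹ * loc s t) = 1 := hF1 _ fun z hz => by
      rw [AlgEquiv.mul_apply, he z hz, ← AlgEquiv.mul_apply, inv_mul_cancel, AlgEquiv.one_apply]
    calc M (loc s t) = M (Φ₀ ^ i * ι * ((Φ₀ ^ i * ι)⁻¹ * loc s t)) := by rw [mul_inv_cancel_left]
      _ = M Φ₀ ^ i := by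
        rw [map_mul, h1, mul_one, map_mul, map_pow,
          hur _ (primeLocalPlace_liesOverPrime s) ι hι, mul_one]
  have hfix : ∀ X : Ad0 k, Commute (M Φ₀) X.1 →
      X ∈ fixedBy ((ad0Rep p M).comp (loc s)) ⊤ := by
    intro X hX t _
    refine Subtype.ext ?_
    show M (loc s t) * X.1 * M (loc s t)⁻¹ = X.1
    obtain ⟨i, hi⟩ := hpow t
    have hc : M (loc s t) * X.1 = X.1 * M (loc s t) := by rw [hi]; exact (hX.pow_left i).eq
    rw [hc, mul_assoc, mul_inv_matrix, mul_one]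
  have hscal : ∀ c : k, M Φ₀ = c • 1 →
      fixedBy ((ad0Rep p M).comp (loc s)) ⊤ = ⊤ := fun c hc =>
    eq_top_iff.mpr fun X _ => hfix X (by rw [hc]; exact (Commute.one_left _).smul_left c)
  have : Module.Finite (ZMod p) (Ad0 k) := Module.Finite.of_finite
  rcases hh with hh | ⟨hh, c, hc⟩
  swap
  · rw [hscal c, finrank_top, finrank_ad0 p]
    · exact Nat.mul_le_mul_left _ hh
    · have hinv : M γ⁻¹ * M γ = 1 := by rw [← map_mul, inv_mul_cancel, map_one]
      rw [map_mul, map_mul, hc, Matrix.mul_smul, mul_one, Matrix.smul_mul, hinv]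
  refine (Nat.mul_le_mul_left _ hh).trans ?_
  rw [mul_one]
  -- a nonzero line of invariants
  obtain ⟨J, hJ0, hJ⟩ : ∃ J : Ad0 k, J ≠ 0 ∧ Commute (M Φ₀) J.1 := by
    set J := M Φ₀ - ((M Φ₀).trace * (2 : k)⁻¹) • 1 with hJdef
    by_cases hJ0 : J = 0
    · refine ⟨⟨!![1, 0; 0, -1], by simp [Matrix.trace_fin_two]⟩, fun h => ?_, ?_⟩
      · simpa using congrFun₂ (congrArg Subtype.val h) 0 0
      · rw [sub_eq_zero.mp hJ0]
        exact (Commute.one_left _).smul_left _
    · refine ⟨⟨J, ?_⟩, fun h => hJ0 (congrArg Subtype.val h), ?_⟩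
      · rw [LinearMap.mem_ker, Matrix.traceLinearMap_apply, hJdef, Matrix.trace_sub,
          Matrix.trace_smul, Matrix.trace_one, Fintype.card_fin, smul_eq_mul]
        field_simp
        push_cast
        ring
      · exact (Commute.refl _).sub_right ((Commute.one_right _).smul_right _)
  let line : k →ₗ[ZMod p] fixedBy ((ad0Rep p M).comp (loc s)) ⊤ :=
    { toFun := fun a => ⟨a • J, hfix _ (hJ.smul_right a)⟩
      map_add' := fun a a' => Subtype.ext (add_smul a a' J)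
      map_smul' := fun c a => Subtype.ext (by
        show (c • a) • J = c • (a • J)
        rw [← ZMod.natCast_zmod_val c, Nat.cast_smul_eq_nsmul, Nat.cast_smul_eq_nsmul,
          smul_assoc]) }
  refine LinearMap.finrank_le_finrank_of_injective (f := line) fun a a' h => ?_
  exact smul_left_injective k hJ0 (congrArg Subtype.val h)

end FLTA.TW

end
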