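import Fermat.Agent.PoitouTate.Setup
import Fermat.Agent.PoitouTate.Cup
import Fermat.Agent.PoitouTate.Units
import Fermat.Prelude.Def_GaloisRep_Adic
import Fermat.Prelude.Def_FLTPrelim_Ramification

/-!
# Taylor-Wiles primes: adjoint representations, local conditions, Selmer groups

All cohomology is taken over `ZMod p`.
-/

set_option autoImplicit false

open ExtCitation Module

noncomputable section

namespace FLTA.TW

open FLTA.PT

/-- The inertia subgroup of the local group. -/
def inertiaG (q : Nat.Primes) : Subgroup (Gl q) :=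
  ((primeLocalPlace q).inertiaSubgroupIn ℚ).comap (loc q)

theorem mem_inertiaG {q : Nat.Primes} {s : Gl q} :
    s ∈ inertiaG q ↔ loc q s ∈ (primeLocalPlace q).inertiaSubgroupIn ℚ := Iff.rfl

section Adjoint

variable (p : ℕ) [Fact p.Prime] (k : Type) [Field k]

/-- Trace zero matrices. -/
abbrev Ad0 : Submodule k (Matrix (Fin 2) (Fin 2) k) :=
  LinearMap.ker (Matrix.traceLinearMap (Fin 2) k k)

variable {k} [Algebra (ZMod p) k] (M : GQ →* Matrix (Fin 2) (Fin 2) k)

/-- The adjoint representation on trace zero matrices. -/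
def ad0Rep : Representation (ZMod p) GQ (Ad0 k) where
  toFun g :=
    { toFun := fun X => ⟨M g * X.1 * M g⁻¹, by
        rw [LinearMap.mem_ker, Matrix.traceLinearMap_apply, Matrix.trace_mul_cycle, ← map_mul,
          inv_mul_cancel, map_one, one_mul]
        exact X.2⟩
      map_add' := fun X Y => Subtype.ext (by simp [mul_add, add_mul])
      map_smul' := fun c X => Subtype.ext (by simp) }
  map_one' := LinearMap.ext fun X => Subtype.ext (by simp)
  map_mul' g h := LinearMap.ext fun X => Subtype.ext (by simp [mul_assoc])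

@[simp] theorem coe_ad0Rep_apply (g : GQ) (X : Ad0 k) :
    (ad0Rep p M g X : Matrix (Fin 2) (Fin 2) k) = M g * X.1 * M g⁻¹ := rfl

/-- The cyclotomic twist of the adjoint representation. -/
def ad0Dual : Representation (ZMod p) GQ (Ad0 k) where
  toFun g := (cycloChar p g : ZMod p) • ad0Rep p M g
  map_one' := by simp
  map_mul' g h := LinearMap.ext fun X => by
    simp only [map_mul, Units.val_mul, Module.End.mul_apply, LinearMap.smul_apply, map_smul,
      smul_smul]
    rw [mul_comm]

@[simp] theorem ad0Dual_apply (g : GQ) (X : Ad0 k) :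
    ad0Dual p M g X = (cycloChar p g : ZMod p) • ad0Rep p M g X := rfl

/-- `(X, Y) ↦ Tr_{k/𝔽_p} (tr (X Y))`. -/
def ad0Pairing : Pairing (cycloChar p) (ad0Rep p M) (ad0Dual p M) where
  e := LinearMap.mk₂ (ZMod p)
    (fun X Y : Ad0 k => Algebra.trace (ZMod p) k (X.1 * Y.1).trace)
    (fun X X' Y => by simp [add_mul])
    (fun c X Y => by simp [Matrix.trace_smul])
    (fun X Y Y' => by simp [mul_add])
    (fun c X Y => by simp [Matrix.trace_smul])
  equivariant g X Y := by
    simp only [LinearMap.mk₂_apply, ad0Dual_apply, Submodule.coe_smul_of_tower, coe_ad0Rep_apply,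
      Matrix.mul_smul, Matrix.trace_smul, map_smul, smul_eq_mul]
    congr 2
    have h : M g⁻¹ * M g = 1 := by rw [← map_mul, inv_mul_cancel, map_one]
    calc (M g * X.1 * M g⁻¹ * (M g * Y.1 * M g⁻¹)).trace
        = (M g * X.1 * (M g⁻¹ * M g) * Y.1 * M g⁻¹).trace := by simp only [mul_assoc]
      _ = (M g * (X.1 * Y.1) * M g⁻¹).trace := by rw [h, mul_one, mul_assoc (M g)]
      _ = (X.1 * Y.1).trace := by rw [Matrix.trace_mul_cycle, h, one_mul]

end Adjoint

section Selmer

variable {p : ℕ} [Fact p.Prime] {V : Type} [AddCommGroup V] [Module (ZMod p) V]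
variable (ρ : Representation (ZMod p) GQ V)

/-- Classes of all of `G_ℚ`. -/
abbrev H1Q : Type := H1c lvlQ ρ

/-- Local classes at `q`. -/
abbrev H1L (q : Nat.Primes) : Type := H1c (lvlLoc q) (ρ.comp (loc q))

/-- Localisation of a class of `G_ℚ`. -/
def locQ (q : Nat.Primes) : H1Q ρ →ₗ[ZMod p] H1L ρ q :=
  map1 (σ := ρ.comp (loc q)) (φ := LinearMap.id) (lvlQ_le_lvlLoc q) (fun _ _ => rfl)

/-- The class of a cocycle of `G_ℚ`. -/
abbrev clsQ : Z1 lvlQ ρ →ₗ[ZMod p] H1Q ρ := H1cπ lvlQ ρ

/-- A family of local conditions. -/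
abbrev Cond : Type := ∀ q : Nat.Primes, Submodule (ZMod p) (H1L ρ q)

/-- Classes with a representative vanishing on inertia. -/
def unrCond (q : Nat.Primes) : Submodule (ZMod p) (H1L ρ q) :=
  ((⨅ s : inertiaG q, LinearMap.ker ((LinearMap.proj (s : Gl q)).comp
    (Z1 (lvlLoc q) (ρ.comp (loc q))).subtype))).map (H1cπ (lvlLoc q) (ρ.comp (loc q)))

open Classical in
/-- The condition `L` on `S`, unramified elsewhere. -/
def condAt (S : Finset Nat.Primes) (L : Cond ρ) : Cond ρ :=
  fun q => if q ∈ S then L q else unrCond ρ q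

/-- The Selmer group of a family of conditions. -/
def selmer (L : Cond ρ) : Submodule (ZMod p) (H1Q ρ) :=
  ⨅ q : Nat.Primes, (L q).comap (locQ ρ q)

theorem mem_selmer {L : Cond ρ} {c : H1Q ρ} : c ∈ selmer ρ L ↔ ∀ q, locQ ρ q c ∈ L q := by
  simp [selmer, Submodule.mem_iInf]

variable {W : Type} [AddCommGroup W] [Module (ZMod p) W] {ρ}
variable {σ : Representation (ZMod p) GQ W} (P : Pairing (cycloChar p) ρ σ)

/-- Local cocycles orthogonal to every class in `L`. -/
def orthZ (q : Nat.Primes) (L : Submodule (ZMod p) (H1L ρ q)) :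
    Submodule (ZMod p) (Z1 (lvlLoc q) (σ.comp (loc q))) where
  carrier := {y | ∀ x : Z1 (lvlLoc q) (ρ.comp (loc q)),
    H1cπ (lvlLoc q) (ρ.comp (loc q)) x ∈ L →
    cup11 (P.comp (loc q)) (x : Gl q → V) (y : Gl q → W) ∈ B2 (lvlLoc q) (muLoc p q)}
  add_mem' {a b} ha hb x hx := by
    have h := Submodule.add_mem _ (ha x hx) (hb x hx)
    convert h using 1
    funext g
    simp [cup11]
  zero_mem' x _ := by
    convert Submodule.zero_mem (B2 (lvlLoc q) (muLoc p q)) using 1
    funext g
    simp [cup11]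
  smul_mem' c y hy x hx := by
    have h := Submodule.smul_mem _ c (hy x hx)
    convert h using 1
    funext g
    simp [cup11]

/-- The orthogonal family of conditions. -/
def orth (L : Cond ρ) : Cond σ :=
  fun q => (orthZ P q (L q)).map (H1cπ (lvlLoc q) (σ.comp (loc q)))

end Selmer

section Deformation

variable {k : Type} [Field k]

/-- The matrices of the first order deformation given by `x`. -/
def defoMat (M : GQ →* Matrix (Fin 2) (Fin 2) k) (x : GQ → Ad0 k) (g : GQ) :
    Matrix (Fin 2) (Fin 2) (DualNumber k) :=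
  (M g).map TrivSqZeroExt.inl + ((x g).1 * M g).map TrivSqZeroExt.inr

/-- `ρ` is the first order deformation of `M` given by `x`. -/
def IsDefoOf (M : GQ →* Matrix (Fin 2) (Fin 2) k) (x : GQ → Ad0 k)
    (ρ : GaloisRepAdic (DualNumber k)) : Prop :=
  ∃ b : Module.Basis (Fin 2) (DualNumber k) ρ.V,
    ∀ g : GQ, LinearMap.toMatrix b b (ρ.ρ g) = defoMat M x g

end Deformation

end FLTA.TW

end
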