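import Fermat.Agent.TaylorWiles.FlatMetric
import Fermat.Agent.HeckeDatum.FlatModelBasic
import Fermat.Agent.PoitouTate.Units
import Mathlib.LinearAlgebra.Matrix.NonsingularInverse

/-!
# The local integral model of a finite flat Galois module
-/

set_option autoImplicit false

open scoped NNReal TensorProduct

noncomputable section

namespace FLTA.TaylorWiles.Flat

open FLTA.HeckeDatum (GalQ FlatModel HasFlatModel)
open FLTA.PT (Qb Gl Ql loc iota locAut iota_loc)

variable (q : Nat.Primes)

local instance factPrime : Fact (q : ℕ).Prime := ⟨q.2⟩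

/-- `ℤ₍q₎` lands in the unit ball. -/
theorem nnnorm_ratCast_le_one (r : FLTA.HeckeDatum.Flat.Rp (q : ℕ)) :
    ‖((r : ℚ) : Ql q)‖₊ ≤ 1 := by
  have h : ¬ (q : ℕ) ∣ (r : ℚ).den := fun hd =>
    q.2.one_lt.ne' (Nat.eq_one_of_dvd_coprimes r.2 hd dvd_rfl)
  rw [← NNReal.coe_le_coe, coe_nnnorm, NNReal.coe_one,
    ← map_ratCast (algebraMap ℚ_[(q : ℕ)] (Ql q)), PadicAlgCl.norm_extends]
  exact Padic.norm_rat_le_one h

/-- An element integral over `ℤ₍q₎` lands in the unit ball. -/
theorem nnnorm_iota_le_one {x : Qb} (hx : IsIntegral (FLTA.HeckeDatum.Flat.Rp (q : ℕ)) x) :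
    ‖iota q x‖₊ ≤ 1 := by
  obtain ⟨P, hP, hroot⟩ := hx
  by_contra hlt
  rw [not_le] at hlt
  set y := iota q x with hy
  have hsum : y ^ P.natDegree = -∑ k ∈ Finset.range P.natDegree,
      ((((P.coeff k : FLTA.HeckeDatum.Flat.Rp (q : ℕ)) : ℚ)) : Ql q) * y ^ k := by
    rw [Polynomial.eval₂_eq_sum_range, Finset.sum_range_succ, hP.coeff_natDegree, map_one,
      one_mul] at hroot
    have h := congrArg (iota q) hroot
    rw [map_add, map_zero, map_sum, map_pow, add_comm] at h
    rw [eq_neg_iff_add_eq_zero, ← h]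
    congr 1
    refine Finset.sum_congr rfl fun k _ => ?_
    rw [map_mul, map_pow]
    congr 1
    exact (map_ratCast (iota q) _).symm
  have hle : ‖y ^ P.natDegree‖₊ ≤ ‖y‖₊ ^ (P.natDegree - 1) := by
    rw [hsum, nnnorm_neg]
    refine IsUltrametricDist.nnnorm_sum_le_of_forall_le fun k hk => ?_
    rw [nnnorm_mul, nnnorm_pow]
    calc _ ≤ 1 * ‖y‖₊ ^ k := by gcongr; exact nnnorm_ratCast_le_one q _
      _ ≤ ‖y‖₊ ^ (P.natDegree - 1) := by
        rw [one_mul]
        exact pow_le_pow_right₀ hlt.le (by have := Finset.mem_range.mp hk; omega)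
  rw [nnnorm_pow] at hle
  rcases Nat.eq_zero_or_pos P.natDegree with h0 | h0
  · rw [h0, pow_zero, Finset.range_zero, Finset.sum_empty, neg_zero] at hsum
    exact one_ne_zero hsum
  · exact absurd hle (not_le.mpr (pow_lt_pow_right₀ hlt (by omega)))

/-- Galois acts on `Ql` by isometries. -/
theorem nnnorm_locAut (τ : Gl q) (x : Ql q) : ‖locAut q τ x‖₊ = ‖x‖₊ :=
  NNReal.eq (spectralNorm_eq_of_equiv (locAut q τ) x).symm

/-- A finite Galois module with a flat model at `q` has an integral model at the place of `q`,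
equivariant for the local Galois group. -/
theorem exists_intModel {P : Type} [AddCommGroup P] [Finite P] {act : GalQ →* AddMonoid.End P}
    (h : HasFlatModel (q : ℕ) P act) :
    ∃ M : IntModel (Ql q) P,
      M.Equivariant (fun τ : Gl q => act (loc q τ))
        (fun τ : Gl q => (locAut q τ : Ql q →+* Ql q)) := by
  classical
  obtain ⟨F⟩ := h
  haveI := Fintype.ofFinite P
  haveI := F.finite_O
  haveI := FLTA.HeckeDatum.Flat.free F
  let b := FLTA.HeckeDatum.Flat.basis F
  let qb := FLTA.HeckeDatum.Flat.qBasis F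
  let ι := Module.Free.ChooseBasisIndex (FLTA.HeckeDatum.Flat.Rp (q : ℕ)) F.O
  let e : ι → P → Ql q := fun i x => iota q ((b i : P → Qb) x)
  have hspan : Submodule.span (Ql q) (Set.range e) = ⊤ := by
    rw [eq_top_iff]
    intro g _
    have hsingle : ∀ x : P, (Pi.single x (1 : Ql q) : P → Ql q) ∈
        Submodule.span (Ql q) (Set.range e) := by
      intro x
      rw [Submodule.mem_span_range_iff_exists_fun]
      refine ⟨fun i => iota q (qb.repr (Pi.single x 1) i), funext fun y => ?_⟩
      have h := congrFun (qb.sum_repr (Pi.single x (1 : Qb))) y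
      simp only [Finset.sum_apply, Pi.smul_apply, smul_eq_mul] at h ⊢
      have hi : (Pi.single x (1 : Ql q) : P → Ql q) y = iota q ((Pi.single x (1 : Qb) : P → Qb) y) := by
        by_cases hy : y = x
        · subst hy; simp
        · simp [Pi.single_eq_of_ne hy]
      rw [hi, ← h, map_sum]
      refine Finset.sum_congr rfl fun i _ => ?_
      rw [map_mul]
      exact congrArg _ (congrArg (iota q) (congrFun (FLTA.HeckeDatum.Flat.qBasis_apply F i) y).symm)
    rw [← Finset.univ_sum_single g]
    refine Submodule.sum_mem _ fun x _ => ?_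
    have : (Pi.single x (g x) : P → Ql q) = g x • Pi.single x 1 := by
      funext y
      by_cases hy : y = x
      · subst hy; simp
      · simp [Pi.single_eq_of_ne hy]
    rw [this]
    exact Submodule.smul_mem _ _ (hsingle x)
  have hcard : Fintype.card ι = Module.finrank (Ql q) (P → Ql q) := by
    rw [← Module.finrank_eq_card_basis qb |>.trans rfl, Module.finrank_pi, Module.finrank_pi]
  have hli : LinearIndependent (Ql q) e :=
    linearIndependent_of_top_le_span_of_card_eq_finrank hspan.ge hcard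
  refine ⟨{ ι := ι, e := e, norm_le_one := fun i x => ?_, li := hli, span_top := hspan,
            comul := fun i => ?_ }, fun τ i x => ?_⟩
  · exact nnnorm_iota_le_one q (FLTA.HeckeDatum.Flat.isIntegral_apply F (b i).2 x)
  · obtain ⟨t, ht⟩ := (FLTA.HeckeDatum.Flat.mem_prodSpan_iff F).mp (F.comul _ (b i).2)
    refine ⟨fun j l => ((((b.tensorProduct b).repr t (j, l) :
      FLTA.HeckeDatum.Flat.Rp (q : ℕ)) : ℚ) : Ql q), fun j l => nnnorm_ratCast_le_one q _,
      fun x y => ?_⟩
    have h1 := congrFun ht (x, y)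
    rw [← (b.tensorProduct b).sum_repr t, map_sum, Finset.sum_apply, Fintype.sum_prod_type] at h1
    show iota q ((b i : P → Qb) (x + y)) = _
    rw [← h1, map_sum]
    refine Finset.sum_congr rfl fun j _ => ?_
    rw [map_sum]
    refine Finset.sum_congr rfl fun l _ => ?_
    rw [Module.Basis.tensorProduct_apply, map_smul, Pi.smul_apply, FLTA.HeckeDatum.Flat.mulMap₂,
      FLTA.HeckeDatum.Flat.mulMap_tmul]
    show iota q ((((b.tensorProduct b).repr t (j, l) : FLTA.HeckeDatum.Flat.Rp (q : ℕ)) : ℚ) •
      ((b j : P → Qb) x * (b l : P → Qb) y)) = _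
    rw [Algebra.smul_def, map_mul, eq_ratCast, map_ratCast, map_mul]
  · show iota q ((b i : P → Qb) (act (loc q τ) x)) = locAut q τ (iota q ((b i : P → Qb) x))
    rw [← iota_loc]
    exact congrArg _ (F.equivariant _ (b i).2 _ x)

end FLTA.TaylorWiles.Flat

end
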