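import Fermat.Agent.TaylorWiles.FlatMetric
import Mathlib.LinearAlgebra.Pi
import Mathlib.LinearAlgebra.FiniteDimensional.Lemmas

/-!
# Quotients of integral models
-/

set_option autoImplicit false

open scoped NNReal

noncomputable section

namespace FLTA.TaylorWiles.Flat

variable {Ω : Type} [NormedField Ω] [IsUltrametricDist Ω]

/-- A subspace of coordinate vectors has an integral echelon basis. -/
theorem exists_echelon {ι : Type} [Fintype ι] (W : Submodule Ω (ι → Ω)) :
    ∃ (J : Type) (_ : Fintype J) (w : J → ι → Ω) (piv : J → ι),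
      (∀ j, w j ∈ W) ∧ (∀ j i, ‖w j i‖₊ ≤ 1) ∧ (∀ j, w j (piv j) = 1) ∧
        (∀ j l, j ≠ l → w j (piv l) = 0) ∧
          ∀ u ∈ W, (∀ j, u (piv j) = 0) → u = 0 := by
  classical
  suffices H : ∀ (n : ℕ) (W : Submodule Ω (ι → Ω)), Module.finrank Ω W ≤ n →
      ∃ (J : Type) (_ : Fintype J) (w : J → ι → Ω) (piv : J → ι),
      (∀ j, w j ∈ W) ∧ (∀ j i, ‖w j i‖₊ ≤ 1) ∧ (∀ j, w j (piv j) = 1) ∧
        (∀ j l, j ≠ l → w j (piv l) = 0) ∧
          ∀ u ∈ W, (∀ j, u (piv j) = 0) → u = 0 from H _ W le_rfl
  intro n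
  induction n with
  | zero =>
    intro W hW
    refine ⟨Empty, inferInstance, fun j => j.elim, fun j => j.elim, fun j => j.elim,
      fun j => j.elim, fun j => j.elim, fun j => j.elim, fun u hu _ => ?_⟩
    have := Submodule.finrank_eq_zero.mp (Nat.le_zero.mp hW)
    exact (Submodule.mem_bot Ω).mp (this ▸ hu)
  | succ n ih =>
    intro W hW
    by_cases hbot : W = ⊥
    · refine ⟨Empty, inferInstance, fun j => j.elim, fun j => j.elim, fun j => j.elim,
        fun j => j.elim, fun j => j.elim, fun j => j.elim, fun u hu _ => ?_⟩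
      exact (Submodule.mem_bot Ω).mp (hbot ▸ hu)
    obtain ⟨u₀, hu₀, hne⟩ := W.ne_bot_iff.mp hbot
    obtain ⟨i₁, hi₁⟩ := Function.ne_iff.mp hne
    obtain ⟨i₀, -, hmax⟩ := Finset.exists_max_image Finset.univ (fun i => ‖u₀ i‖₊)
      ⟨i₁, Finset.mem_univ _⟩
    have hi₀ : u₀ i₀ ≠ 0 := by
      intro h0
      have := hmax i₁ (Finset.mem_univ _)
      rw [h0, nnnorm_zero, le_zero_iff, nnnorm_eq_zero] at this
      exact hi₁ this
    let v := (u₀ i₀)⁻¹ • u₀
    have hv : v ∈ W := W.smul_mem _ hu₀
    have hv1 : v i₀ = 1 := inv_mul_cancel₀ hi₀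
    have hvle : ∀ i, ‖v i‖₊ ≤ 1 := by
      intro i
      simp only [v, Pi.smul_apply, smul_eq_mul, nnnorm_mul, nnnorm_inv]
      rw [inv_mul_le_iff₀ (pos_iff_ne_zero.mpr (nnnorm_ne_zero_iff.mpr hi₀)), mul_one]
      exact hmax i (Finset.mem_univ _)
    let W' : Submodule Ω (ι → Ω) := W ⊓ LinearMap.ker (LinearMap.proj i₀)
    have hlt : Module.finrank Ω W' < Module.finrank Ω W := by
      refine Submodule.finrank_lt_finrank_of_lt (lt_of_le_of_ne inf_le_left fun h => ?_)
      have : v ∈ W' := h ▸ hv
      have h0 : v i₀ = 0 := this.2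
      exact one_ne_zero (hv1.symm.trans h0)
    obtain ⟨J, hJ, w, piv, hwW, hwle, hw1, hw0, hzero⟩ := ih W' (by omega)
    let v' := v - ∑ j, v (piv j) • w j
    have hv'W : v' ∈ W :=
      W.sub_mem hv (W.sum_mem fun j _ => W.smul_mem _ (hwW j).1)
    have hv'app : ∀ i, v' i = v i - ∑ j, v (piv j) * w j i := fun i => by
      simp [v', Finset.sum_apply]
    have hv'1 : v' i₀ = 1 := by
      rw [hv'app, Finset.sum_eq_zero, sub_zero, hv1]
      intro j _
      have : w j i₀ = 0 := (hwW j).2
      rw [this, mul_zero]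
    have hv'0 : ∀ l, v' (piv l) = 0 := by
      intro l
      rw [hv'app, Finset.sum_eq_single l (fun j _ hjl => by rw [hw0 j l hjl, mul_zero])
        (fun h => absurd (Finset.mem_univ l) h), hw1, mul_one, sub_self]
    refine ⟨Option J, inferInstance, fun o => o.elim v' w, fun o => o.elim i₀ piv, ?_, ?_, ?_, ?_,
      ?_⟩
    · rintro (_ | j)
      · exact hv'W
      · exact (hwW j).1
    · rintro (_ | j) i
      · show ‖v' i‖₊ ≤ 1
        rw [hv'app, sub_eq_add_neg]
        refine (IsUltrametricDist.nnnorm_add_le_max _ _).trans (max_le (hvle i) ?_)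
        rw [nnnorm_neg]
        refine IsUltrametricDist.nnnorm_sum_le_of_forall_le fun j _ => ?_
        rw [nnnorm_mul]
        exact mul_le_one₀ (hvle _) zero_le (hwle j i)
      · exact hwle j i
    · rintro (_ | j)
      · exact hv'1
      · exact hw1 j
    · rintro (_ | j) (_ | l) hne
      · exact absurd rfl hne
      · exact hv'0 l
      · exact (hwW j).2
      · exact hw0 j l (fun h => hne (congrArg some h))
    · intro u hu hall
      exact hzero u ⟨hu, hall none⟩ fun j => hall (some j)

namespace IntModel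

variable {X Q : Type} [AddCommGroup X] [AddCommGroup Q] (M : IntModel Ω X)

/-- A quotient of a group with an integral model has an integral model, equivariant for every
compatible action. -/
theorem exists_quotient {Γ : Type} {act : Γ → X →+ X} {act' : Γ → Q →+ Q}
    {aut : Γ → Ω →+* Ω} (hM : M.Equivariant act aut) (hact : ∀ g, Function.Surjective (act g))
    (hact' : ∀ g, Function.Injective (act' g))
    (π : X →+ Q) (hπ : Function.Surjective π) (hcomm : ∀ g x, π (act g x) = act' g (π x)) :
    ∃ M' : IntModel Ω Q, M'.Equivariant act' aut ∧ ∀ x, M'.w (π x) ≤ M.w x := by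
  classical
  let W : Submodule Ω (M.ι → Ω) :=
    { carrier := {a | ∀ x x', π x = π x' → ∑ i, a i * M.e i x = ∑ i, a i * M.e i x'}
      add_mem' := fun {a b} ha hb x x' h => by
        simp only [Pi.add_apply, add_mul, Finset.sum_add_distrib, ha x x' h, hb x x' h]
      zero_mem' := fun x x' _ => by simp
      smul_mem' := fun r a ha x x' h => by
        simp only [Pi.smul_apply, smul_eq_mul, mul_assoc, ← Finset.mul_sum, ha x x' h] }
  obtain ⟨J, hJ, w, piv, hwW, hwle, hw1, hw0, hzero⟩ := exists_echelon W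
  have hexp : ∀ a ∈ W, ∀ i, a i = ∑ j, a (piv j) * w j i := by
    intro a ha i
    have := congrFun (hzero (a - ∑ j, a (piv j) • w j)
      (W.sub_mem ha (W.sum_mem fun j _ => W.smul_mem _ (hwW j))) fun l => by
        simp only [Pi.sub_apply, Finset.sum_apply, Pi.smul_apply, smul_eq_mul]
        rw [Finset.sum_eq_single l (fun j _ hjl => by rw [hw0 j l hjl, mul_zero])
          (fun h => absurd (Finset.mem_univ l) h), hw1, mul_one, sub_self]) i
    simpa [sub_eq_zero, Finset.sum_apply] using this
  choose s hs using hπ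
  let e' : J → Q → Ω := fun j q => ∑ i, w j i * M.e i (s q)
  have he' : ∀ j x, e' j (π x) = ∑ i, w j i * M.e i x := fun j x => hwW j _ _ (hs (π x))
  have hli : LinearIndependent Ω e' := by
    rw [Fintype.linearIndependent_iff]
    intro g hg l
    have hvec : ∀ i, ∑ j, g j * w j i = 0 := by
      refine Fintype.linearIndependent_iff.mp M.li _ (funext fun x => ?_)
      have := congrFun hg (π x)
      simp only [Finset.sum_apply, Pi.smul_apply, smul_eq_mul, Pi.zero_apply, he',
        Finset.mul_sum, ← mul_assoc] at this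
      simp only [Finset.sum_apply, Pi.smul_apply, smul_eq_mul, Pi.zero_apply, Finset.sum_mul]
      rw [Finset.sum_comm]
      exact this
    have := hvec (piv l)
    rwa [Finset.sum_eq_single l (fun j _ hjl => by rw [hw0 j l hjl, mul_zero])
      (fun h => absurd (Finset.mem_univ l) h), hw1, mul_one] at this
  have hspan : Submodule.span Ω (Set.range e') = ⊤ := by
    rw [eq_top_iff]
    intro h _
    have hh : (fun x => h (π x)) ∈ Submodule.span Ω (Set.range M.e) := by rw [M.span_top]; trivial
    rw [Submodule.mem_span_range_iff_exists_fun] at hh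
    obtain ⟨a, ha⟩ := hh
    have ha' : ∀ x, ∑ i, a i * M.e i x = h (π x) := fun x => by
      simpa [Finset.sum_apply] using congrFun ha x
    have haW : a ∈ W := fun x x' hxx => by rw [ha', ha', hxx]
    rw [Submodule.mem_span_range_iff_exists_fun]
    refine ⟨fun j => a (piv j), funext fun q => ?_⟩
    simp only [Finset.sum_apply, Pi.smul_apply, smul_eq_mul, e', Finset.mul_sum, ← mul_assoc]
    rw [Finset.sum_comm]
    simp only [← Finset.sum_mul, ← hexp a haW]
    rw [ha', hs]
  choose c hc hcom using M.comul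
  refine ⟨{ ι := J, e := e', norm_le_one := fun j q => ?_, li := hli, span_top := hspan,
            comul := fun j => ?_ }, ?_, fun x => Finset.sup_le fun j _ => ?_⟩
  · refine IsUltrametricDist.nnnorm_sum_le_of_forall_le fun i _ => ?_
    rw [nnnorm_mul]
    exact mul_le_one₀ (hwle j i) zero_le (M.norm_le_one i _)
  · let C : M.ι → M.ι → Ω := fun a b => ∑ i, w j i * c i a b
    have hC : ∀ a b, ‖C a b‖₊ ≤ 1 := fun a b =>
      IsUltrametricDist.nnnorm_sum_le_of_forall_le fun i _ => by
        rw [nnnorm_mul]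
        exact mul_le_one₀ (hwle j i) zero_le (hc i a b)
    have hG : ∀ x y, e' j (π x + π y) = ∑ a, (∑ b, C a b * M.e b y) * M.e a x := by
      intro x y
      rw [← map_add, he']
      simp only [hcom, C, Finset.sum_mul, Finset.mul_sum]
      rw [Finset.sum_comm]
      refine Finset.sum_congr rfl fun a _ => ?_
      rw [Finset.sum_comm]
      exact Finset.sum_congr rfl fun b _ => Finset.sum_congr rfl fun i _ => by ring
    have hrow : ∀ y, (fun a => ∑ b, C a b * M.e b y) ∈ W := fun y x x' h => by
      rw [← hG, ← hG, h]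
    have hG2 : ∀ x y, e' j (π x + π y) = ∑ k, (∑ b, C (piv k) b * M.e b y) * e' k (π x) := by
      intro x y
      rw [hG]
      simp only [he', Finset.mul_sum, ← mul_assoc]
      rw [Finset.sum_comm]
      refine Finset.sum_congr rfl fun a _ => ?_
      rw [← Finset.sum_mul]
      exact congrArg (· * M.e a x) (hexp _ (hrow y) a)
    have hcol : ∀ k, (fun b => C (piv k) b) ∈ W := by
      intro k y y' h
      refine sub_eq_zero.mp (Fintype.linearIndependent_iff.mp hli
        (fun k => (∑ b, C (piv k) b * M.e b y) - ∑ b, C (piv k) b * M.e b y') (funext fun q => ?_) k)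
      have h1 := hG2 (s q) y
      have h2 := hG2 (s q) y'
      rw [hs, h] at h1
      rw [hs] at h2
      simp only [Finset.sum_apply, Pi.smul_apply, smul_eq_mul, Pi.zero_apply, sub_mul,
        Finset.sum_sub_distrib, ← h1, ← h2, sub_self]
    refine ⟨fun k l => C (piv k) (piv l), fun k l => hC _ _, fun q q' => ?_⟩
    have h1 := hG2 (s q) (s q')
    rw [hs, hs] at h1
    rw [h1]
    refine Finset.sum_congr rfl fun k _ => ?_
    have h2 : ∑ b, C (piv k) b * M.e b (s q') = ∑ l, C (piv k) (piv l) * e' l q' := by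
      simp only [e', Finset.mul_sum, ← mul_assoc]
      rw [Finset.sum_comm]
      refine Finset.sum_congr rfl fun b _ => ?_
      rw [← Finset.sum_mul]
      exact congrArg (· * M.e b (s q')) (hexp _ (hcol k) b)
    rw [h2, Finset.sum_mul]
    exact Finset.sum_congr rfl fun l _ => by ring
  · intro g j q
    obtain ⟨x, rfl⟩ : ∃ x, π x = q := ⟨s q, hs q⟩
    show e' j (act' g (π x)) = aut g (e' j (π x))
    rw [← hcomm, he', he', map_sum]
    have hgW : (fun i => aut g (w j i)) ∈ W := by
      intro x₁ x₂ h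
      obtain ⟨y₁, rfl⟩ := hact g x₁
      obtain ⟨y₂, rfl⟩ := hact g x₂
      have hy : π y₁ = π y₂ := hact' g (by rw [← hcomm, ← hcomm, h])
      simp only [hM g, ← map_mul, ← map_sum]
      exact congrArg _ (hwW j y₁ y₂ hy)
    have hfix : ∀ i, aut g (w j i) = w j i := by
      intro i
      rw [hexp _ hgW i]
      conv_rhs => rw [hexp _ (hwW j) i]
      refine Finset.sum_congr rfl fun l _ => ?_
      by_cases hjl : j = l
      · subst hjl; rw [hw1, map_one]
      · rw [hw0 j l hjl, map_zero]
    exact Finset.sum_congr rfl fun i _ => by rw [hM g, map_mul, hfix]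
  · show ‖e' j (π x) - e' j 0‖₊ ≤ M.w x
    rw [← π.map_zero, he', he', ← Finset.sum_sub_distrib]
    refine IsUltrametricDist.nnnorm_sum_le_of_forall_le fun i _ => ?_
    rw [← mul_sub, nnnorm_mul]
    exact (mul_le_of_le_one_left zero_le (hwle j i)).trans (M.norm_G_le i x)

end IntModel

end FLTA.TaylorWiles.Flat

end
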