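import Fermat.Agent.TaylorWiles.FlatStrictBridge
import Fermat.Agent.LT2.LocalFlatBridge

/-!
# From bounds on local cocycles to local conditions

A bound `|F| ≤ n · |H⁰| · |F ∩ B¹|` gives a subspace `L` of local classes with `|L| ≤ n · |H⁰|`.
-/

set_option autoImplicit false

open ExtCitation Module
open scoped Matrix

noncomputable section

namespace FLTA.TaylorWiles.Flat

open FLTA.PT FLTA.TW

attribute [local instance] FLTA.PT.factPrime

variable (p : ℕ) [Fact p.Prime] {k : Type} [Field k] [Algebra (ZMod p) k]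
variable (M : GQ →* M2 k)

/-- The residual representation of a deformation has local standing hypotheses. -/
theorem localRes_of_isDefoOf [CharP k (pPrime p : ℕ)]
    (hdet : ∀ g, (M g).det = algebraMap (ZMod p) k (cycloChar p g : ZMod p))
    (x : GQ → Ad0 k) (ρ : GaloisRepAdic (DualNumber k)) (h : IsDefoOf M x ρ) :
    LocalRes (M.comp (loc (pPrime p))) := by
  obtain ⟨L, hL, h1⟩ := FLTA.TaylorWiles.finiteLevel_of_isDefoOf M x ρ h
  refine ⟨fun g => ?_, M.toHomUnits.ker.comap (loc (pPrime p)), lvlQ_le_lvlLoc (pPrime p) _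
    ⟨inferInstance, L, hL, fun s hs => Units.ext ?_⟩, fun u hu => ?_⟩
  · rw [MonoidHom.comp_apply, hdet, coe_cycloChar, map_natCast]
    rfl
  · have h2 := h1 s fun y hy => (IntermediateField.mem_fixingSubgroup_iff L s).mp hs y hy
    rw [FLTA.TaylorWiles.linRep_apply,
      ← map_one (Matrix.toLinAlgEquiv' (R := k) (n := Fin 2))] at h2
    exact Matrix.toLinAlgEquiv'.injective h2
  · exact congrArg Units.val (MonoidHom.mem_ker.mp hu)

variable [Finite k]

set_option maxHeartbeats 800000 in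
/-- Classes bounded by `BoundBy _ n Q` lie in a space of at most `n · |H⁰|` classes. -/
theorem exists_cond_of_boundBy (q : Nat.Primes) (hM : Smooth lvlQ (ad0Rep p M)) {n : ℕ}
    {Q : (Gl q → M2 k) → Prop} (h : BoundBy (M.comp (loc q)) n Q) :
    ∃ L : Submodule (ZMod p) (H1L (ad0Rep p M) q), Finite L ∧
      Nat.card L ≤ n * Nat.card (fixedBy ((ad0Rep p M).comp (loc q)) ⊤) ∧
      ∀ x : Z1 lvlQ (ad0Rep p M), Q (fun g => ((x : GQ → Ad0 k) (loc q g)).1) →
        locQ (ad0Rep p M) q (clsQ (ad0Rep p M) x) ∈ L := by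
  set σl := (ad0Rep p M).comp (loc q) with hσl
  obtain ⟨F, -, hfin, hcard, hQ⟩ := h
  let ψ : Z1 (lvlLoc q) σl →+ (Gl q → M2 k) :=
    { toFun := fun y g => ((y : Gl q → Ad0 k) g).1
      map_zero' := rfl
      map_add' := fun _ _ => rfl }
  have hψ : Function.Injective ψ := fun a b e => Subtype.ext (funext fun g =>
    Subtype.ext (congrFun e g))
  have hd0 : ∀ m, d0 σl m ∈ Z1 (lvlLoc q) σl := fun m => by
    refine (mem_Z1 _ _).2 ⟨fun g g' => by simp [map_mul, map_sub], ?_⟩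
    obtain ⟨U, hU, hfix⟩ := hM m
    exact ⟨_, ⟨U, hU, rfl⟩, fun g s hs => by
      simp only [d0_apply, σl, MonoidHom.comp_apply, map_mul, Module.End.mul_apply,
        hfix _ hs]⟩
  have hψd0 : ∀ m : Ad0 k, ψ ⟨d0 σl m, hd0 m⟩ = cobd (M.comp (loc q)) m.1 := fun m => by
    funext g
    show ((d0 σl m g : Ad0 k) : M2 k) = _
    simp [σl, cobd]
  let W : Submodule (ZMod p) (Z1 (lvlLoc q) σl) :=
    AddSubgroup.toZModSubmodule p (F.comap ψ)
  have hWmem : ∀ y, y ∈ W ↔ ψ y ∈ F := fun y => Iff.rfl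
  haveI : Finite F := hfin
  haveI : Finite W := Finite.of_injective (fun w : W => (⟨ψ w.1, (hWmem _).1 w.2⟩ : F))
    fun a b e => Subtype.ext (hψ (congrArg (fun f : F => f.1) e))
  set π := H1cπ (lvlLoc q) σl
  let πW : W →ₗ[ZMod p] ↥(W.map π) := π.submoduleMap W
  have hsurj : Function.Surjective πW := LinearMap.submoduleMap_surjective π W
  haveI : Finite ↥(W.map π) := Finite.of_surjective _ hsurj
  refine ⟨W.map π, inferInstance, ?_, fun x hx => ?_⟩
  · have hW : Nat.card W ≤ Nat.card F :=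
      Nat.card_le_card_of_injective (fun w : W => (⟨ψ w.1, (hWmem _).1 w.2⟩ : F))
        fun a b e => Subtype.ext (hψ (congrArg (fun f : F => f.1) e))
    have hprod : Nat.card W = Nat.card ↥(W.map π) * Nat.card (LinearMap.ker πW) := by
      rw [Submodule.card_eq_card_quotient_mul_card (LinearMap.ker πW), mul_comm,
        Nat.card_congr (LinearMap.quotKerEquivOfSurjective πW hsurj).toEquiv]
    have hker : Nat.card (F ⊓ cobdGroup (M.comp (loc q)) : AddSubgroup _) ≤
        Nat.card (LinearMap.ker πW) := by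
      have hex : ∀ f : (F ⊓ cobdGroup (M.comp (loc q)) : AddSubgroup _),
          ∃ w : LinearMap.ker πW, ψ w.1.1 = f.1 := by
        rintro ⟨f, hfF, X, hX, rfl⟩
        refine ⟨⟨⟨⟨d0 σl ⟨X, hX⟩, hd0 _⟩, (hWmem _).2 (by rw [hψd0]; exact hfF)⟩, ?_⟩, hψd0 _⟩
        rw [LinearMap.mem_ker]
        exact Subtype.ext ((H1cπ_eq_zero (lvlLoc q) σl).2 ⟨_, rfl⟩)
      choose w hw using hex
      exact Nat.card_le_card_of_injective w fun a b e => Subtype.ext (by rw [← hw, ← hw, e])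
    have hfix : Nat.card (adFixed (M.comp (loc q))) = Nat.card (fixedBy σl ⊤) := by
      have hinv : ∀ g, M (loc q g)⁻¹ * M (loc q g) = 1 := fun g => by
        rw [← map_mul, inv_mul_cancel, map_one]
      have hinv' : ∀ g, M (loc q g) * M (loc q g)⁻¹ = 1 := fun g => by
        rw [← map_mul, mul_inv_cancel, map_one]
      refine Nat.card_congr
        { toFun := fun X => ⟨⟨X.1, X.2.1⟩, fun g _ => Subtype.ext ?_⟩
          invFun := fun X => ⟨X.1.1, X.1.2, fun g => ?_⟩
          left_inv := fun X => rfl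
          right_inv := fun X => rfl }
      · show M (loc q g) * X.1 * M (loc q g)⁻¹ = X.1
        rw [show M (loc q g) * X.1 = X.1 * M (loc q g) from X.2.2 g, mul_assoc, hinv', mul_one]
      · have e : M (loc q g) * X.1.1 * M (loc q g)⁻¹ = X.1.1 :=
          congrArg Subtype.val (X.2 g trivial)
        show M (loc q g) * X.1.1 = X.1.1 * M (loc q g)
        conv_rhs => rw [← e, mul_assoc, hinv, mul_one]
    rw [hfix] at hcard
    have hpos : 0 < Nat.card (F ⊓ cobdGroup (M.comp (loc q)) : AddSubgroup _) :=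
      haveI : Finite (F ⊓ cobdGroup (M.comp (loc q)) : AddSubgroup _) :=
        Finite.of_injective (fun f => (⟨f.1, f.2.1⟩ : F))
          fun a b e => Subtype.ext (congrArg (fun f : F => f.1) e)
      Nat.card_pos
    refine Nat.le_of_mul_le_mul_right ?_ hpos
    calc Nat.card ↥(W.map π) * Nat.card (F ⊓ cobdGroup (M.comp (loc q)) : AddSubgroup _)
        ≤ Nat.card W := le_of_le_of_eq (Nat.mul_le_mul_left _ hker) hprod.symm
      _ ≤ _ := hW.trans hcard
  · let y : Z1 (lvlLoc q) σl := ⟨pp1 (loc q) LinearMap.id (x : GQ → Ad0 k),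
      pp1_mem_Z1 (lvlQ_le_lvlLoc q) (fun _ _ => rfl) x.2⟩
    obtain ⟨X, hX, hmem⟩ := hQ _ hx
    refine ⟨y + ⟨d0 σl ⟨X, hX⟩, hd0 _⟩, (hWmem _).2 ?_, ?_⟩
    · rw [map_add, hψd0]
      exact hmem
    · have h0 : π ⟨d0 σl ⟨X, hX⟩, hd0 _⟩ = 0 :=
        (H1cπ_eq_zero (lvlLoc q) σl (f := ⟨d0 σl ⟨X, hX⟩, hd0 _⟩)).2 ⟨_, rfl⟩
      rw [map_add, h0, add_zero]
      rfl

/-- Flat strictly ordinary first order deformations span at most `H⁰`. -/
theorem exists_flatStrictCond' (hp : p ≠ 2) (hM : Smooth lvlQ (ad0Rep p M))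
    (hdet : ∀ g, (M g).det = algebraMap (ZMod p) k (cycloChar p g : ZMod p)) :
    ∃ L : Submodule (ZMod p) (H1L (ad0Rep p M) (pPrime p)),
      finrank (ZMod p) L ≤ finrank (ZMod p) (fixedBy ((ad0Rep p M).comp (loc (pPrime p))) ⊤) ∧
      ∀ (x : Z1 lvlQ (ad0Rep p M)) (ρ : GaloisRepAdic (DualNumber k)),
        IsDefoOf M (x : GQ → Ad0 k) ρ → ρ.IsFlatAt p → ρ.IsStrictOrdinaryAt p →
          locQ (ad0Rep p M) (pPrime p) (clsQ (ad0Rep p M) x) ∈ L := by
  haveI : CharP k p := charP_of_injective_algebraMap (algebraMap (ZMod p) k).injective p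
  haveI : CharP k ((pPrime p : Nat.Primes) : ℕ) := ‹CharP k p›
  by_cases hex : ∃ (x : Z1 lvlQ (ad0Rep p M)) (ρ : GaloisRepAdic (DualNumber k)),
      IsDefoOf M (x : GQ → Ad0 k) ρ
  swap
  · exact ⟨⊥, by simp, fun x ρ h1 _ _ => absurd ⟨x, ρ, h1⟩ hex⟩
  obtain ⟨x₀, ρ₀, hd₀⟩ := hex
  obtain ⟨L, hLfin, hL, hmem⟩ := exists_cond_of_boundBy p M (pPrime p) hM
    (strictFlatBound hp (localRes_of_isDefoOf p M hdet _ ρ₀ hd₀))
  refine ⟨L, ?_, fun x ρ h1 h2 h3 => hmem x ⟨LT2.flatDefo_of_isDefoOf (pPrime p) M _ ρ h1 h2,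
    strictLineDefo_of_isStrictOrdinaryAt p M hp x ρ h1 h3⟩⟩
  haveI := hLfin
  haveI : Finite (Ad0 k) := inferInstance
  rw [one_mul, Module.natCard_eq_pow_finrank (K := ZMod p) (V := L),
    Module.natCard_eq_pow_finrank (K := ZMod p)
      (V := fixedBy ((ad0Rep p M).comp (loc (pPrime p))) ⊤), Nat.card_zmod] at hL
  exact (Nat.pow_le_pow_iff_right (Fact.out : p.Prime).one_lt).1 hL

end FLTA.TaylorWiles.Flat

end
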