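import Mathlib.FieldTheory.Finite.Basic
import Mathlib.FieldTheory.IntermediateField.Adjoin.Basic
import Mathlib.Algebra.CharP.Frobenius
import Mathlib.LinearAlgebra.Dimension.Free
import Mathlib.Algebra.Algebra.ZMod

/-!
# Counting semilinear maps from a finite field
-/

set_option autoImplicit false
set_option linter.style.haveILetI false

open Polynomial

noncomputable section

namespace FLTA.TaylorWiles.Flat

variable {p : ℕ} [hp : Fact p.Prime] {k : Type} [Field k] [Finite k] [CharP k p]
  {κ : Type} [Field κ] [CharP κ p]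

/-- Additive maps intertwining multiplication by `δ` with `Φ`, with values in a set no larger
than `𝔽_p(δ)`, are at most `|k|` in number. -/
theorem natCard_semilinear_le [Algebra (ZMod p) k] (δ : k) (Φ : κ →+ κ) (W : Set κ) (hW : W.Finite)
    (hWcard : Nat.card W ≤ p ^ (minpoly (ZMod p) δ).natDegree)
    (S : Set (k →+ κ)) (hS : ∀ v ∈ S, ∀ x, v (δ * x) = Φ (v x) ∧ v x ∈ W) :
    S.Finite ∧ Nat.card S ≤ Nat.card k := by
  classical
  haveI : Module.Finite (ZMod p) k := Module.Finite.of_finite
  have hint : IsIntegral (ZMod p) δ := IsIntegral.of_finite (ZMod p) δ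
  let F0 : IntermediateField (ZMod p) k := IntermediateField.adjoin (ZMod p) {δ}
  haveI : Finite F0 := Finite.of_injective (fun x : F0 => (x : k)) Subtype.val_injective
  haveI : Module.Finite F0 k := Module.Finite.of_finite
  let b := Module.finBasis F0 k
  haveI : Finite W := hW.to_subtype
  let L : S → (Fin (Module.finrank F0 k) → W) := fun v i => ⟨v.1 (b i), (hS v.1 v.2 _).2⟩
  have hinj : Function.Injective L := by
    rintro ⟨v, hv⟩ ⟨v', hv'⟩ h
    refine Subtype.ext (AddMonoidHom.ext fun x => ?_)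
    have hb : ∀ i, v (b i) = v' (b i) := fun i => congrArg Subtype.val (congrFun h i)
    have hδ : ∀ (n : ℕ) i, v (δ ^ n * b i) = v' (δ ^ n * b i) := by
      intro n i
      induction n with
      | zero => rw [pow_zero, one_mul]; exact hb i
      | succ n ih => rw [pow_succ', mul_assoc, (hS v hv _).1, (hS v' hv' _).1, ih]
    have hF : ∀ (a : F0) i, v ((a : k) * b i) = v' ((a : k) * b i) := by
      intro a i
      have ha : (a : k) ∈ (IntermediateField.adjoin (ZMod p) {δ}).toSubalgebra := a.2
      rw [IntermediateField.adjoin_simple_toSubalgebra_of_isAlgebraic hint.isAlgebraic,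
        Algebra.adjoin_singleton_eq_range_aeval, AlgHom.mem_range] at ha
      obtain ⟨Q, hQ⟩ := ha
      rw [← hQ, aeval_eq_sum_range, Finset.sum_mul, map_sum, map_sum]
      refine Finset.sum_congr rfl fun n _ => ?_
      rw [smul_mul_assoc, ← ZMod.natCast_zmod_val (Q.coeff n), Nat.cast_smul_eq_nsmul, map_nsmul,
        map_nsmul, hδ]
    rw [← b.sum_repr x, map_sum, map_sum]
    exact Finset.sum_congr rfl fun i _ => hF _ i
  haveI : Finite S := Finite.of_injective L hinj
  refine ⟨Set.toFinite S, (Nat.card_le_card_of_injective L hinj).trans ?_⟩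
  rw [Nat.card_fun, Nat.card_fin, Module.natCard_eq_pow_finrank (K := F0) (V := k),
    Module.natCard_eq_pow_finrank (K := ZMod p) (V := F0), Nat.card_zmod,
    IntermediateField.adjoin.finrank hint]
  exact Nat.pow_le_pow_left hWcard _

/-- Maps `v` with `v (δ x) = v x ^ p`. -/
theorem natCard_frobenius_semilinear_le (δ : k) (S : Set (k →+ κ))
    (hS : ∀ v ∈ S, ∀ x, v (δ * x) = v x ^ p) : S.Finite ∧ Nat.card S ≤ Nat.card k := by
  classical
  letI : Algebra (ZMod p) k := ZMod.algebra k p
  haveI : Module.Finite (ZMod p) k := Module.Finite.of_finite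
  haveI : ExpChar κ p := ExpChar.prime hp.out
  set P := minpoly (ZMod p) δ with hP
  set d := P.natDegree
  let c : ℕ → κ := fun n => ((P.coeff n).val : κ)
  let R : κ[X] := ∑ n ∈ Finset.range (d + 1), C (c n) * X ^ p ^ n
  have hmono : P.coeff d = 1 := minpoly.monic (IsIntegral.of_finite (ZMod p) δ)
  have hinj : Function.Injective fun n : ℕ => p ^ n := Nat.pow_right_injective hp.out.two_le
  have hR : R.coeff (p ^ d) = 1 := by
    simp only [R, finsetSum_coeff, coeff_C_mul, coeff_X_pow]
    rw [Finset.sum_eq_single d]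
    · simp [c, hmono]
    · intro n _ hn
      rw [if_neg fun h => hn (hinj h).symm, mul_zero]
    · intro h; simp at h
  have hdeg : R.natDegree ≤ p ^ d := by
    refine natDegree_sum_le_of_forall_le _ _ fun n hn => ?_
    rw [Finset.mem_range] at hn
    exact (natDegree_C_mul_X_pow_le _ _).trans (Nat.pow_le_pow_right hp.out.pos (by omega))
  have hR0 : R ≠ 0 := fun h => by rw [h, coeff_zero] at hR; exact zero_ne_one hR
  refine natCard_semilinear_le (p := p) δ (frobenius κ p).toAddMonoidHom {y | R.IsRoot y}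
    (finite_setOfPred_isRoot hR0) ?_ S fun v hv x => ⟨hS v hv x, ?_⟩
  · have : {y | R.IsRoot y} ⊆ (R.roots.toFinset : Set κ) := fun y hy => by
      simpa [hR0] using hy
    refine (Nat.card_mono (Finset.finite_toSet _) this).trans ?_
    rw [Nat.card_coe_set_eq, Set.ncard_coe_finset]
    exact (Multiset.toFinset_card_le _).trans ((card_roots' R).trans hdeg)
  · show R.eval (v x) = 0
    have hpow : ∀ n : ℕ, v x ^ p ^ n = v (δ ^ n * x) := by
      intro n
      induction n with
      | zero => simp
      | succ n ih => rw [pow_succ, pow_mul, ih, pow_succ', mul_assoc, hS v hv]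
    have h0 : ∑ n ∈ Finset.range (d + 1), (P.coeff n).val • (δ ^ n * x) = 0 := by
      have h := congrArg (· * x) (minpoly.aeval (ZMod p) δ)
      rw [aeval_eq_sum_range, Finset.sum_mul, zero_mul] at h
      rw [← h]
      refine Finset.sum_congr rfl fun n _ => ?_
      rw [smul_mul_assoc, ← Nat.cast_smul_eq_nsmul (ZMod p), ZMod.natCast_zmod_val]
    simp only [R, eval_finsetSum, eval_mul, eval_C, eval_pow, eval_X, c, hpow]
    have h1 := congrArg v h0
    rw [map_sum, map_zero] at h1
    rw [← h1]
    exact Finset.sum_congr rfl fun n _ => by rw [map_nsmul, nsmul_eq_mul]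

/-- Maps `v` with `v (δ x) = r * v x` and values in `𝔽_{p²}`, for `δ ∉ 𝔽_p`. -/
theorem natCard_quadratic_semilinear_le {δ : k} (hδ : δ ^ p ≠ δ) (r : κ) (S : Set (k →+ κ))
    (hS : ∀ v ∈ S, ∀ x, v (δ * x) = r * v x ∧ v x ^ p ^ 2 = v x) :
    S.Finite ∧ Nat.card S ≤ Nat.card k := by
  classical
  letI : Algebra (ZMod p) k := ZMod.algebra k p
  haveI : Module.Finite (ZMod p) k := Module.Finite.of_finite
  have hint : IsIntegral (ZMod p) δ := IsIntegral.of_finite (ZMod p) δ
  have hd : 2 ≤ (minpoly (ZMod p) δ).natDegree := by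
    refine minpoly.two_le_natDegree_iff hint |>.mpr ?_
    rintro ⟨a, rfl⟩
    exact hδ (by rw [← map_pow, ZMod.pow_card])
  have hq : 1 < p ^ 2 := Nat.one_lt_pow (by norm_num) hp.out.one_lt
  have hne : (X ^ p ^ 2 - X : κ[X]) ≠ 0 := FiniteField.X_pow_card_sub_X_ne_zero _ hq
  refine natCard_semilinear_le (p := p) δ (AddMonoidHom.mulLeft r)
    {y | (X ^ p ^ 2 - X : κ[X]).IsRoot y} (finite_setOfPred_isRoot hne) ?_ S
    fun v hv x => ⟨(hS v hv x).1, by simp [(hS v hv x).2]⟩
  have : {y | (X ^ p ^ 2 - X : κ[X]).IsRoot y} ⊆ ((X ^ p ^ 2 - X : κ[X]).roots.toFinset : Set κ) :=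
    fun y hy => by simpa [hne] using hy
  refine (Nat.card_mono (Finset.finite_toSet _) this).trans ?_
  rw [Nat.card_coe_set_eq, Set.ncard_coe_finset]
  refine (Multiset.toFinset_card_le _).trans ((card_roots' _).trans ?_)
  rw [FiniteField.X_pow_card_sub_X_natDegree_eq _ hq]
  exact Nat.pow_le_pow_right hp.out.pos hd

end FLTA.TaylorWiles.Flat

end
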