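import Fermat.Agent.TaylorWiles.FlatIrreducibleFrame
import Fermat.Agent.TaylorWiles.FlatCount

/-!
# The bound on flat classes in the irreducible case

Flat deformations have no diagonal class and no off-diagonal class in layer `2` (orbit
contradiction on a quotient of the model), so normalised cocycles are determined by their
off-diagonal leading coefficient in layer `q ^ 2 + 1`.
-/

set_option autoImplicit false
set_option linter.style.haveILetI false

open scoped NNReal Matrix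

noncomputable section

namespace FLTA.TaylorWiles.Flat

open FLTA.PT (Gl Ql lvlLoc locAut)

attribute [local instance] FLTA.PT.factPrime

variable {q : Nat.Primes} {k : Type} [Field k] [CharP k (q : ℕ)]

/-- The image of a subgroup is no larger than under a map with smaller kernel. -/
theorem natCard_map_le {K G G' : Type} [AddCommGroup K] [AddCommGroup G] [AddCommGroup G']
    [Finite G'] (ι : K →+ G) (ψ : K →+ G') (h : ∀ a, ψ a = 0 → ι a = 0) (S : AddSubgroup K) :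
    Nat.card (S.map ι) ≤ Nat.card (S.map ψ) := by
  classical
  have hex : ∀ s : S.map ι, ∃ a ∈ S, ι a = (s : G) := fun s => AddSubgroup.mem_map.mp s.2
  choose f hf hfι using hex
  refine Nat.card_le_card_of_injective (fun s => (⟨ψ (f s), f s, hf s, rfl⟩ : S.map ψ)) ?_
  intro s s' he
  have h1 : ψ (f s) = ψ (f s') := congrArg Subtype.val he
  have h2 := h (f s - f s') (by rw [map_sub, h1, sub_self])
  rw [map_sub, sub_eq_zero, hfι, hfι] at h2
  exact Subtype.ext h2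

namespace IrrForm

variable {M : Gl q →* M2 k} (D : IrrForm M) {z : Gl q → M2 k}

/-- The functional `a ↦ Tr (μ a)`. -/
def trFun1 (q : Nat.Primes) {k : Type} [Field k] [CharP k (q : ℕ)] (μ : k) : k →+ ZMod (q : ℕ) :=
  (trK q).comp (AddMonoidHom.mulLeft μ)

/-- The pair of functionals `a ↦ (Tr (μ a), Tr (μ α a))`. -/
def pairing (μ : k) : k →+ ZMod (q : ℕ) × ZMod (q : ℕ) :=
  (trFun1 q μ).prod (trFun1 q (μ * D.α))

theorem pairing_apply (μ a : k) :
    D.pairing μ a = (trK q (μ * a), trK q (μ * D.α * a)) := rfl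

theorem pairing_mul_α {μ a : k} (h : D.pairing μ a = 0) : D.pairing μ (D.α * a) = 0 := by
  rw [pairing_apply, Prod.mk_eq_zero] at h ⊢
  obtain ⟨h1, h2⟩ := h
  refine ⟨by rw [← mul_assoc, h2], ?_⟩
  have hk : μ * D.α * (D.α * a) + ((Tame.cy D.s : ℕ) : k) * (μ * a) =
      (D.t : k) * (μ * D.α * a) := by
    linear_combination μ * a * D.quad_α
  have h3 := congrArg (trK q) hk
  rwa [map_add, trK_natCast_mul, trK_natCast_mul, h1, h2, mul_zero, mul_zero, add_zero] at h3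

theorem pairing_pow_α {μ a : k} (h : D.pairing μ a = 0) (n : ℕ) :
    D.pairing μ (D.α ^ n * a) = 0 := by
  induction n with
  | zero => rwa [pow_zero, one_mul]
  | succ n ih => rw [pow_succ', mul_assoc]; exact D.pairing_mul_α ih

variable [Finite k]

include D in
/-- No class of an entry has a low layer moving a point through a small group. -/
theorem no_shift (hq : (q : ℕ) ≠ 2) (h : FlatDefo M z) (j : Fin 2) {n : ℕ} (hn : 1 ≤ n)
    (hnt : n < D.T.top) (hqn : ¬ (q : ℕ) ∣ n) (μ₀ : k)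
    (hd : D.T.Deep (entryChar (ent z 0 j) μ₀) n)
    (hlead : D.T.lead n (entryChar (ent z 0 j) μ₀) ≠ 0) (S0 : AddSubgroup k)
    (hS0 : ∀ a ∈ S0, trK q (μ₀ * a) = 0)
    (hker : ∀ σ ∈ D.T.H, entryChar (ent z 0 j) μ₀ σ = 0 → z σ 0 j ∈ S0)
    (hcard : Nat.card (S0.map (D.pairing μ₀)) * (q : ℕ) + n ≤ D.T.top) : False := by
  classical
  have hroot := D.root hq h
  obtain ⟨N, hN⟩ := h.model
  set ψ := D.pairing μ₀ with hψ
  let act : inerG q → DV k →+ DV k := fun g => defoAct M z (g : Gl q)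
  let Y : AddSubgroup (DV k) :=
    { carrier := {x | x.1 = 0 ∧ ψ (x.2 0) = 0}
      zero_mem' := ⟨rfl, map_zero ψ⟩
      add_mem' := fun {x y} hx hy => ⟨by rw [Prod.fst_add, hx.1, hy.1, add_zero],
        by rw [Prod.snd_add, Pi.add_apply, map_add, hx.2, hy.2, add_zero]⟩
      neg_mem' := fun {x} hx => ⟨by rw [Prod.fst_neg, hx.1, neg_zero],
        by rw [Prod.snd_neg, Pi.neg_apply, map_neg, hx.2, neg_zero]⟩ }
  have hY : ∀ g, ∀ y ∈ Y, act g y ∈ Y := fun g y hy => by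
    obtain ⟨m, hm⟩ := D.exists_M_inerG g.2
    refine ⟨?_, ?_⟩
    · show M g *ᵥ y.1 = 0
      rw [hy.1, Matrix.mulVec_zero]
    · show ψ ((M g *ᵥ y.2 + (z g * M g) *ᵥ y.1) 0) = 0
      rw [hy.1, Matrix.mulVec_zero, add_zero, hm]
      simpa [Matrix.mulVec, dotProduct, Fin.sum_univ_two] using D.pairing_pow_α hy.2 m
  obtain ⟨act', N', hN', hcomm, hone, hmul, hwle⟩ := exists_quotient_model hN
    (fun x => defoAct_one h.toIsAdCoc x) (fun a b x => defoAct_mul h.toIsAdCoc a b x) Y hY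
  let inj : k →+ DV k :=
    { toFun := fun a => (0, ![a, 0])
      map_zero' := Prod.ext rfl (funext fun i => by fin_cases i <;> rfl)
      map_add' := fun a b => Prod.ext (add_zero 0).symm
        (funext fun i => by fin_cases i <;> simp) }
  let ι : k →+ DV k ⧸ Y := (QuotientAddGroup.mk' Y).comp inj
  have hι0 : ∀ a, ι a = 0 ↔ ψ a = 0 := fun a => by
    show (QuotientAddGroup.mk (inj a) : DV k ⧸ Y) = 0 ↔ _
    rw [QuotientAddGroup.eq_zero_iff]
    exact ⟨fun h => h.2, fun h => ⟨rfl, h⟩⟩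
  have hmk : ∀ w : Fin 2 → k, (QuotientAddGroup.mk ((0, w) : DV k) : DV k ⧸ Y) = ι (w 0) := by
    intro w
    refine (QuotientAddGroup.eq).mpr ⟨?_, ?_⟩
    · show -(0 : Fin 2 → k) + 0 = 0
      simp
    · show ψ ((-w + ![w 0, 0]) 0) = 0
      simp
  have hqX : ∀ x : DV k ⧸ Y, (q : ℕ) • x = 0 := fun x => by
    induction x using QuotientAddGroup.induction_on with
    | _ x => rw [← QuotientAddGroup.mk_nsmul, prime_nsmul_DV, QuotientAddGroup.mk_zero]
  have hactι : ∀ (g : inerG q) a, act' g (ι a) = ι (M (g : Gl q) 0 0 * a) := fun g a => by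
    show act' g (QuotientAddGroup.mk (inj a)) = _
    rw [hcomm]
    show (QuotientAddGroup.mk (M (g : Gl q) *ᵥ 0, M (g : Gl q) *ᵥ ![a, 0] +
      (z (g : Gl q) * M (g : Gl q)) *ᵥ 0) : DV k ⧸ Y) = _
    rw [Matrix.mulVec_zero, Matrix.mulVec_zero, add_zero, hmk]
    congr 1
    simp [Matrix.mulVec, dotProduct, Fin.sum_univ_two]
  set A : AddSubgroup (DV k ⧸ Y) := (⊤ : AddSubgroup k).map ι with hA
  set S : AddSubgroup (DV k ⧸ Y) := S0.map ι with hS
  set s : inerG q := ⟨D.s, D.hs⟩ with hsdef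
  have hmemA : ∀ a, ι a ∈ A := fun a => AddSubgroup.mem_map_of_mem ι (AddSubgroup.mem_top a)
  have hAfix : ∀ a ∈ A, D.T.HFixed act' a := by
    rintro _ ⟨a, -, rfl⟩ g hg
    rw [hactι, D.M_H _ hg, Matrix.one_apply_eq, one_mul]
  have hsA : ∀ a ∈ A, act' s a ∈ A := by
    rintro _ ⟨a, -, rfl⟩
    rw [hactι]
    exact hmemA _
  have hwπ : ∀ a ∈ A, a ≠ 0 → N'.w a = ‖D.T.π‖₊ := by
    rintro _ ⟨a, -, rfl⟩ ha0
    refine Tame.w_eq_π hN' hone hmul hqX hq D.he D.hξ s D.hsπ (hAfix _ (hmemA a)) ha0 ?_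
      (t := D.t) (c := Tame.cy D.s) ?_ hroot
    · refine lt_of_eq_of_lt (congrArg N'.w (?_ : ι a = QuotientAddGroup.mk
        (act s (0, ![(D.α - 1)⁻¹ * a, 0]) - (0, ![(D.α - 1)⁻¹ * a, 0]))))
        (lt_of_le_of_lt (hwle _) (w_shift_lt hN s _))
      rw [QuotientAddGroup.mk_sub, ← hcomm]
      show _ = act' s (ι _) - ι _
      rw [hactι, ← map_sub]
      congr 1
      show a = M D.s 0 0 * _ - _
      rw [D.Ms00, ← sub_one_mul, mul_inv_cancel_left₀ (sub_ne_zero.mpr D.α_ne_one)]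
    · rw [hactι, hactι, ← map_nsmul, ← map_nsmul, ← map_add]
      congr 1
      show M D.s 0 0 * (M D.s 0 0 * a) + _ = D.t • (M D.s 0 0 * a)
      rw [D.Ms00, nsmul_eq_mul, nsmul_eq_mul]
      linear_combination a * D.quad_α
  have hcardA : Nat.card A ≤ (q : ℕ) ^ 2 := by
    refine (natCard_map_le ι ψ (fun a => (hι0 a).mpr) ⊤).trans ?_
    refine (Nat.card_le_card_of_injective _ Subtype.val_injective).trans ?_
    rw [Nat.card_prod, Nat.card_zmod, ← pow_two]
  -- the point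
  set u : k := (M D.s j j - 1)⁻¹ with hu
  have hu1 : (M D.s j j - 1) * u = 1 := by
    refine mul_inv_cancel₀ (sub_ne_zero.mpr ?_)
    fin_cases j
    · show M D.s 0 0 ≠ 1
      rw [D.Ms00]; exact D.α_ne_one
    · show M D.s 1 1 ≠ 1
      rw [D.Ms11]; exact D.αq_ne_one
  set x0 : DV k := act s (Pi.single j u, 0) - (Pi.single j u, 0) with hx0
  have hx0fst : x0.1 = Pi.single j 1 := by
    show M D.s *ᵥ Pi.single j u - Pi.single j u = _
    funext i
    rw [Pi.sub_apply, Matrix.mulVec_single, D.M_s]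
    fin_cases j <;> fin_cases i <;> simp [D.M_s] at hu1 ⊢ <;> linear_combination hu1
  have hshift : ∀ g : inerG q, (g : Gl q) ∈ D.T.H →
      act' g (QuotientAddGroup.mk x0) - QuotientAddGroup.mk x0 = ι (z (g : Gl q) 0 j) := by
    intro g hg
    rw [hcomm, ← QuotientAddGroup.mk_sub]
    have : act g x0 - x0 = (0, z (g : Gl q) *ᵥ x0.1) := by
      refine Prod.ext ?_ ?_
      · show M (g : Gl q) *ᵥ x0.1 - x0.1 = 0
        rw [D.M_H _ hg, Matrix.one_mulVec, sub_self]
      · show M (g : Gl q) *ᵥ x0.2 + (z (g : Gl q) * M (g : Gl q)) *ᵥ x0.1 - x0.2 = _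
        rw [D.M_H _ hg, Matrix.one_mulVec, mul_one, add_sub_cancel_left]
    rw [this, hmk, hx0fst, Matrix.mulVec_single_one]
    rfl
  obtain ⟨τ, hτ, hχτ⟩ : ∃ τ ∈ D.T.H, entryChar (ent z 0 j) μ₀ τ ≠ 0 := by
    by_contra hall
    push Not at hall
    refine hlead ?_
    rw [Tame.lead_congr hn hnt hqn (D.T.deep_zero n) fun σ hσ =>
      (show (0 : Gl q → ZMod (q : ℕ)) σ = _ by rw [hall σ hσ, Pi.zero_apply]),
      Tame.lead_zero hn hnt hqn]
  have hτS : ι (z τ 0 j) ∉ S := by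
    rintro ⟨a, ha, hae⟩
    have h1 := (hι0 (a - z τ 0 j)).mp (by rw [map_sub, hae, sub_self])
    rw [map_sub, sub_eq_zero, hψ, pairing_apply, pairing_apply, Prod.mk.injEq] at h1
    exact hχτ (h1.1.symm.trans (hS0 a ha))
  have hAne : A ≠ ⊥ := fun hb => hτS (by
    have h1 := hmemA (z τ 0 j)
    rw [hb, AddSubgroup.mem_bot] at h1
    rw [h1]
    exact zero_mem S)
  obtain ⟨i, hi⟩ := Tame.exists_coord_injective hN' hqX D.he D.hξ s D.hsπ A hcardA hAne hsA hwπ
  have hτ' : (⟨τ, D.T.H_le_inerG hτ⟩ : inerG q).1 ∈ D.T.H := hτ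
  refine Tame.orbit_contradiction hN' A S (AddSubgroup.map_mono le_top) hAfix
    (fun a ha ha0 => ⟨hwπ a ha ha0, hi a ha ha0⟩)
    (lt_of_le_of_lt (hwle x0) (w_shift_lt hN s _)) hn hnt hqn hd hlead ?_ (fun g hg hχ => ?_)
    hτ' ?_ ?_
  · exact le_trans (Nat.add_le_add_right (Nat.mul_le_mul_right _
      (natCard_map_le ι ψ (fun a => (hι0 a).mpr) S0)) n) hcard
  · rw [hshift g hg]
    exact AddSubgroup.mem_map_of_mem ι (hker _ hg hχ)
  · rw [hshift _ hτ']
    exact hmemA _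
  · rw [hshift _ hτ']
    exact hτS

include D in
/-- The diagonal of a flat deformation vanishes on `H`. -/
theorem H00_eq_zero (hq : (q : ℕ) ≠ 2) (h : FlatDefo M z) {σ : Gl q} (hσ : σ ∈ D.T.H) :
    z σ 0 0 = 0 := by
  have h3 := three_le hq
  have hsq := sq_ge hq
  have htop := D.top_eq hq
  have hf1 : 1 ≤ (q : ℕ) + 1 := by omega
  have hft : (q : ℕ) + 1 < D.T.top := by omega
  have hfq : ¬ (q : ℕ) ∣ (q : ℕ) + 1 := fun hd => by
    have := Nat.le_of_dvd one_pos ((Nat.dvd_add_right dvd_rfl).mp hd)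
    omega
  have hlow : ∀ μ, D.T.Deep (entryChar (ent z 0 0) μ) ((q : ℕ) + 1) := fun μ =>
    Tame.deep_of_leads le_rfl (by omega) (D.deep00 hq h.toIsAdCoc μ) fun j h1 h2 hqj hd =>
      (D.layer00 hq h.toIsAdCoc h1 (by omega) hqj hd).1 (by omega)
  have htopd : ∀ μ, D.T.lead ((q : ℕ) + 1) (entryChar (ent z 0 0) μ) = 0 →
      ∀ τ ∈ D.T.H, entryChar (ent z 0 0) μ τ = 0 := fun μ h0 τ hτ =>
    (Tame.deep_of_leads hf1 le_rfl (hlow μ) fun j h1 h2 hqj hd => by
      rcases eq_or_ne j ((q : ℕ) + 1) with rfl | hne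
      · exact h0
      · exact (D.layer00 hq h.toIsAdCoc (by omega) h2 hqj hd).1 hne).eq_zero hτ
  by_cases hall : ∀ μ, D.T.lead ((q : ℕ) + 1) (entryChar (ent z 0 0) μ) = 0
  · exact eq_zero_of_entryChar fun μ => htopd μ (hall μ) σ hσ
  exfalso
  push Not at hall
  obtain ⟨μ₀, hμ₀⟩ := hall
  set v := Tame.leadHom hf1 hft hfq (ent z 0 0) hlow with hv
  have hneg : ∀ μ, v μ ^ (q : ℕ) = -v μ := fun μ => by
    rw [← map_neg]
    exact (D.layer00 hq h.toIsAdCoc hf1 hft hfq (hlow μ)).2.symm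
  obtain ⟨m, hm⟩ := exists_natCast_of_pow_eq (q := q) (x := v (μ₀ * D.α) / v μ₀)
    (by rw [div_pow, hneg, hneg, neg_div_neg_eq])
  have hdep : D.T.lead ((q : ℕ) + 1) (entryChar (ent z 0 0) (μ₀ * D.α - m • μ₀)) = 0 := by
    show v _ = 0
    rw [map_sub, map_nsmul, nsmul_eq_mul, hm, div_mul_cancel₀ _ (show v μ₀ ≠ 0 from hμ₀), sub_self]
  refine D.no_shift hq h 0 hf1 hft hfq μ₀ (hlow μ₀) hμ₀ (D.pairing μ₀).ker
    (fun a ha => congrArg Prod.fst (AddMonoidHom.mem_ker.mp ha)) (fun τ hτ hχ => ?_) ?_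
  · rw [AddMonoidHom.mem_ker, pairing_apply, Prod.mk_eq_zero]
    refine ⟨hχ, ?_⟩
    have h0 := htopd _ hdep τ hτ
    rw [entryChar_sub, entryChar_nsmul, Pi.sub_apply, Pi.smul_apply, hχ, smul_zero, sub_zero] at h0
    exact h0
  · rw [(AddSubgroup.map_eq_bot_iff _).mpr le_rfl, AddSubgroup.card_bot]
    omega

include D in
/-- The entries off the diagonal of a flat deformation are deep. -/
theorem H01_deep (hq : (q : ℕ) ≠ 2) (h : FlatDefo M z) :
    ∀ μ, D.T.Deep (entryChar (ent z 0 1) μ) ((q : ℕ) ^ 2 + 1) := by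
  have h3 := three_le hq
  have hsq := sq_ge hq
  have htop := D.top_eq hq
  refine Tame.deep_family le_rfl (by omega) (D.deep01 hq h.toIsAdCoc)
    fun j h1 h2 hqj hd μ => ?_
  rcases eq_or_ne j 2 with rfl | hne
  · by_contra hL
    refine D.no_shift hq h 1 h1 (by omega) hqj μ (hd μ) hL (trFun1 q μ).ker
      (fun a ha => AddMonoidHom.mem_ker.mp ha) (fun τ _ hχ => AddMonoidHom.mem_ker.mpr hχ) ?_
    have hle : Nat.card ((trFun1 q μ).ker.map (D.pairing μ)) ≤ (q : ℕ) := by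
      refine (Nat.card_le_card_of_injective
        (fun x : (trFun1 q μ).ker.map (D.pairing μ) => (x : ZMod (q : ℕ) × ZMod (q : ℕ)).2)
        fun x y hxy => ?_).trans (Nat.card_zmod _).le
      obtain ⟨a, ha, hax⟩ := x.2
      obtain ⟨b, hb, hby⟩ := y.2
      refine Subtype.ext (Prod.ext ?_ hxy)
      rw [← hax, ← hby]
      show trK q (μ * a) = trK q (μ * b)
      rw [show trK q (μ * a) = 0 from ha, show trK q (μ * b) = 0 from hb]
    have : Nat.card ((trFun1 q μ).ker.map (D.pairing μ)) * (q : ℕ) ≤ (q : ℕ) ^ 2 := by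
      rw [pow_two]; exact Nat.mul_le_mul_right _ hle
    omega
  · exact (D.layer01 hq h.toIsAdCoc (D.root hq h) h1 (by omega) hqj hd).1 hne (by omega) μ

/-- The normalised cocycles. -/
def normGroup : AddSubgroup (Gl q → M2 k) where
  carrier := {f | IsAdCoc M f ∧ f D.s 0 1 = 0 ∧ f D.s 1 0 = 0 ∧ f D.F 0 0 = 0 ∧
    (∀ σ ∈ D.T.H, f σ 0 0 = 0) ∧
    ∀ μ, D.T.Deep (entryChar (ent f 0 1) μ) ((q : ℕ) ^ 2 + 1)}
  zero_mem' := by
    obtain ⟨U, hU, -⟩ := D.local_res.level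
    refine ⟨⟨fun g => by simp, fun a b => by simp, U, hU, fun u _ => rfl⟩, rfl, rfl, rfl,
      fun σ _ => rfl, fun μ => (D.T.deep_zero _).congr fun σ _ => ?_⟩
    simp [entryChar, ent]
  add_mem' := by
    rintro f g ⟨hf, a1, a2, a3, a4, a5⟩ ⟨hg, b1, b2, b3, b4, b5⟩
    refine ⟨hf.add hg, by simp [a1, b1], by simp [a2, b2], by simp [a3, b3],
      fun σ hσ => by simp [a4 σ hσ, b4 σ hσ], fun μ => ((a5 μ).add (b5 μ)).congr fun σ _ => ?_⟩
    simp [entryChar, ent, mul_add]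
  neg_mem' := by
    rintro f ⟨hf, a1, a2, a3, a4, a5⟩
    refine ⟨⟨fun g => by simp [hf.trace g], fun a b => ?_, ?_⟩, by simp [a1], by simp [a2],
      by simp [a3], fun σ hσ => by simp [a4 σ hσ], fun μ => (a5 (-μ)).congr fun σ _ => ?_⟩
    · simp only [Pi.neg_apply, hf.coc, mul_neg, neg_mul, neg_add]
    · obtain ⟨U, hU, h⟩ := hf.level
      exact ⟨U, hU, fun u hu => by simp [h u hu]⟩
    · simp [entryChar, ent]

omit [Finite k] in
theorem eq_zero_on_H {f : Gl q → M2 k} (hf : f ∈ D.normGroup)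
    (h01 : ∀ σ ∈ D.T.H, f σ 0 1 = 0) {σ : Gl q} (hσ : σ ∈ D.T.H) : f σ = 0 := by
  obtain ⟨hf, -, -, -, h00, -⟩ := hf
  obtain ⟨-, -, h1, h2⟩ := D.MFinv_facts
  have h10 : f σ 1 0 = 0 := by
    have h := D.ent_conj_F01 hf hσ
    rw [h01 _ (D.T.conj_mem_H' hσ _)] at h
    refine (mul_eq_zero.mp h.symm).resolve_left (mul_ne_zero (fun h0 => ?_) fun h0 => ?_)
    · rw [h0, zero_mul] at h1; exact zero_ne_one h1
    · rw [h0, mul_zero] at h2; exact zero_ne_one h2
  have htr := hf.trace σ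
  rw [Matrix.trace_fin_two, h00 σ hσ, zero_add] at htr
  ext i j
  fin_cases i <;> fin_cases j <;> simp [h00 σ hσ, h01 σ hσ, h10, htr]

omit [Finite k] in
include D in
theorem eq_zero_of_H {f : Gl q → M2 k} (hf : f ∈ D.normGroup)
    (hH : ∀ σ ∈ D.T.H, f σ = 0) : f = 0 := by
  obtain ⟨hc, hs01, hs10, hF00, -, -⟩ := hf
  have hfix : M D.s * f D.s * M D.s⁻¹ = f D.s := by
    rw [D.M_sinv, D.M_s]
    have h0 : D.α ≠ 0 := D.α_ne_zero
    ext i j
    rw [mul_entry, mul_entry, mul_entry]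
    fin_cases i <;> fin_cases j <;> simp [hs01, hs10, h0, mul_right_comm]
  have hpow : ∀ n : ℕ, f (D.s ^ n) = n • f D.s := by
    intro n
    induction n with
    | zero => rw [pow_zero, hc.map_one, zero_smul]
    | succ n ih =>
      rw [pow_succ', hc.coc, ih, mul_smul_comm, smul_mul_assoc, hfix, succ_nsmul]
  have he : ((D.T.e : ℕ) : k) ≠ 0 := fun h0 =>
    D.T.not_dvd ((CharP.cast_eq_zero_iff k (q : ℕ) _).mp h0)
  have hfs : f D.s = 0 := by
    have hmem : D.s ^ D.T.e ∈ D.T.H := by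
      rw [D.T.mem_H_iff]
      exact ⟨pow_mem D.hs _, by rw [pow_apply_root D.hs D.T.not_dvd D.hξ.pow_eq_one D.hsπ,
        D.hξ.pow_eq_one, one_mul]⟩
    have h1 := hpow D.T.e
    rw [hH _ hmem, eq_comm, ← Nat.cast_smul_eq_nsmul k, smul_eq_zero] at h1
    exact h1.resolve_left he
  have hiner : ∀ i ∈ inerG q, f i = 0 := by
    intro i hi
    obtain ⟨n, -, h, hh, rfl⟩ := D.T.exists_pow_mul_mem_H D.hs D.hξ D.hsπ hi
    rw [hc.apply_mul_of_eq_zero _ (hH h hh), hpow, hfs, smul_zero]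
  have hfF : f D.F = 0 := by
    have hconj : f (D.F * D.s * D.F⁻¹) = 0 := hiner _ (inerG_normal.conj_mem _ D.hs _)
    rw [mul_assoc, hc.coc, hc.coc D.s, hfs, add_zero, hc.map_inv] at hconj
    simp only [mul_neg, neg_mul] at hconj
    have hcomm : M D.F * M D.s * M D.F⁻¹ * f D.F = f D.F * (M D.F * M D.s * M D.F⁻¹) := by
      have h' := eq_of_sub_eq_zero ((sub_eq_neg_add _ _).trans hconj)
      conv_rhs => rw [h']
      simp only [mul_assoc]
      rw [← mul_assoc (M D.F⁻¹) (M D.F), M_inv_mul, one_mul, ← mul_assoc (M D.s⁻¹) (M D.s),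
        M_inv_mul, one_mul, M_mul_inv, mul_one]
    obtain ⟨h00, h11, h1, h2⟩ := D.MFinv_facts
    have e01 := congrFun (congrFun hcomm 0) 1
    have e10 := congrFun (congrFun hcomm 1) 0
    simp only [mul_entry, h00, h11, D.MF00, D.MF11, D.Ms00, D.Ms01, D.Ms10, D.Ms11, mul_zero,
      zero_mul, add_zero, zero_add] at e01 e10
    have hne : D.α ^ (q : ℕ) - D.α ≠ 0 := sub_ne_zero.mpr D.hα
    have f01 : f D.F 0 1 = 0 := by
      refine (mul_eq_zero.mp (?_ : (D.α ^ (q : ℕ) - D.α) * f D.F 0 1 = 0)).resolve_left hne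
      linear_combination e01 - D.α ^ (q : ℕ) * f D.F 0 1 * h2 + D.α * f D.F 0 1 * h1
    have f10 : f D.F 1 0 = 0 := by
      refine (mul_eq_zero.mp (?_ : (D.α ^ (q : ℕ) - D.α) * f D.F 1 0 = 0)).resolve_left hne
      linear_combination -e10 + D.α * f D.F 1 0 * h1 - D.α ^ (q : ℕ) * f D.F 1 0 * h2
    have htr := hc.trace D.F
    rw [Matrix.trace_fin_two, hF00, zero_add] at htr
    ext i j
    fin_cases i <;> fin_cases j <;> simp [hF00, f01, f10, htr]
  funext g
  obtain ⟨U, hU, hfU⟩ := hc.level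
  obtain ⟨n, i, u, hi, hu, rfl⟩ := exists_frobenius_mul_inerG D.hF hU g
  have hFn : f (D.F ^ n) = 0 := by
    induction n with
    | zero => rw [pow_zero, hc.map_one]
    | succ n ih => rw [pow_succ, hc.apply_mul_of_eq_zero _ hfF, ih]
  rw [hc.apply_mul_of_eq_zero _ (hfU u hu), hc.apply_mul_of_eq_zero _ (hiner i hi), hFn]
  rfl

include D in
/-- Every flat deformation has a normalised representative. -/
theorem exists_normalise (hq : (q : ℕ) ≠ 2) (h : FlatDefo M z) :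
    ∃ X : M2 k, X.trace = 0 ∧ z + cobd M X ∈ D.normGroup := by
  have h2 : (2 : k) ≠ 0 := by
    intro h0
    rw [← Nat.cast_ofNat, CharP.cast_eq_zero_iff k (q : ℕ)] at h0
    exact hq ((Nat.prime_dvd_prime_iff_eq q.2 Nat.prime_two).mp h0)
  have h0 : D.α ≠ 0 := D.α_ne_zero
  have hq0 : D.α ^ (q : ℕ) ≠ 0 := pow_ne_zero _ h0
  have hne : D.α - D.α ^ (q : ℕ) ≠ 0 := sub_ne_zero.mpr D.hα.symm
  set X : M2 k := !![z D.F 0 0 / 2, -z D.s 0 1 * D.α ^ (q : ℕ) / (D.α - D.α ^ (q : ℕ));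
    z D.s 1 0 * D.α / (D.α - D.α ^ (q : ℕ)), -(z D.F 0 0 / 2)] with hX
  have htr : X.trace = 0 := by simp [hX, Matrix.trace_fin_two]
  have hflat : FlatDefo M (z + cobd M X) := h.add_cobd D.local_res.level X htr
  refine ⟨X, htr, hflat.toIsAdCoc, ?_, ?_, ?_, fun σ hσ => D.H00_eq_zero hq hflat hσ,
    D.H01_deep hq hflat⟩
  · rw [Pi.add_apply, Matrix.add_apply, cobd, Matrix.sub_apply, D.M_sinv, D.M_s]
    simp [hX, mul_entry]
    field_simp
    ring
  · rw [Pi.add_apply, Matrix.add_apply, cobd, Matrix.sub_apply, D.M_sinv, D.M_s]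
    simp [hX, mul_entry]
    field_simp
    ring
  · obtain ⟨h00, h11, h1, h2'⟩ := D.MFinv_facts
    rw [Pi.add_apply, Matrix.add_apply, cobd, Matrix.sub_apply, mul_entry, mul_entry, mul_entry,
      h00, D.MF00]
    simp [hX]
    field_simp
    linear_combination -(z D.F 0 0) * h2'

include D in
theorem natCard_normGroup_le (hq : (q : ℕ) ≠ 2) (hroot : red D.ξ ^ 2 +
    ((Tame.cy D.s : ℕ) : Res q) = (D.t : Res q) * red D.ξ) :
    Finite D.normGroup ∧ Nat.card D.normGroup ≤ Nat.card k := by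
  have h3 := three_le hq
  have hsq := sq_ge hq
  have htop := D.top_eq hq
  have hn : 1 ≤ (q : ℕ) ^ 2 + 1 := by omega
  have hnt : (q : ℕ) ^ 2 + 1 < D.T.top := by omega
  have hnq : ¬ (q : ℕ) ∣ (q : ℕ) ^ 2 + 1 := fun hd => by
    have := Nat.le_of_dvd one_pos ((Nat.dvd_add_right (dvd_pow_self _ two_ne_zero)).mp hd)
    omega
  let Φ : D.normGroup → (k →+ Res q) := fun f =>
    Tame.leadHom hn hnt hnq (ent (f : Gl q → M2 k) 0 1) f.2.2.2.2.2.2
  have hinj : Function.Injective Φ := by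
    intro f g hfg
    suffices f - g = 0 from sub_eq_zero.mp this
    have hmem := (f - g).2
    set φ : Gl q → M2 k := ((f - g : D.normGroup) : Gl q → M2 k) with hφ
    have hzero : ∀ μ, D.T.lead ((q : ℕ) ^ 2 + 1) (entryChar (ent φ 0 1) μ) = 0 := fun μ => by
      have hsum : entryChar (ent φ 0 1) μ + entryChar (ent (g : Gl q → M2 k) 0 1) μ =
          entryChar (ent (f : Gl q → M2 k) 0 1) μ := by
        funext σ; simp [entryChar, ent, hφ, ← map_add, ← mul_add]
      have h1 := Tame.lead_add hn hnt hnq (hmem.2.2.2.2.2 μ) (g.2.2.2.2.2.2 μ)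
      rw [hsum] at h1
      have h2 : D.T.lead _ (entryChar (ent (f : Gl q → M2 k) 0 1) μ) =
          D.T.lead _ (entryChar (ent (g : Gl q → M2 k) 0 1) μ) := DFunLike.congr_fun hfg μ
      rw [h2] at h1
      exact right_eq_add.mp h1
    have htopd : ∀ μ, D.T.Deep (entryChar (ent φ 0 1) μ) D.T.top :=
      Tame.deep_family hn le_rfl hmem.2.2.2.2.2 fun j h1 h2 hqj hd μ => by
        rcases eq_or_ne j ((q : ℕ) ^ 2 + 1) with rfl | hne
        · exact hzero μ
        · exact (D.layer01 hq hmem.1 hroot (by omega) h2 hqj hd).1 (by omega) hne μ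
    refine Subtype.ext (D.eq_zero_of_H hmem fun σ hσ => D.eq_zero_on_H hmem (fun τ hτ => ?_) hσ)
    exact eq_zero_of_entryChar (φ := ent φ 0 1) fun μ => (htopd μ).eq_zero hτ
  obtain ⟨hfin, hcard⟩ := natCard_quadratic_semilinear_le (p := (q : ℕ))
    (D.αq_sq_pow_ne hroot hq) (red D.ξ ^ ((q : ℕ) ^ 2 + 1)) (Set.range Φ) (by
      rintro _ ⟨f, rfl⟩ x
      have hl := (D.layer01 hq f.2.1 hroot hn hnt hnq f.2.2.2.2.2.2).2
      exact ⟨hl.1 x, hl.2 x⟩)
  haveI := hfin.to_subtype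
  exact ⟨Finite.of_injective (Set.rangeFactorization Φ) fun a b h =>
      hinj (congrArg Subtype.val h),
    (Nat.card_le_card_of_injective (Set.rangeFactorization Φ) fun a b h =>
      hinj (congrArg Subtype.val h)).trans hcard⟩

include D in
theorem flatBound (hq : (q : ℕ) ≠ 2) : FlatBound M := by
  classical
  haveI : Finite (adFixed M) := Subtype.finite
  haveI : Nonempty (adFixed M) := ⟨⟨0, by simp, fun g => by simp⟩⟩
  by_cases hex : ∃ z, FlatDefo M z
  · obtain ⟨z₀, hz₀⟩ := hex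
    obtain ⟨hfin, hcard⟩ := D.natCard_normGroup_le hq (D.root hq hz₀)
    haveI := hfin
    haveI : Finite (D.normGroup ⊓ cobdGroup M : AddSubgroup _) :=
      Finite.of_injective (fun x => (⟨x.1, x.2.1⟩ : D.normGroup))
        fun a b h => Subtype.ext (congrArg (fun y : D.normGroup => (y : Gl q → M2 k)) h)
    refine ⟨D.normGroup, fun f hf => hf.1, hfin, hcard.trans ?_,
      fun z hz => D.exists_normalise hq hz⟩
    exact (Nat.le_mul_of_pos_right _ Nat.card_pos).trans (Nat.le_mul_of_pos_right _ Nat.card_pos)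
  · refine ⟨⊥, fun f hf => ?_, inferInstance, ?_, fun z hz => absurd ⟨z, hz⟩ hex⟩
    · rw [AddSubgroup.mem_bot] at hf
      obtain ⟨U, hU, -⟩ := D.local_res.level
      subst hf
      exact ⟨fun g => by simp, fun a b => by simp, U, hU, fun u _ => rfl⟩
    · rw [bot_inf_eq]
      simp only [AddSubgroup.card_bot, mul_one]
      exact Nat.one_le_iff_ne_zero.mpr (mul_ne_zero Nat.card_pos.ne' Nat.card_pos.ne')

end IrrForm

/-- The bound on flat classes for a two dimensional residual representation with split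
characteristic polynomials and cyclotomic determinant. -/
theorem flatBound [Finite k] (hq : (q : ℕ) ≠ 2) {M : Gl q →* M2 k} (hM : LocalRes M)
    (hsplit : ∀ g, ∃ a b : k,
      (M g).charpoly = (Polynomial.X - Polynomial.C a) * (Polynomial.X - Polynomial.C b)) :
    FlatBound M := by
  by_cases hv : ∃ v : Fin 2 → k, v ≠ 0 ∧ ∀ g, ∃ c : k, M g *ᵥ v = c • v
  · exact flatBound_of_eigenvector hq hM hv
  · obtain ⟨P, ⟨D⟩⟩ := exists_irrForm hq hM hsplit hv
    exact FlatBound.of_conj P (D.flatBound hq)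

end FLTA.TaylorWiles.Flat

end
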