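import Fermat.Agent.TaylorWiles.SelmerBound
import Fermat.Agent.TaylorWiles.FlatGlue
import Fermat.Agent.TaylorWiles.FlatIrreducible
import Fermat.Prelude.Def_GaloisRep_Flat

/-!
# The flat condition
-/

set_option autoImplicit false

open ExtCitation Module

noncomputable section

namespace FLTA.TW

open FLTA.PT

variable (p : ℕ) [Fact p.Prime] {k : Type} [Field k] [Finite k] [Algebra (ZMod p) k]
variable (M : GQ →* Matrix (Fin 2) (Fin 2) k)

/-- Flat first order deformations span at most one dimension more than `H⁰`. -/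
theorem exists_flatCond (hp : p ≠ 2) (hM : Smooth lvlQ (ad0Rep p M))
    (hdet : ∀ g, (M g).det = algebraMap (ZMod p) k (cycloChar p g : ZMod p))
    (hsplit : ∀ g, ∃ a b : k,
      (M g).charpoly = (Polynomial.X - Polynomial.C a) * (Polynomial.X - Polynomial.C b)) :
    ∃ L : Submodule (ZMod p) (H1L (ad0Rep p M) (pPrime p)),
      finrank (ZMod p) L ≤ finrank (ZMod p) (fixedBy ((ad0Rep p M).comp (loc (pPrime p))) ⊤) +
        finrank (ZMod p) k ∧
      ∀ (x : Z1 lvlQ (ad0Rep p M)) (ρ : GaloisRepAdic (DualNumber k)),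
        IsDefoOf M (x : GQ → Ad0 k) ρ → ρ.IsFlatAt p →
          locQ (ad0Rep p M) (pPrime p) (clsQ (ad0Rep p M) x) ∈ L := by
  classical
  by_cases hex : ∃ (x : Z1 lvlQ (ad0Rep p M)) (ρ : GaloisRepAdic (DualNumber k)),
      IsDefoOf M (x : GQ → Ad0 k) ρ ∧ ρ.IsFlatAt p
  swap
  · exact ⟨⊥, by simp, fun x ρ h h' => absurd ⟨x, ρ, h, h'⟩ hex⟩
  obtain ⟨x₀, ρ₀, h₀, -⟩ := hex
  have hchar : CharP k p := charP_of_injective_algebraMap' (ZMod p) p
  have : CharP k (pPrime p : ℕ) := hchar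
  obtain ⟨L, hLfin, hL, hmem⟩ := TaylorWiles.Flat.exists_cond_of_boundBy p M (pPrime p) hM
    (n := Nat.card k) (Q := TaylorWiles.Flat.FlatDefo (M.comp (loc (pPrime p))))
    (TaylorWiles.Flat.flatBound hp (TaylorWiles.Flat.localRes_of_isDefoOf p M hdet _ ρ₀ h₀)
      fun g => hsplit (loc (pPrime p) g))
  refine ⟨L, ?_, fun x ρ h hflat => hmem x (LT2.flatDefo_of_isDefoOf (pPrime p) M _ ρ h hflat)⟩
  have : Finite (Ad0 k) := inferInstance
  rw [Module.natCard_eq_pow_finrank (K := ZMod p) (V := L),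
    Module.natCard_eq_pow_finrank (K := ZMod p) (V := k),
    Module.natCard_eq_pow_finrank (K := ZMod p)
      (V := fixedBy ((ad0Rep p M).comp (loc (pPrime p))) ⊤), Nat.card_zmod, ← pow_add] at hL
  rw [add_comm]
  exact (Nat.pow_le_pow_iff_right (Fact.out : p.Prime).one_lt).mp hL

end FLTA.TW

end
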