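import Fermat.Agent.TaylorWiles.LocalCond
import Fermat.Agent.TaylorWiles.LocalFlat
import Fermat.Agent.TaylorWiles.FlatGlue

/-!
# Deformations which are both flat and strictly ordinary
-/

set_option autoImplicit false

open ExtCitation Module

noncomputable section

namespace FLTA.TW

open FLTA.PT

variable (p : ℕ) [Fact p.Prime] {k : Type} [Field k] [Finite k] [Algebra (ZMod p) k]
variable (M : GQ →* Matrix (Fin 2) (Fin 2) k)

/-- Flat strictly ordinary first order deformations span at most `H⁰`. -/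
theorem exists_flatStrictCond (hp : p ≠ 2) (hM : Smooth lvlQ (ad0Rep p M))
    (hdet : ∀ g, (M g).det = algebraMap (ZMod p) k (cycloChar p g : ZMod p)) :
    ∃ L : Submodule (ZMod p) (H1L (ad0Rep p M) (pPrime p)),
      finrank (ZMod p) L ≤ finrank (ZMod p) (fixedBy ((ad0Rep p M).comp (loc (pPrime p))) ⊤) ∧
      ∀ (x : Z1 lvlQ (ad0Rep p M)) (ρ : GaloisRepAdic (DualNumber k)),
        IsDefoOf M (x : GQ → Ad0 k) ρ → ρ.IsFlatAt p → ρ.IsStrictOrdinaryAt p →
          locQ (ad0Rep p M) (pPrime p) (clsQ (ad0Rep p M) x) ∈ L := by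
  exact FLTA.TaylorWiles.Flat.exists_flatStrictCond' p M hp hM hdet

end FLTA.TW

end
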