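import Fermat.Agent.TaylorWiles.Defs
import Fermat.Agent.Deformation.AdicMatrix

/-!
# First order deformations and cocycles with values in `ad⁰`
-/

set_option autoImplicit false

open ExtCitation Module Matrix

noncomputable section

namespace FLTA.TW

open FLTA.PT

variable {k : Type} [Field k]

/-- The derivative of the determinant. -/
theorem snd_det_defo (A X : Matrix (Fin 2) (Fin 2) k) :
    TrivSqZeroExt.snd ((A.map TrivSqZeroExt.inl + (X * A).map TrivSqZeroExt.inr :
      Matrix (Fin 2) (Fin 2) (DualNumber k)).det) = X.trace * A.det := by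
  simp [Matrix.det_fin_two, Matrix.trace_fin_two, Matrix.mul_apply, Fin.sum_univ_two,
    TrivSqZeroExt.snd_mul]
  ring

variable (p : ℕ) [Fact p.Prime] [Algebra (ZMod p) k] (M : GQ →* Matrix (Fin 2) (Fin 2) k)

/-- A deformation with constant determinant gives a cocycle. -/
theorem exists_cocycle_of_defo [Finite k] (ρ : GaloisRepAdic (DualNumber k))
    (b : Module.Basis (Fin 2) (DualNumber k) ρ.V)
    (hfst : ∀ g, (LinearMap.toMatrix b b (ρ.ρ g)).map TrivSqZeroExt.fst = M g)
    (hdet : ∀ g, TrivSqZeroExt.snd (LinearMap.det (ρ.ρ g)) = 0) :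
    ∃ x : Z1 lvlQ (ad0Rep p M), IsDefoOf M (x : GQ → Ad0 k) ρ := by
  have : Finite (DualNumber k) := inferInstanceAs (Finite (k × k))
  have : IsArtinianRing (DualNumber k) := isArtinian_of_finite
  set N : GQ → Matrix (Fin 2) (Fin 2) (DualNumber k) := fun g => LinearMap.toMatrix b b (ρ.ρ g)
  have hN : ∀ g h, N (g * h) = N g * N h := fun g h => by
    simp only [N, map_mul, LinearMap.toMatrix_mul]
  set S : GQ → Matrix (Fin 2) (Fin 2) k := fun g => (N g).map TrivSqZeroExt.snd
  have hMinv : ∀ g, M g⁻¹ * M g = 1 := fun g => by rw [← map_mul, inv_mul_cancel, map_one]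
  have hdecomp : ∀ g, N g =
      (M g).map TrivSqZeroExt.inl + (S g * M g⁻¹ * M g).map TrivSqZeroExt.inr := fun g => by
    rw [mul_assoc, hMinv, mul_one, ← hfst g]
    ext i j
    · simp [S, N]
    · simp [S, N]
  have htr : ∀ g, (S g * M g⁻¹).trace = 0 := fun g => by
    have h1 := hdet g
    rw [← LinearMap.det_toMatrix b] at h1
    change TrivSqZeroExt.snd (N g).det = 0 at h1
    rw [hdecomp g, snd_det_defo] at h1
    refine (mul_eq_zero.mp h1).resolve_right fun h0 => ?_
    have h2 := congrArg Matrix.det (hMinv g)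
    rw [Matrix.det_mul, h0, mul_zero, Matrix.det_one] at h2
    exact zero_ne_one h2
  have hS : ∀ g h, S (g * h) = M g * S h + S g * M h := fun g h => by
    simp only [S, hN, ← hfst]
    ext i j
    simp [Matrix.mul_apply, Fin.sum_univ_two, TrivSqZeroExt.snd_mul, N]
    ring
  refine ⟨⟨fun g => ⟨S g * M g⁻¹, LinearMap.mem_ker.mpr (htr g)⟩,
    (mem_Z1 _ _).mpr ⟨fun g h => Subtype.ext ?_, ?_⟩⟩, b, fun g => hdecomp g⟩
  · show S (g * h) * M (g * h)⁻¹ = M g * (S h * M h⁻¹) * M g⁻¹ + S g * M g⁻¹
    have hh : M h * M h⁻¹ = 1 := by rw [← map_mul, mul_inv_cancel, map_one]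
    rw [hS, _root_.mul_inv_rev, map_mul, add_mul]
    congr 1
    · simp only [mul_assoc]
    · rw [mul_assoc (S g), ← mul_assoc (M h), hh, one_mul]
  · obtain ⟨L, hL, hlvl⟩ := Deformation.exists_level_eq_one_of_artinian ρ
    refine ⟨ρ.ρ.toHomUnits.ker, ⟨inferInstance, L, hL, fun s hs => Units.ext ?_⟩,
      fun g s hs => Subtype.ext ?_⟩
    · have h1 := hlvl s fun x hx => (IntermediateField.mem_fixingSubgroup_iff L s).mp hs x hx
      rw [Deformation.toMat_apply, ← LinearMap.toMatrix_one (Deformation.repBasis ρ)] at h1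
      exact (LinearMap.toMatrix _ _).injective h1
    · have hρ : ρ.ρ s = 1 := congrArg Units.val (MonoidHom.mem_ker.mp hs)
      have hNs : N s = 1 := by simp [N, hρ, LinearMap.toMatrix_one]
      have hMs : M s⁻¹ = 1 := by
        have h1 : M s = 1 := by
          rw [← hfst s]
          show (N s).map TrivSqZeroExt.fst = 1
          rw [hNs]
          exact Matrix.map_one _ (by simp) (by simp)
        have h2 := hMinv s
        rwa [h1, mul_one] at h2
      show S (g * s) * M (g * s)⁻¹ = S g * M g⁻¹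
      rw [_root_.mul_inv_rev, map_mul, hMs, one_mul]
      simp only [S, hN, hNs, mul_one]

/-- Cohomologous cocycles give isomorphic deformations. -/
theorem isEquiv_of_clsQ_eq {x y : Z1 lvlQ (ad0Rep p M)} {ρ ρ' : GaloisRepAdic (DualNumber k)}
    (hx : IsDefoOf M (x : GQ → Ad0 k) ρ) (hy : IsDefoOf M (y : GQ → Ad0 k) ρ')
    (h : clsQ (ad0Rep p M) x = clsQ (ad0Rep p M) y) : ρ.IsEquiv ρ' := by
  obtain ⟨bx, hbx⟩ := hx
  obtain ⟨by', hby⟩ := hy
  obtain ⟨v, hv⟩ := (Submodule.Quotient.eq _).mp h
  have hxy : ∀ g, ((x : GQ → Ad0 k) g).1 =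
      ((y : GQ → Ad0 k) g).1 + (M g * v.1 * M g⁻¹ - v.1) := fun g => by
    have h1 := congrArg Subtype.val (congrFun hv g)
    simp only [d0_apply, Submodule.coe_subtype, Submodule.coe_sub, Pi.sub_apply,
      coe_ad0Rep_apply] at h1
    rw [h1]
    abel
  let U : (Matrix (Fin 2) (Fin 2) (DualNumber k))ˣ :=
    { val := 1 - v.1.map TrivSqZeroExt.inr
      inv := 1 + v.1.map TrivSqZeroExt.inr
      val_inv := by
        have h0 : v.1.map TrivSqZeroExt.inr * v.1.map TrivSqZeroExt.inr =
            (0 : Matrix (Fin 2) (Fin 2) (DualNumber k)) := by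
          ext i j <;> simp [Matrix.mul_apply]
        rw [sub_mul, mul_add, mul_add, one_mul, one_mul, mul_one, h0]
        abel
      inv_val := by
        have h0 : v.1.map TrivSqZeroExt.inr * v.1.map TrivSqZeroExt.inr =
            (0 : Matrix (Fin 2) (Fin 2) (DualNumber k)) := by
          ext i j <;> simp [Matrix.mul_apply]
        rw [add_mul, mul_sub, mul_sub, one_mul, one_mul, mul_one, h0]
        abel }
  obtain ⟨e, he⟩ := Deformation.exists_equivariant_of_conj ρ.ρ ρ'.ρ bx by' U fun g => by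
    rw [hbx g, hby g]
    show (1 + v.1.map TrivSqZeroExt.inr) * defoMat M x g * (1 - v.1.map TrivSqZeroExt.inr) =
      defoMat M y g
    have hMinv : M g⁻¹ * M g = 1 := by rw [← map_mul, inv_mul_cancel, map_one]
    have key : ((x : GQ → Ad0 k) g).1 * M g + v.1 * M g - M g * v.1 =
        ((y : GQ → Ad0 k) g).1 * M g := by
      rw [hxy g, add_mul, sub_mul, mul_assoc (M g * v.1), hMinv, mul_one]
      abel
    unfold defoMat
    rw [← key]
    ext i j
    · simp [Matrix.mul_apply, Fin.sum_univ_two, Matrix.one_apply, apply_ite TrivSqZeroExt.fst]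
      fin_cases i <;> fin_cases j <;> simp
    · simp [Matrix.mul_apply, Fin.sum_univ_two, Matrix.one_apply, apply_ite TrivSqZeroExt.fst,
        apply_ite TrivSqZeroExt.snd, TrivSqZeroExt.snd_mul]
      fin_cases i <;> fin_cases j <;> simp <;> ring
  exact ⟨⟨e, he⟩⟩

end FLTA.TW

end

noncomputable section

namespace FLTA.TW

open IsLocalRing

/-- A basis of a lift in which it reduces exactly to the chosen matrices of `ρbar`. -/
theorem exists_frame {𝒪 : Type} [CommRing 𝒪] [IsLocalRing 𝒪] {R : Type} [CommRing R]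
    [IsLocalRing R] [Algebra 𝒪 R] [IsLocalHom (algebraMap 𝒪 R)]
    (ρbar : ResidualGaloisRep (ResidueField 𝒪)) (ρ : GaloisRepAdic R)
    (h : ρ.residual.IsEquiv (ρbar.baseChangeAlong (ResidueField.map (algebraMap 𝒪 R)))) :
    ∃ b : Module.Basis (Fin 2) R ρ.V, ∀ g,
      (LinearMap.toMatrix b b (ρ.ρ g)).map (residue R) =
        (Deformation.barMat ρbar g).map (ResidueField.map (algebraMap 𝒪 R)) := by
  obtain ⟨e⟩ := h
  let ι := ResidueField.map (algebraMap 𝒪 R)
  let _ : Algebra (ResidueField 𝒪) (ResidueField R) := ι.toAlgebra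
  let b₀ : Module.Basis (Fin 2) (ResidueField R) ρ.residual.V :=
    Algebra.TensorProduct.basis (ResidueField R) (Deformation.repBasis ρ)
  let b' : Module.Basis (Fin 2) (ResidueField R) (ρbar.baseChangeAlong ι).V :=
    Algebra.TensorProduct.basis (ResidueField R) (Deformation.barBasis ρbar)
  let c : Module.Basis (Fin 2) (ResidueField R) ρ.residual.V := b'.map e.toLinearEquiv.symm
  have hc : ∀ g, LinearMap.toMatrix c c (ρ.residual.ρ g) =
      (Deformation.barMat ρbar g).map ι := fun g => by
    have h1 : LinearMap.toMatrix b' b' ((ρbar.baseChangeAlong ι).ρ g) =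
        (Deformation.barMat ρbar g).map ι :=
      LinearMap.toMatrix_baseChange (A := ResidueField R) (ρbar.ρ g) (Deformation.barBasis ρbar)
        (Deformation.barBasis ρbar)
    rw [← h1]
    ext i j
    simp only [LinearMap.toMatrix_apply, c, Module.Basis.map_apply, Module.Basis.map_repr,
      LinearEquiv.trans_apply, LinearEquiv.symm_symm, e.map_apply, LinearEquiv.apply_symm_apply]
    rfl
  let P : Matrix (Fin 2) (Fin 2) (ResidueField R) := b₀.toMatrix c
  choose Q hQ using fun i j => residue_surjective (R := R) (P i j)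
  have hQP : (Matrix.of Q).map (residue R) = P := Matrix.ext fun i j => hQ i j
  have hP : IsUnit P.det := by
    refine Matrix.isUnit_det_of_left_inverse (B := c.toMatrix b₀) ?_
    exact Module.Basis.toMatrix_mul_toMatrix_flip c b₀
  have hdet : IsUnit (Matrix.of Q).det := by
    have h1 : residue R (Matrix.of Q).det = P.det := by
      rw [RingHom.map_det, RingHom.mapMatrix_apply, hQP]
    refine (not_not (a := IsUnit (Matrix.of Q).det)).mp fun hn => hP.ne_zero ?_
    rw [← h1]
    exact (residue_eq_zero_iff _).mpr hn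
  let u : ρ.V ≃ₗ[R] ρ.V :=
    Matrix.toLinearEquiv (Deformation.repBasis ρ) (Matrix.of Q) hdet
  let b : Module.Basis (Fin 2) R ρ.V := (Deformation.repBasis ρ).map u
  have hb : (Deformation.repBasis ρ).toMatrix b = Matrix.of Q := by
    ext i j
    simp [Module.Basis.toMatrix_apply, b, u, Matrix.toLinearEquiv, Matrix.toLin_self,
      Finsupp.single_apply]
    fin_cases i <;> simp
  refine ⟨b, fun g => ?_⟩
  rw [← hc g]
  have e1 : (Deformation.repBasis ρ).toMatrix b * LinearMap.toMatrix b b (ρ.ρ g) =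
      LinearMap.toMatrix (Deformation.repBasis ρ) (Deformation.repBasis ρ) (ρ.ρ g) *
        (Deformation.repBasis ρ).toMatrix b := by
    rw [basis_toMatrix_mul_linearMap_toMatrix, linearMap_toMatrix_mul_basis_toMatrix]
  have e2 : b₀.toMatrix c * LinearMap.toMatrix c c (ρ.residual.ρ g) =
      LinearMap.toMatrix b₀ b₀ (ρ.residual.ρ g) * b₀.toMatrix c := by
    rw [basis_toMatrix_mul_linearMap_toMatrix, linearMap_toMatrix_mul_basis_toMatrix]
  have h0 : LinearMap.toMatrix b₀ b₀ (ρ.residual.ρ g) =
      (LinearMap.toMatrix (Deformation.repBasis ρ) (Deformation.repBasis ρ) (ρ.ρ g)).map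
        (residue R) :=
    LinearMap.toMatrix_baseChange (A := ResidueField R) (ρ.ρ g) (Deformation.repBasis ρ)
      (Deformation.repBasis ρ)
  have e3 := congrArg (fun X => X.map (residue R)) e1
  simp only [Matrix.map_mul] at e3
  rw [hb, hQP, ← h0, ← e2] at e3
  have hPi : IsUnit P := (Matrix.isUnit_iff_isUnit_det P).mpr hP
  exact hPi.mul_left_cancel e3

end FLTA.TW

end
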