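import Fermat.Agent.TaylorWiles.Defs
import Fermat.Agent.Deformation.AdicMatrix
import Fermat.Agent.PoitouTate.HasseBase
import Fermat.Prelude.Def_GaloisRep_LocalConditions

/-!
# Basic properties of the adjoint representations attached to `ρbar`
-/

set_option autoImplicit false

open ExtCitation Module Matrix

noncomputable section

namespace FLTA.TW

open FLTA.PT

variable (p : ℕ) [Fact p.Prime] {k : Type} [Field k] [Algebra (ZMod p) k]
variable (M : GQ →* Matrix (Fin 2) (Fin 2) k)

theorem mul_inv_matrix (g : GQ) : M g * M g⁻¹ = 1 := by rw [← map_mul, mul_inv_cancel, map_one]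

theorem finrank_zmod_eq_mul (V : Type) [AddCommGroup V] [Module k V] [Module (ZMod p) V]
    [Module.Finite k V] :
    finrank (ZMod p) V = finrank (ZMod p) k * finrank k V := by
  have : IsScalarTower (ZMod p) k V := ⟨fun a b v => by
    rw [← ZMod.natCast_zmod_val a]
    simp [Nat.cast_smul_eq_nsmul, mul_smul]⟩
  exact (Module.finrank_mul_finrank (ZMod p) k V).symm

theorem finrank_ad0 : finrank (ZMod p) (Ad0 k) = finrank (ZMod p) k * 3 := by
  rw [finrank_zmod_eq_mul p (k := k) (Ad0 k)]
  congr 1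
  have hs : Function.Surjective (Matrix.traceLinearMap (Fin 2) k k) := fun a =>
    ⟨!![a, 0; 0, 0], by simp [Matrix.trace_fin_two]⟩
  have h1 := LinearMap.finrank_range_add_finrank_ker (Matrix.traceLinearMap (Fin 2) k k)
  rw [LinearMap.range_eq_top.mpr hs, finrank_top, Module.finrank_self, Module.finrank_matrix,
    Fintype.card_fin, Module.finrank_self] at h1
  show finrank k (LinearMap.ker _) = 3
  omega

theorem two_ne_zero_of (hp : p ≠ 2) : (2 : k) ≠ 0 := by
  have hpp : p.Prime := Fact.out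
  have : CharP k p := charP_of_injective_algebraMap (algebraMap (ZMod p) k).injective p
  intro h
  have h2 : p ∣ 2 := (CharP.cast_eq_zero_iff k p 2).mp (by exact_mod_cast h)
  exact hp ((Nat.prime_dvd_prime_iff_eq hpp Nat.prime_two).mp h2)

theorem ad0Pairing_perfect [Finite k] (hp : p ≠ 2) : (ad0Pairing p M).Perfect := by
  have h2 := two_ne_zero_of p (k := k) hp
  have : Finite (Matrix (Fin 2) (Fin 2) k) := inferInstanceAs (Finite (Fin 2 → Fin 2 → k))
  have : Module.Finite (ZMod p) k := Module.Finite.of_finite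
  have : Module.Finite (ZMod p) (Ad0 k) := Module.Finite.of_finite
  have h0 : ∀ X : Ad0 k, (∀ Y : Ad0 k, (ad0Pairing p M).e X Y = 0) → X = 0 := by
    intro X hX
    have hk : ∀ a : k, (∀ c : k, Algebra.trace (ZMod p) k (c * a) = 0) → a = 0 := fun a ha =>
      (traceForm_nondegenerate (ZMod p) k).1 a fun c => by
        rw [Algebra.traceForm_apply, mul_comm]; exact ha c
    have htr : ∀ Y : Ad0 k, (X.1 * Y.1).trace = 0 := fun Y => hk _ fun c => by
      have h := hX ⟨c • Y.1, Submodule.smul_mem _ c Y.2⟩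
      simpa [ad0Pairing, Matrix.mul_smul, Matrix.trace_smul] using h
    have hX2 : X.1 1 1 = -X.1 0 0 := by
      have := X.2
      rw [LinearMap.mem_ker, Matrix.traceLinearMap_apply, Matrix.trace_fin_two] at this
      linear_combination this
    have hH := htr ⟨!![1, 0; 0, -1], by simp [Matrix.trace_fin_two]⟩
    have hE := htr ⟨!![0, 1; 0, 0], by simp [Matrix.trace_fin_two]⟩
    have hF := htr ⟨!![0, 0; 1, 0], by simp [Matrix.trace_fin_two]⟩
    simp [Matrix.trace_fin_two, Matrix.mul_apply, Fin.sum_univ_two] at hH hE hF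
    have h00 : X.1 0 0 = 0 := by
      rw [hX2] at hH
      exact (mul_eq_zero.mp (show (2 : k) * X.1 0 0 = 0 by linear_combination hH)).resolve_left h2
    refine Subtype.ext (Matrix.ext fun i j => ?_)
    fin_cases i <;> fin_cases j <;> simp_all
  have hinj : Function.Injective (ad0Pairing p M).e :=
    (injective_iff_map_eq_zero _).mpr fun X hX => h0 X fun Y => by rw [hX]; rfl
  have hinj' : Function.Injective (ad0Pairing p M).e.flip :=
    (injective_iff_map_eq_zero _).mpr fun Y hY => h0 Y fun X => by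
      have h := LinearMap.congr_fun hY X
      simp only [ad0Pairing, LinearMap.flip_apply, LinearMap.mk₂_apply, LinearMap.zero_apply] at h ⊢
      rwa [Matrix.trace_mul_comm]
  have hdim : finrank (ZMod p) (Ad0 k) = finrank (ZMod p) (Module.Dual (ZMod p) (Ad0 k)) :=
    Subspace.dual_finrank_eq.symm
  exact ⟨⟨hinj, (LinearMap.injective_iff_surjective_of_finrank_eq_finrank hdim).mp hinj⟩,
    ⟨hinj', (LinearMap.injective_iff_surjective_of_finrank_eq_finrank hdim).mp hinj'⟩⟩

theorem ad0Rep_eq_one {g : GQ} (h : M g = 1) : ad0Rep p M g = 1 := by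
  refine LinearMap.ext fun X => Subtype.ext ?_
  have h' : M g⁻¹ = 1 := by simpa [h] using mul_inv_matrix M g
  simp [h, h']

theorem ad0Dual_eq_one {g : GQ} (h : M g = 1) (hc : cycloChar p g = 1) : ad0Dual p M g = 1 :=
  LinearMap.ext fun X => by rw [ad0Dual_apply, ad0Rep_eq_one p M h, hc, Units.val_one, one_smul]

/-- The kernel of `M` is a level of `G_T` when `M` is unramified outside `T`. -/
theorem exists_level_lvlS (T : Finset Nat.Primes)
    (hfin : GaloisFactorsThroughFiniteLevel M)
    (hur : ∀ q : Nat.Primes, q ∉ T → ∀ A : ValuationSubring Qb, A.LiesOverPrime (q : ℕ) →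
      ∀ s ∈ A.inertiaSubgroupIn ℚ, M s = 1) :
    ∃ U ∈ lvlS T, ∀ s ∈ U, M s = 1 := by
  obtain ⟨F, hF, hF1⟩ := hfin
  refine ⟨M.toHomUnits.ker, Hasse.mem_lvlS_of_inertia_le ⟨inferInstance, F, hF, fun s hs => ?_⟩ ?_,
    fun s hs => congrArg Units.val (MonoidHom.mem_ker.mp hs)⟩
  · exact Units.ext (hF1 s fun x hx => (IntermediateField.mem_fixingSubgroup_iff F s).mp hs x hx)
  · exact fun q hq A hA s hs => Units.ext (hur q hq A hA s hs)

theorem smooth_ad0Rep {L : Lvl GQ} (h : ∃ U ∈ L, ∀ s ∈ U, M s = 1) :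
    Smooth L (ad0Rep p M) := fun v => by
  obtain ⟨U, hU, hM⟩ := h
  exact ⟨U, hU, fun s hs => by rw [ad0Rep_eq_one p M (hM s hs)]; rfl⟩

/-- The kernel of the cyclotomic character is a level of `G_T`. -/
theorem exists_level_cycloChar {T : Finset Nat.Primes} (hpT : pPrime p ∈ T) :
    ∃ U ∈ lvlS T, ∀ s ∈ U, cycloChar p s = 1 := by
  have : NeZero p := ⟨(Fact.out : p.Prime).ne_zero⟩
  obtain ⟨z, hz⟩ := HasEnoughRootsOfUnity.exists_primitiveRoot Qb p
  have : FiniteDimensional ℚ (IntermediateField.adjoin ℚ {z}) :=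
    IntermediateField.adjoin.finiteDimensional ((hz.isIntegral (NeZero.pos p)).tower_top)
  refine ⟨(cycloChar p).ker, Hasse.mem_lvlS_of_inertia_le
    ⟨inferInstance, IntermediateField.adjoin ℚ {z}, inferInstance, fun s hs => ?_⟩
    (fun q hq A hA s hs => ?_), fun s hs => MonoidHom.mem_ker.mp hs⟩
  · refine MonoidHom.mem_ker.mpr (Units.ext ?_)
    have hsz : s z = z :=
      (IntermediateField.mem_fixingSubgroup_iff _ s).mp hs z
        (IntermediateField.mem_adjoin_simple_self ℚ z)
    refine (modularCyclotomicCharacter.unique Qb _ (s : Qb ≃+* Qb) fun t ht => ?_).symm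
    obtain ⟨i, -, hi⟩ := hz.eq_pow_of_pow_eq_one (ξ := (t : Qb))
      (by rw [← Units.val_pow_eq_pow_val, ht, Units.val_one])
    rw [Units.val_one, ZMod.val_one, pow_one, ← hi]
    show s (z ^ i) = z ^ i
    rw [map_pow, hsz]
  · rw [MonoidHom.mem_ker]
    refine Units.ext ?_
    rw [coe_cycloChar, FLTA.Galois.cycloExp_inertia p q.2 (fun h => hq ?_) hA hs, Units.val_one]
    rwa [show q = pPrime p from Subtype.ext h]

theorem smooth_ad0Dual {T : Finset Nat.Primes} (hpT : pPrime p ∈ T)
    (h : ∃ U ∈ lvlS T, ∀ s ∈ U, M s = 1) :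
    Smooth (lvlS T) (ad0Dual p M) := fun v => by
  obtain ⟨U, hU, hM⟩ := h
  obtain ⟨U', hU', hc⟩ := exists_level_cycloChar p hpT
  refine ⟨U ⊓ U', (lvlS T).inf_mem U hU _ hU', fun s hs => ?_⟩
  rw [ad0Dual_eq_one p M (hM s hs.1) (hc s hs.2)]; rfl

theorem smooth_lvlQ_of_lvlS {T : Finset Nat.Primes} {V : Type} [AddCommGroup V]
    [Module (ZMod p) V] {ρ : Representation (ZMod p) GQ V} (h : Smooth (lvlS T) ρ) :
    Smooth lvlQ ρ := fun v => by
  obtain ⟨U, ⟨hn, F, hF, hle⟩, hfix⟩ := h v
  exact ⟨U, ⟨hn, F, hF.1, hle⟩, hfix⟩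

/-- No invariants in `ad⁰` for an absolutely irreducible representation. -/
theorem fixedBy_ad0_top (hp : p ≠ 2) (ρbar : ResidualGaloisRep k) (habs : ρbar.IsAbsolutelyIrreducible)
    (hM : M = Deformation.barMat ρbar) : fixedBy (ad0Rep p M) ⊤ = ⊥ := by
  rw [eq_bot_iff]
  intro X hX
  have hcomm : ∀ g, M g * X.1 = X.1 * M g := fun g => by
    have h1 := congrArg Subtype.val (hX g (Subgroup.mem_top g))
    rw [coe_ad0Rep_apply] at h1
    conv_rhs => rw [← h1]
    rw [mul_assoc (M g * X.1), ← map_mul, inv_mul_cancel, map_one, mul_one]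
  have hall : ∀ Y : Matrix (Fin 2) (Fin 2) k, Y * X.1 = X.1 * Y := fun Y => by
    obtain ⟨y, rfl⟩ := Deformation.surjective_span_of_absIrr ρbar habs Y
    rw [← hM]
    induction y using MonoidAlgebra.induction_linear with
    | zero => simp
    | add y y' hy hy' => rw [map_add, add_mul, mul_add, hy, hy']
    | single g a =>
      rw [Deformation.repExt_single, RingHom.id_apply, Matrix.smul_mul, Matrix.mul_smul, hcomm]
  have h2 := two_ne_zero_of p (k := k) hp
  have htr := X.2
  rw [LinearMap.mem_ker, Matrix.traceLinearMap_apply, Matrix.trace_fin_two] at htr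
  have hE := congrFun₂ (hall !![0, 1; 0, 0]) 0 1
  have hE0 := congrFun₂ (hall !![0, 1; 0, 0]) 0 0
  have hF := congrFun₂ (hall !![0, 0; 1, 0]) 0 0
  simp [Matrix.mul_apply, Fin.sum_univ_two] at hE hE0 hF
  rw [Submodule.mem_bot]
  have h00 : X.1 0 0 = 0 := by
    exact (mul_eq_zero.mp (show (2 : k) * X.1 0 0 = 0 by linear_combination htr - hE)).resolve_left h2
  refine Subtype.ext (Matrix.ext fun i j => ?_)
  fin_cases i <;> fin_cases j <;> simp_all

/-- Complex conjugation fixes at most two dimensions of the dual. -/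
theorem finrank_fixedBy_conj_le [Finite k] (c : GQ) (hc : c * c = 1)
    (hχ : (cycloChar p c : ZMod p) = -1) (hp : p ≠ 2)
    (hdet : (M c).det = algebraMap (ZMod p) k (cycloChar p c : ZMod p)) :
    finrank (ZMod p) (fixedBy (ad0Dual p M) (Subgroup.zpowers c)) ≤ finrank (ZMod p) k * 2 := by
  have h2 := two_ne_zero_of p (k := k) hp
  have hci : c⁻¹ = c := inv_eq_of_mul_eq_one_right hc
  have hsq : M c * M c = 1 := by rw [← map_mul, hc, map_one]
  set J := M c with hJdef
  have hd : J.det = -1 := by rw [hdet, hχ, map_neg, map_one]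
  have htrJ : J.trace = 0 := by
    have e00 := congrFun₂ hsq 0 0
    have e11 := congrFun₂ hsq 1 1
    simp [Matrix.mul_apply, Fin.sum_univ_two] at e00 e11
    rw [Matrix.det_fin_two] at hd
    rw [Matrix.trace_fin_two]
    have : (J 0 0 + J 1 1) * (J 0 0 + J 1 1) = 0 := by linear_combination e00 + e11 + 2 * hd
    exact mul_self_eq_zero.mp this
  let Φ : Ad0 k →ₗ[k] Matrix (Fin 2) (Fin 2) k :=
    (LinearMap.mulLeft k J).comp ((LinearMap.mulRight k J).comp (Submodule.subtype _)) +
      Submodule.subtype _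
  have hsub : (fixedBy (ad0Dual p M) (Subgroup.zpowers c) : Set (Ad0 k)) ⊆ LinearMap.ker Φ := by
    intro X hX
    have h1 := congrArg Subtype.val (hX c (Subgroup.mem_zpowers c))
    rw [ad0Dual_apply, hχ, Submodule.coe_smul_of_tower, coe_ad0Rep_apply, hci, neg_one_smul] at h1
    show J * (X.1 * J) + X.1 = 0
    rw [← mul_assoc]
    conv_lhs => arg 2; rw [← h1]
    exact add_neg_cancel _
  have hle : finrank k (LinearMap.ker Φ) ≤ 2 := by
    have hne : LinearMap.ker Φ ≠ ⊤ := by
      intro h
      have hJ : (⟨J, LinearMap.mem_ker.mpr htrJ⟩ : Ad0 k) ∈ LinearMap.ker Φ := h ▸ Submodule.mem_top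
      change J * (J * J) + J = 0 at hJ
      rw [hsq, mul_one] at hJ
      have h0 : J = 0 := by
        have : (2 : k) • J = 0 := by rw [two_smul]; exact hJ
        exact (smul_eq_zero.mp this).resolve_left h2
      rw [h0, zero_mul] at hsq
      exact zero_ne_one hsq
    have h3 : finrank k (Ad0 k) = 3 := by
      have h4 := finrank_ad0 p (k := k)
      rw [finrank_zmod_eq_mul p (k := k) (Ad0 k)] at h4
      have : Module.Finite (ZMod p) k := Module.Finite.of_finite
      exact Nat.eq_of_mul_eq_mul_left Module.finrank_pos h4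
    have := Submodule.finrank_lt hne
    omega
  have : Finite (Ad0 k) := inferInstance
  have : Module.Finite (ZMod p) (Ad0 k) := Module.Finite.of_finite
  let K : Submodule (ZMod p) (Ad0 k) :=
    { carrier := LinearMap.ker Φ
      add_mem' := fun hx hy => add_mem hx hy
      zero_mem' := zero_mem _
      smul_mem' := fun a x hx => by
        rw [← ZMod.natCast_zmod_val a, Nat.cast_smul_eq_nsmul]
        exact nsmul_mem hx _ }
  calc finrank (ZMod p) (fixedBy (ad0Dual p M) (Subgroup.zpowers c))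
      ≤ finrank (ZMod p) K := Submodule.finrank_mono hsub
    _ = finrank (ZMod p) k * finrank k (LinearMap.ker Φ) :=
        finrank_zmod_eq_mul p (k := k) (LinearMap.ker Φ)
    _ ≤ finrank (ZMod p) k * 2 := Nat.mul_le_mul_left _ hle

/-- The determinant of `ρbar` is the mod `p` cyclotomic character. -/
theorem det_eq_cycloChar (ρbar : ResidualGaloisRep k)
    (hdet : (GaloisRepAdic.ofResidualGaloisRep ρbar).DetIsCyclotomic p) (g : GQ) :
    (Deformation.barMat ρbar g).det = algebraMap (ZMod p) k (cycloChar p g : ZMod p) := by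
  have hpp : p.Prime := Fact.out
  have : NeZero p := ⟨hpp.ne_zero⟩
  have : CharP k p := charP_of_injective_algebraMap (algebraMap (ZMod p) k).injective p
  set a := (cycloChar p g : ZMod p).val
  have h1 := hdet.2 1 g a fun μ hμ => by
    rw [pow_one] at hμ
    have hmem : (rootsOfUnity.mkOfPowEq μ hμ : Qbˣ) ∈ rootsOfUnity p Qb :=
      (rootsOfUnity.mkOfPowEq μ hμ).2
    have h := modularCyclotomicCharacter.spec Qb (card_rootsOfUnity_eq_self p) (g : Qb ≃+* Qb) hmem
    simpa [a, cycloChar] using h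
  rw [pow_one, show ((p : ℕ) : k) = 0 from CharP.cast_eq_zero k p] at h1
  have h2 : LinearMap.det (ρbar.ρ g) = (a : k) := by
    rw [← sub_eq_zero]
    rw [Ideal.span_singleton_eq_bot.mpr rfl, Ideal.mem_bot] at h1
    exact h1
  calc (Deformation.barMat ρbar g).det = LinearMap.det (ρbar.ρ g) :=
        LinearMap.det_toMatrix (Deformation.barBasis ρbar) _
    _ = algebraMap (ZMod p) k (cycloChar p g : ZMod p) := by
        rw [h2, ← map_natCast (algebraMap (ZMod p) k), ZMod.natCast_zmod_val]

end FLTA.TW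

end
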