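import Fermat.Agent.TaylorWiles.Generators
import Fermat.Agent.TaylorWiles.Defo
import Fermat.Agent.TaylorWiles.Setup
import Fermat.Agent.RT.DeformClosed
import Fermat.Prelude.Def_GaloisRep_DeformationRingData

/-!
# The tangent space of a deformation ring and Selmer groups
-/

set_option autoImplicit false

open ExtCitation Module IsLocalRing

noncomputable section

namespace FLTA.TW

open FLTA.PT

variable {𝒪 : Type} [CommRing 𝒪] [IsLocalRing 𝒪] [Finite (ResidueField 𝒪)]
variable (p : ℕ) [Fact p.Prime] [Algebra (ZMod p) (ResidueField 𝒪)]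
variable (ρbar : ResidualGaloisRep (ResidueField 𝒪))
variable {R : Type} [CommRing R] [IsLocalRing R] [Algebra 𝒪 R] [IsLocalHom (algebraMap 𝒪 R)]

omit [Finite (ResidueField 𝒪)] in
/-- The constant term of a map to the dual numbers is the residue. -/
theorem fst_apply_eq (hres : Function.Surjective (residue R ∘ algebraMap 𝒪 R))
    (φ : letI := Deformation.dualAlgebra 𝒪; R →ₐ[𝒪] DualNumber (ResidueField 𝒪))
    (hφ : IsLocalHom (φ : R →+* DualNumber (ResidueField 𝒪))) {r : R} {a : ResidueField 𝒪}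
    (h : residue R r = ResidueField.map (algebraMap 𝒪 R) a) :
    TrivSqZeroExt.fst ((φ : R →+* DualNumber (ResidueField 𝒪)) r) = a := by
  letI := Deformation.dualAlgebra 𝒪
  obtain ⟨c, rfl⟩ := residue_surjective a
  rw [ResidueField.map_residue] at h
  have h1 : TrivSqZeroExt.fst (φ (r - algebraMap 𝒪 R c)) = 0 :=
    (Deformation.mem_maximalIdeal_dual _).mp
      (map_nonunit (φ : R →+* DualNumber (ResidueField 𝒪)) _ (Ideal.Quotient.eq.mp h))
  rw [map_sub, TrivSqZeroExt.fst_sub, AlgHom.commutes, sub_eq_zero] at h1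
  exact h1

/-- Every push to the dual numbers is a deformation given by a cocycle. -/
theorem exists_cocycle_of_push (hres : Function.Surjective (residue R ∘ algebraMap 𝒪 R))
    (ρ : GaloisRepAdic R)
    (hresid : ρ.residual.IsEquiv (ρbar.baseChangeAlong (ResidueField.map (algebraMap 𝒪 R))))
    (hcyc : ρ.DetIsCyclotomic p)
    (φ : letI := Deformation.dualAlgebra 𝒪; R →ₐ[𝒪] DualNumber (ResidueField 𝒪))
    (hφ : IsLocalHom (φ : R →+* DualNumber (ResidueField 𝒪))) :
    ∃ x : Z1 lvlQ (ad0Rep p (Deformation.barMat ρbar)),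
      IsDefoOf (Deformation.barMat ρbar) (x : GQ → Ad0 (ResidueField 𝒪))
        (ρ.baseChangeAlong (φ : R →+* DualNumber (ResidueField 𝒪)) hφ) := by
  letI := Deformation.dualAlgebra 𝒪
  obtain ⟨b₀, hb₀⟩ := exists_frame ρbar ρ hresid
  let φ' : R →+* DualNumber (ResidueField 𝒪) := φ
  let _ : Algebra R (DualNumber (ResidueField 𝒪)) := φ'.toAlgebra
  let b : Module.Basis (Fin 2) (DualNumber (ResidueField 𝒪)) (ρ.baseChangeAlong φ' hφ).V :=
    Algebra.TensorProduct.basis (DualNumber (ResidueField 𝒪)) b₀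
  have hb : ∀ g, LinearMap.toMatrix b b ((ρ.baseChangeAlong φ' hφ).ρ g) =
      (LinearMap.toMatrix b₀ b₀ (ρ.ρ g)).map φ' := fun g =>
    LinearMap.toMatrix_baseChange (A := DualNumber (ResidueField 𝒪)) (ρ.ρ g) b₀ b₀
  refine exists_cocycle_of_defo p (Deformation.barMat ρbar) (ρ.baseChangeAlong φ' hφ) b
    (fun g => ?_) (fun g => ?_)
  · ext i j
    rw [hb g]
    exact fst_apply_eq hres φ hφ (congrFun₂ (hb₀ g) i j)
  · rw [← LinearMap.det_toMatrix b, hb g, ← RingHom.mapMatrix_apply, ← RingHom.map_det,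
      LinearMap.det_toMatrix]
    have : NeZero p := ⟨(Fact.out : p.Prime).ne_zero⟩
    set a := (cycloChar p g : ZMod p).val with ha
    obtain ⟨u, hu⟩ := Ideal.mem_span_singleton'.mp (hcyc.2 1 g a fun μ hμ => by
      rw [pow_one] at hμ
      have hmem : (rootsOfUnity.mkOfPowEq μ hμ : Qbˣ) ∈ rootsOfUnity p Qb :=
        (rootsOfUnity.mkOfPowEq μ hμ).2
      have h := modularCyclotomicCharacter.spec Qb (card_rootsOfUnity_eq_self p)
        (g : Qb ≃+* Qb) hmem
      simpa [a, cycloChar] using h)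
    rw [pow_one] at hu
    have hp0 : ((p : ℕ) : DualNumber (ResidueField 𝒪)) = 0 := by
      have : CharP (ResidueField 𝒪) p :=
        charP_of_injective_algebraMap (algebraMap (ZMod p) (ResidueField 𝒪)).injective p
      rw [← map_natCast (algebraMap (ResidueField 𝒪) (DualNumber (ResidueField 𝒪))),
        CharP.cast_eq_zero, map_zero]
    have h1 : φ' (LinearMap.det (ρ.ρ g)) = (a : DualNumber (ResidueField 𝒪)) := by
      rw [← sub_eq_zero, ← map_natCast φ' a, ← map_sub, ← hu, map_mul, map_natCast, hp0, mul_zero]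
    rw [h1, TrivSqZeroExt.snd_natCast]

variable [IsNoetherianRing R]

/-- Generators of `R` from a bound on a Selmer group. -/
theorem exists_generators_of_selmer (hres : Function.Surjective (residue R ∘ algebraMap 𝒪 R))
    (ρ : GaloisRepAdic R)
    (hresid : ρ.residual.IsEquiv (ρbar.baseChangeAlong (ResidueField.map (algebraMap 𝒪 R))))
    (hcyc : ρ.DetIsCyclotomic p)
    (huniq : letI := Deformation.dualAlgebra 𝒪
      ∀ (φ ψ : R →ₐ[𝒪] DualNumber (ResidueField 𝒪))
        (hφ : IsLocalHom (φ : R →+* DualNumber (ResidueField 𝒪)))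
        (hψ : IsLocalHom (ψ : R →+* DualNumber (ResidueField 𝒪))),
        (ρ.baseChangeAlong (φ : R →+* DualNumber (ResidueField 𝒪)) hφ).IsEquiv
          (ρ.baseChangeAlong (ψ : R →+* DualNumber (ResidueField 𝒪)) hψ) → φ = ψ)
    (E : Set R) (hE : E ⊆ maximalIdeal R)
    (Sel : Submodule (ZMod p) (H1Q (ad0Rep p (Deformation.barMat ρbar)))) [Finite Sel]
    {g : ℕ} (hg : finrank (ZMod p) Sel ≤ g * finrank (ZMod p) (ResidueField 𝒪))
    (hSel : letI := Deformation.dualAlgebra 𝒪
      ∀ (φ : R →ₐ[𝒪] DualNumber (ResidueField 𝒪))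
        (hφ : IsLocalHom (φ : R →+* DualNumber (ResidueField 𝒪))), (∀ e ∈ E, φ e = 0) →
        ∀ x : Z1 lvlQ (ad0Rep p (Deformation.barMat ρbar)),
          IsDefoOf (Deformation.barMat ρbar) (x : GQ → Ad0 (ResidueField 𝒪))
            (ρ.baseChangeAlong (φ : R →+* DualNumber (ResidueField 𝒪)) hφ) →
          clsQ (ad0Rep p (Deformation.barMat ρbar)) x ∈ Sel) :
    ∃ a : Fin g → R, (∀ i, a i ∈ maximalIdeal R) ∧
      maximalIdeal R = Ideal.span (Set.range a) ⊔
        (Ideal.span E ⊔ (maximalIdeal 𝒪).map (algebraMap 𝒪 R)) := by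
  letI := Deformation.dualAlgebra 𝒪
  have hpp : p.Prime := Fact.out
  choose x hx using fun φ : {φ : R →ₐ[𝒪] DualNumber (ResidueField 𝒪) //
      IsLocalHom (φ : R →+* DualNumber (ResidueField 𝒪)) ∧ ∀ e ∈ E, φ e = 0} =>
    exists_cocycle_of_push p ρbar hres ρ hresid hcyc φ.1 φ.2.1
  refine exists_generators_of_injective hres E hE (Z := Sel) ?_
    (fun φ => ⟨clsQ (ad0Rep p (Deformation.barMat ρbar)) (x φ), hSel φ.1 φ.2.1 φ.2.2 _ (hx φ)⟩) fun φ ψ h => Subtype.ext ?_
  · have : Module.Finite (ZMod p) (ResidueField 𝒪) := Module.Finite.of_finite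
    have : Module.Finite (ZMod p) Sel := Module.Finite.of_finite
    rw [Module.natCard_eq_pow_finrank (K := ZMod p) (V := Sel),
      Module.natCard_eq_pow_finrank (K := ZMod p) (V := ResidueField 𝒪), ← pow_mul,
      Nat.card_zmod, Nat.mul_comm]
    exact Nat.pow_le_pow_right hpp.pos hg
  · exact huniq φ.1 ψ.1 φ.2.1 ψ.2.1
      (isEquiv_of_clsQ_eq p _ (hx φ) (hx ψ) (congrArg Subtype.val h))

end FLTA.TW

end

section DeformationRing

noncomputable section

namespace FLTA.TW

open FLTA.PT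

variable {𝒪 : Type} [CommRing 𝒪] [IsDomain 𝒪] [IsDiscreteValuationRing 𝒪]
  [IsAdicComplete (maximalIdeal 𝒪) 𝒪] [Finite (ResidueField 𝒪)]
variable {ρbar : ResidualGaloisRep (ResidueField 𝒪)} {P : RT.RepPred 𝒪}

/-- The pushes of the universal deformation satisfy the condition. -/
theorem push_mem (DQ : GaloisRep.DeformationRingData 𝒪 ρbar P) (hP : RT.IsClosedCond 𝒪 P)
    (φ : letI := Deformation.dualAlgebra 𝒪; DQ.R →ₐ[𝒪] DualNumber (ResidueField 𝒪))
    (hφ : IsLocalHom (φ : DQ.R →+* DualNumber (ResidueField 𝒪))) :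
    letI := Deformation.dualAlgebra 𝒪
    P (DQ.ρ.baseChangeAlong (φ : DQ.R →+* DualNumber (ResidueField 𝒪)) hφ) := by
  letI := Deformation.dualAlgebra 𝒪
  exact hP.baseChange DQ.residue_surjective Deformation.test_dual φ hφ DQ.isOfType

/-- Maps out of a deformation ring are determined by the deformation. -/
theorem push_unique (DQ : GaloisRep.DeformationRingData 𝒪 ρbar P) (hP : RT.IsClosedCond 𝒪 P)
    (φ ψ : letI := Deformation.dualAlgebra 𝒪; DQ.R →ₐ[𝒪] DualNumber (ResidueField 𝒪))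
    (hφ : IsLocalHom (φ : DQ.R →+* DualNumber (ResidueField 𝒪)))
    (hψ : IsLocalHom (ψ : DQ.R →+* DualNumber (ResidueField 𝒪)))
    (h : (DQ.ρ.baseChangeAlong (φ : DQ.R →+* DualNumber (ResidueField 𝒪)) hφ).IsEquiv
      (DQ.ρ.baseChangeAlong (ψ : DQ.R →+* DualNumber (ResidueField 𝒪)) hψ)) : φ = ψ := by
  letI := Deformation.dualAlgebra 𝒪
  have hT : GaloisRep.IsArtinianTestAlgebra 𝒪 (DualNumber (ResidueField 𝒪)) := Deformation.test_dual
  have := hT.isArtinian
  have := hT.isLocalHom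
  have hres : Deformation.ResCond ρbar
      (DQ.ρ.baseChangeAlong (φ : DQ.R →+* DualNumber (ResidueField 𝒪)) hφ).trace := by
    have h1 := (Deformation.residual_isEquiv_iff ρbar DQ.absIrr DQ.residue_surjective DQ.ρ).mp
      DQ.residual_isEquiv
    have h2 := Deformation.resCond_map ρbar φ h1
    intro σ
    rw [Deformation.trace_baseChangeAlong]
    exact h2 σ
  obtain ⟨χ, -, huniq⟩ := DQ.universal (DualNumber (ResidueField 𝒪)) hT.residue_surjective
    (DQ.ρ.baseChangeAlong (φ : DQ.R →+* DualNumber (ResidueField 𝒪)) hφ) (push_mem DQ hP φ hφ)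
    ((Deformation.residual_isEquiv_iff ρbar DQ.absIrr hT.residue_surjective _).mpr hres)
  exact (huniq φ ⟨hφ, ⟨GaloisRepAdic.Equiv.refl _⟩⟩).trans
    (huniq ψ ⟨hψ, h.elim fun e => ⟨e.symm⟩⟩).symm

/-- A Selmer bound makes the deformation ring a quotient of a power series ring. -/
theorem exists_surjective_of_selmer (p : ℕ) [Fact p.Prime] [Algebra (ZMod p) (ResidueField 𝒪)]
    (DQ : GaloisRep.DeformationRingData 𝒪 ρbar P) (hP : RT.IsClosedCond 𝒪 P)
    (hcyc : DQ.ρ.DetIsCyclotomic p)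
    (Sel : Submodule (ZMod p) (H1Q (ad0Rep p (Deformation.barMat ρbar)))) [Finite Sel]
    {g : ℕ} (hg : finrank (ZMod p) Sel ≤ g * finrank (ZMod p) (ResidueField 𝒪))
    (hSel : letI := Deformation.dualAlgebra 𝒪
      ∀ (x : Z1 lvlQ (ad0Rep p (Deformation.barMat ρbar)))
        (ρ' : GaloisRepAdic (DualNumber (ResidueField 𝒪))),
        IsDefoOf (Deformation.barMat ρbar) (x : GQ → Ad0 (ResidueField 𝒪)) ρ' → P ρ' →
          clsQ (ad0Rep p (Deformation.barMat ρbar)) x ∈ Sel) :
    ∃ γ : MvPowerSeries (Fin g) 𝒪 →ₐ[𝒪] DQ.R, Function.Surjective γ := by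
  obtain ⟨a, ha, hm⟩ := exists_generators_of_selmer p ρbar DQ.residue_surjective DQ.ρ
    DQ.residual_isEquiv hcyc (push_unique DQ hP) ∅ (Set.empty_subset _) Sel hg
    fun φ hφ _ x hx => hSel x _ hx (push_mem DQ hP φ hφ)
  obtain ⟨γ, hγ, -⟩ := exists_algHom_surjective DQ.residue_surjective a ha
    (hm.le.trans (by simp))
  exact ⟨γ, hγ⟩

end FLTA.TW

end

end DeformationRing
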