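import Mathlib.NumberTheory.Padics.Hensel
import Fermat.Agent.PoitouTate.LocalFields

/-!
Local Kummer bound: cocycles of `G_{ℚ_p}` in `k(ω)` form a space of dimension at most three.
-/

set_option autoImplicit false

noncomputable section

open ExtCitation FLTA.PT Polynomial

namespace FLTA.TaylorWiles

variable {p : ℕ} [hp : Fact p.Prime]

/-- A principal unit congruent to `1` modulo `p²` is a `p`-th power. -/
theorem exists_pow_eq_of_sq_dvd_sub_one (hp2 : p ≠ 2) (w : ℤ_[p]) (h : (p : ℤ_[p]) ^ 2 ∣ w - 1) :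
    ∃ s : ℤ_[p], s ^ p = w := by
  obtain ⟨b, hb⟩ := h
  set x : ℤ_[p] := 1 + p * b
  have hx : (p : ℤ_[p]) ^ 3 ∣ x ^ p - w := by
    have hp3 : 3 ≤ p := by have := hp.out.two_le; omega
    obtain ⟨m, hm⟩ := hp.out.odd_of_ne_two hp2
    have hexp : x ^ p = ∑ i ∈ Finset.range (p + 1), ((p : ℤ_[p]) * b) ^ i * (p.choose i : ℤ_[p]) := by
      rw [show x = (p : ℤ_[p]) * b + 1 from add_comm _ _, add_pow]
      simp
    rw [hexp, ← Finset.sum_range_add_sum_Ico _ (show 2 ≤ p + 1 by omega), Finset.sum_range_succ,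
      Finset.sum_range_one]
    simp only [pow_zero, Nat.choose_zero_right, Nat.cast_one, one_mul, pow_one, Nat.choose_one_right]
    have hw : w = 1 + (p : ℤ_[p]) ^ 2 * b := by rw [← hb]; ring
    rw [hw, show (1 + (p : ℤ_[p]) * b * p + (∑ i ∈ Finset.Ico 2 (p + 1),
      ((p : ℤ_[p]) * b) ^ i * (p.choose i : ℤ_[p]))) - (1 + (p : ℤ_[p]) ^ 2 * b) =
      ∑ i ∈ Finset.Ico 2 (p + 1), ((p : ℤ_[p]) * b) ^ i * (p.choose i : ℤ_[p]) by ring]
    refine Finset.dvd_sum fun i hi => ?_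
    rw [Finset.mem_Ico] at hi
    rcases eq_or_lt_of_le hi.1 with h2 | h2
    · subst h2
      obtain ⟨c, hc⟩ := hp.out.dvd_choose_self (k := 2) (by norm_num) (by omega)
      exact ⟨b ^ 2 * c, by rw [hc]; push_cast; ring⟩
    · rw [mul_pow]
      exact dvd_mul_of_dvd_left (dvd_mul_of_dvd_left (pow_dvd_pow _ h2) _) _
  have hxu : ‖x‖ = 1 := by
    rw [← PadicInt.isUnit_iff]
    refine (IsLocalRing.isUnit_or_isUnit_of_add_one (a := x) (b := -((p : ℤ_[p]) * b))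
      (by simp [x])).resolve_right fun hu => ?_
    rw [IsUnit.neg_iff] at hu
    exact PadicInt.p_nonunit (isUnit_of_mul_isUnit_left hu)
  obtain ⟨s, hs, -⟩ := hensels_lemma (F := (X ^ p - C w : Polynomial ℤ_[p])) (a := x) (by
    rw [derivative_sub, derivative_C, sub_zero, derivative_X_pow]
    simp only [map_sub, map_mul, map_pow, aeval_X, aeval_C, map_natCast, Algebra.algebraMap_self,
      RingHom.id_apply, norm_mul, norm_pow, hxu, one_pow, mul_one, PadicInt.norm_p]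
    obtain ⟨c, hc⟩ := hx
    rw [hc, norm_mul, norm_pow, PadicInt.norm_p]
    have hp1 : (1 : ℝ) < p := by exact_mod_cast hp.out.one_lt
    calc ((p : ℝ)⁻¹) ^ 3 * ‖c‖ ≤ ((p : ℝ)⁻¹) ^ 3 * 1 :=
          mul_le_mul_of_nonneg_left (PadicInt.norm_le_one _) (by positivity)
      _ < ((p : ℝ)⁻¹) ^ 2 := by
        rw [mul_one]
        exact pow_lt_pow_right_of_lt_one₀ (by positivity) (inv_lt_one_of_one_lt₀ hp1) (by norm_num))
  refine ⟨s, ?_⟩
  rwa [map_sub, map_pow, aeval_X, aeval_C, Algebra.algebraMap_self, RingHom.id_apply, sub_eq_zero]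
    at hs

/-- Representatives of `ℚ_pˣ` modulo `p`-th powers. -/
theorem exists_padic_decomp (hp2 : p ≠ 2) (a : ℚ_[p]) (ha : a ≠ 0) :
    ∃ i j : Fin p, ∃ t : ℚ_[p], a = (p : ℚ_[p]) ^ (i : ℕ) * (1 + p : ℚ_[p]) ^ (j : ℕ) * t ^ p := by
  have hp0 : (p : ℚ_[p]) ≠ 0 := Nat.cast_ne_zero.2 hp.out.ne_zero
  obtain ⟨v, u, hu, rfl⟩ : ∃ (v : ℤ) (u : ℤ_[p]), ‖u‖ = 1 ∧
      a = (p : ℚ_[p]) ^ v * (u : ℚ_[p]) := by
    have hn : ‖a * (p : ℚ_[p]) ^ (-a.valuation)‖ = 1 := by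
      rw [norm_mul, Padic.norm_p_zpow, Padic.norm_eq_zpow_neg_valuation ha, neg_neg, ← zpow_add₀
        (Nat.cast_ne_zero.2 hp.out.ne_zero), neg_add_cancel, zpow_zero]
    refine ⟨a.valuation, ⟨a * (p : ℚ_[p]) ^ (-a.valuation), hn.le⟩, hn, ?_⟩
    show a = _ * (a * _)
    rw [mul_comm a, ← mul_assoc, ← zpow_add₀ hp0, add_neg_cancel, zpow_zero, one_mul]
  -- `w = u ^ (p - 1)` is congruent to one
  have hw : (p : ℤ_[p]) ∣ u ^ (p - 1) - 1 := by
    rw [← Ideal.mem_span_singleton, ← PadicInt.maximalIdeal_eq_span_p, ← PadicInt.ker_toZMod,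
      RingHom.mem_ker, map_sub, map_pow, map_one, sub_eq_zero]
    refine ZMod.pow_card_sub_one_eq_one fun h => ?_
    have : u ∈ IsLocalRing.maximalIdeal ℤ_[p] := by
      rw [← PadicInt.ker_toZMod]; exact h
    rw [IsLocalRing.mem_maximalIdeal, PadicInt.mem_nonunits] at this
    linarith
  obtain ⟨a₁, ha₁⟩ := hw
  set j : ℕ := (PadicInt.toZMod a₁).val with hj
  have hjp : j < p := ZMod.val_lt _
  set e : ℤ_[p] := 1 + p with he
  have hcong : (p : ℤ_[p]) ^ 2 ∣ u ^ (p - 1) - e ^ j := by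
    have h1 : (p : ℤ_[p]) ∣ a₁ - j := by
      rw [← Ideal.mem_span_singleton, ← PadicInt.maximalIdeal_eq_span_p, ← PadicInt.ker_toZMod,
        RingHom.mem_ker, map_sub, map_natCast, hj, ZMod.natCast_val, ZMod.cast_id, sub_self]
    have h2 : (p : ℤ_[p]) ^ 2 ∣ e ^ j - 1 - (j : ℤ_[p]) * p := by
      clear_value j
      clear hj hjp h1
      induction j with
      | zero => simp
      | succ j ih =>
        have : e ^ (j + 1) - 1 - ((j + 1 : ℕ) : ℤ_[p]) * p =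
            (e ^ j - 1 - (j : ℤ_[p]) * p) * e + (p : ℤ_[p]) ^ 2 * j := by
          rw [he]; push_cast; ring
        rw [this]
        exact dvd_add (dvd_mul_of_dvd_left ih _) (dvd_mul_right _ _)
    have h3 : u ^ (p - 1) - e ^ j = (p : ℤ_[p]) * (a₁ - j) - (e ^ j - 1 - (j : ℤ_[p]) * p) := by
      rw [mul_sub, ← ha₁]; ring
    rw [h3]
    exact dvd_sub (by rw [pow_two]; exact mul_dvd_mul_left _ h1) h2
  obtain ⟨ev, hev⟩ : ∃ ev : ℤ_[p], e * ev = 1 := by
    refine IsUnit.exists_right_inv ?_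
    refine (IsLocalRing.isUnit_or_isUnit_of_add_one (a := e) (b := -(p : ℤ_[p]))
      (by simp [he])).resolve_right fun hu' => ?_
    exact PadicInt.p_nonunit ((IsUnit.neg_iff _).1 hu')
  obtain ⟨s, hs⟩ := exists_pow_eq_of_sq_dvd_sub_one hp2 (u ^ (p - 1) * ev ^ j) (by
    have : u ^ (p - 1) * ev ^ j - 1 = (u ^ (p - 1) - e ^ j) * ev ^ j := by
      rw [sub_mul, ← mul_pow, hev, one_pow]
    rw [this]
    exact dvd_mul_of_dvd_left hcong _)
  -- so `u = u ^ p / u ^ (p - 1)`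
  have hkey : (e : ℤ_[p]) ^ (j) * s ^ p * u = u ^ p := by
    have h1 : e ^ j * ev ^ j = 1 := by rw [← mul_pow, hev, one_pow]
    have h2 : u ^ (p - 1) * u = u ^ p := by
      rw [← pow_succ, Nat.sub_add_cancel hp.out.one_le]
    calc e ^ j * s ^ p * u = (e ^ j * ev ^ j) * (u ^ (p - 1) * u) := by rw [hs]; ring
      _ = u ^ p := by rw [h1, h2, one_mul]
  have hs0 : s ≠ 0 := by
    intro h
    rw [h, zero_pow hp.out.ne_zero, mul_zero, zero_mul, eq_comm] at hkey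
    have := congrArg norm hkey
    rw [norm_pow, hu, one_pow, norm_zero] at this
    exact one_ne_zero this
  have he0 : (1 + p : ℚ_[p]) ≠ 0 := by
    exact_mod_cast (show (1 + p : ℕ) ≠ 0 by omega)
  -- exponents
  obtain ⟨i, m, him⟩ : ∃ (i : Fin p) (m : ℤ), v = i + p * m := by
    refine ⟨⟨(v % p).toNat, ?_⟩, v / p, ?_⟩
    · have := Int.emod_lt_of_pos v (show (0 : ℤ) < p by exact_mod_cast hp.out.pos)
      omega
    · have h := Int.emod_nonneg v (show (p : ℤ) ≠ 0 by exact_mod_cast hp.out.ne_zero)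
      show v = ((v % p).toNat : ℤ) + p * (v / p)
      rw [Int.toNat_of_nonneg h]
      exact (Int.emod_add_mul_ediv v p).symm
  obtain ⟨j', hj'⟩ : ∃ j' : Fin p, (p : ℕ) ∣ j + j' := by
    rcases Nat.eq_zero_or_pos j with h | h
    · exact ⟨⟨0, hp.out.pos⟩, by simp [h]⟩
    · exact ⟨⟨p - j, by omega⟩, ⟨1, by show j + (p - j) = p * 1; omega⟩⟩
  obtain ⟨c, hc⟩ := hj'
  refine ⟨i, j', (p : ℚ_[p]) ^ m * ((u : ℚ_[p]) / ((s : ℚ_[p]) * (1 + p : ℚ_[p]) ^ c)), ?_⟩
  have hkey' : (1 + p : ℚ_[p]) ^ j * (s : ℚ_[p]) ^ p * (u : ℚ_[p]) = (u : ℚ_[p]) ^ p := by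
    have := congrArg (fun z : ℤ_[p] => (z : ℚ_[p])) hkey
    simpa [he] using this
  have hs' : (s : ℚ_[p]) ≠ 0 := fun h => hs0 (Subtype.ext h)
  rw [him, zpow_add₀ hp0, zpow_natCast, mul_pow, div_pow, mul_pow, ← pow_mul, mul_comm c p, ← hc,
    ← hkey', mul_comm (p : ℤ) m, zpow_mul, zpow_natCast, pow_add]
  field_simp

omit hp in
theorem card_fun_le {α β : Type} [Finite β] (s : Set α) (L : α → β)
    (h : ∀ x ∈ s, ∀ y ∈ s, L x = L y → x = y) : Finite s ∧ Nat.card s ≤ Nat.card β := by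
  have hinj : Function.Injective (fun x : s => L x) := fun x y e => Subtype.ext (h x x.2 y y.2 e)
  exact ⟨Finite.of_injective _ hinj, Nat.card_le_card_of_injective _ hinj⟩

attribute [local instance] FLTA.PT.factPrime

variable (pp : Nat.Primes)

/-- Level-constant cocycles of the local group in `ZMod p (ω)`. -/
def muCocycles : Set (Gl pp → ZMod (pp : ℕ)) :=
  {φ | (∀ g h, φ (g * h) = φ g + (cycloExp (pp : ℕ) (loc pp g) : ZMod (pp : ℕ)) * φ h) ∧
    ∃ U ∈ lvlLoc pp, ∀ g u, u ∈ U → φ (g * u) = φ g}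

theorem apply_cycloExp {σ : GQ} {μ : Qb} (hμ : μ ^ (pp : ℕ) = 1) :
    σ μ = μ ^ cycloExp (pp : ℕ) σ := by
  haveI : NeZero (pp : ℕ) := ⟨pp.2.ne_zero⟩
  have h := modularCyclotomicCharacter.spec (L := Qb) (n := (pp : ℕ))
    (card_rootsOfUnity_eq_self (pp : ℕ)) (σ : Qb ≃+* Qb) (t := Units.ofPowEqOne μ (pp : ℕ) hμ
      (NeZero.ne _)) (by rw [mem_rootsOfUnity]; ext; simpa using hμ)
  simpa [cycloExp] using h

theorem natCard_muCocycles (hp2 : (pp : ℕ) ≠ 2) :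
    Finite (muCocycles pp) ∧ Nat.card (muCocycles pp) ≤ (pp : ℕ) ^ 3 := by
  classical
  obtain ⟨ζ, hζ⟩ : ∃ z : Qb, IsPrimitiveRoot z (pp : ℕ) :=
    haveI : NeZero ((pp : ℕ) : Qb) := ⟨Nat.cast_ne_zero.2 pp.2.ne_zero⟩
    HasEnoughRootsOfUnity.exists_primitiveRoot Qb (pp : ℕ)
  set z : Ql pp := iota pp ζ
  have hz : IsPrimitiveRoot z (pp : ℕ) := hζ.map_of_injective (iota pp).injective
  have hact : ∀ (g : Gl pp) (m : ℕ), locAut pp g (z ^ m) =
      z ^ (cycloExp (pp : ℕ) (loc pp g) * m) := by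
    intro g m
    rw [map_pow, ← iota_loc, apply_cycloExp pp hζ.pow_eq_one, map_pow, ← pow_mul]
  obtain ⟨π, hπ⟩ := IsAlgClosed.exists_pow_nat_eq (((pp : ℕ) : Ql pp)) pp.2.pos
  obtain ⟨η, hη⟩ := IsAlgClosed.exists_pow_nat_eq (1 + ((pp : ℕ) : Ql pp)) pp.2.pos
  have hmain : ∀ φ ∈ muCocycles pp, ∃ w : Fin (pp : ℕ) × Fin (pp : ℕ) × Fin (pp : ℕ),
      ∀ g, z ^ (φ g).val * (π ^ (w.1 : ℕ) * η ^ (w.2.1 : ℕ) * z ^ (w.2.2 : ℕ)) =
        locAut pp g (π ^ (w.1 : ℕ) * η ^ (w.2.1 : ℕ) * z ^ (w.2.2 : ℕ)) := by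
    rintro φ ⟨hcoc, U, hU, hconst⟩
    haveI := (lvlLoc pp).normal_of_mem U hU
    haveI := (lvlLoc pp).finiteIndex_of_mem U hU
    let a : Gl pp →* (Ql pp →+* Ql pp) :=
      { toFun := fun g => ((locAut pp g) : Ql pp →+* Ql pp)
        map_one' := rfl
        map_mul' := fun _ _ => rfl }
    have hz0 : z ≠ 0 := hz.ne_zero pp.2.ne_zero
    have hzmod : ∀ m : ℕ, z ^ m = z ^ ((m : ZMod (pp : ℕ))).val := by
      intro m
      rw [ZMod.val_natCast]
      exact pow_eq_pow_mod m hz.pow_eq_one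
    obtain ⟨β, hβ0, hβ⟩ := exists_of_cocycle_units a U (fun s hs => by
        by_contra h
        push Not at h
        exact hs (mem_of_forall_fld (D := U) ⟨U, hU, le_rfl⟩ fun θ hθ =>
          h θ fun u hu => mem_fld.1 hθ u hu))
      (fun g => z ^ (φ g).val) (fun g => pow_ne_zero _ hz0)
      (fun g h => by
        show z ^ (φ (g * h)).val = locAut pp g (z ^ (φ h).val) * z ^ (φ g).val
        rw [hact, ← pow_add, hzmod (_ + _), hcoc]
        push_cast
        rw [ZMod.natCast_val, ZMod.natCast_val, ZMod.cast_id, ZMod.cast_id, add_comm])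
      (fun g u hu => by rw [hconst g u hu])
    have hfix : ∀ g, locAut pp g (β ^ (pp : ℕ)) = β ^ (pp : ℕ) := by
      intro g
      have h1 : z ^ (φ g).val * β = locAut pp g β := by
        rw [hβ g, div_mul_cancel₀ _ hβ0]; rfl
      rw [map_pow, ← h1, mul_pow, ← pow_mul, mul_comm (φ g).val, pow_mul, hz.pow_eq_one, one_pow,
        one_mul]
    haveI := isGalois_ql pp
    obtain ⟨a₀, ha₀⟩ := (InfiniteGalois.mem_range_algebraMap_iff_fixed
      (k := ℚ_[(pp : ℕ)]) (β ^ (pp : ℕ))).2 fun σ => by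
        obtain ⟨g, rfl⟩ := locAut_surjective pp σ
        exact hfix g
    have ha₀0 : a₀ ≠ 0 := by
      rintro rfl
      rw [map_zero] at ha₀
      exact pow_ne_zero _ hβ0 ha₀.symm
    obtain ⟨i, j, t, ht⟩ := exists_padic_decomp hp2 a₀ ha₀0
    set T : Ql pp := algebraMap ℚ_[(pp : ℕ)] (Ql pp) t
    have hT : T ≠ 0 := by
      rw [ne_eq, map_eq_zero]
      rintro rfl
      rw [zero_pow pp.2.ne_zero, mul_zero] at ht
      exact ha₀0 ht
    set γ : Ql pp := π ^ (i : ℕ) * η ^ (j : ℕ) * T with hγdef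
    have hγ : γ ^ (pp : ℕ) = β ^ (pp : ℕ) := by
      rw [← ha₀, ht, hγdef, mul_pow, mul_pow, ← pow_mul, ← pow_mul, mul_comm (i : ℕ),
        mul_comm (j : ℕ), pow_mul, pow_mul, hπ, hη, map_mul, map_mul, map_pow, map_pow, map_pow,
        map_natCast, map_add, map_one, map_natCast]
    have hγ0 : γ ≠ 0 := by
      intro h
      rw [h, zero_pow pp.2.ne_zero] at hγ
      exact pow_ne_zero _ hβ0 hγ.symm
    haveI : NeZero (pp : ℕ) := ⟨pp.2.ne_zero⟩
    obtain ⟨l, hl, hl'⟩ := hz.eq_pow_of_pow_eq_one (show (β / γ) ^ (pp : ℕ) = 1 by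
      rw [div_pow, hγ, div_self (pow_ne_zero _ hβ0)])
    refine ⟨(i, j, ⟨l, hl⟩), fun g => ?_⟩
    have hβeq : β = π ^ (i : ℕ) * η ^ (j : ℕ) * z ^ l * T := by
      rw [hl', show π ^ (i : ℕ) * η ^ (j : ℕ) * (β / γ) * T = β / γ * γ by rw [hγdef]; ring,
        div_mul_cancel₀ _ hγ0]
    have h1 : z ^ (φ g).val * β = locAut pp g β := by
      rw [hβ g, div_mul_cancel₀ _ hβ0]; rfl
    rw [hβeq, map_mul, show locAut pp g T = T from AlgEquiv.commutes _ _, ← mul_assoc] at h1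
    exact mul_right_cancel₀ hT h1
  choose! L hL using hmain
  have := card_fun_le (muCocycles pp) L fun φ hφ ψ hψ e => by
    funext g
    have h1 := hL φ hφ g
    have h2 := hL ψ hψ g
    rw [← e] at h2
    set B := π ^ ((L φ).1 : ℕ) * η ^ ((L φ).2.1 : ℕ) * z ^ ((L φ).2.2 : ℕ)
    have hB : B ≠ 0 := by
      refine mul_ne_zero (mul_ne_zero (pow_ne_zero _ fun h => ?_) (pow_ne_zero _ fun h => ?_))
        (pow_ne_zero _ (hz.ne_zero pp.2.ne_zero))
      · rw [h, zero_pow pp.2.ne_zero, eq_comm] at hπ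
        exact pp.2.ne_zero (by exact_mod_cast hπ)
      · rw [h, zero_pow pp.2.ne_zero, eq_comm] at hη
        exact (show (1 + (pp : ℕ)) ≠ 0 by omega) (by exact_mod_cast hη)
    haveI : NeZero (pp : ℕ) := ⟨pp.2.ne_zero⟩
    exact ZMod.val_injective _ (hz.pow_inj (ZMod.val_lt _) (ZMod.val_lt _)
      (mul_right_cancel₀ hB (h1.trans h2.symm)))
  refine ⟨this.1, this.2.trans_eq ?_⟩
  simp [Nat.card_prod, pow_three]

/-- Local cocycles in `k(ω)` form a space of dimension at most three. -/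
theorem finrank_cocycle_omega_le (hp2 : (pp : ℕ) ≠ 2) {k : Type} [Field k] [Finite k]
    [CharP k (pp : ℕ)] (Y : Submodule k (Gl pp → k))
    (hcoc : ∀ y ∈ Y, ∀ g h, y (g * h) = y g + (cycloExp (pp : ℕ) (loc pp g) : k) * y h)
    (hlvl : ∀ y ∈ Y, ∃ U ∈ lvlLoc pp, ∀ g u, u ∈ U → y (g * u) = y g) :
    Finite Y ∧ Module.finrank k Y ≤ 3 := by
  obtain ⟨hfin, hcard⟩ := natCard_muCocycles pp hp2
  letI := ZMod.algebra k (pp : ℕ)
  let b := Module.finBasis (ZMod (pp : ℕ)) k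
  set f := Module.finrank (ZMod (pp : ℕ)) k
  have hmem : ∀ y ∈ Y, ∀ i, (fun g => b.coord i (y g)) ∈ muCocycles pp := by
    intro y hy i
    refine ⟨fun g h => ?_, ?_⟩
    · dsimp only
      rw [hcoc y hy, map_add, show ((cycloExp (pp : ℕ) (loc pp g) : ℕ) : k) * y h =
        (cycloExp (pp : ℕ) (loc pp g) : ZMod (pp : ℕ)) • y h by rw [Algebra.smul_def, map_natCast],
        map_smul, smul_eq_mul]
    · obtain ⟨U, hU, h⟩ := hlvl y hy
      exact ⟨U, hU, fun g u hu => by dsimp only; rw [h g u hu]⟩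
  let E : Y → (Fin f → muCocycles pp) := fun y i => ⟨_, hmem y y.2 i⟩
  have hE : Function.Injective E := by
    intro y y' h
    refine Subtype.ext (funext fun g => b.ext_elem fun i => ?_)
    exact congrFun (congrArg Subtype.val (congrFun h i)) g
  have : Finite Y := Finite.of_injective E hE
  refine ⟨this, ?_⟩
  have h1 : Nat.card Y ≤ (Nat.card k) ^ 3 := by
    refine (Nat.card_le_card_of_injective E hE).trans ?_
    rw [Nat.card_fun, Module.natCard_eq_pow_finrank (K := ZMod (pp : ℕ)) (V := k), Nat.card_zmod,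
      Nat.card_fin, ← pow_mul, mul_comm, pow_mul]
    exact Nat.pow_le_pow_left hcard _
  rw [Module.natCard_eq_pow_finrank (K := k)] at h1
  exact (Nat.pow_le_pow_iff_right (Finite.one_lt_card)).1 h1

end FLTA.TaylorWiles

end
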