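import Fermat.Agent.TaylorWiles.OrdinaryBlock
import Fermat.Agent.Galois.PlacesFinite
import Fermat.Agent.RT.LocalGalois

/-!
The local bound at a prime where the residual representation is unipotent and ramified.
-/

set_option autoImplicit false

noncomputable section

namespace FLTA.TaylorWiles

local notation "Qbar" => AlgebraicClosure ℚ
local notation "Γ" => AlgebraicClosure ℚ ≃ₐ[ℚ] AlgebraicClosure ℚ

variable {k V : Type} [Field k] [AddCommGroup V] [Module k V]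

/-- The coboundary map on trace-zero endomorphisms, restricted along a homomorphism. -/
def adD0 {G H : Type} [Group G] [Group H] (ρ : G →* Module.End k V) (f : H →* G) :
    ↥(slEnd k V) →ₗ[k] (H → Module.End k V) :=
  LinearMap.pi fun h => (adConj ρ (f h) - LinearMap.id).comp (slEnd k V).subtype

theorem adD0_apply {G H : Type} [Group G] [Group H] (ρ : G →* Module.End k V) (f : H →* G)
    (v : ↥(slEnd k V)) (h : H) :
    adD0 ρ f v h = adConj ρ (f h) (v : Module.End k V) - v := rfl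

theorem trace_adConj {G : Type} [Group G] (ρ : G →* Module.End k V) (g : G) (c : Module.End k V) :
    LinearMap.trace k V (adConj ρ g c) = LinearMap.trace k V c := by
  rw [adConj_apply, LinearMap.trace_mul_comm, ← mul_assoc, map_inv_mul_map_self, one_mul]

/-- Dimension bound for the restriction to decomposition groups of cocycles whose deformations
are unipotent on inertia. -/
theorem finrank_unipotent_restriction_le [Finite k] {p q : ℕ} (hp : p.Prime) [CharP k p]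
    (hp2 : p ≠ 2) (hq : q.Prime) (hqp : q ≠ p) (hV : Module.finrank k V = 2)
    (ρ : Γ →* Module.End k V)
    (hρ : ∃ L : IntermediateField ℚ Qbar, FiniteDimensional ℚ L ∧
      ∀ σ : Γ, (∀ x ∈ L, σ x = x) → ρ σ = 1)
    {A : ValuationSubring Qbar} (hA : A.LiesOverPrime q)
    (hunip : ∀ σ ∈ A.inertiaSubgroupIn ℚ, (ρ σ - 1) * (ρ σ - 1) = 0)
    (hram : ∃ σ ∈ A.inertiaSubgroupIn ℚ, ρ σ ≠ 1)
    {H : Type} [Group H] (f : H →* Γ) (hf : ∀ h, f h ∈ A.decompositionSubgroup ℚ)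
    (Zc : Submodule k (Γ → Module.End k V))
    (hcoc : ∀ z ∈ Zc, IsAdCocycle ρ z) (hsl : ∀ z ∈ Zc, ∀ σ, z σ ∈ slEnd k V)
    (hlevel : ∀ z ∈ Zc, ∃ L : IntermediateField ℚ Qbar, FiniteDimensional ℚ L ∧
      ∀ σ : Γ, (∀ x ∈ L, σ x = x) → z σ = 0)
    (hcond : ∀ z ∈ Zc, ∀ σ ∈ A.inertiaSubgroupIn ℚ, LinearMap.trace k V (z σ * ρ σ) = 0) :
    Module.Finite k ↥(Zc.map (LinearMap.funLeft k (Module.End k V) f) ⊔
      LinearMap.range (adD0 ρ f)) ∧
    Module.finrank k ↥(Zc.map (LinearMap.funLeft k (Module.End k V) f) ⊔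
      LinearMap.range (adD0 ρ f)) ≤ 3 := by
  have : Module.Finite k V := Module.finite_of_finrank_eq_succ hV
  have : Finite (Module.End k (V × V)) := Module.finite_of_finite k
  haveI : Fact p.Prime := ⟨hp⟩
  have h2 : (2 : k) ≠ 0 := fun h => hp2
    ((Nat.prime_dvd_prime_iff_eq hp Nat.prime_two).1
      ((CharP.cast_eq_zero_iff k p 2).1 (by simpa using h)))
  have hqk : (q : k) ≠ 0 := fun h => hqp
    ((Nat.prime_dvd_prime_iff_eq hp hq).1 ((CharP.cast_eq_zero_iff k p q).1 h)).symm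
  -- enlarge by the coboundaries
  set Z : Submodule k (Γ → Module.End k V) :=
    Zc ⊔ LinearMap.range (adD0 ρ (MonoidHom.id Γ)) with hZ
  have hgood : ∀ z ∈ Z, IsAdCocycle ρ z ∧ (∀ σ, z σ ∈ slEnd k V) ∧
      (∃ L : IntermediateField ℚ Qbar, FiniteDimensional ℚ L ∧
        ∀ σ : Γ, (∀ x ∈ L, σ x = x) → z σ = 0) ∧
      (∀ σ ∈ A.inertiaSubgroupIn ℚ, LinearMap.trace k V (z σ * ρ σ) = 0) := by
    intro z hz
    rw [hZ, Submodule.mem_sup] at hz
    obtain ⟨z₁, hz₁, _, ⟨v, rfl⟩, rfl⟩ := hz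
    obtain ⟨L₁, hL₁, h₁⟩ := hlevel z₁ hz₁
    obtain ⟨L₀, hL₀, h₀⟩ := hρ
    refine ⟨fun g h => ?_, fun σ => ?_, ⟨L₁ ⊔ L₀, inferInstance, fun σ hσ => ?_⟩, fun σ hσ => ?_⟩
    · simp only [Pi.add_apply, adD0_apply, MonoidHom.id_apply, adConj_mul, hcoc z₁ hz₁ g h,
        map_add, map_sub]
      abel
    · refine Submodule.add_mem _ (hsl z₁ hz₁ σ) ?_
      rw [adD0_apply, MonoidHom.id_apply, mem_slEnd, map_sub, trace_adConj, sub_self]
    · have hσ₀ : ρ σ = 1 := h₀ σ fun x hx => hσ x ((le_sup_right : L₀ ≤ _) hx)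
      have hσ₁ : ρ σ⁻¹ = 1 := by
        simpa [hσ₀] using map_inv_mul_map_self ρ σ
      rw [Pi.add_apply, h₁ σ fun x hx => hσ x ((le_sup_left : L₁ ≤ _) hx), adD0_apply,
        MonoidHom.id_apply, adConj_apply, hσ₀, hσ₁, one_mul, mul_one, sub_self, add_zero]
    · rw [Pi.add_apply, add_mul, map_add, hcond z₁ hz₁ σ hσ, zero_add, adD0_apply,
        MonoidHom.id_apply, adConj_apply, sub_mul, mul_assoc, map_inv_mul_map_self, mul_one,
        map_sub, LinearMap.trace_mul_comm, sub_self]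
  obtain ⟨F, hF⟩ := FLTA.Galois.exists_isFrobeniusAt hq hA
  obtain ⟨τ, hτ⟩ := FLTA.RT.LocalGalois.exists_isTameGenerator hq hp hqp.symm hA
  have hτI : τ ∈ A.inertiaSubgroupIn ℚ := hτ.1
  -- consequences of tameness, for one cocycle
  have htame : ∀ z : Γ → Module.End k V, (hz : IsAdCocycle ρ z) →
      (∃ L : IntermediateField ℚ Qbar, FiniteDimensional ℚ L ∧
        ∀ σ : Γ, (∀ x ∈ L, σ x = x) → z σ = 0) →
      (∀ σ ∈ A.inertiaSubgroupIn ℚ, ∃ m : ℤ, ρ σ = ρ (τ ^ m) ∧ z σ = z (τ ^ m)) ∧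
      ρ (F * τ * F⁻¹) = ρ (τ ^ q) ∧ z (F * τ * F⁻¹) = z (τ ^ q) := by
    intro z hz hzL
    let R : Γ →* (Module.End k (V × V))ˣ := (blockRep ρ z hz).toHomUnits
    have hfin : ∃ L : IntermediateField ℚ Qbar, FiniteDimensional ℚ L ∧
        ∀ σ : Γ, (∀ x ∈ L, σ x = x) → R σ = 1 := (by
        obtain ⟨L₁, hL₁, h₁⟩ := hzL
        obtain ⟨L₀, hL₀, h₀⟩ := hρ
        refine ⟨L₁ ⊔ L₀, inferInstance, fun σ hσ => Units.ext ?_⟩
        show blockRep ρ z hz σ = 1
        rw [blockRep_apply, h₁ σ fun x hx => hσ x ((le_sup_left : L₁ ≤ _) hx),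
          h₀ σ fun x hx => hσ x ((le_sup_right : L₀ ≤ _) hx), zero_mul, blockEnd_one])
    have hpro : ∀ σ ∈ A.inertiaSubgroupIn ℚ, ∃ j : ℕ, R σ ^ p ^ j = 1 := (by
        intro σ hσ
        refine ⟨2, Units.ext ?_⟩
        show (blockRep ρ z hz σ) ^ p ^ 2 = 1
        have hn := hunip σ hσ
        have e1 : (blockRep ρ z hz (σ ^ p)) = blockEnd 1 (z (σ ^ p) * ρ (σ ^ p)) := by
          rw [blockRep_apply]
          congr 1
          have hb : ∀ m : ℕ, ρ (σ ^ m) = 1 + m • (ρ σ - 1) := by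
            intro m
            induction m with
            | zero => simp
            | succ m ih =>
              rw [pow_succ, map_mul, ih]
              have : ρ σ = 1 + (ρ σ - 1) := by abel
              conv_lhs => rw [this]
              rw [mul_add, mul_one, add_mul, one_mul, smul_mul_assoc,
                show (1 + (ρ σ - 1) - 1) = ρ σ - 1 by abel, hn, smul_zero, add_zero, succ_nsmul]
              abel
          rw [hb, ← Nat.cast_smul_eq_nsmul k, CharP.cast_eq_zero, zero_smul, add_zero]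
        rw [pow_two, pow_mul, ← map_pow, e1, blockEnd_pow _ _ rfl, ← Nat.cast_smul_eq_nsmul k,
          CharP.cast_eq_zero, zero_smul, blockEnd_one])
    refine ⟨fun σ hσ => ?_, ?_⟩
    · obtain ⟨j, hj⟩ := FLTA.RT.LocalGalois.exists_apply_eq_pow R hq hA hp hqp.symm hτ hfin hpro hσ
      refine ⟨(j : ℤ), eq_of_blockRep_eq (hz := hz)
        (congrArg Units.val (?_ : R σ = R (τ ^ (j : ℤ))))⟩
      rw [zpow_natCast, map_pow, hj]
    · refine eq_of_blockRep_eq (hz := hz) (congrArg Units.val (?_ : R (F * τ * F⁻¹) = R (τ ^ q)))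
      rw [map_mul, map_mul, map_inv, map_pow,
        FLTA.RT.LocalGalois.frobenius_tame_relation R hq hA hp hqp.symm hτ hfin hpro hF,
        mul_inv_cancel_right]
  set n : Module.End k V := ρ τ - 1
  have hn : n * n = 0 := hunip τ hτI
  have hn0 : n ≠ 0 := by
    intro h
    obtain ⟨σ, hσ, hσ1⟩ := hram
    obtain ⟨z0, hz0, hz0L⟩ : ∃ z : Γ → Module.End k V, IsAdCocycle ρ z ∧
        ∃ L : IntermediateField ℚ Qbar, FiniteDimensional ℚ L ∧
          ∀ σ : Γ, (∀ x ∈ L, σ x = x) → z σ = 0 :=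
      ⟨0, fun g h => by simp, ⊥, inferInstance, fun _ _ => rfl⟩
    obtain ⟨m, hm, -⟩ := (htame z0 hz0 hz0L).1 σ hσ
    apply hσ1
    rw [hm]
    have hτ1 : ρ τ = 1 := sub_eq_zero.1 h
    have hu : ρ.toHomUnits τ = 1 := Units.ext hτ1
    have := congrArg Units.val (map_zpow ρ.toHomUnits τ m)
    rwa [hu, one_zpow, Units.val_one] at this
  have hτpow : ∀ m : ℕ, ρ (τ ^ m) = 1 + (m : k) • n := by
    intro m
    induction m with
    | zero => simp
    | succ m ih =>
      have : ρ τ = 1 + n := by simp [n]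
      rw [pow_succ, map_mul, ih, this, mul_add, mul_one, add_mul, one_mul, smul_mul_assoc, hn,
        smul_zero, add_zero, Nat.cast_succ, add_smul, one_smul]
      abel
  have hτinv : ρ (τ ^ q)⁻¹ = 1 - (q : k) • n := by
    have h1 : ρ (τ ^ q) * (1 - (q : k) • n) = 1 := by
      rw [hτpow]; simp [mul_sub, add_mul, smul_mul_smul_comm, hn]
    calc ρ (τ ^ q)⁻¹ = ρ (τ ^ q)⁻¹ * (ρ (τ ^ q) * (1 - (q : k) • n)) := by rw [h1, mul_one]
      _ = 1 - (q : k) • n := by rw [← mul_assoc, map_inv_mul_map_self, one_mul]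
  -- evaluation at `F` and `τ`
  let e : ↥Z →ₗ[k] Module.End k V × Module.End k V :=
    ((LinearMap.proj F).prod (LinearMap.proj τ)).comp Z.subtype
  let res : ↥Z →ₗ[k] (H → Module.End k V) :=
    (LinearMap.funLeft k (Module.End k V) f).comp Z.subtype
  have hker : LinearMap.ker e ≤ LinearMap.ker res := by
    rintro ⟨z, hzZ⟩ hze
    obtain ⟨hz, -, ⟨L₁, hL₁, h₁⟩, -⟩ := hgood z hzZ
    replace hze : z F = 0 ∧ z τ = 0 := Prod.ext_iff.1 (LinearMap.mem_ker.1 hze)
    ext h : 1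
    obtain ⟨j, ι, hι, hj⟩ := FLTA.Galois.exists_pow_mul_inertia_eq hq hA hF (hf h) L₁
    obtain ⟨m, -, hm⟩ := (htame z hz ⟨L₁, hL₁, h₁⟩).1 ι hι
    have h3 : z ((F ^ j * ι)⁻¹ * f h) = 0 := h₁ _ fun x hx => by
      show (F ^ j * ι)⁻¹ (f h x) = x
      rw [hj x hx]
      exact (F ^ j * ι).symm_apply_apply x
    show z (f h) = 0
    rw [show f h = F ^ j * ι * ((F ^ j * ι)⁻¹ * f h) by group, hz, h3, map_zero, add_zero, hz,
      hz.apply_eq_zero_of_pow hze.1, hm, hz.apply_eq_zero_of_zpow hze.2, map_zero, add_zero]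
  let Ψ : Module.End k V →ₗ[k] Module.End k V :=
    adConj ρ F - ∑ i ∈ Finset.range q, adConj ρ (τ ^ i)
  have hW : Module.finrank k (LinearMap.range e) ≤ 3 := by
    refine finrank_unipotent_values_le hV h2 q hqk hn hn0 Ψ _ ?_
    rintro _ ⟨⟨z, hzZ⟩, rfl⟩
    obtain ⟨hz, hzsl, hzL, hzc⟩ := hgood z hzZ
    refine ⟨hzsl F, hzsl τ, ?_, ?_⟩
    · show LinearMap.trace k V (z τ * (ρ τ - 1)) = 0
      rw [mul_sub, mul_one, map_sub, hzc τ hτI, mem_slEnd.1 (hzsl τ), sub_zero]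
    · show (1 + (q : k) • n) * z F * (1 - (q : k) • n) - z F = Ψ (z τ)
      have hsum : ∀ m : ℕ, z (τ ^ m) = ∑ i ∈ Finset.range m, adConj ρ (τ ^ i) (z τ) := by
        intro m
        induction m with
        | zero => simp [hz.apply_one]
        | succ m ih => rw [pow_succ, hz, ih, Finset.sum_range_succ]
      obtain ⟨-, hρc, hzconj⟩ := htame z hz hzL
      have hFinv : ρ ((F * τ * F⁻¹))⁻¹ = ρ (τ ^ q)⁻¹ := by
        calc ρ (F * τ * F⁻¹)⁻¹
            = ρ (τ ^ q)⁻¹ * ρ (τ ^ q) * ρ (F * τ * F⁻¹)⁻¹ := by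
              rw [map_inv_mul_map_self, one_mul]
          _ = ρ (τ ^ q)⁻¹ := by rw [← hρc, mul_assoc, map_self_mul_map_inv, mul_one]
      rw [hz, hz, hz.apply_inv, map_neg, hsum, ← adConj_mul,
        show adConj ρ (F * τ * F⁻¹) (z F) = ρ (τ ^ q) * z F * ρ (τ ^ q)⁻¹ by
          rw [adConj_apply, hρc, hFinv], hτpow, hτinv] at hzconj
      simp only [Ψ, LinearMap.sub_apply, LinearMap.sum_apply, ← hzconj]
      abel
  -- conclusion
  have hmap : Zc.map (LinearMap.funLeft k (Module.End k V) f) ⊔ LinearMap.range (adD0 ρ f)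
      ≤ LinearMap.range res := by
    refine sup_le ?_ ?_
    · rintro _ ⟨z, hz, rfl⟩
      exact ⟨⟨z, Submodule.mem_sup_left hz⟩, rfl⟩
    · rintro _ ⟨v, rfl⟩
      exact ⟨⟨adD0 ρ (MonoidHom.id Γ) v, Submodule.mem_sup_right ⟨v, rfl⟩⟩, rfl⟩
  have : Module.Finite k (↥Z ⧸ LinearMap.ker e) :=
    Module.Finite.equiv e.quotKerEquivRange.symm
  have hres : LinearMap.range res = LinearMap.range ((LinearMap.ker e).liftQ res hker) :=
    (Submodule.range_liftQ _ _ hker).symm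
  have : Module.Finite k ↥(LinearMap.range res) := by
    rw [hres]; infer_instance
  refine ⟨Submodule.finiteDimensional_of_le hmap, (Submodule.finrank_mono hmap).trans ?_⟩
  rw [hres]
  refine (LinearMap.finrank_range_le _).trans ?_
  rw [e.quotKerEquivRange.finrank_eq]
  exact hW

end FLTA.TaylorWiles

end
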