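import Mathlib.RingTheory.DualNumber
import Fermat.Prelude.Def_GaloisRep_StrictOrdinary
import Fermat.Agent.TaylorWiles.OrdinaryUnipotent
import Fermat.Agent.TaylorWiles.OrdinaryKummer
import Fermat.Agent.PoitouTate.Decomp
import Fermat.Agent.Galois.Cyclotomic

/-!
The local bound at `p` for strictly ordinary deformations.
-/

set_option autoImplicit false

noncomputable section

open ExtCitation TrivSqZeroExt
open scoped DualNumber

namespace FLTA.TaylorWiles

local notation "Qbar" => AlgebraicClosure ℚ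
local notation "Γ" => AlgebraicClosure ℚ ≃ₐ[ℚ] AlgebraicClosure ℚ

variable {k V : Type} [Field k] [AddCommGroup V] [Module k V]

section Line

variable (p : ℕ) [Fact p.Prime] (ρ : Γ →* Module.End k V) (A : ValuationSubring Qbar)

/-- A residual strictly ordinary line. -/
def IsStrictLine (l : V) : Prop :=
  l ≠ 0 ∧ ∀ σ ∈ A.decompositionSubgroup ℚ, ∃ y : k, y ≠ 0 ∧
    ρ σ l = ((cycloExp p σ : k) * y) • l ∧ (∀ v, ρ σ v - y • v ∈ k ∙ l) ∧
    (σ ∈ A.inertiaSubgroupIn ℚ → y = 1)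

/-- Trace-zero endomorphisms killing a line with image inside it. -/
def lineNil (l : V) : Submodule k (Module.End k V) where
  carrier := {c | c l = 0 ∧ ∀ v, c v ∈ k ∙ l}
  add_mem' hc hd := ⟨by simp [hc.1, hd.1], fun v => Submodule.add_mem _ (hc.2 v) (hd.2 v)⟩
  zero_mem' := ⟨rfl, fun _ => Submodule.zero_mem _⟩
  smul_mem' a _ hc := ⟨by simp [hc.1], fun v => Submodule.smul_mem _ a (hc.2 v)⟩

theorem exists_basis_of_line (hV : Module.finrank k V = 2) {l : V} (hl : l ≠ 0) :
    ∃ b : Module.Basis (Fin 2) k V, b 0 = l := by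
  have : Module.Finite k V := Module.finite_of_finrank_eq_succ hV
  obtain ⟨e, he⟩ : ∃ e, e ∉ k ∙ l := by
    by_contra h
    push Not at h
    have : (k ∙ l) = ⊤ := eq_top_iff.2 fun v _ => h v
    have h1 := finrank_span_singleton (K := k) hl
    rw [this, finrank_top, hV] at h1
    omega
  have hli : LinearIndependent k ![l, e] :=
    (LinearIndependent.pair_iff' hl).2 fun a h => he (Submodule.mem_span_singleton.2 ⟨a, h⟩)
  exact ⟨basisOfLinearIndependentOfCardEqFinrank hli (by simp [hV]), by simp⟩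

theorem eigen_eq_zero (hV : Module.finrank k V = 2) (h2 : (2 : k) ≠ 0) {l : V} (hl : l ≠ 0)
    {c : Module.End k V} (hc : c ∈ slEnd k V) {μ : k} (hcl : c l = μ • l)
    (hcv : ∀ v, c v - μ • v ∈ k ∙ l) : μ = 0 := by
  obtain ⟨b, hb⟩ := exists_basis_of_line hV hl
  obtain ⟨a, ha⟩ := Submodule.mem_span_singleton.1 (hcv (b 1))
  have hb1 : c (b 1) = a • b 0 + μ • b 1 := by rw [hb, ha, sub_add_cancel]
  have hb0 : c (b 0) = μ • b 0 := by rw [hb, hcl]
  rw [mem_slEnd, LinearMap.trace_eq_matrix_trace k b, Matrix.trace_fin_two,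
    LinearMap.toMatrix_apply, LinearMap.toMatrix_apply, hb0, hb1] at hc
  simp only [map_add, map_smul, Finsupp.add_apply, Finsupp.smul_apply, Module.Basis.repr_self,
    Finsupp.single_apply, smul_eq_mul] at hc
  simp only [↓reduceIte, mul_one, zero_ne_one, mul_zero, zero_add] at hc
  exact (mul_eq_zero.1 ((two_mul μ).trans hc)).resolve_left h2

theorem lineNil_le {l l' : V} (hl' : l' ≠ 0) (h : l' ∈ k ∙ l) :
    lineNil (k := k) l' ≤ lineNil (k := k) l := by
  obtain ⟨a, ha⟩ := Submodule.mem_span_singleton.1 h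
  have ha0 : a ≠ 0 := by rintro rfl; exact hl' (by rw [← ha, zero_smul])
  intro c hc
  refine ⟨?_, fun v => ?_⟩
  · have := hc.1
    rw [← ha, map_smul] at this
    exact (smul_eq_zero.1 this).resolve_left ha0
  · obtain ⟨m, hm⟩ := Submodule.mem_span_singleton.1 (hc.2 v)
    rw [← hm, ← ha, smul_smul]
    exact Submodule.smul_mem _ _ (Submodule.mem_span_singleton_self _)

variable {p ρ A}

theorem natCast_cycloExp_ne_zero [CharP k p] (σ : Γ) : (cycloExp p σ : k) ≠ 0 := by
  haveI : NeZero p := ⟨(Fact.out : p.Prime).ne_zero⟩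
  intro h
  rw [CharP.cast_eq_zero_iff k p] at h
  have h' : (cycloExp p σ : ZMod p) = 0 := (ZMod.natCast_eq_zero_iff _ p).2 h
  rw [cycloExp, ZMod.natCast_val, ZMod.cast_id] at h'
  exact Units.ne_zero _ h'

/-- The residual strictly ordinary line is unique. -/
theorem IsStrictLine.mem_span [CharP k p] (hp2 : p ≠ 2) (hV : Module.finrank k V = 2)
    (hA : A.LiesOverPrime p) {l l' : V} (h : IsStrictLine p ρ A l)
    (h' : IsStrictLine p ρ A l') : l' ∈ k ∙ l := by
  haveI : NeZero p := ⟨(Fact.out : p.Prime).ne_zero⟩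
  have h2 : ((2 : ℕ) : ZMod p) ≠ 0 := fun h => hp2 ((Nat.prime_dvd_prime_iff_eq
    (Fact.out : p.Prime) Nat.prime_two).1 ((ZMod.natCast_eq_zero_iff _ p).1 h))
  obtain ⟨ι, hι, hω⟩ := FLTA.Galois.exists_inertia_cycloExp p hA (Units.mk0 _ h2)
  have hιD : ι ∈ A.decompositionSubgroup ℚ := by
    obtain ⟨s, -, rfl⟩ := hι
    exact s.2
  obtain ⟨y, -, -, hq, hy⟩ := h.2 ι hιD
  obtain ⟨y', -, hl', -, hy'⟩ := h'.2 ι hιD
  rw [hy hι] at hq
  rw [hy' hι, mul_one] at hl'
  have hω' : (cycloExp p ι : k) = 2 := by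
    rw [Units.val_mk0, ← sub_eq_zero] at hω
    have h3 : (((cycloExp p ι : ℤ) - 2 : ℤ) : ZMod p) = 0 := by push_cast; exact hω
    rw [ZMod.intCast_zmod_eq_zero_iff_dvd, ← CharP.intCast_eq_zero_iff k p] at h3
    push_cast at h3
    exact sub_eq_zero.1 h3
  have := hq l'
  rw [hl', hω', ← sub_smul, show (2 : k) - 1 = 1 by norm_num, one_smul] at this
  exact this

end Line

section Deformation

/-- `ρ'` is the `k[ε]`-deformation `(1 + ε z) ρ` of `ρ`. -/
def IsEpsModel (ρ : Γ →* Module.End k V) (z : Γ → Module.End k V)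
    (ρ' : GaloisRepAdic k[ε]) : Prop :=
  ∃ e : ρ'.V ≃+ V × V,
    (∀ (a : k[ε]) (v : ρ'.V), e (a • v) = (a.fst • (e v).1, a.fst • (e v).2 + a.snd • (e v).1)) ∧
    ∀ (σ : Γ) (v : ρ'.V), e (ρ'.ρ σ v) = (ρ σ (e v).1, ρ σ (e v).2 + z σ (ρ σ (e v).1))

theorem natCast_eq_zero_dualNumber (p : ℕ) [CharP k p] : (p : k[ε]) = 0 := by
  ext <;> simp [CharP.cast_eq_zero k p]

/-- Strictly ordinary deformations: a residual line, and a coboundary moving the cocycle into its
nilpotent. -/
theorem exists_line_of_isStrictOrdinaryAt {p : ℕ} [Fact p.Prime] [CharP k p] (hp2 : p ≠ 2)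
    (hV : Module.finrank k V = 2) (ρ : Γ →* Module.End k V) {z : Γ → Module.End k V}
    (hz : ∀ σ, z σ ∈ slEnd k V) {ρ' : GaloisRepAdic k[ε]} (hmodel : IsEpsModel ρ z ρ')
    (hord : ρ'.IsStrictOrdinaryAt p) {A : ValuationSubring Qbar} (hA : A.LiesOverPrime p) :
    ∃ l, IsStrictLine p ρ A l ∧ ∃ u ∈ slEnd k V, ∀ σ ∈ A.decompositionSubgroup ℚ,
      z σ + (adConj ρ σ u - u) ∈ lineNil (k := k) l := by
  have : Module.Finite k V := Module.finite_of_finrank_eq_succ hV
  have h2 : (2 : k) ≠ 0 := fun h => hp2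
    ((Nat.prime_dvd_prime_iff_eq (Fact.out : p.Prime) Nat.prime_two).1
      ((CharP.cast_eq_zero_iff k p 2).1 (by simpa using h)))
  obtain ⟨e, hsmul, hact⟩ := hmodel
  obtain ⟨L, ⟨b, rfl⟩, hD, hI, hxz⟩ := hord.2 A hA
  set w0 := (e (b 0)).1 with hw0def
  set w1 := (e (b 0)).2 with hw1def
  have hw0 : w0 ≠ 0 := by
    intro h
    have h1 : e ((DualNumber.eps : k[ε]) • b 0) = 0 := by
      rw [hsmul, ← hw0def, h]; simp
    have h1' : (DualNumber.eps : k[ε]) • b 0 = 0 := e.injective (h1.trans (map_zero e).symm)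
    have h2' := congrArg (fun v => b.repr v 0) h1'
    simp only [map_smul, Module.Basis.repr_self, map_zero, Finsupp.smul_apply,
      Finsupp.single_eq_same, smul_eq_mul, mul_one, Finsupp.zero_apply] at h2'
    simpa using congrArg TrivSqZeroExt.snd h2'
  -- data at each element of the decomposition group
  have hdata : ∀ σ ∈ A.decompositionSubgroup ℚ, ∃ z0 z1 : k,
      ρ σ w0 = ((cycloExp p σ : k) * z0) • w0 ∧
      z σ (ρ σ w0) + ρ σ w1 = ((cycloExp p σ : k) * z1) • w0 + ((cycloExp p σ : k) * z0) • w1 ∧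
      (∀ v, ∃ c0 c1 : k, ρ σ v - z0 • v = c0 • w0 ∧
        z σ (ρ σ v) - z1 • v = c1 • w0 + c0 • w1) ∧
      (σ ∈ A.inertiaSubgroupIn ℚ → ∀ v, ρ σ v - v ∈ k ∙ w0) := by
    intro σ hσ
    obtain ⟨x, zq, hx, hzq, hdiv⟩ := hxz σ hσ
    have hspec : x - (cycloExp p σ : k[ε]) * zq ∈ Ideal.span {((p ^ 1 : ℕ) : k[ε])} :=
      hdiv 1 (cycloExp p σ) fun μ hμ => by
        rw [pow_one] at hμ
        exact apply_cycloExp ⟨p, Fact.out⟩ hμ
    rw [pow_one, natCast_eq_zero_dualNumber, Ideal.span_singleton_zero, Ideal.mem_bot,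
      sub_eq_zero] at hspec
    have hx' := congrArg e (hx (b 0) (Submodule.mem_span_singleton_self _))
    rw [hact, hsmul, ← hw0def, ← hw1def, hspec, Prod.ext_iff] at hx'
    simp only [TrivSqZeroExt.fst_mul, DualNumber.snd_mul, TrivSqZeroExt.fst_natCast,
      TrivSqZeroExt.snd_natCast, zero_mul, add_zero] at hx'
    refine ⟨zq.fst, zq.snd, hx'.1, ?_, fun v => ?_, fun hσI v => ?_⟩
    · rw [add_comm, hx'.2, add_comm]
    · obtain ⟨c, hc⟩ := Submodule.mem_span_singleton.1 (hzq (e.symm (v, 0)))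
      have := congrArg e hc
      rw [hsmul, map_sub, hact, hsmul, e.apply_symm_apply, ← hw0def, ← hw1def] at this
      simp only [Prod.mk_sub_mk, smul_zero, map_zero, zero_add, Prod.mk.injEq] at this
      exact ⟨c.fst, c.snd, this.1.symm, by rw [← this.2, add_comm]⟩
    · obtain ⟨c, hc⟩ := Submodule.mem_span_singleton.1 (hI σ hσI (e.symm (v, 0)))
      have := congrArg (fun t => (e t).1) hc
      simp only [hsmul, map_sub, hact, e.apply_symm_apply, Prod.fst_sub] at this
      exact Submodule.mem_span_singleton.2 ⟨c.fst, this⟩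
  obtain ⟨bb, hbb⟩ := exists_basis_of_line hV hw0
  let u₀ : Module.End k V := bb.constr k ![w1, 0]
  let u : Module.End k V :=
    u₀ - (LinearMap.trace k V u₀ / 2) • (1 : Module.End k V)
  have hu : u ∈ slEnd k V := by
    rw [mem_slEnd]
    simp only [u, map_sub, map_smul, LinearMap.trace_one, hV, smul_eq_mul, Nat.cast_ofNat]
    rw [div_mul_cancel₀ _ h2, sub_self]
  set t := LinearMap.trace k V u₀ / 2
  have huw : u w0 = w1 - t • w0 := by
    have : u₀ w0 = w1 := by rw [← hbb]; simp [u₀]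
    simp [u, this, t]
  have hmem : ∀ σ ∈ A.decompositionSubgroup ℚ, ∀ z0 : k,
      ρ σ w0 = ((cycloExp p σ : k) * z0) • w0 → z0 ≠ 0 := by
    intro σ _ z0 h h0
    rw [h0, mul_zero, zero_smul] at h
    refine hw0 ?_
    have h' := congrArg (ρ σ⁻¹) h
    rwa [← Module.End.mul_apply, map_inv_mul_map_self, map_zero] at h'
  refine ⟨w0, ⟨hw0, fun σ hσ => ?_⟩, u, hu, fun σ hσ => ?_⟩
  · obtain ⟨z0, z1, h0, -, hv, hI'⟩ := hdata σ hσ
    refine ⟨z0, hmem σ hσ z0 h0, h0, fun v => ?_, fun hσI => ?_⟩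
    · obtain ⟨c0, -, hc, -⟩ := hv v
      exact Submodule.mem_span_singleton.2 ⟨c0, hc.symm⟩
    · by_contra hne
      obtain ⟨v, hv'⟩ : ∃ v, v ∉ k ∙ w0 := by
        refine ⟨bb 1, fun hmem => ?_⟩
        obtain ⟨a, ha⟩ := Submodule.mem_span_singleton.1 hmem
        rw [← hbb] at ha
        have := congrArg (fun w => bb.repr w 1) ha
        simp at this
      obtain ⟨c0, -, hc, -⟩ := hv v
      apply hv'
      have h1 : (z0 - 1) • v ∈ k ∙ w0 := by
        have : (z0 - 1) • v = (ρ σ v - v) - (ρ σ v - z0 • v) := by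
          rw [sub_smul, one_smul]; abel
        rw [this, hc]
        exact Submodule.sub_mem _ (hI' hσI v) (Submodule.smul_mem _ _
          (Submodule.mem_span_singleton_self _))
      simpa [smul_smul, inv_mul_cancel₀ (sub_ne_zero.2 hne)] using
        Submodule.smul_mem _ (z0 - 1)⁻¹ h1
  · obtain ⟨z0, z1, h0, h1, hv, -⟩ := hdata σ hσ
    have hz0 := hmem σ hσ z0 h0
    set a : k := (cycloExp p σ : k)
    have ha : a ≠ 0 := natCast_cycloExp_ne_zero σ
    set Z := z σ + (adConj ρ σ u - u)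
    have hZsl : Z ∈ slEnd k V :=
      Submodule.add_mem _ (hz σ) (by rw [mem_slEnd, map_sub, trace_adConj, sub_self])
    have hZ : ∀ v, Z (ρ σ v) = z σ (ρ σ v) + ρ σ (u v) - u (ρ σ v) := by
      intro v
      simp only [Z, LinearMap.add_apply, LinearMap.sub_apply, adConj_apply, Module.End.mul_apply]
      rw [← Module.End.mul_apply (ρ σ⁻¹), map_inv_mul_map_self, Module.End.one_apply]
      abel
    have hZw : Z w0 = (z1 / z0) • w0 := by
      have h3 : Z (ρ σ w0) = (a * z1) • w0 := by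
        rw [hZ, huw, map_sub, map_smul (ρ σ), h0, map_smul u, huw,
          show z σ ((a * z0) • w0) = (a * z1) • w0 + (a * z0) • w1 - ρ σ w1 by
            rw [← h1, h0]; abel, smul_sub, smul_smul, smul_smul, mul_comm t]
        abel
      rw [h0, map_smul] at h3
      calc Z w0 = (a * z0)⁻¹ • (a * z0) • Z w0 := by
            rw [smul_smul, inv_mul_cancel₀ (mul_ne_zero ha hz0), one_smul]
        _ = (z1 / z0) • w0 := by
            rw [h3, smul_smul]
            congr 1
            field_simp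
    have hZv : ∀ v, Z v - (z1 / z0) • v ∈ k ∙ w0 := by
      have main : ∀ v, Z (ρ σ v) - (z1 / z0) • ρ σ v ∈ k ∙ w0 := by
        intro v
        obtain ⟨c0, c1, hc0, hc1⟩ := hv v
        obtain ⟨d0, -, hd0, -⟩ := hv (u v)
        rw [sub_eq_iff_eq_add] at hc0 hc1 hd0
        refine Submodule.mem_span_singleton.2
          ⟨c1 + d0 + c0 * t - z1 / z0 * c0, ?_⟩
        rw [hZ, hc1, hd0]
        conv_rhs => rw [hc0, map_add, map_smul, map_smul, huw]
        rw [smul_add (z1 / z0), smul_smul (z1 / z0) z0, div_mul_cancel₀ z1 hz0]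
        module
      intro v
      have := main (ρ σ⁻¹ v)
      rwa [← Module.End.mul_apply (ρ σ), map_self_mul_map_inv, Module.End.one_apply] at this
    have hμ := eigen_eq_zero hV h2 hw0 hZsl hZw hZv
    refine ⟨by rw [hZw, hμ, zero_smul], fun v => ?_⟩
    simpa [hμ] using hZv v

end Deformation

section Bound

open FLTA.PT

attribute [local instance] FLTA.PT.factPrime

/-- The local bound for cocycles which are, up to coboundary, nilpotent for a fixed strict
line. -/
theorem finrank_lineNil_restriction_le [Finite k] (pp : Nat.Primes) [CharP k (pp : ℕ)]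
    (hp2 : (pp : ℕ) ≠ 2) (hV : Module.finrank k V = 2) (ρ : Γ →* Module.End k V)
    (hρ : ∃ L : IntermediateField ℚ Qbar, FiniteDimensional ℚ L ∧
      ∀ σ : Γ, (∀ x ∈ L, σ x = x) → ρ σ = 1)
    {l : V} (hl : IsStrictLine (pp : ℕ) ρ (primeLocalPlace pp) l)
    (Zc : Submodule k (Γ → Module.End k V))
    (hcoc : ∀ z ∈ Zc, IsAdCocycle ρ z)
    (hlevel : ∀ z ∈ Zc, ∃ L : IntermediateField ℚ Qbar, FiniteDimensional ℚ L ∧
      ∀ σ : Γ, (∀ x ∈ L, σ x = x) → z σ = 0)
    (hdata : ∀ z ∈ Zc, ∃ u ∈ slEnd k V,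
      ∀ σ ∈ (primeLocalPlace pp).decompositionSubgroup ℚ,
        z σ + (adConj ρ σ u - u) ∈ lineNil (k := k) l) :
    Module.Finite k ↥(Zc.map (LinearMap.funLeft k (Module.End k V) (loc pp)) ⊔
      LinearMap.range (adD0 ρ (loc pp))) ∧
    Module.finrank k ↥(Zc.map (LinearMap.funLeft k (Module.End k V) (loc pp)) ⊔
      LinearMap.range (adD0 ρ (loc pp))) ≤ 4 := by
  have : Module.Finite k V := Module.finite_of_finrank_eq_succ hV
  obtain ⟨hl0, hline⟩ := hl
  obtain ⟨b, hb⟩ := exists_basis_of_line hV hl0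
  -- the cocycles with values in the nilpotent of the line
  let Y : Submodule k (Gl pp → Module.End k V) :=
    { carrier := {y | (∀ g h, y (g * h) = y g + adConj ρ (loc pp g) (y h)) ∧
        (∀ g, y g ∈ lineNil (k := k) l) ∧ ∃ U ∈ lvlLoc pp, ∀ g s, s ∈ U → y (g * s) = y g}
      add_mem' := by
        rintro y y' ⟨h1, h2, U, hU, h3⟩ ⟨h1', h2', U', hU', h3'⟩
        refine ⟨fun g h => by simp [h1, h1']; abel, fun g => Submodule.add_mem _ (h2 g) (h2' g),
          U ⊓ U', (lvlLoc pp).inf_mem U hU U' hU', fun g s hs => by simp [h3 g s hs.1, h3' g s hs.2]⟩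
      zero_mem' := ⟨fun g h => by simp, fun g => Submodule.zero_mem _, ⊤, (lvlLoc pp).top_mem,
        fun _ _ _ => rfl⟩
      smul_mem' := by
        rintro c y ⟨h1, h2, U, hU, h3⟩
        exact ⟨fun g h => by simp [h1, smul_add], fun g => Submodule.smul_mem _ c (h2 g), U, hU,
          fun g s hs => by simp [h3 g s hs]⟩ }
  let coordMap : (Gl pp → Module.End k V) →ₗ[k] (Gl pp → k) :=
    LinearMap.pi fun g => (b.coord 0).comp ((LinearMap.applyₗ (b 1)).comp (LinearMap.proj g))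
  have hN : ∀ c ∈ lineNil (k := k) l, ∀ v, c v = (b.coord 0 (c (b 1)) * b.coord 1 v) • l := by
    intro c hc v
    obtain ⟨a, ha⟩ := Submodule.mem_span_singleton.1 (hc.2 (b 1))
    conv_lhs => rw [← b.sum_repr v]
    rw [Fin.sum_univ_two, map_add, map_smul, map_smul, hb, hc.1, smul_zero, zero_add, ← ha]
    have hl1 : b.coord 0 l = 1 := by rw [← hb]; simp
    rw [map_smul (b.coord 0), hl1]
    simp [smul_smul, mul_comm]
  have hinj : ∀ y ∈ Y, coordMap y = 0 → y = 0 := by
    intro y hy h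
    funext g
    refine LinearMap.ext fun v => ?_
    rw [hN _ (hy.2.1 g) v, show b.coord 0 (y g (b 1)) = 0 from congrFun h g]
    simp
  obtain ⟨hYfin, hY3⟩ := finrank_cocycle_omega_le pp hp2 (Y.map coordMap) (by
      rintro _ ⟨y, ⟨hy1, hy2, -⟩, rfl⟩ g h
      obtain ⟨yg, hyg, h0, hq, -⟩ := hline (loc pp g) (loc_mem_decompositionSubgroup pp g)
      show b.coord 0 (y (g * h) (b 1)) = b.coord 0 (y g (b 1)) + _ * b.coord 0 (y h (b 1))
      rw [hy1, LinearMap.add_apply, map_add]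
      congr 1
      set c := y h
      have hc := hy2 h
      set R := ρ (loc pp g)
      set w := ρ (loc pp g)⁻¹ (b 1)
      have hw : R w = b 1 := by
        rw [← Module.End.mul_apply, map_self_mul_map_inv, Module.End.one_apply]
      show b.coord 0 (R (c w)) = _
      obtain ⟨d, hd⟩ := Submodule.mem_span_singleton.1 (hq w)
      have h1 : b.coord 1 (b 1) = yg * b.coord 1 w := by
        conv_lhs => rw [← hw, show R w = d • l + yg • w by rw [hd]; abel, ← hb]
        simp
      simp only [Module.Basis.coord_apply, Module.Basis.repr_self, Finsupp.single_eq_same] at h1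
      rw [hN c hc w, map_smul R, h0, smul_smul, map_smul, ← hb]
      simp only [Module.Basis.coord_apply, Module.Basis.repr_self, Finsupp.single_eq_same,
        smul_eq_mul, mul_one]
      linear_combination (-((cycloExp (pp : ℕ) (loc pp g) : k) * b.repr (c (b 1)) 0)) * h1) (by
      rintro _ ⟨y, ⟨-, -, U, hU, hy3⟩, rfl⟩
      exact ⟨U, hU, fun g s hs => by
        show b.coord 0 (y (g * s) (b 1)) = b.coord 0 (y g (b 1))
        rw [hy3 g s hs]⟩)
  have : Module.Finite k ↥(Y.map coordMap) := Module.Finite.of_finite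
  let cY : ↥Y ≃ₗ[k] ↥(Y.map coordMap) :=
    LinearEquiv.ofBijective (coordMap.submoduleMap Y)
      ⟨(injective_iff_map_eq_zero _).2 fun y hy => Subtype.ext
        (hinj y y.2 (congrArg Subtype.val hy)), LinearMap.submoduleMap_surjective _ _⟩
  have : Module.Finite k ↥Y := Module.Finite.equiv cY.symm
  have hY : Module.finrank k ↥Y ≤ 3 := cY.finrank_eq.trans_le hY3
  -- levels
  have hlvl : ∀ F : Γ → Module.End k V, IsAdCocycle ρ F →
      (∃ L : IntermediateField ℚ Qbar, FiniteDimensional ℚ L ∧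
        ∀ σ : Γ, (∀ x ∈ L, σ x = x) → F σ = 0) →
      ∃ U ∈ lvlLoc pp, ∀ g s, s ∈ U → F (loc pp (g * s)) = F (loc pp g) := by
    intro F hF ⟨L, hL, hLF⟩
    classical
    let bL := Module.finBasis ℚ L
    obtain ⟨N, -, hmem, hT⟩ := exists_lvlQ_fixes (Finset.univ.image fun i => (bL i : Qb))
    have hle : N.fixingSubgroup ≤ L.fixingSubgroup := by
      apply IntermediateField.fixingSubgroup_antitone
      intro x hx
      rw [show x = ((⟨x, hx⟩ : L) : Qb) from rfl, ← bL.sum_repr ⟨x, hx⟩]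
      push_cast
      refine IntermediateField.sum_mem _ (fun i _ => ?_)
      exact IntermediateField.smul_mem _ (hT _ (Finset.mem_image_of_mem _ (Finset.mem_univ i)))
    refine ⟨_, ⟨_, hmem, rfl⟩, fun g s hs => ?_⟩
    rw [map_mul, hF, hLF (loc pp s) fun x hx =>
      (IntermediateField.mem_fixingSubgroup_iff _ _).1 (hle hs) x hx, map_zero, add_zero]
  -- the upper triangular part
  have hd : ∀ c ∈ slEnd k V, c l ∈ k ∙ l →
      (fun g => adConj ρ (loc pp g) c - c) ∈ Y := by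
    intro c hc hcl
    refine ⟨fun g h => ?_, fun g => ?_, ?_⟩
    · simp only [map_mul, adConj_mul, map_sub]; abel
    · obtain ⟨y, hy, h0, hq, -⟩ := hline (loc pp g) (loc_mem_decompositionSubgroup pp g)
      obtain ⟨μ, hμ⟩ := Submodule.mem_span_singleton.1 hcl
      set R := ρ (loc pp g)
      have hR : ∀ w, (adConj ρ (loc pp g) c - c) (R w) = R (c w) - c (R w) := by
        intro w
        rw [LinearMap.sub_apply, adConj_apply, Module.End.mul_apply, Module.End.mul_apply,
          ← Module.End.mul_apply (ρ (loc pp g)⁻¹), map_inv_mul_map_self, Module.End.one_apply]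
      have hx0 : ((cycloExp (pp : ℕ) (loc pp g) : k) * y) ≠ 0 :=
        mul_ne_zero (natCast_cycloExp_ne_zero _) hy
      refine ⟨?_, fun v => ?_⟩
      · have := hR l
        rw [h0, map_smul, ← hμ, map_smul, map_smul c, ← hμ, h0, smul_comm, sub_self] at this
        exact (smul_eq_zero.1 this).resolve_left hx0
      · obtain ⟨w, rfl⟩ : ∃ w, R w = v := ⟨ρ (loc pp g)⁻¹ v, by
          rw [← Module.End.mul_apply, map_self_mul_map_inv, Module.End.one_apply]⟩
        rw [hR, show R (c w) - c (R w) = (R (c w) - y • c w) - c (R w - y • w) by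
          rw [map_sub, map_smul]; abel]
        refine Submodule.sub_mem _ (hq _) ?_
        obtain ⟨d, hd⟩ := Submodule.mem_span_singleton.1 (hq w)
        rw [← hd, map_smul, ← hμ]
        exact Submodule.smul_mem _ _ (Submodule.smul_mem _ _ (Submodule.mem_span_singleton_self _))
    · obtain ⟨L, hL, hL1⟩ := hρ
      obtain ⟨U, hU, h⟩ := hlvl (fun σ => adConj ρ σ c - c)
        (fun g h => by simp only [adConj_mul, map_sub]; abel) ⟨L, hL, fun σ hσ => by
          show adConj ρ σ c - c = 0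
          have h1 : ρ σ⁻¹ = 1 := by simpa [hL1 σ hσ] using map_inv_mul_map_self ρ σ
          rw [adConj_apply, hL1 σ hσ, h1, one_mul, mul_one, sub_self]⟩
      exact ⟨U, hU, h⟩
  -- one extra coboundary suffices
  let c₀ : Module.End k V := b.constr k ![b 1, 0]
  have hc₀ : c₀ ∈ slEnd k V := by
    rw [mem_slEnd, LinearMap.trace_eq_matrix_trace k b, Matrix.trace_fin_two,
      LinearMap.toMatrix_apply, LinearMap.toMatrix_apply]
    simp [c₀]
  set d := adD0 ρ (loc pp)
  have hrange : LinearMap.range d ≤ Y ⊔ k ∙ d ⟨c₀, hc₀⟩ := by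
    rintro _ ⟨⟨c, hc⟩, rfl⟩
    set a := b.coord 1 (c l)
    have hsplit : (⟨c, hc⟩ : ↥(slEnd k V)) = (⟨c, hc⟩ - a • ⟨c₀, hc₀⟩) + a • ⟨c₀, hc₀⟩ := by
      abel
    rw [hsplit, map_add, map_smul]
    refine Submodule.add_mem_sup ?_ (Submodule.smul_mem _ _ (Submodule.mem_span_singleton_self _))
    refine hd _ (Submodule.sub_mem _ hc (Submodule.smul_mem _ a hc₀)) ?_
    show c l - a • c₀ l ∈ k ∙ l
    rw [show c₀ l = b 1 by rw [← hb]; simp [c₀]]
    refine Submodule.mem_span_singleton.2 ⟨b.coord 0 (c l), ?_⟩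
    conv_rhs => rw [← b.sum_repr (c l)]
    rw [Fin.sum_univ_two, ← hb]
    simp [a, hb]
  have hres : Zc.map (LinearMap.funLeft k (Module.End k V) (loc pp)) ≤
      Y ⊔ LinearMap.range d := by
    rintro _ ⟨z, hz, rfl⟩
    obtain ⟨u, hu, hzu⟩ := hdata z hz
    rw [← add_sub_cancel_right (LinearMap.funLeft k (Module.End k V) (loc pp) z) (d ⟨u, hu⟩),
      sub_eq_add_neg]
    refine Submodule.add_mem_sup ?_ (Submodule.neg_mem _ ⟨_, rfl⟩)
    refine ⟨fun g h => ?_, fun g => hzu _ (loc_mem_decompositionSubgroup pp g), ?_⟩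
    · show z (loc pp (g * h)) + (adConj ρ (loc pp (g * h)) u - u) = _
      rw [map_mul (loc pp), hcoc z hz]
      simp only [Pi.add_apply, LinearMap.funLeft_apply, d, adD0_apply, adConj_mul, map_add, map_sub]
      abel
    · obtain ⟨U, hU, h⟩ := hlvl z (hcoc z hz) (hlevel z hz)
      obtain ⟨L, hL, hL1⟩ := hρ
      obtain ⟨U', hU', h'⟩ := hlvl (fun σ => adConj ρ σ u - u)
        (fun g h => by simp only [adConj_mul, map_sub]; abel) ⟨L, hL, fun σ hσ => by
          show adConj ρ σ u - u = 0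
          have h1 : ρ σ⁻¹ = 1 := by simpa [hL1 σ hσ] using map_inv_mul_map_self ρ σ
          rw [adConj_apply, hL1 σ hσ, h1, one_mul, mul_one, sub_self]⟩
      refine ⟨U ⊓ U', (lvlLoc pp).inf_mem U hU U' hU', fun g s hs => ?_⟩
      show z (loc pp (g * s)) + (adConj ρ (loc pp (g * s)) u - u) = _
      rw [h g s hs.1, h' g s hs.2]
      rfl
  refine ⟨Submodule.finiteDimensional_of_le (S₂ := Y ⊔ k ∙ d ⟨c₀, hc₀⟩)
    ((sup_le (hres.trans (sup_le le_sup_left hrange)) hrange)), ?_⟩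
  calc Module.finrank k ↥(Zc.map (LinearMap.funLeft k (Module.End k V) (loc pp)) ⊔
        LinearMap.range d)
      ≤ Module.finrank k ↥(Y ⊔ k ∙ d ⟨c₀, hc₀⟩) := Submodule.finrank_mono
        ((sup_le (hres.trans (sup_le le_sup_left hrange)) hrange))
    _ ≤ Module.finrank k ↥Y + Module.finrank k ↥(k ∙ d ⟨c₀, hc₀⟩) :=
        Submodule.finrank_add_le_finrank_add_finrank _ _
    _ ≤ 3 + 1 := add_le_add hY
        ((finrank_span_le_card _).trans (by simp))

/-- The local bound at `p`. -/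
theorem finrank_strictOrdinary_restriction_le [Finite k] (pp : Nat.Primes) [CharP k (pp : ℕ)]
    (hp2 : (pp : ℕ) ≠ 2) (hV : Module.finrank k V = 2) (ρ : Γ →* Module.End k V)
    (hρ : ∃ L : IntermediateField ℚ Qbar, FiniteDimensional ℚ L ∧
      ∀ σ : Γ, (∀ x ∈ L, σ x = x) → ρ σ = 1)
    (Zc : Submodule k (Γ → Module.End k V))
    (hcoc : ∀ z ∈ Zc, IsAdCocycle ρ z) (hsl : ∀ z ∈ Zc, ∀ σ, z σ ∈ slEnd k V)
    (hlevel : ∀ z ∈ Zc, ∃ L : IntermediateField ℚ Qbar, FiniteDimensional ℚ L ∧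
      ∀ σ : Γ, (∀ x ∈ L, σ x = x) → z σ = 0)
    (hord : ∀ z ∈ Zc, ∃ ρ' : GaloisRepAdic k[ε], IsEpsModel ρ z ρ' ∧
      ρ'.IsStrictOrdinaryAt (pp : ℕ)) :
    Module.Finite k ↥(Zc.map (LinearMap.funLeft k (Module.End k V) (loc pp)) ⊔
      LinearMap.range (adD0 ρ (loc pp))) ∧
    Module.finrank k ↥(Zc.map (LinearMap.funLeft k (Module.End k V) (loc pp)) ⊔
      LinearMap.range (adD0 ρ (loc pp))) ≤ 4 := by
  have hA := FLTA.PT.primeLocalPlace_liesOverPrime pp
  have hdata : ∀ z ∈ Zc, ∃ l, IsStrictLine (pp : ℕ) ρ (primeLocalPlace pp) l ∧ ∃ u ∈ slEnd k V,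
      ∀ σ ∈ (primeLocalPlace pp).decompositionSubgroup ℚ,
        z σ + (adConj ρ σ u - u) ∈ lineNil (k := k) l := by
    intro z hz
    obtain ⟨ρ', h1, h2⟩ := hord z hz
    exact exists_line_of_isStrictOrdinaryAt hp2 hV ρ (hsl z hz) h1 h2 hA
  obtain ⟨l, hl, -⟩ := hdata 0 Zc.zero_mem
  refine finrank_lineNil_restriction_le pp hp2 hV ρ hρ hl Zc hcoc hlevel fun z hz => ?_
  obtain ⟨l', hl', u, hu, hzu⟩ := hdata z hz
  exact ⟨u, hu, fun σ hσ => lineNil_le hl'.1 (IsStrictLine.mem_span hp2 hV hA hl hl') (hzu σ hσ)⟩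

end Bound

end FLTA.TaylorWiles

end
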