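import Fermat.Agent.TaylorWiles.Defs
import Fermat.Agent.TaylorWiles.OrdinaryAtP

/-!
The strict ordinary and unipotent local conditions, in the adjoint cochain framework.
-/

set_option autoImplicit false

open ExtCitation Module
open scoped DualNumber

noncomputable section

namespace FLTA.TaylorWiles

open FLTA.PT FLTA.TW

variable (p : ℕ) [Fact p.Prime] {k : Type} [Field k] [Algebra (ZMod p) k]
variable (M : GQ →* Matrix (Fin 2) (Fin 2) k)

/-- The residual representation on column vectors. -/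
def linRep : GQ →* Module.End k (Fin 2 → k) :=
  (Matrix.toLinAlgEquiv' : Matrix (Fin 2) (Fin 2) k ≃ₐ[k] _).toAlgHom.toRingHom.toMonoidHom.comp M

theorem linRep_apply (g : GQ) : linRep M g = Matrix.toLinAlgEquiv' (M g) := rfl

/-- A trace-zero matrix as an endomorphism. -/
def slOf : Ad0 k →ₗ[ZMod p] Module.End k (Fin 2 → k) where
  toFun X := Matrix.toLinAlgEquiv' X.1
  map_add' X Y := by simp
  map_smul' c X := by
    rw [RingHom.id_apply, Submodule.coe_smul_of_tower, ← algebraMap_smul k c X.1, map_smul,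
      algebraMap_smul]

theorem trace_toLinAlgEquiv' (X : Matrix (Fin 2) (Fin 2) k) :
    LinearMap.trace k (Fin 2 → k) (Matrix.toLinAlgEquiv' X) = X.trace :=
  Matrix.trace_toLin'_eq X

theorem slOf_mem (X : Ad0 k) : slOf p X ∈ slEnd k (Fin 2 → k) := by
  rw [mem_slEnd, show slOf p X = Matrix.toLinAlgEquiv' X.1 from rfl, trace_toLinAlgEquiv']
  exact X.2

theorem slOf_injective : Function.Injective (slOf (k := k) p) := fun _ _ h =>
  Subtype.ext (Matrix.toLinAlgEquiv'.injective h)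

theorem slOf_ad0Rep (g : GQ) (X : Ad0 k) :
    slOf p (ad0Rep p M g X) = adConj (linRep M) g (slOf p X) := by
  simp [slOf, adConj_apply, linRep_apply]

/-- The endomorphism-valued cocycle of a matrix-valued one. -/
def endCocycle (x : GQ → Ad0 k) (g : GQ) : Module.End k (Fin 2 → k) := slOf p (x g)

theorem isAdCocycle_endCocycle (x : Z1 lvlQ (ad0Rep p M)) :
    IsAdCocycle (linRep M) (endCocycle p (x : GQ → Ad0 k)) := fun g h => by
  rw [endCocycle, ((mem_Z1 _ _).1 x.2).1, map_add, slOf_ad0Rep, add_comm]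
  rfl

theorem level_endCocycle (x : Z1 lvlQ (ad0Rep p M)) :
    ∃ L : IntermediateField ℚ Qb, FiniteDimensional ℚ L ∧
      ∀ σ : GQ, (∀ y ∈ L, σ y = y) → endCocycle p (x : GQ → Ad0 k) σ = 0 := by
  obtain ⟨hcoc, U, ⟨-, F, hF, hFU⟩, hU⟩ := (mem_Z1 _ _).1 x.2
  refine ⟨F, hF, fun σ hσ => ?_⟩
  have h1 : (x : GQ → Ad0 k) 1 = 0 := by
    have := hcoc 1 1
    simpa using this
  have h := hU 1 σ (hFU ((IntermediateField.mem_fixingSubgroup_iff _ _).2 hσ))
  rw [one_mul, h1] at h
  rw [endCocycle, h, map_zero]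

theorem isEpsModel_of_isDefoOf (x : GQ → Ad0 k) (ρ : GaloisRepAdic k[ε]) (h : IsDefoOf M x ρ) :
    IsEpsModel (linRep M) (endCocycle p x) ρ := by
  obtain ⟨b, hb⟩ := h
  let e₁ : (Fin 2 → k[ε]) ≃+ (Fin 2 → k) × (Fin 2 → k) :=
    { toFun := fun c => (fun i => (c i).fst, fun i => (c i).snd)
      invFun := fun w i => TrivSqZeroExt.inl (w.1 i) + TrivSqZeroExt.inr (w.2 i)
      left_inv := fun c => funext fun i => TrivSqZeroExt.inl_fst_add_inr_snd_eq (c i)
      right_inv := fun w => by ext i <;> simp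
      map_add' := fun c c' => by ext i <;> simp }
  refine ⟨b.equivFun.toAddEquiv.trans e₁, fun a v => ?_, fun g v => ?_⟩
  · ext i <;> simp [e₁, b.equivFun_apply, mul_comm]
  · have hv : ∀ i, b.repr (ρ.ρ g v) i = ((defoMat M x g).mulVec (fun j => b.repr v j)) i := by
      intro i
      rw [← hb g]
      exact (congrFun (LinearMap.toMatrix_mulVec_repr b b (ρ.ρ g) v) i).symm
    simp only [AddEquiv.trans_apply, LinearEquiv.coe_toAddEquiv, e₁, AddEquiv.coe_mk,
      Equiv.coe_fn_mk, Module.Basis.equivFun_apply]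
    ext i <;> fin_cases i <;>
      simp [hv, defoMat, endCocycle, slOf, linRep_apply, Matrix.mulVec, dotProduct, Fin.sum_univ_two,
        Matrix.mul_apply] <;> ring

theorem finiteLevel_of_isDefoOf (x : GQ → Ad0 k) (ρ : GaloisRepAdic k[ε]) (h : IsDefoOf M x ρ) :
    ∃ L : IntermediateField ℚ Qb, FiniteDimensional ℚ L ∧
      ∀ σ : GQ, (∀ y ∈ L, σ y = y) → linRep M σ = 1 := by
  obtain ⟨b, hb⟩ := h
  obtain ⟨L, hL, h1⟩ := ρ.isAdicContinuous 1
  refine ⟨L, hL, fun σ hσ => ?_⟩
  rw [linRep_apply, show M σ = 1 from ?_, map_one]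
  ext i j
  have hmem := Submodule.mem_map_of_mem (f := b.coord i) (h1 σ hσ (b j))
  rw [Submodule.map_smul''] at hmem
  have hI := (Submodule.smul_mono le_rfl le_top).trans_eq
    (by rw [pow_one, smul_eq_mul, Ideal.mul_top]) hmem
  rw [map_sub, Module.Basis.coord_apply, Module.Basis.coord_apply, ← LinearMap.toMatrix_apply,
    hb σ, Module.Basis.repr_self, IsLocalRing.mem_maximalIdeal, mem_nonunits_iff,
    TrivSqZeroExt.isUnit_iff_isUnit_fst, isUnit_iff_ne_zero, not_not] at hI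
  rw [TrivSqZeroExt.fst_sub, sub_eq_zero] at hI
  by_cases hij : i = j
  · subst hij; simpa [defoMat, Matrix.one_apply] using hI
  · simpa [defoMat, Matrix.one_apply, hij, Finsupp.single_apply, Ne.symm hij] using hI

theorem inertia_le_decomposition {A : ValuationSubring Qb} {σ : GQ}
    (h : σ ∈ A.inertiaSubgroupIn ℚ) : σ ∈ A.decompositionSubgroup ℚ := by
  obtain ⟨s, -, rfl⟩ := h
  exact s.2

variable [Finite k]

/-- From a bound on local values to a bound on local classes. -/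
theorem finrank_map_locQ_le (q : Nat.Primes) (hM : Smooth lvlQ (ad0Rep p M))
    (Zc : Submodule k (GQ → Module.End k (Fin 2 → k))) (n : ℕ)
    (hn : finrank k ↥(Zc.map (LinearMap.funLeft k _ (loc q)) ⊔
      LinearMap.range (adD0 (linRep M) (loc q))) ≤ n)
    [Module.Finite k ↥(Zc.map (LinearMap.funLeft k _ (loc q)) ⊔
      LinearMap.range (adD0 (linRep M) (loc q)))] :
    ∃ L : Submodule (ZMod p) (H1L (ad0Rep p M) q),
      finrank (ZMod p) L + 3 * finrank (ZMod p) k ≤
        n * finrank (ZMod p) k + finrank (ZMod p) (fixedBy ((ad0Rep p M).comp (loc q)) ⊤) ∧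
      ∀ x : Z1 lvlQ (ad0Rep p M), endCocycle p (x : GQ → Ad0 k) ∈ Zc →
        locQ (ad0Rep p M) q (clsQ (ad0Rep p M) x) ∈ L := by
  set σl := (ad0Rep p M).comp (loc q)
  set U := Zc.map (LinearMap.funLeft k _ (loc q)) ⊔ LinearMap.range (adD0 (linRep M) (loc q))
  let ψ : Z1 (lvlLoc q) σl →ₗ[ZMod p] (Gl q → Module.End k (Fin 2 → k)) :=
    ((slOf (k := k) p).compLeft (Gl q)).comp (Z1 (lvlLoc q) σl).subtype
  have hψ : Function.Injective ψ := fun a b h => Subtype.ext (funext fun g =>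
    slOf_injective p (congrFun h g))
  let W : Submodule (ZMod p) (Z1 (lvlLoc q) σl) := (U.restrictScalars (ZMod p)).comap ψ
  set π := H1cπ (lvlLoc q) σl
  refine ⟨W.map π, ?_, ?_⟩
  · -- dimension count
    let eW : W →ₗ[ZMod p] ↥(U.restrictScalars (ZMod p)) := ψ.restrict fun w hw => hw
    have heW : Function.Injective eW := fun a b h => Subtype.ext (hψ (congrArg Subtype.val h))
    haveI : Module.Finite (ZMod p) k := Module.Finite.of_finite
    haveI : Finite ↥U := Module.finite_of_finite k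
    haveI : Finite ↥(U.restrictScalars (ZMod p)) := ‹Finite ↥U›
    haveI : Finite W := Finite.of_injective eW heW
    haveI : Module.Finite (ZMod p) W := Module.Finite.of_finite
    haveI : Module.Finite (ZMod p) ↥(U.restrictScalars (ZMod p)) := Module.Finite.of_finite
    have hU : finrank (ZMod p) ↥(U.restrictScalars (ZMod p)) ≤ n * finrank (ZMod p) k := by
      have h1 : finrank (ZMod p) ↥(U.restrictScalars (ZMod p)) =
          finrank (ZMod p) k * finrank k U := by
        haveI : Module.Free k ↥U := Module.Free.of_divisionRing k ↥U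
        rw [finrank_mul_finrank (ZMod p) k ↥U]; rfl
      rw [h1, mul_comm]
      exact Nat.mul_le_mul_right _ hn
    have hW : finrank (ZMod p) W ≤ n * finrank (ZMod p) k :=
      (LinearMap.finrank_le_finrank_of_injective heW).trans hU
    -- the coboundaries
    have hd0 : ∀ m, d0 σl m ∈ Z1 (lvlLoc q) σl := fun m => by
      refine (mem_Z1 _ _).2 ⟨fun g h => by simp [map_mul, map_sub], ?_⟩
      obtain ⟨V', hV', hfix⟩ := hM m
      exact ⟨_, ⟨V', hV', rfl⟩, fun g s hs => by
        simp only [d0_apply, σl, MonoidHom.comp_apply, map_mul, Module.End.mul_apply,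
          hfix _ hs]⟩
    let D : Ad0 k →ₗ[ZMod p] W := LinearMap.codRestrict W
      ((d0 σl).codRestrict (Z1 (lvlLoc q) σl) hd0) fun m => Submodule.mem_sup_right
        ⟨⟨slOf p m, slOf_mem p m⟩, funext fun g => by
          show adConj (linRep M) (loc q g) (slOf p m) - slOf p m = slOf p (d0 σl m g)
          simp [σl, slOf_ad0Rep]⟩
    let πW : W →ₗ[ZMod p] ↥(W.map π) := π.submoduleMap W
    have h1 := LinearMap.finrank_range_add_finrank_ker πW
    rw [LinearMap.range_eq_top.2 (LinearMap.submoduleMap_surjective π W), finrank_top] at h1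
    have h2 : finrank (ZMod p) (LinearMap.range D) ≤ finrank (ZMod p) (LinearMap.ker πW) := by
      refine Submodule.finrank_mono ?_
      rintro _ ⟨m, rfl⟩
      rw [LinearMap.mem_ker]
      exact Subtype.ext ((H1cπ_eq_zero (lvlLoc q) σl).2 ⟨m, rfl⟩)
    have h3 := LinearMap.finrank_range_add_finrank_ker D
    have h4 : finrank (ZMod p) (LinearMap.ker D) =
        finrank (ZMod p) (fixedBy ((ad0Rep p M).comp (loc q)) ⊤) := by
      refine LinearEquiv.finrank_eq (LinearEquiv.ofEq _ _ ?_)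
      ext m
      rw [LinearMap.mem_ker, mem_fixedBy]
      constructor
      · intro h s _
        exact sub_eq_zero.1 (congrFun (congrArg (fun w : W => ((w : Z1 (lvlLoc q) σl) :
          Gl q → Ad0 k)) h) s)
      · intro h
        exact Subtype.ext (Subtype.ext (funext fun s => sub_eq_zero.2 (h s trivial)))
    have h5 : finrank (ZMod p) (Ad0 k) = 3 * finrank (ZMod p) k := by
      rw [← finrank_mul_finrank (ZMod p) k (Ad0 k), mul_comm]
      congr 1
      have hsl := finrank_slEnd (k := k) (V := Fin 2 → k) (by simp)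
      rw [← hsl]
      refine LinearEquiv.finrank_eq (LinearEquiv.ofBijective
        (((Matrix.toLinAlgEquiv' (R := k) (n := Fin 2)).toLinearMap.comp
          (Ad0 k).subtype).codRestrict (slEnd k (Fin 2 → k)) fun X => slOf_mem (k := k) p X)
        ⟨fun a b h => slOf_injective p (congrArg Subtype.val h), fun c => ?_⟩)
      refine ⟨⟨Matrix.toLinAlgEquiv'.symm c.1, ?_⟩, Subtype.ext ?_⟩
      swap
      · show Matrix.toLinAlgEquiv' (Matrix.toLinAlgEquiv'.symm c.1) = c.1
        exact AlgEquiv.apply_symm_apply _ _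
      rw [LinearMap.mem_ker, Matrix.traceLinearMap_apply, ← trace_toLinAlgEquiv',
        AlgEquiv.apply_symm_apply]
      exact c.2
    rw [h4, h5] at h3
    show finrank (ZMod p) ↥(W.map π) + 3 * finrank (ZMod p) k ≤ _
    omega
  · intro x hx
    let y : Z1 (lvlLoc q) σl := ⟨pp1 (loc q) LinearMap.id (x : GQ → Ad0 k),
      pp1_mem_Z1 (lvlQ_le_lvlLoc q) (fun _ _ => rfl) x.2⟩
    exact ⟨y, Submodule.mem_sup_left ⟨_, hx, rfl⟩, rfl⟩

/-- The strict ordinary condition. -/
theorem strictOrdinaryCond_exists (hp : p ≠ 2) (hM : Smooth lvlQ (ad0Rep p M)) :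
    ∃ L : Submodule (ZMod p) (H1L (ad0Rep p M) (pPrime p)),
      finrank (ZMod p) L ≤ finrank (ZMod p) (fixedBy ((ad0Rep p M).comp (loc (pPrime p))) ⊤) +
        finrank (ZMod p) k ∧
      ∀ (x : Z1 lvlQ (ad0Rep p M)) (ρ : GaloisRepAdic (DualNumber k)),
        IsDefoOf M (x : GQ → Ad0 k) ρ → ρ.IsStrictOrdinaryAt p →
          locQ (ad0Rep p M) (pPrime p) (clsQ (ad0Rep p M) x) ∈ L := by
  haveI : CharP k p := charP_of_injective_algebraMap (algebraMap (ZMod p) k).injective p
  haveI : CharP k ((pPrime p : Nat.Primes) : ℕ) := ‹CharP k p›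
  by_cases hex : ∃ (x : Z1 lvlQ (ad0Rep p M)) (ρ : GaloisRepAdic (DualNumber k)),
      IsDefoOf M (x : GQ → Ad0 k) ρ ∧ ρ.IsStrictOrdinaryAt p
  swap
  · refine ⟨⊥, by simp, fun x ρ h1 h2 => absurd ⟨x, ρ, h1, h2⟩ hex⟩
  obtain ⟨x₀, ρ₀, hd₀, ho₀⟩ := hex
  have hA := FLTA.PT.primeLocalPlace_liesOverPrime (pPrime p)
  have hV : finrank k (Fin 2 → k) = 2 := by simp
  obtain ⟨l, hl, -⟩ := exists_line_of_isStrictOrdinaryAt (p := p) hp hV (linRep M)
    (z := endCocycle p (x₀ : GQ → Ad0 k)) (fun σ => slOf_mem p _)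
    (isEpsModel_of_isDefoOf p M _ ρ₀ hd₀) ho₀ hA
  let Zc : Submodule k (GQ → Module.End k (Fin 2 → k)) :=
    { carrier := {z | IsAdCocycle (linRep M) z ∧
        (∃ L : IntermediateField ℚ Qb, FiniteDimensional ℚ L ∧
          ∀ σ : GQ, (∀ y ∈ L, σ y = y) → z σ = 0) ∧
        ∃ u ∈ slEnd k (Fin 2 → k), ∀ σ ∈ (primeLocalPlace (pPrime p)).decompositionSubgroup ℚ,
          z σ + (adConj (linRep M) σ u - u) ∈ lineNil (k := k) l}
      add_mem' := by
        rintro a b ⟨ha, ⟨La, _, hLa⟩, u, hu, hua⟩ ⟨hb, ⟨Lb, _, hLb⟩, v, hv, hvb⟩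
        refine ⟨fun g h => by simp [ha g h, hb g h, map_add]; abel, ⟨La ⊔ Lb, inferInstance,
          fun σ hσ => ?_⟩, u + v, Submodule.add_mem _ hu hv, fun σ hσ => ?_⟩
        · rw [Pi.add_apply, hLa σ fun y hy => hσ y ((le_sup_left : La ≤ _) hy),
            hLb σ fun y hy => hσ y ((le_sup_right : Lb ≤ _) hy), add_zero]
        · convert Submodule.add_mem _ (hua σ hσ) (hvb σ hσ) using 1
          simp only [Pi.add_apply, map_add]
          abel
      zero_mem' := ⟨fun g h => by simp, ⟨⊥, inferInstance, fun _ _ => rfl⟩, 0,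
        Submodule.zero_mem _, fun σ _ => by simp⟩
      smul_mem' := by
        rintro c a ⟨ha, ⟨La, hLaf, hLa⟩, u, hu, hua⟩
        refine ⟨fun g h => by simp [ha g h, smul_add], ⟨La, hLaf, fun σ hσ => by
          rw [Pi.smul_apply, hLa σ hσ, smul_zero]⟩, c • u, Submodule.smul_mem _ c hu,
          fun σ hσ => ?_⟩
        convert Submodule.smul_mem _ c (hua σ hσ) using 1
        simp [smul_add, smul_sub] }
  have hbound := finrank_lineNil_restriction_le (pPrime p) hp hV (linRep M)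
    (finiteLevel_of_isDefoOf M _ ρ₀ hd₀) hl Zc (fun z hz => hz.1) (fun z hz => hz.2.1)
    (fun z hz => hz.2.2)
  haveI := hbound.1
  obtain ⟨L, hL, hmem⟩ := finrank_map_locQ_le p M (pPrime p) hM Zc 4 hbound.2
  refine ⟨L, by omega, fun x ρ h1 h2 => hmem x ⟨isAdCocycle_endCocycle p M x,
    level_endCocycle p M x, ?_⟩⟩
  obtain ⟨l', hl', u, hu, hzu⟩ := exists_line_of_isStrictOrdinaryAt (p := p) hp hV (linRep M)
    (z := endCocycle p (x : GQ → Ad0 k)) (fun σ => slOf_mem p _)
    (isEpsModel_of_isDefoOf p M _ ρ h1) h2 hA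
  exact ⟨u, hu, fun σ hσ =>
    lineNil_le hl'.1 (IsStrictLine.mem_span hp hV hA hl hl') (hzu σ hσ)⟩

/-- The unipotent condition at a ramified prime away from `p`. -/
theorem unipotentCond_exists (hp : p ≠ 2) (q : Nat.Primes) (hq : (q : ℕ) ≠ p)
    (hM : Smooth lvlQ (ad0Rep p M))
    (hdet : ∀ g, (M g).det = algebraMap (ZMod p) k (cycloChar p g : ZMod p))
    (hram : ∃ s ∈ inertiaG q, M (loc q s) ≠ 1) :
    ∃ L : Submodule (ZMod p) (H1L (ad0Rep p M) q),
      finrank (ZMod p) L ≤ finrank (ZMod p) (fixedBy ((ad0Rep p M).comp (loc q)) ⊤) ∧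
      ∀ (x : Z1 lvlQ (ad0Rep p M)) (ρ : GaloisRepAdic (DualNumber k)),
        IsDefoOf M (x : GQ → Ad0 k) ρ → ρ.IsUnipotentOnInertiaAt (q : ℕ) →
          locQ (ad0Rep p M) q (clsQ (ad0Rep p M) x) ∈ L := by
  haveI : CharP k p := charP_of_injective_algebraMap (algebraMap (ZMod p) k).injective p
  by_cases hex : ∃ (x : Z1 lvlQ (ad0Rep p M)) (ρ : GaloisRepAdic (DualNumber k)),
      IsDefoOf M (x : GQ → Ad0 k) ρ ∧ ρ.IsUnipotentOnInertiaAt (q : ℕ)
  swap
  · refine ⟨⊥, by simp, fun x ρ h1 h2 => absurd ⟨x, ρ, h1, h2⟩ hex⟩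
  have hA := FLTA.PT.primeLocalPlace_liesOverPrime q
  -- traces on inertia
  have htr : ∀ (x : GQ → Ad0 k) (ρ : GaloisRepAdic (DualNumber k)), IsDefoOf M x ρ →
      ρ.IsUnipotentOnInertiaAt (q : ℕ) → ∀ σ ∈ (primeLocalPlace q).inertiaSubgroupIn ℚ,
        (M σ).trace = 2 ∧ ((x σ).1 * M σ).trace = 0 := by
    rintro x ρ ⟨b, hb⟩ hu σ hσ
    have h := hu _ hA σ hσ
    rw [← LinearMap.charpoly_toMatrix (ρ.ρ σ) b, hb, Matrix.charpoly_fin_two] at h
    rw [show ((Polynomial.X - 1) ^ 2 : Polynomial (DualNumber k)) =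
      Polynomial.X ^ 2 - Polynomial.C 2 * Polynomial.X + Polynomial.C 1 by
        rw [map_one, map_ofNat]; ring] at h
    have h1 := congrArg (fun f => Polynomial.coeff f 1) h
    simp [Polynomial.coeff_X_pow, Polynomial.coeff_one] at h1
    have h2 : (2 : DualNumber k) = TrivSqZeroExt.inl 2 :=
      (map_ofNat (TrivSqZeroExt.inlHom k k) 2).symm
    rw [h2] at h1
    constructor
    · have := congrArg TrivSqZeroExt.fst h1
      simpa [defoMat, Matrix.trace_fin_two] using this
    · have := congrArg TrivSqZeroExt.snd h1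
      simpa [defoMat, Matrix.trace_fin_two] using this
  obtain ⟨x₀, ρ₀, hd₀, hu₀⟩ := hex
  have hunip : ∀ σ ∈ (primeLocalPlace q).inertiaSubgroupIn ℚ,
      (linRep M σ - 1) * (linRep M σ - 1) = 0 := by
    intro σ hσ
    have ht := (htr _ ρ₀ hd₀ hu₀ σ hσ).1
    have hd : (M σ).det = 1 := by
      rw [hdet, coe_cycloChar, FLTA.Galois.cycloExp_inertia p q.2 hq hA hσ, map_one]
    have h : (M σ - 1) * (M σ - 1) = 0 := by
      rw [Matrix.trace_fin_two] at ht
      rw [Matrix.det_fin_two] at hd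
      ext i j
      fin_cases i <;> fin_cases j <;>
        simp [Matrix.mul_apply, Fin.sum_univ_two, Matrix.one_apply]
      · linear_combination (M σ 0 0) * ht - hd
      · linear_combination (M σ 0 1) * ht
      · linear_combination (M σ 1 0) * ht
      · linear_combination (M σ 1 1) * ht - hd
    rw [linRep_apply, ← map_one (Matrix.toLinAlgEquiv' (R := k) (n := Fin 2)), ← map_sub, ← map_mul,
      h, map_zero]
  have hram' : ∃ σ ∈ (primeLocalPlace q).inertiaSubgroupIn ℚ, linRep M σ ≠ 1 := by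
    obtain ⟨s, hs, hne⟩ := hram
    exact ⟨loc q s, hs, fun h => hne (Matrix.toLinAlgEquiv'.injective (h.trans (map_one _).symm))⟩
  let Zc : Submodule k (GQ → Module.End k (Fin 2 → k)) :=
    { carrier := {z | IsAdCocycle (linRep M) z ∧ (∀ σ, z σ ∈ slEnd k (Fin 2 → k)) ∧
        (∃ L : IntermediateField ℚ Qb, FiniteDimensional ℚ L ∧
          ∀ σ : GQ, (∀ y ∈ L, σ y = y) → z σ = 0) ∧
        ∀ σ ∈ (primeLocalPlace q).inertiaSubgroupIn ℚ,
          LinearMap.trace k _ (z σ * linRep M σ) = 0}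
      add_mem' := by
        rintro a b ⟨ha, ha', ⟨La, _, hLa⟩, hua⟩ ⟨hb, hb', ⟨Lb, _, hLb⟩, hvb⟩
        refine ⟨fun g h => by simp [ha g h, hb g h, map_add]; abel,
          fun σ => Submodule.add_mem _ (ha' σ) (hb' σ), ⟨La ⊔ Lb, inferInstance,
          fun σ hσ => ?_⟩, fun σ hσ => ?_⟩
        · rw [Pi.add_apply, hLa σ fun y hy => hσ y ((le_sup_left : La ≤ _) hy),
            hLb σ fun y hy => hσ y ((le_sup_right : Lb ≤ _) hy), add_zero]
        · rw [Pi.add_apply, add_mul, map_add, hua σ hσ, hvb σ hσ, add_zero]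
      zero_mem' := ⟨fun g h => by simp, fun σ => Submodule.zero_mem _,
        ⟨⊥, inferInstance, fun _ _ => rfl⟩, fun σ _ => by simp⟩
      smul_mem' := by
        rintro c a ⟨ha, ha', ⟨La, hLaf, hLa⟩, hua⟩
        refine ⟨fun g h => by simp [ha g h, smul_add], fun σ => Submodule.smul_mem _ c (ha' σ),
          ⟨La, hLaf, fun σ hσ => by rw [Pi.smul_apply, hLa σ hσ, smul_zero]⟩, fun σ hσ => ?_⟩
        rw [Pi.smul_apply, smul_mul_assoc, map_smul, hua σ hσ, smul_zero] }
  have hbound := finrank_unipotent_restriction_le (k := k) (V := Fin 2 → k) (p := p) Fact.out hp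
    q.2 hq (by simp) (linRep M) (finiteLevel_of_isDefoOf M _ ρ₀ hd₀) hA hunip hram' (loc q)
    (loc_mem_decompositionSubgroup q) Zc (fun z hz => hz.1) (fun z hz => hz.2.1)
    (fun z hz => hz.2.2.1) (fun z hz => hz.2.2.2)
  haveI := hbound.1
  obtain ⟨L, hL, hmem⟩ := finrank_map_locQ_le p M q hM Zc 3 hbound.2
  refine ⟨L, by omega, fun x ρ h1 h2 => hmem x ⟨isAdCocycle_endCocycle p M x,
    fun σ => slOf_mem p _, level_endCocycle p M x, fun σ hσ => ?_⟩⟩
  show LinearMap.trace k _ (Matrix.toLinAlgEquiv' ((x : GQ → Ad0 k) σ).1 *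
    Matrix.toLinAlgEquiv' (M σ)) = 0
  rw [← map_mul, trace_toLinAlgEquiv']
  exact (htr _ ρ h1 h2 σ hσ).2

end FLTA.TaylorWiles

end
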