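import Fermat.Agent.TaylorWiles.SelmerBound
import Fermat.Agent.TaylorWiles.OrdinaryCond
import Fermat.Agent.TaylorWiles.LocalAway
import Fermat.Prelude.Def_GaloisRep_StrictOrdinary
import Fermat.Agent.Galois.Places

/-!
# Local conditions away from the flat case
-/

set_option autoImplicit false

open ExtCitation Module

noncomputable section

namespace FLTA.TW

open FLTA.PT

variable (p : ℕ) [Fact p.Prime] {k : Type} [Field k] [Finite k] [Algebra (ZMod p) k]
variable (M : GQ →* Matrix (Fin 2) (Fin 2) k)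

/-- The strict ordinary condition. -/
theorem exists_strictOrdinaryCond (hp : p ≠ 2) (hM : Smooth lvlQ (ad0Rep p M))
    (hdet : ∀ g, (M g).det = algebraMap (ZMod p) k (cycloChar p g : ZMod p)) :
    ∃ L : Submodule (ZMod p) (H1L (ad0Rep p M) (pPrime p)),
      finrank (ZMod p) L ≤ finrank (ZMod p) (fixedBy ((ad0Rep p M).comp (loc (pPrime p))) ⊤) +
        finrank (ZMod p) k ∧
      ∀ (x : Z1 lvlQ (ad0Rep p M)) (ρ : GaloisRepAdic (DualNumber k)),
        IsDefoOf M (x : GQ → Ad0 k) ρ → ρ.IsStrictOrdinaryAt p →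
          locQ (ad0Rep p M) (pPrime p) (clsQ (ad0Rep p M) x) ∈ L :=
  FLTA.TaylorWiles.strictOrdinaryCond_exists p M hp hM

/-- The unipotent condition at a ramified prime away from `p`. -/
theorem exists_unipotentCond (hp : p ≠ 2) (q : Nat.Primes) (hq : (q : ℕ) ≠ p)
    (hM : Smooth lvlQ (ad0Rep p M))
    (hdet : ∀ g, (M g).det = algebraMap (ZMod p) k (cycloChar p g : ZMod p))
    (hram : ∃ s ∈ inertiaG q, M (loc q s) ≠ 1) :
    ∃ L : Submodule (ZMod p) (H1L (ad0Rep p M) q),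
      finrank (ZMod p) L ≤ finrank (ZMod p) (fixedBy ((ad0Rep p M).comp (loc q)) ⊤) ∧
      ∀ (x : Z1 lvlQ (ad0Rep p M)) (ρ : GaloisRepAdic (DualNumber k)),
        IsDefoOf M (x : GQ → Ad0 k) ρ → ρ.IsUnipotentOnInertiaAt (q : ℕ) →
          locQ (ad0Rep p M) q (clsQ (ad0Rep p M) x) ∈ L :=
  FLTA.TaylorWiles.unipotentCond_exists p M hp q hq hM hdet hram

/-- Deformations unramified at `q` give unramified classes. -/
theorem locQ_mem_unrCond (q : Nat.Primes) (x : Z1 lvlQ (ad0Rep p M))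
    (ρ : GaloisRepAdic (DualNumber k)) (hx : IsDefoOf M (x : GQ → Ad0 k) ρ)
    (hur : ρ.IsUnramifiedAt (q : ℕ)) :
    locQ (ad0Rep p M) q (clsQ (ad0Rep p M) x) ∈ unrCond (ad0Rep p M) q :=
  FLTA.TaylorWiles.unramified_locQ_mem p M q x ρ hx hur

/-- At a Taylor-Wiles prime the whole of local `H¹` is only one dimension bigger than `H⁰`. -/
theorem finrank_H1L_taylorWiles_le (hp : p ≠ 2) (q : Nat.Primes) (hq : p ∣ (q : ℕ) - 1)
    (hM : Smooth lvlQ (ad0Rep p M)) (hur : ∀ s ∈ inertiaG q, M (loc q s) = 1)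
    (φ : GQ) (hφ : (primeLocalPlace q).IsFrobeniusAt φ (q : ℕ))
    (hdist : ∃ α β : k, α ≠ β ∧ (M φ).charpoly =
      (Polynomial.X - Polynomial.C α) * (Polynomial.X - Polynomial.C β)) :
    finrank (ZMod p) (H1L (ad0Rep p M) q) ≤
      finrank (ZMod p) (fixedBy ((ad0Rep p M).comp (loc q)) ⊤) + finrank (ZMod p) k :=
  FLTA.TaylorWiles.finrank_H1L_taylorWiles p M hp q hq hM hur φ hφ hdist

/-- A dual class at a Taylor-Wiles prime which is zero locally is a coboundary at Frobenius,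
and conversely. -/
theorem locQ_ad0Dual_ne_zero (q : Nat.Primes) (x : Z1 lvlQ (ad0Dual p M)) (φ : GQ)
    (A : ValuationSubring Qb) (hA : A.LiesOverPrime (q : ℕ)) (hφ : A.IsFrobeniusAt φ (q : ℕ))
    (hx : ¬ ∃ m : Ad0 k, (x : GQ → Ad0 k) φ = ad0Dual p M φ m - m) :
    locQ (ad0Dual p M) q (clsQ (ad0Dual p M) x) ≠ 0 :=
  FLTA.TaylorWiles.locQ_ad0Dual_ne_zero_of_frobenius p M q x φ A hA hφ hx

end FLTA.TW

end
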