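import Fermat.Agent.TaylorWiles.Element
import Fermat.Agent.TaylorWiles.LocalCond
import Fermat.Agent.Density.TaylorWilesElement

/-!
# Choice of the Taylor-Wiles primes

A finite space of classes of `ad⁰(1)` is detected by as many Taylor-Wiles primes as its dimension.
-/

set_option autoImplicit false

open ExtCitation Module Polynomial

noncomputable section

namespace FLTA.TW

open FLTA.PT

variable (p : ℕ) [Fact p.Prime] {k : Type} [Field k] [Finite k] [Algebra (ZMod p) k]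

/-- `ad⁰(1)` factors through a finite level. -/
theorem ad0Dual_finiteLevel (ρbar : ResidualGaloisRep k) (b : Module.Basis (Fin 2) k ρbar.V)
    (M : GQ →* Matrix (Fin 2) (Fin 2) k) (hMb : ∀ g, LinearMap.toMatrix b b (ρbar.ρ g) = M g) :
    ∃ L : IntermediateField ℚ Qb, FiniteDimensional ℚ L ∧
      ∀ σ : GQ, (∀ x ∈ L, σ x = x) → ad0Dual p M σ = 1 := by
  have hp : p.Prime := Fact.out
  haveI : NeZero p := ⟨hp.ne_zero⟩
  obtain ⟨L, hL, h1⟩ := ρbar.factorsThroughFiniteLevel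
  obtain ⟨ζ, hζ⟩ : ∃ ζ : Qb, IsPrimitiveRoot ζ (p ^ (0 + 1)) := by
    haveI : NeZero ((p ^ (0 + 1) : ℕ) : Qb) := ⟨Nat.cast_ne_zero.mpr (pow_ne_zero _ hp.ne_zero)⟩
    exact HasEnoughRootsOfUnity.exists_primitiveRoot Qb _
  haveI : FiniteDimensional ℚ (IntermediateField.adjoin ℚ {ζ}) :=
    IntermediateField.adjoin.finiteDimensional (Algebra.IsIntegral.isIntegral ζ)
  refine ⟨L ⊔ IntermediateField.adjoin ℚ {ζ}, inferInstance, fun σ hσ => ?_⟩
  have hM : M σ = 1 := by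
    rw [← hMb, h1 σ fun x hx => hσ x (le_sup_left (a := L) hx), LinearMap.toMatrix_one]
  have hM' : M σ⁻¹ = 1 := by
    have h : M σ⁻¹ * M σ = 1 := by rw [← map_mul, inv_mul_cancel, map_one]
    rwa [hM, mul_one] at h
  have hc : (cycloChar p σ : ZMod p) = 1 :=
    cycloChar_eq_one_of_mem_fixRoot p hζ (mem_fixRoot.mpr
      (hσ ζ (le_sup_right (a := L) (IntermediateField.mem_adjoin_simple_self ℚ ζ))))
  refine LinearMap.ext fun X => Subtype.ext ?_
  rw [ad0Dual_apply, hc, one_smul, coe_ad0Rep_apply, hM, hM', one_mul, mul_one]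
  rfl

/-- One Taylor-Wiles prime at which a given nonzero class does not vanish. -/
theorem exists_taylorWiles_prime (hp : p ≠ 2) (ρbar : ResidualGaloisRep k)
    (b : Module.Basis (Fin 2) k ρbar.V) (M : GQ →* Matrix (Fin 2) (Fin 2) k)
    (hMb : ∀ g, LinearMap.toMatrix b b (ρbar.ρ g) = M g)
    (hdet : ∀ g, (M g).det = algebraMap (ZMod p) k (cycloChar p g : ZMod p))
    (hsplit : ∀ g, ∃ α β : k, LinearMap.charpoly (ρbar.ρ g) = (X - C α) * (X - C β))
    (habs : ρbar.IsAbsolutelyIrreducible)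
    (hTW : ∀ (K : Type) [Field K] [Algebra k K] (G : Subgroup GQ), G.index = 2 →
      ∀ V : Submodule K (ρbar.baseChange K).V,
        (∀ σ ∈ G, ∀ x ∈ V, (ρbar.baseChange K).ρ σ x ∈ V) → V = ⊥ ∨ V = ⊤)
    (S : Finset ℕ) (hur : ∀ ℓ : ℕ, ℓ.Prime → ℓ ∉ S → ρbar.IsUnramifiedAt ℓ) (n : ℕ)
    {c : H1Q (ad0Dual p M)} (hc : c ≠ 0) :
    ∃ q : Nat.Primes, (q : ℕ) ∉ S ∧ p ^ (n + 1) ∣ (q : ℕ) - 1 ∧
      (∀ P : ValuationSubring Qb, P.LiesOverPrime (q : ℕ) → ∀ φ : GQ,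
        P.IsFrobeniusAt φ (q : ℕ) →
          ∃ α β : k, α ≠ β ∧ LinearMap.charpoly (ρbar.ρ φ) = (X - C α) * (X - C β)) ∧
      locQ (ad0Dual p M) q c ≠ 0 := by
  have hpp : p.Prime := Fact.out
  haveI : NeZero (p ^ (n + 1)) := ⟨pow_ne_zero _ hpp.ne_zero⟩
  obtain ⟨x, rfl⟩ := Submodule.Quotient.mk_surjective _ c
  have hxB : (x : GQ → Ad0 k) ∉ B1 (ad0Dual p M) := fun h => hc ((H1cπ_eq_zero lvlQ (ad0Dual p M)).mpr h)
  obtain ⟨ζ, hζ⟩ : ∃ ζ : Qb, IsPrimitiveRoot ζ (p ^ (n + 1)) := by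
    haveI : NeZero ((p ^ (n + 1) : ℕ) : Qb) := ⟨Nat.cast_ne_zero.mpr (pow_ne_zero _ hpp.ne_zero)⟩
    exact HasEnoughRootsOfUnity.exists_primitiveRoot Qb _
  obtain ⟨σ, hσζ, hσeig, hσx⟩ :=
    exists_taylorWiles_element p hp ρbar b M hMb hdet hsplit habs hTW n hζ x hxB
  let act : GQ →* AddMonoid.End (Ad0 k) :=
    { toFun := fun g => (ad0Dual p M g).toAddMonoidHom
      map_one' := by rw [map_one]; rfl
      map_mul' := fun g h => by rw [map_mul]; rfl }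
  have hact : GaloisFactorsThroughFiniteLevel act := by
    obtain ⟨L, hL, h1⟩ := ad0Dual_finiteLevel p ρbar b M hMb
    refine ⟨L, hL, fun s hs => ?_⟩
    refine AddMonoidHom.ext fun X => ?_
    show ad0Dual p M s X = X
    rw [h1 s hs]
    rfl
  obtain ⟨hcoc, hlev⟩ := (mem_Z1 _ _).mp x.2
  obtain ⟨U, ⟨-, F, hF, hFU⟩, hconst⟩ := hlev
  obtain ⟨ℓ, hℓ, hℓS, hdvd, A, hA, τ, hτ, -, heig, hτx⟩ :=
    Density.exists_frobenius_taylorWiles ρbar.ρ ρbar.factorsThroughFiniteLevel hsplit act hact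
      (x : GQ → Ad0 k) (fun g h => by
        rw [hcoc g h]
        exact add_comm _ _)
      ⟨F, hF, fun g s hs => hconst g s (hFU hs)⟩ hζ σ hσζ hσeig hσx S
  refine ⟨⟨ℓ, hℓ⟩, hℓS, hdvd, fun P hP φ hφ => ?_,
    locQ_ad0Dual_ne_zero p M ⟨ℓ, hℓ⟩ x τ A hA hτ hτx⟩
  rw [Density.charpoly_isFrobeniusAt_eq ρbar.ρ hℓ (fun A hA s hs => hur ℓ hℓ hℓS A hA s hs)
    hP hA hφ hτ]
  exact heig

/-- As many Taylor-Wiles primes as the dimension of a space of classes detect it. -/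
theorem exists_taylorWiles_primes (hp : p ≠ 2) (ρbar : ResidualGaloisRep k)
    (b : Module.Basis (Fin 2) k ρbar.V) (M : GQ →* Matrix (Fin 2) (Fin 2) k)
    (hMb : ∀ g, LinearMap.toMatrix b b (ρbar.ρ g) = M g)
    (hdet : ∀ g, (M g).det = algebraMap (ZMod p) k (cycloChar p g : ZMod p))
    (hsplit : ∀ g, ∃ α β : k, LinearMap.charpoly (ρbar.ρ g) = (X - C α) * (X - C β))
    (habs : ρbar.IsAbsolutelyIrreducible)
    (hTW : ∀ (K : Type) [Field K] [Algebra k K] (G : Subgroup GQ), G.index = 2 →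
      ∀ V : Submodule K (ρbar.baseChange K).V,
        (∀ σ ∈ G, ∀ x ∈ V, (ρbar.baseChange K).ρ σ x ∈ V) → V = ⊥ ∨ V = ⊤)
    (S : Finset ℕ) (hur : ∀ ℓ : ℕ, ℓ.Prime → ℓ ∉ S → ρbar.IsUnramifiedAt ℓ)
    (D : Submodule (ZMod p) (H1Q (ad0Dual p M))) [Module.Finite (ZMod p) D] (n : ℕ) :
    ∃ qv : Fin (finrank (ZMod p) D) → Nat.Primes, Function.Injective qv ∧
      (∀ i, (qv i : ℕ) ∉ S ∧ p ^ (n + 1) ∣ (qv i : ℕ) - 1 ∧
        ∀ P : ValuationSubring Qb, P.LiesOverPrime (qv i : ℕ) → ∀ φ : GQ,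
          P.IsFrobeniusAt φ (qv i : ℕ) →
            ∃ α β : k, α ≠ β ∧ LinearMap.charpoly (ρbar.ρ φ) = (X - C α) * (X - C β)) ∧
      ∀ c ∈ D, (∀ i, locQ (ad0Dual p M) (qv i) c = 0) → c = 0 := by
  classical
  set r := finrank (ZMod p) D with hr
  suffices h : ∀ j, j ≤ r → ∃ qv : Fin j → Nat.Primes, Function.Injective qv ∧
      (∀ i, (qv i : ℕ) ∉ S ∧ p ^ (n + 1) ∣ (qv i : ℕ) - 1 ∧
        ∀ P : ValuationSubring Qb, P.LiesOverPrime (qv i : ℕ) → ∀ φ : GQ,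
          P.IsFrobeniusAt φ (qv i : ℕ) →
            ∃ α β : k, α ≠ β ∧ LinearMap.charpoly (ρbar.ρ φ) = (X - C α) * (X - C β)) ∧
      finrank (ZMod p) (D ⊓ ⨅ i, LinearMap.ker (locQ (ad0Dual p M) (qv i)) :
        Submodule (ZMod p) (H1Q (ad0Dual p M))) ≤ r - j by
    obtain ⟨qv, hinj, hprop, hker⟩ := h r le_rfl
    refine ⟨qv, hinj, hprop, fun c hcD hc => ?_⟩
    haveI : Module.Finite (ZMod p) (D ⊓ ⨅ i, LinearMap.ker (locQ (ad0Dual p M) (qv i)) :
        Submodule (ZMod p) (H1Q (ad0Dual p M))) := Submodule.finiteDimensional_inf_left D _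
    rw [Nat.sub_self, Nat.le_zero, Submodule.finrank_eq_zero] at hker
    refine (Submodule.mem_bot (ZMod p)).mp (hker ▸ Submodule.mem_inf.mpr ⟨hcD, ?_⟩)
    rw [Submodule.mem_iInf]
    exact hc
  intro j
  induction j with
  | zero =>
    intro _
    refine ⟨Fin.elim0, fun a => a.elim0, fun i => i.elim0, ?_⟩
    rw [Nat.sub_zero]
    exact Submodule.finrank_mono inf_le_left
  | succ j ih =>
    intro hj
    obtain ⟨qv, hinj, hprop, hker⟩ := ih (Nat.le_of_succ_le hj)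
    set Kj : Submodule (ZMod p) (H1Q (ad0Dual p M)) :=
      D ⊓ ⨅ i, LinearMap.ker (locQ (ad0Dual p M) (qv i)) with hKj
    haveI : Module.Finite (ZMod p) Kj := Submodule.finiteDimensional_inf_left D _
    obtain ⟨c, hc0, hcK⟩ : ∃ c, c ≠ 0 ∧ (Kj ≠ ⊥ → c ∈ Kj) := by
      by_cases hK : Kj = ⊥
      · have hD : D ≠ ⊥ := fun h => by
          rw [h, finrank_bot] at hr
          omega
        obtain ⟨c, -, hc0⟩ := Submodule.exists_mem_ne_zero_of_ne_bot hD
        exact ⟨c, hc0, fun h => absurd hK h⟩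
      · obtain ⟨c, hcK, hc0⟩ := Submodule.exists_mem_ne_zero_of_ne_bot hK
        exact ⟨c, hc0, fun _ => hcK⟩
    obtain ⟨q, hqS, hqd, hqeig, hloc⟩ :=
      exists_taylorWiles_prime p hp ρbar b M hMb hdet hsplit habs hTW
        (S ∪ Finset.univ.image fun i => (qv i : ℕ))
        (fun ℓ hℓ hℓS => hur ℓ hℓ fun h => hℓS (Finset.mem_union_left _ h)) n hc0
    rw [Finset.notMem_union] at hqS
    refine ⟨Fin.cons q qv, ?_, ?_, ?_⟩
    · rw [Fin.cons_injective_iff]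
      exact ⟨fun ⟨i, hi⟩ => hqS.2 (Finset.mem_image.mpr ⟨i, Finset.mem_univ _, by rw [hi]⟩), hinj⟩
    · intro i
      refine Fin.cases ?_ (fun i => ?_) i
      · simpa using ⟨hqS.1, hqd, hqeig⟩
      · simpa using hprop i
    · set K' : Submodule (ZMod p) (H1Q (ad0Dual p M)) :=
        D ⊓ ⨅ i, LinearMap.ker (locQ (ad0Dual p M) ((Fin.cons q qv : Fin (j + 1) → Nat.Primes) i))
        with hK'
      have hle : K' ≤ Kj := by
        refine le_inf inf_le_left (inf_le_right.trans (le_iInf fun i => ?_))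
        exact (iInf_le _ i.succ).trans (by rw [Fin.cons_succ])
      by_cases hK : Kj = ⊥
      · have hK0 : K' = ⊥ := le_bot_iff.mp (hle.trans hK.le)
        rw [hK0, finrank_bot]
        exact Nat.zero_le _
      · have hlt : K' < Kj := by
          refine lt_of_le_of_ne hle fun h => hloc ?_
          have hcK' : c ∈ K' := h ▸ hcK hK
          have h0 := (Submodule.mem_iInf _).mp hcK'.2 0
          rw [Fin.cons_zero] at h0
          exact LinearMap.mem_ker.mp h0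
        have := Submodule.finrank_lt_finrank_of_lt hlt
        omega

end FLTA.TW

end
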