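import Fermat.Agent.TaylorWiles.MainLoc
import Fermat.Agent.TaylorWiles.Setup
import Fermat.Agent.TaylorWiles.Primes
import Fermat.Agent.PoitouTate.LocalDuality
import Fermat.Prelude.Def_GaloisRep_ComplexConjugation

/-!
# Taylor-Wiles primes killing a dual Selmer group: the count

For arbitrary local conditions `L` on a set `S0` there are, at every level `n`, `r` primes such
that for every `L₁` with smaller dual conditions the Selmer group with everything allowed at the
new primes has dimension at most `r · f - f + ∑ (dim L₁ - h⁰)`.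
-/

set_option autoImplicit false

open ExtCitation Module Polynomial

noncomputable section

namespace FLTA.TW

open FLTA.PT

/-- Complex conjugation is not the identity. -/
theorem conj_ne_one : complexConjugation ≠ 1 := by
  intro h
  obtain ⟨x, hx⟩ := IsAlgClosed.exists_pow_nat_eq (-1 : Qb) (n := 2) two_pos
  have hfix := complexEmbedding_complexConjugation x
  rw [h, AlgEquiv.one_apply] at hfix
  obtain ⟨r, hr⟩ := (Complex.conj_eq_iff_real).mp hfix.symm
  have h2 : (complexEmbedding x) ^ 2 = -1 := by rw [← map_pow, hx, map_neg, map_one]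
  rw [hr] at h2
  have h3 : r ^ 2 = -1 := by exact_mod_cast h2
  nlinarith [sq_nonneg r]

/-- Complex conjugation inverts the mod `p` roots of unity. -/
theorem cycloChar_complexConjugation (p : ℕ) [Fact p.Prime] :
    (cycloChar p complexConjugation : ZMod p) = -1 := by
  have hp : p.Prime := Fact.out
  rw [cycloChar_eq_of_apply p (a := p - 1) fun t ht => ?_, Nat.cast_sub hp.one_le, Nat.cast_one,
    ZMod.natCast_self, zero_sub]
  apply complexEmbedding.toRingHom.injective
  show complexEmbedding (complexConjugation t) = complexEmbedding (t ^ (p - 1))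
  have h1 : ‖complexEmbedding t‖ = 1 :=
    Complex.norm_eq_one_of_pow_eq_one (by rw [← map_pow, ht, map_one]) hp.ne_zero
  rw [complexEmbedding_complexConjugation, ← Complex.inv_eq_conj h1, map_pow]
  refine inv_eq_of_mul_eq_one_right ?_
  rw [← pow_succ', Nat.sub_add_cancel hp.one_le, ← map_pow, ht, map_one]

variable {p : ℕ} [Fact p.Prime] {V W : Type} [AddCommGroup V] [Module (ZMod p) V]
  [AddCommGroup W] [Module (ZMod p) W]
variable (ρ : Representation (ZMod p) GQ V) {σ : Representation (ZMod p) GQ W}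

open Classical in
/-- The conditions `L` on `S`, everything on `Q`; unramified elsewhere after `condAt (S ∪ Q)`. -/
def freeOn (S : Finset Nat.Primes) (L : Cond ρ) : Cond ρ :=
  fun q => if q ∈ S then L q else ⊤

open Classical in
/-- The Selmer group of `L` on `S`, everything on `Q`, unramified elsewhere. -/
def twSelmer (S Q : Finset Nat.Primes) (L : Cond ρ) : Submodule (ZMod p) (H1Q ρ) :=
  selmer ρ (condAt ρ (S ∪ Q) (freeOn ρ S L))

variable {ρ}

theorem mem_twSelmer {S Q : Finset Nat.Primes} {L : Cond ρ} {c : H1Q ρ}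
    (hS : ∀ q ∈ S, locQ ρ q c ∈ L q)
    (hur : ∀ q, q ∉ S → q ∉ Q → locQ ρ q c ∈ unrCond ρ q) : c ∈ twSelmer ρ S Q L := by
  refine (mem_selmer _).mpr fun q => ?_
  by_cases hqS : q ∈ S
  · simpa [condAt, freeOn, hqS] using hS q hqS
  by_cases hqQ : q ∈ Q
  · simp [condAt, freeOn, hqS, hqQ]
  · simpa [condAt, hqS, hqQ] using hur q hqS hqQ

/-- The orthogonal of everything is zero. -/
theorem orth_eq_bot_of_top [Finite V] [Finite W] (hp : p ≠ 2)
    (P : Pairing (cycloChar p) ρ σ) (hP : P.Perfect) (hρ : Smooth lvlQ ρ) (hσ : Smooth lvlQ σ)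
    (L : Cond ρ) (q : Nat.Primes) (hL : L q = ⊤) : orth P L q = ⊥ := by
  rw [eq_bot_iff, orth, Submodule.map_le_iff_le_comap]
  intro y hy
  rw [Submodule.mem_comap, Submodule.mem_bot, H1cπ_eq_zero]
  refine mem_B1_of_forall_cup11_right p q (P.comp (loc q)) hp hP (fun v => ?_) (fun v => ?_) _ y.2
    fun a ha => hy ⟨a, ha⟩ (hL ▸ Submodule.mem_top)
  · obtain ⟨U, hU, h⟩ := hρ v
    exact ⟨U.comap (loc q), ⟨U, hU, rfl⟩, fun s hs => h (loc q s) hs⟩
  · obtain ⟨U, hU, h⟩ := hσ v
    exact ⟨U.comap (loc q), ⟨U, hU, rfl⟩, fun s hs => h (loc q s) hs⟩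

section Count

variable (p) {k : Type} [Field k] [Finite k] [Algebra (ZMod p) k]

set_option maxHeartbeats 2000000 in
/-- **Taylor-Wiles primes for given local conditions.** -/
theorem exists_tw_selmer_le (hp : p ≠ 2) (ρbar : ResidualGaloisRep k)
    (hdet : (GaloisRepAdic.ofResidualGaloisRep ρbar).DetIsCyclotomic p)
    (hsplit : ∀ g, ∃ α β : k, LinearMap.charpoly (ρbar.ρ g) = (X - C α) * (X - C β))
    (habs : ρbar.IsAbsolutelyIrreducible)
    (hTW : ∀ (K : Type) [Field K] [Algebra k K] (G : Subgroup GQ), G.index = 2 →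
      ∀ V : Submodule K (ρbar.baseChange K).V,
        (∀ σ ∈ G, ∀ x ∈ V, (ρbar.baseChange K).ρ σ x ∈ V) → V = ⊥ ∨ V = ⊤)
    (S0 : Finset Nat.Primes) (hpS : pPrime p ∈ S0)
    (hur : ∀ q : Nat.Primes, q ∉ S0 → ρbar.IsUnramifiedAt (q : ℕ)) (T : Finset ℕ)
    (L : Cond (ad0Rep p (Deformation.barMat ρbar))) :
    ∃ r : ℕ, ∀ n : ℕ, ∃ qv : Fin r → Nat.Primes, Function.Injective qv ∧
      (∀ i, qv i ∉ S0 ∧ (qv i : ℕ) ∉ T ∧ p ^ (n + 1) ∣ (qv i : ℕ) - 1 ∧
        ∀ P : ValuationSubring Qb, P.LiesOverPrime (qv i : ℕ) → ∀ φ : GQ,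
          P.IsFrobeniusAt φ (qv i : ℕ) →
            ∃ α β : k, α ≠ β ∧ LinearMap.charpoly (ρbar.ρ φ) = (X - C α) * (X - C β)) ∧
      ∀ L₁ : Cond (ad0Rep p (Deformation.barMat ρbar)),
        (∀ q ∈ S0, orth (ad0Pairing p (Deformation.barMat ρbar)) L₁ q ≤
          orth (ad0Pairing p (Deformation.barMat ρbar)) L q) →
        Finite (twSelmer (ad0Rep p (Deformation.barMat ρbar)) S0 (Finset.univ.image qv) L₁) ∧
        finrank (ZMod p)
            (twSelmer (ad0Rep p (Deformation.barMat ρbar)) S0 (Finset.univ.image qv) L₁) +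
          finrank (ZMod p) k +
          (∑ q ∈ S0, finrank (ZMod p)
            (fixedBy ((ad0Rep p (Deformation.barMat ρbar)).comp (loc q)) ⊤)) ≤
          r * finrank (ZMod p) k + ∑ q ∈ S0, finrank (ZMod p) (L₁ q) := by
  classical
  let P := ad0Pairing p (Deformation.barMat ρbar)
  let f := finrank (ZMod p) k
  have hM1 : ∀ g, ρbar.ρ g = 1 → (Deformation.barMat ρbar) g = 1 := fun g h => by
    show LinearMap.toMatrix (Deformation.barBasis ρbar) (Deformation.barBasis ρbar) (ρbar.ρ g) = 1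
    rw [h, LinearMap.toMatrix_one]
  have hdetM := det_eq_cycloChar p ρbar hdet
  have hlvl : ∀ {S : Finset Nat.Primes}, S0 ⊆ S → ∃ U ∈ lvlS S, ∀ s ∈ U, (Deformation.barMat ρbar) s = 1 := fun hS => by
    refine exists_level_lvlS (Deformation.barMat ρbar) _ ?_ fun q hq A hA s hs => hM1 s (hur q (fun h => hq (hS h)) A hA s hs)
    obtain ⟨F, hF, h1⟩ := ρbar.factorsThroughFiniteLevel
    exact ⟨F, hF, fun s hs => hM1 s (h1 s hs)⟩
  have hρS := smooth_ad0Rep p (Deformation.barMat ρbar) (hlvl (Finset.Subset.refl S0))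
  have hσS := smooth_ad0Dual p (Deformation.barMat ρbar) hpS (hlvl (Finset.Subset.refl S0))
  have hρQ := smooth_lvlQ_of_lvlS p hρS
  have hσQ := smooth_lvlQ_of_lvlS p hσS
  have hP : P.Perfect := ad0Pairing_perfect p (Deformation.barMat ρbar) hp
  set D : Submodule (ZMod p) (H1Q (ad0Dual p (Deformation.barMat ρbar))) :=
    selmer (ad0Dual p (Deformation.barMat ρbar)) (condAt (ad0Dual p (Deformation.barMat ρbar)) S0 (orth P L)) with hD
  have hDfin : Finite D := finite_selmer_condAt p S0 hσS _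
  have : Module.Finite (ZMod p) D := Module.Finite.of_finite
  refine ⟨finrank (ZMod p) D, fun n => ?_⟩
  set T' : Finset ℕ := T ∪ S0.image fun q : Nat.Primes => (q : ℕ)
  obtain ⟨qv, hinj, hprop, hkill⟩ := exists_taylorWiles_primes p hp ρbar
    (Deformation.barBasis ρbar) (Deformation.barMat ρbar) (fun _ => rfl) hdetM hsplit habs hTW T'
    (fun ℓ hℓ h => hur ⟨ℓ, hℓ⟩ fun h' =>
      h (Finset.mem_union_right _ (Finset.mem_image.mpr ⟨_, h', rfl⟩))) D n
  set Q := Finset.univ.image qv with hQdef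
  have hnot : ∀ i, qv i ∉ S0 := fun i h =>
    (hprop i).1 (Finset.mem_union_right _ (Finset.mem_image.mpr ⟨_, h, rfl⟩))
  refine ⟨qv, hinj, fun i => ⟨hnot i, fun h => (hprop i).1 (Finset.mem_union_left _ h),
    (hprop i).2.1, (hprop i).2.2⟩, fun L₁ hL₁ => ?_⟩
  have hQ : ∀ q ∈ Q, q ∉ S0 := fun q hq => by
    obtain ⟨i, -, rfl⟩ := Finset.mem_image.mp hq
    exact hnot i
  set SQ := S0 ∪ Q with hSQ
  have hρSQ := smooth_ad0Rep p (Deformation.barMat ρbar) (hlvl (Finset.subset_union_left : S0 ⊆ SQ))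
  have hσSQ := smooth_ad0Dual p (Deformation.barMat ρbar) (Finset.mem_union_left Q hpS)
    (hlvl (Finset.subset_union_left : S0 ⊆ SQ))
  set L' := freeOn (ad0Rep p (Deformation.barMat ρbar)) S0 L₁ with hL'
  refine ⟨finite_selmer_condAt p SQ hρSQ L', ?_⟩
  -- the dual Selmer group vanishes
  have hDQ : selmer (ad0Dual p (Deformation.barMat ρbar)) (condAt (ad0Dual p (Deformation.barMat ρbar)) SQ (orth P L')) = ⊥ := by
    rw [eq_bot_iff]
    intro c hc
    rw [Submodule.mem_bot]
    rw [mem_selmer] at hc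
    have hzero : ∀ q ∈ Q, locQ (ad0Dual p (Deformation.barMat ρbar)) q c = 0 := fun q hq => by
      have h := hc q
      rw [condAt, if_pos (Finset.mem_union_right _ hq),
        orth_eq_bot_of_top hp P hP hρQ hσQ L' q (if_neg (hQ q hq))] at h
      exact (Submodule.mem_bot _).mp h
    refine hkill c ?_ fun i => hzero _ (Finset.mem_image.mpr ⟨i, Finset.mem_univ _, rfl⟩)
    rw [hD, mem_selmer]
    intro q
    by_cases hqS : q ∈ S0
    · have h := hc q
      rw [condAt, if_pos (Finset.mem_union_left _ hqS),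
        show orth P L' q = orth P L₁ q by simp [orth, hL', freeOn, hqS]] at h
      rw [condAt, if_pos hqS]
      exact hL₁ q hqS h
    rw [condAt, if_neg hqS]
    by_cases hqQ : q ∈ Q
    · rw [hzero q hqQ]
      exact Submodule.zero_mem _
    · have h := hc q
      rwa [condAt, if_neg (by simp [hSQ, hqS, hqQ])] at h
  -- Greenberg-Wiles
  have hGW := finrank_selmer_le p hp P hP SQ (Finset.mem_union_left Q hpS) hρSQ hσSQ L'
  rw [hDQ, finrank_bot, fixedBy_ad0_top p (Deformation.barMat ρbar) hp ρbar habs rfl, finrank_bot, finrank_ad0 p] at hGW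
  have hc2 := finrank_fixedBy_conj_le p (Deformation.barMat ρbar) complexConjugation complexConjugation_mul_self
    (cycloChar_complexConjugation p) hp (hdetM _)
  have hdisj : Disjoint S0 Q := Finset.disjoint_right.mpr hQ
  have hS0sum : ∀ q ∈ S0, finrank (ZMod p) (L' q) = finrank (ZMod p) (L₁ q) := fun q hq => by
    rw [hL', freeOn, if_pos hq]
  have hQsum : ∀ q ∈ Q, finrank (ZMod p) (L' q) ≤
      finrank (ZMod p) (fixedBy ((ad0Rep p (Deformation.barMat ρbar)).comp (loc q)) ⊤) + f := by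
    intro q hq
    obtain ⟨i, -, rfl⟩ := Finset.mem_image.mp hq
    obtain ⟨φ, hφ⟩ := FLTA.Galois.exists_isFrobeniusAt (qv i).2
      (primeLocalPlace_liesOverPrime (qv i))
    obtain ⟨α, β, hαβ, hcp⟩ := (hprop i).2.2 _ (primeLocalPlace_liesOverPrime (qv i)) φ hφ
    have : Finite (H1L (ad0Rep p (Deformation.barMat ρbar)) (qv i)) :=
      finite_localH1 p (qv i) hρQ
    have : Module.Finite (ZMod p) (H1L (ad0Rep p (Deformation.barMat ρbar)) (qv i)) :=
      Module.Finite.of_finite
    refine (Submodule.finrank_le _).trans ?_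
    refine finrank_H1L_taylorWiles_le p (Deformation.barMat ρbar) hp (qv i)
      ((dvd_pow_self p n.succ_ne_zero).trans (hprop i).2.1) hρQ
      (fun s hs => hM1 _ (hur _ (hnot i) _ (primeLocalPlace_liesOverPrime _) _ hs)) φ hφ
      ⟨α, β, hαβ, ?_⟩
    rw [← hcp, ← LinearMap.charpoly_toMatrix (ρbar.ρ φ) (Deformation.barBasis ρbar)]
    rfl
  have hsum : ∑ q ∈ SQ, finrank (ZMod p) (L' q) ≤ ∑ q ∈ S0, finrank (ZMod p) (L₁ q) +
      ((∑ q ∈ Q, finrank (ZMod p) (fixedBy ((ad0Rep p (Deformation.barMat ρbar)).comp (loc q)) ⊤)) + Q.card * f) := by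
    rw [hSQ, Finset.sum_union hdisj, Finset.sum_congr rfl hS0sum]
    refine Nat.add_le_add_left ((Finset.sum_le_sum hQsum).trans (le_of_eq ?_)) _
    rw [Finset.sum_add_distrib, Finset.sum_const, smul_eq_mul]
  have hcard : Q.card = finrank (ZMod p) D := by
    rw [hQdef, Finset.card_image_of_injective _ hinj, Finset.card_univ, Fintype.card_fin]
  rw [hcard] at hsum
  have hsplitsum : ∑ q ∈ SQ, finrank (ZMod p) (fixedBy ((ad0Rep p (Deformation.barMat ρbar)).comp (loc q)) ⊤) =
      ∑ q ∈ S0, finrank (ZMod p) (fixedBy ((ad0Rep p (Deformation.barMat ρbar)).comp (loc q)) ⊤) +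
        ∑ q ∈ Q, finrank (ZMod p) (fixedBy ((ad0Rep p (Deformation.barMat ρbar)).comp (loc q)) ⊤) :=
    Finset.sum_union hdisj
  show finrank (ZMod p) (selmer (ad0Rep p (Deformation.barMat ρbar)) (condAt (ad0Rep p (Deformation.barMat ρbar)) SQ L')) + _ + _ ≤ _
  simp only [f] at hsum ⊢
  omega

end Count

end FLTA.TW

end
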