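import Fermat.Agent.TaylorWiles.Tangent
import Fermat.Agent.TaylorWiles.SitesLocal
import Fermat.Agent.TaylorWiles.LocalFlat
import Fermat.Agent.TaylorWiles.LocalCond
import Fermat.Agent.TaylorWiles.MainCount
import Fermat.Agent.RT.DeformConditions

/-!
# Taylor-Wiles primes relative to sites

Deformation rings without condition at a finite set of sites are generated by the coordinates at
the sites and `r - Σ h⁰` further elements, with `r` Taylor-Wiles primes.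
-/

set_option autoImplicit false

open ExtCitation Module IsLocalRing Polynomial
open scoped Pointwise

noncomputable section

namespace FLTA.TW

open FLTA.PT

/-- The set of primes among a set of numbers. -/
def primesIn (S : Finset ℕ) : Finset Nat.Primes := S.subtype Nat.Prime

@[simp] theorem mem_primesIn {S : Finset ℕ} {q : Nat.Primes} :
    q ∈ primesIn S ↔ (q : ℕ) ∈ S := Finset.mem_subtype

/-- A ramified representation is nontrivial on the inertia group of the standard place. -/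
theorem exists_inertiaG_barMat_ne_one {k : Type} [Field k] (ρbar : ResidualGaloisRep k) (q : Nat.Primes)
    (h : ¬ ρbar.IsUnramifiedAt (q : ℕ)) :
    ∃ s ∈ inertiaG q, Deformation.barMat ρbar (loc q s) ≠ 1 := by
  by_contra hcon
  push_neg at hcon
  refine h fun A hA σ hσ => ?_
  obtain ⟨γ, hγ⟩ := FLTA.Galois.exists_smul_eq q.2 (primeLocalPlace_liesOverPrime q) hA
  have h1 : γ⁻¹ * σ * γ ∈ (primeLocalPlace q).inertiaSubgroupIn ℚ :=
    (FLTA.Galois.inertiaSubgroupIn_smul_iff γ).mp (hγ.symm ▸ hσ)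
  obtain ⟨t, ht⟩ := TaylorWiles.exists_loc_eq q
    (FLTA.Galois.inertiaSubgroupIn_le_decompositionSubgroup h1)
  have h2 := hcon t (mem_inertiaG.mpr (ht.symm ▸ h1))
  rw [ht] at h2
  have h3 : ρbar.ρ (γ⁻¹ * σ * γ) = 1 :=
    (LinearMap.toMatrixAlgEquiv (Deformation.barBasis ρbar)).injective (h2.trans (map_one _).symm)
  have h4 := congrArg (fun f => ρbar.ρ γ * f * ρbar.ρ γ⁻¹) h3
  simpa [← map_mul, mul_assoc] using h4

/-- A deformation unramified at `q` forces `ρbar` to be unramified at `q`. -/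
theorem unramified_of_isDefoOf {k : Type} [Field k] {ρbar : ResidualGaloisRep k} {x : GQ → Ad0 k}
    {ρ : GaloisRepAdic (DualNumber k)} {q : ℕ} (hx : IsDefoOf (Deformation.barMat ρbar) x ρ)
    (hur : ρ.IsUnramifiedAt q) : ρbar.IsUnramifiedAt q := fun A hA σ hσ => by
  obtain ⟨b, hb⟩ := hx
  have h1 := hb σ
  rw [hur A hA σ hσ, LinearMap.toMatrix_one] at h1
  have h2 := congrArg (fun X : Matrix (Fin 2) (Fin 2) (DualNumber k) => X.map TrivSqZeroExt.fst) h1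
  have hM : Deformation.barMat ρbar σ = 1 := by
    have e1 : (defoMat (Deformation.barMat ρbar) x σ).map TrivSqZeroExt.fst =
        Deformation.barMat ρbar σ := by ext i j; simp [defoMat]
    rw [← e1, ← h2]
    exact Matrix.map_one _ (by simp) (by simp)
  exact (LinearMap.toMatrixAlgEquiv (Deformation.barBasis ρbar)).injective (hM.trans (map_one _).symm)

/-- Unramifiedness of the matrices of `ρbar`. -/
theorem barMat_eq_one_of_unramified {k : Type} [Field k] {ρbar : ResidualGaloisRep k} {q : ℕ}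
    (h : ρbar.IsUnramifiedAt q) {A : ValuationSubring Qb} (hA : A.LiesOverPrime q) {σ : GQ}
    (hσ : σ ∈ A.inertiaSubgroupIn ℚ) : Deformation.barMat ρbar σ = 1 := by
  show LinearMap.toMatrixAlgEquiv (Deformation.barBasis ρbar) (ρbar.ρ σ) = 1
  rw [h A hA σ hσ, map_one]

/-- Local conditions on `S` for deformations with sites and the property `P` at `p`: `⊥` at the
sites, unipotent at the other primes away from `p`. -/
theorem exists_localConds (p : ℕ) [Fact p.Prime] {k : Type} [Field k] [Finite k]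
    [Algebra (ZMod p) k] (hp2 : p ≠ 2) (ρbar : ResidualGaloisRep k)
    (hdetM : ∀ g, (Deformation.barMat ρbar g).det =
      algebraMap (ZMod p) k (cycloChar p g : ZMod p))
    (P : GaloisRepAdic (DualNumber k) → Prop)
    (hP : ∃ L : Submodule (ZMod p) (H1L (ad0Rep p (Deformation.barMat ρbar)) (pPrime p)),
      finrank (ZMod p) L ≤
        finrank (ZMod p) (fixedBy ((ad0Rep p (Deformation.barMat ρbar)).comp (loc (pPrime p))) ⊤) +
          finrank (ZMod p) k ∧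
      ∀ (x : Z1 lvlQ (ad0Rep p (Deformation.barMat ρbar))) (ρ : GaloisRepAdic (DualNumber k)),
        IsDefoOf (Deformation.barMat ρbar) (x : GQ → Ad0 k) ρ → P ρ →
          locQ (ad0Rep p (Deformation.barMat ρbar)) (pPrime p)
            (clsQ (ad0Rep p (Deformation.barMat ρbar)) x) ∈ L)
    (S Sites : Finset ℕ) (hfin : GaloisFactorsThroughFiniteLevel (Deformation.barMat ρbar))
    (hsm : Smooth lvlQ (ad0Rep p (Deformation.barMat ρbar)))
    (hsites : ∀ s ∈ Sites, s.Prime ∧ s ≠ p ∧ s ∈ S ∧ ρbar.IsUnramifiedAt s)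
    (hram : ∀ q : Nat.Primes, (q : ℕ) ∈ S → (q : ℕ) ≠ p → (q : ℕ) ∉ Sites →
      ¬ ρbar.IsUnramifiedAt (q : ℕ))
    (A : ℕ → ValuationSubring Qb) (Φ : ℕ → GQ)
    (hA : ∀ s ∈ Sites, (A s).LiesOverPrime s)
    (hΦ : ∀ s ∈ Sites, (A s).IsFrobeniusAt (Φ s) s) (h : ℕ → ℕ)
    (hh : ∀ s ∈ Sites, h s ≤ 1 ∨
      h s ≤ 3 ∧ ∃ c : k, ρbar.ρ (Φ s) = c • (1 : Module.End _ ρbar.V)) (q : Nat.Primes) :
    ∃ Lq : Submodule (ZMod p) (H1L (ad0Rep p (Deformation.barMat ρbar)) q),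
      (q ∈ primesIn S → finrank (ZMod p) Lq +
          (if (q : ℕ) ∈ Sites then h q else 0) * finrank (ZMod p) k ≤
        finrank (ZMod p) (fixedBy ((ad0Rep p (Deformation.barMat ρbar)).comp (loc q)) ⊤) +
          if q = pPrime p then finrank (ZMod p) k else 0) ∧
      ((q : ℕ) ∈ Sites → Lq = ⊥) ∧
      ((q : ℕ) ∉ Sites → q ∈ primesIn S →
        ∀ (x : Z1 lvlQ (ad0Rep p (Deformation.barMat ρbar)))
        (ρ' : GaloisRepAdic (DualNumber k)),
        IsDefoOf (Deformation.barMat ρbar) (x : GQ → Ad0 k) ρ' → P ρ' →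
          ((q : ℕ) ≠ p → ρ'.IsUnipotentOnInertiaAt (q : ℕ)) →
          locQ (ad0Rep p (Deformation.barMat ρbar)) q
            (clsQ (ad0Rep p (Deformation.barMat ρbar)) x) ∈ Lq) := by
  classical
  by_cases hqs : (q : ℕ) ∈ Sites
  · obtain ⟨-, hqp, -, hqur⟩ := hsites q hqs
    refine ⟨⊥, fun _ => ?_, fun _ => rfl, fun h' => absurd hqs h'⟩
    have hne : q ≠ pPrime p := fun e => hqp (congrArg Subtype.val e)
    rw [finrank_bot, if_pos hqs, if_neg hne, zero_add, add_zero, mul_comm]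
    refine mul_le_finrank_fixedBy_site hp2 q (hA q hqs) hfin
      (fun B hB s hs => barMat_eq_one_of_unramified hqur hB hs) (hΦ q hqs) ?_
    rcases hh q hqs with h1 | ⟨h3, c, hc⟩
    · exact Or.inl h1
    · refine Or.inr ⟨h3, c, ?_⟩
      show LinearMap.toMatrixAlgEquiv (Deformation.barBasis ρbar) (ρbar.ρ (Φ q)) = _
      rw [hc, map_smul, map_one]
  by_cases hqp : (q : ℕ) = p
  · obtain rfl : q = pPrime p := Subtype.ext hqp
    obtain ⟨Lp, hLp, hLp'⟩ := hP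
    exact ⟨Lp, fun _ => by rw [if_neg hqs, if_pos rfl, zero_mul, add_zero]; exact hLp, fun h' => absurd h' hqs,
      fun _ _ x ρ' hx hfl _ => hLp' x ρ' hx hfl⟩
  by_cases hqS : q ∈ primesIn S
  · obtain ⟨L, hL, hL'⟩ := exists_unipotentCond p (Deformation.barMat ρbar) hp2 q hqp hsm hdetM
      (exists_inertiaG_barMat_ne_one ρbar q (hram q (mem_primesIn.mp hqS) hqp hqs))
    have hne : q ≠ pPrime p := fun e => hqp (congrArg Subtype.val e)
    exact ⟨L, fun _ => by simpa [hqs, hne] using hL, fun h' => absurd h' hqs,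
      fun _ _ x ρ' hx _ hu => hL' x ρ' hx (hu hqp)⟩
  · exact ⟨⊤, fun h' => absurd h' hqS, fun h' => absurd h' hqs, fun _ h' => absurd h' hqS⟩

section

variable {𝒪 : Type} [CommRing 𝒪] [IsDomain 𝒪] [IsDiscreteValuationRing 𝒪]
  [IsAdicComplete (maximalIdeal 𝒪) 𝒪] [Finite (ResidueField 𝒪)]
variable (p : ℕ) [Fact p.Prime] [Algebra (ZMod p) (ResidueField 𝒪)]

/-- The general form: arbitrary local conditions `L` on `T`, with an excess `e`. -/
theorem exists_twGenerators (hp2 : p ≠ 2) (ρbar : ResidualGaloisRep (ResidueField 𝒪))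
    (habs : ρbar.IsAbsolutelyIrreducible)
    (hdet : (GaloisRepAdic.ofResidualGaloisRep ρbar).DetIsCyclotomic p)
    (hsplit : ∀ σ : GQ, ∃ α β : ResidueField 𝒪,
      LinearMap.charpoly (ρbar.ρ σ) = (X - C α) * (X - C β))
    (hTW : ∀ (K : Type) [Field K] [Algebra (ResidueField 𝒪) K] (G : Subgroup GQ), G.index = 2 →
      ∀ V : Submodule K (ρbar.baseChange K).V,
        (∀ σ ∈ G, ∀ x ∈ V, (ρbar.baseChange K).ρ σ x ∈ V) → V = ⊥ ∨ V = ⊤)
    (S Xt : Finset ℕ) (hpS : p ∈ S) (hur : ∀ q : ℕ, q.Prime → q ∉ S → ρbar.IsUnramifiedAt q)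
    (L : Cond (ad0Rep p (Deformation.barMat ρbar))) (e : ℕ)
    (hbound : (∑ q ∈ primesIn S, finrank (ZMod p) (L q)) + e * finrank (ZMod p) (ResidueField 𝒪) ≤
      (∑ q ∈ primesIn S,
        finrank (ZMod p) (fixedBy ((ad0Rep p (Deformation.barMat ρbar)).comp (loc q)) ⊤)) +
        finrank (ZMod p) (ResidueField 𝒪)) :
    ∃ r : ℕ, e ≤ r ∧ ∀ n : ℕ, ∃ qv : Fin r → ℕ, Function.Injective qv ∧
      (∀ i, (qv i).Prime ∧ qv i ∉ S ∪ Xt ∧ p ^ (n + 1) ∣ qv i - 1) ∧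
      (∀ i, ∀ P : ValuationSubring Qb, P.LiesOverPrime (qv i) →
        ∀ φ : GQ, P.IsFrobeniusAt φ (qv i) →
          ∃ α β : ResidueField 𝒪, α ≠ β ∧
            LinearMap.charpoly (ρbar.ρ φ) = (X - C α) * (X - C β)) ∧
      ∀ (𝒟 : RT.RepPred 𝒪), RT.IsClosedCond 𝒪 𝒟 →
      ∀ DQ : GaloisRep.DeformationRingData 𝒪 ρbar 𝒟, DQ.ρ.DetIsCyclotomic p →
      ∀ E : Set DQ.R, E ⊆ maximalIdeal DQ.R →
      (letI := Deformation.dualAlgebra 𝒪
        ∀ (φ : DQ.R →ₐ[𝒪] DualNumber (ResidueField 𝒪))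
          (hφ : IsLocalHom (φ : DQ.R →+* DualNumber (ResidueField 𝒪))), (∀ x ∈ E, φ x = 0) →
          ∀ x : Z1 lvlQ (ad0Rep p (Deformation.barMat ρbar)),
            IsDefoOf (Deformation.barMat ρbar) (x : GQ → Ad0 (ResidueField 𝒪))
              (DQ.ρ.baseChangeAlong (φ : DQ.R →+* DualNumber (ResidueField 𝒪)) hφ) →
            (∀ q ∈ primesIn S,
              locQ (ad0Rep p (Deformation.barMat ρbar)) q (clsQ (ad0Rep p (Deformation.barMat ρbar)) x) ∈ L q) ∧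
            ∀ q : Nat.Primes, (q : ℕ) ∉ S ∪ Finset.univ.image qv →
              (DQ.ρ.baseChangeAlong (φ : DQ.R →+* DualNumber (ResidueField 𝒪))
                hφ).IsUnramifiedAt (q : ℕ)) →
        ∃ a : Fin (r - e) → DQ.R, (∀ i, a i ∈ maximalIdeal DQ.R) ∧
          maximalIdeal DQ.R = Ideal.span (Set.range a) ⊔
            (Ideal.span E ⊔ (maximalIdeal 𝒪).map (algebraMap 𝒪 DQ.R)) := by
  classical
  obtain ⟨r, hr⟩ := exists_tw_selmer_le p hp2 ρbar hdet hsplit habs hTW (primesIn S)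
    (mem_primesIn.mpr hpS) (fun q hq => hur q q.2 fun h => hq (mem_primesIn.mpr h)) (S ∪ Xt) L
  have hf : 0 < finrank (ZMod p) (ResidueField 𝒪) := by
    have : Module.Finite (ZMod p) (ResidueField 𝒪) := Module.Finite.of_finite
    exact Module.finrank_pos
  refine ⟨r, ?_, fun n => ?_⟩
  · obtain ⟨qv, -, -, hL1⟩ := hr 0
    obtain ⟨-, hle⟩ := hL1 L fun q _ => le_rfl
    refine Nat.le_of_mul_le_mul_right ?_ hf
    omega
  obtain ⟨qv, hinj, hq, hL1⟩ := hr n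
  obtain ⟨hfinS, hle⟩ := hL1 L fun q _ => le_rfl
  refine ⟨fun i => (qv i : ℕ), fun i j h => hinj (Subtype.ext h),
    fun i => ⟨(qv i).2, (hq i).2.1, (hq i).2.2.1⟩, fun i => (hq i).2.2.2, ?_⟩
  intro 𝒟 h𝒟 DQ hcyc E hE hloc
  refine exists_generators_of_selmer p ρbar DQ.residue_surjective DQ.ρ DQ.residual_isEquiv hcyc
    (push_unique DQ h𝒟) E hE
    (twSelmer (ad0Rep p (Deformation.barMat ρbar)) (primesIn S) (Finset.univ.image qv) L) ?_ ?_
  · rw [Nat.sub_mul]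
    refine Nat.le_sub_of_add_le ?_
    omega
  · intro φ hφ hφE x hx
    obtain ⟨h1, h2⟩ := hloc φ hφ hφE x hx
    refine mem_twSelmer h1 fun q hqS hqQ => ?_
    have hq' : (q : ℕ) ∉ S ∪ Finset.univ.image fun i => (qv i : ℕ) := by
      simp only [Finset.mem_union, Finset.mem_image, Finset.mem_univ, true_and, not_or]
      refine ⟨fun h => hqS (mem_primesIn.mpr h), fun ⟨i, hi⟩ => hqQ ?_⟩
      exact Finset.mem_image.mpr ⟨i, Finset.mem_univ _, Subtype.ext hi⟩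
    exact locQ_mem_unrCond p _ q x _ hx (h2 q hq')

set_option maxHeartbeats 400000 in
/-- **Taylor-Wiles primes with sites**, for a closed condition `cond` which at `p` implies a
property `P` with local classes in at most `h⁰ + [k : 𝔽_p]` dimensions: for coordinates `E` at the
sites, the maximal ideal is generated by `E`, the uniformiser and `r - Σ h⁰` elements. -/
theorem exists_twSites_of_cond (hp2 : p ≠ 2) (ρbar : ResidualGaloisRep (ResidueField 𝒪))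
    (habs : ρbar.IsAbsolutelyIrreducible)
    (hdet : (GaloisRepAdic.ofResidualGaloisRep ρbar).DetIsCyclotomic p)
    (hsplit : ∀ σ : GQ, ∃ α β : ResidueField 𝒪,
      LinearMap.charpoly (ρbar.ρ σ) = (X - C α) * (X - C β))
    (hTW : ∀ (K : Type) [Field K] [Algebra (ResidueField 𝒪) K] (G : Subgroup GQ), G.index = 2 →
      ∀ V : Submodule K (ρbar.baseChange K).V,
        (∀ σ ∈ G, ∀ x ∈ V, (ρbar.baseChange K).ρ σ x ∈ V) → V = ⊥ ∨ V = ⊤)
    (P : GaloisRepAdic (DualNumber (ResidueField 𝒪)) → Prop)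
    (hPL : ∀ (_ : Smooth lvlQ (ad0Rep p (Deformation.barMat ρbar))),
      ∃ L : Submodule (ZMod p) (H1L (ad0Rep p (Deformation.barMat ρbar)) (pPrime p)),
        finrank (ZMod p) L ≤
          finrank (ZMod p) (fixedBy ((ad0Rep p (Deformation.barMat ρbar)).comp (loc (pPrime p))) ⊤) +
            finrank (ZMod p) (ResidueField 𝒪) ∧
        ∀ (x : Z1 lvlQ (ad0Rep p (Deformation.barMat ρbar)))
          (ρ : GaloisRepAdic (DualNumber (ResidueField 𝒪))),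
          IsDefoOf (Deformation.barMat ρbar) (x : GQ → Ad0 (ResidueField 𝒪)) ρ → P ρ →
            locQ (ad0Rep p (Deformation.barMat ρbar)) (pPrime p)
              (clsQ (ad0Rep p (Deformation.barMat ρbar)) x) ∈ L)
    (cond : Finset ℕ → RT.RepPred 𝒪) (hclosed : ∀ T, RT.IsClosedCond 𝒪 (cond T))
    (S S' U Sites Xt : Finset ℕ)
    (hcond : ∀ (T : Finset ℕ) ⦃A : Type⦄ [CommRing A] [IsLocalRing A] [Algebra 𝒪 A]
      (ρ : GaloisRepAdic A), cond T ρ → ρ.DetIsCyclotomic p ∧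
        (∀ q : ℕ, q.Prime → q ∉ T → ρ.IsUnramifiedAt q) ∧
        ∀ q ∈ U, q.Prime → q ≠ p → ρ.IsUnipotentOnInertiaAt q)
    (hcondP : ∀ (T : Finset ℕ) (ρ : GaloisRepAdic (DualNumber (ResidueField 𝒪))),
      (letI := Deformation.dualAlgebra 𝒪; cond T ρ) → P ρ) (hpS : p ∈ S) (hS' : S' ⊆ S)
    (hur : ∀ q : ℕ, q.Prime → q ∉ S → ρbar.IsUnramifiedAt q)
    (hsites : ∀ s ∈ Sites, s.Prime ∧ s ≠ p ∧ s ∈ S ∧ ρbar.IsUnramifiedAt s)
    (hram : ∀ q ∈ S, q.Prime → q ≠ p → q ∉ Sites → ¬ ρbar.IsUnramifiedAt q ∧ (q ∈ U ∨ q ∉ S'))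
    (A : ℕ → ValuationSubring Qb) (Φ τ : ℕ → GQ)
    (hA : ∀ s ∈ Sites, (A s).LiesOverPrime s)
    (hΦ : ∀ s ∈ Sites, (A s).IsFrobeniusAt (Φ s) s)
    (hτ : ∀ s ∈ Sites, RT.LocalGalois.IsTameGenerator (A s) s p (τ s))
    (h : ℕ → ℕ)
    (hh : ∀ s ∈ Sites, h s ≤ 1 ∨
      h s ≤ 3 ∧ ∃ c : ResidueField 𝒪, ρbar.ρ (Φ s) = c • (1 : Module.End _ ρbar.V)) :
    ∃ r : ℕ, (∑ s ∈ Sites, h s) ≤ r ∧ ∀ n : ℕ, ∃ qv : Fin r → ℕ, Function.Injective qv ∧
      (∀ i, (qv i).Prime ∧ qv i ∉ S ∪ Xt ∧ p ^ (n + 1) ∣ qv i - 1) ∧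
      (∀ i, ∀ P : ValuationSubring Qb, P.LiesOverPrime (qv i) →
        ∀ φ : GQ, P.IsFrobeniusAt φ (qv i) →
          ∃ α β : ResidueField 𝒪, α ≠ β ∧
            LinearMap.charpoly (ρbar.ρ φ) = (X - C α) * (X - C β)) ∧
      ∀ DQ : GaloisRep.DeformationRingData 𝒪 ρbar
          (cond (S' ∪ Finset.univ.image qv)),
      ∀ E : Set DQ.R, E ⊆ maximalIdeal DQ.R →
      ∀ b : ℕ → Module.Basis (Fin 2) DQ.R DQ.ρ.V,
      (letI := Deformation.dualAlgebra 𝒪
        ∀ φ : DQ.R →ₐ[𝒪] DualNumber (ResidueField 𝒪),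
          IsLocalHom (φ : DQ.R →+* DualNumber (ResidueField 𝒪)) → (∀ x ∈ E, φ x = 0) →
          ∀ s ∈ Sites, ∀ σ : GQ, σ = Φ s ∨ σ = τ s → ∀ i j,
            TrivSqZeroExt.snd
              (φ (LinearMap.toMatrix (b s) (b s) (DQ.ρ.ρ σ) i j)) = 0) →
        ∃ a : Fin (r - ∑ s ∈ Sites, h s) → DQ.R, (∀ i, a i ∈ maximalIdeal DQ.R) ∧
          maximalIdeal DQ.R = Ideal.span (Set.range a) ⊔
            (Ideal.span E ⊔ (maximalIdeal 𝒪).map (algebraMap 𝒪 DQ.R)) := by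
  classical
  set M := Deformation.barMat ρbar with hMdef
  have hfin : GaloisFactorsThroughFiniteLevel M := by
    obtain ⟨F, hF, h1⟩ := ρbar.factorsThroughFiniteLevel
    exact ⟨F, hF, fun σ hσ => by
      show LinearMap.toMatrixAlgEquiv (Deformation.barBasis ρbar) (ρbar.ρ σ) = 1
      rw [h1 σ hσ, map_one]⟩
  have hdetM : ∀ g, (M g).det = algebraMap (ZMod p) _ (cycloChar p g : ZMod p) :=
    det_eq_cycloChar p ρbar hdet
  have hsm : Smooth lvlQ (ad0Rep p M) :=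
    smooth_lvlQ_of_lvlS p (smooth_ad0Rep p M (exists_level_lvlS M (primesIn S) hfin
      fun q hq B hB s hs => barMat_eq_one_of_unramified
        (hur q q.2 fun h => hq (mem_primesIn.mpr h)) hB hs))
  have hex := exists_localConds p hp2 ρbar hdetM P (hPL hsm) S Sites hfin hsm hsites
    (fun q hq hqp hqs => (hram q hq q.2 hqp hqs).1) A Φ hA hΦ h hh
  choose L hLb hLs hLc using hex
  have hsum : (∑ s ∈ Sites, h s) = ∑ q ∈ primesIn S, if (q : ℕ) ∈ Sites then h q else 0 := by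
    rw [← Finset.sum_filter]
    refine Finset.sum_bij (fun s hs => (⟨s, (hsites s hs).1⟩ : Nat.Primes)) ?_ ?_ ?_ fun _ _ => rfl
    · exact fun s hs => Finset.mem_filter.mpr ⟨mem_primesIn.mpr (hsites s hs).2.2.1, hs⟩
    · exact fun a _ b _ e => congrArg Subtype.val e
    · exact fun q hq => ⟨q, (Finset.mem_filter.mp hq).2, rfl⟩
  obtain ⟨r, hr, hn⟩ := exists_twGenerators p hp2 ρbar habs hdet hsplit hTW S Xt hpS hur L
    (∑ s ∈ Sites, h s) (by
      rw [hsum, Finset.sum_mul, ← Finset.sum_add_distrib]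
      refine (Finset.sum_le_sum fun q hq => hLb q hq).trans (le_of_eq ?_)
      rw [Finset.sum_add_distrib, Finset.sum_ite_eq', if_pos (mem_primesIn.mpr (show _ ∈ S from hpS))])
  refine ⟨r, hr, fun n => ?_⟩
  obtain ⟨qv, hinj, hq, hfr, hgen⟩ := hn n
  refine ⟨qv, hinj, hq, hfr, fun DQ E hE b hkill => hgen _
    (hclosed _) DQ (hcond _ _ DQ.isOfType).1 E hE ?_⟩
  letI := Deformation.dualAlgebra 𝒪
  intro φ hφ hφE x hx
  have hP := push_mem DQ (hclosed (S' ∪ Finset.univ.image qv)) φ hφ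
  obtain ⟨-, hPur, hPunip⟩ := hcond _ _ hP
  refine ⟨fun q hqS => ?_, fun q hq' => hPur q q.2 fun h' =>
    hq' (Finset.union_subset_union_left hS' h')⟩
  by_cases hqs : (q : ℕ) ∈ Sites
  · rw [hLs q hqs, Submodule.mem_bot]
    obtain ⟨-, hqp, -, hqur⟩ := hsites q hqs
    let φ' : DQ.R →+* DualNumber (ResidueField 𝒪) := φ
    let _ : Algebra DQ.R (DualNumber (ResidueField 𝒪)) := φ'.toAlgebra
    let bq : Module.Basis (Fin 2) (DualNumber (ResidueField 𝒪))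
        (DQ.ρ.baseChangeAlong φ' hφ).V :=
      Algebra.TensorProduct.basis (DualNumber (ResidueField 𝒪)) (b q)
    have hbq : ∀ σ, LinearMap.toMatrix bq bq ((DQ.ρ.baseChangeAlong φ' hφ).ρ σ) =
        (LinearMap.toMatrix (b q) (b q) (DQ.ρ.ρ σ)).map φ' := fun σ =>
      LinearMap.toMatrix_baseChange (A := DualNumber (ResidueField 𝒪)) (DQ.ρ.ρ σ) (b q) (b q)
    refine locQ_eq_zero_of_site hp2 q hqp (hA q hqs)
      (fun σ hσ => barMat_eq_one_of_unramified hqur (hA q hqs) hσ) (hΦ q hqs) (hτ q hqs) x _ hx bq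
      ?_ ?_
    · intro i j
      rw [hbq]
      exact hkill φ hφ hφE q hqs _ (Or.inl rfl) i j
    · intro i j
      rw [hbq]
      exact hkill φ hφ hφE q hqs _ (Or.inr rfl) i j
  · refine hLc q hqs hqS x _ hx (hcondP _ _ hP) fun hqp => ?_
    obtain ⟨hr, hU | hnS'⟩ := hram q (mem_primesIn.mp hqS) q.2 hqp hqs
    · exact hPunip q hU q.2 hqp
    · have hqQ : (q : ℕ) ∉ S' ∪ Finset.univ.image qv := by
        simp only [Finset.mem_union, Finset.mem_image, Finset.mem_univ, true_and, not_or]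
        exact ⟨hnS', fun ⟨i, hi⟩ => (hq i).2.1 (Finset.mem_union_left _ (hi ▸ mem_primesIn.mp hqS))⟩
      exact absurd (unramified_of_isDefoOf (ρbar := ρbar) (x := (x : GQ → Ad0 (ResidueField 𝒪)))
        hx (hPur q q.2 hqQ)) hr

/-- Taylor-Wiles primes with sites, flat at `p`. -/
theorem exists_twSites_flat (hp2 : p ≠ 2) (ρbar : ResidualGaloisRep (ResidueField 𝒪))
    (habs : ρbar.IsAbsolutelyIrreducible)
    (hdet : (GaloisRepAdic.ofResidualGaloisRep ρbar).DetIsCyclotomic p)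
    (hsplit : ∀ σ : GQ, ∃ α β : ResidueField 𝒪,
      LinearMap.charpoly (ρbar.ρ σ) = (X - C α) * (X - C β))
    (hTW : ∀ (K : Type) [Field K] [Algebra (ResidueField 𝒪) K] (G : Subgroup GQ), G.index = 2 →
      ∀ V : Submodule K (ρbar.baseChange K).V,
        (∀ σ ∈ G, ∀ x ∈ V, (ρbar.baseChange K).ρ σ x ∈ V) → V = ⊥ ∨ V = ⊤)
    (S S' U Sites Xt : Finset ℕ) (hpS : p ∈ S) (hS' : S' ⊆ S)
    (hur : ∀ q : ℕ, q.Prime → q ∉ S → ρbar.IsUnramifiedAt q)
    (hsites : ∀ s ∈ Sites, s.Prime ∧ s ≠ p ∧ s ∈ S ∧ ρbar.IsUnramifiedAt s)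
    (hram : ∀ q ∈ S, q.Prime → q ≠ p → q ∉ Sites → ¬ ρbar.IsUnramifiedAt q ∧ (q ∈ U ∨ q ∉ S'))
    (A : ℕ → ValuationSubring Qb) (Φ τ : ℕ → GQ)
    (hA : ∀ s ∈ Sites, (A s).LiesOverPrime s)
    (hΦ : ∀ s ∈ Sites, (A s).IsFrobeniusAt (Φ s) s)
    (hτ : ∀ s ∈ Sites, RT.LocalGalois.IsTameGenerator (A s) s p (τ s))
    (h : ℕ → ℕ)
    (hh : ∀ s ∈ Sites, h s ≤ 1 ∨
      h s ≤ 3 ∧ ∃ c : ResidueField 𝒪, ρbar.ρ (Φ s) = c • (1 : Module.End _ ρbar.V)) :
    ∃ r : ℕ, (∑ s ∈ Sites, h s) ≤ r ∧ ∀ n : ℕ, ∃ qv : Fin r → ℕ, Function.Injective qv ∧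
      (∀ i, (qv i).Prime ∧ qv i ∉ S ∪ Xt ∧ p ^ (n + 1) ∣ qv i - 1) ∧
      (∀ i, ∀ P : ValuationSubring Qb, P.LiesOverPrime (qv i) →
        ∀ φ : GQ, P.IsFrobeniusAt φ (qv i) →
          ∃ α β : ResidueField 𝒪, α ≠ β ∧
            LinearMap.charpoly (ρbar.ρ φ) = (X - C α) * (X - C β)) ∧
      ∀ DQ : GaloisRep.DeformationRingData 𝒪 ρbar
          (RT.flatCond 𝒪 p (S' ∪ Finset.univ.image qv) U),
      ∀ E : Set DQ.R, E ⊆ maximalIdeal DQ.R →
      ∀ b : ℕ → Module.Basis (Fin 2) DQ.R DQ.ρ.V,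
      (letI := Deformation.dualAlgebra 𝒪
        ∀ φ : DQ.R →ₐ[𝒪] DualNumber (ResidueField 𝒪),
          IsLocalHom (φ : DQ.R →+* DualNumber (ResidueField 𝒪)) → (∀ x ∈ E, φ x = 0) →
          ∀ s ∈ Sites, ∀ σ : GQ, σ = Φ s ∨ σ = τ s → ∀ i j,
            TrivSqZeroExt.snd
              (φ (LinearMap.toMatrix (b s) (b s) (DQ.ρ.ρ σ) i j)) = 0) →
        ∃ a : Fin (r - ∑ s ∈ Sites, h s) → DQ.R, (∀ i, a i ∈ maximalIdeal DQ.R) ∧
          maximalIdeal DQ.R = Ideal.span (Set.range a) ⊔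
            (Ideal.span E ⊔ (maximalIdeal 𝒪).map (algebraMap 𝒪 DQ.R)) :=
  exists_twSites_of_cond p hp2 ρbar habs hdet hsplit hTW (fun ρ => ρ.IsFlatAt p)
    (fun hsm => exists_flatCond p _ hp2 hsm (det_eq_cycloChar p ρbar hdet) fun g => by
      obtain ⟨α, β, hab⟩ := hsplit g
      exact ⟨α, β, by rw [← hab]
                      exact LinearMap.charpoly_toMatrix (ρbar.ρ g) (Deformation.barBasis ρbar)⟩)
    (fun T => RT.flatCond 𝒪 p T U) (fun T => RT.isClosed_flatCond 𝒪 p T U) S S' U Sites Xt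
    (fun _ _ _ _ _ _ h => ⟨h.1.1, h.1.2.2, h.2⟩) (fun _ _ h => h.1.2.1) hpS hS' hur hsites hram
    A Φ τ hA hΦ hτ h hh

/-- Taylor-Wiles primes with sites, strictly ordinary at `p`. -/
theorem exists_twSites_strict (hp2 : p ≠ 2) (ρbar : ResidualGaloisRep (ResidueField 𝒪))
    (habs : ρbar.IsAbsolutelyIrreducible)
    (hdet : (GaloisRepAdic.ofResidualGaloisRep ρbar).DetIsCyclotomic p)
    (hsplit : ∀ σ : GQ, ∃ α β : ResidueField 𝒪,
      LinearMap.charpoly (ρbar.ρ σ) = (X - C α) * (X - C β))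
    (hTW : ∀ (K : Type) [Field K] [Algebra (ResidueField 𝒪) K] (G : Subgroup GQ), G.index = 2 →
      ∀ V : Submodule K (ρbar.baseChange K).V,
        (∀ σ ∈ G, ∀ x ∈ V, (ρbar.baseChange K).ρ σ x ∈ V) → V = ⊥ ∨ V = ⊤)
    (S S' U Sites Xt : Finset ℕ) (hpS : p ∈ S) (hS' : S' ⊆ S)
    (hur : ∀ q : ℕ, q.Prime → q ∉ S → ρbar.IsUnramifiedAt q)
    (hsites : ∀ s ∈ Sites, s.Prime ∧ s ≠ p ∧ s ∈ S ∧ ρbar.IsUnramifiedAt s)
    (hram : ∀ q ∈ S, q.Prime → q ≠ p → q ∉ Sites → ¬ ρbar.IsUnramifiedAt q ∧ (q ∈ U ∨ q ∉ S'))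
    (A : ℕ → ValuationSubring Qb) (Φ τ : ℕ → GQ)
    (hA : ∀ s ∈ Sites, (A s).LiesOverPrime s)
    (hΦ : ∀ s ∈ Sites, (A s).IsFrobeniusAt (Φ s) s)
    (hτ : ∀ s ∈ Sites, RT.LocalGalois.IsTameGenerator (A s) s p (τ s))
    (h : ℕ → ℕ)
    (hh : ∀ s ∈ Sites, h s ≤ 1 ∨
      h s ≤ 3 ∧ ∃ c : ResidueField 𝒪, ρbar.ρ (Φ s) = c • (1 : Module.End _ ρbar.V)) :
    ∃ r : ℕ, (∑ s ∈ Sites, h s) ≤ r ∧ ∀ n : ℕ, ∃ qv : Fin r → ℕ, Function.Injective qv ∧
      (∀ i, (qv i).Prime ∧ qv i ∉ S ∪ Xt ∧ p ^ (n + 1) ∣ qv i - 1) ∧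
      (∀ i, ∀ P : ValuationSubring Qb, P.LiesOverPrime (qv i) →
        ∀ φ : GQ, P.IsFrobeniusAt φ (qv i) →
          ∃ α β : ResidueField 𝒪, α ≠ β ∧
            LinearMap.charpoly (ρbar.ρ φ) = (X - C α) * (X - C β)) ∧
      ∀ DQ : GaloisRep.DeformationRingData 𝒪 ρbar
          (RT.strictCond 𝒪 p (S' ∪ Finset.univ.image qv) U),
      ∀ E : Set DQ.R, E ⊆ maximalIdeal DQ.R →
      ∀ b : ℕ → Module.Basis (Fin 2) DQ.R DQ.ρ.V,
      (letI := Deformation.dualAlgebra 𝒪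
        ∀ φ : DQ.R →ₐ[𝒪] DualNumber (ResidueField 𝒪),
          IsLocalHom (φ : DQ.R →+* DualNumber (ResidueField 𝒪)) → (∀ x ∈ E, φ x = 0) →
          ∀ s ∈ Sites, ∀ σ : GQ, σ = Φ s ∨ σ = τ s → ∀ i j,
            TrivSqZeroExt.snd
              (φ (LinearMap.toMatrix (b s) (b s) (DQ.ρ.ρ σ) i j)) = 0) →
        ∃ a : Fin (r - ∑ s ∈ Sites, h s) → DQ.R, (∀ i, a i ∈ maximalIdeal DQ.R) ∧
          maximalIdeal DQ.R = Ideal.span (Set.range a) ⊔
            (Ideal.span E ⊔ (maximalIdeal 𝒪).map (algebraMap 𝒪 DQ.R)) :=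
  exists_twSites_of_cond p hp2 ρbar habs hdet hsplit hTW (fun ρ => ρ.IsStrictOrdinaryAt p)
    (fun hsm => exists_strictOrdinaryCond p _ hp2 hsm (det_eq_cycloChar p ρbar hdet))
    (fun T => RT.strictCond 𝒪 p T U) (fun T => RT.isClosed_strictCond 𝒪 p hp2 T U) S S' U Sites Xt
    (fun _ _ _ _ _ _ h => ⟨h.1.1, h.1.2.2, h.2⟩) (fun _ _ h => h.1.2.1) hpS hS' hur hsites hram
    A Φ τ hA hΦ hτ h hh

end

end FLTA.TW

end
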