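import Fermat.Agent.TaylorWiles.FlatLocalRam
import Fermat.Agent.TaylorWiles.OrdinaryKummer

/-!
# Layers of Kummer classes over the tame field and their transformation under Galois
-/

set_option autoImplicit false
set_option linter.style.haveILetI false

open scoped NNReal
open Polynomial ExtCitation

noncomputable section

namespace FLTA.TaylorWiles.Flat

open FLTA.PT (Gl Ql lvlLoc locAut iota iota_loc loc Qb)

attribute [local instance] FLTA.PT.factPrime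

variable {q : Nat.Primes}

instance expChar_res : ExpChar (Res q) (q : ℕ) := ExpChar.prime q.2

/-- The residue field is perfect: it consists of roots of unity. -/
theorem exists_root_pow_red_eq {u : Res q} (hu : u ≠ 0) :
    ∃ (n : ℕ) (w : Ql q), ¬ (q : ℕ) ∣ n ∧ w ^ n = 1 ∧ red w ^ (q : ℕ) = u := by
  obtain ⟨n, ζ, hn, hζ, rfl⟩ := exists_root_red_eq hu
  have hn0 := ne_zero_of_not_dvd hn
  obtain ⟨m, hm⟩ : ∃ m : ℕ, (q : ℕ) * m ≡ 1 [MOD n] := by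
    have hcop : (q : ℕ).Coprime n := q.2.coprime_iff_not_dvd.mpr hn
    refine ⟨(q : ℕ) ^ (n.totient - 1), ?_⟩
    rw [← pow_succ', Nat.sub_add_cancel (Nat.totient_pos.mpr (Nat.pos_of_ne_zero hn0))]
    exact Nat.ModEq.pow_totient hcop
  refine ⟨n, ζ ^ m, hn, by rw [← pow_mul, mul_comm, pow_mul, hζ, one_pow], ?_⟩
  rw [← red_pow (by rw [nnnorm_pow, nnnorm_rootOfUnity hn0 hζ, one_pow]), ← pow_mul, mul_comm,
    pow_eq_pow_mod _ hζ, hm, ← pow_eq_pow_mod _ hζ, pow_one]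

/-- A Frobenius element raises residues to the `q`-th power. -/
theorem red_frobenius {F : Gl q}
    (hF : ∀ (n : ℕ) (ζ : Ql q), ¬ (q : ℕ) ∣ n → ζ ^ n = 1 → locAut q F ζ = ζ ^ (q : ℕ))
    {x : Ql q} (hx : ‖x‖₊ ≤ 1) : red (locAut q F x) = red x ^ (q : ℕ) := by
  have hFx : ‖locAut q F x‖₊ ≤ 1 := by rwa [nnnorm_locAut]
  rcases hx.lt_or_eq with h | h
  · rw [(red_eq_zero_iff hx).mpr h, (red_eq_zero_iff hFx).mpr (by rwa [nnnorm_locAut]),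
      zero_pow q.2.ne_zero]
  · obtain ⟨n, ζ, hn, hζ, hlt⟩ := exists_root_congr h
    have hζle : ‖ζ‖₊ ≤ 1 := (nnnorm_rootOfUnity (ne_zero_of_not_dvd hn) hζ).le
    rw [(red_eq_red_iff hx hζle).mpr hlt, ← red_pow hζle, ← hF n ζ hn hζ]
    exact (red_eq_red_iff hFx (by rwa [nnnorm_locAut])).mpr (by rwa [← map_sub, nnnorm_locAut])

namespace Tame

variable (T : Tame q)

/-! ### Levels -/

/-- `α ^ q` can be chosen congruent to `1` modulo `π ^ n`. -/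
def Deep (χ : Gl q → ZMod (q : ℕ)) (n : ℕ) : Prop :=
  ∃ α, T.Kum χ α ∧ ‖α ^ (q : ℕ) - 1‖₊ ≤ ‖T.π‖₊ ^ n

/-- The class has no valuation part. -/
def UnitClass (χ : Gl q → ZMod (q : ℕ)) : Prop := ∃ α, T.Kum χ α ∧ ‖α‖₊ = 1

open Classical in
/-- The residue of the leading coefficient at level `n`. -/
def lead (n : ℕ) (χ : Gl q → ZMod (q : ℕ)) : Res q :=
  if h : T.Deep χ n then red ((h.choose ^ (q : ℕ) - 1) / T.π ^ n) else 0

theorem π_pow_ne_zero (n : ℕ) : T.π ^ n ≠ 0 := pow_ne_zero _ T.π_ne_zero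

theorem nnnorm_div_π_le {x : Ql q} {n : ℕ} (h : ‖x‖₊ ≤ ‖T.π‖₊ ^ n) : ‖x / T.π ^ n‖₊ ≤ 1 := by
  rw [nnnorm_div, nnnorm_pow]
  exact div_le_one_of_le₀ h zero_le

theorem nnnorm_div_π_lt {x : Ql q} {n : ℕ} (h : ‖x‖₊ < ‖T.π‖₊ ^ n) : ‖x / T.π ^ n‖₊ < 1 := by
  rw [nnnorm_div, nnnorm_pow, div_lt_one (pow_pos T.nnnorm_π_pos _)]
  exact h

theorem pow_π_le_one (n : ℕ) : ‖T.π‖₊ ^ n ≤ 1 := pow_le_one₀ zero_le T.nnnorm_π_lt_one.le

theorem nnnorm_of_deep {x : Ql q} {n : ℕ} (hn : 1 ≤ n) (h : ‖x - 1‖₊ ≤ ‖T.π‖₊ ^ n) :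
    ‖x‖₊ = 1 := by
  have h1 : ‖x - 1‖₊ < 1 := lt_of_le_of_lt h (pow_lt_one₀ zero_le T.nnnorm_π_lt_one (by omega))
  rw [show x = 1 + (x - 1) by ring, IsUltrametricDist.nnnorm_add_eq_max_of_nnnorm_ne_nnnorm
    (by rw [nnnorm_one]; exact h1.ne'), nnnorm_one, max_eq_left h1.le]

theorem lead_eq {χ : Gl q → ZMod (q : ℕ)} {n : ℕ} (hn : 1 ≤ n) (hnt : n < T.top)
    (hqn : ¬ (q : ℕ) ∣ n) {α : Ql q} (hα : T.Kum χ α)
    (hl : ‖α ^ (q : ℕ) - 1‖₊ ≤ ‖T.π‖₊ ^ n) :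
    T.lead n χ = red ((α ^ (q : ℕ) - 1) / T.π ^ n) := by
  have h : T.Deep χ n := ⟨α, hα, hl⟩
  rw [lead, dif_pos h]
  obtain ⟨hγ, hγl⟩ := h.choose_spec
  set γ := h.choose
  set β := γ / α with hβ
  have hα1 := T.nnnorm_of_deep hn hl
  have hγ1 := T.nnnorm_of_deep hn hγl
  have hαq : α ^ (q : ℕ) ≠ 0 := pow_ne_zero _ hα.1
  have hd : ‖γ ^ (q : ℕ) - α ^ (q : ℕ)‖₊ ≤ ‖T.π‖₊ ^ n := by
    rw [← sub_sub_sub_cancel_right _ _ (1 : Ql q), sub_eq_add_neg]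
    exact (IsUltrametricDist.nnnorm_add_le_max _ _).trans
      (max_le hγl (by rw [nnnorm_neg]; exact hl))
  have hβl : ‖β ^ (q : ℕ) - 1‖₊ ≤ ‖T.π‖₊ ^ n := by
    rw [hβ, div_pow, div_sub_one hαq, nnnorm_div, hα1, div_one]
    exact hd
  have hlt := T.pow_sub_one_lt (hγ.div_mem hα) hn hnt hqn hβl
  rw [red_eq_red_iff (T.nnnorm_div_π_le hγl) (T.nnnorm_div_π_le hl), ← sub_div]
  refine T.nnnorm_div_π_lt ?_
  rw [sub_sub_sub_cancel_right]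
  rwa [div_pow, div_sub_one hαq, nnnorm_div, hα1, div_one] at hlt

variable {T}

theorem Kum.congr {χ χ' : Gl q → ZMod (q : ℕ)} {α : Ql q} (h : T.Kum χ α)
    (e : ∀ σ ∈ T.H, χ σ = χ' σ) : T.Kum χ' α :=
  ⟨h.1, fun σ hσ => by rw [← e σ hσ]; exact h.2 σ hσ⟩

theorem Deep.mono {χ : Gl q → ZMod (q : ℕ)} {m n : ℕ} (h : T.Deep χ n) (hmn : m ≤ n) :
    T.Deep χ m := by
  obtain ⟨α, hα, hl⟩ := h
  exact ⟨α, hα, hl.trans (T.pow_π_le_pow.mpr hmn)⟩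

theorem Deep.congr {χ χ' : Gl q → ZMod (q : ℕ)} {n : ℕ} (h : T.Deep χ n)
    (e : ∀ σ ∈ T.H, χ σ = χ' σ) : T.Deep χ' n := by
  obtain ⟨α, hα, hl⟩ := h
  exact ⟨α, hα.congr e, hl⟩

theorem UnitClass.congr {χ χ' : Gl q → ZMod (q : ℕ)} (h : T.UnitClass χ)
    (e : ∀ σ ∈ T.H, χ σ = χ' σ) : T.UnitClass χ' := by
  obtain ⟨α, hα, hl⟩ := h
  exact ⟨α, hα.congr e, hl⟩

theorem UnitClass.add {χ χ' : Gl q → ZMod (q : ℕ)} (h : T.UnitClass χ) (h' : T.UnitClass χ') :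
    T.UnitClass (χ + χ') := by
  obtain ⟨α, hα, hl⟩ := h
  obtain ⟨β, hβ, hl'⟩ := h'
  exact ⟨α * β, hα.mul hβ, by rw [nnnorm_mul, hl, hl', one_mul]⟩

theorem unitClass_zero : T.UnitClass 0 := ⟨1, T.kum_zero, nnnorm_one⟩

theorem deep_zero (n : ℕ) : T.Deep 0 n := ⟨1, T.kum_zero, by simp⟩

theorem Deep.add {χ χ' : Gl q → ZMod (q : ℕ)} {n : ℕ} (h : T.Deep χ n) (h' : T.Deep χ' n) :
    T.Deep (χ + χ') n := by
  obtain ⟨α, hα, hl⟩ := h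
  obtain ⟨β, hβ, hl'⟩ := h'
  refine ⟨α * β, hα.mul hβ, ?_⟩
  rw [mul_pow, show α ^ (q : ℕ) * β ^ (q : ℕ) - 1 =
    (α ^ (q : ℕ) - 1) * β ^ (q : ℕ) + (β ^ (q : ℕ) - 1) by ring]
  refine (IsUltrametricDist.nnnorm_add_le_max _ _).trans (max_le ?_ hl')
  rw [nnnorm_mul]
  refine (mul_le_of_le_one_right zero_le ?_).trans hl
  rw [← sub_add_cancel (β ^ (q : ℕ)) 1]
  exact (IsUltrametricDist.nnnorm_add_le_max _ _).trans
    (max_le (hl'.trans (T.pow_π_le_one n)) nnnorm_one.le)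

theorem lead_congr {χ χ' : Gl q → ZMod (q : ℕ)} {n : ℕ} (hn : 1 ≤ n) (hnt : n < T.top)
    (hqn : ¬ (q : ℕ) ∣ n) (h : T.Deep χ n) (e : ∀ σ ∈ T.H, χ σ = χ' σ) :
    T.lead n χ' = T.lead n χ := by
  obtain ⟨α, hα, hl⟩ := h
  rw [T.lead_eq hn hnt hqn hα hl, T.lead_eq hn hnt hqn (hα.congr e) hl]

theorem lead_add {χ χ' : Gl q → ZMod (q : ℕ)} {n : ℕ} (hn : 1 ≤ n) (hnt : n < T.top)
    (hqn : ¬ (q : ℕ) ∣ n) (h : T.Deep χ n) (h' : T.Deep χ' n) :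
    T.lead n (χ + χ') = T.lead n χ + T.lead n χ' := by
  obtain ⟨α, hα, hl⟩ := h
  obtain ⟨β, hβ, hl'⟩ := h'
  have hprod : ‖(α ^ (q : ℕ) - 1) * (β ^ (q : ℕ) - 1)‖₊ < ‖T.π‖₊ ^ n := by
    rw [nnnorm_mul]
    exact lt_of_le_of_lt (mul_le_mul hl hl' zero_le zero_le)
      (by rw [← pow_add]; exact T.pow_π_lt_pow.mpr (by omega))
  have e : (α * β) ^ (q : ℕ) - 1 = (α ^ (q : ℕ) - 1) + (β ^ (q : ℕ) - 1) +
      (α ^ (q : ℕ) - 1) * (β ^ (q : ℕ) - 1) := by ring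
  have hl'' : ‖(α * β) ^ (q : ℕ) - 1‖₊ ≤ ‖T.π‖₊ ^ n := by
    rw [e]
    exact (IsUltrametricDist.nnnorm_add_le_max _ _).trans (max_le
      ((IsUltrametricDist.nnnorm_add_le_max _ _).trans (max_le hl hl')) hprod.le)
  rw [T.lead_eq hn hnt hqn (hα.mul hβ) hl'', T.lead_eq hn hnt hqn hα hl,
    T.lead_eq hn hnt hqn hβ hl', e, add_div, add_div,
    red_add ((intRing q).add_mem (T.nnnorm_div_π_le hl) (T.nnnorm_div_π_le hl'))
      (T.nnnorm_div_π_le hprod.le),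
    red_add (T.nnnorm_div_π_le hl) (T.nnnorm_div_π_le hl'),
    (red_eq_zero_iff (T.nnnorm_div_π_le hprod.le)).mpr (T.nnnorm_div_π_lt hprod), add_zero]

theorem lead_zero {n : ℕ} (hn : 1 ≤ n) (hnt : n < T.top) (hqn : ¬ (q : ℕ) ∣ n) :
    T.lead n 0 = 0 := by
  rw [T.lead_eq hn hnt hqn T.kum_zero (by simp), one_pow, sub_self, zero_div, red_zero]

theorem Deep.nsmul {χ : Gl q → ZMod (q : ℕ)} {n : ℕ} (h : T.Deep χ n) (c : ℕ) :
    T.Deep (c • χ) n := by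
  induction c with
  | zero => rw [zero_smul]; exact T.deep_zero n
  | succ c ih => rw [succ_nsmul]; exact ih.add h

theorem UnitClass.nsmul {χ : Gl q → ZMod (q : ℕ)} (h : T.UnitClass χ) (c : ℕ) :
    T.UnitClass (c • χ) := by
  induction c with
  | zero => rw [zero_smul]; exact T.unitClass_zero
  | succ c ih => rw [succ_nsmul]; exact ih.add h

theorem lead_nsmul {χ : Gl q → ZMod (q : ℕ)} {n : ℕ} (hn : 1 ≤ n) (hnt : n < T.top)
    (hqn : ¬ (q : ℕ) ∣ n) (h : T.Deep χ n) (c : ℕ) : T.lead n (c • χ) = c * T.lead n χ := by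
  induction c with
  | zero => rw [zero_smul, lead_zero hn hnt hqn, Nat.cast_zero, zero_mul]
  | succ c ih => rw [succ_nsmul, lead_add hn hnt hqn (h.nsmul c) h, ih, Nat.cast_succ, add_one_mul]

theorem deep_succ_of_lead {χ : Gl q → ZMod (q : ℕ)} {n : ℕ} (hn : 1 ≤ n) (hnt : n < T.top)
    (hqn : ¬ (q : ℕ) ∣ n) (h : T.Deep χ n) (h0 : T.lead n χ = 0) : T.Deep χ (n + 1) := by
  obtain ⟨α, hα, hl⟩ := h
  refine ⟨α, hα, (T.nnnorm_lt_iff_le (sub_mem hα.pow_mem (one_mem _)) n).mp ?_⟩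
  rw [T.lead_eq hn hnt hqn hα hl, red_eq_zero_iff (T.nnnorm_div_π_le hl), nnnorm_div, nnnorm_pow,
    div_lt_one (pow_pos T.nnnorm_π_pos _)] at h0
  exact h0

/-- Layers with index a multiple of `q` can be removed. -/
theorem deep_succ_of_dvd {χ : Gl q → ZMod (q : ℕ)} {n : ℕ} (hn : 1 ≤ n) (hnt : n < T.top)
    (hqn : (q : ℕ) ∣ n) (h : T.Deep χ n) : T.Deep χ (n + 1) := by
  obtain ⟨α, hα, hl⟩ := h
  obtain ⟨j, rfl⟩ := hqn
  have hj : 1 ≤ j := Nat.pos_of_mul_pos_left hn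
  have hjf : j < T.f0 := Nat.lt_of_mul_lt_mul_left hnt
  set a := α ^ (q : ℕ) with ha
  set y := (a - 1) / T.π ^ ((q : ℕ) * j) with hy
  have hyle : ‖y‖₊ ≤ 1 := T.nnnorm_div_π_le hl
  by_cases hu : red y = 0
  · refine ⟨α, hα, (T.nnnorm_lt_iff_le (sub_mem hα.pow_mem (one_mem _)) _).mp ?_⟩
    rw [red_eq_zero_iff hyle, hy, nnnorm_div, nnnorm_pow,
      div_lt_one (pow_pos T.nnnorm_π_pos _)] at hu
    exact hu
  obtain ⟨m, w, hm, hw, hwu⟩ := exists_root_pow_red_eq hu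
  have hw1 := nnnorm_rootOfUnity (ne_zero_of_not_dvd hm) hw
  set x := T.π ^ j * w with hx
  have hxn : ‖x‖₊ = ‖T.π‖₊ ^ j := by rw [hx, nnnorm_mul, nnnorm_pow, hw1, mul_one]
  have hxle : ‖x‖₊ ≤ 1 := hxn.le.trans (T.pow_π_le_one _)
  have hxlt : ‖x‖₊ < 1 := by
    rw [hxn]; exact pow_lt_one₀ zero_le T.nnnorm_π_lt_one (by omega)
  set γ := 1 + x with hγ
  have hγ1 : ‖γ‖₊ = 1 := by
    rw [hγ, IsUltrametricDist.nnnorm_add_eq_max_of_nnnorm_ne_nnnorm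
      (by rw [nnnorm_one]; exact hxlt.ne'), nnnorm_one, max_eq_left hxle]
  have hγ0 : γ ≠ 0 := nnnorm_ne_zero_iff.mp (by rw [hγ1]; exact one_ne_zero)
  have hγE : γ ∈ T.E :=
    add_mem (one_mem _) (mul_mem (pow_mem T.π_mem_E _) (T.Knr_le_E (root_mem_Knr hm hw)))
  have hxq : x ^ (q : ℕ) = T.π ^ ((q : ℕ) * j) * w ^ (q : ℕ) := by
    rw [hx, mul_pow, ← pow_mul, mul_comm j]
  have h1 : ‖γ ^ (q : ℕ) - 1 - x ^ (q : ℕ)‖₊ < ‖T.π‖₊ ^ ((q : ℕ) * j) := by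
    refine lt_of_le_of_lt (nnnorm_add_one_pow_sub hxle) ?_
    rw [hxn, ← T.nnnorm_π_pow, ← pow_add, T.pow_π_lt_pow]
    have hf := T.f0_mul
    have hq := q.2.one_lt
    have : ((q : ℕ) - 1) * j < ((q : ℕ) - 1) * T.f0 := Nat.mul_lt_mul_of_pos_left hjf (by omega)
    rw [Nat.sub_mul, Nat.sub_mul, one_mul, one_mul] at this
    rw [mul_comm T.f0, Nat.sub_mul, one_mul] at hf
    have hle : j ≤ (q : ℕ) * j := Nat.le_mul_of_pos_left j q.2.pos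
    omega
  have h2 : ‖a - 1 - x ^ (q : ℕ)‖₊ < ‖T.π‖₊ ^ ((q : ℕ) * j) := by
    rw [hxq, show a - 1 = T.π ^ ((q : ℕ) * j) * y by
      rw [hy, mul_div_cancel₀ _ (T.π_pow_ne_zero _)], ← mul_sub, nnnorm_mul, nnnorm_pow]
    refine mul_lt_of_lt_one_right (pow_pos T.nnnorm_π_pos _) ?_
    rw [← red_eq_red_iff hyle (by rw [nnnorm_pow, hw1, one_pow]), red_pow hw1.le, hwu]
  refine ⟨α * γ⁻¹, hα.mul_mem (inv_mem hγE) (inv_ne_zero hγ0), ?_⟩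
  have hE : (α * γ⁻¹) ^ (q : ℕ) - 1 ∈ T.E :=
    sub_mem (hα.mul_mem (inv_mem hγE) (inv_ne_zero hγ0)).pow_mem (one_mem _)
  refine (T.nnnorm_lt_iff_le hE _).mp ?_
  rw [mul_pow, inv_pow, ← div_eq_mul_inv, div_sub_one (pow_ne_zero _ hγ0), nnnorm_div,
    nnnorm_pow γ, hγ1, one_pow, div_one, ← ha,
    show a - γ ^ (q : ℕ) = (a - 1 - x ^ (q : ℕ)) + -(γ ^ (q : ℕ) - 1 - x ^ (q : ℕ)) by ring]
  exact lt_of_le_of_lt (IsUltrametricDist.nnnorm_add_le_max _ _)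
    (max_lt h2 (by rwa [nnnorm_neg]))

/-- Climbing from level `n` to level `N`. -/
theorem deep_of_leads {χ : Gl q → ZMod (q : ℕ)} {n N : ℕ} (hn : 1 ≤ n) (hN : N ≤ T.top)
    (h : T.Deep χ n)
    (h0 : ∀ j, n ≤ j → j < N → ¬ (q : ℕ) ∣ j → T.Deep χ j → T.lead j χ = 0) : T.Deep χ N := by
  induction N with
  | zero => exact h.mono (Nat.zero_le n)
  | succ N ih =>
    rcases Nat.lt_or_ge N n with hlt | hge
    · exact h.mono (by omega)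
    have hd : T.Deep χ N := ih (by omega) fun j h1 h2 h3 h4 => h0 j h1 (by omega) h3 h4
    by_cases hq : (q : ℕ) ∣ N
    · exact deep_succ_of_dvd (by omega) (by omega) hq hd
    · exact deep_succ_of_lead (by omega) (by omega) hq hd (h0 N hge (by omega) hq hd)

theorem UnitClass.deep_one {χ : Gl q → ZMod (q : ℕ)} (h : T.UnitClass χ) : T.Deep χ 1 := by
  obtain ⟨α, hα, h1⟩ := h
  have ha : ‖α ^ (q : ℕ)‖₊ ≤ 1 := by rw [nnnorm_pow, h1, one_pow]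
  obtain ⟨m, w, hm, hw, hwu⟩ := exists_root_pow_red_eq (u := red (α ^ (q : ℕ)))
    (red_ne_zero (by rw [nnnorm_pow, h1, one_pow]))
  have hw1 := nnnorm_rootOfUnity (ne_zero_of_not_dvd hm) hw
  have hw0 : w ≠ 0 := nnnorm_ne_zero_iff.mp (by rw [hw1]; exact one_ne_zero)
  have hwE : w⁻¹ ∈ T.E := inv_mem (T.Knr_le_E (root_mem_Knr hm hw))
  have hK := hα.mul_mem hwE (inv_ne_zero hw0)
  refine ⟨α * w⁻¹, hK, (T.nnnorm_lt_iff_le (sub_mem hK.pow_mem (one_mem _)) 0).mp ?_⟩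
  rw [pow_zero, mul_pow, inv_pow, ← div_eq_mul_inv, div_sub_one (pow_ne_zero _ hw0), nnnorm_div,
    nnnorm_pow w, hw1, one_pow, div_one, ← red_eq_red_iff ha (by rw [nnnorm_pow, hw1, one_pow]),
    red_pow hw1.le, hwu]

theorem Deep.unitClass {χ : Gl q → ZMod (q : ℕ)} {n : ℕ} (hn : 1 ≤ n) (h : T.Deep χ n) :
    T.UnitClass χ := by
  obtain ⟨α, hα, hl⟩ := h
  refine ⟨α, hα, ?_⟩
  have := T.nnnorm_of_deep hn hl
  rw [nnnorm_pow] at this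
  exact (pow_eq_one_iff.mp this).resolve_right q.2.ne_zero

theorem Deep.eq_zero {χ : Gl q → ZMod (q : ℕ)} (h : T.Deep χ T.top) {σ : Gl q} (hσ : σ ∈ T.H) :
    χ σ = 0 := by
  obtain ⟨α, hα, hl⟩ := h
  exact T.apply_eq_of_top hl hσ (hα.2 σ hσ)

variable (T)

/-- A class either is a unit class or has a valuation prime to `q`. -/
theorem unitClass_or_valuation {χ : Gl q → ZMod (q : ℕ)} (hχ : T.IsHom χ) :
    T.UnitClass χ ∨
      ∃ (α : Ql q) (k : ℕ), T.Kum χ α ∧ 1 ≤ k ∧ k < (q : ℕ) ∧ ‖α‖₊ ^ (q : ℕ) = ‖T.π‖₊ ^ k := by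
  obtain ⟨α, hα⟩ := T.exists_kum hχ
  obtain ⟨k, hk⟩ := T.exists_zpow_nnnorm hα.pow_mem (pow_ne_zero _ hα.1)
  rw [nnnorm_pow] at hk
  set m : ℤ := k / (q : ℕ)
  set r : ℤ := k % (q : ℕ)
  have hkr : k = (q : ℕ) * m + r := (Int.mul_ediv_add_emod k _).symm
  have hr0 : 0 ≤ r := Int.emod_nonneg _ (by exact_mod_cast q.2.ne_zero)
  have hrq : r < (q : ℕ) := Int.emod_lt_of_pos _ (by exact_mod_cast q.2.pos)
  have hK := hα.mul_mem (zpow_mem T.π_mem_E (-m)) (zpow_ne_zero _ T.π_ne_zero)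
  have hnorm : ‖α * T.π ^ (-m)‖₊ ^ (q : ℕ) = ‖T.π‖₊ ^ r := by
    rw [nnnorm_mul, nnnorm_zpow, mul_pow, hk, ← zpow_natCast (‖T.π‖₊ ^ (-m)), ← zpow_mul,
      ← zpow_add₀ T.nnnorm_π_pos.ne']
    congr 1
    rw [hkr]; ring
  rcases eq_or_lt_of_le hr0 with h | h
  · left
    refine ⟨_, hK, ?_⟩
    rw [← h, zpow_zero] at hnorm
    exact (pow_eq_one_iff.mp hnorm).resolve_right q.2.ne_zero
  · right
    refine ⟨_, r.toNat, hK, by omega, by omega, ?_⟩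
    rw [hnorm, ← zpow_natCast ‖T.π‖₊ r.toNat, Int.toNat_of_nonneg hr0]

/-! ### The cyclotomic character -/

/-- The exponent by which `g` acts on `q`-th roots of unity. -/
def cy (g : Gl q) : ℕ := cycloExp (q : ℕ) (loc q g)

theorem locAut_zp (g : Gl q) : locAut q g T.zp = T.zp ^ cy g := by
  haveI : NeZero (q : ℕ) := ⟨q.2.ne_zero⟩
  haveI : NeZero (((q : ℕ) : Qb)) := ⟨Nat.cast_ne_zero.2 q.2.ne_zero⟩
  obtain ⟨ζ, hζ⟩ := HasEnoughRootsOfUnity.exists_primitiveRoot Qb (q : ℕ)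
  obtain ⟨i, -, hi⟩ := (hζ.map_of_injective (iota q).injective).eq_pow_of_pow_eq_one
    T.zp_prim.pow_eq_one
  rw [← hi, map_pow, ← iota_loc, apply_cycloExp q hζ.pow_eq_one, map_pow, ← pow_mul, ← pow_mul,
    mul_comm]
  rfl

/-- The residue of `(ζ_q - 1) / π ^ f0`. -/
def zpLead : Res q := red ((T.zp - 1) / T.π ^ T.f0)

theorem nnnorm_zp_sub_one : ‖T.zp - 1‖₊ = ‖T.π‖₊ ^ T.f0 := by
  have h := T.nnnorm_zpw_sub_one (a := 1) one_ne_zero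
  rwa [zpw, ZMod.val_one, pow_one] at h

theorem zpLead_pow : T.zpLead ^ ((q : ℕ) - 1) = 1 := by
  have h2 := q.2.two_le
  have hle : ‖(T.zp - 1) / T.π ^ T.f0‖₊ ≤ 1 := T.nnnorm_div_π_le T.nnnorm_zp_sub_one.le
  rw [zpLead, ← red_pow hle, ← red_one,
    red_eq_red_iff (by rw [nnnorm_pow]; exact pow_le_one₀ zero_le hle) nnnorm_one.le]
  set x := T.zp - 1 with hx
  have hxn : ‖x‖₊ = ‖T.π‖₊ ^ T.f0 := T.nnnorm_zp_sub_one
  have hx0 : x ≠ 0 := nnnorm_ne_zero_iff.mp (by rw [hxn]; exact (pow_pos T.nnnorm_π_pos _).ne')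
  have hden : (T.π ^ T.f0) ^ ((q : ℕ) - 1) = -((q : ℕ) : Ql q) := by
    rw [← pow_mul, T.f0_mul, T.π_pow]
  rw [div_pow, hden, div_sub_one (neg_ne_zero.mpr (Nat.cast_ne_zero.2 q.2.ne_zero)), nnnorm_div,
    nnnorm_neg, div_lt_one nnnorm_prime_pos, sub_neg_eq_add]
  have e : (1 + x) ^ (q : ℕ) - 1 = ∑ i ∈ Finset.Ico 1 ((q : ℕ) + 1),
      x ^ i * ((q : ℕ).choose i : Ql q) := by
    rw [add_comm, add_pow, Finset.range_eq_Ico, Finset.sum_eq_sum_Ico_succ_bot (Nat.succ_pos _)]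
    simp
  rw [show 1 + x = T.zp by rw [hx]; ring, T.zp_prim.pow_eq_one, sub_self,
    Finset.sum_eq_sum_Ico_succ_bot (by omega), pow_one, Nat.choose_one_right,
    Finset.sum_Ico_succ_top (by omega), Nat.choose_self, Nat.cast_one, mul_one] at e
  have hfac : x * (x ^ ((q : ℕ) - 1) + ((q : ℕ) : Ql q)) =
      -∑ i ∈ Finset.Ico (1 + 1) (q : ℕ), x ^ i * ((q : ℕ).choose i : Ql q) := by
    rw [mul_add, ← pow_succ', Nat.sub_add_cancel (show 1 ≤ (q : ℕ) by omega)]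
    linear_combination -e
  have hb : ‖x * (x ^ ((q : ℕ) - 1) + ((q : ℕ) : Ql q))‖₊ < ‖x‖₊ * ‖((q : ℕ) : Ql q)‖₊ := by
    rw [hfac, nnnorm_neg]
    refine lt_of_le_of_lt (IsUltrametricDist.nnnorm_sum_le_of_forall_le fun i hi => ?_)
      (show ‖x‖₊ ^ 2 * ‖((q : ℕ) : Ql q)‖₊ < _ from ?_)
    · rw [Finset.mem_Ico] at hi
      obtain ⟨b, hb⟩ := q.2.dvd_choose_self (k := i) (by omega) hi.2
      rw [hb, Nat.cast_mul, nnnorm_mul, nnnorm_mul, nnnorm_pow]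
      exact mul_le_mul (pow_le_pow_of_le_one zero_le (hxn.le.trans (T.pow_π_le_one _)) (by omega))
        (mul_le_of_le_one_right zero_le (nnnorm_natCast_le_one b)) zero_le zero_le
    · rw [pow_two, mul_assoc]
      refine mul_lt_mul_of_pos_left (mul_lt_of_lt_one_left nnnorm_prime_pos ?_)
        (nnnorm_pos.mpr hx0)
      rw [hxn]; exact pow_lt_one₀ zero_le T.nnnorm_π_lt_one T.f0_pos.ne'
  rw [nnnorm_mul] at hb
  exact lt_of_mul_lt_mul_left hb zero_le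

theorem zpLead_ne_zero : T.zpLead ≠ 0 := by
  intro h
  have := T.zpLead_pow
  rw [h, zero_pow (by have := q.2.two_le; omega)] at this
  exact zero_ne_one this

theorem red_pow_sub_one (c : ℕ) :
    ‖(T.zp ^ c - 1) / T.π ^ T.f0‖₊ ≤ 1 ∧
      red ((T.zp ^ c - 1) / T.π ^ T.f0) = (c : Res q) * T.zpLead := by
  have hle : ‖(T.zp - 1) / T.π ^ T.f0‖₊ ≤ 1 := T.nnnorm_div_π_le T.nnnorm_zp_sub_one.le
  have hzp : ‖T.zp‖₊ = 1 := nnnorm_rootOfUnity q.2.ne_zero T.zp_prim.pow_eq_one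
  induction c with
  | zero => simp
  | succ c ih =>
    obtain ⟨h1, h2⟩ := ih
    have e : (T.zp ^ (c + 1) - 1) / T.π ^ T.f0 =
        T.zp * ((T.zp ^ c - 1) / T.π ^ T.f0) + (T.zp - 1) / T.π ^ T.f0 := by
      rw [← mul_div_assoc, ← add_div]; ring
    have h3 : ‖T.zp * ((T.zp ^ c - 1) / T.π ^ T.f0)‖₊ ≤ 1 := by
      rw [nnnorm_mul, hzp, one_mul]; exact h1
    have hz1 : red T.zp = 1 := by
      rw [← red_one, red_eq_red_iff hzp.le nnnorm_one.le, T.nnnorm_zp_sub_one]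
      exact pow_lt_one₀ zero_le T.nnnorm_π_lt_one T.f0_pos.ne'
    refine ⟨by rw [e]; exact (intRing q).add_mem h3 hle, ?_⟩
    rw [e, red_add h3 hle, red_mul hzp.le h1, hz1, one_mul, h2, Nat.cast_succ, add_one_mul]
    rfl

variable {T}

/-- For `g` in inertia with `g π = ξ π`, the cyclotomic character is `ξ ^ f0`. -/
theorem cy_inerG {g : Gl q} (hg : g ∈ inerG q) {ξ : Ql q} (hξ : ξ ^ T.e = 1)
    (hπ : locAut q g T.π = ξ * T.π) : ((cy g : ℕ) : Res q) = red ξ ^ T.f0 := by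
  have hξ1 := nnnorm_rootOfUnity T.e_pos.ne' hξ
  have hle : ‖(T.zp - 1) / T.π ^ T.f0‖₊ ≤ 1 := T.nnnorm_div_π_le T.nnnorm_zp_sub_one.le
  obtain ⟨h1, h2⟩ := T.red_pow_sub_one (cy g)
  have e : locAut q g ((T.zp - 1) / T.π ^ T.f0) * ξ ^ T.f0 =
      (T.zp ^ cy g - 1) / T.π ^ T.f0 := by
    rw [map_div₀, map_sub, map_one, map_pow, hπ, T.locAut_zp, mul_pow, div_mul_eq_mul_div,
      mul_comm (T.zp ^ cy g - 1), mul_div_mul_left _ _ (pow_ne_zero _ (nnnorm_ne_zero_iff.mp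
        (by rw [hξ1]; exact one_ne_zero)))]
  rw [← e, red_mul (by rwa [nnnorm_locAut]) (by rw [nnnorm_pow, hξ1, one_pow]),
    red_inerG hg hle, red_pow hξ1.le] at h2
  exact (mul_left_cancel₀ T.zpLead_ne_zero (h2.trans (mul_comm _ _))).symm

/-- A Frobenius element fixing `π` fixes the `q`-th roots of unity. -/
theorem cy_frobenius {F : Gl q}
    (hF : ∀ (n : ℕ) (ζ : Ql q), ¬ (q : ℕ) ∣ n → ζ ^ n = 1 → locAut q F ζ = ζ ^ (q : ℕ))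
    (hπ : locAut q F T.π = T.π) : ((cy F : ℕ) : Res q) = 1 := by
  have hle : ‖(T.zp - 1) / T.π ^ T.f0‖₊ ≤ 1 := T.nnnorm_div_π_le T.nnnorm_zp_sub_one.le
  obtain ⟨h1, h2⟩ := T.red_pow_sub_one (cy F)
  have e : locAut q F ((T.zp - 1) / T.π ^ T.f0) = (T.zp ^ cy F - 1) / T.π ^ T.f0 := by
    rw [map_div₀, map_sub, map_one, map_pow, hπ, T.locAut_zp]
  rw [← e, red_frobenius hF hle, show red ((T.zp - 1) / T.π ^ T.f0) = T.zpLead from rfl,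
    show T.zpLead ^ (q : ℕ) = T.zpLead ^ ((q : ℕ) - 1) * T.zpLead by
      rw [← pow_succ, Nat.sub_add_cancel q.2.one_lt.le], T.zpLead_pow] at h2
  exact (mul_right_cancel₀ T.zpLead_ne_zero h2).symm

/-! ### Transformation of levels -/

theorem Deep.conj {χ : Gl q → ZMod (q : ℕ)} {n : ℕ} (h : T.Deep χ n) (g : Gl q) :
    T.Deep (conjTwist g (cy g) χ) n := by
  obtain ⟨α, hα, hl⟩ := h
  refine ⟨_, hα.conj g (T.locAut_zp g), ?_⟩
  rwa [← map_pow, ← map_one (locAut q g), ← map_sub, nnnorm_locAut]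

theorem UnitClass.conj {χ : Gl q → ZMod (q : ℕ)} (h : T.UnitClass χ) (g : Gl q) :
    T.UnitClass (conjTwist g (cy g) χ) := by
  obtain ⟨α, hα, hl⟩ := h
  exact ⟨_, hα.conj g (T.locAut_zp g), by rw [nnnorm_locAut, hl]⟩

theorem lead_conj {χ : Gl q → ZMod (q : ℕ)} {n : ℕ} (hn : 1 ≤ n) (hnt : n < T.top)
    (hqn : ¬ (q : ℕ) ∣ n) (h : T.Deep χ n) (g : Gl q) {ξ : Ql q} (hξ : ξ ^ T.e = 1)
    (hπ : locAut q g T.π = ξ * T.π) {φ : Res q → Res q}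
    (hφ : ∀ x : Ql q, ‖x‖₊ ≤ 1 → red (locAut q g x) = φ (red x)) :
    T.lead n (conjTwist g (cy g) χ) = red ξ ^ n * φ (T.lead n χ) := by
  obtain ⟨α, hα, hl⟩ := h
  have hξ1 := nnnorm_rootOfUnity T.e_pos.ne' hξ
  have hgl : ‖locAut q g α ^ (q : ℕ) - 1‖₊ ≤ ‖T.π‖₊ ^ n := by
    rw [← map_pow, ← map_one (locAut q g), ← map_sub, nnnorm_locAut]
    exact hl
  have hle := T.nnnorm_div_π_le hl
  rw [T.lead_eq hn hnt hqn (hα.conj g (T.locAut_zp g)) hgl, T.lead_eq hn hnt hqn hα hl, ← hφ _ hle,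
    ← red_pow hξ1.le, ← red_mul (by rw [nnnorm_pow, hξ1, one_pow]) (by rwa [nnnorm_locAut])]
  congr 1
  rw [map_div₀, map_sub, map_one, map_pow, map_pow, hπ, mul_pow, mul_div_assoc',
    mul_div_mul_left _ _ (pow_ne_zero _ (nnnorm_ne_zero_iff.mp (by rw [hξ1]; exact one_ne_zero)))]

/-- For inertia: `L (c • χ^g) = ξ ^ n • L χ`. -/
theorem lead_conj_inerG {χ : Gl q → ZMod (q : ℕ)} {n : ℕ} (hn : 1 ≤ n) (hnt : n < T.top)
    (hqn : ¬ (q : ℕ) ∣ n) (h : T.Deep χ n) {g : Gl q} (hg : g ∈ inerG q) {ξ : Ql q}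
    (hξ : ξ ^ T.e = 1) (hπ : locAut q g T.π = ξ * T.π) :
    T.lead n (conjTwist g (cy g) χ) = red ξ ^ n * T.lead n χ :=
  lead_conj hn hnt hqn h g hξ hπ (φ := id) fun _ hx => red_inerG hg hx

/-- For a Frobenius fixing `π`: `L (c • χ^F) = (L χ) ^ q`. -/
theorem lead_conj_frobenius {χ : Gl q → ZMod (q : ℕ)} {n : ℕ} (hn : 1 ≤ n) (hnt : n < T.top)
    (hqn : ¬ (q : ℕ) ∣ n) (h : T.Deep χ n) {F : Gl q}
    (hF : ∀ (m : ℕ) (ζ : Ql q), ¬ (q : ℕ) ∣ m → ζ ^ m = 1 → locAut q F ζ = ζ ^ (q : ℕ))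
    (hπ : locAut q F T.π = T.π) :
    T.lead n (conjTwist F (cy F) χ) = T.lead n χ ^ (q : ℕ) := by
  rw [lead_conj hn hnt hqn h F (one_pow _) (by rw [one_mul]; exact hπ)
    (φ := fun u => u ^ (q : ℕ)) fun _ hx => red_frobenius hF hx, red_one, one_pow, one_mul]

end Tame

end FLTA.TaylorWiles.Flat

end
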