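import Fermat.Agent.TaylorWiles.LocalAway

/-!
# Ramified places and the local inertia group
-/

set_option autoImplicit false

open ExtCitation

noncomputable section

namespace FLTA.TW

open FLTA.PT

/-- Every element of inertia comes from the local inertia. -/
theorem exists_inertiaG_eq (q : Nat.Primes) {σ : GQ}
    (hσ : σ ∈ (primeLocalPlace q).inertiaSubgroupIn ℚ) : ∃ s ∈ inertiaG q, loc q s = σ := by
  obtain ⟨τ, hτ⟩ := FLTA.TaylorWiles.exists_loc_eq q
    (FLTA.Galois.mem_inertiaSubgroupIn_iff.mp hσ).1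
  exact ⟨τ, mem_inertiaG.mpr (hτ.symm ▸ hσ), hτ⟩

/-- A homomorphism nontrivial on some inertia group over `q` is nontrivial on the local inertia. -/
theorem exists_inertiaG_ne_one {G : Type*} [Monoid G] (f : GQ →* G) (q : Nat.Primes)
    {A : ValuationSubring Qb} (hA : A.LiesOverPrime (q : ℕ)) {σ : GQ}
    (hσ : σ ∈ A.inertiaSubgroupIn ℚ) (hne : f σ ≠ 1) : ∃ s ∈ inertiaG q, f (loc q s) ≠ 1 := by
  obtain ⟨g, hg⟩ := FLTA.Galois.exists_smul_eq q.2 hA (primeLocalPlace_liesOverPrime q)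
  obtain ⟨s, hs, hls⟩ := exists_inertiaG_eq q (σ := g * σ * g⁻¹)
    (hg ▸ (FLTA.Galois.inertiaSubgroupIn_smul_iff g).mpr (by simpa [mul_assoc] using hσ))
  refine ⟨s, hs, fun h => hne ?_⟩
  rw [hls] at h
  calc f σ = f g⁻¹ * f (g * σ * g⁻¹) * f g := by
        rw [← map_mul, ← map_mul]; congr 1; group
    _ = 1 := by rw [h, mul_one, ← map_mul, inv_mul_cancel, map_one]

end FLTA.TW

end
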