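import Fermat.Agent.TaylorWiles.Defs
import Fermat.Agent.TaylorWiles.MainLoc
import Fermat.Agent.PoitouTate.HasseBase
import Fermat.Agent.PoitouTate.FiniteH1
import Fermat.Agent.Galois.Places

/-!
# Classes unramified outside `S` are the classes of `G_S`
-/

set_option autoImplicit false
set_option linter.style.haveILetI false
set_option linter.unusedSectionVars false

open ExtCitation

noncomputable section

namespace FLTA.TW

open FLTA.PT

theorem lvlLE_lvlS_mono {S T : Finset Nat.Primes} (h : S ⊆ T) :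
    LvlLE (lvlS S) (lvlS T) (MonoidHom.id GQ) := by
  rintro U ⟨hn, F, hF, hle⟩
  rw [Subgroup.comap_id]
  exact ⟨hn, F, ⟨hF.1, fun q hq => hF.2 q fun h' => hq (h h')⟩, hle⟩

theorem mem_lvlS_mono {S T : Finset Nat.Primes} (h : S ⊆ T) {U : Subgroup GQ} (hU : U ∈ lvlS S) :
    U ∈ lvlS T := by
  simpa [Subgroup.comap_id] using lvlLE_lvlS_mono h U hU

variable {p : ℕ} [Fact p.Prime] {V : Type} [AddCommGroup V] [Module (ZMod p) V]
variable {ρ : Representation (ZMod p) GQ V}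

theorem smooth_lvlS_mono {S T : Finset Nat.Primes} (h : S ⊆ T) (hρ : Smooth (lvlS S) ρ) :
    Smooth (lvlS T) ρ := fun v => by
  obtain ⟨U, hU, hv⟩ := hρ v
  exact ⟨U, mem_lvlS_mono h hU, hv⟩

theorem smooth_lvlQ_of_smooth_lvlS {S : Finset Nat.Primes} (hρ : Smooth (lvlS S) ρ) : Smooth lvlQ ρ :=
  fun v => by
    obtain ⟨U, hU, hv⟩ := hρ v
    exact ⟨U, by simpa [Subgroup.comap_id] using lvlS_le_lvlQ S U hU, hv⟩

variable (ρ) in
/-- Inflation from `G_S` to all of `G_ℚ`. -/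
def inflS (S : Finset Nat.Primes) : H1c (lvlS S) ρ →ₗ[ZMod p] H1Q ρ :=
  map1 (σ := ρ) (φ := LinearMap.id) (lvlS_le_lvlQ S) (fun _ _ => rfl)

theorem inflS_injective (S : Finset Nat.Primes) : Function.Injective (inflS ρ S) := by
  refine (injective_iff_map_eq_zero _).2 fun c hc => ?_
  obtain ⟨x, rfl⟩ := Submodule.mkQ_surjective _ c
  exact (H1cπ_eq_zero (lvlS S) ρ).2 ((H1cπ_eq_zero lvlQ ρ).1 hc)

theorem locQ_inflS (S : Finset Nat.Primes) (q : Nat.Primes) (c : H1c (lvlS S) ρ) :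
    locQ ρ q (inflS ρ S c) = locH1 S ρ q c := by
  obtain ⟨x, rfl⟩ := Submodule.mkQ_surjective _ c
  rfl

/-- The classes of `G_S` are the classes unramified outside `S`. -/
theorem mem_range_inflS_iff [Finite V] {S : Finset Nat.Primes} (hρ : Smooth (lvlS S) ρ)
    {c : H1Q ρ} :
    c ∈ LinearMap.range (inflS ρ S) ↔ ∀ q, q ∉ S → locQ ρ q c ∈ unrCond ρ q := by
  classical
  constructor
  · rintro ⟨c, rfl⟩ q hq
    obtain ⟨x, rfl⟩ := Submodule.mkQ_surjective _ c
    refine ⟨⟨_, pp1_mem_Z1 (φ := LinearMap.id) (σ := ρ.comp (loc q)) (lvlS_le_lvlLoc S q)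
      (fun _ _ => rfl) x.2⟩, ?_, rfl⟩
    rw [SetLike.mem_coe, Submodule.mem_iInf]
    intro s
    rw [LinearMap.mem_ker]
    show x.1 (loc q s) = 0
    obtain ⟨hx, U, hU, hxU⟩ := (mem_Z1 _ _).1 x.2
    have h1 := hxU 1 (loc q s)
      (Hasse.inertia_le_of_mem_lvlS hU hq (primeLocalPlace_liesOverPrime q) (mem_inertiaG.1 s.2))
    rw [one_mul] at h1
    rw [h1]
    simpa using hx 1 1
  · intro hc
    obtain ⟨x, rfl⟩ := Submodule.mkQ_surjective _ c
    obtain ⟨hx, Ux, hUx, hxU⟩ := (mem_Z1 _ _).1 x.2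
    haveI := Fintype.ofFinite V
    choose Us hUs hs using hρ
    obtain ⟨U₀, hU₀, hfix⟩ : ∃ U ∈ lvlS S, ∀ s ∈ U, ∀ v, ρ s v = v := by
      have : ∀ t : Finset V, ∃ U ∈ lvlS S, ∀ v ∈ t, ∀ s ∈ U, ρ s v = v := fun t => by
        induction t using Finset.induction with
        | empty => exact ⟨⊤, (lvlS S).top_mem, by simp⟩
        | insert v t _ iht =>
          obtain ⟨U', hU', h'⟩ := iht
          refine ⟨Us v ⊓ U', (lvlS S).inf_mem _ (hUs v) _ hU', fun w hw s hs' => ?_⟩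
          rcases Finset.mem_insert.1 hw with rfl | hw
          · exact hs w s hs'.1
          · exact h' w hw s hs'.2
      obtain ⟨U', hU', h'⟩ := this Finset.univ
      exact ⟨U', hU', fun s hs' v => h' v (Finset.mem_univ v) s hs'⟩
    have hn₀ := (lvlS S).normal_of_mem U₀ hU₀
    have hx1 : x.1 1 = 0 := by simpa using hx 1 1
    let U : Subgroup GQ :=
      { carrier := {g | g ∈ U₀ ∧ x.1 g = 0}
        one_mem' := ⟨U₀.one_mem, hx1⟩
        mul_mem' := fun {a b} ha hb =>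
          ⟨U₀.mul_mem ha.1 hb.1, by rw [hx, hb.2, map_zero, ha.2, add_zero]⟩
        inv_mem' := fun {a} ha => ⟨U₀.inv_mem ha.1, by
          have h := hx a a⁻¹
          rwa [mul_inv_cancel, hx1, ha.2, add_zero, hfix a ha.1, eq_comm] at h⟩ }
    have hnU : U.Normal := ⟨fun g hg h => by
      refine ⟨hn₀.conj_mem g hg.1 h, ?_⟩
      have h1 := hx h h⁻¹
      rw [mul_inv_cancel, hx1] at h1
      show x.1 (h * g * h⁻¹) = 0
      rw [mul_assoc, hx, hx g, hg.2, add_zero, hfix g hg.1]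
      exact h1.symm⟩
    have hUQ : U ∈ lvlQ := by
      obtain ⟨-, F, hF, hFU⟩ := (lvlQ).inf_mem _
        (show U₀ ∈ lvlQ by simpa [Subgroup.comap_id] using lvlS_le_lvlQ S U₀ hU₀) _ hUx
      refine ⟨hnU, F, hF, hFU.trans fun g hg => ⟨hg.1, ?_⟩⟩
      have h1 := hxU 1 g hg.2
      rwa [one_mul, hx1] at h1
    have hU : U ∈ lvlS S := by
      refine Hasse.mem_lvlS_of_inertia_le hUQ fun q hq A hA σ hσ => ?_
      obtain ⟨g, rfl⟩ := FLTA.Galois.exists_smul_eq q.2 (primeLocalPlace_liesOverPrime q) hA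
      rw [FLTA.Galois.inertiaSubgroupIn_smul_iff] at hσ
      have hτ : g⁻¹ * σ * g ∈ U := by
        obtain ⟨t, ht, hte⟩ := exists_inertiaG_eq q hσ
        have hU₀t : g⁻¹ * σ * g ∈ U₀ :=
          Hasse.inertia_le_of_mem_lvlS hU₀ hq (primeLocalPlace_liesOverPrime q) hσ
        refine ⟨hU₀t, ?_⟩
        obtain ⟨y, hy, hyc⟩ := hc q hq
        rw [SetLike.mem_coe, Submodule.mem_iInf] at hy
        obtain ⟨β, hβ⟩ := (mem_B1 _).1 ((Submodule.Quotient.eq _).1 hyc)
        have h1 : d0 (ρ.comp (loc q)) β t = y.1 t - x.1 (loc q t) := congrFun hβ t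
        have h2 : y.1 t = 0 := LinearMap.mem_ker.1 (hy ⟨t, ht⟩)
        rw [d0_apply, MonoidHom.comp_apply, hte, hfix _ hU₀t, sub_self, h2, zero_sub] at h1
        exact neg_eq_zero.1 h1.symm
      simpa [mul_assoc] using hnU.conj_mem _ hτ g
    have hxS : x.1 ∈ Z1 (lvlS S) ρ :=
      (mem_Z1 _ _).2 ⟨hx, U, hU, fun g s hs => by rw [hx, hs.2, map_zero, zero_add]⟩
    exact ⟨H1cπ (lvlS S) ρ ⟨x.1, hxS⟩, rfl⟩

/-- A Selmer group lives in `G_T` for every `T ⊇ S`. -/
theorem selmer_condAt_eq_map [Finite V] {S T : Finset Nat.Primes} (hST : S ⊆ T)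
    (hρ : Smooth (lvlS S) ρ) (L : Cond ρ) :
    selmer ρ (condAt ρ S L) =
      (⨅ q : T, (condAt ρ S L q.1).comap (locH1 T ρ q.1)).map (inflS ρ T) := by
  classical
  ext c
  rw [mem_selmer, Submodule.mem_map]
  constructor
  · intro h
    obtain ⟨d, rfl⟩ := (mem_range_inflS_iff (smooth_lvlS_mono hST hρ)).2 fun q hq => by
      have := h q
      rwa [condAt, if_neg fun h' => hq (hST h')] at this
    refine ⟨d, ?_, rfl⟩
    rw [Submodule.mem_iInf]
    intro q
    rw [Submodule.mem_comap, ← locQ_inflS]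
    exact h q.1
  · rintro ⟨d, hd, rfl⟩ q
    rw [Submodule.mem_iInf] at hd
    by_cases hq : q ∈ T
    · rw [locQ_inflS]
      exact hd ⟨q, hq⟩
    · rw [condAt, if_neg fun h' => hq (hST h')]
      exact (mem_range_inflS_iff (smooth_lvlS_mono hST hρ)).1 ⟨d, rfl⟩ q hq

/-- A class of `G_T` is unramified outside `T`. -/
theorem inflS_mem_unrCond [Finite V] {T : Finset Nat.Primes} (hρ : Smooth (lvlS T) ρ)
    {q : Nat.Primes} (hq : q ∉ T) (c : H1c (lvlS T) ρ) :
    locQ ρ q (inflS ρ T c) ∈ unrCond ρ q :=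
  (mem_range_inflS_iff hρ).1 ⟨c, rfl⟩ q hq

/-- A Selmer class comes from `G_T`. -/
theorem exists_inflS_eq [Finite V] {S T : Finset Nat.Primes} (hST : S ⊆ T)
    (hρ : Smooth (lvlS S) ρ) {L : Cond ρ} {c : H1Q ρ} (hc : c ∈ selmer ρ (condAt ρ S L)) :
    ∃ c₀, inflS ρ T c₀ = c := by
  rw [selmer_condAt_eq_map hST hρ L] at hc
  obtain ⟨d, -, hd⟩ := hc
  exact ⟨d, hd⟩

theorem finite_H1S [Finite V] (S : Finset Nat.Primes) (hρ : Smooth (lvlS S) ρ) :
    Finite (H1c (lvlS S) ρ) :=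
  haveI := finite_Z1S S ρ hρ
  Finite.of_surjective _ (Submodule.mkQ_surjective _)

/-- The dimension of a Selmer group can be computed in `G_T`. -/
theorem finrank_selmer_condAt [Finite V] {S T : Finset Nat.Primes} (hST : S ⊆ T)
    (hρ : Smooth (lvlS S) ρ) (L : Cond ρ) :
    Module.finrank (ZMod p) (selmer ρ (condAt ρ S L)) =
      Module.finrank (ZMod p)
        (⨅ q : T, (condAt ρ S L q.1).comap (locH1 T ρ q.1) : Submodule _ (H1c (lvlS T) ρ)) := by
  rw [selmer_condAt_eq_map hST hρ L]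
  exact (Submodule.equivMapOfInjective _ (inflS_injective T) _).finrank_eq.symm

theorem finite_selmer_condAt_aux [Finite V] (S : Finset Nat.Primes) (hρ : Smooth (lvlS S) ρ)
    (L : Cond ρ) : Finite (selmer ρ (condAt ρ S L)) := by
  haveI := finite_H1S S hρ
  rw [selmer_condAt_eq_map (T := S) subset_rfl hρ L]
  exact Finite.of_equiv _ (Submodule.equivMapOfInjective _ (inflS_injective S) _).toEquiv

end FLTA.TW

end
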