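import Fermat.Agent.TaylorWiles.Defs
import Fermat.Agent.PoitouTate.LocalPairing
import Fermat.Agent.TaylorWiles.LocalAway
import Fermat.Agent.PoitouTate.GlobalClassesLevel
import Fermat.Agent.PoitouTate.LocalDualitySub

/-!
# Local inputs for the Greenberg-Wiles inequality
-/

set_option autoImplicit false

open ExtCitation Module

noncomputable section

namespace FLTA.TW

open FLTA.PT

variable (p : ℕ) [Fact p.Prime] {V W : Type} [AddCommGroup V] [Module (ZMod p) V]
  [AddCommGroup W] [Module (ZMod p) W] [Finite V] [Finite W]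
variable {ρ : Representation (ZMod p) GQ V} {σ : Representation (ZMod p) GQ W}

theorem finite_H1L (q : Nat.Primes) (hρ : Smooth lvlQ ρ) : Finite (H1L ρ q) :=
  FLTA.PT.finite_localH1 p q (smooth_comap hρ (loc q))

/-- A local inertia element fixes every root of unity of order prime to `q`. -/
theorem mem_inertiaLoc_of_mem_inertiaG {q : Nat.Primes} {s : Gl q} (hs : s ∈ inertiaG q) :
    s ∈ inertiaLoc q := by
  refine mem_inertiaLoc_of_fix fun ζ m hm hζ => ?_
  have hm0 : m ≠ 0 := ne_zero_of_not_dvd hm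
  haveI : NeZero (m : Qb) := ⟨Nat.cast_ne_zero.2 hm0⟩
  haveI : NeZero m := ⟨hm0⟩
  obtain ⟨z, hz⟩ := HasEnoughRootsOfUnity.exists_primitiveRoot Qb m
  obtain ⟨i, -, rfl⟩ := (hz.map_of_injective (iota q).injective).eq_pow_of_pow_eq_one hζ
  rw [map_pow, ← iota_loc, FLTA.Galois.inertia_apply_rootOfUnity q.2
    (primeLocalPlace_liesOverPrime q) (mem_inertiaG.1 hs) hm hz.pow_eq_one]

theorem cycloChar_eq_prime (q : Nat.Primes) (hq : (q : ℕ) ≠ p) {φ : GQ}
    (hφ : (primeLocalPlace q).IsFrobeniusAt φ (q : ℕ)) :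
    (cycloChar p φ : ZMod p) = (q : ℕ) := by
  haveI : NeZero p := ⟨(Fact.out : p.Prime).ne_zero⟩
  refine (modularCyclotomicCharacter.unique Qb _ (φ : Qb ≃+* Qb) fun t ht => ?_).symm
  have h1 : (t : Qb) ^ p = 1 := by rw [← Units.val_pow_eq_pow_val, ht, Units.val_one]
  rw [ZMod.val_natCast, ← pow_eq_pow_mod (q : ℕ) h1]
  exact FLTA.Galois.frobenius_apply_rootOfUnity q.2 (primeLocalPlace_liesOverPrime q) hφ
    (fun h => hq ((Nat.prime_dvd_prime_iff_eq q.2 Fact.out).1 h)) h1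

omit [Finite V] in
/-- The structure of the cocycles of an unramified module away from `p`. -/
theorem exists_frobenius_tame (q : Nat.Primes) (hq : (q : ℕ) ≠ p)
    (hur : ∀ s ∈ inertiaG q, ρ (loc q s) = 1) :
    ∃ F T : Gl q, T ∈ inertiaG q ∧ (cycloChar p (loc q F) : ZMod p) = (q : ℕ) ∧
      (∀ U ∈ lvlQ, ∀ g : Gl q, ∃ (j : ℕ) (i : Gl q), i ∈ inertiaG q ∧
        (F ^ j * i)⁻¹ * g ∈ U.comap (loc q)) ∧
      (∀ v : V, ρ (loc q F) v = v → (∀ U ∈ lvlLoc q, (∀ s ∈ U, ρ (loc q s) v = v) →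
        ∀ g, ρ (loc q g) v = v)) ∧
      ∀ y ∈ Z1 (lvlLoc q) (ρ.comp (loc q)),
        ρ (loc q F) (y T) = ((q : ℕ) : ZMod p) • y T ∧
        ((∀ s ∈ inertiaG q, y s = 0) → y F = 0 → y = 0) ∧ (y F = 0 → y T = 0 → y = 0) := by
  have hpp : p.Prime := Fact.out
  have hqp : p ≠ (q : ℕ) := hq.symm
  have hA := primeLocalPlace_liesOverPrime q
  set σl := ρ.comp (loc q) with hσl
  obtain ⟨φ, hφ⟩ := FLTA.Galois.exists_isFrobeniusAt q.2 hA
  obtain ⟨τ, hτ⟩ := FLTA.RT.LocalGalois.exists_isTameGenerator (p := p) q.2 hpp hqp hA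
  obtain ⟨T, hT⟩ := FLTA.TaylorWiles.exists_loc_eq q
    (FLTA.Galois.inertiaSubgroupIn_le_decompositionSubgroup hτ.1)
  obtain ⟨F, hF⟩ := FLTA.TaylorWiles.exists_loc_eq q hφ.mem_decompositionSubgroup
  have hTI : T ∈ inertiaG q := by rw [mem_inertiaG, hT]; exact hτ.1
  -- every element is a power of Frobenius times inertia, modulo any level
  have hdec : ∀ U ∈ lvlQ, ∀ g : Gl q, ∃ (j : ℕ) (i : Gl q), i ∈ inertiaG q ∧
      (F ^ j * i)⁻¹ * g ∈ U.comap (loc q) := by
    intro U hU g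
    obtain ⟨N, hN, hNmem, hNU⟩ := exists_normal_level ⟨U, hU, le_rfl⟩
    obtain ⟨j, ι, hι, he⟩ := FLTA.Galois.exists_pow_mul_inertia_eq q.2 hA hφ
      (loc_mem_decompositionSubgroup q g) N
    obtain ⟨i, hi⟩ := FLTA.TaylorWiles.exists_loc_eq q
      (FLTA.Galois.inertiaSubgroupIn_le_decompositionSubgroup hι)
    refine ⟨j, i, by rw [mem_inertiaG, hi]; exact hι, ?_⟩
    rw [Subgroup.mem_comap]
    apply hNU
    rw [IntermediateField.mem_fixingSubgroup_iff]
    intro x hx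
    rw [map_mul, map_inv, map_mul, map_pow, hF, hi, AlgEquiv.mul_apply, he x hx,
      ← AlgEquiv.mul_apply, inv_mul_cancel, AlgEquiv.one_apply]
  refine ⟨F, T, hTI, by rw [hF]; exact cycloChar_eq_prime p q hq hφ, hdec,
    fun v hv U hU hUv g => ?_,
    fun f hf => ?_⟩
  · obtain ⟨U, hU', rfl⟩ := hU
    obtain ⟨j, i, hi, hu⟩ := hdec U hU' g
    have hj : σl (F ^ j) v = v := by
      clear hu
      induction j with
      | zero => rw [pow_zero, map_one, Module.End.one_apply]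
      | succ j ih => rw [pow_succ, map_mul, Module.End.mul_apply, show σl F v = v from hv, ih]
    have hg : g = F ^ j * i * ((F ^ j * i)⁻¹ * g) := by group
    show σl g v = v
    rw [hg, map_mul, map_mul, Module.End.mul_apply, Module.End.mul_apply,
      show σl ((F ^ j * i)⁻¹ * g) v = v from hUv _ hu, show σl i = 1 from hur i hi,
      Module.End.one_apply, hj]
  obtain ⟨hcoc, W, ⟨U, hU, rfl⟩, hconst⟩ := (mem_Z1 _ _).1 hf
  have htriv : ∀ i ∈ inertiaG q, ∀ v : V, σl i v = v := fun i hi v => by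
    rw [show σl i = 1 from hur i hi, Module.End.one_apply]
  have h1 : f 1 = 0 := by simpa using hcoc 1 1
  have hhom : ∀ i ∈ inertiaG q, ∀ j, f (i * j) = f i + f j := by
    intro i hi j
    rw [hcoc, htriv i hi, add_comm]
  have hFj : f F = 0 → ∀ j : ℕ, f (F ^ j) = 0 := fun hF0 j => by
    induction j with
    | zero => rw [pow_zero, h1]
    | succ j ih => rw [pow_succ, hcoc, hF0, ih, map_zero, add_zero]
  have hzero : (∀ s ∈ inertiaG q, f s = 0) → f F = 0 → f = 0 := fun hI hF0 => funext fun g => by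
    obtain ⟨j, i, hi, hu⟩ := hdec U hU g
    have e := hconst (F ^ j * i) _ hu
    rw [mul_inv_cancel_left] at e
    rw [e, hcoc, hFj hF0 j, hI i hi, map_zero, add_zero, Pi.zero_apply]
  obtain ⟨N, hN, hNmem, hNU⟩ := exists_normal_level ⟨U, hU, le_rfl⟩
  haveI : Normal ℚ N := by
    haveI := FLTA.Galois.qbar_isGalois
    haveI : IsGalois ℚ N := (InfiniteGalois.normal_iff_isGalois N).1 hNmem.1
    infer_instance
  obtain ⟨c, hc⟩ := IsAlgClosed.exists_pow_nat_eq ((q : ℕ) : Qb)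
    (pow_pos hpp.pos (Module.finrank ℚ N))
  have hpow : ∀ i ∈ inertiaG q, ∀ m : ℕ, f (i ^ m) = m • f i := by
    intro i hi m
    induction m with
    | zero => rw [pow_zero, h1, zero_smul]
    | succ m ih => rw [pow_succ, hhom _ (pow_mem hi m), ih, succ_nsmul]
  have hkill : ∀ i ∈ inertiaG q, loc q i c = c → f i = 0 := by
    intro i hi hic
    obtain ⟨m, -, hpm, hm⟩ :=
      FLTA.RT.LocalGalois.exists_pow_mem_fixingSubgroup q.2 hA hpp hqp N hc hi hic
    have h := hconst 1 (i ^ m) (by rw [Subgroup.mem_comap, map_pow]; exact hNU hm)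
    rw [one_mul, h1, hpow i hi, ← Nat.cast_smul_eq_nsmul (ZMod p)] at h
    exact (smul_eq_zero.1 h).resolve_left fun h' => hpm ((ZMod.natCast_eq_zero_iff _ _).1 h')
  have hgen : ∀ i ∈ inertiaG q, ∀ j : ℕ, loc q i c = (τ ^ j) c → f i = j • f T := by
    intro i hi j hj
    have hi' : (T ^ j)⁻¹ * i ∈ inertiaG q := mul_mem (inv_mem (pow_mem hTI j)) hi
    have h := hkill _ hi' (by
      rw [map_mul, map_inv, map_pow, hT, AlgEquiv.mul_apply, hj, ← AlgEquiv.mul_apply,
        inv_mul_cancel, AlgEquiv.one_apply])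
    have e := hhom _ (pow_mem hTI j) ((T ^ j)⁻¹ * i)
    rwa [mul_inv_cancel_left, h, add_zero, hpow T hTI] at e
  have hq0 : ((q : ℕ) : Qb) ≠ 0 := Nat.cast_ne_zero.2 q.2.ne_zero
  have hc0 : c ≠ 0 := fun h => by
    rw [h, zero_pow (pow_pos hpp.pos _).ne'] at hc
    exact hq0 hc.symm
  refine ⟨?_, hzero, fun hF0 hT0 => hzero (fun i hi => ?_) hF0⟩
  · have hi : F * T * F⁻¹ ∈ inertiaG q := by
      rw [mem_inertiaG, map_mul, map_mul, map_inv, hF, hT]
      exact FLTA.Galois.inertia_conj_mem hφ.mem_decompositionSubgroup hτ.1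
    have hn' := FLTA.RT.LocalGalois.not_dvd_pow_of_ne q.2 hpp hqp (Module.finrank ℚ N)
    have hζ := (hτ.isPrimitiveRoot q.2 hpp hc).pow_eq_one
    set c' := φ⁻¹ c with hc'def
    have hc' : c' ^ p ^ Module.finrank ℚ N = ((q : ℕ) : Qb) := by
      rw [hc'def, ← map_pow, hc, map_natCast]
    have hτc' : τ c' = τ c / c * c' := by
      have h1 : τ (c' / c) = c' / c :=
        FLTA.Galois.inertia_apply_rootOfUnity q.2 hA hτ.1 hn'
          (by rw [div_pow, hc, hc', div_self hq0])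
      rw [map_div₀] at h1
      have hτc0 : τ c ≠ 0 := fun h => hc0 ((map_eq_zero_iff _ τ.injective).mp h)
      field_simp at h1 ⊢
      linear_combination h1
    have he : loc q (F * T * F⁻¹) c = (τ ^ (q : ℕ)) c := by
      rw [hτ.pow_apply q.2 hA hpp hqp hc, map_mul, map_mul, map_inv, hF, hT,
        AlgEquiv.mul_apply, AlgEquiv.mul_apply, ← hc'def, hτc', map_mul,
        FLTA.Galois.frobenius_apply_rootOfUnity q.2 hA hφ hn' hζ, hc'def, ← AlgEquiv.mul_apply,
        mul_inv_cancel, AlgEquiv.one_apply]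
    have h := hgen _ hi _ he
    rw [← Nat.cast_smul_eq_nsmul (ZMod p)] at h
    have hFinv : σl F (f F⁻¹) + f F = 0 := by rw [← hcoc, mul_inv_cancel, h1]
    rw [hcoc, map_mul σl, Module.End.mul_apply, htriv T hTI, hcoc F T] at h
    show σl F (f T) = _
    calc σl F (f T) = σl F (f F⁻¹) + (σl F (f T) + f F) - (σl F (f F⁻¹) + f F) := by abel
      _ = _ := by rw [h, hFinv, sub_zero]
  · obtain ⟨jj, -, hjj⟩ : ∃ jj, jj < p ^ Module.finrank ℚ N ∧ (τ c / c) ^ jj = loc q i c / c := by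
      haveI : NeZero (p ^ Module.finrank ℚ N) := ⟨(pow_pos hpp.pos _).ne'⟩
      refine (hτ.isPrimitiveRoot q.2 hpp hc).eq_pow_of_pow_eq_one ?_
      rw [div_pow, ← map_pow, hc, map_natCast, div_self hq0]
    rw [hgen i hi jj (by rw [hτ.pow_apply q.2 hA hpp hqp hc, hjj, div_mul_cancel₀ _ hc0]),
      hT0, smul_zero]

section degree

variable (q : Nat.Primes)

/-- The degree modulo `N` along a Frobenius element. -/
theorem exists_degree {F : Gl q}
    (hdec : ∀ U ∈ lvlQ, ∀ g : Gl q, ∃ (j : ℕ) (i : Gl q), i ∈ inertiaG q ∧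
      (F ^ j * i)⁻¹ * g ∈ U.comap (loc q)) (N : ℕ) [NeZero N] :
    ∃ d : Gl q → ZMod N, (∀ g h, d (g * h) = d g + d h) ∧ d F = 1 ∧
      (∀ i ∈ inertiaG q, d i = 0) ∧ IsConst₁ (lvlLoc q) d ∧
      ∀ U ∈ lvlQ, ∀ g : Gl q, ∃ (j : ℕ) (i : Gl q), i ∈ inertiaG q ∧
        (F ^ j * i)⁻¹ * g ∈ U.comap (loc q) ∧ (j : ZMod N) = d g := by
  have htop : IsOpenLvl (lvlLoc q) (⊤ : Subgroup (Gl q)) := ⟨⊤, (lvlLoc q).top_mem, le_rfl⟩
  obtain ⟨χ, hsur, hI, -, ⟨T₀, ⟨V, hV, rfl⟩, rfl⟩, hT₀⟩ := exists_unramified_char q ⊤ htop N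
  let d₀ : Gl q → ZMod N := fun g => Multiplicative.toAdd (χ ⟨g, Subgroup.mem_top g⟩)
  have hadd : ∀ g h, d₀ (g * h) = d₀ g + d₀ h := fun g h => by
    show Multiplicative.toAdd (χ (⟨g, Subgroup.mem_top g⟩ * ⟨h, Subgroup.mem_top h⟩)) = _
    rw [map_mul, toAdd_mul]
  have hI₀ : ∀ i ∈ inertiaG q, d₀ i = 0 := fun i hi => by
    show Multiplicative.toAdd (χ _) = 0
    rw [hI ⟨i, Subgroup.mem_top i⟩ (mem_inertiaLoc_of_mem_inertiaG hi), toAdd_one]
  have hV0 : ∀ s ∈ V.comap (loc q), d₀ s = 0 := fun s hs => by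
    show Multiplicative.toAdd (χ _) = 0
    rw [MonoidHom.mem_ker.1 (hT₀ (x := ⟨s, Subgroup.mem_top s⟩) hs), toAdd_one]
  have hpow : ∀ j : ℕ, d₀ (F ^ j) = j • d₀ F := fun j => by
    induction j with
    | zero =>
      have := hadd 1 1
      simpa using this
    | succ j ih => rw [pow_succ, hadd, ih, succ_nsmul]
  have hform : ∀ g j i, i ∈ inertiaG q → (F ^ j * i)⁻¹ * g ∈ V.comap (loc q) →
      d₀ g = j • d₀ F := fun g j i hi hu => by
    conv_lhs => rw [← mul_inv_cancel_left (F ^ j * i) g]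
    rw [hadd, hadd, hV0 _ hu, hI₀ i hi, hpow, add_zero, add_zero]
  obtain ⟨u, hu⟩ : ∃ u : ZMod N, u * d₀ F = 1 := by
    obtain ⟨g, hg⟩ := hsur (Multiplicative.ofAdd 1)
    obtain ⟨j, i, hi, hu⟩ := hdec V hV g
    exact ⟨(j : ZMod N), by rw [← nsmul_eq_mul, ← hform (g : Gl q) j i hi hu]; exact congrArg Multiplicative.toAdd hg⟩
  refine ⟨fun g => u * d₀ g, fun g h => by simp only [hadd, mul_add], hu,
    fun i hi => by simp only [hI₀ i hi, mul_zero], ⟨_, ⟨V, hV, rfl⟩, fun g s hs => by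
      simp only [hadd, hV0 s hs, add_zero]⟩, fun U hU g => ?_⟩
  obtain ⟨j, i, hi, hu'⟩ := hdec (U ⊓ V) (lvlQ.inf_mem U hU V hV) g
  refine ⟨j, i, hi, hu'.1, ?_⟩
  show (j : ZMod N) = u * d₀ g
  rw [hform g j i hi hu'.2, nsmul_eq_mul, mul_left_comm, hu, mul_one]

/-- The geometric sum attached to the value of a cocycle at Frobenius. -/
def geoSum {M : Type} [AddCommGroup M] [Module (ZMod p) M] (A : M →ₗ[ZMod p] M) (a : M) (k : ℕ) :
    M :=
  ∑ i ∈ Finset.range k, (A ^ i) a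

omit [Finite V] in
theorem geoSum_add (A : V →ₗ[ZMod p] V) (a : V) (j k : ℕ) :
    geoSum p A a (j + k) = (A ^ j) (geoSum p A a k) + geoSum p A a j := by
  simp only [geoSum, Finset.sum_range_add, map_sum, pow_add, Module.End.mul_apply]
  abel

omit [Finite V] in
theorem geoSum_periodic (A : V →ₗ[ZMod p] V) (a : V) {n : ℕ} (hA : A ^ n = 1) (k : ℕ) :
    geoSum p A a (k + p * n) = geoSum p A a k := by
  have h0 : ∀ m : ℕ, geoSum p A a (m * n) = m • geoSum p A a n := fun m => by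
    induction m with
    | zero => simp [geoSum]
    | succ m ih =>
      rw [Nat.succ_mul, geoSum_add, ih, mul_comm m, pow_mul, hA, one_pow, Module.End.one_apply,
        succ_nsmul']
  rw [geoSum_add, h0, ← Nat.cast_smul_eq_nsmul (ZMod p), ZMod.natCast_self, zero_smul, map_zero,
    zero_add]

end degree

/-- Powers of an operator of order dividing `N` only depend on the exponent modulo `N`. -/
theorem pow_eq_pow_of_cast_eq {M : Type*} [Monoid M] {a : M} {N : ℕ} (ha : a ^ N = 1) {i j : ℕ}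
    (h : (i : ZMod N) = j) : a ^ i = a ^ j := by
  rw [pow_eq_pow_mod i ha, pow_eq_pow_mod j ha, (ZMod.natCast_eq_natCast_iff' i j N).1 h]

theorem exists_triv_level {Γ : Type} [Group Γ] {L : Lvl Γ} {τ : Representation (ZMod p) Γ V}
    (hτ : Smooth L τ) : ∃ U ∈ L, ∀ s ∈ U, τ s = 1 := by
  choose W hW hfix using hτ
  obtain ⟨U, hU, hle⟩ := L.exists_mem_le_forall W fun v => ⟨W v, hW v, le_rfl⟩
  exact ⟨U, hU, fun s hs => LinearMap.ext fun v => hfix v s (hle v hs)⟩

/-- The module is a module over the powers of Frobenius. -/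
theorem exists_period (q : Nat.Primes) (hρ : Smooth lvlQ ρ)
    (hur : ∀ s ∈ inertiaG q, ρ (loc q s) = 1) {F : Gl q} :
    ∃ n : ℕ, n ≠ 0 ∧ (ρ.comp (loc q) F) ^ n = 1 ∧ ∀ (N : ℕ) (d : Gl q → ZMod N), n ∣ N →
      (∀ U ∈ lvlQ, ∀ g : Gl q, ∃ (j : ℕ) (i : Gl q), i ∈ inertiaG q ∧
        (F ^ j * i)⁻¹ * g ∈ U.comap (loc q) ∧ (j : ZMod N) = d g) →
      ∀ g (k : ℕ), (k : ZMod N) = d g → ρ.comp (loc q) g = (ρ.comp (loc q) F) ^ k := by
  obtain ⟨U, hU, hfix⟩ := exists_triv_level p hρ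
  have := lvlQ.normal_of_mem U hU
  have := (lvlLoc q).finiteIndex_of_mem _ ⟨U, hU, rfl⟩
  have hn : (ρ.comp (loc q) F) ^ (U.comap (loc q)).index = 1 := by
    rw [← map_pow]
    exact hfix _ (Subgroup.mem_comap.1 ((U.comap (loc q)).pow_index_mem F))
  refine ⟨(U.comap (loc q)).index, Subgroup.FiniteIndex.index_ne_zero, hn,
    fun N d hN hd g k hk => ?_⟩
  obtain ⟨j, i, hi, hu, hj⟩ := hd U hU g
  have hm : (ρ.comp (loc q) F) ^ N = 1 := by
    obtain ⟨c, rfl⟩ := hN
    rw [pow_mul, hn, one_pow]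
  conv_lhs => rw [← mul_inv_cancel_left (F ^ j * i) g]
  rw [map_mul, map_mul, show ρ.comp (loc q) ((F ^ j * i)⁻¹ * g) = 1 from hfix _ hu,
    show ρ.comp (loc q) i = 1 from hur i hi, mul_one, mul_one, map_pow]
  exact pow_eq_pow_of_cast_eq hm (hj.trans hk.symm)

/-- A Frobenius element of the local group. -/
theorem exists_frobenius_dec (q : Nat.Primes) :
    ∃ F : Gl q, ∀ U ∈ lvlQ, ∀ g : Gl q, ∃ (j : ℕ) (i : Gl q), i ∈ inertiaG q ∧
      (F ^ j * i)⁻¹ * g ∈ U.comap (loc q) := by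
  have hA := primeLocalPlace_liesOverPrime q
  obtain ⟨φ, hφ⟩ := FLTA.Galois.exists_isFrobeniusAt q.2 hA
  obtain ⟨F, hF⟩ := FLTA.TaylorWiles.exists_loc_eq q hφ.mem_decompositionSubgroup
  refine ⟨F, fun U hU g => ?_⟩
  obtain ⟨N, hN, hNmem, hNU⟩ := exists_normal_level ⟨U, hU, le_rfl⟩
  obtain ⟨j, ι, hι, he⟩ := FLTA.Galois.exists_pow_mul_inertia_eq q.2 hA hφ
    (loc_mem_decompositionSubgroup q g) N
  obtain ⟨i, hi⟩ := FLTA.TaylorWiles.exists_loc_eq q
    (FLTA.Galois.inertiaSubgroupIn_le_decompositionSubgroup hι)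
  refine ⟨j, i, by rw [mem_inertiaG, hi]; exact hι, ?_⟩
  rw [Subgroup.mem_comap]
  apply hNU
  rw [IntermediateField.mem_fixingSubgroup_iff]
  intro x hx
  rw [map_mul, map_inv, map_mul, map_pow, hF, hi, AlgEquiv.mul_apply, he x hx,
    ← AlgEquiv.mul_apply, inv_mul_cancel, AlgEquiv.one_apply]

omit [Finite V] in
/-- A cocycle killing inertia and Frobenius is zero. -/
theorem eq_zero_of_frobenius (q : Nat.Primes) {F : Gl q}
    (hdec : ∀ U ∈ lvlQ, ∀ g : Gl q, ∃ (j : ℕ) (i : Gl q), i ∈ inertiaG q ∧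
      (F ^ j * i)⁻¹ * g ∈ U.comap (loc q))
    {f : Gl q → V} (hf : f ∈ Z1 (lvlLoc q) (ρ.comp (loc q))) (hI : ∀ s ∈ inertiaG q, f s = 0)
    (hF0 : f F = 0) : f = 0 := by
  obtain ⟨hcoc, W, ⟨U, hU, rfl⟩, hconst⟩ := (mem_Z1 _ _).1 hf
  have h1 : f 1 = 0 := by simpa using hcoc 1 1
  have hFj : ∀ j : ℕ, f (F ^ j) = 0 := fun j => by
    induction j with
    | zero => rw [pow_zero, h1]
    | succ j ih => rw [pow_succ, hcoc, hF0, ih, map_zero, add_zero]
  funext g
  obtain ⟨j, i, hi, hu⟩ := hdec U hU g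
  have e := hconst (F ^ j * i) _ hu
  rw [mul_inv_cancel_left] at e
  rw [e, hcoc, hFj j, hI i hi, map_zero, add_zero, Pi.zero_apply]

/-- Cocycles vanishing on inertia. -/
def urZ (q : Nat.Primes) (τ : Representation (ZMod p) GQ V) :
    Submodule (ZMod p) (Z1 (lvlLoc q) (τ.comp (loc q))) :=
  ⨅ s : inertiaG q, LinearMap.ker ((LinearMap.proj (s : Gl q)).comp
    (Z1 (lvlLoc q) (τ.comp (loc q))).subtype)

omit [Finite V] in
theorem mem_urZ {q : Nat.Primes} {τ : Representation (ZMod p) GQ V}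
    {y : Z1 (lvlLoc q) (τ.comp (loc q))} :
    y ∈ urZ p q τ ↔ ∀ s ∈ inertiaG q, (y : Gl q → V) s = 0 := by
  simp [urZ, Submodule.mem_iInf]

/-- An unramified cocycle is a geometric sum in the degree. -/
theorem exists_urZ_eq (q : Nat.Primes) (hρ : Smooth lvlQ ρ)
    (hur : ∀ s ∈ inertiaG q, ρ (loc q s) = 1) {F : Gl q}
    (hdec : ∀ U ∈ lvlQ, ∀ g : Gl q, ∃ (j : ℕ) (i : Gl q), i ∈ inertiaG q ∧
      (F ^ j * i)⁻¹ * g ∈ U.comap (loc q)) :
    ∃ n : ℕ, n ≠ 0 ∧ ∀ (N : ℕ) [NeZero N] (d : Gl q → ZMod N), p * n ∣ N →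
      (∀ g h, d (g * h) = d g + d h) → d F = 1 → (∀ i ∈ inertiaG q, d i = 0) →
      IsConst₁ (lvlLoc q) d → (∀ U ∈ lvlQ, ∀ g : Gl q, ∃ (j : ℕ) (i : Gl q), i ∈ inertiaG q ∧
        (F ^ j * i)⁻¹ * g ∈ U.comap (loc q) ∧ (j : ZMod N) = d g) →
      (∀ g (k : ℕ), (k : ZMod N) = d g → ρ.comp (loc q) g = (ρ.comp (loc q) F) ^ k) ∧
      (∀ i j : ℕ, (i : ZMod (p * n)) = j → ∀ v, geoSum p (ρ.comp (loc q) F) v i =
        geoSum p (ρ.comp (loc q) F) v j) ∧
      ∀ v : V, ∃ y : Z1 (lvlLoc q) (ρ.comp (loc q)), y ∈ urZ p q ρ ∧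
        (y : Gl q → V) F = v ∧
        ∀ g (k : ℕ), (k : ZMod N) = d g →
          (y : Gl q → V) g = geoSum p (ρ.comp (loc q) F) v k := by
  obtain ⟨n, hn0, hA, hρg⟩ := exists_period p q hρ hur (F := F)
  set A := ρ.comp (loc q) F
  refine ⟨n, hn0, fun N _ d hN hadd hF hI hc hd => ?_⟩
  have hnN : n ∣ N := (Dvd.intro_left p rfl).trans hN
  have hper : ∀ (i j : ℕ), (i : ZMod (p * n)) = j → ∀ v, geoSum p A v i = geoSum p A v j := by
    intro i j hij v
    have hm : ∀ k, geoSum p A v k = geoSum p A v (k % (p * n)) := fun k => by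
      conv_lhs => rw [← Nat.mod_add_div k (p * n)]
      generalize k / (p * n) = t
      induction t with
      | zero => simp
      | succ t ih => rw [Nat.mul_succ, ← add_assoc, geoSum_periodic p A v hA, ih]
    rw [hm i, hm j, (ZMod.natCast_eq_natCast_iff' i j _).1 hij]
  have hρg' := hρg N d hnN hd
  refine ⟨hρg', fun i j h v => hper i j h v, fun v => ?_⟩
  have hv : ∀ g (k : ℕ), (k : ZMod N) = d g → geoSum p A v (d g).val = geoSum p A v k :=
    fun g k hk => hper _ _ (by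
      have := congrArg (ZMod.castHom hN (ZMod (p * n))) hk
      rw [map_natCast] at this
      rw [this]
      conv_rhs => rw [← ZMod.natCast_zmod_val (d g), map_natCast]) v
  refine ⟨⟨fun g => geoSum p A v (d g).val, (mem_Z1 _ _).2 ⟨fun g h => ?_, ?_⟩⟩, ?_, ?_,
    fun g k hk => hv g k hk⟩
  · rw [hρg' g (d g).val (ZMod.natCast_zmod_val _), ← geoSum_add]
    exact hv (g * h) _ (by rw [hadd, Nat.cast_add, ZMod.natCast_zmod_val, ZMod.natCast_zmod_val])
  · obtain ⟨U, hU, h⟩ := hc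
    exact ⟨U, hU, fun g s hs => by simp only [h g s hs]⟩
  · refine (mem_urZ p).2 fun s hs => ?_
    show geoSum p A v (d s).val = 0
    rw [hI s hs, ZMod.val_zero]
    rfl
  · show geoSum p A v (d F).val = v
    rw [hv F 1 (by rw [Nat.cast_one, hF])]
    simp [geoSum]

omit [Finite V] in
theorem unrCond_eq_map (q : Nat.Primes) :
    unrCond ρ q = (urZ p q ρ).map (H1cπ (lvlLoc q) (ρ.comp (loc q))) := rfl

/-- Coboundaries are unramified and are the values `(F - 1)v`. -/
theorem d0_mem_urZ (q : Nat.Primes) (hρ : Smooth lvlQ ρ)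
    (hur : ∀ s ∈ inertiaG q, ρ (loc q s) = 1) (v : V) :
    ∃ y : Z1 (lvlLoc q) (ρ.comp (loc q)), y ∈ urZ p q ρ ∧
      (y : Gl q → V) = d0 (ρ.comp (loc q)) v := by
  obtain ⟨U, hU, hfix⟩ := hρ v
  refine ⟨⟨d0 (ρ.comp (loc q)) v, LinearMap.mem_ker.2 (d1_d0 _ _), ⟨_, ⟨U, hU, rfl⟩,
    fun g s hs => ?_⟩⟩, (mem_urZ p).2 fun s hs => ?_, rfl⟩
  · simp only [d0_apply, MonoidHom.comp_apply, map_mul, Module.End.mul_apply, hfix _ hs]
  · simp only [d0_apply, MonoidHom.comp_apply, hur s hs, Module.End.one_apply, sub_self]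

theorem finite_urZ (q : Nat.Primes) : Finite (urZ p q ρ) := by
  obtain ⟨F, hdec⟩ := exists_frobenius_dec q
  refine Finite.of_injective (fun y : urZ p q ρ => (y.1 : Gl q → V) F) fun y y' h => ?_
  rw [← sub_eq_zero]
  refine Subtype.ext (Subtype.ext ?_)
  exact eq_zero_of_frobenius p q hdec (y - y').1.2 ((mem_urZ p).1 (y - y').2)
    (show (y.1 : Gl q → V) F - (y'.1 : Gl q → V) F = 0 from sub_eq_zero.2 h)

/-- Evaluation at Frobenius of unramified cocycles. -/
theorem finrank_urZ (q : Nat.Primes) (hρ : Smooth lvlQ ρ)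
    (hur : ∀ s ∈ inertiaG q, ρ (loc q s) = 1) :
    finrank (ZMod p) (urZ p q ρ) = finrank (ZMod p) V := by
  obtain ⟨F, hdec⟩ := exists_frobenius_dec q
  obtain ⟨n, hn, hy⟩ := exists_urZ_eq p q hρ hur hdec
  haveI : NeZero (p * n) := ⟨mul_ne_zero (Fact.out : p.Prime).ne_zero hn⟩
  obtain ⟨d, hadd, hF, hI, hc, hd⟩ := exists_degree q hdec (p * n)
  obtain ⟨-, -, hex⟩ := hy (p * n) d dvd_rfl hadd hF hI hc hd
  refine (LinearEquiv.ofBijective (((LinearMap.proj F).comp
    (Z1 (lvlLoc q) (ρ.comp (loc q))).subtype).comp (urZ p q ρ).subtype) ⟨?_, fun v => ?_⟩).finrank_eq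
  · refine (injective_iff_map_eq_zero _).2 fun y hy => Subtype.ext (Subtype.ext ?_)
    exact eq_zero_of_frobenius p q hdec y.1.2 ((mem_urZ p).1 y.2) hy
  · obtain ⟨y, hy, hv, -⟩ := hex v
    exact ⟨⟨y, hy⟩, hv⟩

/-- Unramified classes have the dimension of the invariants. -/
theorem finrank_unrCond_eq (q : Nat.Primes) (hρ : Smooth lvlQ ρ)
    (hur : ∀ s ∈ inertiaG q, ρ (loc q s) = 1) :
    finrank (ZMod p) (unrCond ρ q) = finrank (ZMod p) (fixedBy (ρ.comp (loc q)) ⊤) := by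
  classical
  choose y hy hyv using d0_mem_urZ p q hρ hur
  let D : V →ₗ[ZMod p] urZ p q ρ :=
    { toFun := fun v => ⟨y v, hy v⟩
      map_add' := fun v w => Subtype.ext (Subtype.ext (by simp [hyv]))
      map_smul' := fun c v => Subtype.ext (Subtype.ext (by simp [hyv])) }
  haveI : Module.Finite (ZMod p) V := Module.Finite.of_finite
  have hker : LinearMap.ker D = fixedBy (ρ.comp (loc q)) ⊤ := by
    ext v
    rw [LinearMap.mem_ker, mem_fixedBy]
    refine ⟨fun h s _ => ?_, fun h => Subtype.ext (Subtype.ext ?_)⟩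
    · have := congrFun (hyv v) s
      rw [show (y v : Gl q → V) = 0 from congrArg (fun z : urZ p q ρ => (z.1 : Gl q → V)) h] at this
      exact sub_eq_zero.1 this.symm
    · show (y v : Gl q → V) = 0
      rw [hyv]
      exact funext fun s => sub_eq_zero.2 (h s trivial)
  have hcl : LinearMap.ker ((H1cπ (lvlLoc q) (ρ.comp (loc q))).comp (urZ p q ρ).subtype) =
      LinearMap.range D := by
    ext z
    rw [LinearMap.mem_ker, LinearMap.comp_apply, Submodule.subtype_apply, H1cπ_eq_zero, mem_B1]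
    exact ⟨fun ⟨v, hv⟩ => ⟨v, Subtype.ext (Subtype.ext ((hyv v).trans hv))⟩,
      fun ⟨v, hv⟩ => ⟨v, by rw [← hv]; exact (hyv v).symm⟩⟩
  haveI := finite_urZ p (ρ := ρ) q
  haveI : Module.Finite (ZMod p) (urZ p q ρ) := Module.Finite.of_finite
  have h1 := LinearMap.finrank_range_add_finrank_ker D
  have h2 := LinearMap.finrank_range_add_finrank_ker
    ((H1cπ (lvlLoc q) (ρ.comp (loc q))).comp (urZ p q ρ).subtype)
  rw [hker] at h1
  rw [hcl, finrank_urZ p q hρ hur, LinearMap.range_comp, Submodule.range_subtype,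
    ← unrCond_eq_map] at h2
  have h2' : finrank (ZMod p) (unrCond ρ q) + finrank (ZMod p) (LinearMap.range D) =
      finrank (ZMod p) V := h2
  exact Nat.add_right_cancel (h2'.trans (h1.symm.trans (add_comm _ _)))

theorem smooth_muRep : Smooth lvlQ (muRep p) := fun v => by
  obtain ⟨hn, F, hF, hle⟩ := GC.cycLvl_mem_lvlS (p := p) {pPrime p} (Finset.mem_singleton_self _) 1
  exact ⟨GC.cycLvl p 1, ⟨hn, F, hF.1, hle⟩, fun s hs => by
    simp [charRep_apply, GC.cycloChar_eq_one hs]⟩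

theorem muRep_inertia (q : Nat.Primes) (hq : (q : ℕ) ≠ p) :
    ∀ s ∈ inertiaG q, muRep p (loc q s) = 1 := fun s hs => by
  have h : cycloChar p (loc q s) = 1 := cycloChar_eq_one_of_fixes p
    (FLTA.Galois.inertia_apply_rootOfUnity q.2 (primeLocalPlace_liesOverPrime q) hs
      (fun h => hq ((Nat.prime_dvd_prime_iff_eq q.2 Fact.out).1 h)) (zetaQb_spec p).pow_eq_one)
  exact LinearMap.ext fun a => by simp [charRep_apply, h]

omit [Finite V] in
/-- The dual of an unramified module is unramified. -/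
theorem unramified_of_pairing (P : Pairing (cycloChar p) ρ σ) (hP : P.Perfect) (q : Nat.Primes)
    (hq : (q : ℕ) ≠ p) (hur : ∀ s ∈ inertiaG q, ρ (loc q s) = 1) :
    ∀ s ∈ inertiaG q, σ (loc q s) = 1 := fun s hs => LinearMap.ext fun w => hP.2.1
      (LinearMap.ext fun v => by
        have h := P.equivariant (loc q s) v w
        have hμ := LinearMap.congr_fun (muRep_inertia p q hq s hs) 1
        simp only [charRep_apply, mul_one, Module.End.one_apply] at hμ
        rw [hur s hs, Module.End.one_apply, hμ, one_mul] at h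
        simpa using h)

theorem sum_range_add_periodic {M : Type} [AddCommGroup M] [Module (ZMod p) M] {C : ℕ → M} {m : ℕ}
    (hC : ∀ i, C (i + m) = C i) (k : ℕ) :
    ∑ i ∈ Finset.range (k + p * m), C i = ∑ i ∈ Finset.range k, C i := by
  have hper : ∀ t i, C (i + t * m) = C i := fun t => by
    induction t with
    | zero => simp
    | succ t ih => intro i; rw [Nat.succ_mul, ← add_assoc, hC, ih]
  have hblock : ∀ t, ∑ i ∈ Finset.range (t * m), C i = t • ∑ i ∈ Finset.range m, C i := fun t => by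
    induction t with
    | zero => simp
    | succ t ih =>
      rw [Nat.succ_mul, Finset.sum_range_add, ih, succ_nsmul]
      simp only [add_comm (t * m), hper]
  rw [add_comm k, Finset.sum_range_add, hblock, ← Nat.cast_smul_eq_nsmul (ZMod p),
    ZMod.natCast_self, zero_smul, zero_add]
  exact Finset.sum_congr rfl fun i _ => by rw [add_comm, hper]

/-- Two unramified classes cup to zero. -/
theorem cup11_urZ_mem_B2 (P : Pairing (cycloChar p) ρ σ) (q : Nat.Primes) (hq : (q : ℕ) ≠ p)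
    (hρ : Smooth lvlQ ρ) (hσ : Smooth lvlQ σ) (hur : ∀ s ∈ inertiaG q, ρ (loc q s) = 1)
    (hur' : ∀ s ∈ inertiaG q, σ (loc q s) = 1)
    {x : Z1 (lvlLoc q) (ρ.comp (loc q))} (hx : x ∈ urZ p q ρ)
    {y : Z1 (lvlLoc q) (σ.comp (loc q))} (hy : y ∈ urZ p q σ) :
    cup11 (P.comp (loc q)) (x : Gl q → V) (y : Gl q → W) ∈ B2 (lvlLoc q) (muLoc p q) := by
  obtain ⟨F, hdec⟩ := exists_frobenius_dec q
  obtain ⟨a, ha0, ha⟩ := exists_urZ_eq p (ρ := ρ) q hρ hur hdec
  obtain ⟨b, hb0, hb⟩ := exists_urZ_eq p (ρ := σ) q hσ hur' hdec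
  obtain ⟨e, he0, hσn, hσg⟩ := exists_period p (ρ := σ) q hσ hur' (F := F)
  obtain ⟨c, hc0, -, hμg⟩ := exists_period p q (smooth_muRep p) (muRep_inertia p q hq) (F := F)
  set m := p * a * (p * b) * e * c with hm
  haveI : NeZero (p * m) := ⟨by
    simp [hm, (Fact.out : p.Prime).ne_zero, ha0, hb0, he0, hc0]⟩
  obtain ⟨d, hadd, hF, hI, hdc, hd⟩ := exists_degree q hdec (p * m)
  obtain ⟨hρg, hperA, hexA⟩ := ha (p * m) d ⟨p * (p * b) * e * c, by rw [hm]; ring⟩ hadd hF hI hdc hd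
  obtain ⟨-, hperB, hexB⟩ := hb (p * m) d ⟨p * (p * a) * e * c, by rw [hm]; ring⟩ hadd hF hI hdc hd
  have hB := hσg (p * m) d ⟨p * (p * a * (p * b) * c), by rw [hm]; ring⟩ hd
  have hχ := hμg (p * m) d ⟨p * (p * a * (p * b) * e), by rw [hm]; ring⟩ hd
  set A := ρ.comp (loc q) F
  set B := σ.comp (loc q) F
  set χ : ZMod p := (cycloChar p (loc q F) : ZMod p)
  have hxg : ∀ g, (x : Gl q → V) g = geoSum p A ((x : Gl q → V) F) (d g).val := fun g => by
    obtain ⟨x', hx', hx'F, hx'g⟩ := hexA ((x : Gl q → V) F)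
    have h0 := eq_zero_of_frobenius p q hdec (x - x').2
      ((mem_urZ p).1 (sub_mem hx hx'))
      (show (x : Gl q → V) F - (x' : Gl q → V) F = 0 by rw [hx'F, sub_self])
    rw [show (x : Gl q → V) g = (x' : Gl q → V) g from sub_eq_zero.1 (congrFun h0 g)]
    exact hx'g g _ (ZMod.natCast_zmod_val _)
  have hyg : ∀ g (k : ℕ), (k : ZMod (p * m)) = d g →
      (y : Gl q → W) g = geoSum p B ((y : Gl q → W) F) k := fun g k hk => by
    obtain ⟨y', hy', hy'F, hy'g⟩ := hexB ((y : Gl q → W) F)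
    have h0 := eq_zero_of_frobenius p q hdec (y - y').2
      ((mem_urZ p).1 (sub_mem hy hy'))
      (show (y : Gl q → W) F - (y' : Gl q → W) F = 0 by rw [hy'F, sub_self])
    rw [show (y : Gl q → W) g = (y' : Gl q → W) g from sub_eq_zero.1 (congrFun h0 g)]
    exact hy'g g k hk
  set α := (x : Gl q → V) F
  set β := (y : Gl q → W) F
  set C : ℕ → ℕ → ZMod p := fun j k => P.e (geoSum p A α j) ((B ^ j) (geoSum p B β k)) with hC
  let f : ℕ → ZMod p := fun k => -∑ i ∈ Finset.range k, C i 1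
  have hE : ∀ (j : ℕ) v w, P.e ((A ^ j) v) ((B ^ j) w) = χ ^ j * P.e v w := fun j => by
    induction j with
    | zero => intro v w; simp
    | succ j ih =>
      intro v w
      rw [pow_succ, pow_succ, Module.End.mul_apply, Module.End.mul_apply, ih, pow_succ, mul_assoc]
      congr 1
      exact P.equivariant (loc q F) v w
  have hid : ∀ j k, C j k = χ ^ j * f k - f (j + k) + f j := fun j k => by
    induction k with
    | zero => simp [hC, f, geoSum]
    | succ k ih =>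
      have h1 : f (j + (k + 1)) = f (j + k) - C (j + k) 1 := by
        simp only [f, ← add_assoc, Finset.sum_range_succ]; ring
      have h2 : f (k + 1) = f k - C k 1 := by simp only [f, Finset.sum_range_succ]; ring
      have h3 : C j (k + 1) = C j k + P.e (geoSum p A α j) ((B ^ (j + k)) β) := by
        simp only [hC, geoSum, Finset.sum_range_succ, map_add, pow_add, Module.End.mul_apply]
      have h4 : C (j + k) 1 = P.e (geoSum p A α j) ((B ^ (j + k)) β) + χ ^ j * C k 1 := by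
        have h5 : geoSum p B β 1 = β := by simp [geoSum]
        simp only [hC, h5, geoSum_add, map_add, LinearMap.add_apply]
        rw [← hE, ← Module.End.mul_apply, ← pow_add, add_comm]
      rw [h1, h2, h3, ih]
      linear_combination -h4
  have hper : ∀ i, C (i + m) 1 = C i 1 := fun i => by
    simp only [hC]
    rw [hperA (i + m) i (by
        rw [Nat.cast_add, hm]
        simp only [Nat.cast_mul, add_eq_left]
        rw [← Nat.cast_mul, ZMod.natCast_self]; ring) α,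
      show B ^ (i + m) = B ^ i by
        rw [pow_add, show m = e * (p * a * (p * b) * c) by rw [hm]; ring, pow_mul, hσn, one_pow,
          mul_one]]
  have hfper : ∀ i j : ℕ, (i : ZMod (p * m)) = j → f i = f j := fun i j h => by
    have hmod : ∀ k, f k = f (k % (p * m)) := fun k => by
      conv_lhs => rw [← Nat.mod_add_div k (p * m)]
      generalize k / (p * m) = t
      induction t with
      | zero => simp
      | succ t ih =>
        show -_ = _
        rw [Nat.mul_succ, ← add_assoc, sum_range_add_periodic p (C := fun i => C i 1) hper]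
        exact ih
    rw [hmod i, hmod j, (ZMod.natCast_eq_natCast_iff' i j _).1 h]
  refine (mem_B2 _ _).2 ⟨fun g => f (d g).val, ?_, funext fun ⟨g, h⟩ => ?_⟩
  · obtain ⟨U, hU, hdU⟩ := hdc
    exact ⟨U, hU, fun g s hs => by simp only [hdU g s hs]⟩
  · have hμ : ((muLoc p q) g) (f (d h).val) = χ ^ (d g).val * f (d h).val := by
      have e1 : ∀ (k : ℕ) (u : ZMod p), ((muRep p).comp (loc q) F ^ k) u = χ ^ k * u := fun k => by
        induction k with
        | zero => intro u; simp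
        | succ k ih =>
          intro u
          rw [pow_succ, Module.End.mul_apply, ih]
          show _ * ((cycloChar p (loc q F) : ZMod p) * u) = _
          ring
      rw [← e1, ← hχ g (d g).val (ZMod.natCast_zmod_val _)]
      rfl
    show muLoc p q g (f (d h).val) - f (d (g * h)).val + f (d g).val =
      P.e ((x : Gl q → V) g) (σ.comp (loc q) g ((y : Gl q → W) h))
    rw [hμ, hxg g, hB g (d g).val (ZMod.natCast_zmod_val _), hyg h _ (ZMod.natCast_zmod_val _),
      hfper (d (g * h)).val ((d g).val + (d h).val)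
        (by rw [Nat.cast_add, ZMod.natCast_zmod_val, ZMod.natCast_zmod_val, ZMod.natCast_zmod_val,
          hadd])]
    exact (hid _ _).symm

/-- Frobenius invariants of an unramified module are invariants. -/
theorem fixedBy_eq_ker (q : Nat.Primes) {F : Gl q}
    (hdec : ∀ U ∈ lvlQ, ∀ g : Gl q, ∃ (j : ℕ) (i : Gl q), i ∈ inertiaG q ∧
      (F ^ j * i)⁻¹ * g ∈ U.comap (loc q))
    (hρ : Smooth lvlQ ρ) (hur : ∀ s ∈ inertiaG q, ρ (loc q s) = 1) :
    fixedBy (ρ.comp (loc q)) ⊤ = LinearMap.ker (ρ.comp (loc q) F - 1) := by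
  ext v
  rw [mem_fixedBy, LinearMap.mem_ker, LinearMap.sub_apply, Module.End.one_apply, sub_eq_zero]
  refine ⟨fun h => h F trivial, fun hv g _ => ?_⟩
  obtain ⟨U, hU, hUv⟩ := hρ v
  obtain ⟨j, i, hi, hu⟩ := hdec U hU g
  have hj : ρ.comp (loc q) (F ^ j) v = v := by
    clear hu
    induction j with
    | zero => rw [pow_zero, map_one, Module.End.one_apply]
    | succ j ih => rw [pow_succ, map_mul, Module.End.mul_apply, hv, ih]
  conv_lhs => rw [← mul_inv_cancel_left (F ^ j * i) g]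
  rw [map_mul, map_mul, Module.End.mul_apply, Module.End.mul_apply,
    show ρ.comp (loc q) ((F ^ j * i)⁻¹ * g) v = v from hUv _ hu,
    show ρ.comp (loc q) i = 1 from hur i hi, Module.End.one_apply, hj]

/-- Cocycles are determined by their values at Frobenius and at a tame generator. -/
theorem finrank_Z1_le (P : Pairing (cycloChar p) ρ σ) (hP : P.Perfect) (q : Nat.Primes)
    (hq : (q : ℕ) ≠ p) (hσ : Smooth lvlQ σ) (hur : ∀ s ∈ inertiaG q, ρ (loc q s) = 1) :
    Finite (Z1 (lvlLoc q) (ρ.comp (loc q))) ∧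
      finrank (ZMod p) (Z1 (lvlLoc q) (ρ.comp (loc q))) ≤
        finrank (ZMod p) V + finrank (ZMod p) (fixedBy (σ.comp (loc q)) ⊤) := by
  obtain ⟨F, T, -, hχ, hdec, -, hstr⟩ := exists_frobenius_tame p (ρ := ρ) q hq hur
  set A := ρ.comp (loc q) F with hA
  set B := σ.comp (loc q) F with hB
  set K : Submodule (ZMod p) V := LinearMap.ker (A - ((q : ℕ) : ZMod p) • 1)
  let E : Z1 (lvlLoc q) (ρ.comp (loc q)) →ₗ[ZMod p] V × K :=
    (((LinearMap.proj F).comp (Z1 (lvlLoc q) (ρ.comp (loc q))).subtype)).prod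
      (LinearMap.codRestrict K ((LinearMap.proj T).comp (Z1 (lvlLoc q) (ρ.comp (loc q))).subtype)
        fun y => by
          show _ = (0 : V)
          simp only [LinearMap.sub_apply, LinearMap.smul_apply, Module.End.one_apply, sub_eq_zero]
          exact (hstr _ y.2).1)
  have hE : Function.Injective E := (injective_iff_map_eq_zero _).2 fun y hy => by
    obtain ⟨h1, h2⟩ := Prod.ext_iff.1 hy
    exact Subtype.ext ((hstr _ y.2).2.2 h1 (congrArg Subtype.val h2))
  haveI : Finite (Z1 (lvlLoc q) (ρ.comp (loc q))) := Finite.of_injective E hE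
  refine ⟨inferInstance, ?_⟩
  haveI : Module.Finite (ZMod p) V := Module.Finite.of_finite
  haveI : Module.Finite (ZMod p) W := Module.Finite.of_finite
  have h := LinearMap.finrank_le_finrank_of_injective hE
  rw [Module.finrank_prod] at h
  suffices hK : finrank (ZMod p) K ≤ finrank (ZMod p) (fixedBy (σ.comp (loc q)) ⊤) by omega
  rw [fixedBy_eq_ker p q hdec hσ (unramified_of_pairing p P hP q hq hur)]
  have hq0 : ((q : ℕ) : ZMod p) ≠ 0 := fun h0 =>
    hq ((Nat.prime_dvd_prime_iff_eq Fact.out q.2).1 ((ZMod.natCast_eq_zero_iff _ _).1 h0)).symm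
  have hmem : ∀ v : K, P.e v.1 ∈ (LinearMap.range (B - 1)).dualAnnihilator := fun v => by
    rw [Submodule.mem_dualAnnihilator]
    rintro _ ⟨w, rfl⟩
    have hv : A v.1 = ((q : ℕ) : ZMod p) • v.1 := sub_eq_zero.1 (LinearMap.mem_ker.1 v.2)
    have he : P.e (A v.1) (B w) = (cycloChar p (loc q F) : ZMod p) * P.e v.1 w :=
      P.equivariant (loc q F) v.1 w
    rw [hv, map_smul, LinearMap.smul_apply, smul_eq_mul, hχ] at he
    rw [LinearMap.sub_apply, Module.End.one_apply, map_sub, mul_left_cancel₀ hq0 he, sub_self]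
  have h1 := LinearMap.finrank_le_finrank_of_injective
    (f := LinearMap.codRestrict _ (P.e.comp K.subtype) hmem)
    (fun a b hab => Subtype.ext (hP.1.1 (congrArg Subtype.val hab)))
  have h2 := Subspace.finrank_add_finrank_dualAnnihilator_eq (LinearMap.range (B - 1))
  have h3 := LinearMap.finrank_range_add_finrank_ker (B - 1)
  have h4 : finrank (ZMod p) K ≤ finrank (ZMod p) ((LinearMap.range (B - 1)).dualAnnihilator) := h1
  have h5 : finrank (ZMod p) ((LinearMap.range (B - 1)).dualAnnihilator) =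
      finrank (ZMod p) (LinearMap.ker (B - 1)) :=
    Nat.add_left_cancel (h2.trans h3.symm)
  exact h4.trans h5.le

/-- The dimension of the space of coboundaries. -/
theorem finrank_B1_add (q : Nat.Primes) (hρ : Smooth lvlQ ρ)
    [Finite (Z1 (lvlLoc q) (ρ.comp (loc q)))] :
    finrank (ZMod p) (H1L ρ q) + finrank (ZMod p) V =
      finrank (ZMod p) (Z1 (lvlLoc q) (ρ.comp (loc q))) +
        finrank (ZMod p) (fixedBy (ρ.comp (loc q)) ⊤) := by
  set σl := ρ.comp (loc q)
  haveI : Module.Finite (ZMod p) V := Module.Finite.of_finite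
  haveI : Module.Finite (ZMod p) (Z1 (lvlLoc q) σl) := Module.Finite.of_finite
  have hd0 : ∀ m, d0 σl m ∈ Z1 (lvlLoc q) σl := fun m => by
    refine ⟨LinearMap.mem_ker.2 (d1_d0 _ _), ?_⟩
    obtain ⟨U, hU, hfix⟩ := hρ m
    exact ⟨_, ⟨U, hU, rfl⟩, fun g s hs => by
      simp only [d0_apply, σl, MonoidHom.comp_apply, map_mul, Module.End.mul_apply, hfix _ hs]⟩
  let D := (d0 σl).codRestrict (Z1 (lvlLoc q) σl) hd0
  have hDker : LinearMap.ker D = fixedBy σl ⊤ := by
    ext m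
    rw [LinearMap.mem_ker, mem_fixedBy]
    exact ⟨fun h s _ => sub_eq_zero.1 (congrFun (congrArg Subtype.val h) s),
      fun h => Subtype.ext (funext fun s => sub_eq_zero.2 (h s trivial))⟩
  have hDr : (B1 σl).comap (Z1 (lvlLoc q) σl).subtype = LinearMap.range D := by
    ext z
    exact ⟨fun ⟨v, hv⟩ => ⟨v, Subtype.ext hv⟩, fun ⟨v, hv⟩ => ⟨v, congrArg Subtype.val hv⟩⟩
  have h3 := LinearMap.finrank_range_add_finrank_ker (K := ZMod p) (V := V)
    (V₂ := Z1 (lvlLoc q) σl) D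
  have h6 : finrank (ZMod p) (H1L ρ q) +
      finrank (ZMod p) ((B1 σl).comap (Z1 (lvlLoc q) σl).subtype) =
      finrank (ZMod p) (Z1 (lvlLoc q) σl) := Submodule.finrank_quotient_add_finrank _
  have h8 : finrank (ZMod p) ((B1 σl).comap (Z1 (lvlLoc q) σl).subtype) =
      finrank (ZMod p) (LinearMap.range D) := by rw [hDr]
  rw [hDker] at h3
  calc finrank (ZMod p) (H1L ρ q) + finrank (ZMod p) V
      = finrank (ZMod p) (H1L ρ q) + (finrank (ZMod p) (LinearMap.range D) +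
          finrank (ZMod p) (fixedBy σl ⊤)) := congrArg _ h3.symm
    _ = _ := by rw [← add_assoc, ← h8, h6]

/-- The local Euler characteristic bound away from `p`, for an unramified module. -/
theorem finrank_H1L_le (P : Pairing (cycloChar p) ρ σ) (hP : P.Perfect) (q : Nat.Primes)
    (hq : (q : ℕ) ≠ p) (hρ : Smooth lvlQ ρ) (hσ : Smooth lvlQ σ)
    (hur : ∀ s ∈ inertiaG q, ρ (loc q s) = 1) :
    finrank (ZMod p) (H1L ρ q) ≤ finrank (ZMod p) (fixedBy (ρ.comp (loc q)) ⊤) +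
      finrank (ZMod p) (fixedBy (σ.comp (loc q)) ⊤) := by
  obtain ⟨hfin, hle⟩ := finrank_Z1_le p P hP q hq hσ hur
  have := finrank_B1_add p q hρ
  omega

/-- Unramified classes are their own annihilator. -/
theorem orth_unrCond (hp : p ≠ 2) (P : Pairing (cycloChar p) ρ σ) (hP : P.Perfect)
    (hρ : Smooth lvlQ ρ) (hσ : Smooth lvlQ σ) (q : Nat.Primes) (hq : (q : ℕ) ≠ p)
    (hur : ∀ s ∈ inertiaG q, ρ (loc q s) = 1) :
    orth P (unrCond ρ) q = unrCond σ q := by
  classical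
  have hur' := unramified_of_pairing p P hP q hq hur
  obtain ⟨hfin, hle⟩ := finrank_Z1_le p P.flip ⟨hP.2, hP.1⟩ q hq hρ hur'
  haveI : Module.Finite (ZMod p) (Z1 (lvlLoc q) (σ.comp (loc q))) := Module.Finite.of_finite
  haveI := finite_urZ p (ρ := ρ) q
  haveI : Module.Finite (ZMod p) (urZ p q ρ) := Module.Finite.of_finite
  haveI := FLTA.PT.finite_H2_muLoc p q hp
  haveI : Module.Finite (ZMod p) (H2c (lvlLoc q) (muLoc p q)) := Module.Finite.of_finite
  let ι : H2c (lvlLoc q) (muLoc p q) ≃ₗ[ZMod p] ZMod p :=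
    LinearEquiv.ofFinrankEq _ _ (by rw [FLTA.PT.finrank_H2_muLoc p q hp, Module.finrank_self])
  have hZ : ∀ (x : Z1 (lvlLoc q) (ρ.comp (loc q))) (y : Z1 (lvlLoc q) (σ.comp (loc q))),
      cup11 (P.comp (loc q)) (x : Gl q → V) (y : Gl q → W) ∈ Z2 (lvlLoc q) (muLoc p q) :=
    fun x y => cup11_mem_Z2 _ (smooth_comap hσ (loc q)) x.2 y.2
  let cl : Z1 (lvlLoc q) (ρ.comp (loc q)) → Z1 (lvlLoc q) (σ.comp (loc q)) → ZMod p := fun x y =>
    ι (H2cπ (lvlLoc q) (muLoc p q) ⟨_, hZ x y⟩)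
  let Ψ : Z1 (lvlLoc q) (σ.comp (loc q)) →ₗ[ZMod p] Module.Dual (ZMod p) (urZ p q ρ) :=
    LinearMap.mk₂ (ZMod p) (fun y (x : urZ p q ρ) => cl x.1 y)
      (fun a b x => by
        simp only [cl, ← map_add]; congr 2; exact Subtype.ext (cup11_add_right _ _ _ _))
      (fun r a x => by
        simp only [cl, ← map_smul]; congr 2; exact Subtype.ext (cup11_smul_right _ _ _ _))
      (fun y a b => by
        simp only [cl, ← map_add]; congr 2; exact Subtype.ext (cup11_add_left _ _ _ _))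
      (fun r y a => by
        simp only [cl, ← map_smul]; congr 2; exact Subtype.ext (cup11_smul_left _ _ _ _))
  have hcl : ∀ x y, cl x y = 0 ↔
      cup11 (P.comp (loc q)) (x : Gl q → V) (y : Gl q → W) ∈ B2 (lvlLoc q) (muLoc p q) :=
    fun x y => (LinearEquiv.map_eq_zero_iff ι).trans (H2cπ_eq_zero _ _)
  have hker : LinearMap.ker Ψ = orthZ P q (unrCond ρ q) := by
    ext y
    rw [LinearMap.mem_ker]
    constructor
    · intro h x hx
      obtain ⟨x', hx', e⟩ := hx
      have h1 : cup11 (P.comp (loc q)) (x' : Gl q → V) (y : Gl q → W) ∈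
          B2 (lvlLoc q) (muLoc p q) := (hcl x' y).1 (LinearMap.congr_fun h ⟨x', hx'⟩)
      have h2 : ((x : Gl q → V) - (x' : Gl q → V)) ∈ B1 (ρ.comp (loc q)) :=
        (H1cπ_eq_zero _ _ (f := x - x')).1 (by rw [map_sub, e, sub_self])
      have h3 := cup11_mem_B2_of_mem_B1_left (L := lvlLoc q) (P.comp (loc q)) h2 y.2
      rw [cup11_sub_left] at h3
      simpa using add_mem h3 h1
    · intro h
      refine LinearMap.ext fun x => (hcl x.1 y).2 (h x.1 ⟨x.1, x.2, rfl⟩)
  have hur_le : urZ p q σ ≤ orthZ P q (unrCond ρ q) := fun y hy => by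
    rw [← hker, LinearMap.mem_ker]
    exact LinearMap.ext fun x =>
      (hcl x.1 y).2 (cup11_urZ_mem_B2 p P q hq hρ hσ hur hur' x.2 hy)
  -- the rank of `Ψ` is the dimension of the unramified classes
  have hΨt : LinearMap.ker Ψ.flip =
      LinearMap.ker ((H1cπ (lvlLoc q) (ρ.comp (loc q))).comp (urZ p q ρ).subtype) := by
    ext x
    rw [LinearMap.mem_ker, LinearMap.mem_ker, LinearMap.comp_apply, Submodule.subtype_apply,
      H1cπ_eq_zero]
    refine ⟨fun h => mem_B1_of_forall_cup11_left p q (P.comp (loc q)) hp ⟨hP.1, hP.2⟩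
      (smooth_comap hρ _) (smooth_comap hσ _) _ x.1.2 fun b hb =>
        (hcl x.1 ⟨b, hb⟩).1 (LinearMap.congr_fun h ⟨b, hb⟩), fun h => LinearMap.ext fun y =>
        (hcl x.1 y).2 (cup11_mem_B2_of_mem_B1_left (L := lvlLoc q) (P.comp (loc q)) h y.2)⟩
  have hrank : finrank (ZMod p) (unrCond ρ q) ≤ finrank (ZMod p) (LinearMap.range Ψ) := by
    have h1 := LinearMap.finrank_range_add_finrank_ker Ψ.flip
    have h2 := LinearMap.finrank_range_add_finrank_ker
      ((H1cπ (lvlLoc q) (ρ.comp (loc q))).comp (urZ p q ρ).subtype)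
    rw [LinearMap.range_comp, Submodule.range_subtype, ← unrCond_eq_map, ← hΨt] at h2
    have h3 : finrank (ZMod p) (LinearMap.range Ψ.flip) ≤ finrank (ZMod p) (LinearMap.range Ψ) := by
      rw [← LinearMap.finrank_range_dualMap_eq_finrank_range Ψ,
        show Ψ.flip = Ψ.dualMap ∘ₗ Module.Dual.eval (ZMod p) (urZ p q ρ) from rfl]
      exact Submodule.finrank_mono (LinearMap.range_comp_le_range _ _)
    have h2' : finrank (ZMod p) (unrCond ρ q) + finrank (ZMod p) (LinearMap.ker Ψ.flip) =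
      finrank (ZMod p) (urZ p q ρ) := h2
    omega
  have heq : orthZ P q (unrCond ρ q) = urZ p q σ := by
    refine (Submodule.eq_of_le_of_finrank_le hur_le ?_).symm
    have h1 := LinearMap.finrank_range_add_finrank_ker Ψ
    rw [hker] at h1
    rw [finrank_urZ p q hσ hur']
    rw [finrank_unrCond_eq p q hρ hur] at hrank
    omega
  rw [orth, heq, ← unrCond_eq_map]

end FLTA.TW

end
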