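import Fermat.Agent.TaylorWiles.Euler
import Fermat.Agent.TaylorWiles.SelmerLocal
import Fermat.Agent.TaylorWiles.SelmerLevel
import Fermat.Agent.PoitouTate.Main

/-!
# The Greenberg-Wiles count

The Selmer inequality, from the Euler characteristic at a large level and duality for `Ш`.
-/

set_option autoImplicit false
set_option linter.style.haveILetI false

open ExtCitation Module

noncomputable section

namespace FLTA.TW.Count

open FLTA.PT

variable {p : ℕ} [Fact p.Prime]
variable {V W : Type} [AddCommGroup V] [Module (ZMod p) V] [AddCommGroup W] [Module (ZMod p) W]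
variable {ρ : Representation (ZMod p) GQ V} {σ : Representation (ZMod p) GQ W}

/-- The orthogonal of a product of local conditions, at a single place. -/
theorem mem_orth_of_pair {T : Finset Nat.Primes} (P : Pairing (cycloChar p) ρ σ)
    (I : InvSystem p T) (hσ : Smooth (lvlS T) σ) (L : Cond ρ) (q : T) (c : H1L σ q.1)
    (h : ∀ x ∈ L q.1, pair11 P I hσ q.1 x c = 0) : c ∈ orth P L q.1 := by
  obtain ⟨y, rfl⟩ := Submodule.mkQ_surjective _ c
  refine ⟨y, fun x hx => ?_, rfl⟩
  have h1 := h _ hx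
  exact (invOf_eq_zero_iff I q.2 (cup11_mem_Z2 _ (smooth_loc hσ q.1) x.2 y.2)).1
    ((pair11_mk P I hσ q.1 x y).symm.trans h1)

/-- `orth` at `q` only depends on the condition at `q`. -/
theorem orth_congr (P : Pairing (cycloChar p) ρ σ) {L L' : Cond ρ} {q : Nat.Primes}
    (h : L q = L' q) : orth P L q = orth P L' q := by
  unfold orth
  rw [h]

variable [Finite V] [Finite W]

omit [Finite V] [Finite W] in
theorem two_ne_zero' (p : ℕ) [Fact p.Prime] (hp : p ≠ 2) : (2 : ZMod p) ≠ 0 := by
  intro h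
  have : ((2 : ℕ) : ZMod p) = 0 := by exact_mod_cast h
  rw [ZMod.natCast_eq_zero_iff] at this
  exact hp ((Nat.prime_dvd_prime_iff_eq (Fact.out : p.Prime) Nat.prime_two).1 this)

/-- The counting inequality at a fixed level `T`. -/
theorem finrank_selmer_add_le {T : Finset Nat.Primes}
    (P : Pairing (cycloChar p) ρ σ) (I : InvSystem p T)
    (hρ : Smooth (lvlS T) ρ) (hσ : Smooth (lvlS T) σ) (L' : Cond ρ) (M' : Cond σ)
    (hM : ∀ q ∈ T, orth P L' q ≤ M' q)
    (hlift : ∀ c ∈ selmer ρ L', ∃ c₀, inflS ρ T c₀ = c)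
    (hlift' : ∀ c ∈ selmer σ M', ∃ c₀, inflS σ T c₀ = c)
    (hunr : ∀ c₀ : H1c (lvlS T) σ, (∀ q ∈ T, locH1 T σ q c₀ ∈ M' q) →
      inflS σ T c₀ ∈ selmer σ M') :
    finrank (ZMod p) (selmer ρ L') + finrank (ZMod p) (H1c (lvlS T) σ) ≤
      finrank (ZMod p) (shaOne p T ρ) + (∑ q ∈ T, finrank (ZMod p) (L' q)) +
        finrank (ZMod p) (selmer σ M') := by
  classical
  haveI := finite_Z1S T ρ hρ
  haveI := finite_Z1S T σ hσ
  haveI : Finite (H1c (lvlS T) ρ) := Finite.of_surjective _ (Submodule.mkQ_surjective _)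
  haveI : Finite (H1c (lvlS T) σ) := Finite.of_surjective _ (Submodule.mkQ_surjective _)
  haveI : Module.Finite (ZMod p) (H1c (lvlS T) ρ) := Module.Finite.of_finite
  haveI : Module.Finite (ZMod p) (H1c (lvlS T) σ) := Module.Finite.of_finite
  haveI := finite_P1 (ρ := ρ) (S := T) hρ
  haveI := finite_P1 (ρ := σ) (S := T) hσ
  haveI : Module.Finite (ZMod p) (P1 T ρ) := Module.Finite.of_finite
  haveI : Module.Finite (ZMod p) (P1 T σ) := Module.Finite.of_finite
  let locR : H1c (lvlS T) ρ →ₗ[ZMod p] P1 T ρ := LinearMap.pi fun q => locH1 T ρ q.1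
  let locS : H1c (lvlS T) σ →ₗ[ZMod p] P1 T σ := LinearMap.pi fun q => locH1 T σ q.1
  let Sel₀ : Submodule (ZMod p) (H1c (lvlS T) ρ) := (selmer ρ L').comap (inflS ρ T)
  let Lsub : Submodule (ZMod p) (P1 T ρ) :=
    ⨅ q : T, (L' q.1).comap (LinearMap.proj (φ := fun q : T => H1At ρ q.1) q)
  have hLsub : ∀ v : P1 T ρ, v ∈ Lsub ↔ ∀ q : T, v q ∈ L' q.1 := fun v => by
    simp [Lsub, Submodule.mem_iInf]
  -- the Selmer group lives at level `T`
  have hSel : finrank (ZMod p) (selmer ρ L') = finrank (ZMod p) Sel₀ := by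
    have : Sel₀.map (inflS ρ T) = selmer ρ L' := by
      refine le_antisymm (Submodule.map_comap_le _ _) fun c hc => ?_
      obtain ⟨c₀, rfl⟩ := hlift c hc
      exact ⟨c₀, hc, rfl⟩
    rw [← this]
    exact (Submodule.equivMapOfInjective _ (inflS_injective T) Sel₀).finrank_eq.symm
  -- pairing `Lsub` with global classes of `σ`
  let f : Lsub →ₗ[ZMod p] (H1c (lvlS T) σ →ₗ[ZMod p] ZMod p) :=
    ((pairP1 P I hσ).compl₂ locS).comp Lsub.subtype
  have hglob : ∀ a b, pairP1 P I hσ (locR a) (locS b) = 0 := fun a b => by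
    obtain ⟨x, rfl⟩ := Submodule.mkQ_surjective _ a
    obtain ⟨y, rfl⟩ := Submodule.mkQ_surjective _ b
    rw [pairP1_apply]
    refine Eq.trans ?_ ((Finset.sum_coe_sort T fun q =>
      invOf I q (cup11 (P.comp (loc q)) (rs1 p q x.1) (rs1 p q y.1))).trans
      (sum_invOf_cup11_global P I hσ x.2 y.2))
    refine Finset.sum_congr rfl fun q _ => ?_
    exact pair11_mk P I hσ q.1 _ _
  -- the kernel of the Selmer localisation
  let g : Sel₀ →ₗ[ZMod p] LinearMap.ker f := LinearMap.codRestrict _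
    (LinearMap.codRestrict Lsub (locR.comp Sel₀.subtype) fun c => (hLsub _).2 fun q => by
      have := (mem_selmer ρ).1 c.2 q.1
      rwa [locQ_inflS] at this)
    fun c => LinearMap.mem_ker.2 (LinearMap.ext fun b => hglob c.1 b)
  have hg : finrank (ZMod p) (LinearMap.ker g) ≤ finrank (ZMod p) (shaOne p T ρ) := by
    let j : LinearMap.ker g →ₗ[ZMod p] shaOne p T ρ :=
      LinearMap.codRestrict _ (Sel₀.subtype.comp (LinearMap.ker g).subtype) fun c => by
        have h := congrArg Subtype.val (congrArg Subtype.val (LinearMap.mem_ker.1 c.2))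
        simp only [shaOne, Submodule.mem_iInf, LinearMap.mem_ker]
        exact fun q hq => congrFun h ⟨q, hq⟩
    exact LinearMap.finrank_le_finrank_of_injective (f := j) fun a b h =>
      Subtype.ext (Subtype.ext (congrArg Subtype.val h :))
  have hg' := LinearMap.finrank_range_add_finrank_ker g
  have hg'' : finrank (ZMod p) (LinearMap.range g) ≤ finrank (ZMod p) (LinearMap.ker f) :=
    Submodule.finrank_le _
  have hf := LinearMap.finrank_range_add_finrank_ker f
  -- the transpose
  let f' : H1c (lvlS T) σ →ₗ[ZMod p] Module.Dual (ZMod p) Lsub :=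
    f.dualMap.comp (Module.Dual.eval (ZMod p) (H1c (lvlS T) σ))
  have hf' := LinearMap.finrank_range_add_finrank_ker f'
  have hrk : finrank (ZMod p) (LinearMap.range f') ≤ finrank (ZMod p) (LinearMap.range f) := by
    rw [← LinearMap.finrank_range_dualMap_eq_finrank_range f]
    exact Submodule.finrank_mono (LinearMap.range_comp_le_range _ _)
  have hker : ∀ b ∈ LinearMap.ker f', inflS σ T b ∈ selmer σ M' := fun b hb =>
    hunr b fun q hq => hM q hq <| mem_orth_of_pair P I hσ L' ⟨q, hq⟩ _ fun x hx => by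
      let v : P1 T ρ := Pi.single (⟨q, hq⟩ : T) x
      have hv : v ∈ Lsub := (hLsub v).2 fun q' => by
        rcases eq_or_ne q' ⟨q, hq⟩ with rfl | hne
        · simpa [v] using hx
        · simp [v, Pi.single_eq_of_ne hne]
      have h := LinearMap.congr_fun (LinearMap.mem_ker.1 hb) (⟨v, hv⟩ : Lsub)
      change pairP1 P I hσ v (locS b) = 0 at h
      rw [pairP1_apply, Finset.sum_eq_single (⟨q, hq⟩ : T)
        (fun q' _ hne => by rw [show v q' = 0 from Pi.single_eq_of_ne hne _, map_zero,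
          LinearMap.zero_apply])
        (fun h => absurd (Finset.mem_univ _) h)] at h
      rw [show v ⟨q, hq⟩ = x from Pi.single_eq_same _ _] at h
      exact h
  haveI : Finite (selmer σ M') := by
    refine Finite.of_surjective
      (fun c₀ : (selmer σ M').comap (inflS σ T) => (⟨inflS σ T c₀.1, c₀.2⟩ : selmer σ M'))
      fun c => ?_
    obtain ⟨c₀, hc₀⟩ := hlift' c.1 c.2
    exact ⟨⟨c₀, show inflS σ T c₀ ∈ _ by rw [hc₀]; exact c.2⟩, Subtype.ext hc₀⟩
  haveI : Module.Finite (ZMod p) (selmer σ M') := Module.Finite.of_finite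
  have hk : finrank (ZMod p) (LinearMap.ker f') ≤ finrank (ZMod p) (selmer σ M') := by
    let j : LinearMap.ker f' →ₗ[ZMod p] selmer σ M' :=
      LinearMap.codRestrict _ ((inflS σ T).comp (LinearMap.ker f').subtype) fun b => hker b.1 b.2
    exact LinearMap.finrank_le_finrank_of_injective (f := j) fun a b h =>
      Subtype.ext (inflS_injective T (congrArg Subtype.val h :))
  -- dimension of the product of conditions
  have hL : finrank (ZMod p) Lsub = ∑ q ∈ T, finrank (ZMod p) (L' q) := by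
    let e : Lsub ≃ₗ[ZMod p] (∀ q : T, L' q.1) :=
      { toFun := fun v q => ⟨v.1 q, (hLsub _).1 v.2 q⟩
        invFun := fun w => ⟨fun q => (w q).1, (hLsub _).2 fun q => (w q).2⟩
        left_inv := fun v => rfl
        right_inv := fun w => rfl
        map_add' := fun _ _ => rfl
        map_smul' := fun _ _ => rfl }
    have : ∀ q : T, Module.Finite (ZMod p) (L' q.1) := fun q => by
      haveI := finite_H1L p q.1 (smooth_lvlQ_of_smooth_lvlS hρ)
      exact Module.Finite.of_finite
    have : ∀ q : T, Module.Free (ZMod p) (L' q.1) := fun q => Module.Free.of_divisionRing _ _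
    rw [e.finrank_eq, Module.finrank_pi_fintype,
      Finset.sum_coe_sort T fun q => finrank (ZMod p) (L' q)]
  rw [hSel, ← hL]
  omega

/-- Greenberg-Wiles, from the Euler characteristic at a large level. -/
theorem finrank_selmer_condAt_le (hp : p ≠ 2) (P : Pairing (cycloChar p) ρ σ) (hP : P.Perfect)
    (S : Finset Nat.Primes) (hpS : pPrime p ∈ S) (hρ : Smooth (lvlS S) ρ)
    (hσ : Smooth (lvlS S) σ) (L : Cond ρ) :
    finrank (ZMod p) (selmer ρ (condAt ρ S L)) +
        (∑ q ∈ S, finrank (ZMod p) (fixedBy (ρ.comp (loc q)) ⊤)) +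
        finrank (ZMod p) (fixedBy σ ⊤) + finrank (ZMod p) V ≤
      (∑ q ∈ S, finrank (ZMod p) (L q)) +
        finrank (ZMod p) (selmer σ (condAt σ S (orth P L))) +
        finrank (ZMod p) (fixedBy ρ ⊤) +
        finrank (ZMod p) (fixedBy σ (Subgroup.zpowers complexConjugation)) := by
  classical
  haveI : Module.Finite (ZMod p) V := Module.Finite.of_finite
  haveI : Module.Finite (ZMod p) W := Module.Finite.of_finite
  obtain ⟨U₁, hU₁, hρU⟩ := exists_triv_level p hρ
  obtain ⟨U₂, hU₂, hσU⟩ := exists_triv_level p hσ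
  set U := U₁ ⊓ U₂ ⊓ GC.cycLvl p 1 with hUdef
  have hU : U ∈ lvlS S := (lvlS S).inf_mem _ ((lvlS S).inf_mem _ hU₁ _ hU₂) _
    (GC.cycLvl_mem_lvlS (p := p) S hpS 1)
  haveI hn : U.Normal := (lvlS S).normal_of_mem U hU
  haveI : U.FiniteIndex := (lvlS S).finiteIndex_of_mem U hU
  haveI : Fintype (GQ ⧸ U) := U.fintypeQuotientOfFiniteIndex
  have hμ : ∀ s ∈ U, cycloChar p s = 1 := fun s hs => GC.cycloChar_eq_one hs.2
  let P₀ : Sylow p (GQ ⧸ U) := default
  set K : Subgroup GQ := (P₀ : Subgroup (GQ ⧸ U)).comap (QuotientGroup.mk' U) with hK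
  have hUK : U ≤ K := fun s hs => by
    show (s : GQ ⧸ U) ∈ (P₀ : Subgroup (GQ ⧸ U))
    rw [(QuotientGroup.eq_one_iff s).2 hs]
    exact one_mem _
  have hKp : ∀ s ∈ K, ∃ k : ℕ, s ^ p ^ k ∈ U := fun s hs => by
    obtain ⟨k, hk⟩ := P₀.isPGroup' ⟨_, hs⟩
    exact ⟨k, (QuotientGroup.eq_one_iff _).1 (congrArg Subtype.val hk)⟩
  have hidx : ¬ p ∣ K.index := by
    rw [hK, Subgroup.index_comap_of_surjective _ (QuotientGroup.mk'_surjective U)]
    exact P₀.not_dvd_index
  have hUQ : U ∈ lvlQ := by simpa [Subgroup.comap_id] using lvlS_le_lvlQ S U hU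
  obtain ⟨T₁, hT₁⟩ := exists_genClass (U := U) ⟨U, hUQ, le_rfl⟩
  obtain ⟨T₂, hT₂⟩ := exists_genClass (U := K) ⟨U, hUQ, hUK⟩
  set T := S ∪ (T₁ ∪ T₂) with hT
  have hST : S ⊆ T := Finset.subset_union_left
  have hpT : pPrime p ∈ T := hST hpS
  have hUT : U ∈ lvlS T := mem_lvlS_mono hST hU
  have hGU : GenClass T U := hT₁ T fun x hx => by simp [hT, hx]
  have hGK : cardClSp p T K = 1 :=
    cardClSp_eq_one p T K ⟨U, hUQ, hUK⟩ (hT₂ T fun x hx => by simp [hT, hx])
  have hρT := smooth_lvlS_mono hST hρ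
  have hσT := smooth_lvlS_mono hST hσ
  obtain ⟨I⟩ := nonempty_invSystem p T hp hpT
  -- orthogonal conditions at the level `T`
  have hρ1 : ∀ s ∈ U, ρ s = 1 := fun s hs => hρU s hs.1.1
  have hσ1 : ∀ s ∈ U, σ s = 1 := fun s hs => hσU s hs.1.2
  have hne : ∀ q : Nat.Primes, q ∉ S → (q : ℕ) ≠ p := fun q hq h =>
    hq (by rwa [show q = pPrime p from Subtype.ext h])
  have hur : ∀ q : Nat.Primes, q ∉ S → ∀ s ∈ inertiaG q, ρ (loc q s) = 1 := fun q hq s hs =>
    hρ1 _ (Hasse.inertia_le_of_mem_lvlS hU hq (primeLocalPlace_liesOverPrime q) hs)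
  have hM : ∀ q ∈ T, orth P (condAt ρ S L) q ≤ condAt σ S (orth P L) q := fun q _ => by
    by_cases hq : q ∈ S
    · rw [orth_congr P (L' := L) (q := q) (by simp [condAt, hq])]
      simp [condAt, hq]
    · rw [orth_congr P (L' := unrCond ρ) (q := q) (by simp [condAt, hq]),
        orth_unrCond p hp P hP (smooth_lvlQ_of_smooth_lvlS hρ) (smooth_lvlQ_of_smooth_lvlS hσ) q (hne q hq)
          (hur q hq)]
      simp [condAt, hq]
  have key := finrank_selmer_add_le P I hρT hσT (condAt ρ S L) (condAt σ S (orth P L)) hM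
    (fun c hc => by
      rw [selmer_condAt_eq_map hST hρ L] at hc
      obtain ⟨c₀, -, rfl⟩ := hc
      exact ⟨c₀, rfl⟩)
    (fun c hc => by
      rw [selmer_condAt_eq_map hST hσ (orth P L)] at hc
      obtain ⟨c₀, -, rfl⟩ := hc
      exact ⟨c₀, rfl⟩)
    fun c₀ hc₀ => by
      rw [selmer_condAt_eq_map hST hσ (orth P L)]
      exact ⟨c₀, by simpa [Submodule.mem_iInf] using fun q hq => hc₀ q hq, rfl⟩
  -- local dimensions away from `S`
  have hsum : ∀ F : Nat.Primes → ℕ, ∑ q ∈ T, F q = ∑ q ∈ S, F q + ∑ q ∈ T \ S, F q := fun F => by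
    rw [add_comm, Finset.sum_sdiff hST]
  have hloc : (∑ q ∈ T, finrank (ZMod p) (condAt ρ S L q)) +
        (∑ q ∈ S, finrank (ZMod p) (fixedBy (ρ.comp (loc q)) ⊤)) =
      (∑ q ∈ S, finrank (ZMod p) (L q)) +
        ∑ q ∈ T, finrank (ZMod p) (fixedBy (ρ.comp (loc q)) ⊤) := by
    rw [hsum, hsum fun q => finrank (ZMod p) (fixedBy (ρ.comp (loc q)) ⊤),
      Finset.sum_congr rfl (fun q hq => show finrank (ZMod p) (condAt ρ S L q) =
        finrank (ZMod p) (L q) by rw [show condAt ρ S L q = L q by simp [condAt, hq]]),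
      Finset.sum_congr (s₁ := T \ S) rfl (fun q hq => show finrank (ZMod p) (condAt ρ S L q) =
        finrank (ZMod p) (fixedBy (ρ.comp (loc q)) ⊤) by
          obtain ⟨-, hqS⟩ := Finset.mem_sdiff.1 hq
          rw [show condAt ρ S L q = unrCond ρ q by simp [condAt, hqS]]
          exact finrank_unrCond_eq p q (smooth_lvlQ_of_smooth_lvlS hρ) (hur q hqS))]
    omega
  -- the Euler characteristic of `σ`
  have hE := euler_formula hp hpT hUT hμ hUK hidx hKp hGU hGK hσ1
  have hH2 := finrank_H2S hp hpT hUT hμ hσ1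
  have hflip : P.flip.Perfect := ⟨hP.2, hP.1⟩
  have h0 : finrank (ZMod p) (fixedBy (twDual σ) ⊤) = finrank (ZMod p) (fixedBy ρ ⊤) :=
    finrank_fixedBy_twDual P.flip hflip (MonoidHom.id GQ) ⊤
  rw [h0, Finset.sum_congr rfl fun q _ => finrank_fixedBy_twDual P.flip hflip (loc q) ⊤] at hH2
  have hc : (cycloChar p complexConjugation : ZMod p) = -1 := cycloChar_conj p
  have hσc := finrank_ker_add_one P.flip hflip hc
  have hρc := finrank_ker_add_one P hP hc
  have hV : finrank (ZMod p) (LinearMap.ker (ρ complexConjugation + 1)) +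
      finrank (ZMod p) (fixedBy ρ (Subgroup.zpowers complexConjugation)) = finrank (ZMod p) V := by
    rw [fixedBy_zpowers]
    refine Submodule.finrank_add_eq_of_isCompl ⟨?_, ?_⟩
    · rw [Submodule.disjoint_def]
      intro v h1 h2
      simp only [LinearMap.mem_ker, LinearMap.add_apply, LinearMap.sub_apply,
        Module.End.one_apply] at h1 h2
      have h2' : (2 : ZMod p) • v = 0 := by
        rw [two_smul]
        calc v + v = (ρ complexConjugation v + v) - (ρ complexConjugation v - v) := by abel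
          _ = 0 := by rw [h1, h2, sub_zero]
      exact (smul_eq_zero.1 h2').resolve_left (two_ne_zero' p hp)
    · rw [codisjoint_iff, eq_top_iff]
      rintro v -
      have hcc : ρ complexConjugation (ρ complexConjugation v) = v := by
        rw [← Module.End.mul_apply, ← map_mul, complexConjugation_mul_self, map_one,
          Module.End.one_apply]
      have h2 : ((2 : ZMod p)⁻¹ : ZMod p) • (v - ρ complexConjugation v) +
          (2 : ZMod p)⁻¹ • (v + ρ complexConjugation v) = v := by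
        rw [← smul_add, show v - ρ complexConjugation v + (v + ρ complexConjugation v) =
          (2 : ZMod p) • v by rw [two_smul]; abel, smul_smul,
          inv_mul_cancel₀ (two_ne_zero' p hp), one_smul]
      rw [← h2]
      refine Submodule.add_mem_sup (Submodule.smul_mem _ _ ?_) (Submodule.smul_mem _ _ ?_) <;>
        simp [LinearMap.mem_ker, hcc, add_comm]
  -- duality for `Ш`
  obtain ⟨B, hB, -⟩ := exists_sha_pairing_nondegenerate p hp T hpT P.flip hflip hσT hρT
  haveI := finite_H2S hp hpT hUT hμ hσ1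
  haveI : Module.Finite (ZMod p) (H2c (lvlS T) σ) := Module.Finite.of_finite
  have hsha : finrank (ZMod p) (shaOne p T ρ) ≤ finrank (ZMod p) (shaTwo p T σ) := by
    have h := LinearMap.finrank_le_finrank_of_injective (f := B)
      ((injective_iff_map_eq_zero _).2 fun y hy => hB y fun x => by rw [hy]; rfl)
    rwa [show finrank (ZMod p) (shaTwo p T σ →ₗ[ZMod p] ZMod p) =
      finrank (ZMod p) (shaTwo p T σ) from Subspace.dual_finrank_eq] at h
  omega

end FLTA.TW.Count

end
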