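import Fermat.Agent.TaylorWiles.Defs
import Fermat.Agent.TaylorWiles.SelmerLocal
import Fermat.Agent.TaylorWiles.SelmerLevel
import Fermat.Agent.TaylorWiles.SelmerCount
import Fermat.Prelude.Def_GaloisRep_ComplexConjugation

/-!
# The Greenberg-Wiles inequality
-/

set_option autoImplicit false

open ExtCitation Module

noncomputable section

namespace FLTA.TW

open FLTA.PT

variable (p : ℕ) [Fact p.Prime] {V W : Type} [AddCommGroup V] [Module (ZMod p) V]
  [AddCommGroup W] [Module (ZMod p) W] [Finite V] [Finite W]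
variable {ρ : Representation (ZMod p) GQ V} {σ : Representation (ZMod p) GQ W}

theorem finite_localH1 (q : Nat.Primes) (hρ : Smooth lvlQ ρ) : Finite (H1L ρ q) := by
  exact finite_H1L p q hρ

theorem finite_selmer_condAt (S : Finset Nat.Primes) (hρ : Smooth (lvlS S) ρ) (L : Cond ρ) :
    Finite (selmer ρ (condAt ρ S L)) := by
  exact finite_selmer_condAt_aux S hρ L

theorem finrank_unrCond (q : Nat.Primes) (hρ : Smooth lvlQ ρ)
    (hur : ∀ s ∈ inertiaG q, ρ (loc q s) = 1) :
    finrank (ZMod p) (unrCond ρ q) = finrank (ZMod p) (fixedBy (ρ.comp (loc q)) ⊤) := by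
  exact finrank_unrCond_eq p q hρ hur

theorem orth_unrCond_eq (hp : p ≠ 2) (P : Pairing (cycloChar p) ρ σ) (hP : P.Perfect)
    (hρ : Smooth lvlQ ρ) (hσ : Smooth lvlQ σ) (q : Nat.Primes) (hq : (q : ℕ) ≠ p)
    (hur : ∀ s ∈ inertiaG q, ρ (loc q s) = 1) :
    orth P (unrCond ρ) q = unrCond σ q := by
  exact orth_unrCond p hp P hP hρ hσ q hq hur

/-- Greenberg-Wiles, as an inequality. -/
theorem finrank_selmer_le (hp : p ≠ 2) (P : Pairing (cycloChar p) ρ σ) (hP : P.Perfect)
    (S : Finset Nat.Primes) (hpS : pPrime p ∈ S) (hρ : Smooth (lvlS S) ρ)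
    (hσ : Smooth (lvlS S) σ) (L : Cond ρ) :
    finrank (ZMod p) (selmer ρ (condAt ρ S L)) +
        (∑ q ∈ S, finrank (ZMod p) (fixedBy (ρ.comp (loc q)) ⊤)) +
        finrank (ZMod p) (fixedBy σ ⊤) + finrank (ZMod p) V ≤
      (∑ q ∈ S, finrank (ZMod p) (L q)) +
        finrank (ZMod p) (selmer σ (condAt σ S (orth P L))) +
        finrank (ZMod p) (fixedBy ρ ⊤) + finrank (ZMod p) (fixedBy σ (Subgroup.zpowers complexConjugation)) := by
  exact Count.finrank_selmer_condAt_le hp P hP S hpS hρ hσ L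

end FLTA.TW

end
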