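import Fermat.Agent.TaylorWiles.FlatLocalLayer
import Fermat.Agent.TaylorWiles.FlatQuotient

/-!
# Leading terms of points of an integral model which are fixed by `H`
-/

set_option autoImplicit false
set_option linter.style.haveILetI false

open scoped NNReal

noncomputable section

namespace FLTA.TaylorWiles.Flat

open FLTA.PT (Gl Ql locAut)

attribute [local instance] FLTA.PT.factPrime

variable {q : Nat.Primes}

/-- Galois automorphisms of `ℚ̄_q`, indexed by inertia. -/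
def inerAut (g : inerG q) : Ql q →+* Ql q := (locAut q (g : Gl q) : Ql q →+* Ql q)

@[simp] theorem inerAut_apply (g : inerG q) (x : Ql q) : inerAut g x = locAut q (g : Gl q) x := rfl

theorem nnnorm_inerAut (g : inerG q) (x : Ql q) : ‖inerAut g x‖₊ = ‖x‖₊ := nnnorm_locAut q _ x

namespace Tame

variable (T : Tame q) {X : Type} [AddCommGroup X] (M : IntModel (Ql q) X)
  {act : inerG q → X →+ X}

/-- `y` is fixed by `H`. -/
def HFixed (act : inerG q → X →+ X) (y : X) : Prop :=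
  ∀ h : inerG q, (h : Gl q) ∈ T.H → act h y = y

variable {T M}

theorem HFixed.zero : T.HFixed act 0 := fun _ _ => map_zero _

theorem HFixed.add {y z : X} (hy : T.HFixed act y) (hz : T.HFixed act z) :
    T.HFixed act (y + z) := fun h hh => by rw [map_add, hy h hh, hz h hh]

theorem HFixed.nsmul {y : X} (hy : T.HFixed act y) (n : ℕ) : T.HFixed act (n • y) :=
  fun h hh => by rw [map_nsmul, hy h hh]

theorem HFixed.sub {y z : X} (hy : T.HFixed act y) (hz : T.HFixed act z) :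
    T.HFixed act (y - z) := fun h hh => by rw [map_sub, hy h hh, hz h hh]

theorem HFixed.act_apply {y : X} (hy : T.HFixed act y)
    (hmul : ∀ (a b : inerG q) (x : X), act (a * b) x = act a (act b x)) (g : inerG q) :
    T.HFixed act (act g y) := fun h hh => by
  rw [← hmul, show h * g = g * (g⁻¹ * h * g) by group, hmul,
    hy _ (by simpa using T.conj_mem_H' hh (g : Gl q))]

variable (hM : M.Equivariant act inerAut)
include hM

theorem HFixed.G_mem {y : X} (hy : T.HFixed act y) (i : M.ι) : M.G i y ∈ T.E :=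
  T.mem_E_of_fixed fun σ hσ => by
    have h := M.G_act hM ⟨σ, T.H_le_inerG hσ⟩ i y
    rw [hy ⟨σ, T.H_le_inerG hσ⟩ hσ] at h
    exact h.symm

theorem exists_G_eq_w {y : X} (hw : M.w y ≠ 0) : ∃ i, ‖M.G i y‖₊ = M.w y := by
  have _ := hM
  obtain ⟨i, -, hi⟩ := Finset.exists_mem_eq_sup (Finset.univ : Finset M.ι)
    (Finset.univ_nonempty_iff.mpr (by
      by_contra hempty
      rw [not_nonempty_iff] at hempty
      exact hw (le_antisymm (Finset.sup_le fun j _ => isEmptyElim j) bot_le)))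
    (fun i => ‖M.e i y - M.e i 0‖₊)
  exact ⟨i, hi.symm⟩

/-- A point of order `q` in the open ball has norm `|π| ^ m` with `1 ≤ m ≤ f0`. -/
theorem exists_exponent {y : X} (hy : T.HFixed act y) (hq : (q : ℕ) • y = 0) (hy0 : y ≠ 0)
    (hw : M.w y < 1) : ∃ m : ℕ, 1 ≤ m ∧ m ≤ T.f0 ∧ M.w y = ‖T.π‖₊ ^ m := by
  have hw0 : M.w y ≠ 0 := mt M.w_eq_zero_iff.mp hy0
  obtain ⟨i, hi⟩ := exists_G_eq_w hM hw0
  obtain ⟨m, hm⟩ := T.exists_pow_nnnorm (hy.G_mem hM i)
    (nnnorm_ne_zero_iff.mp (by rwa [hi])) (hi.trans_le hw.le)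
  rw [hi] at hm
  refine ⟨m, Nat.pos_of_ne_zero ?_, ?_, hm⟩
  · rintro rfl
    rw [hm, pow_zero] at hw
    exact lt_irrefl _ hw
  · have h := M.nnnorm_prime_le_w_pow q.2 nnnorm_natCast_le_one hq hy0 hw
    rw [hm, ← T.nnnorm_π_pow, ← pow_mul, T.pow_π_le_pow, ← T.f0_mul] at h
    exact Nat.le_of_mul_le_mul_right h (by have := q.2.two_le; omega)

/-- A nonzero point fixed by all of inertia is not in the open ball when `q - 1 < e`
fails to divide. -/
theorem eq_zero_of_inerG_fixed (hlt : T.f0 < T.e) {y : X} (hy : ∀ g : inerG q, act g y = y)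
    (hq : (q : ℕ) • y = 0) (hw : M.w y < 1) : y = 0 := by
  by_contra hy0
  have hyF : T.HFixed act y := fun h _ => hy h
  obtain ⟨m, hm1, hmf, hm⟩ := exists_exponent hM hyF hq hy0 hw
  obtain ⟨i, hi⟩ := exists_G_eq_w hM (mt M.w_eq_zero_iff.mp hy0)
  have hK : M.G i y ∈ Knr q := mem_Knr_of_fixed fun s hs => by
    have h := M.G_act hM ⟨s, hs⟩ i y
    rw [hy] at h
    exact h.symm
  rw [hm] at hi
  exact T.nnnorm_mul_π_pow_ne hK
    (nnnorm_ne_zero_iff.mp (by rw [hi]; exact (pow_pos T.nnnorm_π_pos m).ne')) hm1 (by omega) hi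

omit hM

variable (T M)

/-- The leading coefficient of order `m` of the coordinate `i`. -/
def lam (m : ℕ) (i : M.ι) (y : X) : Res q := red (M.G i y / T.π ^ m)

variable {T M}

theorem nnnorm_G_div_le {m : ℕ} {y : X} (hy : M.w y ≤ ‖T.π‖₊ ^ m) (i : M.ι) :
    ‖M.G i y / T.π ^ m‖₊ ≤ 1 :=
  T.nnnorm_div_π_le ((M.norm_G_le i y).trans hy)

theorem lam_add {m : ℕ} (hm : 1 ≤ m) {x y : X} (hx : M.w x ≤ ‖T.π‖₊ ^ m)
    (hy : M.w y ≤ ‖T.π‖₊ ^ m) (i : M.ι) :
    T.lam M m i (x + y) = T.lam M m i x + T.lam M m i y := by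
  have hxy := (M.w_add_le x y).trans (max_le hx hy)
  rw [lam, lam, lam, ← red_add (nnnorm_G_div_le hx i) (nnnorm_G_div_le hy i),
    red_eq_red_iff (nnnorm_G_div_le hxy i)
      ((intRing q).add_mem (nnnorm_G_div_le hx i) (nnnorm_G_div_le hy i)),
    ← add_div, ← sub_div, ← sub_sub]
  refine T.nnnorm_div_π_lt (lt_of_le_of_lt (M.norm_quad i x y) ?_)
  calc M.w x * M.w y ≤ ‖T.π‖₊ ^ m * ‖T.π‖₊ ^ m := mul_le_mul hx hy zero_le zero_le
    _ < ‖T.π‖₊ ^ m := by rw [← pow_add, T.pow_π_lt_pow]; omega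

theorem lam_zero (m : ℕ) (i : M.ι) : T.lam M m i 0 = 0 := by
  simp [lam, IntModel.G]

theorem lam_nsmul {m : ℕ} (hm : 1 ≤ m) {y : X} (hy : M.w y ≤ ‖T.π‖₊ ^ m) (i : M.ι) (n : ℕ) :
    T.lam M m i (n • y) = (n : Res q) * T.lam M m i y := by
  induction n with
  | zero => rw [zero_smul, lam_zero, Nat.cast_zero, zero_mul]
  | succ n ih =>
    rw [succ_nsmul, lam_add hm ((M.w_nsmul_le n y).trans hy) hy, ih, Nat.cast_succ, add_one_mul]

theorem w_lt_of_lam_eq_zero {m : ℕ} {y : X} (hy : M.w y ≤ ‖T.π‖₊ ^ m)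
    (h : ∀ i, T.lam M m i y = 0) : M.w y < ‖T.π‖₊ ^ m := by
  refine (Finset.sup_lt_iff (pow_pos T.nnnorm_π_pos m)).mpr fun i _ => ?_
  have h1 := (red_eq_zero_iff (nnnorm_G_div_le hy i)).mp (h i)
  rw [nnnorm_div, nnnorm_pow, div_lt_one (pow_pos T.nnnorm_π_pos m)] at h1
  exact h1

theorem exists_lam_ne_zero {m : ℕ} {y : X} (hy : M.w y = ‖T.π‖₊ ^ m) :
    ∃ i, T.lam M m i y ≠ 0 := by
  by_contra h
  push Not at h
  exact (w_lt_of_lam_eq_zero hy.le h).ne hy

include hM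

theorem lam_act {m : ℕ} {y : X} (hy : M.w y ≤ ‖T.π‖₊ ^ m) (i : M.ι) (g : inerG q) {ξ : Ql q}
    (hξ : ξ ^ T.e = 1) (hπ : locAut q (g : Gl q) T.π = ξ * T.π) :
    T.lam M m i (act g y) = red ξ ^ m * T.lam M m i y := by
  have hξ1 := nnnorm_rootOfUnity T.e_pos.ne' hξ
  have hle := nnnorm_G_div_le hy i
  rw [lam, lam, M.G_act hM, inerAut_apply]
  conv_rhs => rw [← red_inerG g.2 hle, ← red_pow hξ1.le,
    ← red_mul (by rw [nnnorm_pow, hξ1, one_pow]) (by rwa [nnnorm_locAut])]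
  congr 1
  rw [map_div₀, map_pow, hπ, mul_pow, mul_div_assoc', mul_div_mul_left _ _
    (pow_ne_zero _ (nnnorm_ne_zero_iff.mp (by rw [hξ1]; exact one_ne_zero)))]

theorem w_act_eq (g : inerG q) (y : X) : M.w (act g y) = M.w y :=
  M.w_act hM g (nnnorm_inerAut g) y

/-- An element killed by `s ^ 2 - t s + c` has exponent `m` with `ξ ^ m` a root of
`X ^ 2 - t X + c`. -/
theorem quadratic_eq_zero {y : X} {m : ℕ} (hm : 1 ≤ m) (hy : M.w y = ‖T.π‖₊ ^ m) (g : inerG q)
    {ξ : Ql q} (hξ : ξ ^ T.e = 1) (hπ : locAut q (g : Gl q) T.π = ξ * T.π) {t c : ℕ}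
    (h : act g (act g y) + c • y = t • act g y) :
    (red ξ ^ m) ^ 2 + (c : Res q) = (t : Res q) * red ξ ^ m := by
  obtain ⟨i, hi⟩ := exists_lam_ne_zero hy
  have h1 := congrArg (T.lam M m i) h
  have hg : M.w (act g y) ≤ ‖T.π‖₊ ^ m := by rw [w_act_eq hM]; exact hy.le
  rw [lam_add hm (by rw [w_act_eq hM]; exact hg) ((M.w_nsmul_le c y).trans hy.le),
    lam_act hM hg i g hξ hπ, lam_nsmul hm hy.le, lam_nsmul hm hg, lam_act hM hy.le i g hξ hπ,
    ← mul_assoc, ← pow_two, ← mul_assoc, ← add_mul] at h1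
  exact mul_right_cancel₀ hi h1

/-- If the exponent can only be `1`, inertia acts on a fixed point through `ξ`. -/
theorem act_eq_nsmul (hf : T.f0 = 1) {y : X} (hy : T.HFixed act y)
    (hmul : ∀ (a b : inerG q) (x : X), act (a * b) x = act a (act b x))
    (hq : ∀ x : X, (q : ℕ) • x = 0) (hw : M.w y < 1) (g : inerG q) {ξ : Ql q} (hξ : ξ ^ T.e = 1)
    (hπ : locAut q (g : Gl q) T.π = ξ * T.π) {c : ℕ} (hc : (c : Res q) = red ξ) :
    act g y = c • y := by
  rcases eq_or_ne y 0 with rfl | hy0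
  · simp
  by_contra hne
  obtain ⟨m, hm1, hmf, hm⟩ := exists_exponent hM hy (hq y) hy0 hw
  obtain rfl : m = 1 := by omega
  set z := act g y - c • y with hz
  have hgy : M.w (act g y) ≤ ‖T.π‖₊ ^ 1 := by rw [w_act_eq hM]; exact hm.le
  have hcy : M.w (c • y) ≤ ‖T.π‖₊ ^ 1 := (M.w_nsmul_le c y).trans hm.le
  have hzw : M.w z ≤ ‖T.π‖₊ ^ 1 := (M.w_sub_le _ _).trans (max_le hgy hcy)
  have hlam : ∀ i, T.lam M 1 i z = 0 := fun i => by
    have h := lam_add le_rfl hzw hcy i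
    rw [hz, sub_add_cancel, lam_act hM hm.le i g hξ hπ, lam_nsmul le_rfl hm.le, pow_one, hc,
      ← hz] at h
    exact right_eq_add.mp h |> fun h' => h'
  have hzlt := w_lt_of_lam_eq_zero hzw hlam
  obtain ⟨m', hm1', hmf', hm'⟩ := exists_exponent hM ((hy.act_apply hmul g).sub (hy.nsmul c)) (hq _)
    (sub_ne_zero.mpr hne) (lt_of_lt_of_le hzlt (T.pow_π_le_one 1))
  rw [← hz] at hm'
  rw [hm', T.pow_π_lt_pow] at hzlt
  omega

end Tame

section quotient

variable {X : Type} [AddCommGroup X] {M : IntModel (Ql q) X} {act : inerG q → X →+ X}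

/-- The quotient by a stable subgroup. -/
theorem exists_quotient_model (hM : M.Equivariant act inerAut)
    (hone : ∀ x, act 1 x = x)
    (hmul : ∀ (a b : inerG q) (x : X), act (a * b) x = act a (act b x))
    (Y : AddSubgroup X) (hY : ∀ g, ∀ y ∈ Y, act g y ∈ Y) :
    ∃ (act' : inerG q → (X ⧸ Y) →+ (X ⧸ Y)) (M' : IntModel (Ql q) (X ⧸ Y)),
      M'.Equivariant act' inerAut ∧
      (∀ g x, act' g (QuotientAddGroup.mk x) = QuotientAddGroup.mk (act g x)) ∧
      (∀ x, act' 1 x = x) ∧ (∀ (a b : inerG q) x, act' (a * b) x = act' a (act' b x)) ∧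
      ∀ x, M'.w (QuotientAddGroup.mk x) ≤ M.w x := by
  let act' : inerG q → (X ⧸ Y) →+ (X ⧸ Y) := fun g =>
    QuotientAddGroup.map Y Y (act g) (fun y hy => hY g y hy)
  have hcomm : ∀ g x, act' g (QuotientAddGroup.mk x) = QuotientAddGroup.mk (act g x) :=
    fun g x => rfl
  have h1 : ∀ x, act' 1 x = x := fun x => by
    induction x using QuotientAddGroup.induction_on with
    | _ x => rw [hcomm, hone]
  have h2 : ∀ (a b : inerG q) x, act' (a * b) x = act' a (act' b x) := fun a b x => by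
    induction x using QuotientAddGroup.induction_on with
    | _ x => rw [hcomm, hcomm, hcomm, hmul]
  obtain ⟨M', hM', hw⟩ := M.exists_quotient (act' := act') hM
    (fun g x => ⟨act g⁻¹ x, by rw [← hmul, mul_inv_cancel, hone]⟩)
    (fun g a b h => by
      have := congrArg (act' g⁻¹) h
      rwa [← h2, ← h2, inv_mul_cancel, h1, h1] at this)
    (QuotientAddGroup.mk' Y) (QuotientAddGroup.mk'_surjective Y) (fun g x => (hcomm g x).symm)
  exact ⟨act', M', hM', hcomm, h1, h2, hw⟩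

end quotient

end FLTA.TaylorWiles.Flat

end
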