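import Fermat.Agent.TaylorWiles.FlatLocalTame
import Fermat.Agent.TaylorWiles.FlatLeading

/-!
# The exponent of a simple piece of niveau two

If a point `y` generates a plane on which a tame generator of level `q² - 1` acts through the
roots of unity of `𝔽_{q²}`, its distance to zero is not `|π| ^ q`: compare the Fourier coefficient
of bidegree `(1, q - 1)` of `G (a + b) - G a - G b` with the bound from the comultiplication.
-/

set_option autoImplicit false
set_option linter.style.haveILetI false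

open scoped NNReal

noncomputable section

namespace FLTA.TaylorWiles.Flat

open FLTA.PT (Gl Ql locAut)

attribute [local instance] FLTA.PT.factPrime

variable {q : Nat.Primes}

namespace Exponent

section roots

variable {e : ℕ} [NeZero e] {ξ : Ql q}

/-- The root of unity indexed by `j`. -/
def rt (ξ : Ql q) (j : ZMod e) : Ql q := ξ ^ j.val

theorem rt_natCast (hξ : ξ ^ e = 1) (n : ℕ) : rt ξ (n : ZMod e) = ξ ^ n := by
  rw [rt, ZMod.val_natCast, ← pow_eq_pow_mod n hξ]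

theorem rt_add (hξ : ξ ^ e = 1) (a b : ZMod e) : rt ξ (a + b) = rt ξ a * rt ξ b := by
  rw [rt, rt, rt, ZMod.val_add, ← pow_eq_pow_mod _ hξ, pow_add]

theorem rt_one (hξ : ξ ^ e = 1) : rt ξ (1 : ZMod e) = ξ := by
  rw [← Nat.cast_one, rt_natCast hξ, pow_one]

theorem rt_pow_e (hξ : ξ ^ e = 1) (j : ZMod e) : rt ξ j ^ e = 1 := by
  rw [rt, ← pow_mul, mul_comm, pow_mul, hξ, one_pow]

theorem sum_rt_pow_eq_zero (hξ : IsPrimitiveRoot ξ e) {m : ℕ} (hm : ¬ e ∣ m) :
    ∑ j : ZMod e, rt ξ j ^ m = 0 := by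
  have h : ∑ j : ZMod e, rt ξ j ^ m = ξ ^ m * ∑ j : ZMod e, rt ξ j ^ m := by
    rw [Finset.mul_sum]
    refine (Fintype.sum_equiv (Equiv.addRight (1 : ZMod e)) _ _ fun j => ?_).symm
    rw [Equiv.coe_addRight, rt_add hξ.pow_eq_one, rt_one hξ.pow_eq_one, mul_pow, mul_comm]
  refine (mul_eq_zero.mp (show (ξ ^ m - 1) * ∑ j : ZMod e, rt ξ j ^ m = 0 by
    rw [sub_mul, one_mul, ← h, sub_self])).resolve_left ?_
  exact sub_ne_zero.mpr fun h1 => hm ((hξ.pow_eq_one_iff_dvd m).mp h1)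

theorem sum_rt_pow_of_dvd (hξ : ξ ^ e = 1) {m : ℕ} (hm : e ∣ m) :
    ∑ j : ZMod e, rt ξ j ^ m = e := by
  obtain ⟨c, rfl⟩ := hm
  simp [pow_mul, rt_pow_e hξ, ZMod.card]

theorem sum_rt_pow_mul (hξ : IsPrimitiveRoot ξ e) {r m : ℕ} (hr : r < e) (hm : m < e)
    (a : ℕ → Ql q) :
    ∑ j : ZMod e, (∑ t ∈ Finset.range e, a t * rt ξ j ^ t) * rt ξ j ^ m =
      if r + m = e then (e : Ql q) * a r else ∑ t ∈ Finset.range e,
        a t * ∑ j : ZMod e, rt ξ j ^ (t + m) := by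
  have h : ∑ j : ZMod e, (∑ t ∈ Finset.range e, a t * rt ξ j ^ t) * rt ξ j ^ m =
      ∑ t ∈ Finset.range e, a t * ∑ j : ZMod e, rt ξ j ^ (t + m) := by
    simp only [Finset.sum_mul, Finset.mul_sum]
    rw [Finset.sum_comm]
    exact Finset.sum_congr rfl fun t _ => Finset.sum_congr rfl fun j _ => by rw [pow_add, mul_assoc]
  split_ifs with he
  · rw [h, Finset.sum_eq_single r]
    · rw [sum_rt_pow_of_dvd hξ.pow_eq_one (he ▸ dvd_rfl), mul_comm]
    · intro t ht htr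
      rw [sum_rt_pow_eq_zero hξ fun hd => htr ?_, mul_zero]
      rw [Finset.mem_range] at ht
      obtain ⟨c, hc⟩ := hd
      have hc2 : c < 2 := by
        by_contra hc2
        have : e * 2 ≤ e * c := Nat.mul_le_mul_left e (not_lt.mp hc2)
        omega
      rcases Nat.lt_or_ge c 1 with h0 | h1
      · obtain rfl : c = 0 := by omega
        omega
      · obtain rfl : c = 1 := by omega
        omega
    · intro h'; exact absurd (Finset.mem_range.mpr hr) h'
  · exact h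

/-- `((a + b) ^ p - a ^ p - b ^ p) a⁻¹ b ^ (1 - p)` sums to `p e²`. -/
theorem sum_binomial (hξ : IsPrimitiveRoot ξ e) {p : ℕ} (hp : 2 ≤ p) (hpe : p < e) :
    ∑ j : ZMod e, ∑ l : ZMod e, ((rt ξ j + rt ξ l) ^ p - rt ξ j ^ p - rt ξ l ^ p) *
      (rt ξ j ^ (e - 1) * rt ξ l ^ (e - (p - 1))) = (p : Ql q) * (e : Ql q) * (e : Ql q) := by
  have hexp : ∀ a b : Ql q, (a + b) ^ p - a ^ p - b ^ p =
      ∑ i ∈ Finset.Ico 1 p, a ^ i * b ^ (p - i) * (p.choose i : Ql q) := by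
    intro a b
    rw [add_pow, Finset.sum_range_succ, Nat.sub_self, pow_zero, Nat.choose_self, Nat.cast_one,
      mul_one, mul_one, Finset.range_eq_Ico, Finset.sum_eq_sum_Ico_succ_bot (by omega), pow_zero,
      Nat.choose_zero_right, Nat.cast_one, mul_one, one_mul, Nat.sub_zero]
    ring
  calc _ = ∑ j : ZMod e, ∑ l : ZMod e, ∑ i ∈ Finset.Ico 1 p, (p.choose i : Ql q) *
        rt ξ j ^ (i + (e - 1)) * rt ξ l ^ ((p - i) + (e - (p - 1))) := by
        refine Finset.sum_congr rfl fun j _ => Finset.sum_congr rfl fun l _ => ?_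
        rw [hexp, Finset.sum_mul]
        refine Finset.sum_congr rfl fun i _ => ?_
        rw [pow_add, pow_add]
        ring
    _ = ∑ i ∈ Finset.Ico 1 p, (p.choose i : Ql q) * (∑ j : ZMod e, rt ξ j ^ (i + (e - 1))) *
        ∑ l : ZMod e, rt ξ l ^ ((p - i) + (e - (p - 1))) := by
        simp only [Finset.mul_sum, Finset.sum_mul]
        rw [Finset.sum_comm]
        conv_rhs => rw [Finset.sum_comm]
        refine Finset.sum_congr rfl fun l _ => ?_
        rw [Finset.sum_comm]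
    _ = (p : Ql q) * (e : Ql q) * (e : Ql q) := by
        rw [Finset.sum_eq_single 1]
        · rw [sum_rt_pow_of_dvd hξ.pow_eq_one ⟨1, by omega⟩,
            sum_rt_pow_of_dvd hξ.pow_eq_one ⟨1, by omega⟩, Nat.choose_one_right]
        · intro i hi hi1
          rw [Finset.mem_Ico] at hi
          rw [sum_rt_pow_eq_zero hξ (m := i + (e - 1)) fun hd => ?_, mul_zero, zero_mul]
          obtain ⟨c, hc⟩ := hd
          rcases Nat.lt_or_ge c 2 with h2 | h2
          · interval_cases c <;> omega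
          · have : e * 2 ≤ e * c := Nat.mul_le_mul_left e h2
            omega
        · intro h; simp at h; omega

end roots

section plane

variable {κ : Type*} [Field κ] {p : ℕ} [Fact p.Prime] [CharP κ p]

/-- `(a, b) ↦ a + b x`. -/
def coordHom (x : κ) : ZMod p × ZMod p →+ κ where
  toFun z := (z.1.val : κ) + (z.2.val : κ) * x
  map_zero' := by simp
  map_add' z w := by
    have h : ∀ a b : ZMod p, (((a + b).val : ℕ) : κ) = (a.val : κ) + (b.val : κ) := by
      intro a b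
      rw [← Nat.cast_add, ZMod.val_add]
      exact (CharP.natCast_eq_natCast κ p).mpr (Nat.mod_modEq _ _)
    simp only [Prod.fst_add, Prod.snd_add, h]
    ring

theorem nsmul_mod_eq {X : Type*} [AddCommGroup X] {p : ℕ} {x : X} (hx : p • x = 0) (n : ℕ) :
    (n % p) • x = n • x := by
  conv_rhs => rw [← Nat.mod_add_div n p, add_smul, mul_comm p, mul_smul, hx, smul_zero, add_zero]

/-- `(a, b) ↦ a y + b y'`. -/
def pointHom {X : Type*} [AddCommGroup X] (y y' : X) (hy : p • y = 0) (hy' : p • y' = 0) :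
    ZMod p × ZMod p →+ X where
  toFun z := z.1.val • y + z.2.val • y'
  map_zero' := by simp
  map_add' z w := by
    simp only [Prod.fst_add, Prod.snd_add, ZMod.val_add, nsmul_mod_eq hy, nsmul_mod_eq hy',
      add_smul]
    abel

end plane

end Exponent

open Exponent

namespace Tame

variable {T : Tame q} {X : Type} [AddCommGroup X] {M : IntModel (Ql q) X}
  {act : inerG q → X →+ X}

theorem mem_Knr_rt {e : ℕ} [NeZero e] {ξ : Ql q} (he : ¬ (q : ℕ) ∣ e) (hξ : ξ ^ e = 1)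
    (j : ZMod e) : rt ξ j ∈ Knr q :=
  root_mem_Knr he (rt_pow_e hξ j)

theorem nnnorm_le_prime_of_lt {x : Ql q} (hx : x ∈ Knr q) (h : ‖x‖₊ < 1) :
    ‖x‖₊ ≤ ‖((q : ℕ) : Ql q)‖₊ := by
  rcases eq_or_ne x 0 with rfl | hx0
  · simp
  obtain ⟨k, hk⟩ := exists_zpow_nnnorm_Knr hx hx0
  rw [hk, zpow_lt_one_iff_right_of_lt_one₀ nnnorm_prime_pos nnnorm_prime_lt_one] at h
  rw [hk]
  calc ‖((q : ℕ) : Ql q)‖₊ ^ k ≤ ‖((q : ℕ) : Ql q)‖₊ ^ (1 : ℤ) :=
        (zpow_le_zpow_iff_right_of_lt_one₀ nnnorm_prime_pos nnnorm_prime_lt_one).mpr (by omega)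
    _ = _ := zpow_one _

theorem nnnorm_pow_sub_pow_le {u v : Ql q} (hu : ‖u‖₊ ≤ 1) (hv : ‖v‖₊ ≤ 1)
    (h : ‖v - u‖₊ ≤ ‖((q : ℕ) : Ql q)‖₊) :
    ‖v ^ (q : ℕ) - u ^ (q : ℕ)‖₊ ≤ ‖((q : ℕ) : Ql q)‖₊ * ‖((q : ℕ) : Ql q)‖₊ := by
  rw [← geom_sum₂_mul, nnnorm_mul]
  refine mul_le_mul ?_ h zero_le zero_le
  have e : ∑ i ∈ Finset.range (q : ℕ), v ^ i * u ^ ((q : ℕ) - 1 - i) =
      (∑ i ∈ Finset.range (q : ℕ), (v ^ i - u ^ i) * u ^ ((q : ℕ) - 1 - i)) +
        ((q : ℕ) : Ql q) * u ^ ((q : ℕ) - 1) := by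
    have h2 : ∑ i ∈ Finset.range (q : ℕ), u ^ i * u ^ ((q : ℕ) - 1 - i) =
        ((q : ℕ) : Ql q) * u ^ ((q : ℕ) - 1) := by
      rw [Finset.sum_congr rfl fun i hi => show u ^ i * u ^ ((q : ℕ) - 1 - i) = u ^ ((q : ℕ) - 1) by
        rw [← pow_add]; congr 1; have := Finset.mem_range.mp hi; omega]
      simp
    rw [← h2, ← Finset.sum_add_distrib]
    exact Finset.sum_congr rfl fun i _ => by ring
  rw [e]
  refine (IsUltrametricDist.nnnorm_add_le_max _ _).trans (max_le ?_ ?_)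
  · refine IsUltrametricDist.nnnorm_sum_le_of_forall_le fun i _ => ?_
    rw [nnnorm_mul, nnnorm_pow]
    refine (mul_le_of_le_one_right zero_le (pow_le_one₀ zero_le hu)).trans ?_
    rw [← geom_sum₂_mul, nnnorm_mul]
    refine (mul_le_of_le_one_left zero_le ?_).trans h
    refine IsUltrametricDist.nnnorm_sum_le_of_forall_le fun j _ => ?_
    rw [nnnorm_mul, nnnorm_pow, nnnorm_pow]
    exact mul_le_one₀ (pow_le_one₀ zero_le hv) zero_le (pow_le_one₀ zero_le hu)
  · rw [nnnorm_mul, nnnorm_pow]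
    exact mul_le_of_le_one_right zero_le (pow_le_one₀ zero_le hu)

/-- A point generating a piece of niveau two is not at distance `|π| ^ q`. -/
theorem w_ne_pow_q_of_lt (hM : M.Equivariant act inerAut) (hone : ∀ x, act 1 x = x)
    (hmul : ∀ (a b : inerG q) (x : X), act (a * b) x = act a (act b x))
    (hqX : ∀ x : X, (q : ℕ) • x = 0) (hqe : (q : ℕ) < T.e) (he : T.e = (q : ℕ) ^ 2 - 1)
    {ξ : Ql q} (hξ : IsPrimitiveRoot ξ T.e) (s : inerG q)
    (hπ : locAut q (s : Gl q) T.π = ξ * T.π) {y : X} (hy : T.HFixed act y) {t c : ℕ}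
    (hrel : act s (act s y) + c • y = t • act s y)
    (hroot : red ξ ^ 2 + (c : Res q) = (t : Res q) * red ξ) :
    M.w y ≠ ‖T.π‖₊ ^ (q : ℕ) := by
  classical
  intro hw
  have h2q := q.2.two_le
  haveI : NeZero T.e := ⟨T.e_pos.ne'⟩
  have hξ1 := hξ.pow_eq_one
  have hξn : ‖ξ‖₊ = 1 := nnnorm_rootOfUnity T.e_pos.ne' hξ1
  have hrtn : ∀ j : ZMod T.e, ‖rt ξ j‖₊ = 1 := fun j =>
    nnnorm_rootOfUnity T.e_pos.ne' (rt_pow_e hξ1 j)
  set pts : ZMod T.e → X := fun j => act (s ^ j.val) y with hpts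
  have hspow : ∀ n : ℕ, locAut q (((s ^ n : inerG q)) : Gl q) T.π = ξ ^ n * T.π := by
    intro n
    induction n with
    | zero => simp
    | succ n ih =>
      rw [pow_succ', Subgroup.coe_mul, locAut_mul_apply, ih, map_mul,
        mem_inerG.mp s.2 _ (root_mem_Knr T.not_dvd (by
          rw [← pow_mul, mul_comm, pow_mul, hξ1, one_pow])), hπ]
      ring
  have hperiod : ∀ n : ℕ, act (s ^ (n % T.e)) y = act (s ^ n) y := by
    intro n
    conv_rhs => rw [← Nat.mod_add_div n T.e, pow_add, hmul]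
    rw [hy (s ^ (T.e * (n / T.e))) ?_]
    rw [T.mem_H_iff]
    exact ⟨SetLike.coe_mem _, by rw [hspow, pow_mul, hξ1, one_pow, one_mul]⟩
  have hptn : ∀ n : ℕ, pts (n : ZMod T.e) = act (s ^ n) y := fun n => by
    rw [hpts]; simp only [ZMod.val_natCast, hperiod]
  -- coordinates on the plane
  let ψ := coordHom (p := (q : ℕ)) (red ξ)
  let Ψ := pointHom (p := (q : ℕ)) y (act s y) (hqX _) (hqX _)
  let step : ZMod (q : ℕ) × ZMod (q : ℕ) → ZMod (q : ℕ) × ZMod (q : ℕ) := fun z =>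
    (-(c : ZMod (q : ℕ)) * z.2, z.1 + (t : ZMod (q : ℕ)) * z.2)
  let C : ℕ → ZMod (q : ℕ) × ZMod (q : ℕ) := fun n => step^[n] (1, 0)
  have hcast : ∀ n : ℕ, (((n : ZMod (q : ℕ)).val : ℕ) : Res q) = (n : Res q) := fun n => by
    rw [ZMod.val_natCast]
    exact (CharP.natCast_eq_natCast (Res q) (q : ℕ)).mpr (Nat.mod_modEq _ _)
  have hψ1 : ψ (1, 0) = 1 ∧ ψ (0, 1) = red ξ := by
    constructor
    · show ((1 : ZMod (q : ℕ)).val : Res q) + ((0 : ZMod (q : ℕ)).val : Res q) * red ξ = 1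
      simp [ZMod.val_one]
    · show ((0 : ZMod (q : ℕ)).val : Res q) + ((1 : ZMod (q : ℕ)).val : Res q) * red ξ = red ξ
      simp [ZMod.val_one]
  have hΨ1 : Ψ (1, 0) = y ∧ Ψ (0, 1) = act s y := by
    constructor
    · show (1 : ZMod (q : ℕ)).val • y + (0 : ZMod (q : ℕ)).val • act s y = y
      simp [ZMod.val_one]
    · show (0 : ZMod (q : ℕ)).val • y + (1 : ZMod (q : ℕ)).val • act s y = act s y
      simp [ZMod.val_one]
  have hstep : ∀ a b : ZMod (q : ℕ), step (a, b) =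
      a.val • ((0, 1) : ZMod (q : ℕ) × ZMod (q : ℕ)) + b.val • (t • (0, 1) - c • (1, 0)) := by
    intro a b
    refine Prod.ext ?_ ?_ <;> simp [step, ZMod.natCast_zmod_val] <;> ring
  have hdec : ∀ a b : ZMod (q : ℕ),
      (a, b) = a.val • ((1, 0) : ZMod (q : ℕ) × ZMod (q : ℕ)) + b.val • (0, 1) := fun a b => by
    refine Prod.ext ?_ ?_ <;> simp [ZMod.natCast_zmod_val]
  have hψstep : ∀ z, ψ (step z) = red ξ * ψ z := by
    rintro ⟨a, b⟩
    conv_rhs => rw [hdec a b]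
    simp only [hstep, map_add, map_nsmul, map_sub, hψ1.1, hψ1.2]
    simp only [nsmul_eq_mul]
    linear_combination -(b.val : Res q) * hroot
  have hΨstep : ∀ z, Ψ (step z) = act s (Ψ z) := by
    rintro ⟨a, b⟩
    conv_rhs => rw [hdec a b]
    simp only [hstep, map_add, map_nsmul, map_sub, hΨ1.1, hΨ1.2, eq_sub_of_add_eq hrel]
  have hψC : ∀ n, ψ (C n) = red ξ ^ n := by
    intro n
    induction n with
    | zero =>
      show ((1 : ZMod (q : ℕ)).val : Res q) + ((0 : ZMod (q : ℕ)).val : Res q) * red ξ = _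
      simp [ZMod.val_one]
    | succ n ih =>
      rw [show C (n + 1) = step (C n) from Function.iterate_succ_apply' _ _ _, hψstep, ih,
        pow_succ']
  have hΨC : ∀ n, Ψ (C n) = act (s ^ n) y := by
    intro n
    induction n with
    | zero =>
      show (1 : ZMod (q : ℕ)).val • y + (0 : ZMod (q : ℕ)).val • act s y = _
      simp [ZMod.val_one, hone]
    | succ n ih =>
      rw [show C (n + 1) = step (C n) from Function.iterate_succ_apply' _ _ _, hΨstep, ih,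
        pow_succ', hmul]
  have hψinj : Function.Injective ψ := by
    rw [injective_iff_map_eq_zero]
    rintro ⟨a, b⟩ h
    have h' : ZMod.castHom (dvd_refl (q : ℕ)) (Res q) a +
        ZMod.castHom (dvd_refl (q : ℕ)) (Res q) b * red ξ = 0 := by
      rw [ZMod.castHom_apply, ZMod.castHom_apply, ← ZMod.natCast_val, ← ZMod.natCast_val]
      exact h
    by_cases hb : b = 0
    · subst hb
      rw [map_zero, zero_mul, add_zero] at h'
      simp [(ZMod.castHom (dvd_refl (q : ℕ)) (Res q)).injective (h'.trans (map_zero _).symm)]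
    exfalso
    have hfix : red ξ ^ (q : ℕ) = red ξ := by
      have hbx : red ξ = ZMod.castHom (dvd_refl (q : ℕ)) (Res q) (-a / b) := by
        rw [map_div₀, map_neg, eq_div_iff ((map_ne_zero _).mpr hb), eq_neg_iff_add_eq_zero,
          add_comm, mul_comm]
        exact h'
      rw [hbx, ← map_pow, ZMod.pow_card]
    rw [← red_pow hξn.le, red_eq_red_iff (by rw [nnnorm_pow, hξn, one_pow]) hξn.le] at hfix
    have := eq_of_nnnorm_sub_lt T.not_dvd (by rw [← pow_mul, mul_comm, pow_mul, hξ1, one_pow])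
      hξ1 hfix
    have h1 : ξ ^ ((q : ℕ) - 1) = 1 := by
      refine mul_right_cancel₀ (hξ.ne_zero T.e_pos.ne') ?_
      rw [one_mul, ← pow_succ, Nat.sub_add_cancel q.2.one_lt.le, this]
    have := Nat.le_of_dvd (by omega) ((hξ.pow_eq_one_iff_dvd _).mp h1)
    omega
  let Cz : ZMod T.e → ZMod (q : ℕ) × ZMod (q : ℕ) := fun j => C j.val
  have hrtle : ∀ j : ZMod T.e, ‖rt ξ j‖₊ ≤ 1 := fun j => (hrtn j).le
  have hψCz : ∀ j, ψ (Cz j) = red (rt ξ j) := fun j => by
    rw [hψC, rt, red_pow hξn.le]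
  have hΨCz : ∀ j, Ψ (Cz j) = pts j := fun j => hΨC _
  have hrtinj : Function.Injective fun j : ZMod T.e => rt ξ j := fun a b h =>
    ZMod.val_injective _ (hξ.pow_inj (ZMod.val_lt a) (ZMod.val_lt b) h)
  have hCinj : Function.Injective Cz := fun a b h => hrtinj (eq_of_nnnorm_sub_lt T.not_dvd
    (rt_pow_e hξ1 a) (rt_pow_e hξ1 b) ((red_eq_red_iff (hrtle a) (hrtle b)).mp (by
      rw [← hψCz, ← hψCz, h])))
  have hCne : ∀ j, Cz j ≠ 0 := fun j h => red_ne_zero (hrtn j) (by rw [← hψCz, h, map_zero])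
  have hCsurj : ∀ z : ZMod (q : ℕ) × ZMod (q : ℕ), z ≠ 0 → ∃ j, Cz j = z := by
    intro z hz
    have hsub : Finset.univ.image Cz ⊆ Finset.univ.erase 0 := fun w hw' => by
      obtain ⟨j, -, rfl⟩ := Finset.mem_image.mp hw'
      exact Finset.mem_erase.mpr ⟨hCne j, Finset.mem_univ _⟩
    have heq := Finset.eq_of_subset_of_card_le hsub (by
      rw [Finset.card_image_of_injective _ hCinj, Finset.card_erase_of_mem (Finset.mem_univ _),
        Finset.card_univ, Finset.card_univ, Fintype.card_prod, ZMod.card, ZMod.card, he, pow_two])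
    obtain ⟨j, -, hj⟩ := Finset.mem_image.mp
      ((Finset.ext_iff.mp heq z).mpr (Finset.mem_erase.mpr ⟨hz, Finset.mem_univ _⟩))
    exact ⟨j, hj⟩
  -- the root attached to `pts j + pts l`
  let τ : ZMod T.e → ZMod T.e → Ql q := fun j l =>
    if h : Cz j + Cz l = 0 then 0 else rt ξ (hCsurj _ h).choose
  have hτ : ∀ j l, (τ j l = 0 ∧ pts j + pts l = 0 ∧ red (rt ξ j) + red (rt ξ l) = 0) ∨
      (∃ r, τ j l = rt ξ r ∧ pts j + pts l = pts r ∧ red (rt ξ j) + red (rt ξ l) = red (rt ξ r)) := by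
    intro j l
    by_cases h : Cz j + Cz l = 0
    · exact Or.inl ⟨dif_pos h, by rw [← hΨCz, ← hΨCz, ← map_add, h, map_zero],
        by rw [← hψCz, ← hψCz, ← map_add, h, map_zero]⟩
    · have hr := (hCsurj _ h).choose_spec
      exact Or.inr ⟨_, dif_neg h,
        by rw [← hΨCz, ← hΨCz, ← map_add]; exact (congrArg Ψ hr.symm).trans (hΨCz _),
        by rw [← hψCz, ← hψCz, ← map_add]; exact (congrArg ψ hr.symm).trans (hψCz _)⟩
  have hτle : ∀ j l, ‖τ j l‖₊ ≤ 1 ∧ τ j l ∈ Knr q := by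
    intro j l
    rcases hτ j l with ⟨h, -⟩ | ⟨r, h, -⟩
    · rw [h]; exact ⟨by simp, zero_mem _⟩
    · rw [h]; exact ⟨hrtle r, mem_Knr_rt T.not_dvd hξ1 r⟩
  have hτred : ∀ j l, red (τ j l) = red (rt ξ j) + red (rt ξ l) := by
    intro j l
    rcases hτ j l with ⟨h, -, h'⟩ | ⟨r, h, -, h'⟩
    · rw [h, h', red_zero]
    · rw [h, h']
  let Z : ℕ → ZMod T.e → ZMod T.e → Ql q := fun r j l => if τ j l = 0 then 0 else τ j l ^ r
  have hτshift : ∀ j l, τ (j + 1) (l + 1) = ξ * τ j l := by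
    intro j l
    have hle : ‖ξ * τ j l‖₊ ≤ 1 := by rw [nnnorm_mul, hξn, one_mul]; exact (hτle j l).1
    have hred : red (τ (j + 1) (l + 1)) = red (ξ * τ j l) := by
      rw [hτred, red_mul hξn.le (hτle j l).1, hτred, rt_add hξ1, rt_add hξ1, rt_one hξ1,
        red_mul (hrtle _) hξn.le, red_mul (hrtle _) hξn.le]
      ring
    have hor : ∀ a b, τ a b = 0 ∨ τ a b ^ T.e = 1 := fun a b => by
      rcases hτ a b with ⟨h, -⟩ | ⟨r, h, -⟩
      · exact Or.inl h
      · exact Or.inr (by rw [h, rt_pow_e hξ1])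
    rcases hor (j + 1) (l + 1) with h | h
    · rcases hor j l with h' | h'
      · rw [h, h', mul_zero]
      · rw [h, red_zero] at hred
        exact absurd hred.symm (red_ne_zero (nnnorm_rootOfUnity T.e_pos.ne'
          (by rw [mul_pow, hξ1, h', one_mul])))
    · rcases hor j l with h' | h'
      · rw [h', mul_zero, red_zero] at hred
        exact absurd hred (red_ne_zero (nnnorm_rootOfUnity T.e_pos.ne' h))
      · exact eq_of_nnnorm_sub_lt T.not_dvd h (by rw [mul_pow, hξ1, h', one_mul])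
          ((red_eq_red_iff (hτle _ _).1 hle).mp hred)
  -- expansions of the coordinates
  choose b hbK hb using fun i => T.exists_expansion (hy.G_mem hM i)
  have hG : ∀ i j, M.G i (pts j) =
      ∑ r ∈ Finset.range T.e, b i r * T.π ^ r * rt ξ j ^ r := by
    intro i j
    rw [hpts, M.G_act hM, inerAut_apply, hb i, map_sum]
    refine Finset.sum_congr rfl fun r _ => ?_
    rw [map_mul, map_pow, mem_inerG.mp (s ^ j.val).2 _ (hbK i r), hspow, mul_pow, rt]
    ring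
  have hbound : ∀ i r, r < T.e → ‖b i r * T.π ^ r‖₊ ≤ ‖T.π‖₊ ^ (q : ℕ) := by
    intro i r hr
    have h := M.norm_G_le i y
    rw [hw, hb i, T.nnnorm_expansion _ (hbK i)] at h
    exact (Finset.le_sup (f := fun r => ‖b i r * T.π ^ r‖₊) (Finset.mem_range.mpr hr)).trans h
  obtain ⟨i, hi⟩ := exists_G_eq_w hM (y := y)
    (by rw [hw]; exact (pow_pos T.nnnorm_π_pos _).ne')
  rw [hw, hb i, T.nnnorm_expansion _ (hbK i)] at hi
  have hbq : ‖b i (q : ℕ) * T.π ^ (q : ℕ)‖₊ = ‖T.π‖₊ ^ (q : ℕ) := by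
    obtain ⟨r, hr, hr'⟩ := Finset.exists_mem_eq_sup (Finset.range T.e)
      (Finset.nonempty_range_iff.mpr T.e_pos.ne') fun r => ‖b i r * T.π ^ r‖₊
    rw [hi] at hr'
    rw [Finset.mem_range] at hr
    suffices r = (q : ℕ) by rw [this] at hr'; exact hr'.symm
    have hne : b i r ≠ 0 := fun h0 => by
      rw [h0, zero_mul, nnnorm_zero] at hr'
      exact (pow_pos T.nnnorm_π_pos _).ne' hr'
    obtain ⟨k, hk⟩ := exists_zpow_nnnorm_Knr (hbK i r) hne
    rw [nnnorm_mul, nnnorm_pow, hk, ← T.nnnorm_π_pow] at hr'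
    replace hr' : ‖T.π‖₊ ^ ((q : ℕ) : ℤ) = ‖T.π‖₊ ^ ((T.e : ℤ) * k + (r : ℤ)) := by
      rw [zpow_add₀ T.nnnorm_π_pos.ne', zpow_mul]
      simpa using hr'
    rw [T.zpow_π_inj] at hr'
    rcases lt_trichotomy k 0 with h0 | h0 | h0
    · have : (T.e : ℤ) * k ≤ T.e * (-1) := Int.mul_le_mul_of_nonneg_left (by omega) (by omega)
      omega
    · subst h0; omega
    · have : (T.e : ℤ) * 1 ≤ T.e * k := Int.mul_le_mul_of_nonneg_left (by omega) (by omega)
      omega
  have hsmall : ∀ a r, r < (q : ℕ) →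
      ‖b a r * T.π ^ r‖₊ ≤ ‖((q : ℕ) : Ql q)‖₊ * ‖T.π‖₊ ^ r := by
    intro a r hr
    rw [nnnorm_mul, nnnorm_pow]
    refine mul_le_mul_of_nonneg_right (nnnorm_le_prime_of_lt (hbK a r) ?_) zero_le
    by_contra hge
    have h := hbound a r (by omega)
    rw [nnnorm_mul, nnnorm_pow] at h
    have h2 := (le_mul_of_one_le_left zero_le (not_lt.mp hge)).trans h
    rw [T.pow_π_le_pow] at h2
    omega
  obtain ⟨cf, hcf, hquad⟩ := M.quad i
  have hsum : ∀ j l, M.G i (pts j + pts l) = ∑ r ∈ Finset.range T.e, b i r * T.π ^ r * Z r j l := by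
    intro j l
    rcases hτ j l with ⟨h, hp, -⟩ | ⟨r, h, hp, -⟩
    · simp [Z, h, hp, IntModel.G]
    · rw [hp, hG]
      refine Finset.sum_congr rfl fun n _ => ?_
      simp [Z, h, nnnorm_ne_zero_iff.mp (show ‖rt ξ r‖₊ ≠ 0 by rw [hrtn r]; exact one_ne_zero)]
  let wt : ZMod T.e → ZMod T.e → Ql q := fun j l =>
    rt ξ j ^ (T.e - 1) * rt ξ l ^ (T.e - ((q : ℕ) - 1))
  have hkey : ∑ r ∈ Finset.range T.e, b i r * T.π ^ r *
      (∑ j : ZMod T.e, ∑ l : ZMod T.e, (Z r j l - rt ξ j ^ r - rt ξ l ^ r) * wt j l) =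
      ∑ a, ∑ a', cf a a' * ((∑ j : ZMod T.e, M.G a (pts j) * rt ξ j ^ (T.e - 1)) *
        ∑ l : ZMod T.e, M.G a' (pts l) * rt ξ l ^ (T.e - ((q : ℕ) - 1))) := by
    have h1 : ∀ j l, ∑ r ∈ Finset.range T.e, b i r * T.π ^ r * (Z r j l - rt ξ j ^ r - rt ξ l ^ r) =
        ∑ a, ∑ a', cf a a' * (M.G a (pts j) * M.G a' (pts l)) := by
      intro j l
      have h := hquad (pts j) (pts l)
      rw [hsum, hG i j, hG i l] at h
      simp only [mul_sub, Finset.sum_sub_distrib]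
      rw [h]
      ring
    calc _ = ∑ j : ZMod T.e, ∑ l : ZMod T.e, (∑ r ∈ Finset.range T.e,
          b i r * T.π ^ r * (Z r j l - rt ξ j ^ r - rt ξ l ^ r)) * wt j l := by
          simp only [Finset.mul_sum, Finset.sum_mul, ← mul_assoc]
          rw [Finset.sum_comm]
          exact Finset.sum_congr rfl fun j _ => Finset.sum_comm
      _ = _ := by
          simp only [h1, Finset.mul_sum, Finset.sum_mul, wt]
          rw [Finset.sum_comm]
          refine Eq.trans (Finset.sum_congr rfl fun l _ => Finset.sum_comm) ?_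
          rw [Finset.sum_comm]
          refine Finset.sum_congr rfl fun a _ => ?_
          refine Eq.trans (Finset.sum_congr rfl fun l _ => Finset.sum_comm) ?_
          rw [Finset.sum_comm]
          exact Finset.sum_congr rfl fun a' _ =>
            Finset.sum_congr rfl fun l _ => Finset.sum_congr rfl fun j _ => by ring
  have hzero : ∀ r < T.e, r ≠ (q : ℕ) →
      ∑ j : ZMod T.e, ∑ l : ZMod T.e, (Z r j l - rt ξ j ^ r - rt ξ l ^ r) * wt j l = 0 := by
    intro r hr hrq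
    set S := ∑ j : ZMod T.e, ∑ l : ZMod T.e, (Z r j l - rt ξ j ^ r - rt ξ l ^ r) * wt j l
    have hS : S = ξ ^ (r + ((T.e - 1) + (T.e - ((q : ℕ) - 1)))) * S := by
      simp only [S, Finset.mul_sum]
      refine (Fintype.sum_equiv (Equiv.addRight (1 : ZMod T.e)) _ _ fun j => ?_).symm
      refine Fintype.sum_equiv (Equiv.addRight (1 : ZMod T.e)) _ _ fun l => ?_
      simp only [Equiv.coe_addRight, Z, wt, hτshift, rt_add hξ1, rt_one hξ1, mul_eq_zero,
        hξ.ne_zero T.e_pos.ne', false_or, mul_pow, pow_add]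
      split_ifs <;> ring
    refine (mul_eq_zero.mp (show (ξ ^ (r + ((T.e - 1) + (T.e - ((q : ℕ) - 1)))) - 1) * S = 0 by
      rw [sub_mul, one_mul, ← hS, sub_self])).resolve_left (sub_ne_zero.mpr fun h1 => hrq ?_)
    obtain ⟨d, hd⟩ := (hξ.pow_eq_one_iff_dvd _).mp h1
    rcases Nat.lt_or_ge d 3 with hd3 | hd3
    · interval_cases d <;> omega
    · have : T.e * 3 ≤ T.e * d := Nat.mul_le_mul_left _ hd3
      omega
  have hSq : ‖∑ j : ZMod T.e, ∑ l : ZMod T.e,
      (Z (q : ℕ) j l - rt ξ j ^ (q : ℕ) - rt ξ l ^ (q : ℕ)) * wt j l‖₊ = ‖((q : ℕ) : Ql q)‖₊ := by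
    have hZq : ∀ j l, Z (q : ℕ) j l = τ j l ^ (q : ℕ) := fun j l => by
      simp only [Z]; split_ifs with h
      · rw [h, zero_pow q.2.ne_zero]
      · rfl
    have hmain := sum_binomial hξ q.2.two_le hqe
    have herr : ∀ j l, ‖(τ j l ^ (q : ℕ) - (rt ξ j + rt ξ l) ^ (q : ℕ)) * wt j l‖₊ ≤
        ‖((q : ℕ) : Ql q)‖₊ * ‖((q : ℕ) : Ql q)‖₊ := by
      intro j l
      have hw1 : ‖wt j l‖₊ = 1 := by simp [wt, hrtn]
      rw [nnnorm_mul, hw1, mul_one]
      have hab : ‖rt ξ j + rt ξ l‖₊ ≤ 1 := (intRing q).add_mem (hrtle j) (hrtle l)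
      refine nnnorm_pow_sub_pow_le hab (hτle j l).1 (nnnorm_le_prime_of_lt
        (sub_mem (hτle j l).2 (add_mem (mem_Knr_rt T.not_dvd hξ1 j) (mem_Knr_rt T.not_dvd hξ1 l))) ?_)
      rw [← red_eq_red_iff (hτle j l).1 hab, hτred, red_add (hrtle j) (hrtle l)]
    have hsplit : ∑ j : ZMod T.e, ∑ l : ZMod T.e,
        (Z (q : ℕ) j l - rt ξ j ^ (q : ℕ) - rt ξ l ^ (q : ℕ)) * wt j l =
        (∑ j : ZMod T.e, ∑ l : ZMod T.e, (τ j l ^ (q : ℕ) - (rt ξ j + rt ξ l) ^ (q : ℕ)) * wt j l) +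
          ((q : ℕ) : Ql q) * (T.e : Ql q) * (T.e : Ql q) := by
      rw [← hmain, ← Finset.sum_add_distrib]
      refine Finset.sum_congr rfl fun j _ => ?_
      rw [← Finset.sum_add_distrib]
      refine Finset.sum_congr rfl fun l _ => ?_
      rw [hZq]
      ring
    have hmainn : ‖((q : ℕ) : Ql q) * (T.e : Ql q) * (T.e : Ql q)‖₊ = ‖((q : ℕ) : Ql q)‖₊ := by
      rw [nnnorm_mul, nnnorm_mul, nnnorm_natCast_eq_one T.not_dvd, mul_one, mul_one]
    have herrsum : ‖∑ j : ZMod T.e, ∑ l : ZMod T.e,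
        (τ j l ^ (q : ℕ) - (rt ξ j + rt ξ l) ^ (q : ℕ)) * wt j l‖₊ < ‖((q : ℕ) : Ql q)‖₊ :=
      lt_of_le_of_lt (IsUltrametricDist.nnnorm_sum_le_of_forall_le fun j _ =>
        IsUltrametricDist.nnnorm_sum_le_of_forall_le fun l _ => herr j l)
        (mul_lt_of_lt_one_left nnnorm_prime_pos nnnorm_prime_lt_one)
    rw [hsplit, IsUltrametricDist.nnnorm_add_eq_max_of_nnnorm_ne_nnnorm
      (by rw [hmainn]; exact herrsum.ne), hmainn, max_eq_right herrsum.le]
  have hlhs : ‖∑ r ∈ Finset.range T.e, b i r * T.π ^ r *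
      (∑ j : ZMod T.e, ∑ l : ZMod T.e, (Z r j l - rt ξ j ^ r - rt ξ l ^ r) * wt j l)‖₊ =
      ‖T.π‖₊ ^ (q : ℕ) * ‖((q : ℕ) : Ql q)‖₊ := by
    rw [Finset.sum_eq_single (q : ℕ)
      (fun r hr hrq => by rw [hzero r (Finset.mem_range.mp hr) hrq, mul_zero])
      (fun h => absurd (Finset.mem_range.mpr hqe) h), nnnorm_mul, hbq, hSq]
  have hpart : ∀ a r, 1 ≤ r → r < (q : ℕ) →
      ‖∑ j : ZMod T.e, M.G a (pts j) * rt ξ j ^ (T.e - r)‖₊ ≤
        ‖((q : ℕ) : Ql q)‖₊ * ‖T.π‖₊ ^ r := by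
    intro a r h1 hr
    simp only [hG]
    rw [sum_rt_pow_mul hξ (r := r) (by omega) (by omega) fun t => b a t * T.π ^ t,
      if_pos (by omega), nnnorm_mul, nnnorm_natCast_eq_one T.not_dvd, one_mul]
    exact hsmall a r hr
  have hrhs : ‖∑ a, ∑ a', cf a a' * ((∑ j : ZMod T.e, M.G a (pts j) * rt ξ j ^ (T.e - 1)) *
      ∑ l : ZMod T.e, M.G a' (pts l) * rt ξ l ^ (T.e - ((q : ℕ) - 1)))‖₊ ≤
      (‖((q : ℕ) : Ql q)‖₊ * ‖T.π‖₊ ^ 1) * (‖((q : ℕ) : Ql q)‖₊ * ‖T.π‖₊ ^ ((q : ℕ) - 1)) := by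
    refine IsUltrametricDist.nnnorm_sum_le_of_forall_le fun a _ =>
      IsUltrametricDist.nnnorm_sum_le_of_forall_le fun a' _ => ?_
    rw [nnnorm_mul, nnnorm_mul]
    exact (mul_le_of_le_one_left zero_le (hcf a a')).trans
      (mul_le_mul (hpart a 1 le_rfl (by omega)) (hpart a' _ (by omega) (by omega)) zero_le zero_le)
  rw [← hkey, hlhs] at hrhs
  refine absurd hrhs (not_le.mpr ?_)
  rw [mul_mul_mul_comm, ← pow_add, show 1 + ((q : ℕ) - 1) = (q : ℕ) by omega,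
    mul_comm (‖T.π‖₊ ^ (q : ℕ)), mul_assoc]
  refine mul_lt_of_lt_one_left (mul_pos nnnorm_prime_pos (pow_pos T.nnnorm_π_pos _)) ?_
  exact nnnorm_prime_lt_one

/-- A point generating a piece of niveau two is not at distance `|π| ^ q` (odd `q`). -/
theorem w_ne_pow_q (hM : M.Equivariant act inerAut) (hone : ∀ x, act 1 x = x)
    (hmul : ∀ (a b : inerG q) (x : X), act (a * b) x = act a (act b x))
    (hqX : ∀ x : X, (q : ℕ) • x = 0) (hq2 : (q : ℕ) ≠ 2) (he : T.e = (q : ℕ) ^ 2 - 1)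
    {ξ : Ql q} (hξ : IsPrimitiveRoot ξ T.e) (s : inerG q)
    (hπ : locAut q (s : Gl q) T.π = ξ * T.π) {y : X} (hy : T.HFixed act y) {t c : ℕ}
    (hrel : act s (act s y) + c • y = t • act s y)
    (hroot : red ξ ^ 2 + (c : Res q) = (t : Res q) * red ξ) :
    M.w y ≠ ‖T.π‖₊ ^ (q : ℕ) := by
  exact w_ne_pow_q_of_lt hM hone hmul hqX (by
    have hq3 : 3 ≤ (q : ℕ) := by have := q.2.two_le; omega
    have : (q : ℕ) * 3 ≤ (q : ℕ) ^ 2 := by rw [pow_two]; exact Nat.mul_le_mul_left _ hq3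
    omega) he hξ s hπ hy hrel hroot

end Tame

end FLTA.TaylorWiles.Flat

end
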