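import Fermat.Agent.TaylorWiles.FlatKummerJump
import Fermat.Agent.TaylorWiles.FlatExponent
import Mathlib.RingTheory.Polynomial.Basic

/-!
# Pieces of niveau two and the orbit contradiction
-/

set_option autoImplicit false
set_option linter.style.haveILetI false

open scoped NNReal
open Polynomial

noncomputable section

namespace FLTA.TaylorWiles.Flat

open FLTA.PT (Gl Ql locAut)

attribute [local instance] FLTA.PT.factPrime

variable {q : Nat.Primes}

namespace Tame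

variable {T : Tame q} {X : Type} [AddCommGroup X] {M : IntModel (Ql q) X}
  {act : inerG q → X →+ X}

/-- If `r` is a root of `X² - t X + c` over the prime field, so is `r ^ q`. -/
theorem root_frobenius {r : Res q} {t c : ℕ} (h : r ^ 2 + (c : Res q) = (t : Res q) * r) :
    (r ^ (q : ℕ)) ^ 2 + (c : Res q) = (t : Res q) * r ^ (q : ℕ) := by
  have h1 := congrArg (frobenius (Res q) (q : ℕ)) h
  rw [map_add, map_pow, map_mul, map_natCast, map_natCast, frobenius_def] at h1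
  exact h1

theorem red_pow_inj {e : ℕ} (he : ¬ (q : ℕ) ∣ e) {ξ : Ql q} (hξ : IsPrimitiveRoot ξ e) {a b : ℕ}
    (h : red ξ ^ a = red ξ ^ b) : a % e = b % e := by
  have he0 := ne_zero_of_not_dvd he
  have hξ1 := nnnorm_rootOfUnity he0 hξ.pow_eq_one
  rw [← red_pow hξ1.le, ← red_pow hξ1.le, red_eq_red_iff (by rw [nnnorm_pow, hξ1, one_pow])
    (by rw [nnnorm_pow, hξ1, one_pow])] at h
  have h2 := eq_of_nnnorm_sub_lt he (by rw [← pow_mul, mul_comm, pow_mul, hξ.pow_eq_one, one_pow])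
    (by rw [← pow_mul, mul_comm, pow_mul, hξ.pow_eq_one, one_pow]) h
  rw [pow_eq_pow_mod a hξ.pow_eq_one, pow_eq_pow_mod b hξ.pow_eq_one] at h2
  exact hξ.pow_inj (Nat.mod_lt _ (Nat.pos_of_ne_zero he0)) (Nat.mod_lt _ (Nat.pos_of_ne_zero he0))
    h2

/-- An element `u + v ξ` of `𝔽_{q²}` vanishes only for `u = v = 0`. -/
theorem red_coord_eq_zero (he : T.e = (q : ℕ) ^ 2 - 1) {ξ : Ql q} (hξ : IsPrimitiveRoot ξ T.e)
    {u v : ℕ} (h : (u : Res q) + (v : Res q) * red ξ = 0) :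
    (q : ℕ) ∣ u ∧ (q : ℕ) ∣ v := by
  have hq2 := q.2.two_le
  suffices hv : (v : Res q) = 0 by
    rw [hv, zero_mul, add_zero] at h
    exact ⟨(CharP.cast_eq_zero_iff (Res q) (q : ℕ) u).mp h,
      (CharP.cast_eq_zero_iff (Res q) (q : ℕ) v).mp hv⟩
  by_contra hv
  have hx : red ξ = -(u : Res q) / (v : Res q) :=
    (eq_div_iff hv).mpr (by linear_combination h)
  have hfix : red ξ ^ (q : ℕ) = red ξ ^ 1 := by
    rw [pow_one]
    conv_rhs => rw [hx]
    conv_lhs => rw [hx, ← frobenius_def, map_div₀, map_neg, map_natCast, map_natCast]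
  have := red_pow_inj T.not_dvd hξ hfix
  have hle : (q : ℕ) * 2 ≤ (q : ℕ) ^ 2 := by rw [pow_two]; exact Nat.mul_le_mul_left _ hq2
  rw [Nat.mod_eq_of_lt (by omega), Nat.mod_eq_of_lt (by omega)] at this
  omega

variable (hM : M.Equivariant act inerAut)
include hM

/-- A nonzero point of niveau two in the open ball is at distance exactly `|π|`. -/
theorem w_eq_π (hone : ∀ x, act 1 x = x)
    (hmul : ∀ (a b : inerG q) (x : X), act (a * b) x = act a (act b x))
    (hqX : ∀ x : X, (q : ℕ) • x = 0) (hq2 : (q : ℕ) ≠ 2) (he : T.e = (q : ℕ) ^ 2 - 1)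
    {ξ : Ql q} (hξ : IsPrimitiveRoot ξ T.e) (s : inerG q)
    (hπ : locAut q (s : Gl q) T.π = ξ * T.π) {y : X} (hy : T.HFixed act y) (hy0 : y ≠ 0)
    (hw : M.w y < 1) {t c : ℕ} (hrel : act s (act s y) + c • y = t • act s y)
    (hroot : red ξ ^ 2 + (c : Res q) = (t : Res q) * red ξ) : M.w y = ‖T.π‖₊ := by
  obtain ⟨m, hm1, hmf, hm⟩ := exists_exponent hM hy (hqX y) hy0 hw
  have hr := quadratic_eq_zero hM hm1 hm s hξ.pow_eq_one hπ hrel
  have hq3 : 3 ≤ (q : ℕ) := by have := q.2.two_le; omega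
  have hle : (q : ℕ) * 3 ≤ (q : ℕ) ^ 2 := by rw [pow_two]; exact Nat.mul_le_mul_left _ hq3
  have hfm : T.f0 * ((q : ℕ) - 1) = ((q : ℕ) + 1) * ((q : ℕ) - 1) := by
    rw [T.f0_mul, he, pow_two, ← Nat.mul_self_sub_mul_self_eq, one_mul]
  have hf : T.f0 = (q : ℕ) + 1 := Nat.eq_of_mul_eq_mul_right (by omega) hfm
  have hroots : red ξ ^ m = red ξ ^ 1 ∨ red ξ ^ m = red ξ ^ (q : ℕ) := by
    have h2 := root_frobenius hroot
    have hne : red ξ ≠ red ξ ^ (q : ℕ) := fun hh => by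
      have := red_pow_inj T.not_dvd hξ (a := 1) (b := (q : ℕ)) (by rw [pow_one]; exact hh)
      rw [Nat.mod_eq_of_lt (by omega), Nat.mod_eq_of_lt (by omega)] at this
      omega
    have hsum : red ξ + red ξ ^ (q : ℕ) = (t : Res q) := by
      have : (red ξ - red ξ ^ (q : ℕ)) * (red ξ + red ξ ^ (q : ℕ) - (t : Res q)) = 0 := by
        linear_combination hroot - h2
      exact sub_eq_zero.mp ((mul_eq_zero.mp this).resolve_left (sub_ne_zero.mpr hne))
    have : (red ξ ^ m - red ξ) * (red ξ ^ m - red ξ ^ (q : ℕ)) = 0 := by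
      linear_combination hr - hroot - (red ξ ^ m - red ξ) * hsum
    rw [pow_one]
    exact (mul_eq_zero.mp this).imp sub_eq_zero.mp sub_eq_zero.mp
  rcases hroots with h | h
  · have := red_pow_inj T.not_dvd hξ h
    rw [Nat.mod_eq_of_lt (by omega), Nat.mod_eq_of_lt (by omega)] at this
    rw [hm, this, pow_one]
  · have := red_pow_inj T.not_dvd hξ h
    rw [Nat.mod_eq_of_lt (by omega), Nat.mod_eq_of_lt (by omega)] at this
    subst this
    exact absurd hm (w_ne_pow_q hM hone hmul hqX hq2 he hξ s hπ hy hrel hroot)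

/-- On a subgroup with at most `q²` elements made of such points, one coordinate has leading
coefficient injective. -/
theorem exists_coord_injective (hqX : ∀ x : X, (q : ℕ) • x = 0) (he : T.e = (q : ℕ) ^ 2 - 1)
    {ξ : Ql q} (hξ : IsPrimitiveRoot ξ T.e) (s : inerG q)
    (hπ : locAut q (s : Gl q) T.π = ξ * T.π) (A : AddSubgroup X) [Finite A]
    (hA : Nat.card A ≤ (q : ℕ) ^ 2) (hne : A ≠ ⊥) (hs : ∀ a ∈ A, act s a ∈ A)
    (hw : ∀ a ∈ A, a ≠ 0 → M.w a = ‖T.π‖₊) :
    ∃ i, ∀ a ∈ A, a ≠ 0 → ‖M.G i a‖₊ = ‖T.π‖₊ := by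
  classical
  have hwle : ∀ a ∈ A, M.w a ≤ ‖T.π‖₊ ^ 1 := fun a ha => by
    rw [pow_one]
    rcases eq_or_ne a 0 with rfl | h
    · simp
    · exact (hw a ha h).le
  obtain ⟨a₀, ha₀, ha₀0⟩ := (AddSubgroup.bot_or_exists_ne_zero A).resolve_left hne
  obtain ⟨i, hi⟩ := exists_lam_ne_zero (T := T) (m := 1) (by rw [pow_one]; exact hw a₀ ha₀ ha₀0)
  refine ⟨i, fun a ha ha0 => ?_⟩
  suffices hlam : T.lam M 1 i a ≠ 0 by
    refine le_antisymm ((M.norm_G_le i a).trans (hw a ha ha0).le) (not_lt.mp fun hlt => hlam ?_)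
    rw [lam, red_eq_zero_iff (nnnorm_G_div_le (hwle a ha) i)]
    exact T.nnnorm_div_π_lt (by rwa [pow_one])
  intro hzero
  let Ψ := Exponent.pointHom (p := (q : ℕ)) a (act s a) (hqX _) (hqX _)
  have hΨA : ∀ z, Ψ z ∈ A := fun z =>
    add_mem (AddSubgroup.nsmul_mem _ ha _) (AddSubgroup.nsmul_mem _ (hs a ha) _)
  have hlamΨ : ∀ z (j : M.ι), T.lam M 1 j (Ψ z) =
      ((z.1.val : Res q) + (z.2.val : Res q) * red ξ) * T.lam M 1 j a := by
    intro z j
    show T.lam M 1 j (z.1.val • a + z.2.val • act s a) = _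
    rw [lam_add le_rfl ((M.w_nsmul_le _ a).trans (hwle a ha))
      ((M.w_nsmul_le _ _).trans (hwle _ (hs a ha))), lam_nsmul le_rfl (hwle a ha),
      lam_nsmul le_rfl (hwle _ (hs a ha)), lam_act hM (hwle a ha) j s hξ.pow_eq_one hπ, pow_one]
    ring
  have hΨinj : Function.Injective Ψ := by
    rw [injective_iff_map_eq_zero]
    intro z hz
    obtain ⟨j, hj⟩ := exists_lam_ne_zero (T := T) (m := 1) (by rw [pow_one]; exact hw a ha ha0)
    have h := hlamΨ z j
    rw [hz, lam_zero, eq_comm, mul_eq_zero] at h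
    obtain ⟨h1, h2⟩ := red_coord_eq_zero he hξ (h.resolve_right hj)
    exact Prod.ext ((ZMod.val_eq_zero _).mp (Nat.eq_zero_of_dvd_of_lt h1 (ZMod.val_lt _)))
      ((ZMod.val_eq_zero _).mp (Nat.eq_zero_of_dvd_of_lt h2 (ZMod.val_lt _)))
  let ΨA : ZMod (q : ℕ) × ZMod (q : ℕ) → A := fun z => ⟨Ψ z, hΨA z⟩
  have hbij : Function.Bijective ΨA := by
    refine (Nat.bijective_iff_injective_and_card ΨA).mpr
      ⟨fun z z' h => hΨinj (congrArg Subtype.val h), le_antisymm ?_ ?_⟩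
    · exact Nat.card_le_card_of_injective ΨA fun z z' h => hΨinj (congrArg Subtype.val h)
    · rw [Nat.card_prod, Nat.card_zmod, ← pow_two]; exact hA
  obtain ⟨z, hz⟩ := hbij.2 ⟨a₀, ha₀⟩
  have hz' : Ψ z = a₀ := congrArg Subtype.val hz
  exact hi (by rw [← hz', hlamΨ, hzero, mul_zero])

/-- The orbit contradiction: a low layer cannot act on a point of the open ball through
translations at distance `|π|`. -/
theorem orbit_contradiction (A S : AddSubgroup X) [Finite S] (hSA : S ≤ A)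
    (hA : ∀ a ∈ A, T.HFixed act a) {i : M.ι}
    (hwA : ∀ a ∈ A, a ≠ 0 → M.w a = ‖T.π‖₊ ∧ ‖M.G i a‖₊ = ‖T.π‖₊) {x : X} (hx : M.w x < 1)
    {χ : Gl q → ZMod (q : ℕ)} {n : ℕ} (hn : 1 ≤ n) (hnt : n < T.top) (hqn : ¬ (q : ℕ) ∣ n)
    (hd : T.Deep χ n) (hlead : T.lead n χ ≠ 0) (hcard : Nat.card S * (q : ℕ) + n ≤ T.top)
    (hker : ∀ h : inerG q, (h : Gl q) ∈ T.H → χ h = 0 → act h x - x ∈ S)
    {τ : inerG q} (hτ : (τ : Gl q) ∈ T.H) (hτA : act τ x - x ∈ A) (hτS : act τ x - x ∉ S) :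
    False := by
  classical
  haveI := Fintype.ofFinite S
  set g : S → Ql q := fun s => M.G i (x + s) with hg
  have hwle : ∀ a ∈ A, M.w a ≤ ‖T.π‖₊ := fun a ha => by
    rcases eq_or_ne a 0 with rfl | h
    · simp
    · exact (hwA a ha h).1.le
  have hdiff : ∀ a ∈ A, ∀ b ∈ A, a ≠ b →
      ‖M.G i (x + a) - M.G i (x + b)‖₊ = ‖T.π‖₊ := by
    intro a ha b hb hab
    have hab' := A.sub_mem ha hb
    have hne : a - b ≠ 0 := sub_ne_zero.mpr hab
    obtain ⟨h1, h2⟩ := hwA _ hab' hne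
    have hxb : M.w (x + b) < 1 := lt_of_le_of_lt (M.w_add_le _ _)
      (max_lt hx (lt_of_le_of_lt (hwle b hb) T.nnnorm_π_lt_one))
    have hq := M.norm_quad i (x + b) (a - b)
    rw [show x + b + (a - b) = x + a by abel] at hq
    have hlt : ‖M.G i (x + a) - M.G i (x + b) - M.G i (a - b)‖₊ < ‖T.π‖₊ := by
      refine lt_of_le_of_lt hq ?_
      rw [h1]
      exact mul_lt_of_lt_one_left T.nnnorm_π_pos hxb
    rw [show M.G i (x + a) - M.G i (x + b) =
      (M.G i (x + a) - M.G i (x + b) - M.G i (a - b)) + M.G i (a - b) by ring,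
      IsUltrametricDist.nnnorm_add_eq_max_of_nnnorm_ne_nnnorm (by rw [h2]; exact hlt.ne), h2,
      max_eq_right hlt.le]
  let P : (Ql q)[X] := ∏ s : S, (Polynomial.X - Polynomial.C (g s))
  have hact : ∀ (h : inerG q), (h : Gl q) ∈ T.H → ∀ s : S,
      inerAut h (g s) = M.G i (x + ((act h x - x) + (s : X))) := by
    intro h hh s
    rw [hg, ← M.G_act hM, map_add, hA _ (hSA s.2) h hh]
    congr 1
    abel
  have hcoef : ∀ k, ‖P.coeff k‖₊ ≤ 1 := by
    refine Finset.prod_induction (s := (Finset.univ : Finset S))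
      (fun s => Polynomial.X - Polynomial.C (g s))
      (fun R : (Ql q)[X] => ∀ k, ‖R.coeff k‖₊ ≤ 1) ?_ ?_ ?_
    · intro R R' hR hR' k
      rw [coeff_mul]
      refine IsUltrametricDist.nnnorm_sum_le_of_forall_le fun m _ => ?_
      rw [nnnorm_mul]
      exact mul_le_one₀ (hR _) zero_le (hR' _)
    · intro k; rw [coeff_one]; split_ifs <;> simp
    · intro s _ k
      rcases k with _ | _ | k
      · simpa using (M.norm_G_le i _).trans (M.w_le_one _)
      · simp [coeff_C]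
      · simp [coeff_X, coeff_C]
  have hzfix : ∀ k, ∀ σ ∈ T.H, χ σ = 0 → locAut q σ (P.coeff k) = P.coeff k := by
    intro k σ hσ hχ
    let h : inerG q := ⟨σ, T.H_le_inerG hσ⟩
    have hS := hker h hσ hχ
    have hP : P.map (inerAut h) = P := by
      simp only [P, Polynomial.map_prod, Polynomial.map_sub, Polynomial.map_X, Polynomial.map_C]
      refine Fintype.prod_equiv (Equiv.addLeft (⟨_, hS⟩ : S)) _ _ fun s => ?_
      rw [hact h hσ s]
      rfl
    conv_rhs => rw [← hP, coeff_map]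
    rfl
  have hmove := fun k => T.move_lt_of_layer hn hnt hqn hd hlead (hcoef k) (hzfix k) hτ
  have heval0 : P.eval (g 0) = 0 := by
    simp only [P, eval_prod]
    exact Finset.prod_eq_zero (Finset.mem_univ 0) (by simp)
  have hevalτ : ‖(P.map (inerAut τ)).eval (g 0)‖₊ = ‖T.π‖₊ ^ Nat.card S := by
    simp only [P, Polynomial.map_prod, Polynomial.map_sub, Polynomial.map_X, Polynomial.map_C,
      eval_prod, eval_sub, eval_X, eval_C, nnnorm_prod, hact τ hτ]
    rw [Finset.prod_congr rfl fun (s : S) _ => show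
      ‖g 0 - M.G i (x + ((act τ x - x) + (s : X)))‖₊ = ‖T.π‖₊ from
      hdiff _ A.zero_mem _ (A.add_mem hτA (hSA s.2)) (fun h0 => hτS (by
        have := S.neg_mem s.2
        rwa [neg_eq_of_add_eq_zero_left h0.symm] at this)), Finset.prod_const, Finset.card_univ,
      Nat.card_eq_fintype_card]
  have hle : ∃ k, ‖T.π‖₊ ^ Nat.card S ≤ ‖locAut q (τ : Gl q) (P.coeff k) - P.coeff k‖₊ := by
    have hgle : ‖g 0‖₊ ≤ 1 := (M.norm_G_le i _).trans (M.w_le_one _)
    have he : (P.map (inerAut τ)).eval (g 0) = ∑ k ∈ Finset.range (P.natDegree + 1),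
        (inerAut τ (P.coeff k) - P.coeff k) * g 0 ^ k := by
      simp only [sub_mul, Finset.sum_sub_distrib]
      rw [← eval_eq_sum_range, heval0, sub_zero, eval_eq_sum_range' (n := P.natDegree + 1)
        (by rw [natDegree_map]; omega)]
      simp only [coeff_map]
    obtain ⟨k, -, hk⟩ := IsUltrametricDist.exists_norm_finsetSum_le_of_nonempty
      (Finset.nonempty_range_iff.mpr (Nat.succ_ne_zero P.natDegree))
      fun k => (inerAut τ (P.coeff k) - P.coeff k) * g 0 ^ k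
    refine ⟨k, ?_⟩
    rw [← coe_nnnorm, ← coe_nnnorm, NNReal.coe_le_coe, ← he, hevalτ, nnnorm_mul, nnnorm_pow] at hk
    exact hk.trans (mul_le_of_le_one_right zero_le (pow_le_one₀ zero_le hgle))
  obtain ⟨k, hk⟩ := hle
  have h1 := lt_of_le_of_lt (mul_le_mul_of_nonneg_right (pow_le_pow_left₀ zero_le hk (q : ℕ))
    zero_le) (hmove k)
  rw [← pow_mul, ← pow_add, T.pow_π_lt_pow] at h1
  omega

end Tame

end FLTA.TaylorWiles.Flat

end
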