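import Fermat.Agent.TaylorWiles.FlatLocalLayer

/-!
# Tame inertia and generation of the local Galois group
-/

set_option autoImplicit false
set_option linter.style.haveILetI false

open scoped NNReal
open Polynomial

noncomputable section

namespace FLTA.TaylorWiles.Flat

open FLTA.PT (Gl Ql lvlLoc locAut locAut_surjective isGalois_ql fld mem_fld mem_of_forall_fld
  finiteDimensional_fld finrank_fld IsOpenLvl)

attribute [local instance] FLTA.PT.factPrime

variable {q : Nat.Primes}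

theorem locAut_mul_apply (a b : Gl q) (x : Ql q) :
    locAut q (a * b) x = locAut q a (locAut q b x) := by
  rw [map_mul, AlgEquiv.mul_apply]

/-- A root of a monic polynomial over `ℚ_q` has a power whose norm is a power of `|q|`. -/
theorem exists_zpow_nnnorm_pow {x : Ql q} (hx : x ≠ 0) :
    ∃ k : ℤ, ‖x‖₊ ^ (minpoly ℚ_[(q : ℕ)] x).natDegree = ‖((q : ℕ) : Ql q)‖₊ ^ k := by
  have hint : IsIntegral ℚ_[(q : ℕ)] x := (Algebra.IsAlgebraic.isAlgebraic x).isIntegral
  set P := minpoly ℚ_[(q : ℕ)] x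
  set R := (P.map (algebraMap ℚ_[(q : ℕ)] (Ql q))).roots
  have hsplit : (P.map (algebraMap ℚ_[(q : ℕ)] (Ql q))).Splits := IsAlgClosed.splits _
  have hR : ∀ r ∈ R, ‖r‖₊ = ‖x‖₊ := by
    intro r hr
    obtain ⟨t, rfl⟩ := exists_algEquiv_apply_of_mem_roots hr
    exact nnnorm_locAut q t x
  have hprod : ∀ s : Multiset (Ql q), (∀ r ∈ s, ‖r‖₊ = ‖x‖₊) →
      ‖(s.map fun r => (X - C r).eval 0).prod‖₊ = ‖x‖₊ ^ Multiset.card s := by
    intro s
    induction s using Multiset.induction with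
    | empty => simp
    | cons a s ih =>
      intro h
      rw [Multiset.map_cons, Multiset.prod_cons, nnnorm_mul, Multiset.card_cons, pow_succ',
        ih fun r hr => h r (Multiset.mem_cons_of_mem hr)]
      simp [h a (Multiset.mem_cons_self a s)]
  have h0 : ‖algebraMap ℚ_[(q : ℕ)] (Ql q) (P.coeff 0)‖₊ = ‖x‖₊ ^ P.natDegree := by
    rw [← coeff_map, coeff_zero_eq_eval_zero,
      hsplit.eq_prod_roots_of_monic ((minpoly.monic hint).map _), eval_multiset_prod,
      Multiset.map_map]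
    have := hprod R hR
    rw [show Multiset.card R = P.natDegree by
      rw [splits_iff_card_roots.mp hsplit, natDegree_map]] at this
    exact this
  have hc0 : P.coeff 0 ≠ 0 := minpoly.coeff_zero_ne_zero hint hx
  refine ⟨(P.coeff 0).valuation, ?_⟩
  rw [← h0]
  apply NNReal.eq
  rw [NNReal.coe_zpow, coe_nnnorm, coe_nnnorm, norm_algebraMap',
    ← map_natCast (algebraMap ℚ_[(q : ℕ)] (Ql q)), norm_algebraMap', Padic.norm_p,
    Padic.norm_eq_zpow_neg_valuation hc0, inv_zpow']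

/-- Inertia elements fixing a suitable tame root have `q`-power order modulo an open subgroup. -/
theorem exists_tame_exponent {U : Subgroup (Gl q)} (hU : U ∈ lvlLoc q) :
    ∃ e' : ℕ, ¬ (q : ℕ) ∣ e' ∧ ∀ r : Ql q, r ^ e' = -((q : ℕ) : Ql q) →
      ∀ σ ∈ inerG q, locAut q σ r = r → ∃ a : ℕ, σ ^ (q : ℕ) ^ a ∈ U := by
  haveI hUn := (lvlLoc q).normal_of_mem U hU
  haveI := (lvlLoc q).finiteIndex_of_mem U hU
  have hopen : IsOpenLvl (lvlLoc q) U := ⟨U, hU, le_rfl⟩
  set N := U.index with hN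
  have hN0 : N ≠ 0 := Subgroup.FiniteIndex.index_ne_zero
  obtain ⟨c₀, e', he', hfac⟩ := Nat.exists_eq_pow_mul_and_not_dvd (Nat.factorial_ne_zero N)
    (q : ℕ) q.2.ne_one
  refine ⟨e', he', fun r hr σ hσ hσr => ?_⟩
  obtain ⟨a, m, hm, hNm⟩ := Nat.exists_eq_pow_mul_and_not_dvd hN0 (q : ℕ) q.2.ne_one
  refine ⟨a, ?_⟩
  set τ := σ ^ (q : ℕ) ^ a with hτ
  have hτm : τ ^ m ∈ U := by
    rw [hτ, ← pow_mul, ← hNm]
    exact Subgroup.pow_index_mem U σ
  have hτI : τ ∈ inerG q := pow_mem hσ _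
  have hfix : ∀ (k : ℕ), locAut q (σ ^ k) r = r := by
    intro k
    induction k with
    | zero => simp
    | succ k ih => rw [pow_succ, locAut_mul_apply, hσr, ih]
  have hτr : locAut q τ r = r := hfix _
  have hstab : ∀ (g : Gl q) {x : Ql q}, x ∈ fld q U → locAut q g x ∈ fld q U := by
    intro g x hx
    rw [mem_fld] at hx ⊢
    intro u hu
    have h := hx _ (hUn.conj_mem u hu g⁻¹)
    rw [inv_inv, locAut_mul_apply, locAut_mul_apply] at h
    have h' := congrArg (locAut q g) h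
    rwa [← locAut_mul_apply g g⁻¹, mul_inv_cancel, map_one, AlgEquiv.one_apply] at h'
  haveI := finiteDimensional_fld hopen
  have hr0 : r ≠ 0 := fun h => by
    rw [h, zero_pow (ne_zero_of_not_dvd he'), eq_comm, neg_eq_zero, Nat.cast_eq_zero] at hr
    exact q.2.ne_zero hr
  -- `τ` acts as a wild element
  have hwild : ∀ x ∈ fld q U, x ≠ 0 → red (locAut q τ x / x) = 1 := by
    intro x hx hx0
    obtain ⟨i, hi⟩ := exists_zpow_nnnorm_pow hx0
    set d := (minpoly ℚ_[(q : ℕ)] x).natDegree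
    have hd0 : 0 < d := minpoly.natDegree_pos (Algebra.IsAlgebraic.isAlgebraic x).isIntegral
    have hdN : d ≤ N := by
      rw [hN, ← finrank_fld hopen]
      have e : minpoly ℚ_[(q : ℕ)] x = minpoly ℚ_[(q : ℕ)] (⟨x, hx⟩ : fld q U) :=
        minpoly.algebraMap_eq (A := ℚ_[(q : ℕ)]) (B := fld q U) (B' := Ql q)
          (algebraMap (fld q U) (Ql q)).injective ⟨x, hx⟩
      show (minpoly ℚ_[(q : ℕ)] x).natDegree ≤ _
      rw [e]
      exact minpoly.natDegree_le _
    obtain ⟨b, d', hd', hdfac⟩ := Nat.exists_eq_pow_mul_and_not_dvd hd0.ne' (q : ℕ) q.2.ne_one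
    have hd'e : d' ∣ e' := by
      have h1 : d' ∣ (q : ℕ) ^ c₀ * e' :=
        hfac ▸ (Dvd.intro_left _ hdfac.symm).trans (Nat.dvd_factorial hd0 hdN)
      exact ((q.2.coprime_iff_not_dvd.mpr hd').pow_left c₀).symm.dvd_of_dvd_mul_left h1
    obtain ⟨l, hl⟩ := hd'e
    set c := r ^ l with hc
    have hcd : ‖c‖₊ ^ d' = ‖((q : ℕ) : Ql q)‖₊ := by
      rw [← nnnorm_pow, hc, ← pow_mul, mul_comm, ← hl, hr, nnnorm_neg]
    have hc0 : c ≠ 0 := pow_ne_zero _ hr0
    have hτc : locAut q τ c = c := by rw [hc, map_pow, hτr]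
    set u := x ^ (q : ℕ) ^ b / c ^ i with hu
    have hu1 : ‖u‖₊ = 1 := by
      have hd'0 : d' ≠ 0 := ne_zero_of_not_dvd hd'
      refine (pow_eq_one_iff.mp (?_ : ‖u‖₊ ^ d' = 1)).resolve_right hd'0
      rw [hu, nnnorm_div, nnnorm_pow, nnnorm_zpow, div_pow, ← pow_mul, ← hdfac, hi,
        ← zpow_natCast (‖c‖₊ ^ i), ← zpow_mul, mul_comm i, zpow_mul, zpow_natCast, hcd, div_self
          (zpow_ne_zero _ nnnorm_prime_pos.ne')]
    have hx1 : ‖locAut q τ x / x‖₊ = 1 := by
      rw [nnnorm_div, nnnorm_locAut, div_self (nnnorm_ne_zero_iff.mpr hx0)]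
    have h1 : red (locAut q τ u) = red u := red_inerG hτI hu1.le
    have h2 : locAut q τ u = (locAut q τ x / x) ^ (q : ℕ) ^ b * u := by
      rw [hu, map_div₀, map_pow, map_zpow₀, hτc, div_pow, div_mul_div_comm, mul_comm (x ^ _) (c ^ i),
        mul_div_mul_right _ _ (pow_ne_zero _ hx0)]
    rw [h2, red_mul (by rw [nnnorm_pow, hx1, one_pow]) hu1.le, red_pow hx1.le,
      mul_left_eq_self₀] at h1
    have h3 := h1.resolve_right (red_ne_zero hu1)
    refine sub_eq_zero.mp ((pow_eq_zero_iff (pow_ne_zero b q.2.ne_zero)).mp ?_)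
    rw [sub_pow_expChar_pow, one_pow, h3, sub_self]
  refine mem_of_forall_fld hopen fun x hx => ?_
  set S := ∑ j ∈ Finset.range m, locAut q (τ ^ j) x with hS
  have hm0 : (m : Ql q) ≠ 0 := Nat.cast_ne_zero.mpr (ne_zero_of_not_dvd hm)
  have hτS : locAut q τ S = S := by
    rw [hS, map_sum]
    simp only [← locAut_mul_apply, ← pow_succ']
    have h1 := Finset.sum_range_succ' (fun j => locAut q (τ ^ j) x) m
    have h2 := Finset.sum_range_succ (fun j => locAut q (τ ^ j) x) m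
    rw [h1, mem_fld.mp hx _ hτm, pow_zero, map_one, AlgEquiv.one_apply] at h2
    exact add_right_cancel h2
  set z := x - S / (m : Ql q) with hz
  by_cases hz0 : z = 0
  · rw [sub_eq_zero.mp hz0, map_div₀, hτS, map_natCast]
  exfalso
  have hzU : z ∈ fld q U :=
    sub_mem hx (div_mem (sum_mem fun j _ => hstab _ hx) (natCast_mem _ m))
  have hpow : ∀ j : ℕ, locAut q (τ ^ j) z ∈ fld q U ∧
      ‖locAut q (τ ^ j) z / z‖₊ ≤ 1 ∧ red (locAut q (τ ^ j) z / z) = 1 := by
    intro j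
    induction j with
    | zero => simp [hzU, hz0]
    | succ j ih =>
      obtain ⟨h1, h2, h3⟩ := ih
      have hne : locAut q (τ ^ j) z ≠ 0 := (map_ne_zero_iff _ (locAut q _).injective).mpr hz0
      rw [pow_succ', locAut_mul_apply]
      refine ⟨hstab τ h1, ?_, ?_⟩
      · rw [nnnorm_div, nnnorm_locAut, ← nnnorm_div]; exact h2
      · rw [← div_mul_div_cancel₀ hne, red_mul (by
          rw [nnnorm_div, nnnorm_locAut, div_self (nnnorm_ne_zero_iff.mpr hne)]) h2,
          hwild _ h1 hne, h3, one_mul]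
  have hsum : ∑ j ∈ Finset.range m, locAut q (τ ^ j) z = 0 := by
    have hfixS : ∀ j : ℕ, locAut q (τ ^ j) S = S := by
      intro j
      induction j with
      | zero => simp
      | succ j ih => rw [pow_succ, locAut_mul_apply, hτS, ih]
    simp only [hz, map_sub, map_div₀, map_natCast, hfixS, Finset.sum_sub_distrib, Finset.sum_const,
      Finset.card_range, nsmul_eq_mul, ← hS]
    rw [mul_div_cancel₀ _ hm0, sub_self]
  have key : ∀ s : Finset ℕ, red (∑ j ∈ s, locAut q (τ ^ j) z / z) = s.card := by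
    intro s
    induction s using Finset.induction with
    | empty => simp
    | insert j s hj ih =>
      rw [Finset.sum_insert hj, red_add (hpow j).2.1
        (IsUltrametricDist.nnnorm_sum_le_of_forall_le fun i _ => (hpow i).2.1), ih, (hpow j).2.2,
        Finset.card_insert_of_notMem hj, Nat.cast_succ, add_comm]
  have := key (Finset.range m)
  rw [← Finset.sum_div, hsum, zero_div, red_zero, Finset.card_range, eq_comm,
    CharP.cast_eq_zero_iff (Res q) (q : ℕ)] at this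
  exact hm this

/-- Modulo an open subgroup every element is a Frobenius power times an inertia element. -/
theorem exists_frobenius_mul_inerG {F : Gl q}
    (hF : ∀ (n : ℕ) (ζ : Ql q), ¬ (q : ℕ) ∣ n → ζ ^ n = 1 → locAut q F ζ = ζ ^ (q : ℕ))
    {U : Subgroup (Gl q)} (hU : U ∈ lvlLoc q) (g : Gl q) :
    ∃ (a : ℕ) (i : Gl q) (u : Gl q), i ∈ inerG q ∧ u ∈ U ∧ g = F ^ a * i * u := by
  classical
  haveI hUn := (lvlLoc q).normal_of_mem U hU
  set D := inerG q ⊔ U with hD
  have hopen : IsOpenLvl (lvlLoc q) D := ⟨U, hU, le_sup_right⟩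
  haveI := finiteDimensional_fld hopen
  let b := Module.finBasis ℚ_[(q : ℕ)] (fld q D)
  have hb : ∀ i, (b i : Ql q) ∈ Knr q := fun i => mem_Knr_of_fixed fun s hs =>
    mem_fld.mp (b i).2 s (Subgroup.mem_sup_left hs)
  choose n ζ hn hζ hbz using fun i => exists_root_adjoin (hb i)
  let N := (Finset.univ : Finset (Fin (Module.finrank ℚ_[(q : ℕ)] (fld q D)))).lcm n
  have hN : ∀ T : Finset (Fin (Module.finrank ℚ_[(q : ℕ)] (fld q D))), ¬ (q : ℕ) ∣ T.lcm n := by
    intro T
    induction T using Finset.induction with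
    | empty => simp [q.2.ne_one]
    | insert m T _ ih => rw [Finset.lcm_insert]; exact not_dvd_lcm (hn m) ih
  obtain ⟨ξ, hξ⟩ : ∃ ξ : Ql q, IsPrimitiveRoot ξ N :=
    haveI : NeZero (N : Ql q) := ⟨Nat.cast_ne_zero.2 (ne_zero_of_not_dvd (hN _))⟩
    HasEnoughRootsOfUnity.exists_primitiveRoot (Ql q) N
  obtain ⟨a, ha⟩ := exists_apply_root_eq_pow (hN _) hξ.pow_eq_one g
  have hFa : ∀ k : ℕ, locAut q (F ^ k) ξ = ξ ^ (q : ℕ) ^ k := by
    intro k
    induction k with
    | zero => simp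
    | succ k ih =>
      rw [pow_succ, locAut_mul_apply, hF N ξ (hN _) hξ.pow_eq_one, map_pow, ih, ← pow_mul,
        ← pow_succ]
  set k := (F ^ a)⁻¹ * g with hk
  have hkξ : locAut q k ξ = ξ := by
    rw [hk, locAut_mul_apply, ha, ← hFa, ← locAut_mul_apply, inv_mul_cancel, map_one,
      AlgEquiv.one_apply]
  have hkD : k ∈ D := by
    refine mem_of_forall_fld hopen fun x hx => ?_
    have hbfix : ∀ i, locAut q k (b i : Ql q) = b i := by
      intro i
      have hz : locAut q k (ζ i) = ζ i := by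
        haveI : NeZero N := ⟨ne_zero_of_not_dvd (hN _)⟩
        obtain ⟨c, hc⟩ : n i ∣ N := Finset.dvd_lcm (Finset.mem_univ i)
        obtain ⟨j, -, hj⟩ := hξ.eq_pow_of_pow_eq_one
          (show ζ i ^ N = 1 by rw [hc, pow_mul, (hζ i).pow_eq_one, one_pow])
        rw [← hj, map_pow, hkξ]
      suffices ∀ y ∈ IntermediateField.adjoin ℚ_[(q : ℕ)] {ζ i}, locAut q k y = y from this _ (hbz i)
      intro y hy
      induction hy using IntermediateField.adjoin_induction with
      | mem y hy => rw [Set.mem_singleton_iff] at hy; rw [hy, hz]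
      | algebraMap r => exact AlgEquiv.commutes _ r
      | add u v _ _ hu hv => rw [map_add, hu, hv]
      | inv u _ hu => rw [map_inv₀, hu]
      | mul u v _ _ hu hv => rw [map_mul, hu, hv]
    rw [show x = ((⟨x, hx⟩ : fld q D) : Ql q) from rfl, ← b.sum_repr ⟨x, hx⟩]
    push_cast
    rw [map_sum]
    refine Finset.sum_congr rfl fun i _ => ?_
    exact ((locAut q k).toLinearMap.map_smul _ _).trans (congrArg _ (hbfix i))
  rw [hD, ← SetLike.mem_coe, Subgroup.mul_normal, Set.mem_mul] at hkD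
  obtain ⟨i, hi, u, hu, he⟩ := hkD
  exact ⟨a, i, u, hi, hu, by rw [mul_assoc, he, hk]; group⟩

namespace Tame

variable (T : Tame q)

/-- An inertia element is a power of a generator modulo `H`. -/
theorem exists_pow_mul_mem_H {s : Gl q} (hs : s ∈ inerG q) {ξ : Ql q}
    (hξ : IsPrimitiveRoot ξ T.e) (hπ : locAut q s T.π = ξ * T.π) {σ : Gl q} (hσ : σ ∈ inerG q) :
    ∃ j < T.e, ∃ h ∈ T.H, σ = s ^ j * h := by
  haveI : NeZero T.e := ⟨T.e_pos.ne'⟩
  obtain ⟨η, hη, hση⟩ := T.exists_apply_π σ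
  obtain ⟨j, hj, rfl⟩ := hξ.eq_pow_of_pow_eq_one hη
  refine ⟨j, hj, (s ^ j)⁻¹ * σ, ?_, by group⟩
  rw [T.mem_H_iff]
  refine ⟨mul_mem (inv_mem (pow_mem hs _)) hσ, ?_⟩
  have hpow : ∀ k : ℕ, locAut q (s ^ k) T.π = ξ ^ k * T.π := by
    intro k
    induction k with
    | zero => simp
    | succ k ih =>
      rw [pow_succ', locAut_mul_apply, ih, map_mul,
        mem_inerG.mp hs _ (root_mem_Knr T.not_dvd (by
          rw [← pow_mul, mul_comm, pow_mul, hξ.pow_eq_one, one_pow])), hπ]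
      ring
  rw [locAut_mul_apply, hση, ← hpow, ← locAut_mul_apply, inv_mul_cancel, map_one,
    AlgEquiv.one_apply]

/-- A Frobenius element fixing `π`. -/
theorem exists_frobenius_fix : ∃ F : Gl q,
    (∀ (n : ℕ) (ζ : Ql q), ¬ (q : ℕ) ∣ n → ζ ^ n = 1 → locAut q F ζ = ζ ^ (q : ℕ)) ∧
      locAut q F T.π = T.π := by
  obtain ⟨F₀, hF₀⟩ := exists_frobenius (q := q)
  obtain ⟨ξ, hξ, hπ⟩ := T.exists_apply_π F₀
  obtain ⟨s, hs, hsπ⟩ := T.exists_inerG_apply_π (ξ := ξ⁻¹) (by rw [inv_pow, hξ, inv_one])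
  refine ⟨s * F₀, fun n ζ hn hζ => ?_, ?_⟩
  · rw [locAut_mul_apply, hF₀ n ζ hn hζ, map_pow, mem_inerG.mp hs _ (root_mem_Knr hn hζ)]
  · rw [locAut_mul_apply, hπ, map_mul, mem_inerG.mp hs _ (root_mem_Knr T.not_dvd hξ), hsπ,
      ← mul_assoc, mul_inv_cancel₀, one_mul]
    rintro rfl
    rw [zero_pow T.e_pos.ne'] at hξ
    exact zero_ne_one hξ

/-- The generator of inertia modulo `H`. -/
theorem exists_generator {ξ : Ql q} (hξ : IsPrimitiveRoot ξ T.e) :
    ∃ s ∈ inerG q, locAut q s T.π = ξ * T.π :=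
  T.exists_inerG_apply_π hξ.pow_eq_one

end Tame

end FLTA.TaylorWiles.Flat

end
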