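import Fermat.Agent.TaylorWiles.FlatLocalLayer

/-!
# Integral elements of a Kummer extension move little

If `z` is integral and fixed by the kernel of a character of `H` with a valuation part or a low
layer, every element of `H` moves `z` by less than the corresponding bound.
-/

set_option autoImplicit false
set_option linter.style.haveILetI false

open scoped NNReal
open Polynomial

noncomputable section

namespace FLTA.TaylorWiles.Flat

open FLTA.PT (Gl Ql locAut locAut_surjective isGalois_ql)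

attribute [local instance] FLTA.PT.factPrime

variable {q : Nat.Primes}

namespace Tame

variable (T : Tame q)

/-- An element fixed by the automorphisms fixing `β` is a combination of powers of `β`. -/
theorem exists_sum_pow_of_fixed {β : Ql q} {n : ℕ} (P : Polynomial T.E.toSubfield) (hP : P.Monic)
    (hdeg : P.natDegree = n) (hn : n ≠ 0)
    (hroot : Polynomial.eval₂ T.E.toSubfield.subtype β P = 0) {z : Ql q}
    (hz : ∀ σ ∈ T.H, locAut q σ β = β → locAut q σ z = z) :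
    ∃ a : ℕ → Ql q, (∀ k, a k ∈ T.E) ∧ z = ∑ k ∈ Finset.range n, a k * β ^ k := by
  haveI := isGalois_ql q
  have halg : IsAlgebraic T.E β :=
    (Algebra.IsAlgebraic.isAlgebraic (R := ℚ_[(q : ℕ)]) β).tower_top (L := T.E)
  have hmem : z ∈ (IntermediateField.adjoin T.E {β}).restrictScalars ℚ_[(q : ℕ)] := by
    rw [← InfiniteGalois.fixedField_fixingSubgroup
      ((IntermediateField.adjoin T.E {β}).restrictScalars ℚ_[(q : ℕ)]),
      IntermediateField.mem_fixedField_iff]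
    intro g hg
    obtain ⟨σ, rfl⟩ := locAut_surjective q g
    rw [IntermediateField.mem_fixingSubgroup_iff] at hg
    refine hz σ ?_ (hg β (IntermediateField.mem_adjoin_simple_self T.E β))
    rw [Tame.H, Subgroup.mem_comap, IntermediateField.mem_fixingSubgroup_iff]
    exact fun x hx => hg x ((IntermediateField.adjoin T.E {β}).algebraMap_mem ⟨x, hx⟩)
  rw [IntermediateField.mem_restrictScalars, ← IntermediateField.mem_toSubalgebra,
    IntermediateField.adjoin_simple_toSubalgebra_of_isAlgebraic halg,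
    Algebra.adjoin_singleton_eq_range_aeval, AlgHom.mem_range] at hmem
  obtain ⟨Q, rfl⟩ := hmem
  exact exists_eq_sum_pow T.E.toSubfield P hP hdeg hn hroot ⟨Q, rfl⟩

theorem hout_of_pow_eq {β : Ql q} {m : ℕ} (hm : ¬ (q : ℕ) ∣ m)
    (hβ : ‖β‖₊ ^ (q : ℕ) = ‖T.π‖₊ ^ m) :
    β ≠ 0 ∧ ∀ k, 1 ≤ k → k < (q : ℕ) → ∀ a ∈ T.E.toSubfield, ‖a‖₊ ≠ ‖β‖₊ ^ k := by
  refine ⟨fun h => ?_, fun k h1 hk a ha he => ?_⟩
  · rw [h, nnnorm_zero, zero_pow q.2.ne_zero] at hβ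
    exact (pow_pos T.nnnorm_π_pos m).ne hβ
  · have ha0 : a ≠ 0 := by
      rintro rfl
      rw [nnnorm_zero, eq_comm, pow_eq_zero_iff (by omega)] at he
      rw [he, zero_pow q.2.ne_zero] at hβ
      exact (pow_pos T.nnnorm_π_pos m).ne hβ
    obtain ⟨j, hj⟩ := T.exists_zpow_nnnorm ha ha0
    have h2 := congrArg (· ^ (q : ℕ)) he
    beta_reduce at h2
    rw [hj, ← pow_mul, mul_comm k, pow_mul, hβ, ← pow_mul, ← zpow_natCast, ← zpow_mul,
      ← zpow_natCast, T.zpow_π_inj] at h2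
    have hdvd : (q : ℕ) ∣ m * k := by
      have : ((q : ℕ) : ℤ) ∣ ((m * k : ℕ) : ℤ) := ⟨j, by rw [← h2, mul_comm]⟩
      exact_mod_cast this
    rcases q.2.dvd_mul.mp hdvd with h | h
    · exact hm h
    · exact absurd (Nat.le_of_dvd (by omega) h) (not_le.mpr hk)

theorem nnnorm_apply_pow_sub_le (τ : Gl q) {β : Ql q} {c : ℝ≥0}
    (h : ‖locAut q τ β - β‖₊ ≤ c * ‖β‖₊) (k : ℕ) :
    ‖locAut q τ (β ^ k) - β ^ k‖₊ ≤ c * ‖β ^ k‖₊ := by
  rw [map_pow, ← geom_sum₂_mul, nnnorm_mul, nnnorm_pow]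
  rcases Nat.eq_zero_or_pos k with rfl | hk
  · simp
  calc _ ≤ ‖β‖₊ ^ (k - 1) * (c * ‖β‖₊) := by
        refine mul_le_mul ?_ h zero_le zero_le
        refine IsUltrametricDist.nnnorm_sum_le_of_forall_le fun i hi => ?_
        rw [Finset.mem_range] at hi
        rw [nnnorm_mul, nnnorm_pow, nnnorm_pow, nnnorm_locAut, ← pow_add,
          show i + (k - 1 - i) = k - 1 by omega]
    _ = c * ‖β‖₊ ^ k := by
        conv_rhs => rw [← Nat.sub_add_cancel hk, pow_succ]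
        ring

/-- The jump lemma for a class with valuation prime to `q`. -/
theorem move_lt_of_valuation {χ : Gl q → ZMod (q : ℕ)} {α : Ql q} (hα : T.Kum χ α) {k : ℕ}
    (hk : ¬ (q : ℕ) ∣ k) (hαk : ‖α‖₊ ^ (q : ℕ) = ‖T.π‖₊ ^ k) {z : Ql q} (hz1 : ‖z‖₊ ≤ 1)
    (hz : ∀ σ ∈ T.H, χ σ = 0 → locAut q σ z = z) {τ : Gl q} (hτ : τ ∈ T.H) :
    ‖locAut q τ z - z‖₊ < ‖T.π‖₊ ^ T.f0 := by
  obtain ⟨hβ0, hout⟩ := T.hout_of_pow_eq hk hαk
  obtain ⟨a, ha, rfl⟩ := T.exists_sum_pow_of_fixed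
    (X ^ (q : ℕ) - C (⟨α ^ (q : ℕ), hα.pow_mem⟩ : T.E.toSubfield))
    (monic_X_pow_sub_C _ q.2.ne_zero) natDegree_X_pow_sub_C q.2.ne_zero
    (by rw [eval₂_sub, eval₂_pow, eval₂_X, eval₂_C, sub_eq_zero]; rfl)
    (fun σ hσ hfix => hz σ hσ (by
      rw [← T.zpw_eq_one_iff]
      exact mul_right_cancel₀ hβ0 ((hα.2 σ hσ).symm.trans (hfix.trans (one_mul α).symm))))
  refine nnnorm_apply_sub_lt T.E.toSubfield (locAut q τ : Ql q →+* Ql q)
    (fun x hx => T.apply_of_mem_H hτ hx) hβ0 hout (pow_pos T.nnnorm_π_pos _) (fun j _ => ?_) a ha hz1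
  refine nnnorm_apply_pow_sub_le τ ?_ j
  rw [hα.2 τ hτ, ← sub_one_mul, nnnorm_mul]
  refine mul_le_mul_of_nonneg_right ?_ zero_le
  by_cases h : χ τ = 0
  · simp [h]
  · exact (T.nnnorm_zpw_sub_one h).le

/-- The jump lemma for a class with leading layer `n`. -/
theorem move_lt_of_layer {χ : Gl q → ZMod (q : ℕ)} {n : ℕ} (hn : 1 ≤ n) (hnt : n < T.top)
    (hqn : ¬ (q : ℕ) ∣ n) (hd : T.Deep χ n) (hlead : T.lead n χ ≠ 0) {z : Ql q} (hz1 : ‖z‖₊ ≤ 1)
    (hz : ∀ σ ∈ T.H, χ σ = 0 → locAut q σ z = z) {τ : Gl q} (hτ : τ ∈ T.H) :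
    ‖locAut q τ z - z‖₊ ^ (q : ℕ) * ‖T.π‖₊ ^ n < ‖T.π‖₊ ^ T.top := by
  obtain ⟨α, hα, hl⟩ := hd
  have heq : ‖α ^ (q : ℕ) - 1‖₊ = ‖T.π‖₊ ^ n := by
    refine le_antisymm hl (not_lt.mp fun hlt => hlead ?_)
    rw [T.lead_eq hn hnt hqn hα hl, red_eq_zero_iff (T.nnnorm_div_π_le hl)]
    exact T.nnnorm_div_π_lt hlt
  have h1 : ‖α - 1‖₊ < 1 := red_eq_one_of_pow_sub_lt (by
    rw [heq]; exact pow_lt_one₀ zero_le T.nnnorm_π_lt_one (by omega))
  set β := α - 1 with hβ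
  have hβn : ‖β‖₊ ^ (q : ℕ) = ‖T.π‖₊ ^ n := by
    by_cases hlt : ‖T.π‖₊ ^ T.f0 < ‖β‖₊
    · rw [← T.nnnorm_pow_sub_one_eq h1.le hlt, heq]
    · have := T.nnnorm_pow_sub_one_le_top (not_lt.mp hlt)
      rw [heq, T.pow_π_le_pow] at this
      omega
  have hα1 : ‖α‖₊ = 1 := by
    rw [show α = 1 + β by rw [hβ]; ring, IsUltrametricDist.nnnorm_add_eq_max_of_nnnorm_ne_nnnorm
      (by rw [nnnorm_one]; exact h1.ne'), nnnorm_one, max_eq_left h1.le]
  obtain ⟨hβ0, hout⟩ := T.hout_of_pow_eq hqn hβn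
  have hmonic : ((X + C (1 : T.E.toSubfield)) ^ (q : ℕ) -
      C (⟨α ^ (q : ℕ), hα.pow_mem⟩ : T.E.toSubfield)).Monic ∧
      ((X + C (1 : T.E.toSubfield)) ^ (q : ℕ) -
        C (⟨α ^ (q : ℕ), hα.pow_mem⟩ : T.E.toSubfield)).natDegree = (q : ℕ) := by
    have hm : ((X + C (1 : T.E.toSubfield)) ^ (q : ℕ)).Monic := (monic_X_add_C _).pow _
    have hd : ((X + C (1 : T.E.toSubfield)) ^ (q : ℕ)).natDegree = (q : ℕ) := by
      rw [natDegree_pow, natDegree_X_add_C, mul_one]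
    exact ⟨hm.sub_of_left (lt_of_le_of_lt degree_C_le (by
      rw [degree_eq_natDegree hm.ne_zero, hd]; exact_mod_cast q.2.pos)),
      by rw [natDegree_sub_C, hd]⟩
  obtain ⟨a, ha, rfl⟩ := T.exists_sum_pow_of_fixed
    ((X + C (1 : T.E.toSubfield)) ^ (q : ℕ) -
      C (⟨α ^ (q : ℕ), hα.pow_mem⟩ : T.E.toSubfield)) hmonic.1 hmonic.2 q.2.ne_zero
    (β := β)
    (by
      rw [eval₂_sub, eval₂_pow, eval₂_add, eval₂_X, eval₂_C, eval₂_C, map_one, hβ, sub_add_cancel,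
        sub_eq_zero]
      rfl)
    (z := z) (fun σ hσ hfix => hz σ hσ (by
      rw [← T.zpw_eq_one_iff]
      rw [hβ, map_sub, map_one, sub_left_inj, hα.2 σ hσ] at hfix
      exact mul_right_cancel₀ hα.1 (hfix.trans (one_mul α).symm)))
  set c := ‖T.π‖₊ ^ T.f0 / ‖β‖₊ with hc
  have hcpos : 0 < c := div_pos (pow_pos T.nnnorm_π_pos _) (nnnorm_pos.mpr hβ0)
  have h := nnnorm_apply_sub_lt T.E.toSubfield (locAut q τ : Ql q →+* Ql q)
    (fun x hx => T.apply_of_mem_H hτ hx) hβ0 hout hcpos (fun j _ => by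
      refine nnnorm_apply_pow_sub_le τ ?_ j
      rw [hc, div_mul_cancel₀ _ (nnnorm_ne_zero_iff.mpr hβ0), hβ, map_sub, map_one,
        sub_sub_sub_cancel_right, hα.2 τ hτ, ← sub_one_mul, nnnorm_mul, hα1, mul_one]
      by_cases h0 : χ τ = 0
      · simp [h0]
      · exact (T.nnnorm_zpw_sub_one h0).le) a ha hz1
  have h2 := mul_lt_mul_of_pos_right (pow_lt_pow_left₀ h zero_le q.2.ne_zero)
    (pow_pos T.nnnorm_π_pos n)
  refine lt_of_lt_of_eq h2 ?_
  rw [hc, div_pow, hβn, div_mul_cancel₀ _ (pow_pos T.nnnorm_π_pos n).ne', top, ← pow_mul,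
    mul_comm T.f0]

end Tame

end FLTA.TaylorWiles.Flat

end
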