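import Fermat.Agent.TaylorWiles.FlatDefo
import Fermat.Agent.TaylorWiles.FlatKummerJump

/-!
# The reducible flat bound: the frame and the normal form of the residual representation
-/

set_option autoImplicit false
set_option linter.style.haveILetI false

open scoped NNReal Matrix

noncomputable section

namespace FLTA.TaylorWiles.Flat

open FLTA.PT (Gl Ql lvlLoc locAut)

attribute [local instance] FLTA.PT.factPrime

variable {q : Nat.Primes}

/-- The tame field of exponent `q - 1` with its chosen elements. -/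
structure RedFrame (q : Nat.Primes) where
  odd : (q : ℕ) ≠ 2
  T : Tame q
  he : T.e = (q : ℕ) - 1
  ξ : Ql q
  hξ : IsPrimitiveRoot ξ T.e
  s : Gl q
  hs : s ∈ inerG q
  hsπ : locAut q s T.π = ξ * T.π
  F : Gl q
  hF : ∀ (n : ℕ) (ζ : Ql q), ¬ (q : ℕ) ∣ n → ζ ^ n = 1 → locAut q F ζ = ζ ^ (q : ℕ)
  hFπ : locAut q F T.π = T.π

theorem nonempty_redFrame (hq : (q : ℕ) ≠ 2) : Nonempty (RedFrame q) := by
  have h2 := q.2.two_le
  obtain ⟨T, hT⟩ := exists_tame (q := q) (e := (q : ℕ) - 1)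
    (Nat.not_dvd_of_pos_of_lt (by omega) (by omega)) dvd_rfl
  haveI : NeZero (T.e : Ql q) := ⟨Nat.cast_ne_zero.2 T.e_pos.ne'⟩
  obtain ⟨ξ, hξ⟩ := HasEnoughRootsOfUnity.exists_primitiveRoot (Ql q) T.e
  obtain ⟨s, hs, hsπ⟩ := T.exists_generator hξ
  obtain ⟨F, hF, hFπ⟩ := T.exists_frobenius_fix
  exact ⟨⟨hq, T, hT, ξ, hξ, s, hs, hsπ, F, hF, hFπ⟩⟩

theorem pow_apply_root {σ : Gl q} (hσ : σ ∈ inerG q) {n : ℕ} (hn : ¬ (q : ℕ) ∣ n) {ξ π : Ql q}
    (hξ : ξ ^ n = 1) (h : locAut q σ π = ξ * π) (m : ℕ) :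
    locAut q (σ ^ m) π = ξ ^ m * π := by
  induction m with
  | zero => simp
  | succ m ih =>
    rw [pow_succ', locAut_mul_apply, ih, map_mul, map_pow,
      mem_inerG.mp hσ _ (root_mem_Knr hn hξ), h]
    ring

theorem inv_apply_of_fix {g : Gl q} {x : Ql q} (h : locAut q g x = x) : locAut q g⁻¹ x = x := by
  conv_lhs => rw [← h]
  rw [← locAut_mul_apply, inv_mul_cancel, map_one, AlgEquiv.one_apply]

namespace RedFrame

variable (R : RedFrame q)

theorem f0_eq : R.T.f0 = 1 := by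
  have h := R.T.f0_mul
  rw [R.he] at h
  exact mul_left_eq_self₀.mp h |>.resolve_right (by have := q.2.two_le; omega)

theorem top_eq : R.T.top = (q : ℕ) := by rw [Tame.top, R.f0_eq, mul_one]

theorem f0_lt_e : R.T.f0 < R.T.e := by
  rw [R.f0_eq, R.he]
  have := q.2.two_le
  have := R.odd
  omega

theorem comm_mem_H : R.s⁻¹ * (R.F * R.s * R.F⁻¹) ∈ R.T.H := by
  rw [R.T.mem_H_iff]
  refine ⟨mul_mem (inv_mem R.hs) (inerG_normal.conj_mem _ R.hs _), ?_⟩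
  have h1 : locAut q (R.F * R.s * R.F⁻¹) R.T.π = locAut q R.s R.T.π := by
    rw [locAut_mul_apply, inv_apply_of_fix R.hFπ, locAut_mul_apply, R.hsπ, map_mul, R.hFπ,
      R.hF _ R.ξ R.T.not_dvd R.hξ.pow_eq_one]
    congr 1
    calc R.ξ ^ (q : ℕ) = R.ξ ^ (R.T.e + 1) := by
          congr 1; rw [R.he]; have := q.2.two_le; omega
      _ = R.ξ := by rw [pow_succ, R.hξ.pow_eq_one, one_mul]
  rw [locAut_mul_apply, h1, ← locAut_mul_apply, inv_mul_cancel, map_one, AlgEquiv.one_apply]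

/-- `s` and `F` commute modulo `H`. -/
theorem exists_comm : ∃ h ∈ R.T.H, R.F * R.s = R.s * (h * R.F) :=
  ⟨_, R.comm_mem_H, by group⟩

/-- The local Galois group is generated by `s`, `H` and `F` modulo any open subgroup. -/
theorem gen {P : Gl q → Prop} (hmul : ∀ a b, P a → P b → P (a * b)) (hs : P R.s) (hF : P R.F)
    (hH : ∀ h ∈ R.T.H, P h) {U : Subgroup (Gl q)} (hU : U ∈ lvlLoc q) (hU' : ∀ u ∈ U, P u)
    (g : Gl q) : P g := by
  obtain ⟨a, i, u, hi, hu, rfl⟩ := exists_frobenius_mul_inerG R.hF hU g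
  obtain ⟨j, -, h, hh, rfl⟩ := R.T.exists_pow_mul_mem_H R.hs R.hξ R.hsπ hi
  have hpow : ∀ x, P x → ∀ n : ℕ, P (x ^ n) := fun x hx n => by
    induction n with
    | zero => rw [pow_zero]; exact hU' 1 U.one_mem
    | succ n ih => rw [pow_succ]; exact hmul _ _ ih hx
  exact hmul _ _ (hmul _ _ (hpow _ hF a) (hmul _ _ (hpow _ hs j) (hH h hh))) (hU' u hu)

/-- Inertia is generated by `s` and `H`. -/
theorem gen_iner {P : Gl q → Prop} (hmul : ∀ a b, P a → P b → P (a * b)) (hs : P R.s)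
    (hH : ∀ h ∈ R.T.H, P h) {g : Gl q} (hg : g ∈ inerG q) : P g := by
  obtain ⟨j, -, h, hh, rfl⟩ := R.T.exists_pow_mul_mem_H R.hs R.hξ R.hsπ hg
  refine hmul _ _ ?_ (hH h hh)
  clear hg
  induction j with
  | zero => rw [pow_zero]; exact hH 1 (one_mem _)
  | succ n ih => rw [pow_succ]; exact hmul _ _ ih hs

theorem cy_s_res : ((Tame.cy R.s : ℕ) : Res q) = red R.ξ := by
  have h := Tame.cy_inerG (T := R.T) R.hs R.hξ.pow_eq_one R.hsπ
  rwa [R.f0_eq, pow_one] at h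

theorem cy_H_res {h : Gl q} (hh : h ∈ R.T.H) : ((Tame.cy h : ℕ) : Res q) = 1 := by
  have h1 := Tame.cy_inerG (T := R.T) (R.T.H_le_inerG hh) (ξ := 1) (one_pow _)
    (by rw [one_mul]; exact R.T.apply_of_mem_H hh R.T.π_mem_E)
  rwa [red_one, one_pow] at h1

theorem red_ξ_ne_one : red R.ξ ≠ (1 : Res q) := by
  intro h
  have h1 : 1 < R.T.e := by
    rw [R.he]; have := q.2.two_le; have := R.odd; omega
  refine R.hξ.ne_one h1 (eq_of_nnnorm_sub_lt R.T.not_dvd R.hξ.pow_eq_one (one_pow _) ?_)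
  rw [← red_one] at h
  exact (red_eq_red_iff (nnnorm_rootOfUnity R.T.e_pos.ne' R.hξ.pow_eq_one).le nnnorm_one.le).mp h

variable {k : Type} [Field k] [CharP k (q : ℕ)]

theorem natCast_congr {κ : Type} [Field κ] [CharP κ (q : ℕ)] {a b : ℕ}
    (h : (a : Res q) = b) : (a : κ) = b :=
  (CharP.natCast_eq_natCast κ (q : ℕ)).mpr ((CharP.natCast_eq_natCast (Res q) (q : ℕ)).mp h)

/-- The cyclotomic character at `s`, in `k`. -/
def ω (k : Type) [Field k] : k := ((Tame.cy R.s : ℕ) : k)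

theorem cy_H {h : Gl q} (hh : h ∈ R.T.H) : ((Tame.cy h : ℕ) : k) = 1 := by
  rw [natCast_congr (κ := k) (b := 1) (by rw [R.cy_H_res hh, Nat.cast_one]), Nat.cast_one]

theorem ω_ne_one : R.ω k ≠ 1 := by
  intro h
  refine R.red_ξ_ne_one ?_
  rw [ω, ← Nat.cast_one, CharP.natCast_eq_natCast k (q : ℕ)] at h
  rw [← R.cy_s_res, (CharP.natCast_eq_natCast (Res q) (q : ℕ)).mpr h, Nat.cast_one]

theorem cy_F : ((Tame.cy R.F : ℕ) : ZMod (q : ℕ)) = 1 := by
  rw [natCast_congr (κ := ZMod (q : ℕ)) (b := 1)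
    (by rw [Tame.cy_frobenius (T := R.T) R.hF R.hFπ, Nat.cast_one]), Nat.cast_one]

/-- Characters of the local group are trivial on `H`. -/
theorem hom_eq_one_of_mem_H (χ : Gl q →* k) (hχ : ∃ U ∈ lvlLoc q, ∀ u ∈ U, χ u = 1) {σ : Gl q}
    (hσ : σ ∈ R.T.H) : χ σ = 1 := by
  haveI : ExpChar k (q : ℕ) := ExpChar.prime q.2
  obtain ⟨U, hU, hU1⟩ := hχ
  obtain ⟨e', he', htame⟩ := exists_tame_exponent hU
  have hne : ¬ (q : ℕ) ∣ e' * ((q : ℕ) - 1) := fun h => by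
    rcases q.2.dvd_mul.mp h with h | h
    · exact he' h
    · exact Nat.not_dvd_of_pos_of_lt (by have := q.2.two_le; omega)
        (by have := q.2.two_le; omega) h
  obtain ⟨T', hT'⟩ := exists_tame hne (dvd_mul_left _ _)
  have hker : ∀ τ ∈ inerG q, locAut q τ T'.π = T'.π → χ τ = 1 := by
    intro τ hτ hfix
    obtain ⟨a, ha⟩ := htame (T'.π ^ ((q : ℕ) - 1))
      (by rw [← pow_mul, mul_comm, ← hT', T'.π_pow]) τ hτ (by rw [map_pow, hfix])
    have h1 := hU1 _ ha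
    rw [map_pow] at h1
    refine sub_eq_zero.mp ((pow_eq_zero_iff (pow_ne_zero a q.2.ne_zero)).mp ?_)
    rw [sub_pow_expChar_pow, one_pow, h1, sub_self]
  have hinv : ∀ τ : Gl q, χ τ⁻¹ * χ τ = 1 := fun τ => by rw [← map_mul, inv_mul_cancel, map_one]
  have hsame : ∀ τ ∈ inerG q, ∀ τ' ∈ inerG q,
      locAut q τ T'.π = locAut q τ' T'.π → χ τ = χ τ' := by
    intro τ hτ τ' hτ' h
    have h1 := hker (τ'⁻¹ * τ) (mul_mem (inv_mem hτ') hτ) (by
      rw [locAut_mul_apply, h, ← locAut_mul_apply, inv_mul_cancel, map_one, AlgEquiv.one_apply])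
    calc χ τ = χ (τ' * (τ'⁻¹ * τ)) := by rw [mul_inv_cancel_left]
      _ = χ τ' := by rw [map_mul, h1, mul_one]
  obtain ⟨F', hF', hF'π⟩ := T'.exists_frobenius_fix
  have hfix : ∀ τ ∈ inerG q, χ τ ^ ((q : ℕ) - 1) = 1 := by
    intro τ hτ
    obtain ⟨η, hη, hηπ⟩ := T'.exists_apply_π τ
    have h1 := hsame (F' * τ * F'⁻¹) (inerG_normal.conj_mem _ hτ _) (τ ^ (q : ℕ)) (pow_mem hτ _) (by
      rw [locAut_mul_apply, inv_apply_of_fix hF'π, locAut_mul_apply, hηπ, map_mul, hF'π,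
        hF' _ η T'.not_dvd hη, pow_apply_root hτ T'.not_dvd hη hηπ])
    rw [map_pow, map_mul, map_mul, mul_comm (χ F'), mul_assoc, mul_comm (χ F'), hinv, mul_one] at h1
    have h0 : χ τ ≠ 0 := fun h => by
      have := hinv τ
      rw [h, mul_zero] at this
      exact zero_ne_one this
    refine mul_left_cancel₀ h0 ?_
    rw [← pow_succ', Nat.sub_add_cancel q.2.one_lt.le, mul_one, ← h1]
  obtain ⟨hσI, hσπ⟩ := R.T.mem_H_iff.mp hσ
  obtain ⟨ζ, hζ, hζπ⟩ := T'.exists_apply_π σ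
  have hπ0 : T'.π ^ e' ≠ 0 := pow_ne_zero _ T'.π_ne_zero
  set ε := R.T.π / T'.π ^ e' with hε
  have hεπ : R.T.π = ε * T'.π ^ e' := (div_mul_cancel₀ _ hπ0).symm
  have hε1 : ε ^ R.T.e = 1 := by
    rw [hε, div_pow, R.T.π_pow, R.he, ← pow_mul, ← hT', T'.π_pow, div_self]
    exact neg_ne_zero.mpr (Nat.cast_ne_zero.mpr q.2.ne_zero)
  have hζe : ζ ^ e' = 1 := by
    rw [hεπ, map_mul, map_pow, hζπ, mem_inerG.mp hσI _ (root_mem_Knr R.T.not_dvd hε1),
      mul_pow] at hσπ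
    have hε0 : ε ≠ 0 := div_ne_zero R.T.π_ne_zero hπ0
    exact mul_right_cancel₀ hπ0 ((mul_left_cancel₀ hε0 hσπ).trans (one_mul _).symm)
  obtain ⟨w, hw⟩ := IsAlgClosed.exists_pow_nat_eq ζ (n := (q : ℕ) - 1)
    (by have := q.2.two_le; omega)
  have hw1 : w ^ T'.e = 1 := by rw [hT', mul_comm, pow_mul, hw, hζe]
  obtain ⟨τ, hτ, hτπ⟩ := T'.exists_inerG_apply_π hw1
  rw [hsame σ hσI (τ ^ ((q : ℕ) - 1)) (pow_mem hτ _)
    (by rw [hζπ, pow_apply_root hτ T'.not_dvd hw1 hτπ, hw]), map_pow, hfix τ hτ]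

section matrices

variable {M : Gl q →* M2 k}

omit [CharP k (q : ℕ)] in
theorem mul_diag (hM : ∀ g, M g 1 0 = 0) (a b : Gl q) :
    M (a * b) 0 0 = M a 0 0 * M b 0 0 ∧ M (a * b) 1 1 = M a 1 1 * M b 1 1 ∧
      M (a * b) 0 1 = M a 0 0 * M b 0 1 + M a 0 1 * M b 1 1 := by
  simp [map_mul, Matrix.mul_apply, Fin.sum_univ_two, hM]

omit [CharP k (q : ℕ)] in
theorem det_tri (hM : ∀ g, M g 1 0 = 0) (g : Gl q) : (M g).det = M g 0 0 * M g 1 1 := by
  simp [Matrix.det_fin_two, hM]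

theorem diag_H (hM : ∀ g, M g 1 0 = 0) (hl : LocalRes M) {h : Gl q} (hh : h ∈ R.T.H) :
    M h 0 0 = 1 ∧ M h 1 1 = 1 := by
  obtain ⟨U, hU, hU1⟩ := hl.level
  let c : Fin 2 → (Gl q →* k) := fun i =>
    { toFun := fun g => M g i i
      map_one' := by simp
      map_mul' := fun a b => by
        match i with
        | 0 => exact (mul_diag hM a b).1
        | 1 => exact (mul_diag hM a b).2.1 }
  exact ⟨R.hom_eq_one_of_mem_H (c 0) ⟨U, hU, fun u hu => by simp [c, hU1 u hu]⟩ hh,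
    R.hom_eq_one_of_mem_H (c 1) ⟨U, hU, fun u hu => by simp [c, hU1 u hu]⟩ hh⟩

end matrices

end RedFrame

/-- The normal form of a reducible residual representation with flat deformations. -/
structure RedNormal {k : Type} [Field k] [CharP k (q : ℕ)] (R : RedFrame q) (M : Gl q →* M2 k) :
    Prop where
  local_res : LocalRes M
  tri : ∀ g, M g 1 0 = 0
  s00 : M R.s 0 0 = R.ω k
  s11 : M R.s 1 1 = 1
  s01 : M R.s 0 1 = 0
  H00 : ∀ h ∈ R.T.H, M h 0 0 = 1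
  H11 : ∀ h ∈ R.T.H, M h 1 1 = 1

end FLTA.TaylorWiles.Flat

end
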