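import Fermat.Agent.TaylorWiles.FlatStrict
import Fermat.Agent.TaylorWiles.OrdinaryCond
import Fermat.Agent.PoitouTate.LocalUnits

/-!
# Strictly ordinary deformations give strict line data for the local cocycles
-/

set_option autoImplicit false

open ExtCitation Module
open scoped Matrix DualNumber

noncomputable section

namespace FLTA.TaylorWiles.Flat

open FLTA.PT FLTA.TW

attribute [local instance] FLTA.PT.factPrime

theorem loc_mem_inertia_of_mem_inerG {q : Nat.Primes} {g : Gl q} (hg : g ∈ inerG q) :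
    loc q g ∈ (primeLocalPlace q).inertiaSubgroupIn ℚ :=
  loc_inertiaLoc_le q g fun _ hx => nnnorm_inerG_sub_lt hg hx

variable (p : ℕ) [Fact p.Prime] {k : Type} [Field k] [Algebra (ZMod p) k]
variable (M : GQ →* M2 k)

/-- The local restriction of a strictly ordinary deformation has strict line data. -/
theorem strictLineDefo_of_isStrictOrdinaryAt (hp : p ≠ 2) (x : Z1 lvlQ (ad0Rep p M))
    (ρ : GaloisRepAdic k[ε]) (h1 : IsDefoOf M (x : GQ → Ad0 k) ρ)
    (h2 : ρ.IsStrictOrdinaryAt p) :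
    StrictLineDefo (M.comp (loc (pPrime p)))
      fun g => ((x : GQ → Ad0 k) (loc (pPrime p) g)).1 := by
  haveI : CharP k p := charP_of_injective_algebraMap (algebraMap (ZMod p) k).injective p
  have hA := FLTA.PT.primeLocalPlace_liesOverPrime (pPrime p)
  have hV : finrank k (Fin 2 → k) = 2 := by simp
  obtain ⟨l, ⟨hl0, hl⟩, u, hu, hz⟩ := exists_line_of_isStrictOrdinaryAt (p := p) hp hV (linRep M)
    (z := endCocycle p (x : GQ → Ad0 k)) (fun σ => slOf_mem p _)
    (isEpsModel_of_isDefoOf p M _ ρ h1) h2 hA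
  have hdec : ∀ g, loc (pPrime p) g ∈ (primeLocalPlace (pPrime p)).decompositionSubgroup ℚ :=
    fun g => localGaloisToGlobal_mem_decompositionSubgroup ((pPrime p : Nat.Primes) : ℕ)
      (locAut (pPrime p) g)
  refine ⟨l, hl0, fun g => ?_, fun g hg => ?_, Matrix.toLinAlgEquiv'.symm u, ?_, fun g => ?_⟩
  · obtain ⟨y, -, hy, -⟩ := hl _ (hdec g)
    exact ⟨_, by simpa [linRep_apply, Matrix.toLinAlgEquiv'_apply] using hy⟩
  · obtain ⟨y, -, hy, -, hy1⟩ := hl _ (hdec g)
    rw [hy1 (loc_mem_inertia_of_mem_inerG hg), mul_one, linRep_apply,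
      Matrix.toLinAlgEquiv'_apply] at hy
    exact hy
  · rw [mem_slEnd] at hu
    rwa [← trace_toLinAlgEquiv', AlgEquiv.apply_symm_apply]
  · obtain ⟨h0, -⟩ := hz _ (hdec g)
    rw [← AlgEquiv.apply_symm_apply (Matrix.toLinAlgEquiv' (R := k) (n := Fin 2)) u, adConj_apply,
      linRep_apply, linRep_apply, ← map_mul, ← map_mul, ← map_sub] at h0
    show ((((x : GQ → Ad0 k) (loc (pPrime p) g)).1 +
      cobd (M.comp (loc (pPrime p))) (Matrix.toLinAlgEquiv'.symm u) g)) *ᵥ l = 0
    rw [endCocycle] at h0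
    simp only [slOf, LinearMap.coe_mk, AddHom.coe_mk, ← map_add] at h0
    rw [Matrix.toLinAlgEquiv'_apply] at h0
    simpa only [cobd, MonoidHom.comp_apply, map_inv] using h0

end FLTA.TaylorWiles.Flat

end
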