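import Fermat.Agent.TaylorWiles.MainCount
import Fermat.Agent.TaylorWiles.Tangent
import Fermat.Agent.TaylorWiles.LocalFlat
import Fermat.Agent.RT.DeformConditions

/-!
# Taylor-Wiles primes and generators of the deformation rings

The deformation rings with a condition at `p`, unipotent inertia on `Smin` and arbitrary
ramification at `r` Taylor-Wiles primes are generated by `r` elements.
-/

set_option autoImplicit false

open ExtCitation Module Polynomial IsLocalRing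

noncomputable section

namespace FLTA.TW

open FLTA.PT

variable {𝒪 : Type} [CommRing 𝒪] [IsDomain 𝒪] [IsDiscreteValuationRing 𝒪]
  [IsAdicComplete (maximalIdeal 𝒪) 𝒪] [Finite (ResidueField 𝒪)]

/-- Determinant cyclotomic, `X` at `p`, unramified outside `T`, unipotent on inertia at `U`. -/
abbrev twCond (𝒪 : Type) [CommRing 𝒪] (p : ℕ) (T U : Finset ℕ)
    (X : ∀ ⦃A : Type⦄ [CommRing A] [IsLocalRing A], GaloisRepAdic A → Prop) : RT.RepPred 𝒪 :=
  fun _A _ _ _ ρ => (ρ.DetIsCyclotomic p ∧ X ρ ∧ ∀ q : ℕ, q.Prime → q ∉ T → ρ.IsUnramifiedAt q) ∧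
    ∀ q ∈ U, q.Prime → q ≠ p → ρ.IsUnipotentOnInertiaAt q

/-- Being a prime of `Smin` or of the tuple. -/
theorem coe_notMem_union_image {r : ℕ} (qv : Fin r → Nat.Primes) (Smin : Finset ℕ) {q : Nat.Primes}
    (h1 : q ∉ Smin.subtype Nat.Prime) (h2 : q ∉ Finset.univ.image qv) :
    (q : ℕ) ∉ Smin ∪ Finset.univ.image fun i => (qv i : ℕ) := by
  intro h
  rcases Finset.mem_union.mp h with h | h
  · exact h1 (Finset.mem_subtype.mpr h)
  · obtain ⟨i, -, hi⟩ := Finset.mem_image.mp h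
    exact h2 (Finset.mem_image.mpr ⟨i, Finset.mem_univ _, Subtype.ext hi⟩)

variable (p : ℕ) [Fact p.Prime] [Algebra (ZMod p) (ResidueField 𝒪)]

set_option maxHeartbeats 1000000 in
/-- **Taylor-Wiles primes bounding the deformation rings**, for one condition at `p`. -/
theorem exists_taylorWiles_generators (hp : p ≠ 2) (ρbar : ResidualGaloisRep (ResidueField 𝒪))
    (habs : ρbar.IsAbsolutelyIrreducible)
    (hdet : (GaloisRepAdic.ofResidualGaloisRep ρbar).DetIsCyclotomic p)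
    (hsplit : ∀ g, ∃ α β : ResidueField 𝒪,
      LinearMap.charpoly (ρbar.ρ g) = (X - C α) * (X - C β))
    (hTW : ∀ (K : Type) [Field K] [Algebra (ResidueField 𝒪) K] (G : Subgroup GQ), G.index = 2 →
      ∀ V : Submodule K (ρbar.baseChange K).V,
        (∀ σ ∈ G, ∀ x ∈ V, (ρbar.baseChange K).ρ σ x ∈ V) → V = ⊥ ∨ V = ⊤)
    (S Smin : Finset ℕ) (hpSmin : p ∈ Smin) (hSmin : Smin ⊆ S)
    (hmin : ∀ q : ℕ, q.Prime → q ≠ p → (q ∈ Smin ↔ ¬ ρbar.IsUnramifiedAt q))
    (Xp : ∀ ⦃A : Type⦄ [CommRing A] [IsLocalRing A], GaloisRepAdic A → Prop)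
    (hclosed : ∀ T, RT.IsClosedCond 𝒪 (twCond 𝒪 p T Smin Xp))
    (hLp : ∃ L : Submodule (ZMod p) (H1L (ad0Rep p (Deformation.barMat ρbar)) (pPrime p)),
      finrank (ZMod p) L ≤ finrank (ZMod p)
          (fixedBy ((ad0Rep p (Deformation.barMat ρbar)).comp (loc (pPrime p))) ⊤) +
        finrank (ZMod p) (ResidueField 𝒪) ∧
      ∀ (x : Z1 lvlQ (ad0Rep p (Deformation.barMat ρbar)))
        (ρ : GaloisRepAdic (DualNumber (ResidueField 𝒪))),
        IsDefoOf (Deformation.barMat ρbar) (x : GQ → Ad0 (ResidueField 𝒪)) ρ → Xp ρ →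
          locQ (ad0Rep p (Deformation.barMat ρbar)) (pPrime p)
            (clsQ (ad0Rep p (Deformation.barMat ρbar)) x) ∈ L) :
    ∃ r : ℕ, ∀ n : ℕ, ∃ qv : Fin r → ℕ, Function.Injective qv ∧
      (∀ i, (qv i).Prime ∧ qv i ∉ S ∧ p ^ (n + 1) ∣ qv i - 1) ∧
      (∀ i, ∀ P : ValuationSubring Qb, P.LiesOverPrime (qv i) →
        ∀ φ : GQ, P.IsFrobeniusAt φ (qv i) →
          ∃ α β : ResidueField 𝒪, α ≠ β ∧
            LinearMap.charpoly (ρbar.ρ φ) = (X - C α) * (X - C β)) ∧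
      ∀ DQ : GaloisRep.DeformationRingData 𝒪 ρbar
          (twCond 𝒪 p (Smin ∪ Finset.univ.image qv) Smin Xp),
        ∃ γ : MvPowerSeries (Fin r) 𝒪 →ₐ[𝒪] DQ.R, Function.Surjective γ := by
  classical
  set S0 : Finset Nat.Primes := Smin.subtype Nat.Prime with hS0
  have hpS0 : pPrime p ∈ S0 := Finset.mem_subtype.mpr hpSmin
  have hur : ∀ q : Nat.Primes, q ∉ S0 → ρbar.IsUnramifiedAt (q : ℕ) := fun q hq => by
    have hqS : (q : ℕ) ∉ Smin := fun h => hq (Finset.mem_subtype.mpr h)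
    exact not_not.mp (mt (hmin q q.2 fun h => hqS (h ▸ hpSmin)).mpr hqS)
  have hM1 : ∀ g, ρbar.ρ g = 1 → Deformation.barMat ρbar g = 1 := fun g h => by
    show LinearMap.toMatrix (Deformation.barBasis ρbar) (Deformation.barBasis ρbar) (ρbar.ρ g) = 1
    rw [h, LinearMap.toMatrix_one]
  have hdetM := det_eq_cycloChar p ρbar hdet
  have hρQ : Smooth lvlQ (ad0Rep p (Deformation.barMat ρbar)) := by
    obtain ⟨F, hF, h1⟩ := ρbar.factorsThroughFiniteLevel
    exact smooth_lvlQ_of_lvlS p (smooth_ad0Rep p _ (exists_level_lvlS _ S0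
      ⟨F, hF, fun s hs => hM1 s (h1 s hs)⟩ fun q hq A hA s hs => hM1 s (hur q hq A hA s hs)))
  -- the local conditions on `S0`
  have hloc : ∀ q : Nat.Primes,
      ∃ Lq : Submodule (ZMod p) (H1L (ad0Rep p (Deformation.barMat ρbar)) q), q ∈ S0 →
        finrank (ZMod p) Lq ≤ finrank (ZMod p)
            (fixedBy ((ad0Rep p (Deformation.barMat ρbar)).comp (loc q)) ⊤) +
          (if q = pPrime p then finrank (ZMod p) (ResidueField 𝒪) else 0) ∧
        ∀ (x : Z1 lvlQ (ad0Rep p (Deformation.barMat ρbar)))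
          (ρ : GaloisRepAdic (DualNumber (ResidueField 𝒪))),
          IsDefoOf (Deformation.barMat ρbar) (x : GQ → Ad0 (ResidueField 𝒪)) ρ → Xp ρ →
            ((q : ℕ) ≠ p → ρ.IsUnipotentOnInertiaAt (q : ℕ)) →
            locQ (ad0Rep p (Deformation.barMat ρbar)) q
              (clsQ (ad0Rep p (Deformation.barMat ρbar)) x) ∈ Lq := by
    intro q
    by_cases hqS : q ∈ S0
    swap
    · exact ⟨⊥, fun h => absurd h hqS⟩
    by_cases hqp : q = pPrime p
    · subst hqp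
      obtain ⟨L, hL, hmem⟩ := hLp
      exact ⟨L, fun _ => ⟨by simpa using hL, fun x ρ hx hX _ => hmem x ρ hx hX⟩⟩
    · have hqp' : (q : ℕ) ≠ p := fun h => hqp (Subtype.ext h)
      have hram : ¬ ρbar.IsUnramifiedAt (q : ℕ) :=
        (hmin q q.2 hqp').mp (Finset.mem_subtype.mp hqS)
      obtain ⟨A, hA, σ, hσ, hne⟩ : ∃ A : ValuationSubring Qb, A.LiesOverPrime (q : ℕ) ∧
          ∃ σ ∈ A.inertiaSubgroupIn ℚ, Deformation.barMat ρbar σ ≠ 1 := by
        by_contra hcon
        push Not at hcon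
        refine hram fun A hA σ hσ =>
          (LinearMap.toMatrix (Deformation.barBasis ρbar) (Deformation.barBasis ρbar)).injective ?_
        exact (hcon A hA σ hσ).trans (LinearMap.toMatrix_one _).symm
      obtain ⟨L, hL, hmem⟩ := exists_unipotentCond p (Deformation.barMat ρbar) hp q hqp' hρQ hdetM
        (exists_inertiaG_ne_one (Deformation.barMat ρbar) q hA hσ hne)
      exact ⟨L, fun _ => ⟨by simpa [hqp] using hL, fun x ρ hx _ hu => hmem x ρ hx (hu hqp')⟩⟩
  choose L hL using hloc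
  obtain ⟨r, hr⟩ := exists_tw_selmer_le p hp ρbar hdet hsplit habs hTW S0 hpS0 hur S L
  refine ⟨r, fun n => ?_⟩
  obtain ⟨qv, hinj, hprop, hsel⟩ := hr n
  obtain ⟨hfin, hbound⟩ := hsel L fun q _ => le_rfl
  refine ⟨fun i => (qv i : ℕ), fun i j h => hinj (Subtype.ext h),
    fun i => ⟨(qv i).2, (hprop i).2.1, (hprop i).2.2.1⟩, fun i => (hprop i).2.2.2, fun DQ => ?_⟩
  refine exists_surjective_of_selmer p DQ (hclosed _) DQ.isOfType.1.1
    (twSelmer (ad0Rep p (Deformation.barMat ρbar)) S0 (Finset.univ.image qv) L) ?_ ?_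
  · have hsum : ∑ q ∈ S0, finrank (ZMod p) (L q) ≤
        (∑ q ∈ S0, finrank (ZMod p)
            (fixedBy ((ad0Rep p (Deformation.barMat ρbar)).comp (loc q)) ⊤)) +
          finrank (ZMod p) (ResidueField 𝒪) := by
      refine (Finset.sum_le_sum fun q hq => (hL q hq).1).trans (le_of_eq ?_)
      rw [Finset.sum_add_distrib, Finset.sum_ite_eq' S0 (pPrime p), if_pos hpS0]
    omega
  · intro x ρ' hx hρ'
    refine mem_twSelmer (fun q hq => ?_) fun q hqS hqQ => ?_
    · exact (hL q hq).2 x ρ' hx hρ'.1.2.1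
        fun hqp => hρ'.2 q (Finset.mem_subtype.mp hq) q.2 hqp
    · exact locQ_mem_unrCond p _ q x ρ' hx
        (hρ'.1.2.2 q q.2 (coe_notMem_union_image qv Smin hqS hqQ))

end FLTA.TW

end
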