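/-
Elementary facts on `2 × 2` matrices used in the choice of Taylor-Wiles primes.
-/
import Mathlib.LinearAlgebra.Matrix.ToLinearEquiv
import Mathlib.LinearAlgebra.Matrix.Determinant.Basic
import Mathlib.LinearAlgebra.Matrix.NonsingularInverse
import Mathlib.FieldTheory.IsAlgClosed.Basic
import Mathlib.Tactic

set_option autoImplicit false

open Matrix

namespace FLTA.TaylorWiles

variable {K : Type*} [Field K]

local notation "M2" => Matrix (Fin 2) (Fin 2) K

theorem ext_two {A B : M2} (h00 : A 0 0 = B 0 0) (h01 : A 0 1 = B 0 1) (h10 : A 1 0 = B 1 0)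
    (h11 : A 1 1 = B 1 1) : A = B := by
  ext i j
  fin_cases i <;> fin_cases j <;> assumption

/-- Cayley-Hamilton. -/
theorem mul_self_eq (A : M2) : A * A = A.trace • A - A.det • (1 : M2) := by
  apply ext_two <;> simp [Matrix.mul_apply, Fin.sum_univ_two, Matrix.trace_fin_two,
    Matrix.det_fin_two] <;> ring

theorem add_inv_eq_trace {A B : M2} (hA : A.det = 1) (hAB : A * B = 1) :
    A + B = A.trace • (1 : M2) := by
  have h : A * (A.trace • (1 : M2) - A) = 1 := by
    rw [mul_sub, Matrix.mul_smul, mul_one, mul_self_eq A, hA, one_smul, sub_sub_cancel]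
  have hB : B = A.trace • (1 : M2) - A := by
    calc B = B * (A * (A.trace • (1 : M2) - A)) := by rw [h, mul_one]
      _ = _ := by rw [← mul_assoc, mul_eq_one_comm.mp hAB, one_mul]
  rw [hB]; abel

/-- Polarised Cayley-Hamilton. -/
theorem mul_add_mul_swap (X Y : M2) :
    X * Y + Y * X = Y.trace • X + X.trace • Y + ((X * Y).trace - X.trace * Y.trace) • (1 : M2) := by
  apply ext_two <;> simp [Matrix.mul_apply, Fin.sum_univ_two, Matrix.trace_fin_two] <;> ring

theorem anticomm_of_trace_zero {X Y : M2} (hX : X.trace = 0) (hY : Y.trace = 0) :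
    X * Y + Y * X = (X * Y).trace • (1 : M2) := by
  rw [mul_add_mul_swap, hX, hY]; simp

theorem mul_mul_self_of_mul_self_eq_zero {N : M2} (hN : N * N = 0) (hNt : N.trace = 0) (X : M2) :
    N * X * N = (N * X).trace • N := by
  have h := mul_add_mul_swap N X
  rw [hNt] at h
  calc N * X * N = (N * X + X * N) * N - X * (N * N) := by rw [add_mul, mul_assoc X]; abel
    _ = _ := by
      rw [h, hN, mul_zero, sub_zero, add_mul, add_mul, smul_mul_assoc, smul_mul_assoc,
        smul_mul_assoc, hN, one_mul]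
      simp

/-- The traceless part. -/
noncomputable def tracelessPart (A : M2) : M2 := A - (A.trace / 2) • (1 : M2)

theorem trace_tracelessPart (h2 : (2 : K) ≠ 0) (A : M2) : (tracelessPart A).trace = 0 := by
  simp [tracelessPart, Matrix.trace_sub, Matrix.trace_smul, Matrix.trace_one]
  field_simp
  ring

theorem trace_mul_tracelessPart {X : M2} (hX : X.trace = 0) (A : M2) :
    (X * tracelessPart A).trace = (X * A).trace := by
  simp [tracelessPart, mul_sub, Matrix.trace_sub, Matrix.trace_smul, hX]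

theorem det_tracelessPart (h2 : (2 : K) ≠ 0) (A : M2) :
    4 * (tracelessPart A).det = 4 * A.det - A.trace ^ 2 := by
  simp [tracelessPart, Matrix.det_fin_two, Matrix.trace_fin_two]
  field_simp
  ring

theorem tracelessPart_ne_zero (h2 : (2 : K) ≠ 0) {A : M2} (hA : A.trace ^ 2 ≠ 4 * A.det) :
    tracelessPart A ≠ 0 := by
  intro h
  have := det_tracelessPart h2 A
  rw [h, Matrix.det_zero, mul_zero] at this
  exact hA (by linear_combination this)

theorem conj_tracelessPart {U V : M2} (hUV : U * V = 1) (A : M2) :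
    U * tracelessPart A * V = tracelessPart (U * A * V) := by
  have : (U * A * V).trace = A.trace := by
    rw [Matrix.trace_mul_comm, ← mul_assoc, mul_eq_one_comm.mp hUV, one_mul]
  rw [tracelessPart, tracelessPart, this, mul_sub, sub_mul, Matrix.mul_smul, mul_one, smul_mul_assoc, hUV]

theorem trace_conj {U V : M2} (hUV : U * V = 1) (A : M2) : (U * A * V).trace = A.trace := by
  rw [Matrix.trace_mul_comm, ← mul_assoc, mul_eq_one_comm.mp hUV, one_mul]

theorem det_conj {U V : M2} (hUV : U * V = 1) (A : M2) : (U * A * V).det = A.det := by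
  have h : U.det * V.det = 1 := by rw [← Matrix.det_mul, hUV, Matrix.det_one]
  rw [Matrix.det_mul, Matrix.det_mul]
  linear_combination A.det * h

/-! ### Vectors -/

theorem eq_smul_of_det_eq_zero {v w : Fin 2 → K} (hv : v ≠ 0)
    (h : v 0 * w 1 - v 1 * w 0 = 0) : ∃ a : K, w = a • v := by
  by_cases h0 : v 0 = 0
  · have h1 : v 1 ≠ 0 := fun h1 => hv (funext fun i => by fin_cases i <;> assumption)
    refine ⟨w 1 / v 1, funext fun i => ?_⟩
    rw [h0, zero_mul, zero_sub, neg_eq_zero, mul_eq_zero, or_iff_right h1] at h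
    fin_cases i <;> simp [h0, h, h1]
  · refine ⟨w 0 / v 0, funext fun i => ?_⟩
    fin_cases i
    · simp [h0]
    · simp only [Pi.smul_apply, smul_eq_mul, Fin.mk_one, Fin.isValue]
      field_simp
      linear_combination h

theorem eq_zero_of_mulVec_eq_zero {A : M2} {v w : Fin 2 → K} (hd : v 0 * w 1 - v 1 * w 0 ≠ 0)
    (hv : A *ᵥ v = 0) (hw : A *ᵥ w = 0) : A = 0 := by
  have e0 := congrFun hv 0
  have e1 := congrFun hv 1
  have f0 := congrFun hw 0
  have f1 := congrFun hw 1
  simp [Matrix.mulVec, dotProduct, Fin.sum_univ_two] at e0 e1 f0 f1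
  apply ext_two <;> simp only [Matrix.zero_apply] <;> refine (mul_left_inj' hd).mp ?_
  · linear_combination w 1 * e0 - v 1 * f0
  · linear_combination v 0 * f0 - w 0 * e0
  · linear_combination w 1 * e1 - v 1 * f1
  · linear_combination v 0 * f1 - w 0 * e1

/-- An eigenspace of a non-scalar matrix is a line. -/
theorem eigvec_unique {A : M2} (hA : ∀ c : K, A ≠ c • 1) {μ : K} {v w : Fin 2 → K} (hv : v ≠ 0)
    (hAv : A *ᵥ v = μ • v) (hAw : A *ᵥ w = μ • w) : ∃ a : K, w = a • v := by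
  by_cases hd : v 0 * w 1 - v 1 * w 0 = 0
  · exact eq_smul_of_det_eq_zero hv hd
  · exfalso
    refine hA μ (sub_eq_zero.mp (eq_zero_of_mulVec_eq_zero hd ?_ ?_))
    · rw [Matrix.sub_mulVec, Matrix.smul_mulVec, Matrix.one_mulVec, hAv, sub_self]
    · rw [Matrix.sub_mulVec, Matrix.smul_mulVec, Matrix.one_mulVec, hAw, sub_self]

theorem eigval_quadratic {A : M2} {μ : K} {v : Fin 2 → K} (hv : v ≠ 0) (hAv : A *ᵥ v = μ • v) :
    μ * μ - A.trace * μ + A.det = 0 := by
  have h := congrArg (fun B : M2 => B *ᵥ v) (mul_self_eq A)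
  simp only [← Matrix.mulVec_mulVec, hAv, Matrix.mulVec_smul, Matrix.sub_mulVec,
    Matrix.smul_mulVec, Matrix.one_mulVec, smul_smul, ← sub_smul] at h
  have := smul_left_injective K hv h
  linear_combination this

theorem exists_eigvec [IsAlgClosed K] (h2 : (2 : K) ≠ 0) (A : M2) :
    ∃ (μ : K) (v : Fin 2 → K), v ≠ 0 ∧ A *ᵥ v = μ • v := by
  obtain ⟨s, hs⟩ := IsAlgClosed.exists_eq_mul_self (A.trace ^ 2 - 4 * A.det)
  set μ := (A.trace + s) / 2 with hμ
  have hdet : (A - μ • (1 : M2)).det = 0 := by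
    simp only [Matrix.det_fin_two, Matrix.sub_apply, Matrix.smul_apply, smul_eq_mul,
      Matrix.one_apply_eq, ne_eq, not_false_eq_true, Matrix.one_apply_ne, zero_ne_one, one_ne_zero,
      mul_zero, sub_zero, mul_one, hμ]
    simp only [Matrix.det_fin_two, Matrix.trace_fin_two] at hs ⊢
    field_simp
    linear_combination -hs
  obtain ⟨v, hv, h⟩ := Matrix.exists_mulVec_eq_zero_iff.mpr hdet
  refine ⟨μ, v, hv, ?_⟩
  rwa [Matrix.sub_mulVec, Matrix.smul_mulVec, Matrix.one_mulVec, sub_eq_zero] at h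

theorem scalar_of_trace_zero {X : M2} (h2 : (2 : K) ≠ 0) (hX : X.trace = 0) {c : K}
    (h : X = c • 1) : X = 0 := by
  have h' := congrArg Matrix.trace h
  rw [hX, Matrix.trace_smul, Matrix.trace_one, smul_eq_mul] at h'
  have : c = 0 := by
    have h'' : c * 2 = 0 := by simpa using h'.symm
    exact (mul_eq_zero.mp h'').resolve_right h2
  rw [h, this, zero_smul]

/-- Nilpotent traceless matrices orthogonal for the trace form are proportional. -/
theorem nilp_proportional {N N' : M2} (hN0 : N ≠ 0) (hNt : N.trace = 0) (hNd : N.det = 0)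
    (hN't : N'.trace = 0) (hN'd : N'.det = 0) (h : (N * N').trace = 0) :
    ∃ t : K, N' = t • N := by
  simp only [Matrix.trace_fin_two, Matrix.det_fin_two, Matrix.mul_apply, Fin.sum_univ_two] at *
  have e1 : N 1 1 = - N 0 0 := by linear_combination hNt
  have e1' : N' 1 1 = - N' 0 0 := by linear_combination hN't
  rw [e1] at hNd
  rw [e1'] at hN'd
  rw [e1, e1'] at h
  have k1 : N 0 0 * N' 0 1 - N' 0 0 * N 0 1 = 0 := by
    refine mul_self_eq_zero.mp ?_
    linear_combination -(N' 0 1 * N' 0 1) * hNd - (N 0 1 * N 0 1) * hN'd - (N 0 1 * N' 0 1) * h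
  have k2 : N 0 0 * N' 1 0 - N' 0 0 * N 1 0 = 0 := by
    refine mul_self_eq_zero.mp ?_
    linear_combination -(N' 1 0 * N' 1 0) * hNd - (N 1 0 * N 1 0) * hN'd - (N 1 0 * N' 1 0) * h
  by_cases hb : N 0 1 = 0
  · have ha : N 0 0 = 0 := by
      refine mul_self_eq_zero.mp ?_
      linear_combination -hNd - N 1 0 * hb
    have hc : N 1 0 ≠ 0 := fun hc =>
      hN0 (ext_two ha hb hc (by rw [e1, ha, neg_zero]; rfl))
    have ha' : N' 0 0 = 0 := by
      refine (mul_eq_zero.mp (?_ : N' 0 0 * N 1 0 = 0)).resolve_right hc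
      linear_combination -k2 + N' 1 0 * ha
    have hb' : N' 0 1 = 0 := by
      refine (mul_eq_zero.mp (?_ : N' 0 1 * N 1 0 = 0)).resolve_right hc
      linear_combination h - 2 * N' 0 0 * ha - N' 1 0 * hb
    refine ⟨N' 1 0 / N 1 0, ext_two ?_ ?_ ?_ ?_⟩ <;>
      simp [ha, hb, ha', hb', e1, e1', hc]
  · have k3 : N 0 1 * N' 1 0 = N 1 0 * N' 0 1 :=
      mul_left_cancel₀ hb (by linear_combination N 0 1 * h + 2 * N' 0 1 * hNd + 2 * N 0 0 * k1)
    refine ⟨N' 0 1 / N 0 1, ext_two ?_ ?_ ?_ ?_⟩ <;>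
      simp only [Matrix.smul_apply, smul_eq_mul, e1, e1'] <;> field_simp
    · linear_combination -k1
    · linear_combination k3
    · linear_combination k1

/-- Two matrices orthogonal to two independent traceless matrices are proportional. -/
theorem orth_proportional (h2 : (2 : K) ≠ 0) {X Y A B : M2} (hX : X.trace = 0) (hY : Y.trace = 0)
    (hA : A.trace = 0) (hB : B.trace = 0) (hX0 : X ≠ 0) (hind : ∀ t : K, Y ≠ t • X) (hA0 : A ≠ 0)
    (hXA : (X * A).trace = 0) (hYA : (Y * A).trace = 0) (hXB : (X * B).trace = 0)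
    (hYB : (Y * B).trace = 0) : ∃ t : K, B = t • A := by
  simp only [Matrix.trace_fin_two, Matrix.mul_apply, Fin.sum_univ_two] at *
  have eX : X 1 1 = - X 0 0 := by linear_combination hX
  have eY : Y 1 1 = - Y 0 0 := by linear_combination hY
  have eA : A 1 1 = - A 0 0 := by linear_combination hA
  have eB : B 1 1 = - B 0 0 := by linear_combination hB
  rw [eX, eA] at hXA
  rw [eY, eA] at hYA
  rw [eX, eB] at hXB
  rw [eY, eB] at hYB
  -- the cross product
  set w0 := X 1 0 * Y 0 1 - X 0 1 * Y 1 0 with hw0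
  set w1 := X 0 1 * (2 * Y 0 0) - 2 * X 0 0 * Y 0 1 with hw1
  set w2 := 2 * X 0 0 * Y 1 0 - X 1 0 * (2 * Y 0 0) with hw2
  have key : ∀ Z : M2,
      X 0 0 * Z 0 0 + X 0 1 * Z 1 0 + (X 1 0 * Z 0 1 + -X 0 0 * -Z 0 0) = 0 →
      Y 0 0 * Z 0 0 + Y 0 1 * Z 1 0 + (Y 1 0 * Z 0 1 + -Y 0 0 * -Z 0 0) = 0 →
      Z 0 0 * w1 = Z 0 1 * w0 ∧ Z 0 1 * w2 = Z 1 0 * w1 ∧ Z 0 0 * w2 = Z 1 0 * w0 := by
    intro Z h1 h2'
    refine ⟨?_, ?_, ?_⟩
    · simp only [hw0, hw1]; linear_combination (-Y 0 1) * h1 + X 0 1 * h2'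
    · simp only [hw1, hw2]; linear_combination (-2 * Y 0 0) * h1 + (2 * X 0 0) * h2'
    · simp only [hw0, hw2]; linear_combination (-(Y 1 0)) * h1 * -1 + X 1 0 * h2' * -1
  obtain ⟨a1, a2, a3⟩ := key A hXA hYA
  obtain ⟨b1, b2, b3⟩ := key B hXB hYB
  have hw : ¬(w0 = 0 ∧ w1 = 0 ∧ w2 = 0) := by
    rintro ⟨k0, k1, k2⟩
    simp only [hw0] at k0
    simp only [hw1] at k1
    simp only [hw2] at k2
    have k1' : X 0 1 * Y 0 0 = X 0 0 * Y 0 1 :=
      sub_eq_zero.mp ((mul_eq_zero.mp (show (2 : K) * (X 0 1 * Y 0 0 - X 0 0 * Y 0 1) = 0 by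
        linear_combination k1)).resolve_left h2)
    have k2' : X 0 0 * Y 1 0 = X 1 0 * Y 0 0 :=
      sub_eq_zero.mp ((mul_eq_zero.mp (show (2 : K) * (X 0 0 * Y 1 0 - X 1 0 * Y 0 0) = 0 by
        linear_combination k2)).resolve_left h2)
    by_cases a0 : X 0 0 = 0
    · by_cases b0 : X 0 1 = 0
      · have c0 : X 1 0 ≠ 0 := fun c0 => hX0 (ext_two a0 b0 c0 (by rw [eX, a0, neg_zero]; rfl))
        refine hind (Y 1 0 / X 1 0) (ext_two ?_ ?_ ?_ ?_) <;>
          simp only [Matrix.smul_apply, smul_eq_mul, eX, eY] <;> field_simp <;> grind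
      · refine hind (Y 0 1 / X 0 1) (ext_two ?_ ?_ ?_ ?_) <;>
          simp only [Matrix.smul_apply, smul_eq_mul, eX, eY] <;> field_simp <;> grind
    · refine hind (Y 0 0 / X 0 0) (ext_two ?_ ?_ ?_ ?_) <;>
        simp only [Matrix.smul_apply, smul_eq_mul, eX, eY] <;> field_simp <;> grind
  by_cases hz : A 0 0 = 0
  · by_cases hz1 : A 0 1 = 0
    · have hz2 : A 1 0 ≠ 0 := fun h => hA0 (ext_two hz hz1 h (by rw [eA, hz, neg_zero]; rfl))
      refine ⟨B 1 0 / A 1 0, ext_two ?_ ?_ ?_ ?_⟩ <;>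
        simp only [Matrix.smul_apply, smul_eq_mul, eA, eB] <;> field_simp <;> grind
    · refine ⟨B 0 1 / A 0 1, ext_two ?_ ?_ ?_ ?_⟩ <;>
        simp only [Matrix.smul_apply, smul_eq_mul, eA, eB] <;> field_simp <;> grind
  · refine ⟨B 0 0 / A 0 0, ext_two ?_ ?_ ?_ ?_⟩ <;>
      simp only [Matrix.smul_apply, smul_eq_mul, eA, eB] <;> field_simp <;> grind

end FLTA.TaylorWiles
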