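/-
Two-dimensional representations irreducible on every subgroup of index at most two.
-/
import Mathlib.GroupTheory.Index
import Mathlib.Algebra.CharP.Basic
import Fermat.Agent.TaylorWiles.ChoiceMat

set_option autoImplicit false

open Matrix

namespace FLTA.TaylorWiles

variable {G : Type*} [Group G] {K : Type*} [Field K]

local notation "M2" => Matrix (Fin 2) (Fin 2) K

/-- `H` has a common eigenvector. -/
def HasEigvec (R : G →* M2) (H : Subgroup G) : Prop :=
  ∃ v : Fin 2 → K, v ≠ 0 ∧ ∀ g ∈ H, ∃ a : K, R g *ᵥ v = a • v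

/-- Irreducible on every subgroup of index at most two. -/
structure IsStronglyIrred (R : G →* M2) : Prop where
  top : ¬ HasEigvec R ⊤
  index_two : ∀ H : Subgroup G, H.index = 2 → ¬ HasEigvec R H

theorem R_mul_inv (R : G →* M2) (g : G) : R g * R g⁻¹ = 1 := by
  rw [← map_mul, mul_inv_cancel, map_one]

theorem R_inv_mul (R : G →* M2) (g : G) : R g⁻¹ * R g = 1 := by
  rw [← map_mul, inv_mul_cancel, map_one]

theorem det_R_ne_zero (R : G →* M2) (g : G) : (R g).det ≠ 0 := by
  intro h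
  have := congrArg Matrix.det (R_mul_inv R g)
  rw [Matrix.det_mul, h, zero_mul, Matrix.det_one] at this
  exact zero_ne_one this

theorem det_R_inv (R : G →* M2) (g : G) : (R g⁻¹).det = (R g).det⁻¹ := by
  refine eq_inv_of_mul_eq_one_left ?_
  rw [← Matrix.det_mul, R_inv_mul, Matrix.det_one]

/-- The subgroup of determinant one. -/
def detOne (R : G →* M2) : Subgroup G := (Matrix.detMonoidHom.comp R).ker

theorem mem_detOne {R : G →* M2} {g : G} : g ∈ detOne R ↔ (R g).det = 1 := Iff.rfl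

instance detOne_normal (R : G →* M2) : (detOne R).Normal :=
  inferInstanceAs (Matrix.detMonoidHom.comp R).ker.Normal

theorem commutator_mem_detOne (R : G →* M2) (g h : G) : g * h * g⁻¹ * h⁻¹ ∈ detOne R := by
  rw [mem_detOne, map_mul, map_mul, map_mul, Matrix.det_mul, Matrix.det_mul, Matrix.det_mul,
    det_R_inv, det_R_inv]
  have := det_R_ne_zero R g
  have := det_R_ne_zero R h
  field_simp

/-- A subgroup closed under products of pairs of outside elements has no common eigenvector. -/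
theorem IsStronglyIrred.not_hasEigvec {R : G →* M2} (hR : IsStronglyIrred R) (H : Subgroup G)
    (hH : ∀ g h, g ∉ H → h ∉ H → g * h ∈ H) : ¬ HasEigvec R H := by
  by_cases h : ∀ g, g ∈ H
  · rw [(Subgroup.eq_top_iff' H).mpr h]
    exact hR.top
  · push Not at h
    obtain ⟨a, ha⟩ := h
    refine hR.index_two H (Subgroup.index_eq_two_iff.mpr ⟨a, fun b => ?_⟩)
    by_cases hb : b ∈ H
    · exact Or.inr ⟨hb, fun hba => ha ((Subgroup.mul_mem_cancel_left _ hb).mp hba)⟩
    · exact Or.inl ⟨hH b a hb ha, hb⟩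

/-- Restricted to a normal subgroup `H`, a traceless matrix normalised by the conjugation action
gives a common eigenvector. -/
theorem hasEigvec_of_commute [IsAlgClosed K] (h2 : (2 : K) ≠ 0) (R : G →* M2) (H : Subgroup G)
    {A : M2} (hA : ∀ c : K, A ≠ c • 1) (hcomm : ∀ g ∈ H, R g * A = A * R g) : HasEigvec R H := by
  obtain ⟨μ, v, hv, hAv⟩ := exists_eigvec h2 A
  refine ⟨v, hv, fun g hg => eigvec_unique hA hv hAv ?_⟩
  rw [Matrix.mulVec_mulVec, ← hcomm g hg, ← Matrix.mulVec_mulVec, hAv, Matrix.mulVec_smul]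

/-- No line in `sl₂` is stable. -/
theorem IsStronglyIrred.not_stable_line [IsAlgClosed K] (h2 : (2 : K) ≠ 0) {R : G →* M2}
    (hR : IsStronglyIrred R) {X : M2} (hX : X.trace = 0) (hX0 : X ≠ 0)
    (hstab : ∀ g : G, ∃ t : K, R g * X * R g⁻¹ = t • X) : False := by
  have hXs : ∀ c : K, X ≠ c • 1 := fun c h => hX0 (scalar_of_trace_zero h2 hX h)
  obtain ⟨μ, v, hv, hXv⟩ := exists_eigvec h2 X
  have hgX : ∀ (g : G) (t : K), R g * X * R g⁻¹ = t • X → R g * X = t • (X * R g) := by
    intro g t h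
    rw [← smul_mul_assoc, ← h, mul_assoc, R_inv_mul, mul_one]
  have hXg : ∀ (g : G) (t : K), R g * X * R g⁻¹ = t • X → t • (X *ᵥ (R g *ᵥ v)) = μ • (R g *ᵥ v) := by
    intro g t h
    rw [Matrix.mulVec_mulVec, ← Matrix.smul_mulVec, ← hgX g t h,
      ← Matrix.mulVec_mulVec, hXv, Matrix.mulVec_smul]
  by_cases hμ : μ = 0
  · refine hR.top ⟨v, hv, fun g _ => eigvec_unique hXs hv hXv ?_⟩
    obtain ⟨t, ht⟩ := hstab g
    have ht0 : t ≠ 0 := by
      rintro rfl
      apply hX0
      rw [zero_smul] at ht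
      calc X = R g⁻¹ * (R g * X * R g⁻¹) * R g := by
            rw [← mul_assoc, ← mul_assoc, R_inv_mul, one_mul, mul_assoc, R_inv_mul, mul_one]
        _ = 0 := by rw [ht, mul_zero, zero_mul]
    refine smul_right_injective _ ht0 ?_
    show t • (X *ᵥ (R g *ᵥ v)) = t • (μ • (R g *ᵥ v))
    rw [hXg g t ht, hμ]
    simp
  · let H : Subgroup G :=
      { carrier := {g | R g * X = X * R g}
        mul_mem' := fun {a b} ha hb => by
          show R (a * b) * X = X * R (a * b)
          rw [map_mul, mul_assoc, hb, ← mul_assoc, ha, mul_assoc]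
        one_mem' := by show R 1 * X = X * R 1; rw [map_one, one_mul, mul_one]
        inv_mem' := fun {a} ha => by
          show R a⁻¹ * X = X * R a⁻¹
          calc R a⁻¹ * X = R a⁻¹ * (X * R a) * R a⁻¹ := by
                rw [mul_assoc, mul_assoc, R_mul_inv, mul_one]
            _ = X * R a⁻¹ := by rw [← ha, ← mul_assoc, R_inv_mul, one_mul] }
    have hdet0 : X.det ≠ 0 := by
      intro hd
      have := eigval_quadratic hv hXv
      rw [hX, hd, zero_mul, sub_zero, add_zero] at this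
      exact hμ (mul_self_eq_zero.mp this)
    have hnot : ∀ g, g ∉ H → R g * X = (-1 : K) • (X * R g) := by
      intro g hg
      obtain ⟨t, ht⟩ := hstab g
      have hd := congrArg Matrix.det ht
      rw [det_conj (R_mul_inv R g), Matrix.det_smul, Fintype.card_fin] at hd
      have : t ^ 2 = 1 := (mul_eq_right₀ hdet0).mp hd.symm
      rcases sq_eq_one_iff.mp this with rfl | rfl
      · exact absurd (show R g * X = X * R g by rw [hgX g 1 ht, one_smul]) hg
      · exact hgX g _ ht
    refine hR.not_hasEigvec H (fun g h hg hh => ?_) (hasEigvec_of_commute h2 R H hXs fun g hg => hg)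
    show R (g * h) * X = X * R (g * h)
    rw [map_mul, mul_assoc, hnot h hh, Matrix.mul_smul, ← mul_assoc, hnot g hg, smul_mul_assoc,
      smul_smul, neg_mul_neg, one_mul, one_smul, mul_assoc]

/-- A normal subgroup with abelian quotient has no common eigenvector. -/
theorem IsStronglyIrred.not_hasEigvec_normal [IsAlgClosed K] (h2 : (2 : K) ≠ 0) {R : G →* M2}
    (hR : IsStronglyIrred R) (H : Subgroup G) [H.Normal]
    (hab : ∀ g h : G, g * h * g⁻¹ * h⁻¹ ∈ H) : ¬ HasEigvec R H := by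
  rintro ⟨v, hv, hev⟩
  by_cases hsc : ∀ g ∈ H, ∃ c : K, R g = c • 1
  · -- all commutators are scalar
    by_cases hsc' : ∀ g : G, ∃ c : K, R g = c • 1
    · exact hR.top ⟨v, hv, fun g _ => by
        obtain ⟨c, hc⟩ := hsc' g
        exact ⟨c, by rw [hc, Matrix.smul_mulVec, Matrix.one_mulVec]⟩⟩
    push Not at hsc'
    obtain ⟨g₀, hg₀⟩ := hsc'
    refine hR.not_stable_line h2 (trace_tracelessPart h2 (R g₀))
      (fun h => hg₀ ((R g₀).trace / 2) (sub_eq_zero.mp h)) fun g => ?_
    obtain ⟨c, hc⟩ := hsc _ (hab g g₀)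
    refine ⟨c, ?_⟩
    have : R g * R g₀ * R g⁻¹ = c • R g₀ := by
      calc R g * R g₀ * R g⁻¹ = R (g * g₀ * g⁻¹ * g₀⁻¹) * R g₀ := by
            rw [← map_mul, ← map_mul, ← map_mul, inv_mul_cancel_right]
        _ = c • R g₀ := by rw [hc, smul_mul_assoc, one_mul]
    rw [conj_tracelessPart (R_mul_inv R g), this, tracelessPart, tracelessPart,
      Matrix.trace_smul, smul_sub, smul_smul]
    congr 2
    rw [smul_eq_mul]
    ring
  push Not at hsc
  obtain ⟨n, hn, hns⟩ := hsc
  obtain ⟨μ, hμ⟩ := hev n hn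
  have heig : ∀ g : G, ∃ ρ : K, R n *ᵥ (R g *ᵥ v) = ρ • (R g *ᵥ v) := by
    intro g
    obtain ⟨a, ha⟩ := hev (g⁻¹ * n * g) (by simpa using Subgroup.Normal.conj_mem' ‹_› n hn g)
    refine ⟨a, ?_⟩
    rw [Matrix.mulVec_mulVec, ← Matrix.mulVec_smul, ← ha, Matrix.mulVec_mulVec, ← map_mul,
      ← map_mul, show g * (g⁻¹ * n * g) = n * g by group]
  have hgv : ∀ g : G, R g *ᵥ v ≠ 0 := fun g h => hv (by
    rw [← Matrix.one_mulVec v, ← R_inv_mul R g, ← Matrix.mulVec_mulVec, h, Matrix.mulVec_zero])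
  let S : Subgroup G :=
    { carrier := {g | ∃ a : K, R g *ᵥ v = a • v}
      mul_mem' := fun {g h} ⟨a, ha⟩ ⟨b, hb⟩ =>
        ⟨b * a, by rw [map_mul, ← Matrix.mulVec_mulVec, hb, Matrix.mulVec_smul, ha, smul_smul]⟩
      one_mem' := ⟨1, by rw [map_one, Matrix.one_mulVec, one_smul]⟩
      inv_mem' := fun {g} ⟨a, ha⟩ => by
        have ha0 : a ≠ 0 := by
          rintro rfl
          exact hgv g (by rw [ha, zero_smul])
        refine ⟨a⁻¹, smul_right_injective _ ha0 ?_⟩
        simp only [smul_smul, mul_inv_cancel₀ ha0, one_smul]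
        rw [← Matrix.mulVec_smul, ← ha, Matrix.mulVec_mulVec, R_inv_mul, Matrix.one_mulVec] }
  refine hR.not_hasEigvec S (fun g h hg hh => ?_) ⟨v, hv, fun g hg => hg⟩
  -- `g v` and `h v` lie on the second eigenline
  by_contra hgh
  obtain ⟨ρ, hρ⟩ := heig g
  obtain ⟨σ, hσ⟩ := heig h
  obtain ⟨τ, hτ⟩ := heig (g * h)
  have hq := fun (w : Fin 2 → K) (r : K) (hw : w ≠ 0) (h : R n *ᵥ w = r • w) =>
    eigval_quadratic hw h
  have q0 := hq v μ hv hμ
  have q1 := hq _ ρ (hgv g) hρ
  have q2 := hq _ σ (hgv h) hσ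
  have q3 := hq _ τ (hgv (g * h)) hτ
  have ne1 : ∀ k r, k ∉ S → R n *ᵥ (R k *ᵥ v) = r • (R k *ᵥ v) → r ≠ μ := fun k r hk hr e =>
    hk (eigvec_unique hns hv hμ (e ▸ hr))
  have sum : ∀ r, r * r - (R n).trace * r + (R n).det = 0 → r ≠ μ → r = (R n).trace - μ := by
    intro r hr hne
    have : (r - μ) * (r - ((R n).trace - μ)) = 0 := by linear_combination hr - q0
    exact sub_eq_zero.mp ((mul_eq_zero.mp this).resolve_left (sub_ne_zero.mpr hne))
  have hρ' := sum ρ q1 (ne1 g ρ hg hρ)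
  have hσ' := sum σ q2 (ne1 h σ hh hσ)
  have hτ' := sum τ q3 (ne1 (g * h) τ hgh hτ)
  obtain ⟨a, ha⟩ := eigvec_unique hns (hgv g) (hρ' ▸ hρ) (hσ' ▸ hσ)
  obtain ⟨b, hb⟩ := eigvec_unique hns (hgv g) (hρ' ▸ hρ) (hτ' ▸ hτ)
  rw [map_mul, ← Matrix.mulVec_mulVec, ← Matrix.mulVec_smul] at hb
  have hinj : R h *ᵥ v = b • v := by
    have := congrArg (fun w => R g⁻¹ *ᵥ w) hb
    simpa [Matrix.mulVec_mulVec, ← mul_assoc, R_inv_mul, Matrix.one_mulVec, Matrix.mulVec_smul] using this
  exact hh ⟨b, hinj⟩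

/-- `detOne` has no common eigenvector. -/
theorem IsStronglyIrred.detOne_not_hasEigvec [IsAlgClosed K] (h2 : (2 : K) ≠ 0) {R : G →* M2}
    (hR : IsStronglyIrred R) : ¬ HasEigvec R (detOne R) :=
  hR.not_hasEigvec_normal h2 (detOne R) (commutator_mem_detOne R)

/-- A group in `SL₂` without common eigenvector contains an element with distinct eigenvalues. -/
theorem exists_trace_sq_ne [IsAlgClosed K] {p : ℕ} [Fact p.Prime] [CharP K p] (hp2 : p ≠ 2)
    (R : G →* M2) (H : Subgroup G) (hdet : ∀ g ∈ H, (R g).det = 1) (hev : ¬ HasEigvec R H) :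
    ∃ g ∈ H, (R g).trace ^ 2 ≠ 4 * (R g).det := by
  have h2 : (2 : K) ≠ 0 := Ring.two_ne_zero (ringChar.eq K p ▸ hp2)
  by_contra! hcon
  have htr : ∀ g ∈ H, (R g).trace = 2 ∨ (R g).trace = -2 := fun g hg =>
    sq_eq_sq_iff_eq_or_eq_neg.mp (by rw [hcon g hg, hdet g hg]; ring)
  -- a non-scalar element and the fixed vector of its traceless part
  obtain ⟨u, hu, hus⟩ : ∃ u ∈ H, ∀ c : K, R u ≠ c • 1 := by
    by_contra! h
    refine hev ⟨![1, 0], fun e => by simpa using congrFun e 0, fun g hg => ?_⟩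
    obtain ⟨c, hc⟩ := h g hg
    exact ⟨c, by rw [hc, Matrix.smul_mulVec, Matrix.one_mulVec]⟩
  set N := tracelessPart (R u) with hN
  have hNt : N.trace = 0 := trace_tracelessPart h2 _
  have hN0 : N ≠ 0 := fun h => hus _ (sub_eq_zero.mp h)
  have hNd : N.det = 0 := by
    have h4 : (4 : K) ≠ 0 := by
      rw [show (4 : K) = 2 * 2 by norm_num]; exact mul_ne_zero h2 h2
    refine (mul_eq_zero.mp ?_).resolve_left h4
    rw [hN, det_tracelessPart h2, hcon u hu, sub_self]
  have hNN : N * N = 0 := by rw [mul_self_eq, hNt, hNd]; simp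
  set e : K := (R u).trace / 2 with he
  have he2 : e * e = 1 := by
    rcases htr u hu with h | h <;> rw [he, h] <;> field_simp <;> ring
  have hRu : R u = e • 1 + N := by rw [hN, tracelessPart, he]; abel
  have hR2 : R (u * u) = 1 + (2 * e) • N := by
    rw [map_mul, hRu, add_mul, mul_add, mul_add, smul_mul_smul_comm, one_mul, he2, one_smul,
      smul_mul_assoc, one_mul, Matrix.mul_smul, mul_one, hNN, add_zero, add_assoc, ← add_smul,
      two_mul]
  refine hev (hasEigvec_of_commute h2 R H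
    (fun c h => hN0 (scalar_of_trace_zero h2 hNt h)) fun v hv => ?_)
  -- `tr (N v) = 0`
  have hδ : ∀ w ∈ H, (N * R w).trace = 0 := by
    intro w hw
    set δ := 2 * e * (N * R w).trace with hδ
    have hw1 : (R (u * u * w)).trace = (R w).trace + δ := by
      rw [map_mul, hR2, add_mul, one_mul, Matrix.trace_add, smul_mul_assoc, Matrix.trace_smul,
        smul_eq_mul]
    have hw2 : (R (u * u * (u * u * w))).trace = (R w).trace + 2 * δ := by
      have hsq : R (u * u) * R (u * u) = 1 + (2 * (2 * e)) • N := by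
        rw [hR2, add_mul, mul_add, mul_add, one_mul, one_mul, mul_one, smul_mul_smul_comm, hNN,
          smul_zero, add_zero, add_assoc, ← add_smul, two_mul (2 * e)]
      rw [map_mul, map_mul (f := R) (u * u) w, ← mul_assoc, hsq, add_mul, one_mul, Matrix.trace_add,
        smul_mul_assoc, Matrix.trace_smul, smul_eq_mul, hδ]
      ring
    have m1 := htr _ (H.mul_mem (H.mul_mem hu hu) hw)
    have m2 := htr _ (H.mul_mem (H.mul_mem hu hu) (H.mul_mem (H.mul_mem hu hu) hw))
    rw [hw1] at m1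
    rw [hw2] at m2
    have : δ = 0 := by
      by_contra hδ0
      rcases htr w hw with h | h <;> rcases m1 with h1 | h1 <;> rcases m2 with h3 | h3 <;>
        rw [h] at h1 h3
      all_goals
        first
          | exact hδ0 (by linear_combination h1)
          | exact hδ0 (mul_left_cancel₀ h2 (by linear_combination h3))
          | exact hδ0 (by linear_combination h3 - h1)
    rw [hδ, mul_eq_zero] at this
    exact this.resolve_left (mul_ne_zero h2 fun h => by simp [h] at he2)
  -- conjugates of `N` by `H` are proportional to `N`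
  have hconj : ∀ w ∈ H, ∃ t : K, R w * N * R w⁻¹ = t • N := by
    intro w hw
    refine nilp_proportional hN0 hNt hNd (by rw [trace_conj (R_mul_inv R w), hNt])
      (by rw [det_conj (R_mul_inv R w), hNd]) ?_
    have h := hδ (w * u * w⁻¹) (H.mul_mem (H.mul_mem hw hu) (H.inv_mem hw))
    rw [map_mul, map_mul, hRu, mul_add, add_mul, Matrix.mul_smul, mul_one, smul_mul_assoc,
      R_mul_inv, mul_add, Matrix.trace_add, Matrix.mul_smul, mul_one, Matrix.trace_smul, hNt,
      smul_zero, zero_add] at h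
    exact h
  obtain ⟨μ, x, hx, hNx⟩ := exists_eigvec h2 N
  exfalso
  refine hev ⟨x, hx, fun w hw => eigvec_unique
    (fun c h => hN0 (scalar_of_trace_zero h2 hNt h)) hx hNx ?_⟩
  obtain ⟨t, ht⟩ := hconj w hw
  have hμ : μ = 0 := by
    have := eigval_quadratic hx hNx
    rw [hNt, hNd] at this
    exact mul_self_eq_zero.mp (by linear_combination this)
  have ht0 : t ≠ 0 := by
    rintro rfl
    apply hN0
    rw [zero_smul] at ht
    calc N = R w⁻¹ * (R w * N * R w⁻¹) * R w := by
          rw [← mul_assoc, ← mul_assoc, R_inv_mul, one_mul, mul_assoc, R_inv_mul, mul_one]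
      _ = 0 := by rw [ht, mul_zero, zero_mul]
  have hwN : R w * N = t • (N * R w) := by
    rw [← smul_mul_assoc, ← ht, mul_assoc, R_inv_mul, mul_one]
  refine smul_right_injective _ ht0 ?_
  show t • (N *ᵥ (R w *ᵥ x)) = t • (μ • (R w *ᵥ x))
  rw [Matrix.mulVec_mulVec, ← Matrix.smul_mulVec, ← hwN, ← Matrix.mulVec_mulVec, hNx, hμ]
  simp

end FLTA.TaylorWiles
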