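/-
Cocycles with values in the twisted adjoint `ad⁰(1)` and the pseudo-character they induce.
-/
import Fermat.Agent.TaylorWiles.ChoiceIrred
import Mathlib.LinearAlgebra.Matrix.Trace
import Mathlib.Algebra.Module.Projective
import Mathlib.LinearAlgebra.FiniteDimensional.Basic
import Mathlib.LinearAlgebra.Finsupp.LinearCombination
import Mathlib.GroupTheory.OrderOfElement
import Mathlib.Algebra.CharP.Lemmas
import Mathlib.Algebra.CharP.Algebra

set_option autoImplicit false

open Matrix

namespace FLTA.TaylorWiles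

variable {G : Type*} [Group G] {K : Type*} [Field K]

local notation "M2" => Matrix (Fin 2) (Fin 2) K

/-- The action on `ad(1)`. -/
def adTwist (R : G →* M2) (g : G) (X : M2) : M2 := (R g).det • (R g * X * R g⁻¹)

/-- A cocycle with values in `ad⁰(1)`. -/
structure AdCocycle (R : G →* M2) where
  toFun : G → M2
  trace_eq : ∀ g, (toFun g).trace = 0
  map_mul : ∀ g h, toFun (g * h) = toFun g + adTwist R g (toFun h)

namespace AdCocycle

variable {R : G →* Matrix (Fin 2) (Fin 2) K}

instance : CoeFun (AdCocycle R) (fun _ => G → M2) := ⟨AdCocycle.toFun⟩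

variable (x : AdCocycle R)

theorem map_one : x 1 = 0 := by
  have h := x.map_mul 1 1
  simp [adTwist] at h
  exact h

theorem map_mul_of_mem {g : G} (hg : g ∈ detOne R) (h : G) :
    x (g * h) = x g + R g * x h * R g⁻¹ := by
  rw [x.map_mul, adTwist, mem_detOne.mp hg, one_smul]

theorem map_inv (h : G) : adTwist R h⁻¹ (x h) = - x h⁻¹ := by
  rw [eq_neg_iff_add_eq_zero, add_comm, ← x.map_mul, inv_mul_cancel, x.map_one]

theorem map_mul_of_ker {g : G} (hg : R g = 1) (h : G) : x (g * h) = x g + x h := by
  have hg' : R g⁻¹ = 1 := by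
    have := R_inv_mul R g
    rwa [hg, mul_one] at this
  rw [x.map_mul, adTwist, hg, hg', Matrix.det_one, one_smul, one_mul, mul_one]

theorem map_conj_ker {h : G} (hh : R h = 1) (g : G) :
    x (g * h * g⁻¹) = adTwist R g (x h) := by
  have h1 : x g + adTwist R g (x g⁻¹) = 0 := by rw [← x.map_mul, mul_inv_cancel, x.map_one]
  rw [mul_assoc, x.map_mul, x.map_mul_of_ker hh]
  simp only [adTwist, mul_add, add_mul, smul_add] at h1 ⊢
  rw [add_left_comm, h1, add_zero]

/-- The trace pairing of the cocycle with the representation. -/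
def pseudo (g : G) : K := (x g * R g).trace

theorem pseudo_one : x.pseudo 1 = 0 := by simp [pseudo, x.map_one]

theorem pseudo_mul_add {g h : G} (hg : g ∈ detOne R) (hh : h ∈ detOne R) :
    x.pseudo (g * h) + x.pseudo (g * h⁻¹) =
      x.pseudo g * (R h).trace + (R g).trace * x.pseudo h := by
  have hhd : (R h).det = 1 := hh
  have hsum : R h + R h⁻¹ = (R h).trace • (1 : M2) := add_inv_eq_trace hhd (R_mul_inv R h)
  have hxh : x h⁻¹ = - (R h⁻¹ * x h * R h) := by
    have h1 := x.map_inv h
    rw [adTwist, det_R_inv, hhd, inv_one, one_smul, inv_inv] at h1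
    rw [h1, neg_neg]
  have e1 : x.pseudo (g * h) = (x g * (R g * R h)).trace + (R g * (x h * R h)).trace := by
    rw [pseudo, x.map_mul_of_mem hg, _root_.map_mul, add_mul, Matrix.trace_add]
    congr 2
    rw [mul_assoc, ← mul_assoc (R g⁻¹), R_inv_mul, one_mul, mul_assoc]
  have e2 : x.pseudo (g * h⁻¹) = (x g * (R g * R h⁻¹)).trace - (R g * (R h⁻¹ * x h)).trace := by
    rw [pseudo, x.map_mul_of_mem hg, _root_.map_mul, add_mul, Matrix.trace_add, hxh, sub_eq_add_neg,
      ← Matrix.trace_neg]
    congr 2
    simp only [mul_neg, neg_mul, mul_assoc]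
    congr 3
    rw [← mul_assoc (R g⁻¹), R_inv_mul, one_mul, R_mul_inv, mul_one]
  have e3 : x h * R h - R h⁻¹ * x h = x.pseudo h • (1 : M2) := by
    have hinv : R h⁻¹ = (R h).trace • (1 : M2) - R h := by rw [← hsum]; abel
    rw [hinv, sub_mul, smul_mul_assoc, one_mul]
    calc x h * R h - ((R h).trace • x h - R h * x h)
        = (x h * R h + R h * x h) - (R h).trace • x h := by abel
      _ = _ := by rw [mul_add_mul_swap, x.trace_eq]; simp [pseudo]
  calc x.pseudo (g * h) + x.pseudo (g * h⁻¹)
      = (x g * (R g * (R h + R h⁻¹))).trace + (R g * (x h * R h - R h⁻¹ * x h)).trace := by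
        rw [e1, e2, mul_add, mul_add, Matrix.trace_add, mul_sub, Matrix.trace_sub]; ring
    _ = _ := by
        rw [hsum, e3]
        simp only [Matrix.mul_smul, mul_one, Matrix.trace_smul, smul_eq_mul, pseudo]
        ring

theorem pseudo_pow {u : G} (hu : u ∈ detOne R) (ht : (R u).trace = 2) :
    ∀ j : ℕ, x.pseudo (u ^ j) = (j : K) ^ 2 * x.pseudo u ∧
      x.pseudo (u ^ (j + 1)) = ((j + 1 : ℕ) : K) ^ 2 * x.pseudo u ∧ (R (u ^ j)).trace = 2 ∧
      (R (u ^ (j + 1))).trace = 2 := by
  intro j
  induction j with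
  | zero =>
    refine ⟨by simp [x.pseudo_one], by simp, ?_, by simpa using ht⟩
    rw [pow_zero, _root_.map_one, Matrix.trace_one, Fintype.card_fin, Nat.cast_ofNat]
  | succ j ih =>
    obtain ⟨h0, h1, t0, t1⟩ := ih
    refine ⟨h1, ?_, t1, ?_⟩
    · have h := x.pseudo_mul_add ((detOne R).pow_mem hu (j + 1)) hu
      rw [← pow_succ, show u ^ (j + 1) * u⁻¹ = u ^ j by rw [pow_succ, mul_inv_cancel_right],
        t1, ht, h0, h1] at h
      push_cast at h ⊢
      linear_combination h
    · have hsum : R u + R u⁻¹ = (R u).trace • (1 : M2) :=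
        add_inv_eq_trace hu (R_mul_inv R u)
      have h : (R (u ^ (j + 1)) * (R u + R u⁻¹)).trace =
          (R (u ^ (j + 1 + 1))).trace + (R (u ^ j)).trace := by
        rw [mul_add, Matrix.trace_add, ← _root_.map_mul, ← _root_.map_mul, ← pow_succ,
          show u ^ (j + 1) * u⁻¹ = u ^ j by rw [pow_succ, mul_inv_cancel_right]]
      rw [hsum, ht, Matrix.mul_smul, mul_one, Matrix.trace_smul, t1, t0, smul_eq_mul] at h
      linear_combination -h

/-- If the cocycle vanishes on the kernel, its pseudo-character vanishes at elements with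
distinct eigenvalues. -/
theorem pseudo_eq_zero_of_regular {p : ℕ} [Fact p.Prime] [CharP K p] (hp2 : p ≠ 2)
    (hfin : (Set.range R).Finite) (hker : ∀ a, R a = 1 → x a = 0) {g : G} (hg : g ∈ detOne R)
    (hreg : (R g).trace ^ 2 ≠ 4) : x.pseudo g = 0 := by
  have h2 : (2 : K) ≠ 0 := Ring.two_ne_zero (ringChar.eq K p ▸ hp2)
  have hRfin : IsOfFinOrder (R g) := by
    rw [isOfFinOrder_iff_pow_eq_one]
    obtain ⟨a, -, b, -, hne, he⟩ :=
      (Set.infinite_univ (α := ℕ)).exists_ne_map_eq_of_mapsTo
        (f := fun i : ℕ => R (g ^ i)) (fun i _ => Set.mem_range_self (g ^ i)) hfin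
    wlog hab : a < b generalizing a b
    · exact this b a hne.symm he.symm (lt_of_le_of_ne (not_lt.mp hab) hne.symm)
    refine ⟨b - a, by omega, ?_⟩
    have : R (g ^ a) * R (g ^ (b - a)) = R (g ^ a) * 1 := by
      rw [← _root_.map_mul, ← pow_add, Nat.add_sub_cancel' hab.le, mul_one, he]
    rw [← _root_.map_pow]
    calc R (g ^ (b - a)) = R (g ^ a)⁻¹ * (R (g ^ a) * R (g ^ (b - a))) := by
          rw [← mul_assoc, R_inv_mul, one_mul]
      _ = 1 := by rw [this, mul_one, R_inv_mul]
  set n := orderOf (R g) with hn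
  have hn0 : 0 < n := hRfin.orderOf_pos
  have hgn : R (g ^ n) = 1 := by rw [_root_.map_pow, hn, pow_orderOf_eq_one]
  have key : ∀ i : ℕ, (x (g ^ i) * R g).trace = (i : K) * x.pseudo g := by
    intro i
    induction i with
    | zero => simp [x.map_one]
    | succ i ih =>
      rw [pow_succ, x.map_mul_of_mem ((detOne R).pow_mem hg i), add_mul, Matrix.trace_add, ih]
      have : R (g ^ i) * x g * R (g ^ i)⁻¹ * R g = R (g ^ i) * (x g * R g) * R (g ^ i)⁻¹ := by
        simp only [mul_assoc]
        rw [← _root_.map_mul, ← _root_.map_mul,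
          show (g ^ i)⁻¹ * g = g * (g ^ i)⁻¹ from (Commute.pow_self g i).inv_left.eq]
      rw [this, trace_conj (R_mul_inv R _)]
      push_cast
      rw [pseudo]
      ring
  have h0 := key n
  rw [hker _ hgn, zero_mul, Matrix.trace_zero, eq_comm, mul_eq_zero] at h0
  refine h0.resolve_left fun hpn => ?_
  obtain ⟨m, hm⟩ := (CharP.cast_eq_zero_iff K p n).mp hpn
  have hmn : m < n := by
    have := (Fact.out : p.Prime).two_le
    rcases Nat.eq_zero_or_pos m with rfl | hm0
    · exact hn0
    · rw [hm]
      exact (Nat.lt_mul_iff_one_lt_left hm0).mpr this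
  -- `R g ^ m` is unipotent and commutes with the regular element `R g`
  set A := tracelessPart (R g) with hA
  have hAt : A.trace = 0 := trace_tracelessPart h2 _
  have hAd : A.det ≠ 0 := by
    intro h
    have := det_tracelessPart h2 (R g)
    rw [← hA, h, mul_zero, mem_detOne.mp hg] at this
    exact hreg (by linear_combination this)
  have : CharP M2 p := charP_of_injective_algebraMap (FaithfulSMul.algebraMap_injective K M2) p
  set U := R g ^ m - 1 with hU
  have hUp : U ^ p = 0 := by
    rw [hU, sub_pow_char_of_commute _ (Commute.one_right _), one_pow, ← pow_mul, mul_comm m p, ← hm,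
      hn, pow_orderOf_eq_one, sub_self]
  have hUd : U.det = 0 := by
    have := congrArg Matrix.det hUp
    rw [Matrix.det_pow, Matrix.det_zero] at this
    exact eq_zero_of_pow_eq_zero this
  have hUt : U.trace = 0 := by
    have hpow : ∀ i : ℕ, U ^ (i + 1) = U.trace ^ i • U := by
      intro i
      induction i with
      | zero => simp
      | succ i ih =>
        rw [pow_succ, ih, smul_mul_assoc, mul_self_eq, hUd, zero_smul, sub_zero, smul_smul,
          ← pow_succ]
    have h := congrArg Matrix.trace hUp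
    rw [show p = (p - 1) + 1 by have := (Fact.out : p.Prime).one_lt; omega, hpow,
      Matrix.trace_smul, Matrix.trace_zero, smul_eq_mul, ← pow_succ] at h
    exact eq_zero_of_pow_eq_zero h
  have hcomm : Commute A U := by
    rw [hA, tracelessPart, hU]
    exact ((((Commute.refl (R g)).pow_right m).sub_right (Commute.one_right _)).sub_left
      ((Commute.one_left _).smul_left _))
  have h1 : A * U + A * U = (A * U).trace • (1 : M2) := by
    conv_lhs => arg 2; rw [hcomm.eq]
    exact anticomm_of_trace_zero hAt hUt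
  have hAA : A * A = (- A.det) • (1 : M2) := by
    rw [mul_self_eq, hAt, zero_smul, zero_sub, neg_smul]
  have h1' : (2 * - A.det) • U = (A * U).trace • A := by
    rw [← mul_one A, ← Matrix.mul_smul, mul_one, ← h1, mul_add, ← mul_assoc, hAA, smul_mul_assoc,
      one_mul, ← add_smul, two_mul]
  have hU0 : U = 0 := by
    have hne : 2 * -A.det ≠ 0 := mul_ne_zero h2 (neg_ne_zero.mpr hAd)
    have hd := congrArg Matrix.det h1'
    rw [Matrix.det_smul, Matrix.det_smul, hUd, mul_zero, eq_comm, mul_eq_zero,
      or_iff_left hAd] at hd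
    rw [eq_zero_of_pow_eq_zero hd, zero_smul] at h1'
    exact (smul_eq_zero.mp h1').resolve_left hne
  have hdiv : n ∣ m := by
    rw [hn, orderOf_dvd_iff_pow_eq_one]
    rwa [hU, sub_eq_zero] at hU0
  rcases Nat.eq_zero_or_pos m with rfl | hm0
  · simp [hm] at hn0
  · exact absurd (Nat.le_of_dvd hm0 hdiv) (by omega)

end AdCocycle

end FLTA.TaylorWiles
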