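/-
The element used in the choice of Taylor-Wiles primes.

Let `R` be a two-dimensional representation with finite image over an algebraically closed field of
odd characteristic `p`, irreducible on every subgroup of index at most two, and `x` a cocycle with
values in `ad⁰ R ⊗ det R` which is not a coboundary.  Then every normal subgroup `G₀` with abelian
quotient, on which `det R = 1`, contains an element `σ` with distinct eigenvalues such that
`x σ` is not in the image of `σ - 1`.  The proof uses no classification of subgroups of `GL₂`: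
the only possible obstruction is the value of the pseudo-character `tr (x g * R g)` at transvections.
-/
import Fermat.Agent.TaylorWiles.ChoiceCocycle

set_option autoImplicit false

open Matrix

namespace FLTA.TaylorWiles

variable {G : Type*} [Group G] {K : Type*} [Field K]

local notation "M2" => Matrix (Fin 2) (Fin 2) K

namespace AdCocycle

variable {R : G →* Matrix (Fin 2) (Fin 2) K} (x : AdCocycle R)

/-- `x` is a coboundary. -/
def IsCoboundary : Prop := ∃ m : M2, m.trace = 0 ∧ ∀ g, x g = adTwist R g m - m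

theorem adTwist_sub (g : G) (X Y : M2) : adTwist R g (X - Y) = adTwist R g X - adTwist R g Y := by
  simp [adTwist, mul_sub, sub_mul, smul_sub]

theorem adTwist_adTwist (g h : G) (X : M2) :
    adTwist R g (adTwist R h X) = adTwist R (g * h) X := by
  simp only [adTwist, _root_.map_mul, Matrix.det_mul, _root_.mul_inv_rev, Matrix.mul_smul, smul_mul_assoc,
    smul_smul, mul_assoc]

/-- A cocycle twisted by a coboundary. -/
def sub (m : M2) (hm : m.trace = 0) : AdCocycle R where
  toFun g := x g - (adTwist R g m - m)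
  trace_eq g := by
    simp [Matrix.trace_sub, x.trace_eq, adTwist, Matrix.trace_smul, trace_conj (R_mul_inv R g), hm]
  map_mul g h := by
    rw [x.map_mul, adTwist_sub, adTwist_sub, adTwist_adTwist]
    abel

/-- A matrix commuting with `detOne` and traceless is zero. -/
theorem eq_zero_of_commute [IsAlgClosed K] (h2 : (2 : K) ≠ 0) (hR : IsStronglyIrred R) {X : M2}
    (hX : X.trace = 0) (h : ∀ g ∈ detOne R, R g * X = X * R g) : X = 0 := by
  by_contra hX0
  exact hR.detOne_not_hasEigvec h2
    (hasEigvec_of_commute h2 R _ (fun c hc => hX0 (scalar_of_trace_zero h2 hX hc)) h)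

/-- A matrix orthogonal to `R (detOne R)` is zero. -/
theorem eq_zero_of_orth [IsAlgClosed K] (h2 : (2 : K) ≠ 0) (hR : IsStronglyIrred R) {Z : M2}
    (h : ∀ g ∈ detOne R, (Z * R g).trace = 0) : Z = 0 := by
  have hZt : Z.trace = 0 := by simpa using h 1 (detOne R).one_mem
  by_contra hZ
  by_cases hd : Z.det = 0
  · obtain ⟨v, hv, hZv⟩ := Matrix.exists_mulVec_eq_zero_iff.mpr hd
    refine hR.detOne_not_hasEigvec h2 ⟨v, hv, fun g hg => ?_⟩
    have hmul : Z * R g * Z = 0 := by
      rw [mul_mul_self_of_mul_self_eq_zero (by rw [mul_self_eq, hZt, hd]; simp) hZt, h g hg,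
        zero_smul]
    have hrange : ∃ u, Z *ᵥ u ≠ 0 := by
      by_contra! hall
      exact hZ (Matrix.ext_iff_mulVec.mpr fun u => by rw [hall u, Matrix.zero_mulVec])
    obtain ⟨u, hu⟩ := hrange
    have hns : ∀ c : K, Z ≠ c • 1 := fun c hc => hZ (scalar_of_trace_zero h2 hZt hc)
    have hv0 : Z *ᵥ v = (0 : K) • v := by rw [hZv, zero_smul]
    obtain ⟨a, ha⟩ := eigvec_unique hns hv hv0 (w := Z *ᵥ u) (by
      rw [zero_smul, Matrix.mulVec_mulVec, mul_self_eq, hZt, hd]; simp)
    have ha0 : a ≠ 0 := fun e => hu (by rw [ha, e, zero_smul])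
    refine eigvec_unique hns hv hv0 ?_
    rw [zero_smul]
    have := congrArg (fun B : M2 => B *ᵥ u) hmul
    simp only [← Matrix.mulVec_mulVec, Matrix.zero_mulVec, ha, Matrix.mulVec_smul] at this
    exact (smul_eq_zero.mp this).resolve_left ha0
  · have hcomm : ∀ a ∈ detOne R, ∀ b ∈ detOne R, R a * R b = R b * R a := by
      have key : ∀ a ∈ detOne R, Z * R a = R a⁻¹ * Z := by
        intro a ha
        have hsum : R a + R a⁻¹ = (R a).trace • (1 : M2) :=
          add_inv_eq_trace ha (R_mul_inv R a)
        have hinv : R a⁻¹ = (R a).trace • (1 : M2) - R a := by rw [← hsum]; abel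
        have := mul_add_mul_swap Z (R a)
        rw [hZt, h a ha] at this
        simp only [zero_smul, zero_mul, sub_zero, add_zero] at this
        rw [hinv, sub_mul, smul_mul_assoc, one_mul, ← this]
        abel
      intro a ha b hb
      have h1 : R (a * b)⁻¹ * Z = R a⁻¹ * R b⁻¹ * Z := by
        rw [← key _ ((detOne R).mul_mem ha hb), _root_.map_mul, ← mul_assoc, key a ha, mul_assoc,
          key b hb, ← mul_assoc]
      have hZ' : IsUnit Z.det := isUnit_iff_ne_zero.mpr hd
      have h2' := congrArg (fun B => B * Z⁻¹) h1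
      simp only [mul_assoc, Matrix.mul_nonsing_inv _ hZ', mul_one] at h2'
      rw [_root_.mul_inv_rev, _root_.map_mul] at h2'
      calc R a * R b = R a * R b * (R a⁻¹ * R b⁻¹) * (R b * R a) := by
            simp only [mul_assoc]
            rw [← mul_assoc (R b⁻¹) (R b), R_inv_mul, one_mul, R_inv_mul, mul_one]
        _ = R b * R a := by
            rw [← h2']
            simp only [mul_assoc]
            rw [← mul_assoc (R b) (R b⁻¹), R_mul_inv, one_mul, ← mul_assoc (R a) (R a⁻¹), R_mul_inv,
              one_mul]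
    by_cases hsc : ∀ a ∈ detOne R, ∃ c : K, R a = c • 1
    · refine hR.detOne_not_hasEigvec h2 ⟨![1, 0], fun e => by simpa using congrFun e 0,
        fun g hg => ?_⟩
      obtain ⟨c, hc⟩ := hsc g hg
      exact ⟨c, by rw [hc, Matrix.smul_mulVec, Matrix.one_mulVec]⟩
    · push Not at hsc
      obtain ⟨a, ha, hns⟩ := hsc
      exact hR.detOne_not_hasEigvec h2
        (hasEigvec_of_commute h2 R _ hns fun g hg => hcomm g hg a ha)

/-- If the pseudo-character vanishes on `detOne`, the cocycle is a coboundary there. -/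
theorem exists_coboundary_detOne [IsAlgClosed K] (h2 : (2 : K) ≠ 0) (hR : IsStronglyIrred R)
    (hps : ∀ g ∈ detOne R, x.pseudo g = 0) :
    ∃ m : M2, m.trace = 0 ∧ ∀ g ∈ detOne R, x g = adTwist R g m - m := by
  classical
  let Φ : (detOne R →₀ K) →ₗ[K] M2 := Finsupp.linearCombination K fun g : detOne R => R g
  let Ψ : (detOne R →₀ K) →ₗ[K] M2 := Finsupp.linearCombination K fun g : detOne R => x g * R g
  -- `Φ` is onto
  have hsurj : LinearMap.range Φ = ⊤ := by
    by_contra hne
    obtain ⟨f, hf0, hf⟩ := Submodule.exists_dual_map_eq_bot_of_lt_top (lt_top_iff_ne_top.mpr hne)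
      inferInstance
    apply hf0
    set Z : M2 := Matrix.of fun i j => f (Matrix.single j i 1) with hZ
    have hfZ : ∀ A : M2, f A = (Z * A).trace := by
      intro A
      have hA : A = ∑ i, ∑ j, A i j • Matrix.single i j (1 : K) := by
        conv_lhs => rw [Matrix.matrix_eq_sum_single A]
        simp [Matrix.smul_single]
      conv_lhs => rw [hA]
      simp only [map_sum, map_smul, smul_eq_mul]
      simp [Fin.sum_univ_two, Matrix.trace_fin_two, Matrix.mul_apply, hZ]
      ring
    have : Z = 0 := eq_zero_of_orth h2 hR fun g hg => by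
      rw [← hfZ]
      have : f (R g) ∈ Submodule.map f (LinearMap.range Φ) :=
        Submodule.mem_map_of_mem ⟨Finsupp.single ⟨g, hg⟩ 1, by simp [Φ]⟩
      rwa [hf, Submodule.mem_bot] at this
    exact LinearMap.ext fun A => by rw [hfZ, this, zero_mul, Matrix.trace_zero, LinearMap.zero_apply]
  -- the derivation
  have hker : ∀ a, Φ a = 0 → Ψ a = 0 := by
    intro a ha
    refine eq_zero_of_orth h2 hR fun h hh => ?_
    have hterm : ∀ g : detOne R,
        (x g * R g * R h).trace = -(R g * (x h * R h)).trace := by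
      intro g
      have := hps _ ((detOne R).mul_mem g.2 hh)
      rw [pseudo, x.map_mul_of_mem g.2, _root_.map_mul, add_mul, Matrix.trace_add] at this
      rw [mul_assoc, eq_neg_iff_add_eq_zero]
      convert this using 3
      simp only [mul_assoc]
      rw [← mul_assoc (R (g : G)⁻¹), R_inv_mul, one_mul]
    simp only [Ψ, Finsupp.linearCombination_apply, Finsupp.sum, Finset.sum_mul, smul_mul_assoc,
      Matrix.trace_sum, Matrix.trace_smul, hterm]
    simp only [smul_neg, Finset.sum_neg_distrib, neg_eq_zero]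
    simp only [← Matrix.trace_smul, ← smul_mul_assoc, ← Matrix.trace_sum, ← Finset.sum_mul]
    rw [show ∑ g ∈ a.support, a g • R (g : G) = Φ a from
      (Finsupp.linearCombination_apply K a).symm, ha, zero_mul, Matrix.trace_zero]
  obtain ⟨sect, hsect⟩ := Φ.exists_rightInverse_of_surjective hsurj
  set D : M2 →ₗ[K] M2 := Ψ.comp sect
  have hD : ∀ a, D (Φ a) = Ψ a := by
    intro a
    have h := hker (sect (Φ a) - a) (by
      rw [map_sub, ← LinearMap.comp_apply, hsect, LinearMap.id_apply, sub_self])
    rwa [map_sub, sub_eq_zero] at h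
  have hDR : ∀ g ∈ detOne R, D (R g) = x g * R g := by
    intro g hg
    have := hD (Finsupp.single ⟨g, hg⟩ 1)
    simpa [Φ, Ψ] using this
  have hDmul : ∀ A B : M2, D (A * B) = D A * B + A * D B := by
    have h0 : ∀ g : detOne R, ∀ B : M2, D (R g * B) = D (R g) * B + R g * D B := by
      intro g B
      obtain ⟨b, rfl⟩ := LinearMap.range_eq_top.mp hsurj B
      induction b using Finsupp.induction_linear with
      | zero => simp
      | add b b' hb hb' => simp only [map_add, mul_add, hb, hb']; abel
      | single h c =>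
        simp only [Φ, Finsupp.linearCombination_single, Matrix.mul_smul, map_smul, ← smul_add]
        congr 1
        rw [← _root_.map_mul, hDR _ ((detOne R).mul_mem g.2 h.2), hDR _ g.2, hDR _ h.2,
          x.map_mul_of_mem g.2, _root_.map_mul, add_mul]
        simp only [mul_assoc]
        congr 2
        rw [← mul_assoc (R (g : G)⁻¹), R_inv_mul, one_mul]
    intro A B
    obtain ⟨a, rfl⟩ := LinearMap.range_eq_top.mp hsurj A
    induction a using Finsupp.induction_linear with
    | zero => simp
    | add a a' ha ha' => simp only [map_add, add_mul, ha, ha']; abel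
    | single g c =>
      simp only [Φ, Finsupp.linearCombination_single, smul_mul_assoc, map_smul, h0, smul_add]
  -- derivations of the matrix algebra are inner
  set m₀ : M2 := ∑ i, D (Matrix.single i (0 : Fin 2) 1) * Matrix.single (0 : Fin 2) i 1 with hm₀
  have hinner : ∀ A : M2, D A = m₀ * A - A * m₀ := by
    intro A
    have hsum : ∀ B : M2, (∑ i, B * Matrix.single i (0 : Fin 2) (1 : K) * Matrix.single (0 : Fin 2) i 1) = B := by
      intro B
      apply ext_two <;> simp [Fin.sum_univ_two, Matrix.mul_apply, Matrix.single]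
    have h1 : ∑ i, D (A * Matrix.single i (0 : Fin 2) 1) * Matrix.single (0 : Fin 2) i 1 = D A + A * m₀ := by
      simp only [hDmul, add_mul, Finset.sum_add_distrib, hm₀, Finset.mul_sum, hsum, mul_assoc]
      congr 1
      conv_rhs => rw [← hsum (D A)]
      simp only [mul_assoc]
    have hdec : ∀ i : Fin 2, A * Matrix.single i (0 : Fin 2) (1 : K) = ∑ j : Fin 2, A j i • Matrix.single j (0 : Fin 2) 1 := by
      intro i
      ext r c; fin_cases i <;> fin_cases r <;> fin_cases c <;> simp [Fin.sum_univ_two, Matrix.mul_apply, Matrix.single]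
    have hdec' : ∀ j : Fin 2, Matrix.single (0 : Fin 2) j (1 : K) * A = ∑ i : Fin 2, A j i • Matrix.single (0 : Fin 2) i 1 := by
      intro j
      ext r c; fin_cases j <;> fin_cases r <;> fin_cases c <;> simp [Fin.sum_univ_two, Matrix.mul_apply, Matrix.single]
    have h2 : ∑ i, D (A * Matrix.single i (0 : Fin 2) 1) * Matrix.single (0 : Fin 2) i 1 = m₀ * A := by
      calc ∑ i, D (A * Matrix.single i (0 : Fin 2) 1) * Matrix.single (0 : Fin 2) i 1
          = ∑ i, ∑ j, A j i • (D (Matrix.single j (0 : Fin 2) 1) * Matrix.single (0 : Fin 2) i 1) :=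
            Finset.sum_congr rfl fun i _ => by
              rw [hdec, map_sum, Finset.sum_mul]
              exact Finset.sum_congr rfl fun j _ => by rw [map_smul, smul_mul_assoc]
        _ = ∑ j, ∑ i, A j i • (D (Matrix.single j (0 : Fin 2) 1) * Matrix.single (0 : Fin 2) i 1) := Finset.sum_comm
        _ = m₀ * A := by
            rw [hm₀, Finset.sum_mul]
            refine Finset.sum_congr rfl fun j _ => ?_
            rw [mul_assoc, hdec', Finset.mul_sum]
            exact Finset.sum_congr rfl fun i _ => by rw [Matrix.mul_smul]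
    rw [← h2, h1, add_sub_cancel_right]
  refine ⟨-tracelessPart m₀, by rw [Matrix.trace_neg, trace_tracelessPart h2, neg_zero],
    fun g hg => ?_⟩
  have hx : x g = (m₀ * R g - R g * m₀) * R g⁻¹ := by
    rw [← hinner, hDR g hg, mul_assoc, R_mul_inv, mul_one]
  rw [hx, adTwist, mem_detOne.mp hg, one_smul, tracelessPart, sub_mul, mul_assoc, R_mul_inv,
    mul_one, mul_neg, neg_mul, mul_sub, sub_mul, Matrix.mul_smul, mul_one, smul_mul_assoc,
    R_mul_inv]
  abel

/-- The transvection relation: `φ v = - j² φ u`. -/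
theorem pseudo_transvection {p : ℕ} [Fact p.Prime] [CharP K p] (hp2 : p ≠ 2)
    (hfin : (Set.range R).Finite) (hker : ∀ a, R a = 1 → x a = 0) {u v : G} (hu : u ∈ detOne R)
    (hv : v ∈ detOne R) (htu : (R u).trace = 2) (htv : (R v).trace = 2)
    (j : ℕ) (hj0 : (j : K) ≠ 0) (hθ : (R v * R u).trace ≠ 2)
    (hj : ((j : K) * ((R v * R u).trace - 2)) ^ 2 ≠ 4 ^ 2) :
    x.pseudo v + (j : K) ^ 2 * x.pseudo u = 0 := by
  have h2 : (2 : K) ≠ 0 := Ring.two_ne_zero (ringChar.eq K p ▸ hp2)
  set θ := (R v * R u).trace - 2 with hθd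
  have hθ0 : θ ≠ 0 := sub_ne_zero.mpr hθ
  obtain ⟨hφ, -, ht, -⟩ := x.pseudo_pow hu htu j
  have hsum : R u + R u⁻¹ = (R u).trace • (1 : M2) := add_inv_eq_trace hu (R_mul_inv R u)
  have ht1 : ∀ i : ℕ, (R (v * u ^ i)).trace = 2 + (i : K) * θ ∧
      (R (v * u ^ (i + 1))).trace = 2 + ((i + 1 : ℕ) : K) * θ := by
    intro i
    induction i with
    | zero => exact ⟨by simp [htv], by simp [hθd]⟩
    | succ i ih =>
      refine ⟨ih.2, ?_⟩
      have h : (R (v * u ^ (i + 1)) * (R u + R u⁻¹)).trace =
          (R (v * u ^ (i + 1 + 1))).trace + (R (v * u ^ i)).trace := by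
        rw [mul_add, Matrix.trace_add, ← _root_.map_mul, ← _root_.map_mul, mul_assoc, mul_assoc,
          ← pow_succ, show u ^ (i + 1) * u⁻¹ = u ^ i by rw [pow_succ, mul_inv_cancel_right]]
      rw [hsum, htu, Matrix.mul_smul, mul_one, Matrix.trace_smul, ih.1, ih.2, smul_eq_mul] at h
      push_cast at h ⊢
      linear_combination -h
  have hsum' : R (u ^ j) + R (u ^ j)⁻¹ = (R (u ^ j)).trace • (1 : M2) :=
    add_inv_eq_trace ((detOne R).pow_mem hu j) (R_mul_inv R _)
  have ht2 : (R (v * (u ^ j)⁻¹)).trace = 2 - (j : K) * θ := by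
    have h : (R v * (R (u ^ j) + R (u ^ j)⁻¹)).trace =
        (R (v * u ^ j)).trace + (R (v * (u ^ j)⁻¹)).trace := by
      rw [mul_add, Matrix.trace_add, ← _root_.map_mul, ← _root_.map_mul]
    rw [hsum', ht, Matrix.mul_smul, mul_one, Matrix.trace_smul, htv, (ht1 j).1, smul_eq_mul] at h
    linear_combination -h
  have hjθ : (j : K) * θ ≠ 0 := mul_ne_zero hj0 hθ0
  have h1 : x.pseudo (v * u ^ j) = 0 := by
    refine x.pseudo_eq_zero_of_regular hp2 hfin hker ((detOne R).mul_mem hv ((detOne R).pow_mem hu j)) ?_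
    rw [(ht1 j).1]
    intro h
    have : (j : K) * θ * ((j : K) * θ + 4) = 0 := by linear_combination h
    rw [mul_eq_zero, or_iff_right hjθ] at this
    exact hj (by rw [show (j : K) * θ = -4 by linear_combination this]; ring)
  have h2' : x.pseudo (v * (u ^ j)⁻¹) = 0 := by
    refine x.pseudo_eq_zero_of_regular hp2 hfin hker
      ((detOne R).mul_mem hv ((detOne R).inv_mem ((detOne R).pow_mem hu j))) ?_
    rw [ht2]
    intro h
    have : (j : K) * θ * ((j : K) * θ - 4) = 0 := by linear_combination h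
    rw [mul_eq_zero, or_iff_right hjθ] at this
    exact hj (by rw [show (j : K) * θ = 4 by linear_combination this])
  have h := x.pseudo_mul_add hv ((detOne R).pow_mem hu j)
  rw [h1, h2', ht, htv, hφ, add_zero] at h
  exact mul_left_cancel₀ h2 (by linear_combination -h)

theorem trace_mul_of_unipotent {u v : G} (htu : (R u).trace = 2) (htv : (R v).trace = 2) :
    (R v * R u).trace - 2 = ((R v - 1) * (R u - 1)).trace := by
  rw [sub_mul, mul_sub, mul_sub]
  simp [Matrix.trace_sub, htu, htv]

/-- The pseudo-character vanishes at transvections. -/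
theorem pseudo_eq_zero_of_unipotent [IsAlgClosed K] {p : ℕ} [Fact p.Prime] [CharP K p]
    (hp2 : p ≠ 2) (hR : IsStronglyIrred R) (hfin : (Set.range R).Finite)
    (h5 : p = 5 → ∃ g, (R g).det = 2) (hker : ∀ a, R a = 1 → x a = 0) {u : G}
    (hu : u ∈ detOne R) (htu : (R u).trace = 2) : x.pseudo u = 0 := by
  have h2 : (2 : K) ≠ 0 := Ring.two_ne_zero (ringChar.eq K p ▸ hp2)
  set N := R u - 1 with hN
  by_cases hN0 : N = 0
  · rw [pseudo, hker u (sub_eq_zero.mp hN0), zero_mul, Matrix.trace_zero]
  have hNt : N.trace = 0 := by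
    rw [hN, Matrix.trace_sub, htu, Matrix.trace_one, Fintype.card_fin, Nat.cast_ofNat, sub_self]
  have hud : (R u).det = 1 := hu
  have hNd : N.det = 0 := by
    simp only [Matrix.trace_fin_two, Matrix.det_fin_two] at htu hud
    rw [hN, Matrix.det_fin_two]
    simp
    linear_combination hud - htu
  have hNN : N * N = 0 := by rw [mul_self_eq, hNt, hNd]; simp
  have hRu : R u = 1 + N := by rw [hN]; abel
  have hconj : ∀ g : G, R (g * u * g⁻¹) - 1 = R g * N * R g⁻¹ := fun g => by
    rw [hN, mul_sub, mul_one, sub_mul, R_mul_inv, _root_.map_mul, _root_.map_mul]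
  have htr : ∀ g : G, (R (g * u * g⁻¹)).trace = 2 := fun g => by
    rw [_root_.map_mul, _root_.map_mul, trace_conj (R_mul_inv R g), htu]
  have hmem : ∀ g : G, g * u * g⁻¹ ∈ detOne R := fun g => Subgroup.Normal.conj_mem inferInstance u hu g
  have hps : ∀ g : G, x.pseudo (g * u * g⁻¹) = (R g).det * x.pseudo u := by
    intro g
    have e : g * u * g⁻¹ = g * (u * g⁻¹) := mul_assoc _ _ _
    have hxg := x.map_inv g⁻¹
    rw [inv_inv] at hxg
    rw [pseudo, e, x.map_mul, x.map_mul_of_mem hu, ← e, _root_.map_mul, _root_.map_mul]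
    simp only [adTwist, mul_add, add_mul, smul_add, Matrix.trace_add]
    have h3 : ((R g).det • (R g * x u * R g⁻¹) * (R g * R u * R g⁻¹)).trace =
        (R g).det * x.pseudo u := by
      rw [smul_mul_assoc, Matrix.trace_smul, smul_eq_mul]
      congr 1
      rw [show R g * x u * R g⁻¹ * (R g * R u * R g⁻¹) = R g * (x u * R u) * R g⁻¹ by
        simp only [mul_assoc]
        rw [← mul_assoc (R g⁻¹) (R g), R_inv_mul, one_mul], trace_conj (R_mul_inv R g), pseudo]
    have h4 : ((R g).det • (R g * (R u * x g⁻¹ * R u⁻¹) * R g⁻¹) * (R g * R u * R g⁻¹)).trace =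
        - (x g * (R g * R u * R g⁻¹)).trace := by
      rw [← neg_neg (x g), ← hxg, adTwist]
      simp only [smul_mul_assoc, Matrix.trace_smul, neg_mul, Matrix.trace_neg, neg_neg]
      congr 1
      rw [show R g * (R u * x g⁻¹ * R u⁻¹) * R g⁻¹ * (R g * R u * R g⁻¹) =
          R g * (R u * x g⁻¹) * R g⁻¹ by
        simp only [mul_assoc]
        rw [← mul_assoc (R g⁻¹) (R g), R_inv_mul, one_mul, ← mul_assoc (R u⁻¹) (R u), R_inv_mul,
          one_mul],
        show R g * x g⁻¹ * R g⁻¹ * (R g * R u * R g⁻¹) = R g * (x g⁻¹ * R u) * R g⁻¹ by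
        simp only [mul_assoc]
        rw [← mul_assoc (R g⁻¹) (R g), R_inv_mul, one_mul], trace_conj (R_mul_inv R g),
        trace_conj (R_mul_inv R g), Matrix.trace_mul_comm]
    rw [h3, h4]
    ring
  have hp := (Fact.out : p.Prime)
  rcases eq_or_ne p 3 with hp3 | hp3
  · -- the norm of `u`
    subst hp3
    have hu3 : R (u * (u * u)) = 1 := by
      rw [_root_.map_mul, _root_.map_mul, hRu]
      simp only [add_mul, mul_add, one_mul, mul_one, hNN, mul_zero, add_zero]
      have h3 : (3 : K) = 0 := by exact_mod_cast CharP.cast_eq_zero K 3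
      rw [show (1 : M2) + N + N + N = 1 + (3 : K) • N by
        rw [show (3 : K) = 1 + 1 + 1 by norm_num, add_smul, add_smul, one_smul]; abel]
      rw [h3, zero_smul, add_zero]
    have hui : R u⁻¹ = 1 - N := by
      have hsum : R u + R u⁻¹ = (R u).trace • (1 : M2) := add_inv_eq_trace hu (R_mul_inv R u)
      rw [htu, hRu, two_smul] at hsum
      calc R u⁻¹ = 1 + N + R u⁻¹ - (1 + N) := by abel
        _ = _ := by rw [hsum]; abel
    have h0 := hker _ hu3
    rw [x.map_mul_of_mem hu, x.map_mul_of_mem hu, hRu, hui] at h0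
    set X := x u
    have hX : X.trace = 0 := x.trace_eq u
    have hexp : X + (1 + N) * (X + (1 + N) * X * (1 - N)) * (1 - N) =
        (3 : K) • X + (3 : K) • (N * X - X * N) + (-5 : K) • (N * X * N) +
          (-(1 : K)) • (N * N * X) + (-(1 : K)) • (X * (N * N)) +
          (N * N * X * N * N + (2 : K) • (N * X * (N * N)) - (2 : K) • (N * N * X * N)) +
          (2 : K) • (N * N * X) + (2 : K) • (X * (N * N)) := by
      apply ext_two <;> simp [Matrix.mul_apply, Fin.sum_univ_two] <;> ring
    rw [hexp] at h0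
    have h3 : (3 : K) = 0 := by exact_mod_cast CharP.cast_eq_zero K 3
    simp only [h3, hNN, zero_smul, zero_mul, mul_zero, smul_zero, add_zero, zero_add, sub_zero,
      mul_mul_self_of_mul_self_eq_zero hNN hNt, smul_smul] at h0
    have h5ne : (-5 : K) ≠ 0 := by
      intro h
      exact one_ne_zero (by linear_combination h + 2 * h3 : (1 : K) = 0)
    have := (smul_eq_zero.mp h0).resolve_right hN0
    rw [mul_eq_zero, or_iff_right h5ne] at this
    rw [pseudo, hRu, mul_add, mul_one, Matrix.trace_add, hX, zero_add, Matrix.trace_mul_comm]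
    exact this
  -- `p ≥ 5`
  have hp5 : 5 ≤ p := by
    have := hp.two_le
    by_contra hlt
    push Not at hlt
    interval_cases p <;> first | omega | exact absurd hp (by norm_num)
  have hsmall : ∀ m : ℕ, 0 < m → m < p → (m : K) ≠ 0 := fun m hm hmp h =>
    absurd (Nat.le_of_dvd hm ((CharP.cast_eq_zero_iff K p m).mp h)) (by omega)
  obtain ⟨h₀, hh₀, hθ₀⟩ : ∃ h ∈ detOne R, (R h * N * R h⁻¹ * N).trace ≠ 0 := by
    by_contra! hcon
    obtain ⟨μ, w, hw, hNw⟩ := exists_eigvec h2 N
    have hns : ∀ c : K, N ≠ c • 1 := fun c hc => hN0 (scalar_of_trace_zero h2 hNt hc)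
    refine hR.detOne_not_hasEigvec h2 ⟨w, hw, fun g hg => eigvec_unique hns hw hNw ?_⟩
    obtain ⟨t, ht⟩ := nilp_proportional hN0 hNt hNd (N' := R g * N * R g⁻¹)
      (by rw [trace_conj (R_mul_inv R g), hNt]) (by rw [det_conj (R_mul_inv R g), hNd])
      (by rw [Matrix.trace_mul_comm]; exact hcon g hg)
    have hμ : μ = 0 := by
      have := eigval_quadratic hw hNw
      rw [hNt, hNd] at this
      exact mul_self_eq_zero.mp (by linear_combination this)
    have ht0 : t ≠ 0 := by
      rintro rfl
      apply hN0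
      rw [zero_smul] at ht
      calc N = R g⁻¹ * (R g * N * R g⁻¹) * R g := by
            rw [← mul_assoc, ← mul_assoc, R_inv_mul, one_mul, mul_assoc, R_inv_mul, mul_one]
        _ = 0 := by rw [ht, mul_zero, zero_mul]
    have hgN : R g * N = t • (N * R g) := by
      rw [← smul_mul_assoc, ← ht, mul_assoc, R_inv_mul, mul_one]
    refine smul_right_injective _ ht0 ?_
    show t • (N *ᵥ (R g *ᵥ w)) = t • (μ • (R g *ᵥ w))
    rw [Matrix.mulVec_mulVec, ← Matrix.smul_mulVec, ← hgN, ← Matrix.mulVec_mulVec, hNw, hμ]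
    simp
  set v := h₀ * u * h₀⁻¹ with hv
  have hvφ : x.pseudo v = x.pseudo u := by rw [hv, hps, mem_detOne.mp hh₀, one_mul]
  -- every pair of transvections with different fixed lines gives `φ v = -j² φ u`
  have rel : ∀ a b : G, a ∈ detOne R → b ∈ detOne R → (R a).trace = 2 → (R b).trace = 2 →
      ((R b - 1) * (R a - 1)).trace ≠ 0 → ∀ j : ℕ, 0 < j → j < p →
      ((j : K) * ((R b - 1) * (R a - 1)).trace) ^ 2 ≠ 4 ^ 2 →
      x.pseudo b + (j : K) ^ 2 * x.pseudo a = 0 := by
    intro a b ha hb hta htb hne j hj hjp hj'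
    rw [← trace_mul_of_unipotent hta htb] at hne hj'
    exact x.pseudo_transvection hp2 hfin hker ha hb hta htb j (hsmall j hj hjp)
      (sub_ne_zero.mp hne) hj'
  have hθv : ((R v - 1) * (R u - 1)).trace ≠ 0 := by rw [hv, hconj, ← hN]; exact hθ₀
  rcases eq_or_ne p 5 with h55 | h55
  · obtain ⟨g, hg⟩ := h5 h55
    subst h55
    have h50 : (5 : K) = 0 := by exact_mod_cast CharP.cast_eq_zero K 5
    have h3ne : (3 : K) ≠ 0 := by exact_mod_cast hsmall 3 (by norm_num) (by norm_num)
    -- for each pair one of `j = 1, 2` is allowed, and `j² = ±1`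
    have pm : ∀ a b : G, a ∈ detOne R → b ∈ detOne R → (R a).trace = 2 → (R b).trace = 2 →
        ((R b - 1) * (R a - 1)).trace ≠ 0 →
        x.pseudo b = x.pseudo a ∨ x.pseudo b = - x.pseudo a := by
      intro a b ha hb hta htb hne
      by_cases h : (((1 : ℕ) : K) * ((R b - 1) * (R a - 1)).trace) ^ 2 = 4 ^ 2
      · have := rel a b ha hb hta htb hne 2 (by norm_num) (by norm_num) (fun h' => by
          push_cast at h h'
          exact mul_ne_zero h3ne (pow_ne_zero 2 hne) (by linear_combination h' - h))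
        left
        push_cast at this
        linear_combination this - x.pseudo a * h50
      · have := rel a b ha hb hta htb hne 1 (by norm_num) (by norm_num) h
        right
        push_cast at this
        linear_combination this
    set u' := g * u * g⁻¹ with hu'
    have hu'φ : x.pseudo u' = 2 * x.pseudo u := by rw [hu', hps, hg]
    -- `u'` has a different fixed line from `u` or from `v`
    have hne : ((R u' - 1) * (R u - 1)).trace ≠ 0 ∨ ((R v - 1) * (R u' - 1)).trace ≠ 0 := by
      by_cases h : ((R u' - 1) * (R u - 1)).trace = 0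
      · right
        rw [hu', hconj, ← hN, Matrix.trace_mul_comm] at h
        obtain ⟨t, ht⟩ := nilp_proportional hN0 hNt hNd
          (by rw [trace_conj (R_mul_inv R g), hNt]) (by rw [det_conj (R_mul_inv R g), hNd]) h
        have ht0 : t ≠ 0 := by
          rintro rfl
          apply hN0
          rw [zero_smul] at ht
          calc N = R g⁻¹ * (R g * N * R g⁻¹) * R g := by
                rw [← mul_assoc, ← mul_assoc, R_inv_mul, one_mul, mul_assoc, R_inv_mul, mul_one]
            _ = 0 := by rw [ht, mul_zero, zero_mul]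
        rw [hu', hconj g, ht, Matrix.mul_smul, Matrix.trace_smul, smul_eq_mul]
        exact mul_ne_zero ht0 hθv
      · exact Or.inl h
    have h3 : x.pseudo u * 3 = 0 ∨ x.pseudo u = 0 := by
      rcases hne with h | h
      · rcases pm u u' hu (hmem g) htu (htr g) h with e | e <;> rw [hu'φ] at e
        · exact Or.inr (by linear_combination e)
        · exact Or.inl (by linear_combination e)
      · rcases pm u' v (hmem g) (hmem h₀) (htr g) (htr h₀) h with e | e <;> rw [hu'φ, hvφ] at e
        · exact Or.inr (by linear_combination -e)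
        · exact Or.inl (by linear_combination e)
    rcases h3 with h | h
    · exact (mul_eq_zero.mp h).resolve_right h3ne
    · exact h
  · have hp7 : 7 ≤ p := by
      by_contra hlt
      push Not at hlt
      interval_cases p <;> first | omega | exact absurd hp (by norm_num)
    have r := fun j hj hjp h => rel u v hu (hmem h₀) htu (htr h₀) hθv j hj hjp h
    set θ := ((R v - 1) * (R u - 1)).trace with hθ
    have hd : ∀ m : ℕ, m ∈ ({3, 5, 8} : Finset ℕ) → (m : K) ≠ 0 := by
      intro m hm h
      have hdvd := (CharP.cast_eq_zero_iff K p m).mp h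
      have := Nat.le_of_dvd (by simp at hm; omega) hdvd
      simp at hm
      rcases hm with rfl | rfl | rfl <;>
        (interval_cases p <;> first | omega | exact absurd hp (by norm_num))
    have h3ne : (3 : K) ≠ 0 := by exact_mod_cast hd 3 (by simp)
    have h5ne : (5 : K) ≠ 0 := by exact_mod_cast hd 5 (by simp)
    have h8ne : (8 : K) ≠ 0 := by exact_mod_cast hd 8 (by simp)
    have ne_pair : ∀ a b c : K, b ^ 2 - a ^ 2 = c → c ≠ 0 → (a * θ) ^ 2 = 4 ^ 2 →
        (b * θ) ^ 2 ≠ 4 ^ 2 := fun a b c hc hc0 ha hb =>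
      mul_ne_zero hc0 (pow_ne_zero 2 hθv) (by rw [← hc]; linear_combination hb - ha)
    by_cases e1 : (((1 : ℕ) : K) * θ) ^ 2 = 4 ^ 2
    · have a := r 2 (by norm_num) (by omega) (ne_pair _ _ 3 (by push_cast; ring) h3ne e1)
      have b := r 3 (by norm_num) (by omega) (ne_pair _ _ 8 (by push_cast; ring) h8ne e1)
      push_cast at a b
      exact (mul_eq_zero.mp (show x.pseudo u * 5 = 0 by linear_combination b - a)).resolve_right h5ne
    · have a := r 1 (by norm_num) (by omega) e1
      by_cases e2 : (((2 : ℕ) : K) * θ) ^ 2 = 4 ^ 2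
      · have b := r 3 (by norm_num) (by omega) (ne_pair _ _ 5 (by push_cast; ring) h5ne e2)
        push_cast at a b
        exact (mul_eq_zero.mp (show x.pseudo u * 8 = 0 by linear_combination b - a)).resolve_right h8ne
      · have b := r 2 (by norm_num) (by omega) e2
        push_cast at a b
        exact (mul_eq_zero.mp (show x.pseudo u * 3 = 0 by linear_combination b - a)).resolve_right h3ne

/-- A cocycle vanishing on the kernel of `R` is a coboundary. -/
theorem isCoboundary_of_ker [IsAlgClosed K] {p : ℕ} [Fact p.Prime] [CharP K p] (hp2 : p ≠ 2)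
    (hR : IsStronglyIrred R) (hfin : (Set.range R).Finite)
    (h5 : p = 5 → ∃ g, (R g).det = 2) (hker : ∀ a, R a = 1 → x a = 0) : x.IsCoboundary := by
  have h2 : (2 : K) ≠ 0 := Ring.two_ne_zero (ringChar.eq K p ▸ hp2)
  have hps : ∀ g ∈ detOne R, x.pseudo g = 0 := by
    intro g hg
    by_cases hreg : (R g).trace ^ 2 = 4
    · have hgd : (R g).det = 1 := hg
      rcases sq_eq_sq_iff_eq_or_eq_neg.mp (show (R g).trace ^ 2 = (2 : K) ^ 2 by rw [hreg]; norm_num)
        with ht | ht
      · exact x.pseudo_eq_zero_of_unipotent hp2 hR hfin h5 hker hg ht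
      · have hgg : (R (g * g)).trace = 2 := by
          rw [_root_.map_mul, mul_self_eq, Matrix.trace_sub, Matrix.trace_smul, Matrix.trace_smul,
            ht, hgd, Matrix.trace_one, Fintype.card_fin]
          norm_num
        have h := x.pseudo_mul_add hg hg
        rw [x.pseudo_eq_zero_of_unipotent hp2 hR hfin h5 hker ((detOne R).mul_mem hg hg) hgg,
          mul_inv_cancel, x.pseudo_one, ht, add_zero] at h
        exact (mul_eq_zero.mp (show (2 * 2 : K) * x.pseudo g = 0 by linear_combination h))
          |>.resolve_left (mul_ne_zero h2 h2)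
    · exact x.pseudo_eq_zero_of_regular hp2 hfin hker hg hreg
  obtain ⟨m, hm, hxm⟩ := x.exists_coboundary_detOne h2 hR hps
  refine ⟨m, hm, fun g => sub_eq_zero.mp ?_⟩
  set y := x.sub m hm with hy
  have hy0 : ∀ h ∈ detOne R, y h = 0 := fun h hh => sub_eq_zero.mpr (hxm h hh)
  refine eq_zero_of_commute h2 hR (y.trace_eq g) fun h hh => ?_
  have hconj : g⁻¹ * h * g ∈ detOne R := by
    simpa using Subgroup.Normal.conj_mem inferInstance h hh g⁻¹
  have e1 : y (h * g) = R h * y g * R h⁻¹ := by rw [y.map_mul_of_mem hh, hy0 h hh, zero_add]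
  have e2 : y (h * g) = y g := by
    rw [show h * g = g * (g⁻¹ * h * g) by group, y.map_mul, hy0 _ hconj]
    simp [adTwist]
  show R h * y g = y g * R h
  conv_rhs => rw [← e2, e1, mul_assoc, R_inv_mul, mul_one]

/-- **Existence of the Taylor-Wiles element.** -/
theorem exists_distinctEig_trace_ne [IsAlgClosed K] {p : ℕ} [Fact p.Prime] [CharP K p]
    (hp2 : p ≠ 2) (hR : IsStronglyIrred R) (hfin : (Set.range R).Finite)
    (h5 : p = 5 → ∃ g, (R g).det = 2) (G₀ : Subgroup G) [G₀.Normal]
    (hab : ∀ g h : G, g * h * g⁻¹ * h⁻¹ ∈ G₀) (hdet : ∀ g ∈ G₀, (R g).det = 1)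
    (hx : ¬ x.IsCoboundary) :
    ∃ σ ∈ G₀, (R σ).trace ^ 2 ≠ 4 * (R σ).det ∧ (x σ * R σ).trace ≠ 0 := by
  have h2 : (2 : K) ≠ 0 := Ring.two_ne_zero (ringChar.eq K p ▸ hp2)
  by_contra! hcon
  apply hx
  have hev := hR.not_hasEigvec_normal h2 G₀ hab
  obtain ⟨g₀, hg₀, hreg⟩ := exists_trace_sq_ne hp2 R G₀ hdet hev
  set A := tracelessPart (R g₀) with hA
  have hAt : A.trace = 0 := trace_tracelessPart h2 _
  have hA0 : A ≠ 0 := tracelessPart_ne_zero h2 hreg
  -- values on `ker R ⊓ G₀` are orthogonal to every conjugate of `A`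
  have horth : ∀ h ∈ G₀, R h = 1 → ∀ g : G, (x h * (R g * A * R g⁻¹)).trace = 0 := by
    intro h hh hRh g
    have hmem : g * g₀ * g⁻¹ ∈ G₀ := Subgroup.Normal.conj_mem inferInstance g₀ hg₀ g
    have hR' : R (g * g₀ * g⁻¹) = R g * R g₀ * R g⁻¹ := by simp only [_root_.map_mul]
    have hreg' : (R (g * g₀ * g⁻¹)).trace ^ 2 ≠ 4 * (R (g * g₀ * g⁻¹)).det := by
      rwa [hR', trace_conj (R_mul_inv R g), det_conj (R_mul_inv R g)]
    have h1 := hcon _ hmem hreg'
    have h2' := hcon (h * (g * g₀ * g⁻¹)) (G₀.mul_mem hh hmem)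
      (by rwa [_root_.map_mul R h, hRh, one_mul])
    rw [x.map_mul_of_ker hRh, _root_.map_mul R h, hRh, one_mul, add_mul, Matrix.trace_add, h1,
      add_zero, hR', ← trace_mul_tracelessPart (x.trace_eq h),
      ← conj_tracelessPart (R_mul_inv R g)] at h2'
    exact h2'
  have hΔ : ∀ h ∈ G₀, R h = 1 → x h = 0 := by
    by_contra! hne
    obtain ⟨a, ha, hRa, hXa⟩ := hne
    by_cases hall : ∀ b ∈ G₀, R b = 1 → ∃ t : K, x b = t • x a
    · refine hR.not_stable_line h2 (x.trace_eq a) hXa fun g => ?_
      obtain ⟨t, ht⟩ := hall (g * a * g⁻¹) (Subgroup.Normal.conj_mem inferInstance a ha g)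
        (by rw [_root_.map_mul, _root_.map_mul, hRa, mul_one, R_mul_inv])
      rw [x.map_conj_ker hRa, adTwist] at ht
      refine ⟨(R g).det⁻¹ * t, ?_⟩
      rw [← smul_smul, ← ht, smul_smul, inv_mul_cancel₀ (det_R_ne_zero R g), one_smul]
    · push Not at hall
      obtain ⟨b, hb, hRb, hbt⟩ := hall
      refine hR.not_stable_line h2 hAt hA0 fun g => ?_
      have h1a := horth a ha hRa 1
      have h1b := horth b hb hRb 1
      simp only [inv_one, _root_.map_one, one_mul, mul_one] at h1a h1b
      exact orth_proportional h2 (x.trace_eq a) (x.trace_eq b) hAt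
        (by rw [trace_conj (R_mul_inv R g), hAt]) hXa hbt hA0 h1a h1b (horth a ha hRa g)
        (horth b hb hRb g)
  refine x.isCoboundary_of_ker hp2 hR hfin h5 fun a ha => ?_
  refine eq_zero_of_commute h2 hR (x.trace_eq a) fun g hg => ?_
  have hRc : R (g * a * g⁻¹ * a⁻¹) = 1 := by
    rw [_root_.map_mul, _root_.map_mul, _root_.map_mul, ha, mul_one, R_mul_inv, one_mul]
    have := R_mul_inv R a
    rwa [ha, one_mul] at this
  have hc := hΔ _ (hab g a) hRc
  have hkerg : R (g * a * g⁻¹) = 1 := by
    rw [_root_.map_mul, _root_.map_mul, ha, mul_one, R_mul_inv]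
  have hainv : x a⁻¹ = - x a := by
    rw [eq_neg_iff_add_eq_zero, add_comm, ← x.map_mul_of_ker ha, mul_inv_cancel, x.map_one]
  rw [x.map_mul_of_ker hkerg, x.map_conj_ker ha, hainv, ← sub_eq_add_neg, sub_eq_zero, adTwist,
    mem_detOne.mp hg, one_smul] at hc
  calc R g * x a = R g * x a * R g⁻¹ * R g := by rw [mul_assoc, R_inv_mul, mul_one]
    _ = x a * R g := by rw [hc]

end AdCocycle

end FLTA.TaylorWiles
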