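import Fermat.Agent.TaylorWiles.Defs
import Fermat.Agent.TaylorWiles.Choice
import Fermat.Agent.Galois.Cyclotomic
import Fermat.Prelude.Def_GaloisRep_Residual

/-!
# Existence of the Taylor-Wiles element of the Galois group
-/

set_option autoImplicit false

open ExtCitation Module Polynomial
open scoped TensorProduct

noncomputable section

namespace FLTA.TW

open FLTA.PT

/-- The subgroup fixing a root of unity. -/
def fixRoot (ζ : Qb) : Subgroup GQ := MulAction.stabilizer GQ ζ

theorem mem_fixRoot {ζ : Qb} {g : GQ} : g ∈ fixRoot ζ ↔ g ζ = ζ := Iff.rfl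

theorem commutator_mem_fixRoot {N : ℕ} [NeZero N] {ζ : Qb} (hζ : IsPrimitiveRoot ζ N) (g h : GQ) :
    g * h * g⁻¹ * h⁻¹ ∈ fixRoot ζ := by
  have key : ∀ f : GQ, ∃ i : ℕ, f ζ = ζ ^ i := by
    intro f
    obtain ⟨i, -, hi⟩ := hζ.eq_pow_of_pow_eq_one (ξ := f ζ)
      (by rw [← map_pow, hζ.pow_eq_one, map_one])
    exact ⟨i, hi.symm⟩
  have hcomm : ∀ f f' : GQ, f (f' ζ) = f' (f ζ) := by
    intro f f'
    obtain ⟨i, hi⟩ := key f
    obtain ⟨j, hj⟩ := key f'
    rw [hi, hj, map_pow, map_pow, hi, hj, ← pow_mul, ← pow_mul, mul_comm]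
  obtain ⟨i, hi⟩ := key h⁻¹
  obtain ⟨j, hj⟩ := key g⁻¹
  have h1 : g (h (g⁻¹ ζ)) = h ζ := by
    rw [hj, map_pow, map_pow, hcomm g h, ← map_pow, ← map_pow, ← hj]
    exact congrArg h (g.apply_symm_apply ζ)
  rw [mem_fixRoot]
  show g (h (g⁻¹ (h⁻¹ ζ))) = ζ
  rw [hi, map_pow, map_pow, map_pow, h1, ← map_pow, ← hi]
  exact h.apply_symm_apply ζ

theorem fixRoot_normal {N : ℕ} [NeZero N] {ζ : Qb} (hζ : IsPrimitiveRoot ζ N) :
    (fixRoot ζ).Normal :=
  ⟨fun n hn g => by
    have := (fixRoot ζ).mul_mem (commutator_mem_fixRoot hζ g n) hn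
    simpa using this⟩

theorem cycloChar_eq_of_apply (p : ℕ) [Fact p.Prime] {g : GQ} {a : ℕ}
    (h : ∀ t : Qb, t ^ p = 1 → g t = t ^ a) : (cycloChar p g : ZMod p) = a := by
  haveI : NeZero p := ⟨(Fact.out : p.Prime).ne_zero⟩
  refine (modularCyclotomicCharacter.unique Qb _ (g : Qb ≃+* Qb) fun t ht => ?_).symm
  have h1 : (t : Qb) ^ p = 1 := by rw [← Units.val_pow_eq_pow_val, ht, Units.val_one]
  rw [ZMod.val_natCast, ← pow_eq_pow_mod a h1]
  exact h _ h1

theorem cycloChar_eq_one_of_mem_fixRoot (p : ℕ) [Fact p.Prime] {n : ℕ} {ζ : Qb}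
    (hζ : IsPrimitiveRoot ζ (p ^ (n + 1))) {g : GQ} (hg : g ∈ fixRoot ζ) :
    (cycloChar p g : ZMod p) = 1 := by
  have hp : p.Prime := Fact.out
  haveI : NeZero p := ⟨hp.ne_zero⟩
  haveI : NeZero (p ^ (n + 1)) := ⟨(pow_pos hp.pos _).ne'⟩
  rw [cycloChar_eq_of_apply p (a := 1) fun t ht => ?_, Nat.cast_one]
  obtain ⟨i, -, rfl⟩ := hζ.eq_pow_of_pow_eq_one (ξ := t)
    (by rw [pow_succ', pow_mul, ht, one_pow])
  rw [pow_one, map_pow, mem_fixRoot.mp hg]

theorem exists_cycloChar_eq (p : ℕ) [Fact p.Prime] (a : ℕ) (ha : ¬ p ∣ a) :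
    ∃ g : GQ, (cycloChar p g : ZMod p) = a := by
  obtain ⟨A, hA⟩ := Galois.exists_liesOverPrime (q := p) Fact.out
  obtain ⟨g, -, hg⟩ := Galois.exists_inertia_apply_eq_pow p hA 1 a ha
  exact ⟨g, cycloChar_eq_of_apply p fun t ht => hg t (by rwa [pow_one])⟩

/-- A coboundary over an extension field is a coboundary. -/
theorem map_conj_linearMap {k K : Type} [Field k] [Field K] [Algebra k K] (π : K →ₗ[k] k)
    (A B : Matrix (Fin 2) (Fin 2) k) (X : Matrix (Fin 2) (Fin 2) K) :
    (A.map (algebraMap k K) * X * B.map (algebraMap k K)).map π = A * X.map π * B := by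
  have e : ∀ a b : k, ∀ z : K, π (algebraMap k K a * z * algebraMap k K b) = a * π z * b := by
    intro a b z
    rw [show algebraMap k K a * z * algebraMap k K b = (a * b) • z by
      rw [Algebra.smul_def, map_mul]; ring, map_smul, smul_eq_mul]
    ring
  ext i j
  simp [Matrix.mul_apply, Fin.sum_univ_two, add_mul, mul_add, e]

variable (p : ℕ) [Fact p.Prime] {k : Type} [Field k] [Finite k] [Algebra (ZMod p) k]

/-- For a nonzero class of the dual, some element fixing `μ_{p^(n+1)}` has distinct eigenvalues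
and sees the class. -/
theorem exists_taylorWiles_element (hp : p ≠ 2) (ρbar : ResidualGaloisRep k)
    (b : Module.Basis (Fin 2) k ρbar.V) (M : GQ →* Matrix (Fin 2) (Fin 2) k)
    (hMb : ∀ g, LinearMap.toMatrix b b (ρbar.ρ g) = M g)
    (hdet : ∀ g, (M g).det = algebraMap (ZMod p) k (cycloChar p g : ZMod p))
    (hsplit : ∀ g, ∃ α β : k, LinearMap.charpoly (ρbar.ρ g) = (X - C α) * (X - C β))
    (habs : ρbar.IsAbsolutelyIrreducible)
    (hTW : ∀ (K : Type) [Field K] [Algebra k K] (G : Subgroup GQ), G.index = 2 →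
      ∀ V : Submodule K (ρbar.baseChange K).V,
        (∀ σ ∈ G, ∀ x ∈ V, (ρbar.baseChange K).ρ σ x ∈ V) → V = ⊥ ∨ V = ⊤)
    (n : ℕ) {ζ : Qb} (hζ : IsPrimitiveRoot ζ (p ^ (n + 1)))
    (x : Z1 lvlQ (ad0Dual p M)) (hx : (x : GQ → Ad0 k) ∉ B1 (ad0Dual p M)) :
    ∃ σ : GQ, σ ζ = ζ ∧
      (∃ α β : k, α ≠ β ∧ LinearMap.charpoly (ρbar.ρ σ) = (X - C α) * (X - C β)) ∧
      ¬ ∃ m : Ad0 k, (x : GQ → Ad0 k) σ = ad0Dual p M σ m - m := by
  classical
  have hpp : p.Prime := Fact.out
  haveI : NeZero (p ^ (n + 1)) := ⟨(pow_pos hpp.pos _).ne'⟩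
  haveI : CharP k p := charP_of_injective_algebraMap (algebraMap (ZMod p) k).injective p
  haveI : CharP (AlgebraicClosure k) p :=
    charP_of_injective_algebraMap (algebraMap k (AlgebraicClosure k)).injective p
  set K := AlgebraicClosure k
  let ι : Matrix (Fin 2) (Fin 2) k →+* Matrix (Fin 2) (Fin 2) K := (algebraMap k K).mapMatrix
  let R : GQ →* Matrix (Fin 2) (Fin 2) K := ι.toMonoidHom.comp M
  have hR : ∀ g, R g = (M g).map (algebraMap k K) := fun g => rfl
  -- the representation over `K` is the base change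
  let bK : Module.Basis (Fin 2) K (ρbar.baseChange K).V := Algebra.TensorProduct.basis K b
  have hmat : ∀ g, LinearMap.toMatrix bK bK ((ρbar.baseChange K).ρ g) = R g := by
    intro g
    rw [hR, ← hMb g]
    exact LinearMap.toMatrix_baseChange (A := K) (ρbar.ρ g) b b
  have hev : ∀ G : Subgroup GQ, TaylorWiles.HasEigvec R G →
      ∃ W : Submodule K (ρbar.baseChange K).V,
        (∀ σ ∈ G, ∀ y ∈ W, (ρbar.baseChange K).ρ σ y ∈ W) ∧ ¬ (W = ⊥ ∨ W = ⊤) := by
    rintro G ⟨v, hv, hgv⟩
    set y := bK.equivFun.symm v with hy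
    have hy0 : y ≠ 0 := fun e => hv (by simpa only [hy, LinearEquiv.apply_symm_apply, map_zero] using congrArg bK.equivFun e)
    refine ⟨Submodule.span K {y}, fun σ hσ z hz => ?_, ?_⟩
    · obtain ⟨c, rfl⟩ := Submodule.mem_span_singleton.mp hz
      rw [map_smul]
      refine Submodule.smul_mem _ c (Submodule.mem_span_singleton.mpr ?_)
      obtain ⟨a, ha⟩ := hgv σ hσ
      refine ⟨a, bK.equivFun.injective ?_⟩
      rw [map_smul, hy, LinearEquiv.apply_symm_apply, ← ha, ← hmat σ]
      have := LinearMap.toMatrix_mulVec_repr bK bK ((ρbar.baseChange K).ρ σ) (bK.equivFun.symm v)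
      simp only [← Module.Basis.equivFun_apply, LinearEquiv.apply_symm_apply] at this
      exact this
    · rintro (h | h)
      · exact hy0 (Submodule.span_singleton_eq_bot.mp h)
      · have h1 := finrank_span_singleton (K := K) hy0
        rw [h, finrank_top, (ρbar.baseChange K).finrank_eq] at h1
        norm_num at h1
  have hirr : TaylorWiles.IsStronglyIrred R := by
    constructor
    · intro h
      obtain ⟨W, hW, hne⟩ := hev ⊤ h
      exact hne (habs W fun σ y hy => hW σ (Subgroup.mem_top σ) y hy)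
    · intro G hG h
      obtain ⟨W, hW, hne⟩ := hev G h
      exact hne (hTW K G hG W hW)
  have hfin : (Set.range R).Finite := by
    refine ((Set.toFinite (Set.univ : Set (Matrix (Fin 2) (Fin 2) k))).image ι).subset ?_
    rintro _ ⟨g, rfl⟩
    exact ⟨M g, Set.mem_univ _, rfl⟩
  have hdetR : ∀ g, (R g).det = algebraMap k K (algebraMap (ZMod p) k (cycloChar p g : ZMod p)) := by
    intro g
    rw [hR, ← hdet g, RingHom.map_det]
    rfl
  have h5 : p = 5 → ∃ g, (R g).det = 2 := by
    rintro rfl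
    obtain ⟨g, hg⟩ := exists_cycloChar_eq 5 2 (by norm_num)
    exact ⟨g, by rw [hdetR, hg, map_natCast, map_natCast, Nat.cast_ofNat]⟩
  -- the cocycle over `K`
  set f : GQ → Ad0 k := (x : GQ → Ad0 k) with hf
  have hcoc : ∀ g h, f (g * h) = f g + ad0Dual p M g (f h) := by
    intro g h
    have h1 : d1 (ad0Dual p M) f = 0 := x.2.1
    have h2 := congrFun h1 (g, h)
    rw [d1_apply, Pi.zero_apply] at h2
    rw [eq_comm, ← sub_eq_zero, ← h2]
    abel
  have hsmul : ∀ (c : ZMod p) (X : Matrix (Fin 2) (Fin 2) k),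
      (c • X).map (algebraMap k K) = algebraMap k K (algebraMap (ZMod p) k c) • X.map (algebraMap k K) := by
    intro c X
    ext i j
    rw [Matrix.map_apply, Matrix.smul_apply, Matrix.smul_apply, Matrix.map_apply, Algebra.smul_def c (X i j),
      map_mul, smul_eq_mul]
  let y : TaylorWiles.AdCocycle R :=
    { toFun := fun g => (f g).1.map (algebraMap k K)
      trace_eq := fun g => by
        have h := (f g).2
        rw [LinearMap.mem_ker, Matrix.traceLinearMap_apply] at h
        rw [← AddMonoidHom.map_trace, h, map_zero]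
      map_mul := fun g h => by
        rw [hcoc g h, Submodule.coe_add, ad0Dual_apply, Submodule.coe_smul_of_tower,
          coe_ad0Rep_apply, Matrix.map_add _ (map_add _), hsmul, Matrix.map_mul, Matrix.map_mul,
          TaylorWiles.adTwist, hdetR, hR, hR] }
  have hy : ¬ y.IsCoboundary := by
    rintro ⟨m, hm, hcob⟩
    obtain ⟨π, hπ⟩ := LinearMap.exists_leftInverse_of_injective (Algebra.linearMap k K)
      (LinearMap.ker_eq_bot.mpr (algebraMap k K).injective)
    have hπ1 : ∀ a : k, π (algebraMap k K a) = a := fun a => LinearMap.congr_fun hπ a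
    have hm' : (m.map π).trace = 0 := by
      rw [Matrix.trace_fin_two, Matrix.map_apply, Matrix.map_apply, ← map_add, ← Matrix.trace_fin_two, hm, map_zero]
    refine hx ((mem_B1 _).mpr ⟨⟨m.map π, hm'⟩, funext fun g => Subtype.ext ?_⟩)
    have h := congrArg (fun X : Matrix (Fin 2) (Fin 2) K => X.map π) (hcob g)
    simp only [TaylorWiles.adTwist] at h
    rw [hdetR, hR, hR, Matrix.map_sub π (map_sub π)] at h
    rw [d0_apply, Submodule.coe_sub, ad0Dual_apply, Submodule.coe_smul_of_tower, coe_ad0Rep_apply]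
    refine Eq.trans ?_ (h.symm.trans ?_)
    · congr 1
      ext i j
      simp only [Matrix.smul_apply, Matrix.map_apply, ← map_conj_linearMap π]
      rw [algebraMap_smul, map_smul, algebraMap_smul]
    · ext i j
      exact hπ1 _
  haveI := fixRoot_normal hζ
  obtain ⟨σ, hσ, hreg, htr⟩ := y.exists_distinctEig_trace_ne (p := p) hp hirr hfin h5 (fixRoot ζ)
    (commutator_mem_fixRoot hζ)
    (fun g hg => by rw [hdetR, cycloChar_eq_one_of_mem_fixRoot p hζ hg, map_one, map_one]) hy
  refine ⟨σ, mem_fixRoot.mp hσ, ?_, ?_⟩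
  · obtain ⟨α, β, hαβ⟩ := hsplit σ
    refine ⟨α, β, ?_, hαβ⟩
    rintro rfl
    apply hreg
    rw [← LinearMap.charpoly_toMatrix (ρbar.ρ σ) b, hMb, Matrix.charpoly_fin_two] at hαβ
    have h0 : (M σ).det = α * α := by simpa using congrArg (Polynomial.eval 0) hαβ
    have h1 : 1 - (M σ).trace + (M σ).det = (1 - α) * (1 - α) := by
      simpa using congrArg (Polynomial.eval 1) hαβ
    have ht : (M σ).trace = 2 * α := by linear_combination h0 - h1
    rw [hR, ← AddMonoidHom.map_trace, ← RingHom.mapMatrix_apply, ← RingHom.map_det, ht, h0]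
    simp only [map_mul, map_ofNat]
    ring
  · rintro ⟨m, hm⟩
    apply htr
    show ((f σ).1.map (algebraMap k K) * R σ).trace = 0
    rw [hR, ← Matrix.map_mul, ← AddMonoidHom.map_trace]
    have h := congrArg Subtype.val hm
    rw [Submodule.coe_sub, ad0Dual_apply, cycloChar_eq_one_of_mem_fixRoot p hζ hσ, one_smul,
      coe_ad0Rep_apply] at h
    rw [h, sub_mul, Matrix.trace_sub, mul_assoc (M σ * m.1), ← map_mul, inv_mul_cancel, map_one,
      mul_one, Matrix.trace_mul_comm, sub_self, map_zero]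

end FLTA.TW

end
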