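import Fermat.Agent.TaylorWiles.EulerAnchor
import Fermat.Prelude.Def_GaloisRep_ComplexConjugation

/-!
# Tate's global Euler characteristic formula
-/

set_option autoImplicit false
set_option linter.style.haveILetI false

open ExtCitation Module

noncomputable section

namespace FLTA.TW

open FLTA.PT

variable {p : ℕ} [Fact p.Prime] {T : Finset Nat.Primes}

/-- The defect in Tate's formula. -/
def eulerDefect (p : ℕ) [Fact p.Prime] (T : Finset Nat.Primes) {A : Type} [AddCommGroup A]
    [Module (ZMod p) A] (ρ : Representation (ZMod p) GQ A) : ℤ :=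
  (finrank (ZMod p) (H1c (lvlS T) ρ) : ℤ) - finrank (ZMod p) (fixedBy ρ ⊤) -
    finrank (ZMod p) (H2c (lvlS T) ρ) -
    finrank (ZMod p) (LinearMap.ker (ρ complexConjugation + 1))

theorem ker_d0_eq {A : Type} [AddCommGroup A] [Module (ZMod p) A]
    (ρ : Representation (ZMod p) GQ A) : LinearMap.ker (d0 ρ) = fixedBy ρ ⊤ := by
  ext v
  rw [LinearMap.mem_ker]
  exact ⟨fun h g _ => sub_eq_zero.1 (congrFun h g),
    fun h => funext fun g => sub_eq_zero.2 (h g trivial)⟩

/-- The minus parts of complex conjugation form an exact sequence, as `p` is odd. -/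
theorem finrank_minus_add (hp : p ≠ 2) {A B C : Type} [AddCommGroup A] [Module (ZMod p) A]
    [AddCommGroup B] [Module (ZMod p) B] [AddCommGroup C] [Module (ZMod p) C] [Finite B]
    {ρA : Representation (ZMod p) GQ A} {ρB : Representation (ZMod p) GQ B}
    {ρC : Representation (ZMod p) GQ C} {i : A →ₗ[ZMod p] B} {π : B →ₗ[ZMod p] C}
    (hi : Equivariant ρA ρB (MonoidHom.id GQ) i) (hπ : Equivariant ρB ρC (MonoidHom.id GQ) π)
    (hinj : Function.Injective i) (hsur : Function.Surjective π)
    (hex : LinearMap.range i = LinearMap.ker π) :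
    finrank (ZMod p) (LinearMap.ker (ρB complexConjugation + 1)) =
      finrank (ZMod p) (LinearMap.ker (ρA complexConjugation + 1)) +
        finrank (ZMod p) (LinearMap.ker (ρC complexConjugation + 1)) := by
  haveI : Module.Finite (ZMod p) B := Module.Finite.of_finite
  set c := complexConjugation with hc
  have ei : ∀ g a, i (ρA g a) = ρB g (i a) := hi
  have eπ : ∀ g b, π (ρB g b) = ρC g (π b) := hπ
  let i' : LinearMap.ker (ρA c + 1) →ₗ[ZMod p] LinearMap.ker (ρB c + 1) :=
    i.restrict fun a ha => by
      rw [LinearMap.mem_ker, LinearMap.add_apply, Module.End.one_apply] at ha ⊢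
      rw [← ei, ← map_add, ha, map_zero]
  let π' : LinearMap.ker (ρB c + 1) →ₗ[ZMod p] LinearMap.ker (ρC c + 1) :=
    π.restrict fun a ha => by
      rw [LinearMap.mem_ker, LinearMap.add_apply, Module.End.one_apply] at ha ⊢
      rw [← eπ, ← map_add, ha, map_zero]
  have hi' : Function.Injective i' := fun a b h => Subtype.ext (hinj (congrArg Subtype.val h))
  have h2 : (2 : ZMod p) ≠ 0 := fun h => hp
    (((Nat.prime_dvd_prime_iff_eq Fact.out Nat.prime_two).1
      ((ZMod.natCast_eq_zero_iff 2 p).1 (by exact_mod_cast h))))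
  have hπ' : Function.Surjective π' := fun w => by
    obtain ⟨b, hb⟩ := hsur w.1
    have hw := w.2
    rw [LinearMap.mem_ker, LinearMap.add_apply, Module.End.one_apply] at hw
    have hcc : ρB c (ρB c b) = b := by
      rw [← rep_mul_apply, hc, complexConjugation_mul_self, map_one, Module.End.one_apply]
    refine ⟨⟨(2 : ZMod p)⁻¹ • (b - ρB c b), ?_⟩, Subtype.ext ?_⟩
    · rw [LinearMap.mem_ker, LinearMap.add_apply, Module.End.one_apply, map_smul, map_sub, hcc,
        ← smul_add, sub_add_sub_cancel, sub_self, smul_zero]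
    · show π ((2 : ZMod p)⁻¹ • (b - ρB c b)) = w.1
      rw [map_smul, map_sub, eπ, hb, eq_neg_of_add_eq_zero_left hw, sub_neg_eq_add,
        ← two_smul (ZMod p), smul_smul, inv_mul_cancel₀ h2, one_smul]
  have hker : LinearMap.ker π' = LinearMap.range i' := by
    ext b
    constructor
    · intro h
      obtain ⟨a, ha⟩ : b.1 ∈ LinearMap.range i := by
        rw [hex]
        exact congrArg Subtype.val h
      have hb := b.2
      rw [LinearMap.mem_ker, LinearMap.add_apply, Module.End.one_apply] at hb
      refine ⟨⟨a, ?_⟩, Subtype.ext ha⟩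
      rw [LinearMap.mem_ker, LinearMap.add_apply, Module.End.one_apply]
      exact hinj (by rw [map_add, ei, ha, hb, map_zero])
    · rintro ⟨a, rfl⟩
      refine LinearMap.mem_ker.2 (Subtype.ext ?_)
      show π (i a.1) = 0
      rw [← LinearMap.mem_ker, ← hex]
      exact ⟨_, rfl⟩
  have n := LinearMap.finrank_range_add_finrank_ker π'
  rw [hker, LinearMap.finrank_range_of_inj hi', LinearMap.range_eq_top.2 hπ', finrank_top] at n
  omega

section formula

variable {A : Type} [AddCommGroup A] [Module (ZMod p) A] [Finite A]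

theorem finiteDimensional_H1S {U : Subgroup GQ} (hU : U ∈ lvlS T)
    {ρ : Representation (ZMod p) GQ A} (hρ : ∀ s ∈ U, ρ s = 1) :
    FiniteDimensional (ZMod p) (H1c (lvlS T) ρ) := by
  haveI := finite_Z1S T ρ (smooth_of_triv hU hρ)
  haveI : Finite (H1c (lvlS T) ρ) := Finite.of_surjective _ (Submodule.mkQ_surjective _)
  exact Module.Finite.of_finite

/-- Tate's formula `h¹ = h⁰ + h² + dim (minus part)` for large `T`. -/
theorem euler_formula (hp : p ≠ 2) (hpT : pPrime p ∈ T) {U P : Subgroup GQ} (hU : U ∈ lvlS T)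
    (hμ : ∀ s ∈ U, cycloChar p s = 1) (hUP : U ≤ P) (hidx : ¬ p ∣ P.index)
    (hPp : ∀ s ∈ P, ∃ k : ℕ, s ^ p ^ k ∈ U) (hT : GenClass T U) (hTP : cardClSp p T P = 1)
    {ρ : Representation (ZMod p) GQ A} (hρ : ∀ s ∈ U, ρ s = 1) :
    finrank (ZMod p) (H1c (lvlS T) ρ) =
      finrank (ZMod p) (fixedBy ρ ⊤) + finrank (ZMod p) (H2c (lvlS T) ρ) +
        finrank (ZMod p) (LinearMap.ker (ρ complexConjugation + 1)) := by
  haveI : U.Normal := (lvlS T).normal_of_mem U hU
  haveI : U.FiniteIndex := (lvlS T).finiteIndex_of_mem U hU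
  obtain ⟨I⟩ := nonempty_invSystem p T hp hpT
  have htriv : ∀ {V : Type} [AddCommGroup V] [Module (ZMod p) V]
      (τ : Representation (ZMod p) (GQ ⧸ U) V), ∀ s ∈ U, (τ.comp (QuotientGroup.mk' U)) s = 1 :=
    fun τ s hs => by
      rw [MonoidHom.comp_apply, QuotientGroup.mk'_apply, (QuotientGroup.eq_one_iff s).2 hs, map_one]
  let f : AddFun p (GQ ⧸ U) :=
    { val := fun τ => eulerDefect p T (τ.comp (QuotientGroup.mk' U))
      add := fun {A B C} _ _ _ _ _ _ _ _ _ {ρA ρB ρC} i π hi hπ hinj hsur hex => by
        have hi' : Equivariant (ρA.comp (QuotientGroup.mk' U)) (ρB.comp (QuotientGroup.mk' U))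
            (MonoidHom.id GQ) i := fun g v => hi g v
        have hπ' : Equivariant (ρB.comp (QuotientGroup.mk' U)) (ρC.comp (QuotientGroup.mk' U))
            (MonoidHom.id GQ) π := fun g v => hπ g v
        haveI : Module.Finite (ZMod p) A := Module.Finite.of_finite
        haveI : Module.Finite (ZMod p) B := Module.Finite.of_finite
        haveI : Module.Finite (ZMod p) C := Module.Finite.of_finite
        haveI := finiteDimensional_H1S hU (htriv ρA)
        haveI := finiteDimensional_H1S hU (htriv ρB)
        haveI := finiteDimensional_H1S hU (htriv ρC)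
        haveI := finite_H2S hp hpT hU hμ (htriv ρA)
        haveI := finite_H2S hp hpT hU hμ (htriv ρB)
        haveI := finite_H2S hp hpT hU hμ (htriv ρC)
        haveI : FiniteDimensional (ZMod p) (H2c (lvlS T) (ρA.comp (QuotientGroup.mk' U))) :=
          Module.Finite.of_finite
        haveI : FiniteDimensional (ZMod p) (H2c (lvlS T) (ρB.comp (QuotientGroup.mk' U))) :=
          Module.Finite.of_finite
        haveI : FiniteDimensional (ZMod p) (H2c (lvlS T) (ρC.comp (QuotientGroup.mk' U))) :=
          Module.Finite.of_finite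
        have hgood : Function.Surjective
            (coeff2 (lvlS T) (ρB.comp (QuotientGroup.mk' U)) hπ') :=
          good_of_sylow hp hpT I hU hμ hUP hidx hPp hTP (htriv ρC) B _ (htriv ρB) π hπ' hsur
        have h1 := euler_additive hi' hπ' hU (htriv ρA) (htriv ρB) (htriv ρC) hinj hsur hex hgood
        rw [ker_d0_eq, ker_d0_eq, ker_d0_eq] at h1
        have h2 := finrank_minus_add hp hi' hπ' hinj hsur hex
        simp only [eulerDefect]
        omega }
  have hcyc : ∀ C : Subgroup (GQ ⧸ U), IsCyclic C → ¬ p ∣ Nat.card C →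
      f.val (funRep (descRep ρ hρ) ((GQ ⧸ U) ⧸ C)) = 0 := by
    intro C _ hC
    haveI : (preim C).FiniteIndex := Subgroup.finiteIndex_of_le (le_preim C)
    have hJ : ∀ s ∈ U, funRep ρ (GQ ⧸ preim C) s = 1 := funRep_eq_one (le_preim C) hρ
    let e : GQ ⧸ preim C → (GQ ⧸ U) ⧸ C := fun x => ((x.out : GQ ⧸ U) : (GQ ⧸ U) ⧸ C)
    have he : ∀ g : GQ, e (g : GQ ⧸ preim C) = ((g : GQ ⧸ U) : (GQ ⧸ U) ⧸ C) := fun g =>
      QuotientGroup.eq.2 (by
        have h : (g : GQ ⧸ preim C).out⁻¹ * g ∈ preim C :=
          QuotientGroup.eq.1 (QuotientGroup.out_eq' (g : GQ ⧸ preim C))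
        exact h)
    have hbij : Function.Bijective e := by
      refine ⟨fun x y h => ?_, fun z => ?_⟩
      · induction x using QuotientGroup.induction_on with
        | _ a =>
          induction y using QuotientGroup.induction_on with
          | _ b =>
            rw [he, he] at h
            refine QuotientGroup.eq.2 ?_
            show ((a⁻¹ * b : GQ) : GQ ⧸ U) ∈ C
            exact QuotientGroup.eq.1 h
      · induction z using QuotientGroup.induction_on with
        | _ z =>
          obtain ⟨g, rfl⟩ := QuotientGroup.mk'_surjective U z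
          exact ⟨(g : GQ ⧸ preim C), he g⟩
    rw [f.val_congr (σ := descRep (funRep ρ (GQ ⧸ preim C)) hJ)
      (LinearEquiv.funCongrLeft (ZMod p) A (Equiv.ofBijective e hbij)) fun d F => ?_]
    · have h := euler_funRep hp hpT hU hμ hT hρ hC
      show eulerDefect p T (funRep ρ (GQ ⧸ preim C)) = 0
      simp only [eulerDefect]
      omega
    · obtain ⟨g, rfl⟩ := QuotientGroup.mk'_surjective U d
      refine funext fun x => ?_
      induction x using QuotientGroup.induction_on with
      | _ a =>
        have h1 : (g : GQ ⧸ U)⁻¹ • e (a : GQ ⧸ preim C) = e (g⁻¹ • (a : GQ ⧸ preim C)) := by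
          rw [he a]
          exact (he (g⁻¹ * a)).symm
        exact congrArg (fun z => ρ g (F z)) h1
  have h0 : f.val (descRep ρ hρ) = 0 := f.eq_zero_of_forall_cyclic _ hcyc
  change eulerDefect p T ρ = 0 at h0
  simp only [eulerDefect] at h0
  omega

end formula

end FLTA.TW

end
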