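import Fermat.Agent.PoitouTate.Surj
import Fermat.Agent.PoitouTate.Devissage

/-!
# Twisted duals, local and global pairings with invariants, lifting orthogonal families
-/

set_option autoImplicit false

open ExtCitation Module

noncomputable section

namespace FLTA.TW

open FLTA.PT

variable {p : ℕ} [Fact p.Prime]
variable {A B C W : Type} [AddCommGroup A] [Module (ZMod p) A] [AddCommGroup B] [Module (ZMod p) B]
  [AddCommGroup C] [Module (ZMod p) C] [AddCommGroup W] [Module (ZMod p) W]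

/-- The dual twisted by the cyclotomic character. -/
def twDual (ρ : Representation (ZMod p) GQ A) :
    Representation (ZMod p) GQ (Module.Dual (ZMod p) A) where
  toFun g := (cycloChar p g : ZMod p) • (ρ g⁻¹).dualMap
  map_one' := by
    refine LinearMap.ext fun f => LinearMap.ext fun v => ?_
    simp
  map_mul' g h := by
    refine LinearMap.ext fun f => LinearMap.ext fun v => ?_
    simp only [map_mul, Units.val_mul, mul_inv_rev, LinearMap.smul_apply, Module.End.mul_apply,
      LinearMap.dualMap_apply, map_smul, smul_eq_mul]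
    ring

theorem twDual_apply (ρ : Representation (ZMod p) GQ A) (g : GQ) (f : Module.Dual (ZMod p) A)
    (v : A) : twDual ρ g f v = (cycloChar p g : ZMod p) * f (ρ g⁻¹ v) := rfl

theorem inv_apply_apply (ρ : Representation (ZMod p) GQ A) (g : GQ) (v : A) :
    ρ g⁻¹ (ρ g v) = v := by
  rw [← rep_mul_apply, inv_mul_cancel, map_one, Module.End.one_apply]

/-- The evaluation pairing with the twisted dual. -/
def twPair (ρ : Representation (ZMod p) GQ A) : Pairing (cycloChar p) ρ (twDual ρ) where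
  e := Module.Dual.eval (ZMod p) A
  equivariant g v f := by
    simp only [Module.Dual.eval_apply, twDual_apply, inv_apply_apply]

theorem twPair_perfect [Finite A] (ρ : Representation (ZMod p) GQ A) : (twPair ρ).Perfect := by
  haveI : Module.Finite (ZMod p) A := Module.Finite.of_finite
  exact ⟨(Module.evalEquiv (ZMod p) A).bijective, Function.bijective_id⟩

instance finite_dual [Finite A] : Finite (Module.Dual (ZMod p) A) :=
  Finite.of_injective (fun f => (f : A → ZMod p)) DFunLike.coe_injective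

theorem twDual_eq_one {ρ : Representation (ZMod p) GQ A} {U : Subgroup GQ}
    (hμ : ∀ s ∈ U, cycloChar p s = 1) (h : ∀ s ∈ U, ρ s = 1) : ∀ s ∈ U, twDual ρ s = 1 :=
  fun s hs => LinearMap.ext fun f => LinearMap.ext fun v => by
    rw [twDual_apply, hμ s hs, h _ (inv_mem hs)]
    simp

theorem smooth_of_triv {Γ : Type} [Group Γ] {L : Lvl Γ} {ρ : Representation (ZMod p) Γ A}
    {U : Subgroup Γ} (hU : U ∈ L) (h : ∀ s ∈ U, ρ s = 1) : Smooth L ρ := fun v =>
  ⟨U, hU, fun s hs => by rw [h s hs, Module.End.one_apply]⟩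

/-- Any perfect pairing identifies the invariants with those of the twisted dual. -/
theorem finrank_fixedBy_twDual {ρ : Representation (ZMod p) GQ A}
    {σ : Representation (ZMod p) GQ W} (P : Pairing (cycloChar p) ρ σ) (hP : P.Perfect)
    {Γ : Type} [Group Γ] (f : Γ →* GQ) (H : Subgroup Γ) :
    finrank (ZMod p) (fixedBy ((twDual ρ).comp f) H) =
      finrank (ZMod p) (fixedBy (σ.comp f) H) := by
  have he : ∀ g w, twDual ρ g (P.e.flip w) = P.e.flip (σ g w) := fun g w => LinearMap.ext fun v => by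
    rw [twDual_apply, LinearMap.flip_apply, LinearMap.flip_apply, P.equivariant', ← rep_mul_apply,
      mul_inv_cancel, map_one, Module.End.one_apply]
  let e := LinearEquiv.ofBijective P.e.flip hP.2
  have h : (fixedBy (σ.comp f) H).map (e : W →ₗ[ZMod p] Module.Dual (ZMod p) A) =
      fixedBy ((twDual ρ).comp f) H := by
    ext φ
    constructor
    · rintro ⟨w, hw, rfl⟩ s hs
      exact (he (f s) w).trans (congrArg P.e.flip (hw s hs))
    · intro hφ
      obtain ⟨w, rfl⟩ := hP.2.2 φ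
      exact ⟨w, fun s hs => hP.2.1 ((he (f s) w).symm.trans (hφ s hs)), rfl⟩
  rw [← h]
  exact LinearEquiv.finrank_map_eq e _

section submodule

/-- The representation on a stable subspace. -/
def subRep (ρ : Representation (ZMod p) GQ B) (N : Submodule (ZMod p) B)
    (hN : ∀ g, ∀ x ∈ N, ρ g x ∈ N) : Representation (ZMod p) GQ N where
  toFun g := (ρ g).restrict (hN g)
  map_one' := LinearMap.ext fun x => Subtype.ext (by simp)
  map_mul' g h := LinearMap.ext fun x => Subtype.ext (by simp)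

@[simp] theorem coe_subRep (ρ : Representation (ZMod p) GQ B) (N : Submodule (ZMod p) B)
    (hN : ∀ g, ∀ x ∈ N, ρ g x ∈ N) (g : GQ) (x : N) : (subRep ρ N hN g x : B) = ρ g x := rfl

theorem subRep_eq_one {ρ : Representation (ZMod p) GQ B} {N : Submodule (ZMod p) B}
    {hN : ∀ g, ∀ x ∈ N, ρ g x ∈ N} {U : Subgroup GQ} (h : ∀ s ∈ U, ρ s = 1) :
    ∀ s ∈ U, subRep ρ N hN s = 1 := fun s hs =>
  LinearMap.ext fun x => Subtype.ext (by rw [coe_subRep, h s hs]; rfl)

theorem equivariant_subtype (ρ : Representation (ZMod p) GQ B) (N : Submodule (ZMod p) B)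
    (hN : ∀ g, ∀ x ∈ N, ρ g x ∈ N) : Equivariant (subRep ρ N hN) ρ (MonoidHom.id GQ) N.subtype :=
  fun _ _ => rfl

theorem ker_stable {ρ : Representation (ZMod p) GQ B} {ρ' : Representation (ZMod p) GQ C}
    {π : B →ₗ[ZMod p] C} (hπ : Equivariant ρ ρ' (MonoidHom.id GQ) π) :
    ∀ g, ∀ x ∈ LinearMap.ker π, ρ g x ∈ LinearMap.ker π := fun g x hx => by
  have e : π (ρ g x) = ρ' g (π x) := hπ g x
  rw [LinearMap.mem_ker] at hx ⊢
  rw [e, hx, map_zero]

end submodule

section local_

variable {S : Finset Nat.Primes} (I : InvSystem p S) (q : Nat.Primes)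

/-- Pairing a local invariant with local `H²`. -/
def locDual (ρ : Representation (ZMod p) GQ A) :
    fixedBy ((twDual ρ).comp (loc q)) ⊤ →ₗ[ZMod p] Module.Dual (ZMod p) (H2At ρ q) where
  toFun w := (I.inv q).comp (map2 (L := lvlLoc q) (L' := lvlLoc q) (f := MonoidHom.id (Gl q))
    (φ := ((twPair ρ).e.flip w.1)) (ρ := ρ.comp (loc q)) (σ := muLoc p q) (lvlLE_id _)
    (fun g v => by
      show w.1 (ρ (loc q g) v) = (cycloChar p (loc q g) : ZMod p) * w.1 v
      conv_lhs => rw [← w.2 g trivial]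
      exact (twPair ρ).equivariant (loc q g) v w.1))
  map_add' a b := Submodule.linearMap_qext _ (LinearMap.ext fun x => by
    refine Eq.trans ?_ (map_add (I.inv q) _ _)
    exact congrArg (fun t => I.inv q (H2cπ (lvlLoc q) (muLoc p q) t)) (Subtype.ext rfl))
  map_smul' r a := Submodule.linearMap_qext _ (LinearMap.ext fun x => by
    refine Eq.trans ?_ (map_smul (I.inv q) _ _)
    exact congrArg (fun t => I.inv q (H2cπ (lvlLoc q) (muLoc p q) t)) (Subtype.ext rfl))

theorem locDual_mk (ρ : Representation (ZMod p) GQ A)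
    (w : fixedBy ((twDual ρ).comp (loc q)) ⊤) (a : Z2 (lvlLoc q) (ρ.comp (loc q))) :
    ∃ h : cup20 ((twPair ρ).comp (loc q)) (a : Gl q × Gl q → A) w.1 ∈
        Z2 (lvlLoc q) (muLoc p q),
      locDual I q ρ w (H2cπ (lvlLoc q) (ρ.comp (loc q)) a) = I.inv q (H2cπ (lvlLoc q) (muLoc p q) ⟨_, h⟩) := by
  have e : cup20 ((twPair ρ).comp (loc q)) (a : Gl q × Gl q → A) w.1 =
      pp2 (MonoidHom.id (Gl q)) ((twPair ρ).e.flip w.1) a.1 := funext fun g => by
    show ((twDual ρ).comp (loc q) (g.1 * g.2) w.1) (a.1 g) = w.1 (a.1 g)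
    rw [w.2 _ trivial]
  refine ⟨e ▸ pp2_mem_Z2 (lvlLE_id _) (fun g v => ?_) a.2, ?_⟩
  · show w.1 (ρ (loc q g) v) = (cycloChar p (loc q g) : ZMod p) * w.1 v
    conv_lhs => rw [← w.2 g trivial]
    exact (twPair ρ).equivariant (loc q g) v w.1
  · exact congrArg (fun t => I.inv q (H2cπ (lvlLoc q) (muLoc p q) t)) (Subtype.ext e.symm)

theorem locDual_bijective (hp : p ≠ 2) (hq : q ∈ S) [Finite A] (ρ : Representation (ZMod p) GQ A)
    (hρ : Smooth (lvlLoc q) (ρ.comp (loc q)))
    (hσ : Smooth (lvlLoc q) ((twDual ρ).comp (loc q))) :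
    Function.Bijective (locDual I q ρ) := by
  haveI := FLTA.PT.finite_localH2 p q hρ
  haveI : Module.Finite (ZMod p) (H2At ρ q) := Module.Finite.of_finite
  haveI : Module.Finite (ZMod p) (fixedBy ((twDual ρ).comp (loc q)) ⊤) := Module.Finite.of_finite
  have hP : ((twPair ρ).comp (loc q)).Perfect := twPair_perfect ρ
  have key : ∀ w (a : Z2 (lvlLoc q) (ρ.comp (loc q))), locDual I q ρ w (H2cπ (lvlLoc q) (ρ.comp (loc q)) a) = 0 ↔
      cup20 ((twPair ρ).comp (loc q)) (a : Gl q × Gl q → A) w.1 ∈ B2 (lvlLoc q) (muLoc p q) := by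
    intro w a
    obtain ⟨h, e⟩ := locDual_mk I q ρ w a
    rw [e, map_eq_zero_iff _ (I.bijective q hq).1, H2cπ_eq_zero]
  refine surjective_of_nondegenerate_of_finite _ ?_ ?_ |> fun h => ⟨?_, h.1⟩
  · exact (injective_iff_map_eq_zero _).2 fun w hw => Subtype.ext
      (eq_zero_of_forall_cup20 p q _ hp hP hρ hσ w.1 w.2 fun a ha =>
        (key w ⟨a, ha⟩).1 (LinearMap.congr_fun hw _))
  · exact (injective_iff_map_eq_zero _).2 fun c hc => by
      obtain ⟨a, rfl⟩ := Submodule.mkQ_surjective _ c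
      exact (H2cπ_eq_zero _ _).2 (mem_B2_of_forall_cup20 p q _ hp hP hρ hσ a.1 a.2 fun w hw =>
        (key ⟨w, hw⟩ a).1 (LinearMap.congr_fun hc ⟨w, hw⟩))
  · exact (injective_iff_map_eq_zero _).2 fun w hw => Subtype.ext
      (eq_zero_of_forall_cup20 p q _ hp hP hρ hσ w.1 w.2 fun a ha =>
        (key w ⟨a, ha⟩).1 (LinearMap.congr_fun hw _))

theorem finrank_H2At (hp : p ≠ 2) (hq : q ∈ S) (I : InvSystem p S) [Finite A]
    (ρ : Representation (ZMod p) GQ A) (hρ : Smooth (lvlLoc q) (ρ.comp (loc q)))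
    (hσ : Smooth (lvlLoc q) ((twDual ρ).comp (loc q))) :
    finrank (ZMod p) (H2At ρ q) = finrank (ZMod p) (fixedBy ((twDual ρ).comp (loc q)) ⊤) := by
  haveI := FLTA.PT.finite_localH2 p q hρ
  haveI : Module.Finite (ZMod p) (H2At ρ q) := Module.Finite.of_finite
  rw [(LinearEquiv.ofBijective _ (locDual_bijective I q hp hq ρ hρ hσ)).finrank_eq,
    Subspace.dual_finrank_eq]

include I in
/-- Local `H²` is right exact. -/
theorem coeff2At_surjective (hp : p ≠ 2) (hq : q ∈ S) [Finite B] [Finite C]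
    {ρB : Representation (ZMod p) GQ B} {ρC : Representation (ZMod p) GQ C}
    (hC : Smooth (lvlLoc q) (ρC.comp (loc q)))
    (hC' : Smooth (lvlLoc q) ((twDual ρC).comp (loc q)))
    (hB : Smooth (lvlLoc q) (ρB.comp (loc q)))
    (hB' : Smooth (lvlLoc q) ((twDual ρB).comp (loc q)))
    (π : B →ₗ[ZMod p] C) (hπ : Equivariant ρB ρC (MonoidHom.id GQ) π)
    (hsur : Function.Surjective π) : Function.Surjective (coeff2At q π hπ) := by
  by_contra hne
  obtain ⟨ℓ, hℓ, hℓ0⟩ := Submodule.exists_dual_map_eq_bot_of_lt_top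
    (lt_top_iff_ne_top.2 fun h => hne (LinearMap.range_eq_top.1 h)) inferInstance
  obtain ⟨w, rfl⟩ := (locDual_bijective I q hp hq ρC hC hC').2 ℓ
  have hwB : w.1.comp π ∈ fixedBy ((twDual ρB).comp (loc q)) ⊤ := fun g hg => LinearMap.ext fun v => by
    have e : π (ρB (loc q g)⁻¹ v) = ρC (loc q g)⁻¹ (π v) := hπ _ v
    show (cycloChar p (loc q g) : ZMod p) * w.1 (π (ρB (loc q g)⁻¹ v)) = w.1 (π v)
    rw [e]
    exact LinearMap.congr_fun (w.2 g hg) (π v)
  have h0 : locDual I q ρB ⟨w.1.comp π, hwB⟩ = 0 := by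
    refine Submodule.linearMap_qext _ (LinearMap.ext fun a => ?_)
    have h1 : locDual I q ρC w (coeff2At q π hπ (H2cπ (lvlLoc q) (ρB.comp (loc q)) a)) = 0 :=
      (Submodule.eq_bot_iff _).1 hℓ0 _ ⟨_, ⟨_, rfl⟩, rfl⟩
    exact h1
  have h2 : w.1.comp π = 0 :=
    congrArg Subtype.val ((locDual_bijective I q hp hq ρB hB hB').1 (h0.trans (map_zero _).symm))
  refine hℓ ?_
  rw [show w = 0 from Subtype.ext (LinearMap.ext fun c => by
    obtain ⟨b, rfl⟩ := hsur c
    exact LinearMap.congr_fun h2 b), map_zero]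

end local_

section global

variable {S : Finset Nat.Primes}

/-- Pullback of invariant functionals. -/
def dualPull {ρB : Representation (ZMod p) GQ B} {ρC : Representation (ZMod p) GQ C}
    (π : B →ₗ[ZMod p] C) (hπ : Equivariant ρB ρC (MonoidHom.id GQ) π) :
    fixedBy (twDual ρC) ⊤ →ₗ[ZMod p] fixedBy (twDual ρB) ⊤ :=
  LinearMap.restrict π.dualMap fun w hw g hg => LinearMap.ext fun v => by
    have e : π (ρB g⁻¹ v) = ρC g⁻¹ (π v) := hπ g⁻¹ v
    show (cycloChar p g : ZMod p) * w (π (ρB g⁻¹ v)) = w (π v)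
    rw [e]
    exact LinearMap.congr_fun (hw g hg) (π v)

/-- Change of coefficients on semi-local `H²`. -/
def coeffP2 (S : Finset Nat.Primes) {ρB : Representation (ZMod p) GQ B}
    {ρC : Representation (ZMod p) GQ C} (π : B →ₗ[ZMod p] C)
    (hπ : Equivariant ρB ρC (MonoidHom.id GQ) π) : P2 S ρB →ₗ[ZMod p] P2 S ρC where
  toFun β q := coeff2At q.1 π hπ (β q)
  map_add' a b := funext fun q => map_add _ _ _
  map_smul' r a := funext fun q => (coeff2At q.1 π hπ).map_smul r (a q)

/-- Semi-local localisation. -/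
def locP2 (S : Finset Nat.Primes) (ρ : Representation (ZMod p) GQ A) :
    H2c (lvlS S) ρ →ₗ[ZMod p] P2 S ρ where
  toFun F q := locH2 S ρ q.1 F
  map_add' a b := funext fun q => map_add _ _ _
  map_smul' r a := funext fun q => map_smul _ _ _

theorem coeffP2_locP2 {ρB : Representation (ZMod p) GQ B} {ρC : Representation (ZMod p) GQ C}
    (π : B →ₗ[ZMod p] C) (hπ : Equivariant ρB ρC (MonoidHom.id GQ) π) (F : H2c (lvlS S) ρB) :
    coeffP2 S π hπ (locP2 S ρB F) = locP2 S ρC (coeff2 (lvlS S) ρB hπ F) :=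
  funext fun q => (locH2_coeff2 q.1 π hπ F).symm

theorem invTop_coeffP2 (I : InvSystem p S) {ρB : Representation (ZMod p) GQ B}
    {ρC : Representation (ZMod p) GQ C} (π : B →ₗ[ZMod p] C)
    (hπ : Equivariant ρB ρC (MonoidHom.id GQ) π) (w : fixedBy (twDual ρC) ⊤) (β : P2 S ρB) :
    invTop I (twPair ρC) w (coeffP2 S π hπ β) = invTop I (twPair ρB) (dualPull π hπ w) β := by
  rw [invTop_apply, invTop_apply]
  refine Finset.sum_congr rfl fun q _ => ?_
  show invFunctional I (twPair ρC) w q (coeff2At q.1 π hπ (β q)) = _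
  obtain ⟨a, ha⟩ := Submodule.mkQ_surjective _ (β q)
  rw [← ha]
  rfl

/-- Global classes are orthogonal to the invariants. -/
theorem invTop_locP2 (I : InvSystem p S) (ρ : Representation (ZMod p) GQ A)
    (w : fixedBy (twDual ρ) ⊤) (F : H2c (lvlS S) ρ) :
    invTop I (twPair ρ) w (locP2 S ρ F) = 0 := by
  have hw := (twPair ρ).equivariant_right (forall_fixed w.2)
  rw [invTop_apply]
  refine Eq.trans (Finset.sum_congr rfl fun q _ => ?_)
    ((Finset.sum_coe_sort S fun q => I.inv q (locH2 S (muRep p) q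
      (coeff2 (lvlS S) ρ hw F))).trans (I.sum_eq_zero _))
  obtain ⟨a, rfl⟩ := Submodule.mkQ_surjective _ F
  rfl

theorem finite_P2 [Finite A] (ρ : Representation (ZMod p) GQ A) (hρ : Smooth (lvlS S) ρ) :
    Finite (P2 S ρ) := by
  haveI : ∀ q : S, Finite (H2At ρ q.1) := fun q => FLTA.PT.finite_localH2 p q.1 (smooth_loc hρ q.1)
  exact Pi.finite

/-- Lifting an orthogonal family along a surjection. -/
theorem exists_orth_lift (hp : p ≠ 2) (hpS : pPrime p ∈ S) (I : InvSystem p S) {U : Subgroup GQ}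
    (hU : U ∈ lvlS S) (hμ : ∀ s ∈ U, cycloChar p s = 1) [Finite B] [Finite C]
    {ρB : Representation (ZMod p) GQ B} {ρC : Representation (ZMod p) GQ C}
    (hB : ∀ s ∈ U, ρB s = 1) (hC : ∀ s ∈ U, ρC s = 1)
    (π : B →ₗ[ZMod p] C) (hπ : Equivariant ρB ρC (MonoidHom.id GQ) π)
    (hsur : Function.Surjective π) (γ' : P2 S ρC) (hγ' : ∀ w, invTop I (twPair ρC) w γ' = 0) :
    ∃ γ : P2 S ρB, coeffP2 S π hπ γ = γ' ∧ ∀ w, invTop I (twPair ρB) w γ = 0 := by
  classical
  have hB' := twDual_eq_one hμ hB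
  have hC' := twDual_eq_one hμ hC
  choose γ₀ hγ₀ using fun q : S => coeff2At_surjective I q.1 hp q.2
    (smooth_loc (smooth_of_triv hU hC) q.1) (smooth_loc (smooth_of_triv hU hC') q.1)
    (smooth_loc (smooth_of_triv hU hB) q.1) (smooth_loc (smooth_of_triv hU hB') q.1) π hπ hsur (γ' q)
  let N := LinearMap.ker π
  let ρA := subRep ρB N (ker_stable hπ)
  have hA : ∀ s ∈ U, ρA s = 1 := subRep_eq_one hB
  have hi := equivariant_subtype ρB N (ker_stable hπ)
  haveI : Finite N := Subtype.finite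
  haveI := finite_P2 ρA (S := S) (smooth_of_triv hU hA)
  haveI : Module.Finite (ZMod p) (P2 S ρA) := Module.Finite.of_finite
  let g : fixedBy (twDual ρB) ⊤ →ₗ[ZMod p] ZMod p := (invTop I (twPair ρB)).flip γ₀
  have hker : LinearMap.ker (dualPull N.subtype hi) ≤ LinearMap.ker g := fun r hr => by
    obtain ⟨s, hs⟩ := π.exists_rightInverse_of_surjective (LinearMap.range_eq_top.2 hsur)
    have hs1 : ∀ c, π (s c) = c := fun c => LinearMap.congr_fun hs c
    have hr0 : ∀ x : B, π x = 0 → r.1 x = 0 := fun x hx =>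
      LinearMap.congr_fun (congrArg Subtype.val hr) (⟨x, hx⟩ : N)
    have hrs : ∀ b, r.1 (s (π b)) = r.1 b := fun b => by
      rw [← sub_eq_zero, ← map_sub]
      exact hr0 _ (by rw [map_sub, hs1, sub_self])
    have hw : r.1.comp s ∈ fixedBy (twDual ρC) ⊤ := fun g hg => LinearMap.ext fun c => by
      obtain ⟨b, rfl⟩ := hsur c
      have e : π (ρB g⁻¹ b) = ρC g⁻¹ (π b) := hπ g⁻¹ b
      show (cycloChar p g : ZMod p) * r.1 (s (ρC g⁻¹ (π b))) = r.1 (s (π b))
      rw [← e, hrs, hrs]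
      exact LinearMap.congr_fun (r.2 g hg) b
    have e : dualPull π hπ ⟨_, hw⟩ = r := Subtype.ext (LinearMap.ext hrs)
    rw [LinearMap.mem_ker]
    show invTop I (twPair ρB) r γ₀ = 0
    rw [← e, ← invTop_coeffP2, show coeffP2 S π hπ γ₀ = γ' from funext hγ₀, hγ']
  obtain ⟨G, hG⟩ := exists_comp_eq_of_ker_le (dualPull N.subtype hi) g hker
  obtain ⟨δ, hδ⟩ : ∃ δ, (invTop I (twPair ρA)).flip δ = G := by
    have hinj := invTop_injective I hp hpS (twPair ρA) (twPair_perfect ρA) (smooth_of_triv hU hA)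
      (smooth_of_triv hU (twDual_eq_one hμ hA))
    obtain ⟨Φ, hΦ⟩ := LinearMap.dualMap_surjective_of_injective hinj G
    obtain ⟨δ, rfl⟩ := (Module.evalEquiv (ZMod p) (P2 S ρA)).surjective Φ
    exact ⟨δ, hΦ⟩
  refine ⟨γ₀ - coeffP2 S N.subtype hi δ, ?_, fun r => ?_⟩
  · rw [map_sub, show coeffP2 S π hπ γ₀ = γ' from funext hγ₀, sub_eq_self]
    funext q
    obtain ⟨a, ha⟩ := Submodule.mkQ_surjective _ (δ q)
    show coeff2At q.1 π hπ (coeff2At q.1 N.subtype hi (δ q)) = 0
    rw [← ha]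
    refine (H2cπ_eq_zero _ _).2 ?_
    convert (B2 (lvlLoc q.1) (ρC.comp (loc q.1))).zero_mem using 1
    funext x
    exact (a.1 x).2
  · rw [map_sub, invTop_coeffP2, sub_eq_zero]
    show g r = _
    rw [← hG r, ← hδ]
    rfl

end global

end FLTA.TW

end
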