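import Fermat.Agent.TaylorWiles.EulerRepAlgebra
import Fermat.Agent.TaylorWiles.EulerDual

/-!
# Averaging over groups of order prime to `p`, invariant homomorphisms, exchanging two subgroups
-/

set_option autoImplicit false
set_option linter.style.haveILetI false

open ExtCitation Module

noncomputable section

namespace FLTA.TW

open FLTA.PT

variable {p : ℕ} [Fact p.Prime]
variable {A B V W : Type} [AddCommGroup A] [Module (ZMod p) A] [AddCommGroup B] [Module (ZMod p) B]
  [AddCommGroup V] [Module (ZMod p) V] [AddCommGroup W] [Module (ZMod p) W]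

theorem AddFun.val_prod {G : Type} [Group G] (f : AddFun p G) [Finite A] [Finite B]
    (ρA : Representation (ZMod p) G A) (ρB : Representation (ZMod p) G B) :
    f.val (ρA.prod ρB) = f.val ρA + f.val ρB :=
  f.add (LinearMap.inl (ZMod p) A B) (LinearMap.snd (ZMod p) A B)
    (fun g a => Prod.ext rfl (map_zero (ρB g)).symm) (fun _ _ => rfl) LinearMap.inl_injective
    LinearMap.snd_surjective (LinearMap.range_inl (ZMod p) A B)

section average

variable {G : Type} [Group G] [Fintype G]

/-- The average over the group. -/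
def avgMap (τ : Representation (ZMod p) G A) : A →ₗ[ZMod p] A :=
  (Fintype.card G : ZMod p)⁻¹ • ∑ g, τ g

theorem avgMap_apply (τ : Representation (ZMod p) G A) (v : A) :
    avgMap τ v = (Fintype.card G : ZMod p)⁻¹ • ∑ g, τ g v := by
  simp [avgMap]

theorem avgMap_mem (τ : Representation (ZMod p) G A) (v : A) : avgMap τ v ∈ τ.invariants := by
  intro h
  rw [avgMap_apply, map_smul, map_sum]
  congr 1
  simp only [← Module.End.mul_apply, ← map_mul]
  exact (Group.mulLeft_bijective h).sum_comp fun g => τ g v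

theorem avgMap_apply_rep (τ : Representation (ZMod p) G A) (h : G) (v : A) :
    avgMap τ (τ h v) = avgMap τ v := by
  rw [avgMap_apply, avgMap_apply]
  congr 1
  simp only [← Module.End.mul_apply, ← map_mul]
  exact (Group.mulRight_bijective h).sum_comp fun g => τ g v

theorem card_ne_zero_of_not_dvd (hG : ¬ p ∣ Fintype.card G) : (Fintype.card G : ZMod p) ≠ 0 := by
  rwa [ne_eq, ZMod.natCast_eq_zero_iff]

theorem avgMap_eq_self (hG : ¬ p ∣ Fintype.card G) (τ : Representation (ZMod p) G A) {v : A}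
    (hv : v ∈ τ.invariants) : avgMap τ v = v := by
  rw [avgMap_apply, Finset.sum_congr rfl (fun g _ => hv g), Finset.sum_const, Finset.card_univ,
    ← Nat.cast_smul_eq_nsmul (ZMod p), smul_smul, inv_mul_cancel₀ (card_ne_zero_of_not_dvd hG),
    one_smul]

theorem avgMap_natural {τ : Representation (ZMod p) G A} {τ' : Representation (ZMod p) G B}
    {π : A →ₗ[ZMod p] B} (hπ : Equivariant τ τ' (MonoidHom.id G) π) (v : A) :
    π (avgMap τ v) = avgMap τ' (π v) := by
  rw [avgMap_apply, avgMap_apply, map_smul, map_sum]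
  exact congrArg _ (Finset.sum_congr rfl fun g _ => hπ g v)

theorem finrank_invariants_dual (hG : ¬ p ∣ Fintype.card G) (τ : Representation (ZMod p) G A)
    [Finite A] : finrank (ZMod p) τ.dual.invariants = finrank (ZMod p) τ.invariants := by
  haveI : Module.Finite (ZMod p) A := Module.Finite.of_finite
  rw [← Subspace.dual_finrank_eq (K := ZMod p) (V := τ.invariants)]
  refine (LinearEquiv.ofBijective (τ.invariants.dualRestrict.comp τ.dual.invariants.subtype)
    ⟨(injective_iff_map_eq_zero _).2 fun f hf => ?_, fun φ => ?_⟩).finrank_eq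
  · refine Subtype.ext (LinearMap.ext fun v => ?_)
    have h1 : (f : Module.Dual (ZMod p) A) (avgMap τ v) = 0 :=
      LinearMap.congr_fun hf ⟨_, avgMap_mem τ v⟩
    rw [avgMap_apply, map_smul, map_sum, Finset.sum_congr rfl (g := fun _ =>
      (f : Module.Dual (ZMod p) A) v) (fun g _ => by
        have := LinearMap.congr_fun (f.2 g⁻¹) v
        rwa [Representation.dual_apply, Module.Dual.transpose_apply, LinearMap.comp_apply,
          inv_inv] at this),
      Finset.sum_const, Finset.card_univ, ← Nat.cast_smul_eq_nsmul (ZMod p), smul_smul,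
      inv_mul_cancel₀ (card_ne_zero_of_not_dvd hG), one_smul] at h1
    exact h1
  · refine ⟨⟨φ ∘ₗ (avgMap τ).codRestrict τ.invariants (avgMap_mem τ), fun g => ?_⟩,
      LinearMap.ext fun v => congrArg φ (Subtype.ext (avgMap_eq_self hG τ v.2))⟩
    exact LinearMap.ext fun v => congrArg φ (Subtype.ext (avgMap_apply_rep τ g⁻¹ v))

/-- The dimension of the invariant homomorphisms out of `σ`, as an additive invariant. -/
def homAddFun (hG : ¬ p ∣ Fintype.card G) (σ : Representation (ZMod p) G W) [Finite W] :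
    AddFun p G where
  val τ := (finrank (ZMod p) (Representation.linHom σ τ).invariants : ℤ)
  add {A B C} _ _ _ _ _ _ _ _ _ {ρA ρB ρC} i π hi hπ hinj hsur hex := by
    haveI : Finite (W →ₗ[ZMod p] A) := Finite.of_injective _ DFunLike.coe_injective
    haveI : Finite (W →ₗ[ZMod p] B) := Finite.of_injective _ DFunLike.coe_injective
    haveI : Finite (W →ₗ[ZMod p] C) := Finite.of_injective _ DFunLike.coe_injective
    haveI : Module.Finite (ZMod p) (W →ₗ[ZMod p] A) := Module.Finite.of_finite
    haveI : Module.Finite (ZMod p) (W →ₗ[ZMod p] B) := Module.Finite.of_finite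
    haveI : Module.Finite (ZMod p) (W →ₗ[ZMod p] C) := Module.Finite.of_finite
    have ei : ∀ g a, i (ρA g a) = ρB g (i a) := hi
    have eπ : ∀ g b, π (ρB g b) = ρC g (π b) := hπ
    let I : (W →ₗ[ZMod p] A) →ₗ[ZMod p] (W →ₗ[ZMod p] B) := LinearMap.llcomp _ _ _ _ i
    let P : (W →ₗ[ZMod p] B) →ₗ[ZMod p] (W →ₗ[ZMod p] C) := LinearMap.llcomp _ _ _ _ π
    have hI : Equivariant (Representation.linHom σ ρA) (Representation.linHom σ ρB)
        (MonoidHom.id G) I := fun g φ => LinearMap.ext fun w => ei g _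
    have hP : Equivariant (Representation.linHom σ ρB) (Representation.linHom σ ρC)
        (MonoidHom.id G) P := fun g φ => LinearMap.ext fun w => eπ g _
    let I' : (Representation.linHom σ ρA).invariants →ₗ[ZMod p]
        (Representation.linHom σ ρB).invariants :=
      I.restrict fun φ hφ g => (hI g φ).symm.trans (congrArg I (hφ g))
    let P' : (Representation.linHom σ ρB).invariants →ₗ[ZMod p]
        (Representation.linHom σ ρC).invariants :=
      P.restrict fun φ hφ g => (hP g φ).symm.trans (congrArg P (hφ g))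
    have hI' : Function.Injective I' := fun a b h => Subtype.ext (LinearMap.ext fun w =>
      hinj (LinearMap.congr_fun (congrArg Subtype.val h) w))
    have hP' : Function.Surjective P' := fun φ => by
      obtain ⟨s, hs⟩ := π.exists_rightInverse_of_surjective (LinearMap.range_eq_top.2 hsur)
      refine ⟨⟨avgMap (Representation.linHom σ ρB) (s ∘ₗ φ.1), avgMap_mem _ _⟩, Subtype.ext ?_⟩
      show P (avgMap (Representation.linHom σ ρB) (s ∘ₗ φ.1)) = φ.1
      rw [avgMap_natural hP]
      refine Eq.trans (congrArg _ ?_) (avgMap_eq_self hG _ φ.2)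
      exact LinearMap.ext fun w => LinearMap.congr_fun hs (φ.1 w)
    have hker : LinearMap.ker P' = LinearMap.range I' := by
      ext φ
      constructor
      · intro h
        obtain ⟨r, hr⟩ := i.exists_leftInverse_of_injective (LinearMap.ker_eq_bot.2 hinj)
        have hir : i ∘ₗ r ∘ₗ φ.1 = φ.1 := LinearMap.ext fun w => by
          obtain ⟨a, ha⟩ : φ.1 w ∈ LinearMap.range i := by
            rw [hex]
            exact LinearMap.congr_fun (congrArg Subtype.val h) w
          simp only [LinearMap.comp_apply, ← ha, show r (i a) = a from LinearMap.congr_fun hr a]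
        refine ⟨⟨r ∘ₗ φ.1, fun g => LinearMap.ext fun w => hinj ?_⟩, Subtype.ext hir⟩
        refine Eq.trans ?_ ((LinearMap.congr_fun (φ.2 g) w).trans
          (LinearMap.congr_fun hir w).symm)
        exact (ei g _).trans (congrArg (ρB g) (LinearMap.congr_fun hir _))
      · rintro ⟨a, rfl⟩
        refine LinearMap.mem_ker.2 (Subtype.ext (LinearMap.ext fun w => ?_))
        show π (i (a.1 w)) = 0
        rw [← LinearMap.mem_ker, ← hex]
        exact ⟨_, rfl⟩
    have n := LinearMap.finrank_range_add_finrank_ker P'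
    rw [hker, LinearMap.finrank_range_of_inj hI', LinearMap.range_eq_top.2 hP', finrank_top] at n
    omega

theorem homAddFun_val (hG : ¬ p ∣ Fintype.card G) (σ : Representation (ZMod p) G W) [Finite W]
    [Finite A] (τ : Representation (ZMod p) G A) :
    (homAddFun hG σ).val τ = (finrank (ZMod p) (Representation.linHom σ τ).invariants : ℤ) := rfl

end average

section descend

variable {U : Subgroup GQ} [U.Normal]

/-- A representation trivial on `U`, seen on the quotient by `U`. -/
def descRep (τ : Representation (ZMod p) GQ A) (h : ∀ s ∈ U, τ s = 1) :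
    Representation (ZMod p) (GQ ⧸ U) A :=
  QuotientGroup.lift U τ fun s hs => MonoidHom.mem_ker.2 (h s hs)

theorem descRep_mk (τ : Representation (ZMod p) GQ A) (h : ∀ s ∈ U, τ s = 1) (g : GQ) :
    descRep τ h (g : GQ ⧸ U) = τ g := rfl

/-- A representation trivial on `U`, restricted to a subgroup of the quotient. -/
abbrev descSub (τ : Representation (ZMod p) GQ A) (h : ∀ s ∈ U, τ s = 1) (C : Subgroup (GQ ⧸ U)) :
    Representation (ZMod p) C A :=
  (descRep τ h).comp C.subtype

theorem fixedBy_comap_eq (τ : Representation (ZMod p) GQ A) (h : ∀ s ∈ U, τ s = 1)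
    (C : Subgroup (GQ ⧸ U)) :
    fixedBy τ (C.comap (QuotientGroup.mk' U)) = (descSub τ h C).invariants := by
  ext v
  refine ⟨fun hv c => ?_, fun hv s hs => hv ⟨_, hs⟩⟩
  obtain ⟨c, hc⟩ := c
  obtain ⟨g, rfl⟩ := QuotientGroup.mk'_surjective U c
  exact hv g hc

theorem linHom_eq_one {σ : Representation (ZMod p) GQ W} {τ : Representation (ZMod p) GQ A}
    (hσ : ∀ s ∈ U, σ s = 1) (hτ : ∀ s ∈ U, τ s = 1) :
    ∀ s ∈ U, Representation.linHom σ τ s = 1 := fun s hs => LinearMap.ext fun φ => by
  rw [Representation.linHom_apply, hτ s hs, hσ _ (inv_mem hs)]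
  rfl

theorem fixedBy_linHom_eq {σ : Representation (ZMod p) GQ W} {τ : Representation (ZMod p) GQ A}
    (hσ : ∀ s ∈ U, σ s = 1) (hτ : ∀ s ∈ U, τ s = 1) (C : Subgroup (GQ ⧸ U)) :
    fixedBy (Representation.linHom σ τ) (C.comap (QuotientGroup.mk' U)) =
      (Representation.linHom (descSub σ hσ C) (descSub τ hτ C)).invariants := by
  ext φ
  refine ⟨fun hv c => ?_, fun hv s hs => hv ⟨_, hs⟩⟩
  obtain ⟨c, hc⟩ := c
  obtain ⟨g, rfl⟩ := QuotientGroup.mk'_surjective U c
  exact hv g hc

variable [U.FiniteIndex] {C : Subgroup (GQ ⧸ U)}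

theorem finrank_fixedBy_dual (hC : ¬ p ∣ Nat.card C) [Finite A] (τ : Representation (ZMod p) GQ A)
    (h : ∀ s ∈ U, τ s = 1) :
    finrank (ZMod p) (fixedBy τ.dual (C.comap (QuotientGroup.mk' U))) =
      finrank (ZMod p) (fixedBy τ (C.comap (QuotientGroup.mk' U))) := by
  haveI := Fintype.ofFinite C
  rw [fixedBy_comap_eq τ h, ← finrank_invariants_dual
    (by rwa [← Nat.card_eq_fintype_card]) (descSub τ h C)]
  have e : fixedBy τ.dual (C.comap (QuotientGroup.mk' U)) =
      (descSub τ h C).dual.invariants := by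
    ext φ
    refine ⟨fun hv c => ?_, fun hv s hs => hv ⟨_, hs⟩⟩
    obtain ⟨c, hc⟩ := c
    obtain ⟨g, rfl⟩ := QuotientGroup.mk'_surjective U c
    exact hv g hc
  rw [e]

end descend

section fixed

variable {Γ : Type} [Group Γ]

theorem finrank_fixedBy_congr {τ : Representation (ZMod p) Γ A} {τ' : Representation (ZMod p) Γ B}
    (e : A ≃ₗ[ZMod p] B) (he : ∀ g v, e (τ g v) = τ' g (e v)) (H : Subgroup Γ) :
    finrank (ZMod p) (fixedBy τ H) = finrank (ZMod p) (fixedBy τ' H) := by
  rw [← LinearEquiv.finrank_map_eq e (fixedBy τ H)]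
  suffices (fixedBy τ H).map (e : A →ₗ[ZMod p] B) = fixedBy τ' H by rw [this]
  ext w
  constructor
  · rintro ⟨v, hv, rfl⟩ s hs
    exact (he s v).symm.trans (congrArg e (hv s hs))
  · intro hw
    refine ⟨e.symm w, fun s hs => e.injective ?_, e.apply_symm_apply w⟩
    rw [he, e.apply_symm_apply, hw s hs]

theorem fixedBy_sup {τ : Representation (ZMod p) Γ A} {U K : Subgroup Γ}
    (h : ∀ s ∈ U, τ s = 1) : fixedBy τ (U ⊔ K) = fixedBy τ K := by
  refine le_antisymm (fun v hv s hs => hv s (Subgroup.mem_sup_right hs)) fun v hv => ?_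
  let S : Subgroup Γ :=
    { carrier := {g | τ g v = v}
      mul_mem' := fun {a b} ha hb => by
        show τ (a * b) v = v
        rw [map_mul, Module.End.mul_apply, hb, ha]
      one_mem' := by simp
      inv_mem' := fun {a} ha => by
        show τ a⁻¹ v = v
        conv_lhs => rw [← show τ a v = v from ha]
        rw [← Module.End.mul_apply, ← map_mul, inv_mul_cancel, map_one, Module.End.one_apply] }
  have : U ⊔ K ≤ S := sup_le (fun s hs => by show τ s v = v; rw [h s hs]; rfl) hv
  exact fun s hs => this hs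

theorem fixedBy_comp_top {Γ' : Type} [Group Γ'] (τ : Representation (ZMod p) Γ A) (f : Γ' →* Γ) :
    fixedBy (τ.comp f) ⊤ = fixedBy τ f.range := by
  ext v
  exact ⟨fun hv s ⟨t, ht⟩ => ht ▸ hv t trivial, fun hv t _ => hv _ ⟨t, rfl⟩⟩

theorem fixedBy_zpowers (τ : Representation (ZMod p) Γ A) (c : Γ) :
    fixedBy τ (Subgroup.zpowers c) = LinearMap.ker (τ c - 1) := by
  ext v
  simp only [LinearMap.mem_ker, LinearMap.sub_apply, Module.End.one_apply, sub_eq_zero]
  refine ⟨fun hv => hv c (Subgroup.mem_zpowers c), fun hv s hs => ?_⟩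
  obtain ⟨n, rfl⟩ := hs
  show τ (c ^ n) v = v
  induction n with
  | zero => simp
  | succ i ih => rw [zpow_add_one, map_mul, Module.End.mul_apply, hv, ih]
  | pred i ih =>
    conv_lhs => rw [← hv]
    rw [← Module.End.mul_apply, ← map_mul, zpow_sub_one, inv_mul_cancel_right, ih]

/-- Shapiro in degree zero. -/
theorem finrank_fixedBy_funRep_top (τ : Representation (ZMod p) Γ A) (H : Subgroup Γ) :
    finrank (ZMod p) (fixedBy (funRep τ (Γ ⧸ H)) ⊤) = finrank (ZMod p) (fixedBy τ H) := by
  let f : fixedBy (funRep τ (Γ ⧸ H)) ⊤ →ₗ[ZMod p] fixedBy τ H :=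
    (LinearMap.proj ((1 : Γ) : Γ ⧸ H)).restrict fun F hF s hs => by
      have hfix : s⁻¹ • ((1 : Γ) : Γ ⧸ H) = ((1 : Γ) : Γ ⧸ H) := by
        rw [MulAction.Quotient.smul_mk, QuotientGroup.eq]
        simpa using hs
      have := congrFun (hF s trivial) ((1 : Γ) : Γ ⧸ H)
      rwa [funRep_apply, hfix] at this
  refine (LinearEquiv.ofBijective f ⟨fun F G hFG => ?_, fun v => ?_⟩).finrank_eq
  · refine Subtype.ext (funext fun x => ?_)
    induction x using QuotientGroup.induction_on with
    | _ g =>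
      have h1 := congrFun (F.2 g trivial) (g : Γ ⧸ H)
      have h2 := congrFun (G.2 g trivial) (g : Γ ⧸ H)
      have e : g⁻¹ • (g : Γ ⧸ H) = ((1 : Γ) : Γ ⧸ H) := by
        rw [MulAction.Quotient.smul_mk, smul_eq_mul, inv_mul_cancel]
      rw [funRep_apply, e] at h1 h2
      rw [← h1, ← h2]
      exact congrArg (τ g) (congrArg Subtype.val hFG)
  · have key : ∀ (g : Γ) (x : Γ ⧸ H), x = (g : Γ ⧸ H) → τ x.out v.1 = τ g v.1 := fun g x hx => by
      have hm : g⁻¹ * x.out ∈ H := QuotientGroup.eq.1 ((QuotientGroup.out_eq' x).trans hx).symm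
      conv_lhs => rw [← mul_inv_cancel_left g x.out, map_mul, Module.End.mul_apply, v.2 _ hm]
    refine ⟨⟨fun x => τ x.out v.1, fun g _ => funext fun x => ?_⟩, Subtype.ext ?_⟩
    · rw [funRep_apply, ← Module.End.mul_apply, ← map_mul]
      refine (key _ x ?_).symm
      exact (smul_inv_smul g x).symm.trans
        ((congrArg (g • ·) (QuotientGroup.out_eq' (g⁻¹ • x))).symm.trans
          (MulAction.Quotient.smul_mk H g _))
    · exact (key 1 _ rfl).trans (by rw [map_one, Module.End.one_apply])

/-- The map exchanging the two subgroups. -/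
def swapMap (σ : Representation (ZMod p) Γ A) (H K : Subgroup Γ) :
    fixedBy (funRep σ (Γ ⧸ K)) H →ₗ[ZMod p] fixedBy (funRep σ (Γ ⧸ H)) K where
  toFun F := ⟨fun x => σ x.out (F.1 (x.out⁻¹ • ((1 : Γ) : Γ ⧸ K))), fun s hs => funext fun x => by
    have hh : x.out⁻¹ * s * (s⁻¹ • x).out ∈ H := by
      rw [mul_assoc, ← QuotientGroup.eq]
      exact (QuotientGroup.out_eq' x).trans ((smul_inv_smul s x).symm.trans
        ((congrArg (s • ·) (QuotientGroup.out_eq' (s⁻¹ • x))).symm.trans
          (MulAction.Quotient.smul_mk H s _)))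
    set h := x.out⁻¹ * s * (s⁻¹ • x).out with hdef
    have e : (s⁻¹ • x).out = s⁻¹ * x.out * h := by rw [hdef]; group
    have hk : s • ((1 : Γ) : Γ ⧸ K) = ((1 : Γ) : Γ ⧸ K) := by
      rw [MulAction.Quotient.smul_mk, QuotientGroup.eq]
      simpa using hs
    have e1 : s * (s⁻¹ • x).out = x.out * h := by rw [e]; group
    have e2 : (s⁻¹ • x).out⁻¹ • ((1 : Γ) : Γ ⧸ K) = h⁻¹ • x.out⁻¹ • ((1 : Γ) : Γ ⧸ K) := by
      rw [show (s⁻¹ • x).out⁻¹ = h⁻¹ * x.out⁻¹ * s by rw [e]; group, mul_smul, mul_smul, hk]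
    show σ s (σ (s⁻¹ • x).out (F.1 ((s⁻¹ • x).out⁻¹ • ((1 : Γ) : Γ ⧸ K)))) = _
    rw [← Module.End.mul_apply, ← map_mul, e1, e2, map_mul, Module.End.mul_apply]
    exact congrArg (σ x.out) (congrFun (F.2 h hh) _)⟩
  map_add' F G := Subtype.ext (funext fun x => by simp)
  map_smul' a F := Subtype.ext (funext fun x => by simp)

theorem swapMap_swapMap (σ : Representation (ZMod p) Γ A) (H K : Subgroup Γ)
    (F : fixedBy (funRep σ (Γ ⧸ K)) H) : swapMap σ K H (swapMap σ H K F) = F := by
  refine Subtype.ext (funext fun y => ?_)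
  set o := (y.out⁻¹ • ((1 : Γ) : Γ ⧸ H)).out with hodef
  show σ y.out (σ o (F.1 (o⁻¹ • ((1 : Γ) : Γ ⧸ K)))) = F.1 y
  have hh : y.out * o ∈ H := by
    have : ((o : Γ) : Γ ⧸ H) = ((y.out⁻¹ : Γ) : Γ ⧸ H) := by
      rw [hodef, QuotientGroup.out_eq', MulAction.Quotient.smul_mk, smul_eq_mul, mul_one]
    simpa using QuotientGroup.eq.1 this.symm
  have e : o⁻¹ • ((1 : Γ) : Γ ⧸ K) = (y.out * o)⁻¹ • y := by
    rw [mul_inv_rev, mul_smul]
    congr 1
    rw [eq_inv_smul_iff, MulAction.Quotient.smul_mk, smul_eq_mul, mul_one, QuotientGroup.out_eq']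
  rw [← Module.End.mul_apply, ← map_mul, e]
  exact congrFun (F.2 _ hh) y

theorem finrank_fixedBy_swap (σ : Representation (ZMod p) Γ A) (H K : Subgroup Γ) :
    finrank (ZMod p) (fixedBy (funRep σ (Γ ⧸ K)) H) =
      finrank (ZMod p) (fixedBy (funRep σ (Γ ⧸ H)) K) :=
  (LinearEquiv.ofLinear (swapMap σ H K) (swapMap σ K H)
    (LinearMap.ext (swapMap_swapMap σ K H)) (LinearMap.ext (swapMap_swapMap σ H K))).finrank_eq

theorem finrank_fixedBy_linHom_perm {U : Subgroup GQ} [U.Normal] [U.FiniteIndex]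
    {C : Subgroup (GQ ⧸ U)} (hC : ¬ p ∣ Nat.card C) [Finite A]
    (σ : Representation (ZMod p) GQ A) {X : Type} [MulAction GQ X] [Finite X]
    (h : ∀ s ∈ U, funRep σ X s = 1) :
    finrank (ZMod p) (fixedBy
        (Representation.linHom σ (funRep (Representation.trivial (ZMod p) GQ (ZMod p)) X))
        (C.comap (QuotientGroup.mk' U))) =
      finrank (ZMod p) (fixedBy (funRep σ X) (C.comap (QuotientGroup.mk' U))) := by
  classical
  haveI := Fintype.ofFinite X
  rw [← finrank_fixedBy_dual hC (funRep σ X) h]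
  let f : (A →ₗ[ZMod p] X → ZMod p) →ₗ[ZMod p] Module.Dual (ZMod p) (X → A) :=
    { toFun := fun φ => ∑ x, (LinearMap.proj x ∘ₗ φ) ∘ₗ LinearMap.proj x
      map_add' := fun φ ψ => LinearMap.ext fun F => by simp [Finset.sum_add_distrib]
      map_smul' := fun a φ => LinearMap.ext fun F => by simp [Finset.mul_sum] }
  have hf : ∀ φ x a, f φ (Pi.single x a) = φ a x := fun φ x a => by
    show (∑ y, (LinearMap.proj y ∘ₗ φ) ∘ₗ LinearMap.proj y : Module.Dual (ZMod p) (X → A)) _ = _
    rw [LinearMap.sum_apply, Finset.sum_eq_single x]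
    · simp
    · intro y _ hy
      simp [Pi.single_eq_of_ne hy]
    · simp
  refine finrank_fixedBy_congr (LinearEquiv.ofBijective f ⟨fun φ ψ e => LinearMap.ext fun a =>
    funext fun x => by rw [← hf, ← hf, e], fun g => ⟨LinearMap.pi fun x => g ∘ₗ
      LinearMap.single (ZMod p) (fun _ => A) x, LinearMap.pi_ext fun x a => by rw [hf]; simp⟩⟩)
    (fun g φ => LinearMap.ext fun F => ?_) _
  show (∑ x, (LinearMap.proj x ∘ₗ Representation.linHom σ
    (funRep (Representation.trivial (ZMod p) GQ (ZMod p)) X) g φ) ∘ₗ LinearMap.proj x :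
      Module.Dual (ZMod p) (X → A)) F =
    (∑ x, (LinearMap.proj x ∘ₗ φ) ∘ₗ LinearMap.proj x : Module.Dual (ZMod p) (X → A))
      (funRep σ X g⁻¹ F)
  simp only [LinearMap.sum_apply, LinearMap.comp_apply, LinearMap.proj_apply,
    Representation.linHom_apply, funRep_apply, inv_inv]
  refine Eq.trans ?_ ((MulAction.bijective g⁻¹).sum_comp fun y => φ (σ g⁻¹ (F (g • y))) y)
  exact Finset.sum_congr rfl fun x _ => by rw [smul_inv_smul]; rfl

end fixed

section pairing

variable {ρ : Representation (ZMod p) GQ A} {σ : Representation (ZMod p) GQ B}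

theorem funPairing_perfect (P : Pairing (cycloChar p) ρ σ) (hP : P.Perfect) (X : Type)
    [MulAction GQ X] [Fintype X] : (P.funPairing X).Perfect := by
  classical
  have h1 : ∀ F x w, (P.funPairing X).e F (Pi.single x w) = P.e (F x) w := fun F x w => by
    simp only [Pairing.funPairing, LinearMap.sum_apply, LinearMap.compl₁₂_apply,
      LinearMap.proj_apply]
    rw [Finset.sum_eq_single x] <;> simp +contextual [Pi.single_eq_of_ne]
  have h2 : ∀ G x v, (P.funPairing X).e (Pi.single x v) G = P.e v (G x) := fun G x v => by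
    simp only [Pairing.funPairing, LinearMap.sum_apply, LinearMap.compl₁₂_apply,
      LinearMap.proj_apply]
    rw [Finset.sum_eq_single x] <;> simp +contextual [Pi.single_eq_of_ne]
  refine ⟨⟨fun F F' e => funext fun x => hP.1.1 (LinearMap.ext fun w => ?_), fun φ => ?_⟩,
    ⟨fun G G' e => funext fun x => hP.2.1 (LinearMap.ext fun v => ?_), fun φ => ?_⟩⟩
  · rw [← h1, ← h1, e]
  · choose F hF using fun x => hP.1.2 (φ ∘ₗ LinearMap.single (ZMod p) (fun _ => B) x)
    exact ⟨F, LinearMap.pi_ext fun x w => (h1 F x w).trans (LinearMap.congr_fun (hF x) w)⟩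
  · have := LinearMap.congr_fun e (Pi.single x v)
    simp only [LinearMap.flip_apply, h2] at this
    exact this
  · choose G hG using fun x => hP.2.2 (φ ∘ₗ LinearMap.single (ZMod p) (fun _ => A) x)
    exact ⟨G, LinearMap.pi_ext fun x v => (h2 G x v).trans (LinearMap.congr_fun (hG x) v)⟩

theorem finrank_ker_add_one [Finite A] [Finite B] (P : Pairing (cycloChar p) ρ σ) (hP : P.Perfect)
    {c : GQ} (hc : (cycloChar p c : ZMod p) = -1) :
    finrank (ZMod p) (LinearMap.ker (ρ c + 1)) =
      finrank (ZMod p) (fixedBy σ (Subgroup.zpowers c)) := by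
  haveI : Module.Finite (ZMod p) A := Module.Finite.of_finite
  haveI : Module.Finite (ZMod p) B := Module.Finite.of_finite
  let e := LinearEquiv.ofBijective P.e.flip hP.2
  have hsurj : Function.Surjective (ρ c) := fun v =>
    ⟨ρ c⁻¹ v, by rw [← rep_mul_apply, mul_inv_cancel, map_one, Module.End.one_apply]⟩
  have key : (fixedBy σ (Subgroup.zpowers c)).map (e : B →ₗ[ZMod p] Module.Dual (ZMod p) A) =
      (LinearMap.range (ρ c + 1)).dualAnnihilator := by
    have hcalc : ∀ v w, P.e ((ρ c + 1) v) w = P.e (ρ c v) (w - σ c w) := fun v w => by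
      have h1 := P.equivariant c v w
      rw [hc] at h1
      simp only [map_sub, LinearMap.add_apply, Module.End.one_apply, map_add, h1]
      ring
    ext φ
    constructor
    · rintro ⟨w, hw, rfl⟩
      rw [Submodule.mem_dualAnnihilator]
      rintro _ ⟨v, rfl⟩
      show P.e ((ρ c + 1) v) w = 0
      rw [hcalc, hw c (Subgroup.mem_zpowers c), sub_self, map_zero]
    · intro hφ
      obtain ⟨w, rfl⟩ := hP.2.2 φ
      refine ⟨w, ?_, rfl⟩
      rw [fixedBy_zpowers, SetLike.mem_coe, LinearMap.mem_ker, LinearMap.sub_apply,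
        Module.End.one_apply, ← neg_sub, neg_eq_zero]
      refine hP.2.1 (LinearMap.ext fun v => ?_)
      obtain ⟨u, rfl⟩ := hsurj v
      rw [map_zero, LinearMap.zero_apply, LinearMap.flip_apply, ← hcalc]
      exact (Submodule.mem_dualAnnihilator _).1 hφ _ ⟨u, rfl⟩
  rw [← LinearEquiv.finrank_map_eq e (fixedBy σ (Subgroup.zpowers c)), key]
  have n1 := LinearMap.finrank_range_add_finrank_ker (ρ c + 1)
  have n2 : finrank (ZMod p) (LinearMap.range (ρ c + 1)) +
      finrank (ZMod p) (LinearMap.range (ρ c + 1)).dualAnnihilator = finrank (ZMod p) A :=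
    Subspace.finrank_add_finrank_dualAnnihilator_eq (LinearMap.range (ρ c + 1))
  exact Nat.add_left_cancel (n1.trans n2.symm)

end pairing

end FLTA.TW

end
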