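import Fermat.Agent.TaylorWiles.EulerUnitsKummer
import Fermat.Agent.PoitouTate.LocalFields

/-!
# Surjectivity of the Kummer map when the primes over `T` generate the class group
-/

set_option autoImplicit false
set_option linter.style.haveILetI false

open ExtCitation NumberField IsDedekindDomain FLTA.PT.Hasse
open scoped Pointwise nonZeroDivisors

noncomputable section

namespace FLTA.TW.EU

open FLTA.PT FLTA.PT.GC FLTA.PT.NT

variable {p : ℕ} [hp : Fact p.Prime] {T : Finset Nat.Primes} {U : Subgroup GQ}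

theorem mem_lvlQ_of_lvlS {V : Subgroup GQ} (hV : V ∈ lvlS T) : V ∈ lvlQ := by
  simpa [Subgroup.comap_id] using lvlS_le_lvlQ T V hV

/-- Any divisor outside `T` is principal, when the primes over `T` generate the class group. -/
theorem exists_ord_eq [NumberField (fixedK U)] (h : GenClass T U)
    (n : HeightOneSpectrum (𝓞 (fixedK U)) →₀ ℤ) :
    ∃ b : fixedBy unitsRep U, ∀ v : Pl U, v.1 ∉ T → v.ord b = n v.prime := by
  classical
  set c := ClassGroup.mk (R := 𝓞 (fixedK U)) (fixedK U) (Additive.toMul (expsHom (fixedK U) n))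
  have hc : c ∈ (⊤ : Subgroup (ClassGroup (𝓞 (fixedK U)))) := trivial
  rw [← (h : Subgroup.closure _ = ⊤)] at hc
  have key : ∀ c ∈ Subgroup.closure {c : ClassGroup (𝓞 (fixedK U)) |
      ∃ (I : (Ideal (𝓞 (fixedK U)))⁰), (I : Ideal (𝓞 (fixedK U))).IsPrime ∧
      (∃ q ∈ T, ((q : ℕ) : 𝓞 (fixedK U)) ∈ (I : Ideal (𝓞 (fixedK U)))) ∧ ClassGroup.mk0 I = c},
      ∃ m : HeightOneSpectrum (𝓞 (fixedK U)) →₀ ℤ, (∀ v : Pl U, v.1 ∉ T → m v.prime = 0) ∧
        ClassGroup.mk (fixedK U) (Additive.toMul (expsHom (fixedK U) m)) = c := by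
    intro c hc
    induction hc using Subgroup.closure_induction with
    | mem c hc =>
      obtain ⟨I, hI, ⟨q, hq, hqI⟩, rfl⟩ := hc
      let w : HeightOneSpectrum (𝓞 (fixedK U)) :=
        ⟨I, hI, nonZeroDivisors.ne_zero I.2⟩
      refine ⟨Finsupp.single w 1, fun v hv => Finsupp.single_eq_of_ne fun e => hv ?_, ?_⟩
      · have h1 : ((v.1 : ℕ) : 𝓞 (fixedK U)) ∈ w.asIdeal := by
          have h2 := (placeOf v.1 U v.rep).2
          change _ ∈ v.prime.asIdeal at h2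
          rwa [e] at h2
        rwa [primesOver_unique h1 (show ((q : ℕ) : 𝓞 (fixedK U)) ∈ w.asIdeal from hqI)]
      · rw [expsHom_single, one_zsmul, toMul_ofMul, mk_primeDiv]
    | one => exact ⟨0, fun _ _ => rfl, by simp⟩
    | mul c d _ _ hc hd =>
      obtain ⟨m, hm, rfl⟩ := hc
      obtain ⟨m', hm', rfl⟩ := hd
      exact ⟨m + m', fun v hv => by rw [Finsupp.add_apply, hm v hv, hm' v hv, add_zero],
        by rw [map_add, toMul_add, map_mul]⟩
    | inv c _ hc =>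
      obtain ⟨m, hm, rfl⟩ := hc
      exact ⟨-m, fun v hv => by rw [Finsupp.neg_apply, hm v hv, neg_zero],
        by rw [map_neg, toMul_neg, map_inv]⟩
  obtain ⟨m, hm, hmc⟩ := key c hc
  have hker : Additive.toMul (expsHom (fixedK U) (n - m)) ∈
      (ClassGroup.mk (R := 𝓞 (fixedK U)) (fixedK U)).ker := by
    rw [MonoidHom.mem_ker, map_sub, toMul_sub, map_div, hmc, div_self']
  rw [ker_classGroupMk] at hker
  obtain ⟨x, hx⟩ := hker
  obtain ⟨b, rfl⟩ := exists_kUnit_eq U x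
  refine ⟨b, fun v hv => ?_⟩
  show ordAt U v.prime b = _
  rw [ordAt_apply, hx, ofMul_toMul, cnt_expsHom, Finsupp.sub_apply, hm v hv, sub_zero]

variable [U.FiniteIndex] [U.Normal] (hU : U ∈ lvlS T) (hpT : pPrime p ∈ T)
  (hμ : ∀ s ∈ U, cycloChar p s = 1)

theorem kap_surjective (hT : GenClass T U) : Function.Surjective (kap hU hpT hμ) := by
  classical
  intro x
  have hQ : IsOpenLvl lvlQ U := ⟨U, mem_lvlQ_of_lvlS hU, le_rfl⟩
  haveI := numberField_fixedK U hQ
  obtain ⟨hmul, W, ⟨V, hV, rfl⟩, hconst⟩ := (mem_Z1 _ _).1 x.2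
  set f : U → ZMod p := (x : U → ZMod p) with hf
  have hadd : ∀ g h : U, f (g * h) = f h + f g := fun g h => by
    rw [hmul g h]
    show (cycloChar p (g : GQ) : ZMod p) * _ + _ = _
    rw [hμ _ g.2, Units.val_one, one_mul]
    rfl
  have hzfix : ∀ s ∈ U, unitsRep s (zM p) = zM p := (mem_eUnits (T := T)).1 (zM_mem hμ) |>.1
  have hmod : ∀ i j : ℕ, (i : ZMod p) = j → i • zM p = j • zM p := fun i j hij =>
    cv_injective (by rw [cv_nsmul, cv_nsmul, cv_zM]; exact (zetaP_pow_eq_iff p).2 hij)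
  let c : U → Mq := fun u => (f u).val • zM p
  have hc : c ∈ Z1 (lvlQ.comap U.subtype) (unitsRep.comp U.subtype) := by
    refine (mem_Z1 _ _).2 ⟨fun g h => ?_, V.comap U.subtype, ⟨V, mem_lvlQ_of_lvlS hV, rfl⟩,
      fun g s hs => by simp only [c, hconst g s hs]⟩
    show (f (g * h)).val • zM p = unitsRep (g : GQ) ((f h).val • zM p) + (f g).val • zM p
    rw [map_nsmul, hzfix _ g.2, ← add_nsmul, hadd g h]
    exact hmod _ _ (by simp)
  obtain ⟨β, hβ⟩ := h1Vanishes_unitsRep U hQ c hc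
  have hβ' : ∀ (s : GQ) (hs : s ∈ U), unitsRep s β = (f ⟨s, hs⟩).val • zM p + β := fun s hs => by
    have h1 := congrFun hβ ⟨s, hs⟩
    rw [d0_apply] at h1
    exact sub_eq_iff_eq_add.1 h1
  have hf1 : f 1 = 0 := by
    have h1 := hadd 1 1
    rwa [mul_one, left_eq_add] at h1
  have hpz : p • zM p = 0 := by
    simpa [addOrderOf_zM] using addOrderOf_nsmul_eq_zero (zM p)
  have ha₀ : p • β ∈ fixedBy unitsRep U := fun s hs => by
    rw [map_nsmul, hβ' s hs, nsmul_add, smul_comm, hpz, smul_zero, zero_add]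
  have hW : V ⊓ U ∈ lvlS T := (lvlS T).inf_mem V hV U hU
  have hWQ := mem_lvlQ_of_lvlS hW
  haveI := numberField_fixedK (V ⊓ U) ⟨_, hWQ, le_rfl⟩
  have hβW : β ∈ fixedBy unitsRep (V ⊓ U) := fun s hs => by
    rw [hβ' s hs.2]
    have h0 : f ⟨s, hs.2⟩ = 0 := by
      have h1 := hconst 1 ⟨s, hs.2⟩ hs.1
      rwa [one_mul, hf1] at h1
    rw [h0, ZMod.val_zero, zero_smul, zero_add]
  let a₀ : fixedBy unitsRep U := ⟨p • β, ha₀⟩
  have hdvd : ∀ v : Pl U, v.1 ∉ T → (p : ℤ) ∣ v.ord a₀ := fun v hv => by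
    have h1 := ordAt_eq_of_le hWQ inf_le_right (liesOverPrime_plc v.1 v.rep)
      (fun B hB => inertia_le_of_isOpenLvl_lvlS ⟨_, hW, le_rfl⟩ hv hB) a₀
    change _ = v.ord a₀ at h1
    rw [← h1, show (⟨((a₀ : fixedBy unitsRep U) : Mq), fun s hs => a₀.2 s hs.2⟩ :
      fixedBy unitsRep (V ⊓ U)) = p • ⟨β, hβW⟩ from Subtype.ext rfl, map_nsmul, nsmul_eq_mul]
    exact dvd_mul_right _ _
  obtain ⟨n, hn⟩ := exists_expsHom_eq (fixedK U)
    (Additive.ofMul (toPrincipalIdeal (𝓞 (fixedK U)) (fixedK U) (kUnit U a₀)))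
  obtain ⟨b, hb⟩ := exists_ord_eq hT (n.mapRange (· / (p : ℤ)) (Int.zero_ediv _))
  have hord : ∀ v : Pl U, v.1 ∉ T → v.ord (a₀ - p • b) = 0 := fun v hv => by
    have h1 : v.ord a₀ = n v.prime := by
      show ordAt U v.prime a₀ = _
      rw [ordAt_apply, ← hn, cnt_expsHom]
    rw [map_sub, map_nsmul, hb v hv, Finsupp.mapRange_apply, ← h1, nsmul_eq_mul,
      Int.mul_ediv_cancel' (hdvd v hv), sub_self]
  let a : eUnits T U := ⟨((a₀ - p • b : fixedBy unitsRep U) : Mq), (a₀ - p • b).2, fun v hv =>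
    (v.abs_eq_one_iff _).2 (hord v (by rwa [mem_plFin] at hv))⟩
  refine ⟨a, Subtype.ext (funext fun u => ?_)⟩
  rw [kap_apply]
  have hroot : cv (β - (b : Mq)) ^ p = cv (a : Mq) := by
    rw [← cv_nsmul]
    congr 1
    show p • (β - (b : Mq)) = ((a₀ - p • b : fixedBy unitsRep U) : Mq)
    rw [nsmul_sub]
    rfl
  refine (kummerFun_of_root hμ (cv_ne_zero _) hroot u.2 (i := (f u).val) ?_).trans
    (ZMod.natCast_zmod_val _)
  rw [← cv_rep, map_sub, b.2 _ u.2, hβ' _ u.2, add_sub_assoc, cv_add, cv_nsmul, cv_zM]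

end FLTA.TW.EU

end
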