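import Fermat.Agent.TaylorWiles.EulerUnitsLattice
import Fermat.Agent.TaylorWiles.EulerUnitsKummerSurj

/-!
# The characteristic polynomial of `g` on `Hom(G_T(K), μ_p)`
-/

set_option autoImplicit false
set_option linter.style.haveILetI false

open ExtCitation NumberField Polynomial

noncomputable section

namespace FLTA.TW.EU

open FLTA.PT FLTA.PT.GC FLTA.PT.NT

variable {p : ℕ} [hp : Fact p.Prime] {T : Finset Nat.Primes} {U : Subgroup GQ}
  [U.FiniteIndex] [U.Normal]

theorem charpoly_unit (R : Type*) [CommRing R] (a : R) :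
    (Matrix.of fun _ _ : Unit => a).charpoly = X - C a := by
  rw [Matrix.charpoly, Matrix.det_unique, Matrix.charmatrix_apply]
  simp

theorem permPoly_idxMap_map (g : GQ) :
    (permPoly ℤ (idxMap T U g)).map (Int.castRingHom (ZMod p)) =
      cosetCharpoly p U (Subgroup.zpowers complexConjugation) g *
        ∏ q ∈ T, cosetCharpoly p U (loc q).range g := by
  haveI := finite_quot (U := U) (Subgroup.zpowers complexConjugation)
  haveI := fun q : Nat.Primes => finite_quot (U := U) (loc q).range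
  rw [permPoly_map, idxMap, permPoly_sum, permPoly_sigma, cosetCharpoly_eq_permPoly,
    ← Finset.prod_coe_sort T]
  simp only [cosetCharpoly_eq_permPoly]

theorem charpoly_conjHomU_aux (hpT : pPrime p ∈ T) (hU : U ∈ lvlS T)
    (hμ : ∀ s ∈ U, cycloChar p s = 1) (hT : GenClass T U) [Finite (homU p T U)] (g : GQ) :
    (conjHomU p T U g).charpoly * (X - 1) =
      (X - C (cycloChar p g : ZMod p)) *
        cosetCharpoly p U (Subgroup.zpowers complexConjugation) g *
        ∏ q ∈ T, cosetCharpoly p U (loc q).range g := by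
  classical
  have hQ : IsOpenLvl lvlQ U := ⟨U, mem_lvlQ_of_lvlS hU, le_rfl⟩
  obtain ⟨N, e, M, hdec, hdiv, hM, hchar⟩ := exists_lattice_data (T := T) hQ g
  obtain ⟨t, ht, hgen⟩ := exists_torsion_generator (T := T) hQ
  set K := kap hU hpT hμ
  -- the chosen root of unity
  obtain ⟨j, hj⟩ := hgen ⟨zM p, zM_mem hμ⟩ (isOfFinAddOrder_iff_nsmul_eq_zero.2
    ⟨p, hp.out.pos, Subtype.ext (by
      simpa [addOrderOf_zM] using addOrderOf_nsmul_eq_zero (zM p))⟩)
  have hordz : addOrderOf (⟨zM p, zM_mem hμ⟩ : eUnits T U) = p := by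
    rw [← AddSubgroup.addOrderOf_coe]
    exact addOrderOf_zM
  have hpt : p ∣ addOrderOf t := by
    rw [← hordz, addOrderOf_dvd_iff_nsmul_eq_zero, hj, smul_comm, addOrderOf_nsmul_eq_zero,
      smul_zero]
  have hzero : ∀ k : ℤ, k • t = 0 → (p : ℤ) ∣ k := fun k hk =>
    (Int.natCast_dvd_natCast.2 hpt).trans (addOrderOf_dvd_iff_zsmul_eq_zero.2 hk)
  -- the action on torsion
  obtain ⟨m, hm⟩ := hgen (eAct T U g t) ((eAct T U g).isOfFinAddOrder ht)
  have hmχ : (m : ZMod p) = (cycloChar p g : ZMod p) := by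
    have h1 : eAct T U g ⟨zM p, zM_mem hμ⟩ = cycloExp p g • ⟨zM p, zM_mem hμ⟩ :=
      Subtype.ext (unitsRep_zM g)
    have h2 : eAct T U g ⟨zM p, zM_mem hμ⟩ = m • ⟨zM p, zM_mem hμ⟩ := by
      rw [hj, map_zsmul, hm, smul_comm]
    have h3 : (m - (cycloExp p g : ℤ)) • (⟨zM p, zM_mem hμ⟩ : eUnits T U) = 0 := by
      rw [sub_smul, ← h2, natCast_zsmul, ← h1, sub_self]
    rw [← addOrderOf_dvd_iff_zsmul_eq_zero, hordz] at h3
    rw [← ZMod.intCast_eq_intCast_iff_dvd_sub] at h3
    rw [← h3, Int.cast_natCast, ← val_cycloChar, ZMod.natCast_val, ZMod.cast_id]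
  -- spanning and independence
  let v : Unit ⊕ Fin N → homU p T U := Sum.elim (fun _ => K t) fun i => K (e i)
  have hKz : ∀ (k : ℤ) (a : eUnits T U), K (k • a) = (k : ZMod p) • K a := fun k a => by
    rw [map_zsmul]
    exact (Int.cast_smul_eq_zsmul (ZMod p) k (K a)).symm
  have hexp : ∀ a, ∃ c : Fin N → ℤ, ∃ k : ℤ,
      K a = (k : ZMod p) • K t + ∑ i, (c i : ZMod p) • K (e i) := fun a => by
    obtain ⟨c, hc⟩ := hdec a
    obtain ⟨k, hk⟩ := hgen _ hc
    refine ⟨c, k, ?_⟩
    rw [sub_eq_iff_eq_add] at hk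
    rw [hk, map_add, hKz, map_sum]
    simp only [hKz]
  have hspan : ⊤ ≤ Submodule.span (ZMod p) (Set.range v) := by
    intro x _
    obtain ⟨a, rfl⟩ := kap_surjective hU hpT hμ hT x
    obtain ⟨c, k, hck⟩ := hexp a
    rw [show kap hU hpT hμ a = K a from rfl, hck]
    exact add_mem (Submodule.smul_mem _ _ (Submodule.subset_span ⟨Sum.inl (), rfl⟩))
      (sum_mem fun i _ => Submodule.smul_mem _ _ (Submodule.subset_span ⟨Sum.inr i, rfl⟩))
  have hli : LinearIndependent (ZMod p) v := by
    rw [Fintype.linearIndependent_iff]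
    intro w hw
    set n₀ : ℤ := ((w (Sum.inl ())).val : ℤ)
    set n : Fin N → ℤ := fun i => ((w (Sum.inr i)).val : ℤ)
    have hw' : K (n₀ • t + ∑ i, n i • e i) = 0 := by
      rw [map_add, hKz, map_sum, ← hw, Fintype.sum_sum_type,
        Fintype.sum_unique (fun a : Unit => w (Sum.inl a) • v (Sum.inl a))]
      simp only [hKz, n₀, n, Int.cast_natCast, ZMod.natCast_zmod_val]
      rfl
    obtain ⟨b, hb⟩ := exists_nsmul_of_kap_eq_zero hU hpT hμ hw'
    have hfin : IsOfFinAddOrder ((∑ i, n i • e i) - (p : ℤ) • b) := by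
      have e2 : (∑ i, n i • e i) - (p : ℤ) • b = (-n₀) • t := by
        rw [natCast_zsmul, hb, neg_zsmul]; abel
      rw [e2]
      exact ht.zsmul
    have hn := hdiv n (p : ℤ) b hfin
    have hwi : ∀ i, w (Sum.inr i) = 0 := fun i => by
      have h := hn i
      rw [← ZMod.intCast_zmod_eq_zero_iff_dvd] at h
      simpa [n] using h
    have hn0 : ∑ i, n i • e i = 0 := Finset.sum_eq_zero fun i _ => by simp [n, hwi i]
    rw [hn0, add_zero] at hb
    have hbfin : IsOfFinAddOrder b := by
      obtain ⟨o, ho, ho'⟩ := isOfFinAddOrder_iff_nsmul_eq_zero.1 (ht.zsmul (i := n₀))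
      exact isOfFinAddOrder_iff_nsmul_eq_zero.2 ⟨o * p, Nat.mul_pos ho hp.out.pos, by
        rw [mul_nsmul', hb, ho']⟩
    obtain ⟨k, hk⟩ := hgen b hbfin
    have h0 := hzero (n₀ - p * k) (by
      rw [sub_smul, mul_zsmul, ← hk]
      exact sub_eq_zero.2 ((natCast_zsmul b p).trans hb).symm)
    have h1 : (p : ℤ) ∣ n₀ := by
      have := h0.add (dvd_mul_right (p : ℤ) k)
      rwa [sub_add_cancel] at this
    rw [← ZMod.intCast_zmod_eq_zero_iff_dvd] at h1
    rintro (i | i)
    · simpa [n₀] using h1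
    · exact hwi i
  let B := Module.Basis.mk hli hspan
  choose k hk using fun i => hgen _ (hM i)
  have hmat : LinearMap.toMatrix B B (conjHomU p T U g) =
      Matrix.fromBlocks (Matrix.of fun _ _ => (cycloChar p g : ZMod p))
        (Matrix.of fun _ i => (k i : ZMod p)) 0 (M.map (Int.castRingHom (ZMod p))) := by
    have hv : ∀ i, B i = v i := fun i => by rw [Module.Basis.mk_apply]
    ext r s
    rw [LinearMap.toMatrix_apply, hv s]
    rcases s with s | s
    · have : conjHomU p T U g (v (Sum.inl s)) = (cycloChar p g : ZMod p) • B (Sum.inl ()) := by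
        rw [hv]
        show conjHomU p T U g (K t) = (cycloChar p g : ZMod p) • K t
        rw [← hmχ, ← hKz, ← hm]
        exact (kap_eAct hU hpT hμ g t).symm
      rw [this, map_smul, Module.Basis.repr_self]
      rcases r with r | r <;> simp
    · have : conjHomU p T U g (v (Sum.inr s)) =
          (k s : ZMod p) • B (Sum.inl ()) + ∑ i, (M i s : ZMod p) • B (Sum.inr i) := by
        have h1 := hk s
        rw [sub_eq_iff_eq_add] at h1
        refine (kap_eAct hU hpT hμ g (e s)).symm.trans ?_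
        show K (eAct T U g (e s)) = _
        rw [h1, map_add, hKz, map_sum]
        simp only [hKz, hv]
        rfl
      rw [this, map_add, map_smul, map_sum]
      simp only [map_smul, Module.Basis.repr_self, Finsupp.coe_add, Pi.add_apply,
        Finsupp.coe_finsetSum, Finset.sum_apply, Finsupp.smul_single, smul_eq_mul, mul_one,
        Finsupp.single_apply]
      rcases r with r | r <;> simp
  rw [← LinearMap.charpoly_toMatrix _ B, hmat, Matrix.charpoly_fromBlocks_zero₂₁, charpoly_unit,
    mul_assoc, mul_assoc, ← permPoly_idxMap_map, ← hchar, Polynomial.map_mul, Matrix.charpoly_map,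
    Polynomial.map_sub, Polynomial.map_X, Polynomial.map_one]
  ring

end FLTA.TW.EU

end
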