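import Fermat.Agent.TaylorWiles.EulerUnitsDefs
import Fermat.Agent.Galois.FinitenessH1
import Fermat.Agent.PoitouTate.PlacesKummer
import Fermat.Agent.PoitouTate.HasseSha

/-!
# Finiteness of `Hom(G_T(K), μ_p)`; generators of the class group
-/

set_option autoImplicit false

open ExtCitation NumberField IsDedekindDomain
open scoped nonZeroDivisors

noncomputable section

namespace FLTA.TW.EU

open FLTA.PT

variable {p : ℕ} [Fact p.Prime] {T : Finset Nat.Primes} {U : Subgroup GQ}

theorem exists_field_cycloChar_eq_one (p : ℕ) [Fact p.Prime] :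
    ∃ F : IntermediateField ℚ Qb, FiniteDimensional ℚ F ∧
      ∀ s ∈ F.fixingSubgroup, cycloChar p s = 1 := by
  refine ⟨IntermediateField.adjoin ℚ {zetaP p}, IntermediateField.adjoin.finiteDimensional
    ((AlgebraicClosure.isAlgebraic ℚ).isAlgebraic _).isIntegral, fun s hs => ?_⟩
  have h := (IntermediateField.mem_fixingSubgroup_iff _ _).1 hs (zetaP p)
    (IntermediateField.mem_adjoin_simple_self ℚ _)
  rw [apply_eq_pow_cycloExp p s (zetaP_spec p).pow_eq_one] at h
  have h2 : ((cycloExp p s : ℕ) : ZMod p) = ((1 : ℕ) : ZMod p) :=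
    natCast_eq_of_zetaP_pow_eq p (h.trans (pow_one _).symm)
  apply Units.ext
  rw [← val_cycloChar, ZMod.natCast_val, ZMod.cast_id, Nat.cast_one] at h2
  simpa using h2

theorem finite_homU_aux (hU : U ∈ lvlS T) : Finite (homU p T U) := by
  classical
  obtain ⟨hUn, F₁, hF₁, hF₁U⟩ := hU
  have hd₁ := hF₁.1
  obtain ⟨F₂, hd₂, hF₂⟩ := exists_field_cycloChar_eq_one p
  obtain ⟨T₀, hT₀⟩ := FLTA.Galois.exists_isUnramifiedOutside F₂
  set T' := T ∪ T₀
  set F₀ : IntermediateField ℚ Qb := F₁ ⊔ F₂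
  have hF₀ : F₀.IsUnramifiedOutside T' :=
    (hF₁.mono Finset.subset_union_left).sup (hT₀.mono Finset.subset_union_right)
  have hF₀U : F₀.fixingSubgroup ≤ U :=
    (IntermediateField.fixingSubgroup_antitone le_sup_left).trans hF₁U
  have hF₀χ : ∀ s ∈ F₀.fixingSubgroup, cycloChar p s = 1 := fun s hs =>
    hF₂ s (IntermediateField.fixingSubgroup_antitone le_sup_right hs)
  obtain ⟨L₁, hL₁, -, hL⟩ :=
    FLTA.Galois.exists_isUnramifiedOutside_bound T' (F₀.fixingSubgroup.index * p)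
  set L : IntermediateField ℚ Qb := L₁ ⊔ F₀
  have hLd : FiniteDimensional ℚ L := (hL₁.sup hF₀).1
  have hLU : L.fixingSubgroup ≤ U :=
    (IntermediateField.fixingSubgroup_antitone le_sup_right).trans hF₀U
  have key : ∀ x ∈ homU p T U, ∀ (u s : U), (s : GQ) ∈ L.fixingSubgroup → x (u * s) = x u := by
    intro x hx u s hs
    obtain ⟨hmul, W, ⟨V, ⟨-, F, hF, hFV⟩, rfl⟩, hconst⟩ := (mem_Z1 _ _).1 hx
    let φ : F₀.fixingSubgroup →* Multiplicative (ZMod p) :=
      MonoidHom.mk' (fun h => Multiplicative.ofAdd (x ⟨h, hF₀U h.2⟩)) fun a b => by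
        rw [← ofAdd_add]
        congr 1
        have h1 := hmul ⟨a, hF₀U a.2⟩ ⟨b, hF₀U b.2⟩
        refine h1.trans ?_
        show (cycloChar p (a : GQ) : ZMod p) * _ + _ = _
        rw [hF₀χ a a.2, Units.val_one, one_mul, add_comm]
        rfl
    have hx1 : x 1 = 0 := by
      have h1 := hmul 1 1
      rw [mul_one, map_one, Module.End.one_apply, left_eq_add] at h1
      exact h1
    obtain ⟨E, hEu, hE, hEd⟩ := FLTA.Galois.exists_isUnramifiedOutside_of_subgroup
      (φ.ker.map F₀.fixingSubgroup.subtype) ((hF.mono Finset.subset_union_left).sup hF₀) (by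
        intro t ht
        have ht0 : t ∈ F₀.fixingSubgroup := IntermediateField.fixingSubgroup_antitone le_sup_right ht
        refine ⟨⟨t, ht0⟩, MonoidHom.mem_ker.2 ?_, rfl⟩
        show Multiplicative.ofAdd (x ⟨t, hF₀U ht0⟩) = 1
        have h1 := hconst 1 ⟨t, hF₀U ht0⟩ (hFV (IntermediateField.fixingSubgroup_antitone le_sup_left ht))
        rw [one_mul, hx1] at h1
        rw [h1, ofAdd_zero])
    have hEle : E ≤ L₁ := by
      refine hL E hEu ?_
      rw [hEd, Subgroup.index_map_subtype, Subgroup.index_ker, mul_comm]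
      refine Nat.mul_le_mul_left _ ((Nat.card_le_card_of_injective _ Subtype.val_injective).trans ?_)
      rw [Nat.card_congr Multiplicative.toAdd, Nat.card_zmod]
    have hsE : (s : GQ) ∈ φ.ker.map F₀.fixingSubgroup.subtype := hE ▸
      IntermediateField.fixingSubgroup_antitone (hEle.trans le_sup_left) hs
    obtain ⟨t, ht, hts⟩ := hsE
    have hs0 : x s = 0 := by
      have h1 : Multiplicative.ofAdd (x ⟨t, hF₀U t.2⟩) = 1 := ht
      have e : (⟨t, hF₀U t.2⟩ : U) = s := Subtype.ext hts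
      rw [e] at h1
      exact congrArg Multiplicative.toAdd h1
    rw [hmul u s, hs0, map_zero, zero_add]
  have := finiteIndex_fixingSubgroup L
  refine Finite.of_injective
    (fun (x : homU p T U) (c : U ⧸ L.fixingSubgroup.subgroupOf U) => (x : U → ZMod p) c.out)
    fun x y hxy => Subtype.ext (funext fun a => ?_)
  obtain ⟨s, hs⟩ := QuotientGroup.mk_out_eq_mul (L.fixingSubgroup.subgroupOf U) a
  have h := congrFun hxy (QuotientGroup.mk a)
  dsimp only at h
  rwa [hs, key _ x.2 a s s.2, key _ y.2 a s s.2] at h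

theorem primeClass_mem [NumberField (fixedK U)] {v : HeightOneSpectrum (𝓞 (fixedK U))}
    {q : Nat.Primes} (hq : q ∈ T) (hv : ((q : ℕ) : 𝓞 (fixedK U)) ∈ v.asIdeal) :
    ClassGroup.mk0 ⟨v.asIdeal, mem_nonZeroDivisors_of_ne_zero v.ne_bot⟩ ∈
      Subgroup.closure {c : ClassGroup (𝓞 (fixedK U)) | ∃ (I : (Ideal (𝓞 (fixedK U)))⁰),
        (I : Ideal (𝓞 (fixedK U))).IsPrime ∧
        (∃ q ∈ T, ((q : ℕ) : 𝓞 (fixedK U)) ∈ (I : Ideal (𝓞 (fixedK U)))) ∧
        ClassGroup.mk0 I = c} :=
  Subgroup.subset_closure ⟨_, v.isPrime, ⟨q, hq, hv⟩, rfl⟩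

theorem exists_genClass_aux (hU : IsOpenLvl lvlQ U) :
    ∃ T₀ : Finset Nat.Primes, ∀ T, T₀ ⊆ T → GenClass T U := by
  classical
  have hK := numberField_fixedK U hU
  let K := fixedK U
  choose qv hqv using fun v => Hasse.exists_prime_mem K v
  have hsurj : ∀ c : ClassGroup (𝓞 K), ∃ n : HeightOneSpectrum (𝓞 K) →₀ ℤ,
      ClassGroup.mk K (Additive.toMul (expsHom K n)) = c := fun c => by
    obtain ⟨I, rfl⟩ := classGroupMk_surjective (R := 𝓞 K) K c
    obtain ⟨n, hn⟩ := exists_expsHom_eq K (Additive.ofMul I)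
    exact ⟨n, by rw [hn, toMul_ofMul]⟩
  choose n hn using hsurj
  have := Fintype.ofFinite (ClassGroup (𝓞 K))
  refine ⟨Finset.univ.biUnion fun c => (n c).support.image qv, fun T hT => ?_⟩
  intro _
  refine eq_top_iff.2 fun c _ => ?_
  rw [← hn c, ← (n c).sum_single, map_finsuppSum, Finsupp.sum, toMul_sum, map_prod]
  refine Subgroup.prod_mem _ fun v hv => ?_
  rw [expsHom_single, toMul_zsmul, toMul_ofMul, map_zpow, mk_primeDiv]
  refine Subgroup.zpow_mem _ (primeClass_mem (q := qv v) (hT ?_) (hqv v)) _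
  exact Finset.mem_biUnion.2 ⟨c, Finset.mem_univ _, Finset.mem_image_of_mem _ hv⟩

omit [Fact p.Prime] in
theorem cardClSp_eq_one_aux (hU : IsOpenLvl lvlQ U) (h : GenClass T U) :
    cardClSp p T U = 1 := by
  have hK := numberField_fixedK U hU
  rw [cardClSp, dif_pos hK, Subgroup.index_eq_one, eq_top_iff, ← @h hK]
  exact le_sup_right

end FLTA.TW.EU

end
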