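import Fermat.Agent.TaylorWiles.EulerUnitsDefs
import Fermat.Agent.TaylorWiles.EulerUnitsFinite
import Fermat.Agent.TaylorWiles.EulerUnitsCharpoly

/-!
# The Galois module `Hom(G_T(K), μ_p)` for a Galois number field `K ∋ μ_p`

`K` is the fixed field of the normal level `U`. Its characteristic polynomials are those of the
permutation modules on the places in `T` and at infinity, plus `μ_p`, minus the trivial module.
-/

set_option autoImplicit false

open ExtCitation NumberField
open scoped nonZeroDivisors

noncomputable section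

namespace FLTA.TW

open FLTA.PT

variable (p : ℕ) [Fact p.Prime] (T : Finset Nat.Primes) (U : Subgroup GQ)

theorem exists_genClass (hU : IsOpenLvl lvlQ U) :
    ∃ T₀ : Finset Nat.Primes, ∀ T, T₀ ⊆ T → GenClass T U :=
  EU.exists_genClass_aux hU

theorem cardClSp_eq_one (hU : IsOpenLvl lvlQ U) (h : GenClass T U) : cardClSp p T U = 1 :=
  EU.cardClSp_eq_one_aux hU h

theorem finite_homU (hpT : pPrime p ∈ T) (hU : U ∈ lvlS T) : Finite (homU p T U) :=
  EU.finite_homU_aux hU

/-- Kummer theory and Dirichlet's unit theorem: `Hom(G_T(K), μ_p) = E_T(K)/p` as a Galois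
module, by characteristic polynomials. -/
theorem charpoly_conjHomU (hp : p ≠ 2) (hpT : pPrime p ∈ T) [U.Normal] [U.FiniteIndex]
    (hU : U ∈ lvlS T) (hμ : ∀ s ∈ U, cycloChar p s = 1) (hT : GenClass T U)
    [Finite (homU p T U)] (g : GQ) :
    (conjHomU p T U g).charpoly * (Polynomial.X - 1) =
      (Polynomial.X - Polynomial.C (cycloChar p g : ZMod p)) *
        cosetCharpoly p U (Subgroup.zpowers complexConjugation) g *
        ∏ q ∈ T, cosetCharpoly p U (loc q).range g :=
  EU.charpoly_conjHomU_aux hpT hU hμ hT g

end FLTA.TW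

end
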