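import Fermat.Agent.TaylorWiles.EulerH2
import Fermat.Agent.TaylorWiles.EulerAvg
import Fermat.Agent.TaylorWiles.EulerUnits
import Fermat.Agent.TaylorWiles.Element
import Fermat.Prelude.Def_GaloisRep_ComplexConjugation

/-!
# The Euler characteristic of modules induced from subgroups of order prime to `p`
-/

set_option autoImplicit false
set_option linter.style.haveILetI false
set_option linter.unusedSectionVars false

open ExtCitation Module

noncomputable section

namespace FLTA.TW

open FLTA.PT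

variable {p : ℕ} [Fact p.Prime] {T : Finset Nat.Primes}
variable {A : Type} [AddCommGroup A] [Module (ZMod p) A]
variable {U : Subgroup GQ} [U.Normal]

theorem cycloChar_conj (p : ℕ) [Fact p.Prime] :
    (cycloChar p complexConjugation : ZMod p) = -1 := by
  have hp : p.Prime := Fact.out
  rw [cycloChar_eq_of_apply p (a := p - 1) fun t ht => ?_, Nat.cast_sub hp.one_le, Nat.cast_one,
    ZMod.natCast_self, zero_sub]
  apply complexEmbedding.toRingHom.injective
  show complexEmbedding (complexConjugation t) = complexEmbedding (t ^ (p - 1))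
  have h1 : ‖complexEmbedding t‖ = 1 :=
    Complex.norm_eq_one_of_pow_eq_one (by rw [← map_pow, ht, map_one]) hp.ne_zero
  rw [complexEmbedding_complexConjugation, ← Complex.inv_eq_conj h1, map_pow]
  refine inv_eq_of_mul_eq_one_right ?_
  rw [← pow_succ', Nat.sub_add_cancel hp.one_le, ← map_pow, ht, map_one]

/-- The subgroup of `G_ℚ` given by a subgroup of the quotient by `U`. -/
abbrev preim (C : Subgroup (GQ ⧸ U)) : Subgroup GQ := C.comap (QuotientGroup.mk' U)

theorem le_preim (C : Subgroup (GQ ⧸ U)) : U ≤ preim C := fun s hs => by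
  show (s : GQ ⧸ U) ∈ C
  rw [(QuotientGroup.eq_one_iff s).2 hs]
  exact one_mem C

theorem smul_eq_mk_mul (g : GQ) (y : GQ ⧸ U) : g • y = (g : GQ ⧸ U) * y := by
  induction y using QuotientGroup.induction_on with
  | _ h => rfl

theorem out_inv_mul_mem (g : GQ) (y : GQ ⧸ U) : y.out⁻¹ * g * (g⁻¹ • y).out ∈ U := by
  rw [mul_assoc, ← QuotientGroup.eq]
  exact (QuotientGroup.out_eq' y).trans ((smul_inv_smul g y).symm.trans
    ((congrArg (g • ·) (QuotientGroup.out_eq' (g⁻¹ • y))).symm.trans
      (MulAction.Quotient.smul_mk U g _)))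

/-- The projection to the smaller coset space. -/
def cproj (C : Subgroup (GQ ⧸ U)) : GQ ⧸ U → GQ ⧸ preim C :=
  Subgroup.quotientMapOfLE (le_preim C)

theorem cproj_mk (C : Subgroup (GQ ⧸ U)) (g : GQ) : cproj C (g : GQ ⧸ U) = (g : GQ ⧸ preim C) :=
  rfl

theorem cproj_smul (C : Subgroup (GQ ⧸ U)) (g : GQ) (y : GQ ⧸ U) :
    cproj C (g • y) = g • cproj C y := by
  induction y using QuotientGroup.induction_on with
  | _ h => rfl

section finite

variable [U.FiniteIndex] (C : Subgroup (GQ ⧸ U)) [Fintype C]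

/-- The sum over the fibres of the projection. -/
def fibMap : (GQ ⧸ U → A) →ₗ[ZMod p] (GQ ⧸ preim C → A) :=
  LinearMap.pi fun x => ∑ c : C, LinearMap.proj (x.out • (c : GQ ⧸ U))

theorem fibMap_apply (F : GQ ⧸ U → A) {g : GQ} {x : GQ ⧸ preim C} (hx : x = (g : GQ ⧸ preim C)) :
    fibMap (p := p) C F x = ∑ c : C, F (g • (c : GQ ⧸ U)) := by
  have hd : ((g⁻¹ * x.out : GQ) : GQ ⧸ U) ∈ C :=
    QuotientGroup.eq.1 ((QuotientGroup.out_eq' x).trans hx).symm
  simp only [fibMap, LinearMap.pi_apply, LinearMap.sum_apply, LinearMap.proj_apply]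
  refine Eq.trans ?_ ((Group.mulLeft_bijective (⟨_, hd⟩ : C)).sum_comp
    fun c => F (g • (c : GQ ⧸ U)))
  refine Finset.sum_congr rfl fun c _ => congrArg F ?_
  rw [Subgroup.coe_mul, smul_eq_mk_mul, smul_eq_mk_mul, ← mul_assoc, ← QuotientGroup.mk_mul,
    mul_inv_cancel_left]

theorem equivariant_fibMap (ρ : Representation (ZMod p) GQ A) :
    Equivariant (funRep ρ (GQ ⧸ U)) (funRep ρ (GQ ⧸ preim C)) (MonoidHom.id GQ)
      (fibMap (p := p) C) := fun g F => funext fun x => by
  have hx : g⁻¹ • x = ((g⁻¹ * x.out : GQ) : GQ ⧸ preim C) :=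
    (congrArg (g⁻¹ • ·) (QuotientGroup.out_eq' x)).symm.trans
      (MulAction.Quotient.smul_mk (preim C) g⁻¹ _)
  rw [MonoidHom.id_apply, fibMap_apply C _ (QuotientGroup.out_eq' x).symm, funRep_apply,
    fibMap_apply C F hx, map_sum]
  exact Finset.sum_congr rfl fun c _ => by rw [funRep_apply, mul_smul]

end finite

variable (hp : p ≠ 2) (hpT : pPrime p ∈ T) [U.FiniteIndex] (hU : U ∈ lvlS T)
  (hμ : ∀ s ∈ U, cycloChar p s = 1) (hT : GenClass T U) [Finite A]
  {ρ : Representation (ZMod p) GQ A} (hρ : ∀ s ∈ U, ρ s = 1)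
  {C : Subgroup (GQ ⧸ U)} (hC : ¬ p ∣ Nat.card C)

include hp hpT hU hμ hT hρ

theorem shaTwo_funRep_self : shaTwo p T (funRep ρ (GQ ⧸ U)) = ⊥ := by
  classical
  haveI : Module.Finite (ZMod p) A := Module.Finite.of_finite
  have hUo : IsOpenLvl lvlQ U := ⟨U, by simpa using lvlS_le_lvlQ T U hU, le_rfl⟩
  have hbot := shaTwo_permRep_eq_bot hp hpT (H := U) ⟨U, hU, le_rfl⟩ hμ
    (cardClSp_eq_one p T U hUo hT)
  let b := Module.Free.chooseBasis (ZMod p) A
  have hout : ∀ (g : GQ) (y : GQ ⧸ U), ρ y.out = ρ g * ρ (g⁻¹ • y).out := fun g y => by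
    have h := hρ _ (out_inv_mul_mem g y)
    rw [map_mul, map_mul] at h
    calc ρ y.out = ρ y.out * (ρ y.out⁻¹ * ρ g * ρ (g⁻¹ • y).out) := by rw [h, mul_one]
      _ = ρ g * ρ (g⁻¹ • y).out := by
        rw [← mul_assoc, ← mul_assoc, ← map_mul, mul_inv_cancel, map_one, one_mul]
  let π : Module.Free.ChooseBasisIndex (ZMod p) A → (GQ ⧸ U → A) →ₗ[ZMod p] (GQ ⧸ U → ZMod p) :=
    fun i => LinearMap.pi fun y => b.coord i ∘ₗ ρ y.out⁻¹ ∘ₗ LinearMap.proj y
  let φ : Module.Free.ChooseBasisIndex (ZMod p) A → (GQ ⧸ U → ZMod p) →ₗ[ZMod p] (GQ ⧸ U → A) :=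
    fun i => LinearMap.pi fun y => (LinearMap.proj y).smulRight (ρ y.out (b i))
  have hπ : ∀ i, Equivariant (funRep ρ (GQ ⧸ U))
      (funRep (Representation.trivial (ZMod p) GQ (ZMod p)) (GQ ⧸ U)) (MonoidHom.id GQ) (π i) :=
    fun i g F => funext fun y => by
      show b.coord i (ρ y.out⁻¹ (ρ g (F (g⁻¹ • y)))) =
        b.coord i (ρ (g⁻¹ • y).out⁻¹ (F (g⁻¹ • y)))
      refine congrArg (b.coord i) ?_
      refine (ρ.apply_bijective (y.out)).1 ?_
      rw [← rep_mul_apply, mul_inv_cancel, map_one, Module.End.one_apply, hout g y,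
        Module.End.mul_apply]
      exact congrArg (ρ g) (by rw [← rep_mul_apply, mul_inv_cancel, map_one, Module.End.one_apply])
  have hφ : ∀ i, Equivariant (funRep (Representation.trivial (ZMod p) GQ (ZMod p)) (GQ ⧸ U))
      (funRep ρ (GQ ⧸ U)) (MonoidHom.id GQ) (φ i) :=
    fun i g F => funext fun y => by
      show F (g⁻¹ • y) • ρ y.out (b i) = ρ g (F (g⁻¹ • y) • ρ (g⁻¹ • y).out (b i))
      rw [hout g y, map_smul, Module.End.mul_apply]
  refine (Submodule.eq_bot_iff _).2 fun z hz => ?_
  have h0 : ∀ i, coeff2 (lvlS T) _ (hπ i) z = 0 := fun i =>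
    (Submodule.eq_bot_iff _).1 hbot _ (mem_shaTwo_iff.2 (by
      rw [← coeffP2_locP2, mem_shaTwo_iff.1 hz, map_zero]))
  obtain ⟨a, rfl⟩ := Submodule.mkQ_surjective _ z
  have e : H2cπ (lvlS T) (funRep ρ (GQ ⧸ U)) a =
      ∑ i, coeff2 (lvlS T) _ (hφ i) (coeff2 (lvlS T) _ (hπ i) (H2cπ (lvlS T) (funRep ρ (GQ ⧸ U)) a)) := by
    simp only [coeff2, map2_mk, ← map_sum]
    refine congrArg _ (Subtype.ext (funext fun g => funext fun y => ?_))
    simp only [Submodule.coe_sum, Finset.sum_apply]
    show a.1 g y = ∑ i, b.coord i (ρ y.out⁻¹ (a.1 g y)) • ρ y.out (b i)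
    simp only [← map_smul, ← map_sum, Basis.coord_apply, b.sum_repr]
    rw [← rep_mul_apply, mul_inv_cancel, map_one, Module.End.one_apply]
  exact e.trans (Finset.sum_eq_zero fun i _ => by
    rw [show coeff2 (lvlS T) _ (hπ i) (H2cπ (lvlS T) (funRep ρ (GQ ⧸ U)) a) = 0 from h0 i, map_zero])

include hC

theorem shaTwo_funRep_preim : shaTwo p T (funRep ρ (GQ ⧸ preim C)) = ⊥ := by
  classical
  haveI := Fintype.ofFinite C
  have hm : (Fintype.card C : ZMod p) ≠ 0 := by
    rw [ne_eq, ZMod.natCast_eq_zero_iff, ← Nat.card_eq_fintype_card]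
    exact hC
  let s : (GQ ⧸ preim C → A) →ₗ[ZMod p] (GQ ⧸ U → A) := LinearMap.funLeft _ _ (cproj C)
  let r : (GQ ⧸ U → A) →ₗ[ZMod p] (GQ ⧸ preim C → A) :=
    (Fintype.card C : ZMod p)⁻¹ • fibMap (p := p) C
  have hs : Equivariant (funRep ρ (GQ ⧸ preim C)) (funRep ρ (GQ ⧸ U)) (MonoidHom.id GQ) s :=
    fun g F => funext fun y => by
      show ρ g (F (g⁻¹ • cproj C y)) = ρ g (F (cproj C (g⁻¹ • y)))
      rw [cproj_smul]
  have hr : Equivariant (funRep ρ (GQ ⧸ U)) (funRep ρ (GQ ⧸ preim C)) (MonoidHom.id GQ) r :=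
    fun g F => by
      simp only [r, LinearMap.smul_apply, map_smul]
      exact congrArg _ (equivariant_fibMap C ρ g F)
  have hid : r ∘ₗ s = LinearMap.id := LinearMap.ext fun F => funext fun x => by
    simp only [r, LinearMap.comp_apply, LinearMap.smul_apply, Pi.smul_apply, LinearMap.id_apply]
    rw [fibMap_apply C _ (QuotientGroup.out_eq' x).symm]
    have e : ∀ c : C, s F (x.out • (c : GQ ⧸ U)) = F x := fun c => by
      show F (cproj C (x.out • (c : GQ ⧸ U))) = F x
      obtain ⟨c, hc⟩ := c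
      obtain ⟨h, rfl⟩ := QuotientGroup.mk'_surjective U c
      refine congrArg F ?_
      rw [cproj_smul]
      show x.out • ((h : GQ) : GQ ⧸ preim C) = x
      rw [show ((h : GQ) : GQ ⧸ preim C) = ((1 : GQ) : GQ ⧸ preim C) from
        QuotientGroup.eq.2 (by rw [mul_one]; exact inv_mem hc),
        MulAction.Quotient.smul_mk, smul_eq_mul, mul_one, QuotientGroup.out_eq']
    rw [Finset.sum_congr rfl (fun c _ => e c), Finset.sum_const, Finset.card_univ,
      ← Nat.cast_smul_eq_nsmul (ZMod p), smul_smul, inv_mul_cancel₀ hm, one_smul]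
  refine (Submodule.eq_bot_iff _).2 fun z hz => ?_
  have h0 : coeff2 (lvlS T) _ hs z = 0 :=
    (Submodule.eq_bot_iff _).1 (shaTwo_funRep_self hp hpT hU hμ hT hρ) _ (mem_shaTwo_iff.2 (by
      rw [← coeffP2_locP2, mem_shaTwo_iff.1 hz, map_zero]))
  have hid' : Equivariant (funRep ρ (GQ ⧸ preim C)) (funRep ρ (GQ ⧸ preim C)) (MonoidHom.id GQ)
      (r ∘ₗ s) := by rw [hid]; exact fun _ _ => rfl
  rw [← coeff2_eq_self (T := T) _ hid' hid z, ← coeff2_comp s hs r hr hid', h0, map_zero]

omit hp hpT hT in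
/-- Restriction to `U` and evaluation at the trivial coset. -/
theorem finrank_H1_funRep :
    finrank (ZMod p) (H1c (lvlS T) (funRep ρ (GQ ⧸ preim C))) =
      finrank (ZMod p)
        (fixedBy (Representation.linHom (twDual ρ) (conjHomU p T U)) (preim C)) := by
  classical
  haveI := Fintype.ofFinite C
  set J := funRep ρ (GQ ⧸ preim C) with hJdef
  set base : GQ ⧸ preim C := ((1 : GQ) : GQ ⧸ preim C) with hbase
  have hJ : ∀ s ∈ U, J s = 1 := funRep_eq_one (le_preim C) hρ
  have heq : ∀ a b : A, (∀ w : Module.Dual (ZMod p) A, w a = w b) → a = b := fun a b h =>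
    (twPair_perfect ρ).1.1 (LinearMap.ext h)
  have hbs : ∀ h ∈ preim C, h⁻¹ • base = base := fun h hh => by
    rw [hbase, MulAction.Quotient.smul_mk, QuotientGroup.eq]
    simpa using hh
  have hcoc : ∀ (z : Z1 (lvlS T) J) (g g' : GQ), z.1 (g * g') = J g (z.1 g') + z.1 g :=
    fun z => ((mem_Z1 _ _).1 z.2).1
  have hmem : ∀ (z : Z1 (lvlS T) J) (w : Module.Dual (ZMod p) A),
      (fun u : U => w (z.1 u base)) ∈ homU p T U := fun z w => by
    obtain ⟨V, hV, hc⟩ := ((mem_Z1 _ _).1 z.2).2
    refine (mem_Z1 _ _).2 ⟨fun u v => ?_, V.comap U.subtype, ⟨V, hV, rfl⟩, fun g s hs => ?_⟩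
    · show w (z.1 ((u : GQ) * v) base) = (cycloChar p (u : GQ) : ZMod p) * _ + _
      rw [hμ _ u.2, Units.val_one, one_mul, hcoc, hJ _ u.2, Module.End.one_apply, Pi.add_apply,
        map_add, LinearMap.id_apply]
    · exact congrArg (fun F : GQ ⧸ preim C → A => w (F base)) (hc _ _ hs)
  let Φ : Z1 (lvlS T) J →ₗ[ZMod p] (Module.Dual (ZMod p) A →ₗ[ZMod p] homU p T U) :=
    { toFun := fun z =>
        { toFun := fun w => ⟨fun u => w (z.1 u base), hmem z w⟩
          map_add' := fun _ _ => Subtype.ext (funext fun _ => rfl)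
          map_smul' := fun _ _ => Subtype.ext (funext fun _ => rfl) }
      map_add' := fun z z' => LinearMap.ext fun w => Subtype.ext (funext fun u => by
        show w ((z.1 u + z'.1 u) base) = w (z.1 u base) + w (z'.1 u base)
        rw [Pi.add_apply, map_add])
      map_smul' := fun a z => LinearMap.ext fun w => Subtype.ext (funext fun u => by
        show w ((a • z.1 u) base) = a • w (z.1 u base)
        rw [Pi.smul_apply, map_smul]) }
  have hconj : ∀ (h : GQ) (φ : Module.Dual (ZMod p) A →ₗ[ZMod p] homU p T U)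
      (w : Module.Dual (ZMod p) A) (u : U),
      (Representation.linHom (twDual ρ) (conjHomU p T U) h φ w).1 u =
        (cycloChar p h : ZMod p) * (φ (twDual ρ h⁻¹ w)).1 ⟨h⁻¹ * u * h, by
          simpa using Subgroup.Normal.conj_mem inferInstance _ u.2 h⁻¹⟩ := fun h φ w u =>
    conjFun_apply p U h _ u
  have hrange : LinearMap.range Φ =
      fixedBy (Representation.linHom (twDual ρ) (conjHomU p T U)) (preim C) := by
    refine le_antisymm ?_ fun φ hφ => ?_
    · rintro _ ⟨z, rfl⟩ h hh
      refine LinearMap.ext fun w => Subtype.ext (funext fun u => ?_)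
      rw [hconj]
      show (cycloChar p h : ZMod p) * (twDual ρ h⁻¹ w) (z.1 (h⁻¹ * u * h) base) = w (z.1 u base)
      rw [twDual_apply, inv_inv, ← mul_assoc, ← Units.val_mul, ← map_mul, mul_inv_cancel, map_one,
        Units.val_one, one_mul]
      refine congrArg w ?_
      have e : z.1 (h⁻¹ * u * h) = J h⁻¹ (z.1 u) := by
        rw [mul_assoc, hcoc, hcoc, hJ _ u.2, Module.End.one_apply, map_add]
        have h1 := hcoc z h⁻¹ h
        rw [inv_mul_cancel] at h1
        have h2 := hcoc z 1 1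
        rw [one_mul, map_one, Module.End.one_apply, right_eq_add] at h2
        rw [h2] at h1
        linear_combination (norm := abel) -h1
      rw [e]
      show ρ h (ρ h⁻¹ (z.1 u (h⁻¹⁻¹ • base))) = _
      rw [← rep_mul_apply, mul_inv_cancel, map_one, Module.End.one_apply, inv_inv]
      exact congrArg (z.1 u) (by simpa using hbs h⁻¹ (inv_mem hh))
    · -- the cocycle attached to an invariant homomorphism
      haveI : Module.Finite (ZMod p) A := Module.Finite.of_finite
      choose x hx' using fun u : U => (twPair_perfect ρ).1.2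
        ({ toFun := fun w => (φ w).1 u
           map_add' := fun w w' => by simp
           map_smul' := fun a w => by simp } : Module.Dual (ZMod p) (Module.Dual (ZMod p) A))
      have hx : ∀ (u : U) (w : Module.Dual (ZMod p) A), w (x u) = (φ w).1 u := fun u w =>
        LinearMap.congr_fun (hx' u) w
      have hxadd : ∀ u v, x (u * v) = x u + x v := fun u v => heq _ _ fun w => by
        rw [map_add, hx, hx, hx, ((mem_Z1 _ _).1 (φ w).2).1 u v]
        show (cycloChar p (u : GQ) : ZMod p) * _ + _ = _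
        rw [hμ _ u.2, Units.val_one, one_mul, LinearMap.id_apply, add_comm]
      have hxconj : ∀ h ∈ preim C, ∀ u : U,
          x ⟨h * u * h⁻¹, Subgroup.Normal.conj_mem inferInstance _ u.2 h⟩ = ρ h (x u) :=
        fun h hh u => heq _ _ fun w => by
          have h1 := congrArg
            (fun ψ : homU p T U => ψ.1 ⟨h * u * h⁻¹, Subgroup.Normal.conj_mem inferInstance _ u.2 h⟩)
            (LinearMap.congr_fun (hφ h hh) w)
          simp only [hconj] at h1
          rw [hx, ← h1, show (⟨h⁻¹ * (h * u * h⁻¹) * h, _⟩ : U) = u from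
            Subtype.ext (by simp [mul_assoc]), ← hx, twDual_apply, inv_inv, ← mul_assoc,
            ← Units.val_mul, ← map_mul, mul_inv_cancel, map_one, Units.val_one, one_mul]
      haveI : Finite (Module.Dual (ZMod p) A) := finite_dual
      choose V hV hVc using fun w : Module.Dual (ZMod p) A => ((mem_Z1 _ _).1 (φ w).2).2
      choose V' hV' hVV' using fun w => hV w
      obtain ⟨W, hW, hWV⟩ := (lvlS T).exists_mem_le_forall V' fun w => ⟨V' w, hV' w, le_rfl⟩
      have hx0 : ∀ u : U, (u : GQ) ∈ W → x u = 0 := fun u hu => heq _ _ fun w => by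
        have h1 := hVc w 1 u (by rw [← hVV' w]; exact hWV w hu)
        have h2 := ((mem_Z1 _ _).1 (φ w).2).1 1 1
        rw [one_mul] at h1 h2
        rw [map_one, Module.End.one_apply, right_eq_add] at h2
        rw [map_zero, hx, h1, h2]
      let cz : GQ → (GQ ⧸ U → A) := fun g y =>
        ρ y.out (x ⟨y.out⁻¹ * g * (g⁻¹ • y).out, out_inv_mul_mem g y⟩)
      have hcz : cz ∈ Z1 (lvlS T) (funRep ρ (GQ ⧸ U)) := by
        refine (mem_Z1 _ _).2 ⟨fun g g' => funext fun y => ?_,
          W ⊓ U, (lvlS T).inf_mem W hW U hU, fun g s hs => funext fun y => ?_⟩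
        · have hg : ρ y.out = ρ g * ρ (g⁻¹ • y).out := by
            have h1 := hρ _ (out_inv_mul_mem g y)
            rw [map_mul, map_mul] at h1
            calc ρ y.out = ρ y.out * (ρ y.out⁻¹ * ρ g * ρ (g⁻¹ • y).out) := by rw [h1, mul_one]
              _ = ρ g * ρ (g⁻¹ • y).out := by
                rw [← mul_assoc, ← mul_assoc, ← map_mul, mul_inv_cancel, map_one, one_mul]
          show _ = ρ g (ρ (g⁻¹ • y).out (x _)) + ρ y.out (x _)
          rw [← Module.End.mul_apply (ρ g), ← hg, ← map_add, add_comm (x _), ← hxadd]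
          refine congrArg (ρ y.out) (congrArg x (Subtype.ext ?_))
          show y.out⁻¹ * (g * g') * ((g * g')⁻¹ • y).out = _
          simp only [Subgroup.coe_mul, mul_inv_rev, mul_smul]
          group
        · have e : (g * s)⁻¹ • y = g⁻¹ • y := by
            rw [mul_inv_rev, mul_smul, smul_coset_eq_self le_rfl (inv_mem hs.2)]
          have hconj' : (g⁻¹ • y).out⁻¹ * s * (g⁻¹ • y).out ∈ U :=
            Subgroup.Normal.conj_mem' inferInstance _ hs.2 _
          refine congrArg (ρ y.out) ?_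
          rw [show (⟨y.out⁻¹ * (g * s) * ((g * s)⁻¹ • y).out, out_inv_mul_mem _ y⟩ : U) =
              ⟨y.out⁻¹ * g * (g⁻¹ • y).out, out_inv_mul_mem g y⟩ * ⟨_, hconj'⟩ from
            Subtype.ext (by
              show y.out⁻¹ * (g * s) * ((g * s)⁻¹ • y).out = (y.out⁻¹ * g * (g⁻¹ • y).out) *
                ((g⁻¹ • y).out⁻¹ * s * (g⁻¹ • y).out)
              rw [e]; group), hxadd,
            hx0 ⟨_, hconj'⟩ ((((lvlS T).normal_of_mem W hW)).conj_mem' _ hs.1 _), add_zero]
      have hm : (Fintype.card C : ZMod p) ≠ 0 := by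
        rw [ne_eq, ZMod.natCast_eq_zero_iff, ← Nat.card_eq_fintype_card]
        exact hC
      refine ⟨(Fintype.card C : ZMod p)⁻¹ •
        ⟨_, pp1_mem_Z1 (lvlLE_id _) (equivariant_fibMap C ρ) hcz⟩,
        LinearMap.ext fun w => Subtype.ext (funext fun u => ?_)⟩
      show w ((Fintype.card C : ZMod p)⁻¹ • fibMap (p := p) C (cz u) base) = _
      rw [fibMap_apply C _ (g := 1) hbase, map_smul, ← hx]
      have e : ∀ c : C, cz u ((1 : GQ) • (c : GQ ⧸ U)) = x u := fun c => by
        rw [one_smul]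
        have h1 : (u : GQ)⁻¹ • (c : GQ ⧸ U) = c := smul_coset_eq_self le_rfl (inv_mem u.2) _
        have hc : (c : GQ ⧸ U).out ∈ preim C := by
          show ((c : GQ ⧸ U).out : GQ ⧸ U) ∈ C
          rw [QuotientGroup.out_eq']
          exact c.2
        show ρ (c : GQ ⧸ U).out (x _) = x u
        rw [show (⟨(c : GQ ⧸ U).out⁻¹ * u * ((u : GQ)⁻¹ • (c : GQ ⧸ U)).out, out_inv_mul_mem _ _⟩ : U) =
          ⟨(c : GQ ⧸ U).out⁻¹ * u * (c : GQ ⧸ U).out⁻¹⁻¹,
            Subgroup.Normal.conj_mem inferInstance _ u.2 _⟩ from Subtype.ext (by simp only [h1, inv_inv]),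
          hxconj _ (inv_mem hc) u, ← rep_mul_apply, mul_inv_cancel, map_one, Module.End.one_apply]
      rw [Finset.sum_congr rfl (fun c _ => e c), Finset.sum_const, Finset.card_univ,
        ← Nat.cast_smul_eq_nsmul (ZMod p), map_smul, smul_smul, inv_mul_cancel₀ hm, one_smul]
  have hker : LinearMap.ker Φ = (B1 J).comap (Z1 (lvlS T) J).subtype := by
    ext z
    constructor
    · intro hz
      have h0 : ∀ u ∈ U, z.1 u base = 0 := fun u hu => heq _ _ fun w => by
        rw [map_zero]
        exact congrFun (congrArg Subtype.val (LinearMap.congr_fun hz w)) ⟨u, hu⟩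
      have ht : ∀ a ∈ preim C, ∀ b, z.1 (a * b) base = ρ a (z.1 b base) + z.1 a base := fun a ha b => by
        rw [hcoc, Pi.add_apply]
        show ρ a (z.1 b (a⁻¹ • base)) + _ = _
        rw [hbs a ha]
      set S : A := ∑ c : C, z.1 (c : GQ ⧸ U).out base with hSdef
      have hm : (Fintype.card C : ZMod p) ≠ 0 := by
        rw [ne_eq, ZMod.natCast_eq_zero_iff, ← Nat.card_eq_fintype_card]
        exact hC
      refine mem_B1_funRep (cosetSection (preim C)) (fun g h => hcoc z g h) fun y =>
        ⟨-((Fintype.card C : ZMod p)⁻¹ • S), fun s hs => ?_⟩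
      have hs' : s ∈ preim C := by
        have h' : s • base = base := hs
        rw [hbase, MulAction.Quotient.smul_mk, QuotientGroup.eq] at h'
        simpa using h'
      have hS : S = ρ s S + (Fintype.card C : ZMod p) • z.1 s base := by
        conv_lhs => rw [hSdef, ← (Group.mulLeft_bijective (⟨(s : GQ ⧸ U), hs'⟩ : C)).sum_comp
          fun c : C => z.1 (c : GQ ⧸ U).out base]
        rw [hSdef, map_sum, Nat.cast_smul_eq_nsmul, ← Finset.card_univ, ← Finset.sum_const,
          ← Finset.sum_add_distrib]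
        refine Finset.sum_congr rfl fun c _ => ?_
        have hu : (s * (c : GQ ⧸ U).out)⁻¹ * ((s : GQ ⧸ U) * (c : GQ ⧸ U)).out ∈ U := by
          rw [← QuotientGroup.eq, QuotientGroup.mk_mul, QuotientGroup.out_eq',
            QuotientGroup.out_eq']
        have hc : (c : GQ ⧸ U).out ∈ preim C := by
          show ((c : GQ ⧸ U).out : GQ ⧸ U) ∈ C
          rw [QuotientGroup.out_eq']
          exact c.2
        rw [Subgroup.coe_mul, ← mul_inv_cancel_left (s * (c : GQ ⧸ U).out)
          ((s : GQ ⧸ U) * (c : GQ ⧸ U)).out, ht _ (mul_mem hs' hc), h0 _ hu, map_zero, zero_add,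
          ht _ hs']
      show z.1 s base = _
      have h3 := congrArg ((Fintype.card C : ZMod p)⁻¹ • ·) hS
      simp only [smul_add, smul_smul, inv_mul_cancel₀ hm, one_smul] at h3
      rw [map_neg, map_smul]
      linear_combination (norm := abel) -h3
    · rintro ⟨F, hF⟩
      refine LinearMap.mem_ker.2 (LinearMap.ext fun w => Subtype.ext (funext fun u => ?_))
      show w (z.1 u base) = 0
      rw [show z.1 (u : GQ) = 0 by
        rw [← show d0 J F u = z.1 u from congrFun hF u, d0_apply, hJ _ u.2, Module.End.one_apply,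
          sub_self], Pi.zero_apply, map_zero]
  rw [← hrange, ← (Φ.quotKerEquivRange).finrank_eq, hker]

/-- The Euler characteristic formula for the induced module. -/
theorem euler_funRep :
    finrank (ZMod p) (H1c (lvlS T) (funRep ρ (GQ ⧸ preim C))) =
      finrank (ZMod p) (fixedBy (funRep ρ (GQ ⧸ preim C)) ⊤) +
        finrank (ZMod p) (H2c (lvlS T) (funRep ρ (GQ ⧸ preim C))) +
        finrank (ZMod p)
          (LinearMap.ker (funRep ρ (GQ ⧸ preim C) complexConjugation + 1)) := by
  classical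
  haveI := Fintype.ofFinite C
  haveI : (preim C).FiniteIndex := Subgroup.finiteIndex_of_le (le_preim C)
  haveI := Fintype.ofFinite (GQ ⧸ preim C)
  haveI : Finite (homU p T U) := finite_homU p T U hpT hU
  have hσ : ∀ s ∈ U, twDual ρ s = 1 := twDual_eq_one hμ hρ
  have hC' : ¬ p ∣ Fintype.card C := by rwa [← Nat.card_eq_fintype_card]
  set σ := twDual ρ with hσdef
  set J' := funRep σ (GQ ⧸ preim C) with hJ'def
  have hJ' : ∀ s ∈ U, J' s = 1 := funRep_eq_one (le_preim C) hσ
  have hP := funPairing_perfect (twPair ρ) (twPair_perfect ρ) (GQ ⧸ preim C)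
  -- the additive invariant
  let f := homAddFun hC' (descSub σ hσ C)
  have hval : ∀ {M : Type} [AddCommGroup M] [Module (ZMod p) M] [Finite M]
      (τ : Representation (ZMod p) GQ M) (hτ : ∀ s ∈ U, τ s = 1),
      f.val (descSub τ hτ C) =
        (finrank (ZMod p) (fixedBy (Representation.linHom σ τ) (preim C)) : ℤ) :=
    fun τ hτ => by rw [fixedBy_linHom_eq hσ hτ C]; rfl
  have hconj : ∀ s ∈ U, conjHomU p T U s = 1 := fun s hs => LinearMap.ext fun x =>
    Subtype.ext (funext fun u => by
      have hadd := ((mem_Z1 _ _).1 x.2).1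
      refine (conjFun_apply p U s x.1 u).trans ?_
      rw [hμ s hs, Units.val_one, one_mul]
      have key : ∀ a b : U, x.1 (a * b) = x.1 b + x.1 a := fun a b => by
        rw [hadd a b]
        show (cycloChar p (a : GQ) : ZMod p) * _ + _ = _
        rw [hμ _ a.2, Units.val_one, one_mul, LinearMap.id_apply]
      rw [show (⟨s⁻¹ * u * s, _⟩ : U) = ⟨s⁻¹, inv_mem hs⟩ * (u * ⟨s, hs⟩) from
        Subtype.ext (mul_assoc _ _ _), key, key, add_comm (x.1 ⟨s, hs⟩), add_assoc, ← key,
        show (⟨s⁻¹, inv_mem hs⟩ : U) * ⟨s, hs⟩ = 1 from Subtype.ext (inv_mul_cancel s)]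
      have h1 := key 1 1
      rw [one_mul, left_eq_add] at h1
      rw [h1, add_zero]
      rfl)
  have hone : ∀ s ∈ U, Representation.trivial (ZMod p) GQ (ZMod p) s = 1 := fun _ _ => rfl
  have hmu : ∀ s ∈ U, muRep p s = 1 := fun s hs => LinearMap.ext fun a => by
    rw [charRep_apply, hμ s hs, Units.val_one, one_mul, Module.End.one_apply]
  have hperm : ∀ K : Subgroup GQ, ∀ s ∈ U,
      funRep (Representation.trivial (ZMod p) GQ (ZMod p)) (GQ ⧸ (U ⊔ K)) s = 1 := fun K =>
    funRep_eq_one le_sup_left fun _ _ => rfl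
  haveI : ∀ K : Subgroup GQ, (U ⊔ K).FiniteIndex := fun K =>
    Subgroup.finiteIndex_of_le le_sup_left
  have vperm : ∀ K : Subgroup GQ, f.val (descSub _ (hperm K) C) =
      (finrank (ZMod p) (fixedBy J' K) : ℤ) := fun K => by
    rw [hval _ (hperm K), finrank_fixedBy_linHom_perm hC σ (funRep_eq_one le_sup_left hσ),
      finrank_fixedBy_swap σ (preim C) (U ⊔ K), fixedBy_sup hJ']
  have vone : f.val (descSub _ hone C) = (finrank (ZMod p) (fixedBy σ (preim C)) : ℤ) := by
    rw [hval _ hone, show Representation.linHom σ (Representation.trivial (ZMod p) GQ (ZMod p)) =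
      σ.dual from MonoidHom.ext fun g => LinearMap.ext fun φ => rfl,
      finrank_fixedBy_dual hC σ hσ]
  have vmu : f.val (descSub _ hmu C) = (finrank (ZMod p) (fixedBy ρ (preim C)) : ℤ) := by
    rw [hval _ hmu, show Representation.linHom σ (muRep p) = twDual σ from
      MonoidHom.ext fun g => LinearMap.ext fun φ => LinearMap.ext fun v => rfl]
    exact congrArg Nat.cast (finrank_fixedBy_twDual (twPair ρ).flip
      ⟨(twPair_perfect ρ).2, (twPair_perfect ρ).1⟩ (MonoidHom.id GQ) (preim C))
  obtain ⟨M, _, _, _, τ, hτ, hτv⟩ : ∃ (M : Type) (_ : AddCommGroup M) (_ : Module (ZMod p) M)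
      (_ : Finite M) (τ : Representation (ZMod p) C M),
      (∀ (g : GQ) (hg : (g : GQ ⧸ U) ∈ C),
        (τ ⟨_, hg⟩).charpoly = ∏ q ∈ T, cosetCharpoly p U (loc q).range g) ∧
      f.val τ = ∑ q ∈ T, (finrank (ZMod p) (fixedBy J' (loc q).range) : ℤ) := by
    have key : ∀ s : Finset Nat.Primes, ∃ (M : Type) (_ : AddCommGroup M) (_ : Module (ZMod p) M)
        (_ : Finite M) (τ : Representation (ZMod p) C M),
        (∀ (g : GQ) (hg : (g : GQ ⧸ U) ∈ C),
          (τ ⟨_, hg⟩).charpoly = ∏ q ∈ s, cosetCharpoly p U (loc q).range g) ∧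
        f.val τ = ∑ q ∈ s, (finrank (ZMod p) (fixedBy J' (loc q).range) : ℤ) := fun s => by
      induction s using Finset.induction with
      | empty =>
        refine ⟨Fin 0 → ZMod p, inferInstance, inferInstance, inferInstance, 1,
          fun g hg => ?_, ?_⟩
        · have := LinearMap.charpoly_natDegree ((1 : Representation (ZMod p) C (Fin 0 → ZMod p)) ⟨_, hg⟩)
          rw [Module.finrank_zero_of_subsingleton] at this
          rw [Finset.prod_empty]
          exact Polynomial.eq_one_of_monic_natDegree_zero (LinearMap.charpoly_monic _) this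
        · rw [Finset.sum_empty]
          exact f.val_of_subsingleton _
      | insert q s hq ih =>
        obtain ⟨M, _, _, _, τ, hτ, hτv⟩ := ih
        refine ⟨(GQ ⧸ (U ⊔ (loc q).range) → ZMod p) × M, inferInstance, inferInstance, inferInstance,
          (descSub _ (hperm (loc q).range) C).prod τ, fun g hg => ?_, ?_⟩
        · rw [Finset.prod_insert hq, ← hτ g hg]
          exact LinearMap.charpoly_prodMap _ _
        · rw [Finset.sum_insert hq, f.val_prod, vperm, hτv]
    exact key T
  have hscal : ∀ a : ZMod p, (a • (LinearMap.id : ZMod p →ₗ[ZMod p] ZMod p)).charpoly =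
      Polynomial.X - Polynomial.C a := fun a => by
    rw [← LinearMap.charpoly_toMatrix _ (Basis.singleton (Fin 1) (ZMod p)), Matrix.charpoly,
      Matrix.det_fin_one]
    simp [LinearMap.toMatrix_apply, Basis.toMatrix_apply]
  have key := f.eq_of_charpoly_eq ((descSub _ hconj C).prod (descSub _ hone C))
    ((descSub _ hmu C).prod ((descSub _ (hperm (Subgroup.zpowers complexConjugation)) C).prod τ))
    fun c => by
      obtain ⟨c, hc⟩ := c
      obtain ⟨g, rfl⟩ := QuotientGroup.mk'_surjective U c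
      show ((conjHomU p T U g).prodMap (Representation.trivial (ZMod p) GQ (ZMod p) g)).charpoly =
        ((muRep p g).prodMap
          ((funRep (Representation.trivial (ZMod p) GQ (ZMod p))
            (GQ ⧸ (U ⊔ Subgroup.zpowers complexConjugation)) g).prodMap (τ ⟨_, hc⟩))).charpoly
      rw [LinearMap.charpoly_prodMap, LinearMap.charpoly_prodMap, LinearMap.charpoly_prodMap,
        show Representation.trivial (ZMod p) GQ (ZMod p) g = (1 : ZMod p) • LinearMap.id by
          rw [one_smul]; rfl,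
        show muRep p g = (cycloChar p g : ZMod p) • LinearMap.id from rfl, hscal, hscal, map_one,
        charpoly_conjHomU p T U hp hpT hU hμ hT g, mul_assoc]
      exact congrArg (_ * ·) (congrArg (_ * ·) (hτ g hc).symm)
  rw [f.val_prod, f.val_prod, f.val_prod, hval _ hconj, vone, vmu, vperm, hτv] at key
  rw [finrank_H1_funRep hU hμ hρ hC, finrank_fixedBy_funRep_top ρ (preim C),
    finrank_ker_add_one ((twPair ρ).funPairing (GQ ⧸ preim C)) hP
      (cycloChar_conj p)]
  have h2 := finrank_H2S hp hpT hU hμ (funRep_eq_one (le_preim C) hρ)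
  rw [shaTwo_funRep_preim hp hpT hU hμ hT hρ hC, finrank_bot, zero_add] at h2
  have e1 : finrank (ZMod p) (fixedBy (twDual (funRep ρ (GQ ⧸ preim C))) ⊤) =
      finrank (ZMod p) (fixedBy σ (preim C)) :=
    (finrank_fixedBy_twDual ((twPair ρ).funPairing (GQ ⧸ preim C)) hP (MonoidHom.id GQ) ⊤).trans
      (finrank_fixedBy_funRep_top σ (preim C))
  have e2 : ∀ q, finrank (ZMod p) (fixedBy ((twDual (funRep ρ (GQ ⧸ preim C))).comp (loc q)) ⊤) =
      finrank (ZMod p) (fixedBy J' (loc q).range) := fun q => by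
    rw [finrank_fixedBy_twDual ((twPair ρ).funPairing (GQ ⧸ preim C)) hP (loc q) ⊤,
      fixedBy_comp_top]
  rw [e1, Finset.sum_congr rfl (fun q _ => e2 q)] at h2
  rw [← Nat.cast_sum] at key
  have u1 : finrank (ZMod p)
        (fixedBy (funRep (twDual ρ) (GQ ⧸ preim C)) (Subgroup.zpowers complexConjugation)) =
      finrank (ZMod p) (fixedBy J' (Subgroup.zpowers complexConjugation)) := rfl
  have u2 : finrank (ZMod p)
        (fixedBy (Representation.linHom (twDual ρ) (conjHomU p T U)) (preim C)) =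
      finrank (ZMod p) (fixedBy (Representation.linHom σ (conjHomU p T U)) (preim C)) := rfl
  omega

end FLTA.TW

end
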