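import Mathlib

/-!
# Additive invariants of finite modules over an algebra over a finite field are determined by
characteristic polynomials (Brauer–Nesbitt)
-/

set_option autoImplicit false
set_option linter.unusedSectionVars false
set_option linter.style.haveILetI false

open Polynomial Module

noncomputable section

namespace FLTA.TW.Euler

variable (k : Type) [Field k] [Finite k] (R : Type) [Ring R] [Algebra k R]

/-- An additive invariant of finite modules. -/
structure AddInvariant where
  val : ∀ (V : Type) [AddCommGroup V] [Module R V], ℤ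
  add : ∀ {A B C : Type} [AddCommGroup A] [AddCommGroup B] [AddCommGroup C] [Module R A]
    [Module R B] [Module R C] [Finite B] (f : A →ₗ[R] B) (g : B →ₗ[R] C),
    Function.Injective f → Function.Surjective g → Function.Exact f g → val B = val A + val C

variable {k R}

theorem AddInvariant.val_of_subsingleton (d : AddInvariant R) (V : Type) [AddCommGroup V]
    [Module R V] [Subsingleton V] : d.val V = 0 := by
  have h := d.add (LinearMap.id : V →ₗ[R] V) (LinearMap.id : V →ₗ[R] V) (fun _ _ h => h)
    (fun x => ⟨x, rfl⟩) (fun x => ⟨fun _ => ⟨x, rfl⟩, fun _ => Subsingleton.elim _ _⟩)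
  omega

theorem AddInvariant.val_congr (d : AddInvariant R) {V W : Type} [AddCommGroup V] [AddCommGroup W]
    [Module R V] [Module R W] [Finite W] (e : V ≃ₗ[R] W) : d.val V = d.val W := by
  have h := d.add e.toLinearMap (0 : W →ₗ[R] (⊥ : Submodule R W)) e.injective
    (fun x => ⟨0, Subsingleton.elim _ _⟩) (fun x => ⟨fun _ => e.surjective x, fun _ => rfl⟩)
  rw [d.val_of_subsingleton (⊥ : Submodule R W), add_zero] at h
  exact h.symm

section actions

variable (k) (V : Type) [AddCommGroup V] [Module k V] [Module R V] [IsScalarTower k R V]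

/-- The action of an element as a linear map. -/
def actLM (a : R) : V →ₗ[k] V where
  toFun v := a • v
  map_add' := smul_add a
  map_smul' c v := by
    show a • (c • v) = c • (a • v)
    rw [← IsScalarTower.algebraMap_smul R c v, ← IsScalarTower.algebraMap_smul R c (a • v),
      smul_smul, smul_smul, Algebra.commutes]

@[simp] theorem actLM_apply (a : R) (v : V) : actLM k V a v = a • v := rfl

/-- Characteristic polynomial of the action of an element. -/
def cpoly (a : R) [Finite V] : k[X] := (actLM k V a).charpoly

/-- Trace of the action. -/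
def actTrace : R →ₗ[k] k where
  toFun a := LinearMap.trace k V (actLM k V a)
  map_add' a b := by
    rw [← map_add]; congr 1; ext v; simp [add_smul]
  map_smul' c a := by
    rw [RingHom.id_apply, ← map_smul]; congr 1; ext v; simp

variable [Finite V]

theorem actTrace_eq (a : R) : actTrace k V a = -(cpoly k V a).nextCoeff := by
  show LinearMap.trace k V (actLM k V a) = _
  rw [cpoly, LinearMap.charpoly_def, LinearMap.trace_eq_matrix_trace k (Module.Free.chooseBasis k V)]
  rw [Matrix.trace_eq_neg_charpoly_nextCoeff]

end actions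

section simples

/-- Maximal left ideals with finite quotient. -/
abbrev SimpleIdx (R : Type) [Ring R] : Type :=
  {I : Submodule R R // IsSimpleModule R (R ⧸ I) ∧ Finite (R ⧸ I)}

instance simpleIdxSetoid (R : Type) [Ring R] : Setoid (SimpleIdx R) where
  r I J := Nonempty ((R ⧸ I.1) ≃ₗ[R] (R ⧸ J.1))
  iseqv := ⟨fun _ => ⟨LinearEquiv.refl R _⟩, fun ⟨e⟩ => ⟨e.symm⟩, fun ⟨e⟩ ⟨f⟩ => ⟨e.trans f⟩⟩

/-- Isomorphism classes of finite simple modules. -/
abbrev SimpleCls (R : Type) [Ring R] : Type := Quotient (simpleIdxSetoid R)

/-- A module in a class. -/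
abbrev SimpleCls.Mod (c : SimpleCls R) : Type := R ⧸ (Quotient.out c).1

instance (c : SimpleCls R) : IsSimpleModule R c.Mod := (Quotient.out c).2.1

instance (c : SimpleCls R) : Finite c.Mod := (Quotient.out c).2.2

theorem exists_cls (S : Type) [AddCommGroup S] [Module R S] [Finite S] [IsSimpleModule R S] :
    ∃ c : SimpleCls R, Nonempty (S ≃ₗ[R] c.Mod) := by
  haveI := IsSimpleModule.nontrivial R S
  obtain ⟨m, hm⟩ := exists_ne (0 : S)
  have hsurj := IsSimpleModule.toSpanSingleton_surjective R hm
  let e := LinearMap.quotKerEquivOfSurjective _ hsurj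
  haveI hsimp := IsSimpleModule.congr e
  haveI : Finite (R ⧸ LinearMap.ker (LinearMap.toSpanSingleton R S m)) :=
    Finite.of_equiv _ e.symm.toEquiv
  let I : SimpleIdx R := ⟨_, hsimp, inferInstance⟩
  obtain ⟨f⟩ : Nonempty ((R ⧸ (Quotient.out (⟦I⟧ : SimpleCls R)).1) ≃ₗ[R] (R ⧸ I.1)) :=
    Quotient.mk_out I
  exact ⟨⟦I⟧, ⟨e.symm.trans f.symm⟩⟩

theorem cls_eq_of_ne_zero {c c' : SimpleCls R} (f : c.Mod →ₗ[R] c'.Mod) (hf : f ≠ 0) : c = c' := by
  have hb := LinearMap.bijective_of_ne_zero hf
  have h : (Quotient.out c) ≈ (Quotient.out c') := ⟨LinearEquiv.ofBijective f hb⟩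
  exact Quotient.out_equiv_out.1 h

end simples

section factors

variable (k)

theorem charpoly_eq_mul_of_invariant {K V : Type} [Field K] [AddCommGroup V] [Module K V]
    [FiniteDimensional K V] (W : Submodule K V) (e : V →ₗ[K] V) (he : W ≤ W.comap e) :
    e.charpoly = (e.restrict he).charpoly * (W.mapQ W e he).charpoly := by
  classical
  let bW := Module.Free.chooseBasis K W
  let bQ := Module.Free.chooseBasis K (V ⧸ W)
  let b := Module.Basis.sumQuot bW bQ
  suffices h : LinearMap.toMatrix b b e = Matrix.fromBlocks (LinearMap.toMatrix bW bW (e.restrict he))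
      (Matrix.of fun i l => (b.repr (e (b (Sum.inr l)))) (Sum.inl i)) 0
      (LinearMap.toMatrix bQ bQ (W.mapQ W e he)) by
    rw [← LinearMap.charpoly_toMatrix e b, h, Matrix.charpoly_fromBlocks_zero₂₁,
      LinearMap.charpoly_toMatrix, LinearMap.charpoly_toMatrix]
  ext u v
  cases u with
  | inl i =>
    cases v with
    | inl k =>
      simp only [b, Module.Basis.sumQuot_inl, Matrix.fromBlocks_apply₁₁, LinearMap.toMatrix_apply]
      apply Module.Basis.sumQuot_repr_inl_of_mem
    | inr l => simp [b, LinearMap.toMatrix_apply, Matrix.fromBlocks_apply₁₂]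
  | inr j =>
    cases v with
    | inl k =>
      suffices W.mkQ (e (bW k)) = 0 by simp [LinearMap.toMatrix_apply, b, this]
      rw [← LinearMap.mem_ker, Submodule.ker_mkQ]
      exact he (Submodule.coe_mem (bW k))
    | inr l =>
      simp only [LinearMap.toMatrix_apply, Module.Basis.sumQuot_repr_inr,
        Matrix.fromBlocks_apply₂₂, b]
      rw [← Module.Basis.sumQuot_inr bW bQ l, W.mapQ_apply]
      simp

theorem cpoly_eq_mul {A B C : Type} [AddCommGroup A] [AddCommGroup B] [AddCommGroup C]
    [Module k A] [Module k B] [Module k C] [Module R A] [Module R B] [Module R C]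
    [IsScalarTower k R A] [IsScalarTower k R B] [IsScalarTower k R C]
    [Finite A] [Finite B] [Finite C] (f : A →ₗ[R] B) (g : B →ₗ[R] C)
    (hf : Function.Injective f) (hg : Function.Surjective g) (hfg : Function.Exact f g) (a : R) :
    cpoly k B a = cpoly k A a * cpoly k C a := by
  let fk : A →ₗ[k] B := f.restrictScalars k
  let gk : B →ₗ[k] C := g.restrictScalars k
  let N : Submodule k B := LinearMap.range fk
  have hN : ∀ x ∈ N, actLM k B a x ∈ N := by
    rintro _ ⟨y, rfl⟩
    exact ⟨a • y, f.map_smul a y⟩
  have hle : N ≤ N.comap (actLM k B a) := hN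
  have hker : LinearMap.ker gk = N := by
    ext x
    exact hfg x
  have e1 : ((actLM k B a).restrict hN).charpoly = cpoly k A a := by
    let e : A ≃ₗ[k] N := LinearEquiv.ofInjective fk hf
    have he : e.conj (actLM k A a) = (actLM k B a).restrict hN := by
      refine LinearMap.ext fun x => ?_
      obtain ⟨y, rfl⟩ := e.surjective x
      apply Subtype.ext
      simp only [LinearEquiv.conj_apply, LinearMap.comp_apply, LinearEquiv.coe_coe,
        LinearEquiv.symm_apply_apply]
      exact f.map_smul a y
    rw [← he, LinearEquiv.charpoly_conj]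
    rfl
  have e2 : (Submodule.mapQ N N (actLM k B a) hle).charpoly = cpoly k C a := by
    let e : (B ⧸ N) ≃ₗ[k] C :=
      (Submodule.quotEquivOfEq _ _ hker.symm).trans (gk.quotKerEquivOfSurjective hg)
    have he : e.conj (Submodule.mapQ N N (actLM k B a) hle) = actLM k C a := by
      refine LinearMap.ext fun x => ?_
      obtain ⟨y, rfl⟩ := e.surjective x
      induction y using Submodule.Quotient.induction_on with | H z => ?_
      simp only [LinearEquiv.conj_apply, LinearMap.comp_apply, LinearEquiv.coe_coe,
        LinearEquiv.symm_apply_apply]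
      exact g.map_smul a z
    rw [cpoly, ← he, LinearEquiv.charpoly_conj]
  rw [← e1, ← e2]
  exact charpoly_eq_mul_of_invariant N (actLM k B a) hle

/-- Composition factors. -/
theorem exists_factors (d : AddInvariant R) (V : Type) [AddCommGroup V] [Module k V] [Module R V]
    [IsScalarTower k R V] [Finite V] :
    ∃ m : Multiset (SimpleCls R), d.val V = (m.map fun c => d.val c.Mod).sum ∧
      ∀ a : R, cpoly k V a = (m.map fun c => cpoly k c.Mod a).prod := by
  obtain ⟨n, hn⟩ : ∃ n, Nat.card V = n := ⟨_, rfl⟩
  induction n using Nat.strong_induction_on generalizing V with | _ n ih => ?_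
  rcases subsingleton_or_nontrivial V with hV | hV
  · refine ⟨0, by simp [d.val_of_subsingleton V], fun a => ?_⟩
    simp only [Multiset.map_zero, Multiset.prod_zero, cpoly]
    have hz : (actLM k V a) = 0 := LinearMap.ext fun x => Subsingleton.elim _ _
    rw [hz, LinearMap.charpoly_zero, Module.finrank_zero_of_subsingleton, pow_zero]
  obtain ⟨S, hS, -⟩ := (eq_bot_or_exists_atom_le (⊤ : Submodule R V)).resolve_left (top_ne_bot)
  haveI : IsSimpleModule R S := isSimpleModule_iff_isAtom.2 hS
  obtain ⟨c, ⟨e⟩⟩ := exists_cls (R := R) S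
  haveI : Finite (V ⧸ S) := Finite.of_surjective _ S.mkQ_surjective
  have hlt : Nat.card (V ⧸ S) < n := by
    rw [← hn, S.card_eq_card_quotient_mul_card]
    haveI : Nontrivial S := IsSimpleModule.nontrivial R S
    exact lt_mul_of_one_lt_left (Nat.card_pos (α := V ⧸ S)) (Finite.one_lt_card (α := S))
  obtain ⟨m, hm1, hm2⟩ := ih _ hlt (V ⧸ S) rfl
  refine ⟨c ::ₘ m, ?_, fun a => ?_⟩
  · rw [Multiset.map_cons, Multiset.sum_cons, ← hm1, ← d.val_congr e]
    exact d.add S.subtype S.mkQ S.injective_subtype S.mkQ_surjective (LinearMap.exact_subtype_mkQ S)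
  · rw [Multiset.map_cons, Multiset.prod_cons, ← hm2]
    have h := cpoly_eq_mul k (S.subtype.comp e.symm.toLinearMap) S.mkQ
      (S.injective_subtype.comp e.symm.injective) S.mkQ_surjective ?_ a
    · exact h
    intro x
    rw [LinearMap.exact_subtype_mkQ S x]
    exact ⟨fun ⟨y, hy⟩ => ⟨e y, by rw [LinearMap.comp_apply]; simpa using hy⟩,
      fun ⟨y, hy⟩ => ⟨e.symm y, hy⟩⟩

/-- Traces separate finitely many simple classes. -/
theorem exists_trace_eq_ite (s : Finset (SimpleCls R)) (c₀ : SimpleCls R) (hc₀ : c₀ ∈ s)
    [DecidableEq (SimpleCls R)] :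
    ∃ a : R, ∀ c ∈ s, actTrace k c.Mod a = if c = c₀ then 1 else 0 := by
  classical
  let i₀ : s := ⟨c₀, hc₀⟩
  set E := Module.End R c₀.Mod
  letI : DivisionRing E := inferInstance
  haveI : Finite E := Finite.of_injective _ DFunLike.coe_injective
  letI : Field E := { (inferInstance : DivisionRing E) with
    mul_comm := (littleWedderburn E).mul_comm }
  haveI := IsSimpleModule.nontrivial R c₀.Mod
  obtain ⟨e, he⟩ := exists_ne (0 : c₀.Mod)
  -- a linear functional over `E` with value one at `e`
  obtain ⟨φ, hφ⟩ : ∃ φ : c₀.Mod →ₗ[E] E, φ e = 1 := by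
    obtain ⟨φ, hφ⟩ := LinearMap.exists_leftInverse_of_injective
      (LinearMap.toSpanSingleton E c₀.Mod e)
      (LinearMap.ker_eq_bot.2 (smul_left_injective E he))
    exact ⟨φ, by simpa using LinearMap.congr_fun hφ 1⟩
  haveI : FiniteDimensional k E := Module.Finite.of_finite
  haveI : Algebra.IsSeparable k E := inferInstance
  obtain ⟨c, hc⟩ := Algebra.trace_surjective k E 1
  let g : c₀.Mod →ₗ[E] c₀.Mod := φ.smulRight (c • e : c₀.Mod)
  -- extended by zero to the sum of the classes
  let M := ∀ i : s, (i : SimpleCls R).Mod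
  have hcomm : ∀ (u : Module.End R M) (x : M) (i : s),
      u x i = u (Pi.single i (x i)) i := by
    intro u x i
    conv_lhs => rw [← Finset.univ_sum_single x]
    rw [map_sum, Finset.sum_apply]
    refine Finset.sum_eq_single i (fun j _ hj => ?_) (fun h => absurd (Finset.mem_univ i) h)
    by_contra h
    refine hj (Subtype.ext (cls_eq_of_ne_zero
      ((LinearMap.proj i).comp (u.comp (LinearMap.single R _ j))) fun h0 => h ?_))
    exact LinearMap.congr_fun h0 (x j)
  let f : Module.End (Module.End R M) M :=
    { toFun := fun x => Pi.single i₀ (g (x i₀))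
      map_add' := fun x y => by rw [Pi.add_apply, map_add, Pi.single_add]
      map_smul' := fun u x => by
        show Pi.single i₀ (g ((u x) i₀)) = u (Pi.single i₀ (g (x i₀)))
        funext i
        rw [hcomm u (Pi.single i₀ (g (x i₀))) i]
        by_cases hi : i = i₀
        · subst hi
          rw [Pi.single_eq_same, Pi.single_eq_same, hcomm u x i₀]
          exact g.map_smul ((LinearMap.proj i₀).comp (u.comp (LinearMap.single R _ i₀))) (x i₀)
        · rw [Pi.single_eq_of_ne hi, Pi.single_eq_of_ne hi]
          rw [show (Pi.single i 0 : M) = 0 from Pi.single_zero i, map_zero]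
          rfl }
  haveI : Fintype M := Fintype.ofFinite M
  obtain ⟨a, ha⟩ := jacobson_density f Finset.univ
  refine ⟨a, fun c' hc' => ?_⟩
  have hact : ∀ y : c'.Mod,
      (Pi.single i₀ (g ((Pi.single (⟨c', hc'⟩ : s) y : M) i₀)) : M) ⟨c', hc'⟩ = a • y := fun y => by
    have := congrFun (ha (Pi.single ⟨c', hc'⟩ y) (Finset.mem_univ _)) ⟨c', hc'⟩
    rw [Pi.smul_apply, Pi.single_eq_same] at this
    exact this
  split_ifs with h
  · subst h
    have hag : actLM k c'.Mod a = g.restrictScalars k := LinearMap.ext fun y => by
      have := hact y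
      rw [Pi.single_eq_same, Pi.single_eq_same] at this
      exact this.symm
    show LinearMap.trace k c'.Mod (actLM k c'.Mod a) = 1
    rw [hag]
    have hgd : g.restrictScalars k =
        ((LinearMap.toSpanSingleton E c'.Mod e).restrictScalars k).comp
          ((Algebra.lmul k E c).comp (φ.restrictScalars k)) := LinearMap.ext fun y => by
      show φ y • (c • e) = (c * φ y) • e
      rw [smul_smul, mul_comm]
    rw [hgd, LinearMap.trace_comp_comm', LinearMap.comp_assoc,
      show (φ.restrictScalars k).comp ((LinearMap.toSpanSingleton E c'.Mod e).restrictScalars k) =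
        LinearMap.id from LinearMap.ext fun x => by simp [hφ], LinearMap.comp_id, ← hc]
    rfl
  · show LinearMap.trace k c'.Mod (actLM k c'.Mod a) = 0
    have h0 : actLM k c'.Mod a = 0 := LinearMap.ext fun y => by
      rw [actLM_apply, ← hact y, Pi.single_eq_of_ne (fun h' => h (congrArg Subtype.val h'))]
      rfl
    rw [h0, map_zero]

variable (p : ℕ) [Fact p.Prime] [CharP k p]
include p

/-- Multisets of classes with equal characteristic polynomials are equal. -/
theorem factors_unique (G : Set R) (hG : Submodule.span k G = ⊤) (m m' : Multiset (SimpleCls R))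
    (h : ∀ a ∈ G, (m.map fun c => cpoly k c.Mod a).prod = (m'.map fun c => cpoly k c.Mod a).prod) :
    m = m' := by
  classical
  obtain ⟨n, hn⟩ : ∃ n, Multiset.card m + Multiset.card m' = n := ⟨_, rfl⟩
  induction n using Nat.strong_induction_on generalizing m m' with | _ n ih => ?_
  have hmonic : ∀ (l : Multiset (SimpleCls R)) (a : R),
      (l.map fun c => cpoly k c.Mod a).prod ≠ 0 := fun l a =>
    (monic_multiset_prod_of_monic l _ fun c _ => LinearMap.charpoly_monic _).ne_zero
  -- a common class cancels
  by_cases hcom : ∃ c, c ∈ m ∧ c ∈ m'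
  · obtain ⟨c, hc, hc'⟩ := hcom
    obtain ⟨t, rfl⟩ := Multiset.exists_cons_of_mem hc
    obtain ⟨t', rfl⟩ := Multiset.exists_cons_of_mem hc'
    rw [Multiset.card_cons, Multiset.card_cons] at hn
    rw [ih (Multiset.card t + Multiset.card t') (by omega) t t' (fun a ha => ?_) rfl]
    have h1 := h a ha
    simp only [Multiset.map_cons, Multiset.prod_cons] at h1
    exact mul_left_cancel₀ (LinearMap.charpoly_monic _).ne_zero h1
  push Not at hcom
  -- all multiplicities are divisible by `p`
  have htr : ∀ a : R, (m.map fun c => actTrace k c.Mod a).sum =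
      (m'.map fun c => actTrace k c.Mod a).sum := by
    intro a
    have hsum : ∀ l : Multiset (SimpleCls R),
        (l.map fun c => actTrace k c.Mod a).sum =
          ((l.map fun c => actTrace k c.Mod).sum : R →ₗ[k] k) a := fun l => by
      induction l using Multiset.induction with
      | empty => simp
      | cons c l ih => simp [ih]
    rw [hsum, hsum]
    refine LinearMap.congr_fun (LinearMap.ext_on hG fun b hb => ?_) a
    have hb' := congrArg Polynomial.nextCoeff (h b hb)
    rw [Monic.nextCoeff_multiset_prod m (fun c => cpoly k c.Mod b) (fun c _ => LinearMap.charpoly_monic _),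
      Monic.nextCoeff_multiset_prod m' (fun c => cpoly k c.Mod b) (fun c _ => LinearMap.charpoly_monic _)] at hb'
    have hneg : ∀ l : Multiset (SimpleCls R),
        ((l.map fun c => actTrace k c.Mod).sum : R →ₗ[k] k) b =
          -(l.map fun c => (cpoly k c.Mod b).nextCoeff).sum := fun l => by
      induction l using Multiset.induction with
      | empty => simp
      | cons c l ih => simp [ih, actTrace_eq, add_comm]
    rw [hneg, hneg, hb']
  have hdvd : ∀ l l' : Multiset (SimpleCls R),
      (∀ a : R, (l.map fun c => actTrace k c.Mod a).sum = (l'.map fun c => actTrace k c.Mod a).sum) →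
      (∀ c ∈ l, c ∉ l') → ∀ c ∈ l, p ∣ l.count c := by
    intro l l' htr hdis c hc
    obtain ⟨a, ha⟩ := exists_trace_eq_ite k (l.toFinset ∪ l'.toFinset) c (by simp [hc])
    have hval : ∀ t : Multiset (SimpleCls R), (∀ x ∈ t, x ∈ l.toFinset ∪ l'.toFinset) →
        (t.map fun x => actTrace k x.Mod a).sum = (t.count c : k) := by
      intro t ht
      induction t using Multiset.induction with
      | empty => simp
      | cons x t iht =>
        rw [Multiset.map_cons, Multiset.sum_cons, iht fun y hy => ht y (Multiset.mem_cons_of_mem hy),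
          ha x (ht x (Multiset.mem_cons_self x t)), Multiset.count_cons]
        by_cases hx : x = c
        · subst hx; simp [add_comm]
        · simp [hx, Ne.symm hx]
    have h1 := htr a
    rw [hval l (fun x hx => by simp [hx]), hval l' (fun x hx => by simp [hx]),
      Multiset.count_eq_zero_of_notMem (hdis c hc), Nat.cast_zero] at h1
    exact (CharP.cast_eq_zero_iff k p _).1 h1
  have hroot : ∀ l : Multiset (SimpleCls R), (∀ c ∈ l, p ∣ l.count c) → ∃ t, l = p • t := by
    intro l hl
    exact Multiset.exists_smul_of_dvd_count l hl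
  obtain ⟨t, rfl⟩ := hroot m (hdvd m m' htr hcom)
  obtain ⟨t', rfl⟩ := hroot m' (hdvd m' (p • t) (fun a => (htr a).symm) fun c hc hc' => hcom c hc' hc)
  rw [Multiset.card_nsmul, Multiset.card_nsmul] at hn
  by_cases h0 : Multiset.card t + Multiset.card t' = 0
  · obtain rfl : t = 0 := Multiset.card_eq_zero.1 (by omega)
    obtain rfl : t' = 0 := Multiset.card_eq_zero.1 (by omega)
    rfl
  congr 1
  refine ih (Multiset.card t + Multiset.card t') ?_ t t' (fun a ha => ?_) rfl
  · have hp := (Fact.out : p.Prime).two_le
    have := Nat.mul_le_mul_right (Multiset.card t + Multiset.card t') hp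
    rw [mul_add p] at this
    omega
  · have h1 := h a ha
    rw [Multiset.map_nsmul, Multiset.map_nsmul, Multiset.prod_nsmul, Multiset.prod_nsmul] at h1
    haveI : CharP k[X] p := inferInstance
    exact frobenius_inj k[X] p h1

/-- Brauer–Nesbitt for additive invariants. -/
theorem AddInvariant.val_eq_of_cpoly_eq (d : AddInvariant R) (G : Set R)
    (hG : Submodule.span k G = ⊤) (V W : Type) [AddCommGroup V] [AddCommGroup W] [Module k V]
    [Module k W] [Module R V] [Module R W] [IsScalarTower k R V] [IsScalarTower k R W] [Finite V]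
    [Finite W] (h : ∀ a ∈ G, cpoly k V a = cpoly k W a) : d.val V = d.val W := by
  obtain ⟨m, hm, hm'⟩ := exists_factors k d V
  obtain ⟨n, hn, hn'⟩ := exists_factors k d W
  rw [hm, hn, factors_unique k p G hG m n fun a ha => by rw [← hm', ← hn']; exact h a ha]

end factors

end FLTA.TW.Euler

end
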