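import Mathlib

/-!
# Actions of cyclic groups, products of coset spaces, an identity of counting functions
-/

set_option autoImplicit false
set_option linter.unusedSectionVars false
set_option linter.style.haveILetI false

open scoped Pointwise

noncomputable section

namespace FLTA.TW.Euler

section bijection

variable {H : Type} [Group H] [Finite H] [IsCyclic H]
variable {α β : Type} [MulAction H α] [MulAction H β] [Nonempty β]

theorem smulMemOrbit {γ : Type} [MulAction H γ] (g : H) {a z : γ} :
    g • a ∈ MulAction.orbit H z ↔ a ∈ MulAction.orbit H z := by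
  rw [← MulAction.orbit_eq_iff, MulAction.orbit_smul, MulAction.orbit_eq_iff]

/-- Finite invariant sets on which all elements of a cyclic group have equally many fixed points
are equivariantly in bijection. -/
theorem exists_bijOn_of_fixed_eq [DecidableEq α] [DecidableEq β] (s : Finset α) :
    ∀ t : Finset β, (∀ h : H, ∀ a ∈ s, h • a ∈ s) → (∀ h : H, ∀ b ∈ t, h • b ∈ t) →
      (∀ h : H, (s.filter fun a => h • a = a).card = (t.filter fun b => h • b = b).card) →
      ∃ f : α → β, Set.BijOn f s t ∧ ∀ h : H, ∀ a ∈ s, f (h • a) = h • f a := by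
  classical
  obtain ⟨n, hn⟩ : ∃ n, s.card = n := ⟨_, rfl⟩
  induction n using Nat.strong_induction_on generalizing s with | _ n ih => ?_
  intro t hs ht hfix
  rcases s.eq_empty_or_nonempty with rfl | hne
  · have h1 := hfix 1
    simp only [one_smul, Finset.filter_true, Finset.card_empty] at h1
    obtain rfl : t = ∅ := Finset.card_eq_zero.1 h1.symm
    exact ⟨fun _ => Classical.arbitrary β, by simp [Set.BijOn], by simp⟩
  obtain ⟨x, hx, hmax⟩ := s.exists_max_image
    (fun a => Nat.card (MulAction.stabilizer H a)) hne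
  obtain ⟨y, hy, hstab⟩ : ∃ y ∈ t, MulAction.stabilizer H y = MulAction.stabilizer H x := by
    obtain ⟨h, hh⟩ := (MulAction.stabilizer H x).isCyclic_iff_exists_zpowers_eq_top.1 inferInstance
    have hfx : h • x = x :=
      MulAction.mem_stabilizer_iff.1 (hh ▸ Subgroup.mem_zpowers h)
    have hpos : 0 < (t.filter fun b => h • b = b).card := by
      rw [← hfix h]
      exact Finset.card_pos.2 ⟨x, Finset.mem_filter.2 ⟨hx, hfx⟩⟩
    obtain ⟨y, hy⟩ := Finset.card_pos.1 hpos
    rw [Finset.mem_filter] at hy
    have hle : MulAction.stabilizer H x ≤ MulAction.stabilizer H y := by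
      rw [← hh]
      exact Subgroup.zpowers_le.2 (MulAction.mem_stabilizer_iff.2 hy.2)
    refine ⟨y, hy.1, ?_⟩
    obtain ⟨k, hk⟩ := (MulAction.stabilizer H y).isCyclic_iff_exists_zpowers_eq_top.1 inferInstance
    have hky : k • y = y :=
      MulAction.mem_stabilizer_iff.1 (hk ▸ Subgroup.mem_zpowers k)
    have hpos' : 0 < (s.filter fun a => k • a = a).card := by
      rw [hfix k]
      exact Finset.card_pos.2 ⟨y, Finset.mem_filter.2 ⟨hy.1, hky⟩⟩
    obtain ⟨z, hz⟩ := Finset.card_pos.1 hpos'
    rw [Finset.mem_filter] at hz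
    have hle' : MulAction.stabilizer H y ≤ MulAction.stabilizer H z := by
      rw [← hk]
      exact Subgroup.zpowers_le.2 (MulAction.mem_stabilizer_iff.2 hz.2)
    have hcard := hmax z hz.1
    have h1 := Subgroup.card_le_of_le hle'
    exact (Subgroup.eq_of_le_of_card_ge hle (h1.trans hcard)).symm
  -- the orbits
  have hwd : ∀ g g' : H, g • x = g' • x ↔ g • y = g' • y := fun g g' => by
    rw [← inv_smul_eq_iff (g := g'), ← inv_smul_eq_iff (g := g'), smul_smul, smul_smul,
      ← MulAction.mem_stabilizer_iff, ← MulAction.mem_stabilizer_iff, hstab]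
  let e : MulAction.orbit H x → β := fun a => (MulAction.mem_orbit_iff.1 a.2).choose • y
  have he : ∀ g : H, ∀ (h : g • x ∈ MulAction.orbit H x), e ⟨g • x, h⟩ = g • y := fun g h =>
    (hwd _ _).1 (MulAction.mem_orbit_iff.1 h).choose_spec
  let s' := s.filter fun a => a ∉ MulAction.orbit H x
  let t' := t.filter fun b => b ∉ MulAction.orbit H y
  have hs' : ∀ h : H, ∀ a ∈ s', h • a ∈ s' := fun h a ha => by
    rw [Finset.mem_filter] at ha ⊢
    exact ⟨hs h a ha.1, fun h' => ha.2 ((smulMemOrbit h).1 h')⟩
  have ht' : ∀ h : H, ∀ b ∈ t', h • b ∈ t' := fun h b hb => by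
    rw [Finset.mem_filter] at hb ⊢
    exact ⟨ht h b hb.1, fun h' => hb.2 ((smulMemOrbit h).1 h')⟩
  have horb : ∀ h : H,
      ((s.filter fun a => h • a = a).filter fun a => a ∈ MulAction.orbit H x).card =
        ((t.filter fun b => h • b = b).filter fun b => b ∈ MulAction.orbit H y).card := by
    intro h
    refine Finset.card_bij (fun a ha => e ⟨a, (Finset.mem_filter.1 ha).2⟩) ?_ ?_ ?_
    · intro a ha
      obtain ⟨ha1, ha2⟩ := Finset.mem_filter.1 ha
      obtain ⟨g, rfl⟩ := MulAction.mem_orbit_iff.1 ha2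
      rw [Finset.mem_filter, Finset.mem_filter] at *
      rw [he]
      refine ⟨⟨ht g y hy, ?_⟩, MulAction.mem_orbit y g⟩
      rw [smul_smul]
      refine (hwd _ _).1 ?_
      rw [← smul_smul]
      exact ha1.2
    · intro a ha b hb hab
      obtain ⟨g, hg⟩ := MulAction.mem_orbit_iff.1 (Finset.mem_filter.1 ha).2
      obtain ⟨g', hg'⟩ := MulAction.mem_orbit_iff.1 (Finset.mem_filter.1 hb).2
      subst hg hg'
      rw [he, he] at hab
      exact (hwd _ _).2 hab
    · intro b hb
      obtain ⟨hb1, hb2⟩ := Finset.mem_filter.1 hb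
      obtain ⟨g, rfl⟩ := MulAction.mem_orbit_iff.1 hb2
      rw [Finset.mem_filter] at hb1
      refine ⟨g • x, ?_, he g _⟩
      rw [Finset.mem_filter, Finset.mem_filter]
      refine ⟨⟨hs g x hx, ?_⟩, MulAction.mem_orbit x g⟩
      rw [smul_smul]
      refine (hwd _ _).2 ?_
      rw [← smul_smul]
      exact hb1.2
  have hlt : s'.card < n := by
    rw [← hn]
    exact Finset.card_lt_card (Finset.filter_ssubset.2 ⟨x, hx, fun h => h (MulAction.mem_orbit_self x)⟩)
  obtain ⟨f, hf, hfeq⟩ := ih _ hlt s' rfl t' hs' ht' fun h => by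
    have h1 := Finset.card_filter_add_card_filter_not
      (s := s.filter fun a => h • a = a) (fun a => a ∈ MulAction.orbit H x)
    have h2 := Finset.card_filter_add_card_filter_not
      (s := t.filter fun b => h • b = b) (fun b => b ∈ MulAction.orbit H y)
    have e1 := horb h
    rw [hfix h] at h1
    rw [Finset.filter_comm] at h1 h2
    simp only [s', t', Finset.filter_filter] at h1 h2 e1 ⊢
    simp only [and_comm] at h1 h2 e1 ⊢
    omega
  refine ⟨fun a => if h : a ∈ MulAction.orbit H x then e ⟨a, h⟩ else f a, ⟨?_, ?_, ?_⟩, ?_⟩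
  · intro a ha
    dsimp only
    split_ifs with h
    · obtain ⟨g, rfl⟩ := MulAction.mem_orbit_iff.1 h
      rw [he]
      exact ht g y hy
    · exact Finset.mem_of_mem_filter _ (hf.mapsTo (Finset.mem_filter.2 ⟨ha, h⟩))
  · intro a ha b hb hab
    dsimp only at hab
    split_ifs at hab with h h' h'
    · obtain ⟨g, rfl⟩ := MulAction.mem_orbit_iff.1 h
      obtain ⟨g', rfl⟩ := MulAction.mem_orbit_iff.1 h'
      rw [he, he] at hab
      exact (hwd _ _).2 hab
    · obtain ⟨g, rfl⟩ := MulAction.mem_orbit_iff.1 h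
      rw [he] at hab
      exact absurd (hab ▸ MulAction.mem_orbit y g)
        (Finset.mem_filter.1 (hf.mapsTo (Finset.mem_filter.2 ⟨hb, h'⟩))).2
    · obtain ⟨g, rfl⟩ := MulAction.mem_orbit_iff.1 h'
      rw [he] at hab
      exact absurd (hab ▸ MulAction.mem_orbit y g)
        (Finset.mem_filter.1 (hf.mapsTo (Finset.mem_filter.2 ⟨ha, h⟩))).2
    · exact hf.injOn (Finset.mem_filter.2 ⟨ha, h⟩) (Finset.mem_filter.2 ⟨hb, h'⟩) hab
  · intro b hb
    by_cases h : b ∈ MulAction.orbit H y
    · obtain ⟨g, rfl⟩ := MulAction.mem_orbit_iff.1 h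
      exact ⟨g • x, hs g x hx, by simp only [dif_pos (MulAction.mem_orbit x g), he]⟩
    · obtain ⟨a, ha, rfl⟩ := hf.surjOn (Finset.mem_filter.2 ⟨hb, h⟩)
      obtain ⟨ha1, ha2⟩ := Finset.mem_filter.1 ha
      exact ⟨a, ha1, by simp only [dif_neg ha2]⟩
  · intro g a ha
    by_cases h : a ∈ MulAction.orbit H x
    · obtain ⟨g', rfl⟩ := MulAction.mem_orbit_iff.1 h
      simp only [smul_smul, dif_pos (MulAction.mem_orbit x _), he]
    · dsimp only
      rw [dif_neg h, dif_neg (fun h' => h ((smulMemOrbit g).1 h'))]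
      exact hfeq g a (Finset.mem_filter.2 ⟨ha, h⟩)

/-- Finite actions of a cyclic group with equal fixed point counts are isomorphic. -/
theorem exists_equiv_of_fixed_eq [Finite α] [Finite β]
    (hfix : ∀ h : H, Nat.card {a : α // h • a = a} = Nat.card {b : β // h • b = b}) :
    ∃ e : α ≃ β, ∀ (h : H) a, e (h • a) = h • e a := by
  classical
  haveI := Fintype.ofFinite α
  haveI := Fintype.ofFinite β
  obtain ⟨f, hf, hfeq⟩ := exists_bijOn_of_fixed_eq (H := H) (Finset.univ : Finset α)
    (Finset.univ : Finset β) (fun _ _ _ => Finset.mem_univ _) (fun _ _ _ => Finset.mem_univ _)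
    fun h => by simpa only [Nat.card_eq_fintype_card, Fintype.card_subtype] using hfix h
  rw [Finset.coe_univ, Finset.coe_univ] at hf
  exact ⟨Equiv.ofBijective f (Set.bijOn_univ.1 hf),
    fun h a => hfeq h a (Finset.mem_univ a)⟩

end bijection

section counting

variable {G : Type} [Group G] [Finite G]

/-- The number of fixed points on a coset space. -/
theorem card_fixed_mul (S : Subgroup G) (g : G) :
    Nat.card {x : G ⧸ S // g • x = x} * Nat.card S = Nat.card {x : G // x⁻¹ * g * x ∈ S} := by
  rw [mul_comm, ← Nat.card_prod]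
  refine (Nat.card_congr ((Equiv.subtypeEquivRight fun x => ?_).trans
    (QuotientGroup.preimageMkEquivSubgroupProdSet S {x : G ⧸ S | g • x = x}))).symm
  show x⁻¹ * g * x ∈ S ↔ g • (x : G ⧸ S) = x
  rw [MulAction.Quotient.smul_mk, eq_comm (b := (x : G ⧸ S)), QuotientGroup.eq, smul_eq_mul,
    mul_assoc]

variable (p : ℕ)

/-- Some multiple of the constant function is a combination of the counting functions of cyclic
subgroups of order prime to `p`, on elements of order prime to `p`. -/
theorem exists_cyclic_identity :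
    ∃ (N : ℤ) (a : Subgroup G → ℤ), N ≠ 0 ∧
      (∀ C, a C ≠ 0 → IsCyclic C ∧ ¬ p ∣ Nat.card C) ∧
      ∀ g : G, ¬ p ∣ orderOf g →
        ∑ᶠ C, a C * (Nat.card {x : G // x⁻¹ * g * x ∈ C} : ℤ) = N := by
  classical
  haveI := Fintype.ofFinite G
  haveI : Fintype (Subgroup G) := Fintype.ofFinite _
  suffices key : ∀ j : ℕ, ∃ (N : ℤ) (a : Subgroup G → ℤ), N ≠ 0 ∧
      (∀ C, a C ≠ 0 → IsCyclic C ∧ ¬ p ∣ Nat.card C) ∧
      ∀ g : G, ¬ p ∣ orderOf g → Nat.card G < orderOf g + j →
        ∑ C, a C * (Nat.card {x : G // x⁻¹ * g * x ∈ C} : ℤ) = N by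
    obtain ⟨N, a, hN, ha, h⟩ := key (Nat.card G)
    refine ⟨N, a, hN, ha, fun g hg => ?_⟩
    rw [finsum_eq_sum_of_fintype]
    exact h g hg (Nat.lt_add_of_pos_left (orderOf_pos g))
  intro j
  induction j with
  | zero =>
    exact ⟨1, 0, one_ne_zero, by simp, fun g _ h =>
      absurd h (not_lt.2 (by simpa using orderOf_le_card (x := g)))⟩
  | succ j ih =>
    obtain ⟨N, a, hN, ha, hrec⟩ := ih
    -- the counting functions only depend on the subgroup generated, up to conjugation
    let ψ : Subgroup G → G → ℤ := fun C g => Nat.card {x : G // x⁻¹ * g * x ∈ C}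
    let r : G → ℤ := fun g => N - ∑ C, a C * ψ C g
    have hzp : ∀ (h g : G), Subgroup.zpowers g ≤ Subgroup.zpowers h → ∀ C x,
        x⁻¹ * h * x ∈ C → x⁻¹ * g * x ∈ (C : Subgroup G) := by
      intro h g hle C x hx
      obtain ⟨i, rfl⟩ := Subgroup.mem_zpowers_iff.1 (hle (Subgroup.mem_zpowers g))
      have := zpow_mem hx i
      rwa [show (x⁻¹ * h * x) ^ i = x⁻¹ * h ^ i * x by
        simpa using conj_zpow (a := x⁻¹) (b := h) (i := i)] at this
    have hψ : ∀ (y g h : G), Subgroup.zpowers (y⁻¹ * g * y) = Subgroup.zpowers h →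
        ∀ C, ψ C g = ψ C h := by
      intro y g h he C
      simp only [ψ]
      norm_cast
      refine Nat.card_congr ((Equiv.mulLeft y⁻¹).subtypeEquiv fun x => ?_)
      have e : x⁻¹ * g * x = (y⁻¹ * x)⁻¹ * (y⁻¹ * g * y) * (y⁻¹ * x) := by group
      rw [e]
      exact ⟨hzp _ _ he.ge C _, hzp _ _ he.le C _⟩
    have hr : ∀ (y g h : G), Subgroup.zpowers (y⁻¹ * g * y) = Subgroup.zpowers h → r g = r h :=
      fun y g h he => by simp only [r, hψ y g h he]
    let k := Nat.card G - j
    let b : Subgroup G → ℤ := fun C =>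
      if h : IsCyclic C ∧ ¬ p ∣ Nat.card C ∧ Nat.card C = k then
        r (C.isCyclic_iff_exists_zpowers_eq_top.1 h.1).choose else 0
    refine ⟨Nat.card G * N, fun C => Nat.card G * a C + b C,
      mul_ne_zero (by exact_mod_cast Nat.card_pos.ne') hN, fun C hC => ?_, fun g hg hlt => ?_⟩
    · by_cases h : a C = 0
      · by_contra h'
        simp only [h, mul_zero, zero_add, b] at hC
        rw [dif_neg fun h'' => h' ⟨h''.1, h''.2.1⟩] at hC
        exact hC rfl
      · exact ha C h
    show ∑ C, ((Nat.card G : ℤ) * a C + b C) * ψ C g = _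
    simp only [add_mul, mul_assoc (Nat.card G : ℤ), Finset.sum_add_distrib, ← Finset.mul_sum]
    have hconj : ∀ x : G, orderOf (x⁻¹ * g * x) = orderOf g := fun x =>
      (SemiconjBy.orderOf_eq x (show SemiconjBy x (x⁻¹ * g * x) g by
        show x * (x⁻¹ * g * x) = g * x
        group))
    have hb : ∀ C, b C * ψ C g = if b C ≠ 0 ∧ orderOf g ≤ k then b C * ψ C g else 0 := by
      intro C
      split_ifs with h
      · rfl
      by_cases hb0 : b C = 0
      · rw [hb0, zero_mul]
      have hC : Nat.card C = k := by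
        by_contra h'
        exact hb0 (dif_neg fun h'' => h' h''.2.2)
      have : ψ C g = 0 := by
        simp only [ψ, Nat.cast_eq_zero, Nat.card_eq_zero, isEmpty_subtype]
        left
        intro x hx
        refine h ⟨hb0, ?_⟩
        rw [← hC, ← hconj x, ← Nat.card_zpowers]
        exact Subgroup.card_le_of_le (Subgroup.zpowers_le.2 hx)
      rw [this, mul_zero]
    rcases Nat.lt_or_ge (Nat.card G) (orderOf g + j) with h | h
    · rw [hrec g hg h]
      have : ∀ C, b C * ψ C g = 0 := fun C => by
        rw [hb C, if_neg]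
        rintro ⟨-, h'⟩
        have := orderOf_pos g
        omega
      simp only [ψ] at this ⊢
      rw [Finset.sum_eq_zero fun C _ => this C, add_zero]
    · have hk : orderOf g = k := by
        have := orderOf_pos g
        omega
      -- each element determines exactly one subgroup
      have h1 : ∀ C, b C * ψ C g = r g * ∑ x : G,
          if Subgroup.zpowers (x⁻¹ * g * x) = C then (1 : ℤ) else 0 := by
        intro C
        by_cases hC : IsCyclic C ∧ ¬ p ∣ Nat.card C ∧ Nat.card C = k
        · have he : ∀ x : G, x⁻¹ * g * x ∈ C ↔ Subgroup.zpowers (x⁻¹ * g * x) = C := fun x =>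
            ⟨fun hx => Subgroup.eq_of_le_of_card_ge (Subgroup.zpowers_le.2 hx)
              (by rw [Nat.card_zpowers, hconj, hk, hC.2.2]),
             fun hx => hx ▸ Subgroup.mem_zpowers _⟩
          have hψC : ψ C g = ∑ x : G,
              if Subgroup.zpowers (x⁻¹ * g * x) = C then (1 : ℤ) else 0 := by
            simp only [ψ, Nat.card_eq_fintype_card, Fintype.card_subtype, ← he, Finset.sum_boole]
          rw [← hψC]
          by_cases h0 : ψ C g = 0
          · rw [h0, mul_zero, mul_zero]
          · obtain ⟨x, hx⟩ : ∃ x : G, x⁻¹ * g * x ∈ C := by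
              by_contra hcon
              exact h0 (by
                simp only [ψ, Nat.cast_eq_zero, Nat.card_eq_zero, isEmpty_subtype]
                exact Or.inl fun x hx => hcon ⟨x, hx⟩)
            congr 1
            simp only [b, dif_pos hC]
            refine (hr x g _ ?_).symm
            rw [(he x).1 hx]
            exact (C.isCyclic_iff_exists_zpowers_eq_top.1 hC.1).choose_spec.symm
        · rw [show b C = 0 from dif_neg hC, zero_mul, Finset.sum_eq_zero fun x _ => ?_, mul_zero]
          rw [if_neg]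
          intro hx
          refine hC ⟨hx ▸ inferInstance, ?_, ?_⟩
          · rwa [← hx, Nat.card_zpowers, hconj]
          · rw [← hx, Nat.card_zpowers, hconj, hk]
      simp only [ψ] at h1
      rw [Finset.sum_congr rfl fun C _ => h1 C, ← Finset.mul_sum, Finset.sum_comm]
      simp only [Finset.sum_ite_eq, Finset.mem_univ, if_true, Finset.sum_const, Finset.card_univ,
        nsmul_eq_mul, mul_one, Nat.card_eq_fintype_card, r, ψ]
      ring

end counting

end FLTA.TW.Euler

end
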