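import Fermat.Agent.PoitouTate.Functorial

/-!
# The long exact sequence in degrees `≤ 2` and additivity of `h¹ - h⁰ - h²`
-/

set_option autoImplicit false

open Module

noncomputable section

namespace FLTA.TW

open FLTA.PT

variable {k : Type} [Field k] {Γ : Type} [Group Γ] {L : Lvl Γ}
variable {A B C : Type} [AddCommGroup A] [Module k A] [AddCommGroup B] [Module k B]
  [AddCommGroup C] [Module k C]
variable {ρA : Representation k Γ A} {ρB : Representation k Γ B} {ρC : Representation k Γ C}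
variable {i : A →ₗ[k] B} {π : B →ₗ[k] C}
variable (hi : Equivariant ρA ρB (MonoidHom.id Γ) i) (hπ : Equivariant ρB ρC (MonoidHom.id Γ) π)

theorem isConst₁_map {X Y : Type} {f : Γ → X} (hf : IsConst₁ L f) (φ : X → Y) :
    IsConst₁ L (φ ∘ f) := by
  obtain ⟨U, hU, h⟩ := hf
  exact ⟨U, hU, fun g s hs => by simp [h g s hs]⟩

theorem isConst₂_d1 {ρ : Representation k Γ A} {U : Subgroup Γ} (hU : U ∈ L)
    (htriv : ∀ s ∈ U, ρ s = 1) {x : Γ → A} (hx : IsConst₁ L x) : IsConst₂ L (d1 ρ x) := by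
  obtain ⟨U', hU', h⟩ := hx
  have hn := L.normal_of_mem _ (L.inf_mem U hU U' hU')
  refine ⟨U ⊓ U', L.inf_mem U hU U' hU', fun g g' s s' hs hs' => ?_⟩
  obtain ⟨t, ht, e⟩ : ∃ t ∈ U ⊓ U', g * s * (g' * s') = g * g' * t :=
    ⟨g'⁻¹ * s * g' * s', mul_mem (hn.conj_mem' s hs g') hs', by group⟩
  simp only [d1_apply, e, h g' s' hs'.2, h g s hs.2, h (g * g') t ht.2, map_mul, htriv s hs.1,
    mul_one]

theorem d0_mem_C1 {ρ : Representation k Γ A} {U : Subgroup Γ} (hU : U ∈ L)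
    (htriv : ∀ s ∈ U, ρ s = 1) (v : A) : IsConst₁ L (d0 ρ v) :=
  ⟨U, hU, fun g s hs => by simp [map_mul, htriv s hs]⟩

/-- `H¹(A) → H¹(B) → H¹(C)` is exact. -/
theorem exists_coeff1_eq {U : Subgroup Γ} (hU : U ∈ L) (htB : ∀ s ∈ U, ρB s = 1)
    (hinj : Function.Injective i) (hsur : Function.Surjective π)
    (hex : LinearMap.range i = LinearMap.ker π) (c : H1c L ρB) (hc : coeff1 L ρB hπ c = 0) :
    ∃ a, coeff1 L ρA hi a = c := by
  obtain ⟨y, rfl⟩ := Submodule.mkQ_surjective _ c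
  rw [coeff1, map1_mk, H1cπ_eq_zero, mem_B1] at hc
  obtain ⟨v, hv⟩ := hc
  obtain ⟨w, rfl⟩ := hsur v
  obtain ⟨r, hr⟩ := i.exists_leftInverse_of_injective (LinearMap.ker_eq_bot.2 hinj)
  set z : Γ → B := (y : Γ → B) - d0 ρB w with hz
  have hk : ∀ g, i (r (z g)) = z g := fun g => by
    obtain ⟨a, ha⟩ : z g ∈ LinearMap.range i := by
      rw [hex, LinearMap.mem_ker]
      have := congrFun hv g
      simp only [d0_apply, pp1_apply, MonoidHom.id_apply] at this
      have e : π (ρB g w) = ρC g (π w) := hπ g w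
      simp only [hz, Pi.sub_apply, d0_apply, map_sub, e, this, sub_self]
    rw [← ha, show r (i a) = a from LinearMap.congr_fun hr a]
  have hzZ : z ∈ Z1 L ρB :=
    sub_mem y.2 ⟨LinearMap.mem_ker.2 (d1_d0 _ _), d0_mem_C1 hU htB w⟩
  obtain ⟨hcoc, hconst⟩ := (mem_Z1 _ _).1 hzZ
  refine ⟨H1cπ L ρA ⟨r ∘ z, (mem_Z1 _ _).2 ⟨fun g h => hinj ?_, isConst₁_map hconst r⟩⟩, ?_⟩
  · have e : i (ρA g (r (z h))) = ρB g (i (r (z h))) := hi g _
    simp only [Function.comp_apply, map_add, e, hk]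
    exact hcoc g h
  · rw [coeff1, map1_mk, ← sub_eq_zero, ← map_sub, H1cπ_eq_zero, mem_B1]
    refine ⟨-w, funext fun g => ?_⟩
    show d0 ρB (-w) g = i (r (z g)) - (y : Γ → B) g
    rw [hk, map_neg, hz]
    simp

include hπ in
/-- The connecting map in degree 1. -/
theorem exists_of_coeff2_eq_zero (hinj : Function.Injective i) (hsur : Function.Surjective π)
    (hex : LinearMap.range i = LinearMap.ker π) (c : H2c L ρA) (hc : coeff2 L ρA hi c = 0) :
    ∃ x : Γ → B, IsConst₁ L x ∧ π ∘ x ∈ Z1 L ρC ∧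
      ∀ g h, i ((Quotient.out c : Z2 L ρA).1 (g, h)) = d1 ρB x (g, h) := by
  have hz : H2cπ L ρA (Quotient.out c) = c := Quotient.out_eq c
  rw [← hz, coeff2, map2_mk, H2cπ_eq_zero, mem_B2] at hc
  obtain ⟨x, hx, hdx⟩ := hc
  refine ⟨x, hx, (mem_Z1 _ _).2 ⟨fun g h => ?_, isConst₁_map hx π⟩, fun g h =>
    (congrFun hdx (g, h)).symm⟩
  have h1 : π (d1 ρB x (g, h)) = 0 := by
    rw [congrFun hdx (g, h), ← LinearMap.mem_ker, ← hex]
    exact ⟨_, rfl⟩
  have e : π (ρB g (x h)) = ρC g (π (x h)) := hπ g _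
  rw [d1_apply, map_add, map_sub, e, sub_add_eq_add_sub, sub_eq_zero] at h1
  exact h1.symm

/-- `H²(A) → H²(B) → H²(C)` is exact. -/
theorem exists_coeff2_eq {U : Subgroup Γ} (hU : U ∈ L) (htB : ∀ s ∈ U, ρB s = 1)
    (hinj : Function.Injective i) (hsur : Function.Surjective π)
    (hex : LinearMap.range i = LinearMap.ker π) (c : H2c L ρB) (hc : coeff2 L ρB hπ c = 0) :
    ∃ a, coeff2 L ρA hi a = c := by
  obtain ⟨y, rfl⟩ := Submodule.mkQ_surjective _ c
  rw [coeff2, map2_mk, H2cπ_eq_zero, mem_B2] at hc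
  obtain ⟨x, hx, hdx⟩ := hc
  obtain ⟨s, hs⟩ := π.exists_rightInverse_of_surjective (LinearMap.range_eq_top.2 hsur)
  obtain ⟨r, hr⟩ := i.exists_leftInverse_of_injective (LinearMap.ker_eq_bot.2 hinj)
  set z : Γ × Γ → B := (y : Γ × Γ → B) - d1 ρB (s ∘ x) with hz
  have hk : ∀ g, i (r (z g)) = z g := fun g => by
    obtain ⟨a, ha⟩ : z g ∈ LinearMap.range i := by
      rw [hex, LinearMap.mem_ker]
      obtain ⟨g, h⟩ := g
      have := congrFun hdx (g, h)
      simp only [d1_apply, pp2_apply, MonoidHom.id_apply] at this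
      have e : ∀ b, π (ρB g b) = ρC g (π b) := hπ g
      have hs1 : ∀ c, π (s c) = c := fun c => LinearMap.congr_fun hs c
      simp only [hz, Pi.sub_apply, d1_apply, Function.comp_apply, map_sub, map_add, e, hs1, this,
        sub_self]
    rw [← ha, show r (i a) = a from LinearMap.congr_fun hr a]
  have hzc : IsConst₂ L z := (C2 (k := k) L B).sub_mem y.2.2 (isConst₂_d1 hU htB (isConst₁_map hx s))
  have hzd : d2 ρB z = 0 := by
    rw [hz, map_sub, LinearMap.mem_ker.1 y.2.1, d2_d1, sub_zero]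
  have hrz : (fun g => r (z g)) ∈ Z2 L ρA := by
    refine ⟨LinearMap.mem_ker.2 (funext fun ⟨g, h, j⟩ => hinj ?_), ?_⟩
    · have e : ∀ a, i (ρA g a) = ρB g (i a) := hi g
      have := congrFun hzd (g, h, j)
      simp only [d2_apply, Pi.zero_apply, map_sub, map_add, map_zero, e, hk] at this ⊢
      exact this
    · obtain ⟨U', hU', h⟩ := hzc
      exact ⟨U', hU', fun g g' s s' hs hs' => congrArg r (h g g' s s' hs hs')⟩
  refine ⟨H2cπ L ρA ⟨_, hrz⟩, ?_⟩
  rw [coeff2, map2_mk, ← sub_eq_zero, ← map_sub, H2cπ_eq_zero, mem_B2]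
  refine ⟨-(s ∘ x), (C1 (k := k) L B).neg_mem (isConst₁_map hx s), ?_⟩
  funext ⟨g, h⟩
  show d1 ρB (-(s ∘ x)) (g, h) = i (r (z (g, h))) - (y : Γ × Γ → B) (g, h)
  rw [hk, map_neg, hz]
  simp

include hi hπ

/-- `h¹ - h⁰ - h²` is additive, given the surjectivity of `H²(B) → H²(C)`. -/
theorem euler_additive {U : Subgroup Γ} (hU : U ∈ L) (htA : ∀ s ∈ U, ρA s = 1)
    (htB : ∀ s ∈ U, ρB s = 1) (htC : ∀ s ∈ U, ρC s = 1)
    [FiniteDimensional k A] [FiniteDimensional k B] [FiniteDimensional k C]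
    [FiniteDimensional k (H1c L ρA)] [FiniteDimensional k (H1c L ρB)]
    [FiniteDimensional k (H1c L ρC)] [FiniteDimensional k (H2c L ρA)]
    [FiniteDimensional k (H2c L ρB)] [FiniteDimensional k (H2c L ρC)]
    (hinj : Function.Injective i) (hsur : Function.Surjective π)
    (hex : LinearMap.range i = LinearMap.ker π)
    (hs2 : Function.Surjective (coeff2 L ρB hπ)) :
    (finrank k (H1c L ρB) : ℤ) + finrank k (LinearMap.ker (d0 ρA)) +
        finrank k (LinearMap.ker (d0 ρC)) + finrank k (H2c L ρA) + finrank k (H2c L ρC) =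
      (finrank k (H1c L ρA) : ℤ) + finrank k (H1c L ρC) + finrank k (LinearMap.ker (d0 ρB)) +
        finrank k (H2c L ρB) := by
  obtain ⟨s, hs⟩ := π.exists_rightInverse_of_surjective (LinearMap.range_eq_top.2 hsur)
  obtain ⟨r, hr⟩ := i.exists_leftInverse_of_injective (LinearMap.ker_eq_bot.2 hinj)
  have hs1 : ∀ c, π (s c) = c := fun c => LinearMap.congr_fun hs c
  have hr1 : ∀ a, r (i a) = a := fun a => LinearMap.congr_fun hr a
  have hir : ∀ b, π b = 0 → i (r b) = b := fun b hb => by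
    obtain ⟨a, rfl⟩ : b ∈ LinearMap.range i := by rw [hex]; exact hb
    rw [hr1]
  have ei : ∀ g a, i (ρA g a) = ρB g (i a) := hi
  have eπ : ∀ g b, π (ρB g b) = ρC g (π b) := hπ
  -- degree 0
  let i0 : LinearMap.ker (d0 ρA) →ₗ[k] LinearMap.ker (d0 ρB) :=
    i.restrict fun a ha => LinearMap.mem_ker.2 (funext fun g => by
      have := congrFun (LinearMap.mem_ker.1 ha) g
      simp only [d0_apply, Pi.zero_apply] at this
      simp [← ei, ← map_sub, this])
  let π0 : LinearMap.ker (d0 ρB) →ₗ[k] LinearMap.ker (d0 ρC) :=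
    π.restrict fun a ha => LinearMap.mem_ker.2 (funext fun g => by
      have := congrFun (LinearMap.mem_ker.1 ha) g
      simp only [d0_apply, Pi.zero_apply] at this
      simp [← eπ, ← map_sub, this])
  -- connecting map in degree 0
  have hδ0 : ∀ (c : LinearMap.ker (d0 ρC)) g, i (r (d0 ρB (s c.1) g)) = d0 ρB (s c.1) g :=
    fun c g => hir _ (by
      have := congrFun (LinearMap.mem_ker.1 c.2) g
      simp only [d0_apply, Pi.zero_apply] at this
      simp [eπ, hs1, this])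
  have hδ0Z : ∀ c : LinearMap.ker (d0 ρC), r ∘ d0 ρB (s c.1) ∈ Z1 L ρA := fun c =>
    ⟨LinearMap.mem_ker.2 (funext fun ⟨g, h⟩ => hinj (by
      have := congrFun (d1_d0 ρB (s c.1)) (g, h)
      simp only [d1_apply, Function.comp_apply, Pi.zero_apply, map_add, map_sub, map_zero, ei,
        hδ0] at this ⊢
      exact this)), isConst₁_map (d0_mem_C1 hU htB _) r⟩
  let δ0 : LinearMap.ker (d0 ρC) →ₗ[k] H1c L ρA := (H1cπ L ρA).comp
    { toFun := fun c => ⟨r ∘ d0 ρB (s c.1), hδ0Z c⟩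
      map_add' := fun a b => Subtype.ext (funext fun g => by simp [add_sub_add_comm])
      map_smul' := fun t a => Subtype.ext (funext fun g => by simp [smul_sub]) :
      LinearMap.ker (d0 ρC) →ₗ[k] Z1 L ρA }
  -- connecting map in degree 1
  have hδ1 : ∀ (x : Z1 L ρC) g, i (r (d1 ρB (s ∘ (x : Γ → C)) g)) = d1 ρB (s ∘ (x : Γ → C)) g :=
    fun x g => hir _ (by
      obtain ⟨g, h⟩ := g
      simp only [d1_apply, Function.comp_apply, map_add, map_sub, eπ, hs1,
        ((mem_Z1 _ _).1 x.2).1 g h]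
      abel)
  have hδ1Z : ∀ x : Z1 L ρC, (fun g => r (d1 ρB (s ∘ (x : Γ → C)) g)) ∈ Z2 L ρA := fun x => by
    refine ⟨LinearMap.mem_ker.2 (funext fun ⟨g, h, j⟩ => hinj ?_), ?_⟩
    · have := congrFun (d2_d1 ρB (s ∘ (x : Γ → C))) (g, h, j)
      simp only [d2_apply, Pi.zero_apply, map_sub, map_add, map_zero, ei, hδ1] at this ⊢
      exact this
    · obtain ⟨U', hU', h⟩ := isConst₂_d1 hU htB (isConst₁_map x.2.2 s)
      exact ⟨U', hU', fun g g' t t' ht ht' => congrArg r (h g g' t t' ht ht')⟩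
  let δ1' : Z1 L ρC →ₗ[k] H2c L ρA := (H2cπ L ρA).comp
    { toFun := fun x => ⟨fun g => r (d1 ρB (s ∘ (x : Γ → C)) g), hδ1Z x⟩
      map_add' := fun a b => Subtype.ext (funext fun ⟨g, h⟩ => by simp [map_add]; abel)
      map_smul' := fun t a => Subtype.ext (funext fun ⟨g, h⟩ => by simp [smul_sub, smul_add]) :
      Z1 L ρC →ₗ[k] Z2 L ρA }
  let δ1 : H1c L ρC →ₗ[k] H2c L ρA := Submodule.liftQ _ δ1' fun x hx => by
    obtain ⟨v, hv⟩ := hx
    rw [LinearMap.mem_ker]
    refine (H2cπ_eq_zero L ρA).2 ((mem_B2 _ _).2 ⟨r ∘ ((s ∘ (x : Γ → C)) - d0 ρB (s v)),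
      isConst₁_map ((C1 (k := k) L B).sub_mem (isConst₁_map x.2.2 s) (d0_mem_C1 hU htB _)) r,
      funext fun ⟨g, h⟩ => hinj ?_⟩)
    have hh : ∀ a, i (r (((s ∘ (x : Γ → C)) - d0 ρB (s v)) a)) =
        ((s ∘ (x : Γ → C)) - d0 ρB (s v)) a := fun a => hir _ (by
      have := congrFun hv a
      simp only [d0_apply, Submodule.subtype_apply] at this
      simp [eπ, hs1, ← this])
    show i (d1 ρA _ (g, h)) = i (r (d1 ρB (s ∘ (x : Γ → C)) (g, h)))
    rw [hδ1, d1_apply, map_add, map_sub, ei, Function.comp_apply, Function.comp_apply,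
      Function.comp_apply, hh, hh, hh]
    simp [map_mul]
    abel
  let i1 := coeff1 L ρA hi
  let π1 := coeff1 L ρB hπ
  let i2 := coeff2 L ρA hi
  let π2 := coeff2 L ρB hπ
  have e0 : LinearMap.ker π0 = LinearMap.range i0 := by
    ext b
    refine ⟨fun hb => ?_, fun ⟨a, ha⟩ => ?_⟩
    · have hb' : π b.1 = 0 := congrArg Subtype.val hb
      refine ⟨⟨r b.1, LinearMap.mem_ker.2 (funext fun g => hinj ?_)⟩, Subtype.ext (hir _ hb')⟩
      have := congrFun (LinearMap.mem_ker.1 b.2) g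
      simp only [d0_apply, Pi.zero_apply] at this
      simp [map_sub, ei, hir _ hb', this]
    · rw [← ha, LinearMap.mem_ker]
      refine Subtype.ext ?_
      show π (i a.1) = 0
      rw [← LinearMap.mem_ker, ← hex]; exact ⟨_, rfl⟩
  have e0' : LinearMap.ker δ0 = LinearMap.range π0 := by
    ext c
    refine ⟨fun hc => ?_, fun ⟨b, hb⟩ => ?_⟩
    · obtain ⟨a, ha⟩ := (mem_B1 _).1 ((H1cπ_eq_zero L ρA).1 hc)
      refine ⟨⟨s c.1 - i a, LinearMap.mem_ker.2 (funext fun g => ?_)⟩, Subtype.ext ?_⟩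
      · have := congrArg i (congrFun ha g)
        simp only [LinearMap.coe_mk, AddHom.coe_mk, Function.comp_apply] at this
        rw [hδ0] at this
        simp only [map_sub, d0_apply, Pi.sub_apply, Pi.zero_apply, ei] at this ⊢
        linear_combination (norm := abel) -this
      · show π (s c.1 - i a) = c.1
        rw [map_sub, hs1, LinearMap.mem_ker.1 (show i a ∈ LinearMap.ker π by
          rw [← hex]; exact ⟨a, rfl⟩), sub_zero]
    · rw [← hb, LinearMap.mem_ker]
      refine (H1cπ_eq_zero L ρA).2 ((mem_B1 _).2 ⟨r (s (π b.1) - b.1), funext fun g => hinj ?_⟩)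
      have h1 : π (s (π b.1) - b.1) = 0 := by rw [map_sub, hs1, sub_self]
      show i (d0 ρA _ g) = i (r (d0 ρB (s (π b.1)) g))
      have := congrFun (LinearMap.mem_ker.1 b.2) g
      simp only [d0_apply, Pi.zero_apply, sub_eq_zero] at this
      rw [show d0 ρB (s (π b.1)) g = d0 ρB (s (π b.1) - b.1) g by simp [this],
        hir (d0 ρB (s (π b.1) - b.1) g) (by simp [eπ, hs1]), d0_apply, map_sub, ei, hir _ h1,
        d0_apply]
  have e1 : LinearMap.ker i1 = LinearMap.range δ0 := by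
    ext c
    refine ⟨fun hc => ?_, fun ⟨v, hv⟩ => ?_⟩
    · obtain ⟨x, rfl⟩ := Submodule.mkQ_surjective _ c
      rw [LinearMap.mem_ker] at hc
      obtain ⟨b, hb⟩ := (mem_B1 _).1 ((H1cπ_eq_zero L ρB).1 hc)
      refine ⟨⟨π b, LinearMap.mem_ker.2 (funext fun g => ?_)⟩, ?_⟩
      · have := congrArg π (congrFun hb g)
        simp only [d0_apply, pp1_apply, MonoidHom.id_apply, map_sub, eπ] at this
        rw [d0_apply, Pi.zero_apply, this]
        rw [← LinearMap.mem_ker, ← hex]; exact ⟨_, rfl⟩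
      · rw [← sub_eq_zero]
        show H1cπ L ρA _ - H1cπ L ρA x = 0
        rw [← map_sub, H1cπ_eq_zero, mem_B1]
        refine ⟨r (s (π b) - b), funext fun g => hinj ?_⟩
        have h1 : π (s (π b) - b) = 0 := by rw [map_sub, hs1, sub_self]
        have h2 : ρB g b - b = i ((x : Γ → A) g) := congrFun hb g
        have h0 : π (d0 ρB (s (π b)) g) = 0 := by
          rw [d0_apply, map_sub, eπ, hs1]
          have := congrArg π h2
          rw [map_sub, eπ] at this
          rw [this, ← LinearMap.mem_ker, ← hex]; exact ⟨_, rfl⟩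
        show i (d0 ρA _ g) = i (r (d0 ρB (s (π b)) g) - (x : Γ → A) g)
        rw [map_sub i (r (d0 ρB (s (π b)) g)), hir _ h0, ← h2, d0_apply, map_sub i, ei, hir _ h1,
          d0_apply, map_sub (ρB g)]
        abel
    · rw [← hv, LinearMap.mem_ker]
      refine (H1cπ_eq_zero L ρB).2 ((mem_B1 _).2 ⟨s v.1, funext fun g => ?_⟩)
      exact (hδ0 v g).symm
  have e1' : LinearMap.ker π1 = LinearMap.range i1 := by
    ext c
    refine ⟨exists_coeff1_eq hi hπ hU htB hinj hsur hex c, fun ⟨a, ha⟩ => ?_⟩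
    rw [← ha, LinearMap.mem_ker]
    obtain ⟨x, rfl⟩ := Submodule.mkQ_surjective _ a
    refine (H1cπ_eq_zero L ρC).2 ((mem_B1 _).2 ⟨0, funext fun g => ?_⟩)
    show d0 ρC 0 g = π (i ((x : Γ → A) g))
    rw [map_zero, Pi.zero_apply, eq_comm, ← LinearMap.mem_ker, ← hex]; exact ⟨_, rfl⟩
  have e2 : LinearMap.ker δ1 = LinearMap.range π1 := by
    ext c
    obtain ⟨x, rfl⟩ := Submodule.mkQ_surjective _ c
    refine ⟨fun hc => ?_, fun ⟨b, hb⟩ => ?_⟩
    · obtain ⟨w, hw, hdw⟩ := (mem_B2 _ _).1 ((H2cπ_eq_zero L ρA).1 hc)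
      have hy : s ∘ (x : Γ → C) - i ∘ w ∈ Z1 L ρB := by
        refine ⟨LinearMap.mem_ker.2 (funext fun ⟨g, h⟩ => ?_),
          (C1 (k := k) L B).sub_mem (isConst₁_map x.2.2 s) (isConst₁_map hw i)⟩
        have := congrArg i (congrFun hdw (g, h))
        simp only [LinearMap.coe_mk, AddHom.coe_mk] at this
        rw [hδ1] at this
        simp only [d1_apply, Function.comp_apply, map_add, map_sub, ei] at this
        simp only [d1_apply, Pi.sub_apply, Function.comp_apply, map_sub, Pi.zero_apply]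
        rw [← sub_eq_zero.2 this.symm]
        abel
      refine ⟨H1cπ L ρB ⟨_, hy⟩, congrArg (H1cπ L ρC) (Subtype.ext (funext fun g => ?_))⟩
      show π (s ((x : Γ → C) g) - i (w g)) = (x : Γ → C) g
      rw [map_sub, hs1, LinearMap.mem_ker.1 (show i (w g) ∈ LinearMap.ker π by
        rw [← hex]; exact ⟨_, rfl⟩), sub_zero]
    · rw [← hb, LinearMap.mem_ker]
      obtain ⟨y, rfl⟩ := Submodule.mkQ_surjective _ b
      refine (H2cπ_eq_zero L ρA).2 ((mem_B2 _ _).2 ⟨r ∘ (s ∘ π ∘ (y : Γ → B) - (y : Γ → B)),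
        isConst₁_map ((C1 (k := k) L B).sub_mem (isConst₁_map (isConst₁_map y.2.2 π) s) y.2.2) r,
        funext fun ⟨g, h⟩ => hinj ?_⟩)
      have hh : ∀ a, i (r ((s ∘ π ∘ (y : Γ → B) - (y : Γ → B)) a)) =
          (s ∘ π ∘ (y : Γ → B) - (y : Γ → B)) a := fun a => hir _ (by simp [hs1])
      show i (d1 ρA _ (g, h)) = i (r (d1 ρB (s ∘ π ∘ (y : Γ → B)) (g, h)))
      have h3 : π (d1 ρB (s ∘ π ∘ (y : Γ → B)) (g, h)) = 0 := by
        simp only [d1_apply, Function.comp_apply, map_add, map_sub, eπ, hs1,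
          ((mem_Z1 _ _).1 y.2).1 g h]
        abel
      rw [hir _ h3, d1_apply, map_add, map_sub, ei, Function.comp_apply, Function.comp_apply,
        Function.comp_apply, hh, hh, hh]
      simp only [d1_apply, Pi.sub_apply, Function.comp_apply, map_sub,
        ((mem_Z1 _ _).1 y.2).1 g h]
      abel
  have e2' : LinearMap.ker i2 = LinearMap.range δ1 := by
    ext c
    refine ⟨fun hc => ?_, fun ⟨a, ha⟩ => ?_⟩
    · obtain ⟨y, hy, hπy, hyd⟩ := exists_of_coeff2_eq_zero hi hπ hinj hsur hex c hc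
      refine ⟨H1cπ L ρC ⟨_, hπy⟩, ?_⟩
      conv_rhs => rw [← Quotient.out_eq c]
      show H2cπ L ρA _ = H2cπ L ρA (Quotient.out c)
      rw [← sub_eq_zero, ← map_sub, H2cπ_eq_zero, mem_B2]
      refine ⟨r ∘ (s ∘ π ∘ y - y),
        isConst₁_map ((C1 (k := k) L B).sub_mem (isConst₁_map (isConst₁_map hy π) s) hy) r,
        funext fun ⟨g, h⟩ => hinj ?_⟩
      have hh : ∀ a, i (r ((s ∘ π ∘ y - y) a)) = (s ∘ π ∘ y - y) a := fun a =>
        hir _ (by simp [hs1])
      show i (d1 ρA _ (g, h)) = i (r (d1 ρB (s ∘ π ∘ y) (g, h)) - (Quotient.out c : Z2 L ρA).1 (g, h))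
      have h3 : π (d1 ρB (s ∘ π ∘ y) (g, h)) = 0 := by
        have := ((mem_Z1 _ _).1 hπy).1 g h
        simp only [Function.comp_apply] at this
        simp only [d1_apply, Function.comp_apply, map_add, map_sub, eπ, hs1, this]
        abel
      rw [map_sub, hir _ h3, hyd, d1_apply, map_add, map_sub, ei, Function.comp_apply,
        Function.comp_apply, Function.comp_apply, hh, hh, hh]
      simp only [d1_apply, Pi.sub_apply, Function.comp_apply, map_sub]
      abel
    · rw [← ha, LinearMap.mem_ker]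
      obtain ⟨x, rfl⟩ := Submodule.mkQ_surjective _ a
      exact (H2cπ_eq_zero L ρB).2 ((mem_B2 _ _).2 ⟨s ∘ (x : Γ → C), isConst₁_map x.2.2 s,
        funext fun g => (hδ1 x g).symm⟩)
  have e3 : LinearMap.ker π2 = LinearMap.range i2 := by
    ext c
    refine ⟨exists_coeff2_eq hi hπ hU htB hinj hsur hex c, fun ⟨a, ha⟩ => ?_⟩
    rw [← ha, LinearMap.mem_ker]
    obtain ⟨x, rfl⟩ := Submodule.mkQ_surjective _ a
    refine (H2cπ_eq_zero L ρC).2 ((mem_B2 _ _).2
      ⟨0, (C1 (k := k) L C).zero_mem, funext fun ⟨g, h⟩ => ?_⟩)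
    show d1 ρC 0 (g, h) = π (i ((x : Γ × Γ → A) (g, h)))
    rw [map_zero, Pi.zero_apply, eq_comm, ← LinearMap.mem_ker, ← hex]; exact ⟨_, rfl⟩
  have hi0 : LinearMap.ker i0 = ⊥ := LinearMap.ker_eq_bot.2 fun a b hab =>
    Subtype.ext (hinj (congrArg Subtype.val hab))
  have n0 := LinearMap.finrank_range_add_finrank_ker i0
  have n1 := LinearMap.finrank_range_add_finrank_ker π0
  have n2 := LinearMap.finrank_range_add_finrank_ker δ0
  have n3 := LinearMap.finrank_range_add_finrank_ker i1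
  have n4 := LinearMap.finrank_range_add_finrank_ker π1
  have n5 := LinearMap.finrank_range_add_finrank_ker δ1
  have n6 := LinearMap.finrank_range_add_finrank_ker i2
  have n7 := LinearMap.finrank_range_add_finrank_ker π2
  rw [hi0, finrank_bot] at n0
  rw [e0] at n1
  rw [e0'] at n2
  rw [e1] at n3
  rw [e1'] at n4
  rw [e2] at n5
  rw [e2'] at n6
  rw [e3, LinearMap.range_eq_top.2 hs2, finrank_top] at n7
  omega

end FLTA.TW

end
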