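import Fermat.Agent.TaylorWiles.EulerDual
import Fermat.Agent.TaylorWiles.EulerSeq
import Fermat.Agent.PoitouTate.Main

/-!
# Global `H²`: the image of localisation, right exactness, finiteness
-/

set_option autoImplicit false

open ExtCitation Module

noncomputable section

namespace FLTA.TW

open FLTA.PT

variable {p : ℕ} [Fact p.Prime] {T : Finset Nat.Primes}
variable {A B C W : Type} [AddCommGroup A] [Module (ZMod p) A] [AddCommGroup B] [Module (ZMod p) B]
  [AddCommGroup C] [Module (ZMod p) C] [AddCommGroup W] [Module (ZMod p) W]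

theorem smul_coset_eq_self {U H : Subgroup GQ} [hn : U.Normal] (hUH : U ≤ H) {s : GQ} (hs : s ∈ U)
    (x : GQ ⧸ H) : s • x = x := by
  induction x using QuotientGroup.induction_on with
  | _ g =>
    rw [MulAction.Quotient.smul_mk, QuotientGroup.eq]
    exact hUH (by simpa [mul_assoc] using hn.conj_mem _ (inv_mem hs) g⁻¹)

theorem funRep_eq_one {U H : Subgroup GQ} [U.Normal] (hUH : U ≤ H)
    {ρ : Representation (ZMod p) GQ A} (h : ∀ s ∈ U, ρ s = 1) :
    ∀ s ∈ U, funRep ρ (GQ ⧸ H) s = 1 := fun s hs => LinearMap.ext fun F => funext fun x => by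
  rw [funRep_apply, smul_coset_eq_self hUH (inv_mem hs), h s hs]
  rfl

theorem out_eq_mul {H : Subgroup GQ} (g : GQ) (x : GQ ⧸ H) :
    ∃ h ∈ H, x.out = g * (g⁻¹ • x).out * h := by
  refine ⟨(g * (g⁻¹ • x).out)⁻¹ * x.out, ?_, by group⟩
  rw [← QuotientGroup.eq]
  exact (MulAction.Quotient.smul_mk H g (g⁻¹ • x).out).symm.trans
    (by rw [QuotientGroup.out_eq', QuotientGroup.out_eq', smul_inv_smul])

theorem mem_shaTwo_iff {ρ : Representation (ZMod p) GQ A} {z : H2c (lvlS T) ρ} :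
    z ∈ shaTwo p T ρ ↔ locP2 T ρ z = 0 := by
  simp only [shaTwo, Submodule.mem_iInf, LinearMap.mem_ker]
  exact ⟨fun h => funext fun q => h q.1 q.2, fun h q hq => congrFun h ⟨q, hq⟩⟩

theorem coeff2_comp {ρA : Representation (ZMod p) GQ A} {ρB : Representation (ZMod p) GQ B}
    {ρC : Representation (ZMod p) GQ C} (φ : A →ₗ[ZMod p] B)
    (hφ : Equivariant ρA ρB (MonoidHom.id GQ) φ) (ψ : B →ₗ[ZMod p] C)
    (hψ : Equivariant ρB ρC (MonoidHom.id GQ) ψ)
    (h : Equivariant ρA ρC (MonoidHom.id GQ) (ψ ∘ₗ φ)) (x : H2c (lvlS T) ρA) :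
    coeff2 (lvlS T) ρB hψ (coeff2 (lvlS T) ρA hφ x) = coeff2 (lvlS T) ρA h x := by
  induction x using Submodule.Quotient.induction_on with
  | _ a => rfl

theorem coeff2_eq_self {ρA : Representation (ZMod p) GQ A} (φ : A →ₗ[ZMod p] A)
    (hφ : Equivariant ρA ρA (MonoidHom.id GQ) φ) (e : φ = LinearMap.id) (x : H2c (lvlS T) ρA) :
    coeff2 (lvlS T) ρA hφ x = x := by
  subst e
  induction x using Submodule.Quotient.induction_on with
  | _ a => rfl

/-- The image of localisation on `H²(G_T)` is the annihilator of the invariants of the dual. -/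
theorem exists_global_of_orth (hp : p ≠ 2) (hpT : pPrime p ∈ T) (I : InvSystem p T)
    {U : Subgroup GQ} (hU : U ∈ lvlS T) [Finite A] {ρ : Representation (ZMod p) GQ A}
    (hρ : ∀ s ∈ U, ρ s = 1) (β : P2 T ρ) (hβ : ∀ w, invTop I (twPair ρ) w β = 0) :
    ∃ F, locP2 T ρ F = β := by
  classical
  obtain ⟨G₀, hG₀, hle, hμ, hfin, hglob⟩ := exists_level_global_classes p T hp hpT I U hU
  haveI : G₀.Normal := (lvlS T).normal_of_mem G₀ hG₀
  haveI : Nonempty (GQ ⧸ G₀) := ⟨((1 : GQ) : GQ ⧸ G₀)⟩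
  have hρ₀ : ∀ s ∈ G₀, ρ s = 1 := fun s hs => hρ s (hle hs)
  have hJ := funRep_eq_one (p := p) (le_refl G₀) hρ₀
  have hsum : Equivariant (funRep ρ (GQ ⧸ G₀)) ρ (MonoidHom.id GQ)
      (sumMap (k := ZMod p) (V := A) (GQ ⧸ G₀)) := equivariant_sumMap ρ (GQ ⧸ G₀)
  have hsur : Function.Surjective (sumMap (k := ZMod p) (V := A) (GQ ⧸ G₀)) := fun a =>
    ⟨Pi.single ((1 : GQ) : GQ ⧸ G₀) a, by simp [sumMap_apply, Finset.sum_pi_single']⟩
  obtain ⟨γ, hγ, hγ0⟩ := exists_orth_lift hp hpT I hG₀ hμ hJ hρ₀ _ hsum hsur β hβ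
  let γ' : ∀ q : Nat.Primes, H2At (funRep ρ (GQ ⧸ G₀)) q := fun q =>
    if hq : q ∈ T then γ ⟨q, hq⟩ else 0
  obtain ⟨F, hF⟩ := exists_global_funRep I (twPair ρ) (twPair_perfect ρ) G₀ hμ
    (fun s hs v => by rw [hρ₀ s hs, Module.End.one_apply])
    (fun s hs w => by rw [twDual_eq_one hμ hρ₀ s hs, Module.End.one_apply]) hglob γ'
    (fun r hr => by
      have hw : ((twPair ρ).funPairing (GQ ⧸ G₀)).e.flip r ∈
          fixedBy (twDual (funRep ρ (GQ ⧸ G₀))) ⊤ := fun g _ => LinearMap.ext fun F => by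
        have := ((twPair ρ).funPairing (GQ ⧸ G₀)).equivariant g
          (funRep ρ (GQ ⧸ G₀) g⁻¹ F) r
        rw [hr g, ← rep_mul_apply, mul_inv_cancel, map_one, Module.End.one_apply] at this
        rw [twDual_apply, LinearMap.flip_apply, LinearMap.flip_apply, ← this]
      refine Eq.trans ?_ (hγ0 ⟨_, hw⟩)
      rw [invTop_apply, ← Finset.sum_coe_sort]
      refine Finset.sum_congr rfl fun q _ => ?_
      simp only [γ', dif_pos q.2]
      rfl)
  refine ⟨coeff2 (lvlS T) _ hsum F, ?_⟩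
  rw [← coeffP2_locP2, show locP2 T (funRep ρ (GQ ⧸ G₀)) F = γ from funext fun q => by
    show locH2 T (funRep ρ (GQ ⧸ G₀)) q.1 F = γ q
    rw [hF q.1 q.2]
    simp only [γ', dif_pos q.2], hγ]

variable (p T)

/-- `H²(G_T, ·)` is right exact at every surjection onto `ρ`. -/
def Good (U : Subgroup GQ) {C : Type} [AddCommGroup C] [Module (ZMod p) C]
    (ρC : Representation (ZMod p) GQ C) : Prop :=
  ∀ (B : Type) [AddCommGroup B] [Module (ZMod p) B] [Finite B]
    (ρB : Representation (ZMod p) GQ B), (∀ s ∈ U, ρB s = 1) →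
    ∀ (π : B →ₗ[ZMod p] C) (hπ : Equivariant ρB ρC (MonoidHom.id GQ) π), Function.Surjective π →
      Function.Surjective (coeff2 (lvlS T) ρB hπ)

variable {p T}
variable {U : Subgroup GQ}

theorem good_of_shaTwo_eq_bot (hp : p ≠ 2) (hpT : pPrime p ∈ T) (I : InvSystem p T)
    (hU : U ∈ lvlS T) (hμ : ∀ s ∈ U, cycloChar p s = 1) [Finite C]
    {ρC : Representation (ZMod p) GQ C} (hC : ∀ s ∈ U, ρC s = 1)
    (hsha : shaTwo p T ρC = ⊥) : Good p T U ρC := by
  intro B _ _ _ ρB hB π hπ hsur z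
  obtain ⟨γ, hγ, hγ0⟩ := exists_orth_lift hp hpT I hU hμ hB hC π hπ hsur (locP2 T ρC z)
    (fun w => invTop_locP2 I ρC w z)
  obtain ⟨F, hF⟩ := exists_global_of_orth hp hpT I hU hB γ hγ0
  refine ⟨F, sub_eq_zero.1 ((Submodule.eq_bot_iff _).1 hsha _ (mem_shaTwo_iff.2 ?_))⟩
  rw [map_sub, ← coeffP2_locP2, hF, hγ, sub_self]

theorem good_of_extension [Finite A] {ρA : Representation (ZMod p) GQ A}
    {ρB : Representation (ZMod p) GQ B} {ρC : Representation (ZMod p) GQ C}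
    (hU : U ∈ lvlS T) (hB : ∀ s ∈ U, ρB s = 1)
    (i : A →ₗ[ZMod p] B) (π : B →ₗ[ZMod p] C) (hi : Equivariant ρA ρB (MonoidHom.id GQ) i)
    (hπ : Equivariant ρB ρC (MonoidHom.id GQ) π) (hinj : Function.Injective i)
    (hsur : Function.Surjective π) (hex : LinearMap.range i = LinearMap.ker π)
    (hA : Good p T U ρA) (hC : Good p T U ρC) : Good p T U ρB := by
  intro M _ _ _ ρM hM φ hφ hsurφ z
  have hπφ : Equivariant ρM ρC (MonoidHom.id GQ) (π ∘ₗ φ) := fun g m =>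
    (congrArg π (hφ g m)).trans (hπ g (φ m))
  obtain ⟨y₁, hy₁⟩ := hC M ρM hM (π ∘ₗ φ) hπφ (hsur.comp hsurφ) (coeff2 (lvlS T) ρB hπ z)
  have hd : coeff2 (lvlS T) ρB hπ (z - coeff2 (lvlS T) ρM hφ y₁) = 0 := by
    rw [map_sub, coeff2_comp φ hφ π hπ hπφ, hy₁, sub_self]
  obtain ⟨c, hc⟩ := exists_coeff2_eq hi hπ hU hB hinj hsur hex _ hd
  let N : Submodule (ZMod p) M := (LinearMap.range i).comap φ
  have hN : ∀ g, ∀ x ∈ N, ρM g x ∈ N := fun g x hx => by
    obtain ⟨a, ha⟩ := hx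
    refine ⟨ρA g a, ?_⟩
    rw [show i (ρA g a) = ρB g (i a) from hi g a, ha]
    exact (hφ g x).symm
  obtain ⟨r, hr⟩ := i.exists_leftInverse_of_injective (LinearMap.ker_eq_bot.2 hinj)
  have hr1 : ∀ a, r (i a) = a := fun a => LinearMap.congr_fun hr a
  let φ' : N →ₗ[ZMod p] A := r ∘ₗ φ ∘ₗ N.subtype
  have hiφ : ∀ x : N, i (φ' x) = φ x.1 := fun x => by
    obtain ⟨a, ha⟩ := x.2
    show i (r (φ x.1)) = _
    rw [← ha, hr1]
  have hφ' : Equivariant (subRep ρM N hN) ρA (MonoidHom.id GQ) φ' := fun g x => hinj (by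
    rw [show i (ρA g (φ' x)) = ρB g (i (φ' x)) from hi g _, hiφ, hiφ]
    exact hφ g x.1)
  have hsurφ' : Function.Surjective φ' := fun a => by
    obtain ⟨m, hm⟩ := hsurφ (i a)
    exact ⟨⟨m, a, hm.symm⟩, hinj (by rw [hiφ]; exact hm)⟩
  haveI : Finite N := Subtype.finite
  obtain ⟨y₂, hy₂⟩ := hA N (subRep ρM N hN) (subRep_eq_one hM) φ' hφ' hsurφ' c
  refine ⟨y₁ + coeff2 (lvlS T) _ (equivariant_subtype ρM N hN) y₂, ?_⟩
  have h2 : coeff2 (lvlS T) ρM hφ (coeff2 (lvlS T) _ (equivariant_subtype ρM N hN) y₂) =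
      coeff2 (lvlS T) ρA hi (coeff2 (lvlS T) _ hφ' y₂) := by
    obtain ⟨b, rfl⟩ := Submodule.mkQ_surjective _ y₂
    exact congrArg (H2cπ (lvlS T) ρB) (Subtype.ext (funext fun g => (hiφ (b.1 g)).symm))
  rw [map_add, h2, hy₂, hc, add_sub_cancel]

theorem good_of_retract [Finite A] {ρA : Representation (ZMod p) GQ A}
    {ρC : Representation (ZMod p) GQ C} (hA : ∀ s ∈ U, ρA s = 1)
    (r : A →ₗ[ZMod p] C) (s : C →ₗ[ZMod p] A) (hr : Equivariant ρA ρC (MonoidHom.id GQ) r)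
    (hs : Equivariant ρC ρA (MonoidHom.id GQ) s) (hrs : r ∘ₗ s = LinearMap.id)
    (hgood : Good p T U ρA) : Good p T U ρC := by
  intro M _ _ _ ρM hM φ hφ hsurφ z
  let ρP : Representation (ZMod p) GQ (M × A) := ρM.prod ρA
  let N : Submodule (ZMod p) (M × A) :=
    LinearMap.ker (φ ∘ₗ LinearMap.fst (ZMod p) M A - r ∘ₗ LinearMap.snd (ZMod p) M A)
  have hmem : ∀ x : M × A, x ∈ N ↔ φ x.1 = r x.2 := fun x => by
    simp [N, sub_eq_zero]
  have hN : ∀ g, ∀ x ∈ N, ρP g x ∈ N := fun g x hx => by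
    rw [hmem] at hx ⊢
    show φ (ρM g x.1) = r (ρA g x.2)
    rw [show φ (ρM g x.1) = ρC g (φ x.1) from hφ g _, hx]
    exact (hr g x.2).symm
  have hP : ∀ s ∈ U, ρP s = 1 := fun u hu => LinearMap.ext fun x => Prod.ext
    (by show ρM u x.1 = x.1; rw [hM u hu, Module.End.one_apply])
    (by show ρA u x.2 = x.2; rw [hA u hu, Module.End.one_apply])
  let π1 : N →ₗ[ZMod p] M := LinearMap.fst (ZMod p) M A ∘ₗ N.subtype
  let π2 : N →ₗ[ZMod p] A := LinearMap.snd (ZMod p) M A ∘ₗ N.subtype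
  have h1 : Equivariant (subRep ρP N hN) ρM (MonoidHom.id GQ) π1 := fun _ _ => rfl
  have h2 : Equivariant (subRep ρP N hN) ρA (MonoidHom.id GQ) π2 := fun _ _ => rfl
  have hsur2 : Function.Surjective π2 := fun a => by
    obtain ⟨m, hm⟩ := hsurφ (r a)
    exact ⟨⟨(m, a), (hmem _).2 hm⟩, rfl⟩
  haveI : Finite N := Subtype.finite
  obtain ⟨w, hw⟩ := hgood N (subRep ρP N hN) (subRep_eq_one hP) π2 h2 hsur2
    (coeff2 (lvlS T) ρC hs z)
  refine ⟨coeff2 (lvlS T) _ h1 w, ?_⟩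
  have e : φ ∘ₗ π1 = r ∘ₗ π2 := LinearMap.ext fun x => (hmem x.1).1 x.2
  have h12 : Equivariant (subRep ρP N hN) ρC (MonoidHom.id GQ) (r ∘ₗ π2) := fun g x =>
    (congrArg r (h2 g x)).trans (hr g _)
  have h12' : Equivariant (subRep ρP N hN) ρC (MonoidHom.id GQ) (φ ∘ₗ π1) := e ▸ h12
  have hid : Equivariant ρC ρC (MonoidHom.id GQ) (r ∘ₗ s) := by rw [hrs]; exact fun _ _ => rfl
  rw [coeff2_comp π1 h1 φ hφ h12']
  conv_rhs => rw [← coeff2_eq_self (T := T) _ hid hrs z, ← coeff2_comp s hs r hr hid z, ← hw,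
    coeff2_comp π2 h2 r hr h12]
  obtain ⟨b, rfl⟩ := Submodule.mkQ_surjective _ w
  exact congrArg (H2cπ (lvlS T) ρC) (Subtype.ext (funext fun g => LinearMap.congr_fun e (b.1 g)))

/-- Permutation modules on which `μ_p` is trivial have no `Ш²` for large `T`. -/
theorem shaTwo_permRep_eq_bot (hp : p ≠ 2) (hpT : pPrime p ∈ T) {H : Subgroup GQ}
    (hH : IsOpenLvl (lvlS T) H) (hμ : ∀ s ∈ H, cycloChar p s = 1) (hcl : cardClSp p T H = 1) :
    shaTwo p T (funRep (Representation.trivial (ZMod p) GQ (ZMod p)) (GQ ⧸ H)) = ⊥ := by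
  obtain ⟨hfin, hcard⟩ := card_shaTwo_funRep_le p hp T hpT H hH hμ
  have hbot : shaTwo p T (funRep (muRep p) (GQ ⧸ H)) = ⊥ := by
    rw [hcl] at hcard
    haveI : Subsingleton (shaTwo p T (funRep (muRep p) (GQ ⧸ H))) :=
      Finite.card_le_one_iff_subsingleton.1 hcard
    exact (Submodule.subsingleton_iff_eq_bot.1 inferInstance)
  have hχ : ∀ g (x : GQ ⧸ H),
      cycloChar p x.out = cycloChar p g * cycloChar p (g⁻¹ • x).out := fun g x => by
    obtain ⟨h, hh, e⟩ := out_eq_mul g x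
    rw [e, map_mul, map_mul, hμ h hh, mul_one]
  let φ : (GQ ⧸ H → ZMod p) →ₗ[ZMod p] (GQ ⧸ H → ZMod p) :=
    LinearMap.pi fun x => (cycloChar p x.out : ZMod p) • LinearMap.proj x
  let ψ : (GQ ⧸ H → ZMod p) →ₗ[ZMod p] (GQ ⧸ H → ZMod p) :=
    LinearMap.pi fun x => (((cycloChar p x.out)⁻¹ : (ZMod p)ˣ) : ZMod p) • LinearMap.proj x
  have hφ : Equivariant (funRep (Representation.trivial (ZMod p) GQ (ZMod p)) (GQ ⧸ H))
      (funRep (muRep p) (GQ ⧸ H)) (MonoidHom.id GQ) φ := fun g F => funext fun x => by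
    show (cycloChar p x.out : ZMod p) * F (g⁻¹ • x) =
      (cycloChar p g : ZMod p) * ((cycloChar p (g⁻¹ • x).out : ZMod p) * F (g⁻¹ • x))
    rw [hχ g x, Units.val_mul, mul_assoc]
  have hψ : Equivariant (funRep (muRep p) (GQ ⧸ H))
      (funRep (Representation.trivial (ZMod p) GQ (ZMod p)) (GQ ⧸ H)) (MonoidHom.id GQ) ψ :=
    fun g F => funext fun x => by
    show (((cycloChar p x.out)⁻¹ : (ZMod p)ˣ) : ZMod p) *
        ((cycloChar p g : ZMod p) * F (g⁻¹ • x)) =
      (((cycloChar p (g⁻¹ • x).out)⁻¹ : (ZMod p)ˣ) : ZMod p) * F (g⁻¹ • x)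
    rw [hχ g x, ← mul_assoc, mul_inv, Units.val_mul, mul_comm ((cycloChar p g)⁻¹ : (ZMod p)ˣ).1,
      mul_assoc _ _ (cycloChar p g : ZMod p), Units.inv_mul, mul_one]
  have hid : ψ ∘ₗ φ = LinearMap.id := LinearMap.ext fun F => funext fun x => by
    show (((cycloChar p x.out)⁻¹ : (ZMod p)ˣ) : ZMod p) * ((cycloChar p x.out : ZMod p) * F x) = F x
    rw [← mul_assoc, Units.inv_mul, one_mul]
  refine (Submodule.eq_bot_iff _).2 fun z hz => ?_
  have h0 : coeff2 (lvlS T) _ hφ z = 0 := (Submodule.eq_bot_iff _).1 hbot _ (mem_shaTwo_iff.2 (by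
    rw [← coeffP2_locP2, mem_shaTwo_iff.1 hz, map_zero]))
  rw [← coeff2_eq_self (T := T) (ψ ∘ₗ φ) (by rw [hid]; exact fun _ _ => rfl) hid z,
    ← coeff2_comp φ hφ ψ hψ (by rw [hid]; exact fun _ _ => rfl), h0, map_zero]

theorem cycloChar_eq_one_of_pow (hμ : ∀ s ∈ U, cycloChar p s = 1) {s : GQ}
    (h : ∃ k : ℕ, s ^ p ^ k ∈ U) : cycloChar p s = 1 := by
  obtain ⟨k, hk⟩ := h
  refine Units.ext ?_
  have h1 : ((cycloChar p s : ZMod p)) ^ p ^ k = 1 := by
    rw [← Units.val_pow_eq_pow_val, ← map_pow, hμ _ hk, Units.val_one]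
  rwa [ZMod.pow_card_pow] at h1

/-- Right exactness of `H²(G_T, ·)` for large `T`. -/
theorem good_of_sylow (hp : p ≠ 2) (hpT : pPrime p ∈ T) (I : InvSystem p T) (hU : U ∈ lvlS T)
    (hμ : ∀ s ∈ U, cycloChar p s = 1) {P : Subgroup GQ} (hUP : U ≤ P) (hidx : ¬ p ∣ P.index)
    (hPp : ∀ s ∈ P, ∃ k : ℕ, s ^ p ^ k ∈ U) (hcl : cardClSp p T P = 1) [Finite C]
    {ρC : Representation (ZMod p) GQ C} (hC : ∀ s ∈ U, ρC s = 1) : Good p T U ρC := by
  classical
  haveI hUn : U.Normal := (lvlS T).normal_of_mem U hU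
  have hP : IsOpenLvl (lvlS T) P := ⟨U, hU, hUP⟩
  haveI := hP.finite_quotient
  haveI := Fintype.ofFinite (GQ ⧸ P)
  have hμP : ∀ s ∈ P, cycloChar p s = 1 := fun s hs => cycloChar_eq_one_of_pow hμ (hPp s hs)
  set J := funRep ρC (GQ ⧸ P) with hJdef
  have hJ : ∀ s ∈ U, J s = 1 := funRep_eq_one hUP hC
  -- the stable subspaces of the induced module
  let Jsub : Submodule (ZMod p) C → Submodule (ZMod p) (GQ ⧸ P → C) := fun N =>
    ⨅ x : GQ ⧸ P, N.comap ((ρC x.out⁻¹) ∘ₗ LinearMap.proj x)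
  have hmem : ∀ N F, F ∈ Jsub N ↔ ∀ x : GQ ⧸ P, ρC x.out⁻¹ (F x) ∈ N := fun N F => by
    simp [Jsub, Submodule.mem_iInf]
  have hkey : ∀ (g : GQ) (F : GQ ⧸ P → C) (x : GQ ⧸ P), ∃ h ∈ P,
      ρC x.out⁻¹ (J g F x) = ρC h (ρC (g⁻¹ • x).out⁻¹ (F (g⁻¹ • x))) := fun g F x => by
    obtain ⟨h, hh, e⟩ := out_eq_mul g x
    refine ⟨h⁻¹, inv_mem hh, ?_⟩
    rw [hJdef, funRep_apply, ← rep_mul_apply, ← rep_mul_apply]
    congr 2
    rw [e]; group
  have hJsub : ∀ N, (∀ s ∈ P, ∀ c ∈ N, ρC s c ∈ N) →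
      ∀ g, ∀ F ∈ Jsub N, J g F ∈ Jsub N := fun N hN g F hF => by
    rw [hmem] at hF ⊢
    intro x
    obtain ⟨h, hh, e⟩ := hkey g F x
    rw [e]
    exact hN h hh _ (hF _)
  suffices H : ∀ n (N : Submodule (ZMod p) C) (hN : ∀ s ∈ P, ∀ c ∈ N, ρC s c ∈ N),
      Nat.card N ≤ n → Good p T U (subRep J (Jsub N) (hJsub N hN)) by
    have hu : IsUnit (P.index : ZMod p) := by
      rw [isUnit_iff_ne_zero, ne_eq, ZMod.natCast_eq_zero_iff]
      exact hidx
    obtain ⟨u, hu⟩ := hu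
    let N : Submodule (ZMod p) C := ⊤
    have hN : ∀ s ∈ P, ∀ c ∈ N, ρC s c ∈ N := fun _ _ _ _ => trivial
    have hall : ∀ F, F ∈ Jsub N := fun F => (hmem N F).2 fun _ => trivial
    haveI : Finite (Jsub N) := Subtype.finite
    refine good_of_retract (subRep_eq_one hJ)
      ((((u⁻¹ : (ZMod p)ˣ) : ZMod p)) • (sumMap (k := ZMod p) (GQ ⧸ P) ∘ₗ (Jsub N).subtype))
      (LinearMap.codRestrict (Jsub N) (constMap (k := ZMod p) (GQ ⧸ P)) fun c => hall _)
      (fun g F => ?_) (fun g c => Subtype.ext rfl) (LinearMap.ext fun c => ?_)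
      (H _ N hN le_rfl)
    · simp only [LinearMap.smul_apply, LinearMap.comp_apply, Submodule.subtype_apply, map_smul]
      congr 1
      exact equivariant_sumMap ρC (GQ ⧸ P) g F.1
    · simp only [LinearMap.smul_apply, LinearMap.comp_apply, Submodule.subtype_apply,
        LinearMap.id_apply, LinearMap.codRestrict_apply, sumMap_apply]
      show ((u⁻¹ : (ZMod p)ˣ) : ZMod p) • (∑ _x : GQ ⧸ P, c) = c
      rw [Finset.sum_const, Finset.card_univ, ← Nat.card_eq_fintype_card, ← Subgroup.index,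
        ← Nat.cast_smul_eq_nsmul (ZMod p), ← hu, smul_smul, Units.inv_mul, one_smul]
  intro n
  induction n with
  | zero => exact fun N hN h => absurd h (not_le.2 (Nat.card_pos))
  | succ n ih =>
    intro N hN hcard
    haveI : Finite N := Subtype.finite
    haveI : Module.Finite (ZMod p) N := Module.Finite.of_finite
    by_cases hN0 : N = ⊥
    · have h0 : ∀ F : Jsub N, F = 0 := fun F => Subtype.ext (funext fun x => by
        have := (hmem N F.1).1 F.2 x
        replace this := (Submodule.eq_bot_iff N).1 hN0 _ this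
        have h' := congrArg (ρC x.out) this
        rwa [map_zero, ← rep_mul_apply, mul_inv_cancel, map_one, Module.End.one_apply] at h')
      intro M _ _ _ ρM hM φ hφ hsurφ z
      refine ⟨0, ?_⟩
      obtain ⟨b, rfl⟩ := Submodule.mkQ_surjective _ z
      rw [map_zero, eq_comm]
      refine (H2cπ_eq_zero _ _).2 ?_
      convert (B2 (lvlS T) (subRep J (Jsub N) (hJsub N hN))).zero_mem using 1
      funext g
      exact h0 _
    -- a `P`-fixed functional on `N`
    haveI : Nontrivial N := Submodule.nontrivial_iff_ne_bot.2 hN0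
    let θ : P →* Module.End (ZMod p) (Module.Dual (ZMod p) N) :=
      { toFun := fun s => ((ρC (s : GQ)⁻¹).restrict (hN _ (inv_mem s.2))).dualMap
        map_one' := LinearMap.ext fun f => LinearMap.ext fun c =>
          congrArg f (Subtype.ext (by simp))
        map_mul' := fun a b => LinearMap.ext fun f => LinearMap.ext fun c =>
          congrArg f (Subtype.ext (by simp)) }
    have hθp : IsPGroup p (θ.toHomUnits.range : Subgroup (Module.End (ZMod p) (Module.Dual (ZMod p) N))ˣ) := by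
      rintro ⟨_, s, rfl⟩
      obtain ⟨k, hk⟩ := hPp s.1 s.2
      refine ⟨k, Subtype.ext (Units.ext (LinearMap.ext fun f => LinearMap.ext fun c => ?_))⟩
      show (θ.toHomUnits s ^ p ^ k : (Module.End (ZMod p) (Module.Dual (ZMod p) N))ˣ).1 f c = f c
      rw [← map_pow]
      refine congrArg f (Subtype.ext ?_)
      show ρC ((s ^ p ^ k : P) : GQ)⁻¹ c.1 = c.1
      rw [Subgroup.coe_pow, hC _ (inv_mem hk), Module.End.one_apply]
    obtain ⟨f, hf, hf0⟩ := hθp.exists_fixed_point_of_prime_dvd_card_of_fixed_point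
      (Module.Dual (ZMod p) N) (by
        rw [Module.natCard_eq_pow_finrank (K := ZMod p), Nat.card_zmod]
        exact dvd_pow_self p (by rw [Subspace.dual_finrank_eq]; exact Module.finrank_pos.ne'))
      (a := 0) (fun g => smul_zero g)
    have hfix : ∀ s : GQ, ∀ hs : s ∈ P, ∀ c : N,
        f ⟨ρC s c.1, hN s hs _ c.2⟩ = f c := fun s hs c => by
      have := hf ⟨θ.toHomUnits ⟨s⁻¹, inv_mem hs⟩, _, rfl⟩
      have e := LinearMap.congr_fun this c
      refine Eq.trans (congrArg f (Subtype.ext ?_)) e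
      show ρC s c.1 = ρC (s⁻¹)⁻¹ c.1
      rw [inv_inv]
    obtain ⟨c₀, hc₀⟩ : ∃ c₀, f c₀ = 1 := by
      obtain ⟨c, hc⟩ : ∃ c, f c ≠ 0 := by
        by_contra h
        push Not at h
        exact hf0 (LinearMap.ext h).symm
      exact ⟨(f c)⁻¹ • c, by rw [map_smul, smul_eq_mul, inv_mul_cancel₀ hc]⟩
    let N' : Submodule (ZMod p) C := (LinearMap.ker f).map N.subtype
    have hN' : ∀ s ∈ P, ∀ c ∈ N', ρC s c ∈ N' := by
      rintro s hs _ ⟨c, hc, rfl⟩
      exact ⟨⟨ρC s c.1, hN s hs _ c.2⟩, LinearMap.mem_ker.2 ((hfix s hs c).trans hc), rfl⟩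
    have hlt : Nat.card N' ≤ n := by
      have h1 : Nat.card N' = Nat.card (LinearMap.ker f) := (Nat.card_congr
        (Submodule.equivMapOfInjective N.subtype (Submodule.injective_subtype N) _).toEquiv).symm
      have h2 : Nat.card (LinearMap.ker f) < Nat.card N := by
        haveI := Fintype.ofFinite N
        haveI := Fintype.ofFinite (LinearMap.ker f)
        rw [Nat.card_eq_fintype_card, Nat.card_eq_fintype_card]
        refine Fintype.card_lt_of_injective_of_notMem (LinearMap.ker f).subtype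
          (Submodule.injective_subtype _) (b := c₀) ?_
        rintro ⟨y, hy⟩
        have := y.2
        rw [LinearMap.mem_ker] at this
        change f (y : N) = 0 at this
        rw [show (y : N) = c₀ from hy, hc₀] at this
        exact one_ne_zero this
      omega
    let Λ : Jsub N →ₗ[ZMod p] (GQ ⧸ P → ZMod p) :=
      { toFun := fun F x => f ⟨ρC x.out⁻¹ (F.1 x), (hmem N F.1).1 F.2 x⟩
        map_add' := fun F G => funext fun x => by
          rw [Pi.add_apply, ← map_add]; exact congrArg f (Subtype.ext (by simp))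
        map_smul' := fun a F => funext fun x => by
          rw [Pi.smul_apply, RingHom.id_apply, ← map_smul]; exact congrArg f (Subtype.ext (by simp)) }
    have hΛ : Equivariant (subRep J (Jsub N) (hJsub N hN))
        (funRep (Representation.trivial (ZMod p) GQ (ZMod p)) (GQ ⧸ P)) (MonoidHom.id GQ) Λ :=
      fun g F => funext fun x => by
        obtain ⟨h, hh, e⟩ := hkey g F.1 x
        refine Eq.trans (congrArg f (Subtype.ext ?_))
          (hfix h hh ⟨_, (hmem N F.1).1 F.2 (g⁻¹ • x)⟩)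
        exact e
    have hle : Jsub N' ≤ Jsub N := fun F hF => (hmem N F).2 fun x => by
      obtain ⟨c, -, e⟩ := (hmem N' F).1 hF x
      exact e ▸ c.2
    haveI : Finite (Jsub N') := Subtype.finite
    have hperm : ∀ s ∈ U,
        funRep (Representation.trivial (ZMod p) GQ (ZMod p)) (GQ ⧸ P) s = 1 :=
      funRep_eq_one hUP fun _ _ => rfl
    refine good_of_extension hU (subRep_eq_one hJ) (Submodule.inclusion hle) Λ
      (fun g F => Subtype.ext rfl) hΛ (Submodule.inclusion_injective hle) (fun a => ?_) ?_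
      (ih N' hN' hlt)
      (good_of_shaTwo_eq_bot hp hpT I hU hμ hperm (shaTwo_permRep_eq_bot hp hpT hP hμP hcl))
    · refine ⟨⟨fun x => a x • ρC x.out c₀.1, (hmem N _).2 fun x => ?_⟩, funext fun x => ?_⟩
      · rw [map_smul, ← rep_mul_apply, inv_mul_cancel, map_one, Module.End.one_apply]
        exact N.smul_mem _ c₀.2
      · refine Eq.trans (congrArg f (Subtype.ext (a2 := (a x) • c₀) ?_)) ?_
        · show ρC x.out⁻¹ (a x • ρC x.out c₀.1) = a x • c₀.1
          rw [map_smul, ← rep_mul_apply, inv_mul_cancel, map_one, Module.End.one_apply]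
        · rw [map_smul, hc₀, smul_eq_mul, mul_one]
    · ext F
      constructor
      · rintro ⟨G, rfl⟩
        refine LinearMap.mem_ker.2 (funext fun x => ?_)
        obtain ⟨c, hc, e⟩ := (hmem N' G.1).1 G.2 x
        exact Eq.trans (congrArg f (Subtype.ext e.symm)) hc
      · intro hF
        refine ⟨⟨F.1, (hmem N' F.1).2 fun x => ⟨⟨_, (hmem N F.1).1 F.2 x⟩,
          congrFun (LinearMap.mem_ker.1 hF) x, rfl⟩⟩, Subtype.ext rfl⟩

/-- Finiteness of `H²(G_T)`. -/
theorem finite_H2S (hp : p ≠ 2) (hpT : pPrime p ∈ T) (hU : U ∈ lvlS T)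
    (hμ : ∀ s ∈ U, cycloChar p s = 1) [Finite A] {ρ : Representation (ZMod p) GQ A}
    (hρ : ∀ s ∈ U, ρ s = 1) : Finite (H2c (lvlS T) ρ) := by
  have hs := smooth_of_triv hU hρ
  have hs' := smooth_of_triv hU (twDual_eq_one hμ hρ)
  obtain ⟨Bp, -, hBp⟩ := exists_sha_pairing_nondegenerate p hp T hpT (twPair ρ)
    (twPair_perfect ρ) hs hs'
  haveI := finite_Z1S T (twDual ρ) hs'
  haveI : Finite (H1c (lvlS T) (twDual ρ)) := Finite.of_surjective _ (Submodule.mkQ_surjective _)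
  haveI : Finite (shaOne p T (twDual ρ)) := Subtype.finite
  haveI : Finite (shaTwo p T ρ) := Finite.of_injective (fun x y => Bp y x) fun x x' h =>
    sub_eq_zero.1 (hBp _ fun y => by rw [map_sub, sub_eq_zero]; exact congrFun h y)
  haveI := finite_P2 ρ (S := T) hs
  have hker : ∀ z, z ∈ LinearMap.ker (locP2 T ρ) → z ∈ shaTwo p T ρ := fun z hz =>
    mem_shaTwo_iff.2 hz
  haveI : Finite (LinearMap.ker (locP2 T ρ)) :=
    Finite.of_injective (fun z => (⟨z.1, hker z.1 z.2⟩ : shaTwo p T ρ))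
      fun a b h => Subtype.ext (congrArg (fun z : shaTwo p T ρ => (z : H2c (lvlS T) ρ)) h)
  haveI : Finite (H2c (lvlS T) ρ ⧸ LinearMap.ker (locP2 T ρ)) :=
    Finite.of_equiv _ (locP2 T ρ).quotKerEquivRange.symm.toEquiv
  haveI : Finite (H2c (lvlS T) ρ ⧸ (LinearMap.ker (locP2 T ρ)).toAddSubgroup) :=
    ‹Finite (H2c (lvlS T) ρ ⧸ LinearMap.ker (locP2 T ρ))›
  haveI : Finite (LinearMap.ker (locP2 T ρ)).toAddSubgroup :=
    ‹Finite (LinearMap.ker (locP2 T ρ))›
  exact Finite.of_equiv _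
    (AddSubgroup.addGroupEquivQuotientProdAddSubgroup
      (s := (LinearMap.ker (locP2 T ρ)).toAddSubgroup)).symm

/-- The dimension of `H²(G_T)`. -/
theorem finrank_H2S (hp : p ≠ 2) (hpT : pPrime p ∈ T) (hU : U ∈ lvlS T)
    (hμ : ∀ s ∈ U, cycloChar p s = 1) [Finite A] {ρ : Representation (ZMod p) GQ A}
    (hρ : ∀ s ∈ U, ρ s = 1) :
    finrank (ZMod p) (H2c (lvlS T) ρ) + finrank (ZMod p) (fixedBy (twDual ρ) ⊤) =
      finrank (ZMod p) (shaTwo p T ρ) +
        ∑ q ∈ T, finrank (ZMod p) (fixedBy ((twDual ρ).comp (loc q)) ⊤) := by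
  classical
  obtain ⟨I⟩ := nonempty_invSystem p T hp hpT
  haveI := finite_H2S hp hpT hU hμ hρ
  haveI : Module.Finite (ZMod p) (H2c (lvlS T) ρ) := Module.Finite.of_finite
  have hs := smooth_of_triv hU hρ
  have hs' := smooth_of_triv hU (twDual_eq_one hμ hρ)
  haveI := finite_P2 ρ (S := T) hs
  haveI : Module.Finite (ZMod p) (P2 T ρ) := Module.Finite.of_finite
  haveI : Module.Finite (ZMod p) (fixedBy (twDual ρ) ⊤) := Module.Finite.of_finite
  haveI : ∀ q : T, Module.Finite (ZMod p) (H2At ρ q.1) := fun q =>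
    haveI := FLTA.PT.finite_localH2 p q.1 (smooth_loc hs q.1)
    Module.Finite.of_finite
  haveI : ∀ q : T, Module.Free (ZMod p) (H2At ρ q.1) := fun q => Module.Free.of_divisionRing _ _
  have hinj := invTop_injective I hp hpT (twPair ρ) (twPair_perfect ρ) hs hs'
  have hrange : LinearMap.range (locP2 T ρ) =
      (LinearMap.range (invTop I (twPair ρ))).dualCoannihilator := by
    ext β
    rw [Submodule.mem_dualCoannihilator]
    constructor
    · rintro ⟨F, rfl⟩ _ ⟨w, rfl⟩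
      exact invTop_locP2 I ρ w F
    · intro h
      obtain ⟨F, hF⟩ := exists_global_of_orth hp hpT I hU hρ β fun w => h _ ⟨w, rfl⟩
      exact ⟨F, hF⟩
  have hker : LinearMap.ker (locP2 T ρ) = shaTwo p T ρ := by
    ext z
    exact mem_shaTwo_iff.symm
  have h1 := LinearMap.finrank_range_add_finrank_ker (locP2 T ρ)
  rw [hker] at h1
  have h2 := Subspace.finrank_add_finrank_dualCoannihilator_eq
    (LinearMap.range (invTop I (twPair ρ)))
  rw [LinearMap.finrank_range_of_inj hinj, ← hrange] at h2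
  have h3 : finrank (ZMod p) (P2 T ρ) =
      ∑ q ∈ T, finrank (ZMod p) (fixedBy ((twDual ρ).comp (loc q)) ⊤) := by
    refine (Module.finrank_pi_fintype (ZMod p) (M := fun q : T => H2At ρ q.1)).trans ?_
    rw [← Finset.sum_coe_sort T fun q =>
      finrank (ZMod p) (fixedBy ((twDual ρ).comp (loc q)) ⊤)]
    exact Finset.sum_congr rfl fun q _ => finrank_H2At q.1 hp q.2 I ρ (smooth_loc hs q.1)
      (smooth_loc hs' q.1)
  omega

end FLTA.TW

end
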