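import Fermat.Agent.PoitouTate.Functorial
import Fermat.Agent.TaylorWiles.EulerBN
import Fermat.Agent.TaylorWiles.EulerGSet

/-!
# Additive invariants of modular representations (Brauer-Nesbitt, cyclic subgroups)
-/

set_option autoImplicit false
set_option linter.unusedSectionVars false
set_option linter.style.haveILetI false

noncomputable section

namespace FLTA.TW

open FLTA.PT FLTA.TW.Euler

variable (p : ℕ) [Fact p.Prime] (G : Type) [Group G]

/-- An invariant of finite `𝔽_p[G]`-modules which is additive in short exact sequences. -/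
structure AddFun where
  /-- the value -/
  val : ∀ {V : Type} [AddCommGroup V] [Module (ZMod p) V] [Finite V],
    Representation (ZMod p) G V → ℤ
  add : ∀ {A B C : Type} [AddCommGroup A] [Module (ZMod p) A] [Finite A] [AddCommGroup B]
    [Module (ZMod p) B] [Finite B] [AddCommGroup C] [Module (ZMod p) C] [Finite C]
    {ρA : Representation (ZMod p) G A} {ρB : Representation (ZMod p) G B}
    {ρC : Representation (ZMod p) G C} (i : A →ₗ[ZMod p] B) (π : B →ₗ[ZMod p] C),
    Equivariant ρA ρB (MonoidHom.id G) i → Equivariant ρB ρC (MonoidHom.id G) π →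
    Function.Injective i → Function.Surjective π → LinearMap.range i = LinearMap.ker π →
    val ρB = val ρA + val ρC

variable {p G}

/-- The scalars of a module over the group algebra. -/
abbrev scalarModule (V : Type) [AddCommGroup V] [Module (MonoidAlgebra (ZMod p) G) V] :
    Module (ZMod p) V :=
  Module.compHom V (algebraMap (ZMod p) (MonoidAlgebra (ZMod p) G))

theorem scalarModule_tower (V : Type) [AddCommGroup V] [Module (MonoidAlgebra (ZMod p) G) V] :
    letI := scalarModule (p := p) (G := G) V
    IsScalarTower (ZMod p) (MonoidAlgebra (ZMod p) G) V :=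
  letI := scalarModule (p := p) (G := G) V
  ⟨fun c r v => by
    show (c • r) • v = algebraMap (ZMod p) (MonoidAlgebra (ZMod p) G) c • (r • v)
    rw [Algebra.smul_def, mul_smul]⟩

/-- The representation on a module over the group algebra. -/
def modRep (V : Type) [AddCommGroup V] [Module (MonoidAlgebra (ZMod p) G) V] [Module (ZMod p) V]
    [IsScalarTower (ZMod p) (MonoidAlgebra (ZMod p) G) V] : Representation (ZMod p) G V :=
  Representation.ofModule' V

theorem modRep_apply (V : Type) [AddCommGroup V] [Module (MonoidAlgebra (ZMod p) G) V]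
    [Module (ZMod p) V] [IsScalarTower (ZMod p) (MonoidAlgebra (ZMod p) G) V] (g : G) (x : V) :
    modRep (p := p) (G := G) V g x = MonoidAlgebra.of (ZMod p) G g • x := rfl

theorem AddFun.val_of_subsingleton (f : AddFun p G) {V : Type} [AddCommGroup V]
    [Module (ZMod p) V] [Finite V] [Subsingleton V] (ρ : Representation (ZMod p) G V) :
    f.val ρ = 0 := by
  have h := f.add (ρA := ρ) (ρB := ρ) (ρC := ρ) LinearMap.id LinearMap.id (fun _ _ => rfl)
    (fun _ _ => rfl) (fun _ _ h => h) (fun x => ⟨x, rfl⟩) (Subsingleton.elim _ _)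
  omega

theorem AddFun.val_congr (f : AddFun p G) {V W : Type} [AddCommGroup V] [Module (ZMod p) V]
    [Finite V] [AddCommGroup W] [Module (ZMod p) W] [Finite W] {ρ : Representation (ZMod p) G V}
    {σ : Representation (ZMod p) G W} (e : V ≃ₗ[ZMod p] W) (he : ∀ g v, e (ρ g v) = σ g (e v)) :
    f.val ρ = f.val σ := by
  let z : Representation (ZMod p) G (⊥ : Submodule (ZMod p) W) := 1
  have h := f.add (ρA := ρ) (ρB := σ) (ρC := z) e.toLinearMap 0 (fun g v => he g v)
    (fun g v => Subsingleton.elim _ _) e.injective (fun x => ⟨0, Subsingleton.elim _ _⟩)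
    (by rw [LinearMap.ker_zero, LinearMap.range_eq_top.2 e.surjective])
  rw [f.val_of_subsingleton z, add_zero] at h
  exact h.symm

/-- An additive invariant of representations as an invariant of modules. -/
def AddFun.toInvariant (f : AddFun p G) : AddInvariant (MonoidAlgebra (ZMod p) G) where
  val V := open Classical in
    letI := scalarModule (p := p) (G := G) V
    haveI := scalarModule_tower (p := p) (G := G) V
    if hV : Finite V then f.val (modRep (p := p) (G := G) V) else 0
  add {A B C} _ _ _ _ _ _ _ i π hi hπ hex := by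
    letI := scalarModule (p := p) (G := G) A
    letI := scalarModule (p := p) (G := G) B
    letI := scalarModule (p := p) (G := G) C
    haveI := scalarModule_tower (p := p) (G := G) A
    haveI := scalarModule_tower (p := p) (G := G) B
    haveI := scalarModule_tower (p := p) (G := G) C
    haveI hA : Finite A := Finite.of_injective i hi
    haveI hC : Finite C := Finite.of_surjective π hπ
    rw [dif_pos hA, dif_pos ‹Finite B›, dif_pos hC]
    exact f.add (i.restrictScalars (ZMod p)) (π.restrictScalars (ZMod p))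
      (fun g v => i.map_smul _ v) (fun g v => π.map_smul _ v) hi hπ
      (SetLike.ext fun b => (hex b).symm)

theorem AddFun.toInvariant_asModule (f : AddFun p G) {V : Type} [AddCommGroup V]
    [Module (ZMod p) V] [Finite V] (ρ : Representation (ZMod p) G V) :
    f.toInvariant.val ρ.asModule = f.val ρ := by
  haveI : Finite ρ.asModule := ‹Finite V›
  letI := scalarModule (p := p) (G := G) ρ.asModule
  haveI := scalarModule_tower (p := p) (G := G) ρ.asModule
  simp only [AddFun.toInvariant]
  rw [dif_pos ‹Finite ρ.asModule›]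
  let e' : ρ.asModule ≃+ V := AddEquiv.refl V
  refine f.val_congr { e' with map_smul' := ZMod.map_smul e'.toAddMonoidHom } fun g v => ?_
  exact (Representation.asModuleEquiv_map_smul ρ _ v).trans (by
    rw [Representation.asAlgebraHom_of]; rfl)

theorem cpoly_asModule {V : Type} [AddCommGroup V] [Module (ZMod p) V] [Finite V]
    (ρ : Representation (ZMod p) G V) [Finite ρ.asModule] (g : G) :
    cpoly (ZMod p) ρ.asModule (MonoidAlgebra.of (ZMod p) G g) = (ρ g).charpoly := by
  have h : ρ.asModuleEquiv.conj (actLM (ZMod p) ρ.asModule (MonoidAlgebra.of (ZMod p) G g)) = ρ g :=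
    LinearMap.ext fun v => by
      rw [LinearEquiv.conj_apply_apply, actLM_apply, Representation.asModuleEquiv_map_smul,
        Representation.asAlgebraHom_of, LinearEquiv.apply_symm_apply]
  rw [cpoly, ← LinearEquiv.charpoly_conj ρ.asModuleEquiv, h]

theorem span_of_eq_top :
    Submodule.span (ZMod p) (Set.range (MonoidAlgebra.of (ZMod p) G)) = ⊤ := by
  refine eq_top_iff.2 fun x hx => ?_
  clear hx
  induction x using MonoidAlgebra.induction_on with
  | of g => exact Submodule.subset_span ⟨g, rfl⟩
  | add a b ha hb => exact add_mem ha hb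
  | smul c a ha => exact Submodule.smul_mem _ c ha

theorem charpoly_pi_comp {K : Type} [Field K] {n : ℕ} :
    ∀ (M : Fin n → Type) [∀ i, AddCommGroup (M i)] [∀ i, Module K (M i)]
      [∀ i, FiniteDimensional K (M i)] (L : ∀ i, M i →ₗ[K] M i),
      (LinearMap.pi fun i => (L i).comp (LinearMap.proj i)).charpoly = ∏ i, (L i).charpoly := by
  induction n with
  | zero =>
    intro M _ _ _ L
    rw [show (LinearMap.pi fun i => (L i).comp (LinearMap.proj i)) = 0 from
      LinearMap.ext fun x => Subsingleton.elim _ _, LinearMap.charpoly_zero,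
      Module.finrank_zero_of_subsingleton, pow_zero, Finset.univ_eq_empty, Finset.prod_empty]
  | succ n ih =>
    intro M _ _ _ L
    let e := Fin.consLinearEquiv K M
    have h : e.conj ((L 0).prodMap (LinearMap.pi fun i : Fin n =>
        (L i.succ).comp (LinearMap.proj i))) =
          LinearMap.pi fun i => (L i).comp (LinearMap.proj i) := LinearMap.ext fun x => by
      rw [LinearEquiv.conj_apply_apply]
      funext i
      refine Fin.cases ?_ (fun j => ?_) i <;> simp [e, Fin.tail]
    rw [← h, LinearEquiv.charpoly_conj, LinearMap.charpoly_prodMap, ih, Fin.prod_univ_succ]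

theorem exists_ppow_charpoly_eq {n : Type} [DecidableEq n] [Fintype n]
    (M : Matrix n n (ZMod p)) (k : ℕ) : (M ^ p ^ k).charpoly = M.charpoly := by
  induction k with
  | zero => rw [pow_zero, pow_one]
  | succ k ih => rw [pow_succ, pow_mul, ZMod.charpoly_pow_card, ih]

theorem charpoly_apply_ppow {V : Type} [AddCommGroup V] [Module (ZMod p) V] [Finite V]
    (ρ : Representation (ZMod p) G V) (g : G) (k : ℕ) :
    (ρ (g ^ p ^ k)).charpoly = (ρ g).charpoly := by
  classical
  let b := Module.Free.chooseBasis (ZMod p) V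
  rw [← LinearMap.charpoly_toMatrix (ρ g) b, ← LinearMap.charpoly_toMatrix (ρ (g ^ p ^ k)) b,
    map_pow, ← LinearMap.toMatrix_pow, exists_ppow_charpoly_eq]

/-- Equal fixed point counts give equal characteristic polynomials on functions. -/
theorem charpoly_prod_coset_eq [Finite G] {V : Type} [AddCommGroup V] [Module (ZMod p) V]
    [Finite V] (ρ : Representation (ZMod p) G V) {n m : ℕ} (S : Fin n → Subgroup G)
    (S' : Fin m → Subgroup G) (g : G)
    (h : ∀ g' ∈ Subgroup.zpowers g, ∑ i, Nat.card {x : G ⧸ S i // g' • x = x} =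
      ∑ i, Nat.card {x : G ⧸ S' i // g' • x = x}) :
    ∏ i, (funRep ρ (G ⧸ S i) g).charpoly = ∏ i, (funRep ρ (G ⧸ S' i) g).charpoly := by
  classical
  have hprod : ∀ {l : ℕ} (T : Fin l → Subgroup G),
      ∏ i, (funRep ρ (G ⧸ T i) g).charpoly = (funRep ρ (Σ i, G ⧸ T i) g).charpoly := by
    intro l T
    rw [← charpoly_pi_comp (fun i => G ⧸ T i → V) (fun i => funRep ρ (G ⧸ T i) g),
      ← LinearEquiv.charpoly_conj (LinearEquiv.piCurry (ZMod p) (fun i (_ : G ⧸ T i) => V))
        (funRep ρ (Σ i, G ⧸ T i) g)]
    congr 1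
  rcases isEmpty_or_nonempty (Σ i, G ⧸ S' i) with hemp | hne
  · have hm : IsEmpty (Fin m) := ⟨fun i => hemp.false ⟨i, (1 : G)⟩⟩
    have h1 := h g (Subgroup.mem_zpowers g)
    have h0 := h 1 (one_mem _)
    simp only [one_smul, Finset.univ_eq_empty, Finset.sum_empty] at h0
    have hn : IsEmpty (Fin n) := ⟨fun i => by
      have := (Finset.sum_eq_zero_iff.1 h0) i (Finset.mem_univ i)
      rw [Nat.card_eq_zero] at this
      rcases this with h' | h'
      · exact h'.false ⟨((1 : G) : G ⧸ S i), trivial⟩
      · exact (not_finite_iff_infinite.2 h') inferInstance⟩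
    simp [Finset.univ_eq_empty]
  obtain ⟨e, he⟩ := exists_equiv_of_fixed_eq (H := Subgroup.zpowers g) (α := Σ i, G ⧸ S i)
    (β := Σ i, G ⧸ S' i) fun g' => by
      have hs : ∀ {l : ℕ} (T : Fin l → Subgroup G),
          Nat.card {a : Σ i, G ⧸ T i // g' • a = a} =
            ∑ i, Nat.card {x : G ⧸ T i // (g' : G) • x = x} := by
        intro l T
        rw [← Nat.card_sigma]
        exact Nat.card_congr
          { toFun := fun a => ⟨a.1.1, a.1.2, eq_of_heq (Sigma.mk.inj_iff.1 a.2).2⟩
            invFun := fun a => ⟨⟨a.1, a.2.1⟩, congrArg (Sigma.mk a.1) a.2.2⟩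
            left_inv := fun a => rfl
            right_inv := fun a => rfl }
      exact (hs S).trans ((h g' g'.2).trans (hs S').symm)
  rw [hprod, hprod, ← LinearEquiv.charpoly_conj (LinearEquiv.funCongrLeft (ZMod p) V e)
    (funRep ρ (Σ i, G ⧸ S' i) g)]
  congr 1
  refine LinearMap.ext fun F => funext fun a => ?_
  rw [LinearEquiv.conj_apply_apply]
  show ρ g (F (g⁻¹ • a)) = ρ g (((LinearEquiv.funCongrLeft (ZMod p) V e).symm F) (g⁻¹ • e a))
  rw [show g⁻¹ • e a = e (g⁻¹ • a) from (he ⟨g⁻¹, inv_mem (Subgroup.mem_zpowers g)⟩ a).symm]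
  simp [LinearEquiv.funCongrLeft]


/-- Brauer-Nesbitt: additive invariants only depend on characteristic polynomials. -/
theorem AddFun.eq_of_charpoly_eq (f : AddFun p G) {A B : Type} [AddCommGroup A]
    [Module (ZMod p) A] [Finite A] [AddCommGroup B] [Module (ZMod p) B] [Finite B]
    (ρA : Representation (ZMod p) G A) (ρB : Representation (ZMod p) G B)
    (h : ∀ g, (ρA g).charpoly = (ρB g).charpoly) : f.val ρA = f.val ρB := by
  haveI : Finite ρA.asModule := ‹Finite A›
  haveI : Finite ρB.asModule := ‹Finite B›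
  rw [← f.toInvariant_asModule ρA, ← f.toInvariant_asModule ρB]
  refine AddInvariant.val_eq_of_cpoly_eq (ZMod p) p f.toInvariant _ span_of_eq_top ρA.asModule ρB.asModule ?_
  rintro _ ⟨g, rfl⟩
  rw [cpoly_asModule, cpoly_asModule, h g]

/-- An invariant killed on the modules induced from cyclic subgroups of order prime to `p`
vanishes. -/
theorem AddFun.eq_zero_of_forall_cyclic [Finite G] (f : AddFun p G) {V : Type} [AddCommGroup V]
    [Module (ZMod p) V] [Finite V] (ρ : Representation (ZMod p) G V)
    (h : ∀ C : Subgroup G, IsCyclic C → ¬ p ∣ Nat.card C → f.val (funRep ρ (G ⧸ C)) = 0) :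
    f.val ρ = 0 := by
  classical
  haveI := Fintype.ofFinite G
  haveI : Fintype (Subgroup G) := Fintype.ofFinite _
  obtain ⟨N, a, hN, ha, hid⟩ := exists_cyclic_identity (G := G) p
  wlog hpos : 0 < N generalizing N a
  · exact this (-N) (-a) (neg_ne_zero.2 hN) (fun C hC => ha C (by simpa using hC))
      (fun g hg => by simp [finsum_neg_distrib, ← hid g hg]) (by omega)
  -- the positive and the negative parts
  let u : Subgroup G → ℕ := fun C => (a C * Nat.card C).toNat
  let v : Subgroup G → ℕ := fun C => (-(a C * Nat.card C)).toNat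
  have huv : ∀ C, (u C : ℤ) - v C = a C * Nat.card C := fun C => by simp only [u, v]; omega
  have huvC : ∀ C, u C ≠ 0 ∨ v C ≠ 0 → IsCyclic C ∧ ¬ p ∣ Nat.card C := fun C hC => ha C fun h0 => by
    simp [u, v, h0] at hC
  have hfix : ∀ g : G, ¬ p ∣ orderOf g →
      N.toNat + ∑ C, v C * Nat.card {x : G ⧸ C // g • x = x} =
        ∑ C, u C * Nat.card {x : G ⧸ C // g • x = x} := by
    intro g hg
    have h1 := hid g hg
    rw [finsum_eq_sum_of_fintype] at h1
    have h2 : ∑ C, ((u C : ℤ) - v C) * (Nat.card {x : G ⧸ C // g • x = x} : ℤ) = N := by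
      rw [← h1]
      refine Finset.sum_congr rfl fun C _ => ?_
      rw [huv, ← card_fixed_mul C g]
      push_cast
      ring
    simp only [sub_mul, Finset.sum_sub_distrib] at h2
    zify
    rw [Int.toNat_of_nonneg hpos.le, ← h2]
    ring
  let ιn := Fin N.toNat ⊕ Σ C : Subgroup G, Fin (v C)
  let ιp := Σ C : Subgroup G, Fin (u C)
  let en := (Fintype.equivFin ιn).symm
  let ep := (Fintype.equivFin ιp).symm
  let Sn : ιn → Subgroup G := Sum.elim (fun _ => ⊤) fun i => i.1
  let Sp : ιp → Subgroup G := fun i => i.1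
  have hchar : ∀ g : G,
      (ρ g).charpoly ^ N.toNat * ∏ C, (funRep ρ (G ⧸ C) g).charpoly ^ v C =
        ∏ C, (funRep ρ (G ⧸ C) g).charpoly ^ u C := by
    suffices hreg : ∀ g : G, ¬ p ∣ orderOf g →
        (ρ g).charpoly ^ N.toNat * ∏ C, (funRep ρ (G ⧸ C) g).charpoly ^ v C =
          ∏ C, (funRep ρ (G ⧸ C) g).charpoly ^ u C by
      intro g
      obtain ⟨k, m, hm, hkm⟩ := Nat.exists_eq_pow_mul_and_not_dvd (orderOf_pos g).ne' p
        (Fact.out : p.Prime).ne_one
      have h1 := hreg (g ^ p ^ k) (by
        rwa [orderOf_pow, hkm, Nat.gcd_eq_right (dvd_mul_right _ _),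
          Nat.mul_div_cancel_left _ (pow_pos (Fact.out : p.Prime).pos k)])
      simp only [charpoly_apply_ppow] at h1
      exact h1
    intro g hg
    have htriv : (funRep ρ (G ⧸ (⊤ : Subgroup G)) g).charpoly = (ρ g).charpoly := by
      haveI : Subsingleton (G ⧸ (⊤ : Subgroup G)) := QuotientGroup.subsingleton_quotient_top
      haveI : Unique (G ⧸ (⊤ : Subgroup G)) :=
        { default := ((1 : G) : G ⧸ (⊤ : Subgroup G))
          uniq := fun x => Subsingleton.elim _ _ }
      rw [← LinearEquiv.charpoly_conj (LinearEquiv.funUnique (G ⧸ (⊤ : Subgroup G)) (ZMod p) V)]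
      congr 1
    have h1 := charpoly_prod_coset_eq ρ (Sn ∘ en) (Sp ∘ ep) g fun g' hg' => by
      have hg'' : ¬ p ∣ orderOf g' := fun hd => hg (hd.trans (by
        rw [← Nat.card_zpowers, ← Nat.card_zpowers]
        exact Subgroup.card_dvd_of_le (Subgroup.zpowers_le.2 hg')))
      simp only [Function.comp_apply]
      rw [Equiv.sum_comp en (fun i => Nat.card {x : G ⧸ Sn i // g' • x = x}),
        Equiv.sum_comp ep (fun i => Nat.card {x : G ⧸ Sp i // g' • x = x}),
        Fintype.sum_sum_type, Fintype.sum_sigma, Fintype.sum_sigma]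
      haveI : Subsingleton (G ⧸ (⊤ : Subgroup G)) := QuotientGroup.subsingleton_quotient_top
      have htop : Nat.card {x : G ⧸ (⊤ : Subgroup G) // g' • x = x} = 1 :=
        Nat.card_eq_one_iff_unique.2 ⟨inferInstance, ⟨⟨(1 : G), Subsingleton.elim _ _⟩⟩⟩
      show ∑ _i : Fin N.toNat, Nat.card {x : G ⧸ (⊤ : Subgroup G) // g' • x = x} +
          ∑ C : Subgroup G, ∑ _j : Fin (v C), Nat.card {x : G ⧸ C // g' • x = x} =
        ∑ C : Subgroup G, ∑ _j : Fin (u C), Nat.card {x : G ⧸ C // g' • x = x}
      simp only [htop, Finset.sum_const, Finset.card_univ,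
        Fintype.card_fin, smul_eq_mul, mul_one]
      exact hfix g' hg''
    simp only [Function.comp_apply] at h1
    rw [Equiv.prod_comp en (fun i => (funRep ρ (G ⧸ Sn i) g).charpoly),
      Equiv.prod_comp ep (fun i => (funRep ρ (G ⧸ Sp i) g).charpoly),
      Fintype.prod_sum_type, Fintype.prod_sigma, Fintype.prod_sigma] at h1
    change (∏ _i : Fin N.toNat, (funRep ρ (G ⧸ (⊤ : Subgroup G)) g).charpoly) *
        ∏ C : Subgroup G, ∏ _j : Fin (v C), (funRep ρ (G ⧸ C) g).charpoly =
      ∏ C : Subgroup G, ∏ _j : Fin (u C), (funRep ρ (G ⧸ C) g).charpoly at h1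
    simp only [htriv, Finset.prod_const, Finset.card_univ, Fintype.card_fin] at h1
    exact h1
  -- compare the composition factors
  let d := f.toInvariant
  haveI : Finite ρ.asModule := ‹Finite V›
  haveI : ∀ C : Subgroup G, Finite (funRep ρ (G ⧸ C)).asModule :=
    fun C => inferInstanceAs (Finite (G ⧸ C → V))
  obtain ⟨m, hm, hm'⟩ := exists_factors (ZMod p) d ρ.asModule
  choose w hw hw' using fun C : Subgroup G =>
    exists_factors (ZMod p) d (funRep ρ (G ⧸ C)).asModule
  have key : N.toNat • m + ∑ C, v C • w C = ∑ C, u C • w C := by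
    refine factors_unique (ZMod p) p (Set.range (MonoidAlgebra.of (ZMod p) G)) span_of_eq_top _ _ ?_
    rintro _ ⟨g, rfl⟩
    have hsum : ∀ (u : Subgroup G → ℕ) (s : Finset (Subgroup G)),
        ((∑ C ∈ s, u C • w C).map fun c => cpoly (ZMod p) c.Mod (MonoidAlgebra.of (ZMod p) G g)).prod =
          ∏ C ∈ s, (funRep ρ (G ⧸ C) g).charpoly ^ u C := by
      intro u s
      induction s using Finset.induction with
      | empty => simp
      | insert C s hC ihs =>
        rw [Finset.sum_insert hC, Finset.prod_insert hC, Multiset.map_add, Multiset.prod_add,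
          Multiset.map_nsmul, Multiset.prod_nsmul, ihs, ← hw', cpoly_asModule]
    rw [Multiset.map_add, Multiset.prod_add, Multiset.map_nsmul, Multiset.prod_nsmul, ← hm',
      cpoly_asModule, hsum, hsum]
    exact hchar g
  let F : Multiset (SimpleCls (MonoidAlgebra (ZMod p) G)) →+ ℤ :=
    { toFun := fun l => (l.map fun c => d.val c.Mod).sum
      map_zero' := by simp
      map_add' := fun a b => by simp }
  have hzero : ∀ (u' : Subgroup G → ℕ), (∀ C, u' C ≠ 0 → u C ≠ 0 ∨ v C ≠ 0) →
      ∑ C, u' C • F (w C) = 0 := fun u' hu => Finset.sum_eq_zero fun C _ => by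
    by_cases h0 : u' C = 0
    · rw [h0, zero_nsmul]
    · obtain ⟨h1, h2⟩ := huvC C (hu C h0)
      show u' C • (Multiset.map (fun c => d.val c.Mod) (w C)).sum = 0
      rw [← hw, show d = f.toInvariant from rfl, f.toInvariant_asModule, h C h1 h2, nsmul_zero]
  have h3 := congrArg F key
  simp only [map_add, map_sum, map_nsmul] at h3
  rw [hzero v (fun C hC => Or.inr hC), hzero u (fun C hC => Or.inl hC), add_zero,
    show F m = f.val ρ from (hm.symm.trans (f.toInvariant_asModule ρ))] at h3
  rcases smul_eq_zero.1 h3 with h4 | h4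
  · omega
  · exact h4

end FLTA.TW

end
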