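import Fermat.Agent.PoitouTate.PlacesDefs
import Fermat.Agent.PoitouTate.Functorial
import Fermat.Prelude.Def_GaloisRep_ComplexConjugation

/-!
# The Galois module `Hom(G_T(K), μ_p)`: definitions

`K` is the fixed field of the normal level `U`. Its characteristic polynomials are those of the
permutation modules on the places in `T` and at infinity, plus `μ_p`, minus the trivial module.
-/

set_option autoImplicit false

open ExtCitation NumberField
open scoped nonZeroDivisors

noncomputable section

namespace FLTA.TW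

open FLTA.PT

variable (p : ℕ) [Fact p.Prime] (T : Finset Nat.Primes) (U : Subgroup GQ)

/-- The continuous homomorphisms `G_T(K) → μ_p`. -/
abbrev homU : Submodule (ZMod p) (U → ZMod p) :=
  Z1 ((lvlS T).comap U.subtype) ((muRep p).comp U.subtype)

/-- Twisted conjugation of functions on a normal subgroup. -/
def conjFun [U.Normal] (g : GQ) : (U → ZMod p) →ₗ[ZMod p] (U → ZMod p) :=
  (cycloChar p g : ZMod p) • pp1 (MulAut.conjNormal g⁻¹).toMonoidHom LinearMap.id

theorem conjFun_apply [U.Normal] (g : GQ) (x : U → ZMod p) (u : U) :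
    conjFun p U g x u =
      (cycloChar p g : ZMod p) * x ⟨g⁻¹ * u * g, by
        simpa using Subgroup.Normal.conj_mem inferInstance _ u.2 g⁻¹⟩ := by
  show (cycloChar p g : ZMod p) * x (MulAut.conjNormal g⁻¹ u) = _
  congr 2

theorem conjFun_mem [U.Normal] (g : GQ) {x : U → ZMod p} (hx : x ∈ homU p T U) :
    conjFun p U g x ∈ homU p T U := by
  refine Submodule.smul_mem _ _ (pp1_mem_Z1 ?_ ?_ hx)
  · rintro _ ⟨V, hV, rfl⟩
    refine ⟨V, hV, ?_⟩
    have := (lvlS T).normal_of_mem V hV
    ext u
    simp only [Subgroup.mem_comap]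
    constructor
    · intro h
      simpa using Subgroup.Normal.conj_mem inferInstance _ h g⁻¹
    · intro h
      simpa [mul_assoc] using Subgroup.Normal.conj_mem inferInstance _ h g
  · intro u v
    show (cycloChar p ((MulAut.conjNormal g⁻¹ u : U) : GQ) : ZMod p) * v = (cycloChar p (u : GQ) : ZMod p) * v
    rw [MulAut.conjNormal_apply, map_mul, map_mul, mul_comm (cycloChar p g⁻¹), mul_assoc, ← map_mul,
      mul_inv_cancel, map_one, mul_one]

/-- The action of `G_ℚ` on `Hom(G_T(K), μ_p)`. -/
def conjHomU [U.Normal] : Representation (ZMod p) GQ (homU p T U) where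
  toFun g := (conjFun p U g).restrict fun _ hx => conjFun_mem p T U g hx
  map_one' := LinearMap.ext fun x => Subtype.ext (funext fun u => by
    rw [LinearMap.coe_restrict_apply, conjFun_apply]; simp)
  map_mul' g h := LinearMap.ext fun x => Subtype.ext (funext fun u => by
    simp only [Module.End.mul_apply, LinearMap.coe_restrict_apply, conjFun_apply, map_mul,
      Units.val_mul, ← mul_assoc]
    congr 2)

/-- The characteristic polynomial of `g` on the functions on `GQ ⧸ (U ⊔ K)`. -/
def cosetCharpoly [U.FiniteIndex] (K : Subgroup GQ) (g : GQ) : Polynomial (ZMod p) :=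
  haveI : (U ⊔ K).FiniteIndex := Subgroup.finiteIndex_of_le le_sup_left
  (funRep (Representation.trivial (ZMod p) GQ (ZMod p)) (GQ ⧸ (U ⊔ K)) g).charpoly

/-- The primes over `T` generate the class group of the fixed field of `U`. -/
def GenClass : Prop :=
  ∀ [NumberField (fixedK U)], Subgroup.closure
    {c : ClassGroup (𝓞 (fixedK U)) | ∃ (I : (Ideal (𝓞 (fixedK U)))⁰),
      (I : Ideal (𝓞 (fixedK U))).IsPrime ∧
      (∃ q ∈ T, ((q : ℕ) : 𝓞 (fixedK U)) ∈ (I : Ideal (𝓞 (fixedK U)))) ∧ ClassGroup.mk0 I = c} = ⊤

end FLTA.TW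

end
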