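import Fermat.Agent.TaylorWiles.EulerUnitsPlaces
import Fermat.Agent.PoitouTate.PlacesKummer

/-!
# Kummer theory: `E_T(K)/p ≅ Hom(G_T(K), μ_p)`
-/

set_option autoImplicit false
set_option linter.style.haveILetI false

open ExtCitation NumberField IsDedekindDomain
open scoped Pointwise nonZeroDivisors

noncomputable section

namespace FLTA.TW.EU

open FLTA.PT FLTA.PT.GC FLTA.PT.NT

variable {p : ℕ} [hp : Fact p.Prime] {T : Finset Nat.Primes} {U : Subgroup GQ} [U.FiniteIndex]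

variable (p) in
/-- The primitive root `zetaP` in `ℚ̄ˣ`. -/
def zM : Mq := Additive.ofMul (Units.mk0 (zetaP p) ((zetaP_spec p).ne_zero hp.out.ne_zero))

theorem cv_zM : cv (zM p) = zetaP p := rfl

theorem unitsRep_zM (g : GQ) : unitsRep g (zM p) = cycloExp p g • zM p :=
  cv_injective (by
    rw [cv_rep, cv_nsmul, cv_zM, apply_eq_pow_cycloExp p g (zetaP_spec p).pow_eq_one])

omit [U.FiniteIndex] in
theorem apply_zetaP (hμ : ∀ s ∈ U, cycloChar p s = 1) {s : GQ} (hs : s ∈ U) (k : ℕ) :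
    s (zetaP p ^ k) = zetaP p ^ k := by
  rw [map_pow, apply_eq_self_of_cycloChar_eq_one p (hμ s hs) (zetaP_spec p).pow_eq_one]

theorem zM_mem (hμ : ∀ s ∈ U, cycloChar p s = 1) : zM p ∈ eUnits T U := by
  refine mem_eUnits.2 ⟨fun s hs => cv_injective ?_, fun q _ g => ?_⟩
  · rw [cv_rep, cv_zM]
    exact apply_eq_self_of_cycloChar_eq_one p (hμ s hs) (zetaP_spec p).pow_eq_one
  · refine (pow_eq_one_iff_of_nonneg (nv_nonneg _) hp.out.ne_zero).1 ?_
    rw [← nv_pow, cv_zM, (zetaP_spec p).pow_eq_one, nv_one]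

theorem addOrderOf_zM : addOrderOf (zM p) = p := by
  refine addOrderOf_eq_prime (cv_injective ?_) fun h => ?_
  · rw [cv_nsmul, cv_zM, (zetaP_spec p).pow_eq_one]; rfl
  · have h1 : zetaP p = 1 := by rw [← cv_zM (p := p), h]; rfl
    exact (zetaP_spec p).ne_one hp.out.one_lt h1

omit [U.FiniteIndex] in
/-- The Kummer function computed with any root. -/
theorem kummerFun_of_root (hμ : ∀ s ∈ U, cycloChar p s = 1) {a x : Qb} (ha : a ≠ 0)
    (hx : x ^ p = a) {s : GQ} (hs : s ∈ U) {i : ℕ} (hi : s x = zetaP p ^ i * x) :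
    kummerFun p a s = i := by
  have : NeZero p := ⟨hp.out.ne_zero⟩
  have hx0 : x ≠ 0 := fun h => ha (by rw [← hx, h, zero_pow hp.out.ne_zero])
  have h1 : (root p a / x) ^ p = 1 := by rw [div_pow, root_spec, hx, div_self ha]
  obtain ⟨k, -, hk⟩ := (zetaP_spec p).eq_pow_of_pow_eq_one h1
  refine kummerFun_eq p ha ?_
  rw [← div_mul_cancel₀ (root p a) hx0, ← hk, map_mul, apply_zetaP hμ hs, hi]
  ring

omit [U.FiniteIndex] in
theorem fixed_cv {a : Mq} (ha : a ∈ fixedBy unitsRep U) {s : GQ} (hs : s ∈ U) :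
    s (cv a) = cv a :=
  (cv_rep s a).symm.trans (congrArg cv (ha s hs))

theorem kummer_mem_homU [U.Normal] (hU : U ∈ lvlS T) (hpT : pPrime p ∈ T)
    (hμ : ∀ s ∈ U, cycloChar p s = 1) (a : eUnits T U) :
    (fun u : U => kummerFun p (cv (a : Mq)) (u : GQ)) ∈ homU p T U := by
  obtain ⟨ha, hav⟩ := mem_eUnits.1 a.2
  have ha0 : cv (a : Mq) ≠ 0 := cv_ne_zero _
  refine (mem_Z1 _ _).2 ⟨fun g h => ?_, ?_⟩
  · obtain ⟨i, hi⟩ := exists_apply_root p ha0 (fixed_cv ha g.2)
    obtain ⟨j, hj⟩ := exists_apply_root p ha0 (fixed_cv ha h.2)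
    have hgh : ((g * h : U) : GQ) (root p (cv (a : Mq))) =
        zetaP p ^ (i + j) * root p (cv (a : Mq)) := by
      rw [Subgroup.coe_mul, AlgEquiv.mul_apply, hj, map_mul, apply_zetaP hμ g.2, hi, ← mul_assoc,
        ← pow_add, add_comm]
    show kummerFun p _ ((g * h : U) : GQ) =
      (cycloChar p (g : GQ) : ZMod p) * kummerFun p _ (h : GQ) + kummerFun p _ (g : GQ)
    rw [kummerFun_eq p ha0 hgh, kummerFun_eq p ha0 hi, kummerFun_eq p ha0 hj, hμ _ g.2,
      Units.val_one, one_mul, Nat.cast_add, add_comm]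
  · let R : Set Qb := {x | ∃ g : GQ, x ^ p = g (cv (a : Mq))}
    let O : Set Qb := Set.range fun g : GQ => g (cv (a : Mq))
    have hOfin : O.Finite := by
      haveI hi : IsIntegral ℚ (cv (a : Mq)) :=
        ((AlgebraicClosure.isAlgebraic ℚ).isAlgebraic _).isIntegral
      refine ((minpoly ℚ (cv (a : Mq))).rootSet Qb).toFinite.subset ?_
      rintro _ ⟨g, rfl⟩
      rw [Polynomial.mem_rootSet]
      exact ⟨minpoly.ne_zero hi, by
        show Polynomial.aeval (g.toAlgHom (cv (a : Mq))) (minpoly ℚ (cv (a : Mq))) = 0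
        rw [Polynomial.aeval_algHom_apply, minpoly.aeval, map_zero]⟩
    have hRfin : R.Finite := by
      classical
      refine (hOfin.biUnion fun c _ =>
        (Polynomial.X ^ p - Polynomial.C c : Polynomial Qb).roots.toFinset.finite_toSet).subset ?_
      rintro x ⟨g, hx⟩
      refine Set.mem_biUnion ⟨g, rfl⟩ ?_
      have h0 : (Polynomial.X ^ p - Polynomial.C (g (cv (a : Mq))) : Polynomial Qb) ≠ 0 :=
        Polynomial.X_pow_sub_C_ne_zero hp.out.pos _
      simp [Polynomial.mem_roots h0, hx]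
    have hV : fixer R ∈ lvlS T := by
      refine fixer_mem_lvlS R hRfin (fun g x hx => ?_) fun q hq A hA s hs x hx => ?_
      · obtain ⟨g', hg'⟩ := hx
        exact ⟨g * g', by rw [← map_pow, hg', AlgEquiv.mul_apply]⟩
      · obtain ⟨g', hg'⟩ := hx
        obtain ⟨g, hg⟩ := exists_plc_eq q hA
        have hx0 : x ≠ 0 := fun h0 => by
          rw [h0, zero_pow hp.out.ne_zero] at hg'
          exact ha0 (g'.injective (hg'.symm.trans (map_zero g').symm))
        have hsU : s ∈ U := inertia_le_of_isOpenLvl_lvlS ⟨U, hU, le_rfl⟩ hq hA hs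
        have hqp : ¬ (q : ℕ) ∣ p := fun h => hq (by
          have e : q = pPrime p := Subtype.ext ((Nat.prime_dvd_prime_iff_eq q.2 hp.out).1 h)
          rwa [e])
        refine GC.inertia_fixes_root hA hqp hs hx0 one_ne_zero ?_ (map_one s) hg ?_
        · rw [hg', ← cv_rep]
          exact fixed_cv (unitsRep_mem_fixedBy g' ha) hsU
        · rw [nv_one]
          refine (pow_eq_one_iff_of_nonneg (nv_nonneg _) hp.out.ne_zero).1 ?_
          rw [← nv_pow, hg', nv_apply]
          exact hav q hq _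
    refine ⟨_, ⟨fixer R, hV, rfl⟩, fun g s hs => ?_⟩
    obtain ⟨i, hi⟩ := exists_apply_root p ha0 (fixed_cv ha g.2)
    show kummerFun p _ ((g * s : U) : GQ) = kummerFun p _ (g : GQ)
    rw [kummerFun_eq p ha0 hi]
    refine kummerFun_eq p ha0 ?_
    rw [Subgroup.coe_mul, AlgEquiv.mul_apply,
      show (s : GQ) (root p (cv (a : Mq))) = _ from hs _ ⟨1, root_spec p _⟩, hi]

variable [U.Normal] (hU : U ∈ lvlS T) (hpT : pPrime p ∈ T) (hμ : ∀ s ∈ U, cycloChar p s = 1)

/-- The Kummer map on the `T`-units. -/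
def kap : eUnits T U →+ homU p T U :=
  AddMonoidHom.mk' (fun a => ⟨_, kummer_mem_homU hU hpT hμ a⟩) fun a b => by
    apply Subtype.ext
    funext u
    show kummerFun p (cv ((a : Mq) + (b : Mq))) (u : GQ) =
      kummerFun p (cv (a : Mq)) (u : GQ) + kummerFun p (cv (b : Mq)) (u : GQ)
    have ha0 : cv (a : Mq) ≠ 0 := cv_ne_zero _
    have hb0 : cv (b : Mq) ≠ 0 := cv_ne_zero _
    obtain ⟨i, hi⟩ := exists_apply_root p ha0 (fixed_cv (mem_eUnits.1 a.2).1 u.2)
    obtain ⟨j, hj⟩ := exists_apply_root p hb0 (fixed_cv (mem_eUnits.1 b.2).1 u.2)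
    rw [kummerFun_eq p ha0 hi, kummerFun_eq p hb0 hj, ← Nat.cast_add]
    refine kummerFun_of_root hμ (cv_ne_zero _)
      (x := root p (cv (a : Mq)) * root p (cv (b : Mq))) ?_ u.2 ?_
    · rw [mul_pow, root_spec, root_spec, cv_add]
    · rw [map_mul, hi, hj, pow_add]
      ring

theorem kap_apply (a : eUnits T U) (u : U) :
    (kap hU hpT hμ a : U → ZMod p) u = kummerFun p (cv (a : Mq)) (u : GQ) := rfl

theorem kap_eAct (g : GQ) (a : eUnits T U) :
    kap hU hpT hμ (eAct T U g a) = conjHomU p T U g (kap hU hpT hμ a) := by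
  apply Subtype.ext
  funext u
  rw [kap_apply, eAct_coe]
  show _ = conjFun p U g (kap hU hpT hμ a : U → ZMod p) u
  rw [conjFun_apply, kap_apply]
  have ha0 : cv (a : Mq) ≠ 0 := cv_ne_zero _
  have hgu : g⁻¹ * (u : GQ) * g ∈ U := Subgroup.Normal.conj_mem' inferInstance _ u.2 g
  obtain ⟨i, hi⟩ := exists_apply_root p ha0 (fixed_cv (mem_eUnits.1 a.2).1 hgu)
  rw [kummerFun_eq p ha0 hi]
  refine (kummerFun_of_root hμ (cv_ne_zero _) (x := g (root p (cv (a : Mq))))
    (i := cycloExp p g * i) ?_ u.2 ?_).trans ?_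
  · rw [← map_pow, root_spec, cv_rep]
  · have e : (u : GQ) (g (root p (cv (a : Mq)))) =
        g ((g⁻¹ * (u : GQ) * g) (root p (cv (a : Mq)))) := by
      rw [AlgEquiv.mul_apply, AlgEquiv.mul_apply]
      exact (g.apply_symm_apply _).symm
    rw [e, show (g⁻¹ * (u : GQ) * g) (root p (cv (a : Mq))) = _ from hi, map_mul, map_pow,
      apply_eq_pow_cycloExp p g (zetaP_spec p).pow_eq_one, ← pow_mul]
  · rw [Nat.cast_mul, ← val_cycloChar, ZMod.natCast_val, ZMod.cast_id]

theorem exists_nsmul_of_kap_eq_zero {a : eUnits T U} (h : kap hU hpT hμ a = 0) :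
    ∃ b : eUnits T U, p • b = a := by
  obtain ⟨ha, hav⟩ := mem_eUnits.1 a.2
  have ha0 : cv (a : Mq) ≠ 0 := cv_ne_zero _
  set r := root p (cv (a : Mq)) with hr
  have hr0 : r ≠ 0 := fun h0 => ha0 (by
    rw [← root_spec p (cv (a : Mq)), ← hr, h0, zero_pow hp.out.ne_zero])
  refine ⟨⟨Additive.ofMul (Units.mk0 r hr0), mem_eUnits.2 ⟨fun s hs => cv_injective ?_,
    fun q hq g => ?_⟩⟩, Subtype.ext (cv_injective ?_)⟩
  · obtain ⟨i, hi⟩ := exists_apply_root p ha0 (fixed_cv ha hs)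
    have h1 := congrFun (congrArg Subtype.val h) ⟨s, hs⟩
    rw [kap_apply, kummerFun_eq p ha0 hi] at h1
    have h2 : zetaP p ^ i = zetaP p ^ 0 := (zetaP_pow_eq_iff p).2 (by rw [Nat.cast_zero]; exact h1)
    rw [cv_rep]
    show s r = r
    rw [show s r = _ from hi, h2, pow_zero, one_mul]
  · refine (pow_eq_one_iff_of_nonneg (nv_nonneg _) hp.out.ne_zero).1 ?_
    rw [← nv_pow]
    show nv q g (r ^ p) = 1
    rw [hr, root_spec]
    exact hav q hq g
  · rw [AddSubgroup.coe_nsmul, cv_nsmul]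
    exact root_spec p _

end FLTA.TW.EU

end
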