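import Fermat.Agent.TaylorWiles.EulerUnitsDefs

/-!
# Characteristic polynomials of permutation modules
-/

set_option autoImplicit false

open ExtCitation Polynomial

noncomputable section

namespace FLTA.TW.EU

/-- The characteristic polynomial of `F ↦ F ∘ f` on functions on a finite type. -/
def permPoly (R : Type*) [CommRing R] {ι : Type*} [Finite ι] (f : ι → ι) : R[X] :=
  (LinearMap.funLeft R R f).charpoly

open Classical in
theorem permPoly_eq_matrix (R : Type*) [CommRing R] {ι : Type*} [Fintype ι] (f : ι → ι) :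
    permPoly R f = (Matrix.of fun i j => if f i = j then (1 : R) else 0).charpoly := by
  rw [permPoly, ← LinearMap.charpoly_toMatrix _ (Pi.basisFun R ι)]
  congr 1
  ext i j
  simp [LinearMap.funLeft_apply, Pi.single_apply]

theorem permPoly_map {R S : Type*} [CommRing R] [CommRing S] (φ : R →+* S) {ι : Type*} [Finite ι]
    (f : ι → ι) : (permPoly R f).map φ = permPoly S f := by
  classical
  have := Fintype.ofFinite ι
  rw [permPoly_eq_matrix, permPoly_eq_matrix, ← Matrix.charpoly_map]
  congr 1
  ext i j
  simp [apply_ite φ]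

theorem permPoly_congr (R : Type*) [CommRing R] {ι κ : Type*} [Finite ι] [Finite κ] {f : ι → ι}
    {g : κ → κ} (e : ι ≃ κ) (h : ∀ x, e (f x) = g (e x)) : permPoly R f = permPoly R g := by
  rw [permPoly, permPoly, ← LinearEquiv.charpoly_conj (LinearEquiv.funCongrLeft R R e.symm)]
  congr 1
  refine LinearMap.ext fun F => funext fun y => ?_
  simp [LinearEquiv.conj_apply_apply, LinearMap.funLeft_apply]
  rw [← e.symm_apply_apply (f _), h, e.apply_symm_apply, e.apply_symm_apply]

theorem permPoly_sum (R : Type*) [CommRing R] {ι κ : Type*} [Finite ι] [Finite κ] (f : ι → ι)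
    (g : κ → κ) : permPoly R (Sum.map f g) = permPoly R f * permPoly R g := by
  rw [permPoly, permPoly, permPoly, ← LinearMap.charpoly_prodMap,
    ← LinearEquiv.charpoly_conj (LinearEquiv.sumArrowLequivProdArrow ι κ R R)]
  congr 1

theorem permPoly_sigma (R : Type*) [CommRing R] {α : Type*} [Fintype α] {X : α → Type*}
    [∀ a, Finite (X a)] (f : ∀ a, X a → X a) :
    permPoly R (Sigma.map id f : (Σ a, X a) → Σ a, X a) = ∏ a, permPoly R (f a) := by
  classical
  have := fun a => Fintype.ofFinite (X a)
  let : LinearOrder α := LinearOrder.lift' (Fintype.equivFin α) (Equiv.injective _)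
  set M : Matrix (Σ a, X a) (Σ a, X a) R :=
    Matrix.of fun i j => if Sigma.map id f i = j then (1 : R) else 0
  have hM : M.BlockTriangular Sigma.fst := fun i j hij => if_neg fun h => by
    rw [← h] at hij
    exact lt_irrefl _ hij
  rw [permPoly_eq_matrix]
  refine Eq.trans (b := M.charpoly) (by convert rfl) ?_
  rw [hM.charpoly]
  rw [Finset.prod_subset (Finset.subset_univ _) fun a _ ha => ?_]
  · refine Finset.prod_congr rfl fun a _ => ?_
    let e : {x : Σ a, X a // x.1 = a} ≃ X a := Equiv.sigmaSubtype a
    rw [permPoly_eq_matrix, ← Matrix.charpoly_reindex e]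
    congr 1
    ext i j
    simp [M, Matrix.toSquareBlock_def, e, Equiv.sigmaSubtype, Sigma.map]
  · have : IsEmpty {x : Σ a, X a // x.1 = a} :=
      ⟨fun x => ha (Finset.mem_image.2 ⟨x.1, Finset.mem_univ _, x.2⟩)⟩
    simp [Matrix.charpoly]

/-- `X - 1` times the characteristic polynomial of a matrix is the permutation polynomial, given
a basis of functions made of a fixed vector and vectors transforming by the matrix. -/
theorem mul_charpoly_eq_permPoly {R ι : Type*} [CommRing R] [Finite ι] {n : Type*} [Fintype n]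
    [DecidableEq n] (f : ι → ι) (b : Module.Basis (Unit ⊕ n) R (ι → R)) (M : Matrix n n R)
    (h₁ : ∀ x, b (Sum.inl ()) (f x) = b (Sum.inl ()) x)
    (h₂ : ∀ j x, b (Sum.inr j) (f x) = ∑ i, M i j * b (Sum.inr i) x) :
    (X - 1) * M.charpoly = permPoly R f := by
  rw [permPoly, ← LinearMap.charpoly_toMatrix _ b]
  have e : LinearMap.toMatrix b b (LinearMap.funLeft R R f) =
      Matrix.fromBlocks (1 : Matrix Unit Unit R) 0 0 M := by
    ext i j
    rw [LinearMap.toMatrix_apply]
    rcases j with j | j
    · rw [show LinearMap.funLeft R R f (b (Sum.inl j)) = b (Sum.inl j) from funext h₁,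
        Module.Basis.repr_self]
      rcases i with i | i <;> simp
    · rw [show LinearMap.funLeft R R f (b (Sum.inr j)) = ∑ i, M i j • b (Sum.inr i) from funext fun x =>
        by rw [LinearMap.funLeft_apply, h₂ j x, Finset.sum_apply]; rfl, map_sum]
      simp only [map_smul, Module.Basis.repr_self, Finsupp.coe_finsetSum, Finset.sum_apply,
        Finsupp.smul_single, smul_eq_mul, mul_one, Finsupp.single_apply]
      rcases i with i | i <;> simp
  rw [e, Matrix.charpoly_fromBlocks_zero₂₁, Matrix.charpoly_one]
  simp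

theorem cosetCharpoly_eq_permPoly (p : ℕ) [Fact p.Prime] (U : Subgroup FLTA.PT.GQ) [U.FiniteIndex]
    (H : Subgroup FLTA.PT.GQ) (g : FLTA.PT.GQ) [Finite (FLTA.PT.GQ ⧸ (U ⊔ H))] :
    cosetCharpoly p U H g =
      permPoly (ZMod p) (fun x : FLTA.PT.GQ ⧸ (U ⊔ H) => g⁻¹ • x) := by
  rw [cosetCharpoly, permPoly]
  rfl

end FLTA.TW.EU

end
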