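import Fermat.Agent.TaylorWiles.EulerUnitsPlaces
import Fermat.Agent.TaylorWiles.EulerUnitsPerm
import Fermat.Agent.Herbrand.UnitTrace

/-!
# The `T`-units modulo torsion and the permutation module on the places

Logarithms of absolute values identify `E_T(K) ⊗ ℝ`, plus a fixed line, with the functions on the
places in `T` and at infinity.
-/

set_option autoImplicit false
set_option linter.style.haveILetI false

open ExtCitation NumberField Polynomial

noncomputable section

namespace FLTA.TW.EU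

open FLTA.PT FLTA.PT.GC FLTA.PT.NT

variable {T : Finset Nat.Primes} {U : Subgroup GQ}

variable (T U) in
/-- The places in `T` and at infinity, as cosets. -/
abbrev Idx : Type :=
  (GQ ⧸ (U ⊔ Subgroup.zpowers complexConjugation)) ⊕
    (Σ q : {q : Nat.Primes // q ∈ T}, GQ ⧸ (U ⊔ (loc q.1).range))

theorem finite_quot [U.FiniteIndex] (H : Subgroup GQ) : Finite (GQ ⧸ (U ⊔ H)) :=
  haveI : (U ⊔ H).FiniteIndex := Subgroup.finiteIndex_of_le le_sup_left
  inferInstance

instance finite_idx [U.FiniteIndex] : Finite (Idx T U) :=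
  haveI := finite_quot (U := U) (Subgroup.zpowers complexConjugation)
  haveI := fun q : {q : Nat.Primes // q ∈ T} => finite_quot (U := U) (loc q.1).range
  inferInstance

variable (T U) in
/-- The permutation of the places by an automorphism. -/
def idxMap (g : GQ) : Idx T U → Idx T U :=
  Sum.map (fun x => g⁻¹ • x) (Sigma.map id fun _ x => g⁻¹ • x)

section

variable [U.Normal] [U.FiniteIndex]

variable (T U) in
/-- Logarithms of the absolute values at the places. -/
def logMap : eUnits T U →+ (Idx T U → ℝ) :=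
  AddMonoidHom.mk' (fun a => Sum.elim (fun x => Real.log (cn x.out⁻¹ (cv (a : Mq))))
      (fun x => Real.log (nv x.1.1 x.2.out⁻¹ (cv (a : Mq))))) fun a b => by
    funext i
    rcases i with x | x
    · simp only [Sum.elim_inl, Pi.add_apply, AddSubgroup.coe_add, cv_add, cn_mul]
      exact Real.log_mul (cn_pos _ (cv_ne_zero _)).ne' (cn_pos _ (cv_ne_zero _)).ne'
    · simp only [Sum.elim_inr, Pi.add_apply, AddSubgroup.coe_add, cv_add, nv_mul]
      exact Real.log_mul (nv_pos (cv_ne_zero _)).ne' (nv_pos (cv_ne_zero _)).ne'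

theorem logMap_inl (a : eUnits T U) (x : GQ ⧸ (U ⊔ Subgroup.zpowers complexConjugation)) :
    logMap T U a (Sum.inl x) = Real.log (cn x.out⁻¹ (cv (a : Mq))) := rfl

theorem logMap_inr (a : eUnits T U)
    (x : Σ q : {q : Nat.Primes // q ∈ T}, GQ ⧸ (U ⊔ (loc q.1).range)) :
    logMap T U a (Sum.inr x) = Real.log (nv x.1.1 x.2.out⁻¹ (cv (a : Mq))) := rfl

theorem logMap_eAct (g : GQ) (a : eUnits T U) (i : Idx T U) :
    logMap T U (eAct T U g a) i = logMap T U a (idxMap T U g i) := by
  have ha := (mem_eUnits.1 a.2).1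
  rcases i with x | ⟨q, x⟩
  · show _ = logMap T U a (Sum.inl (g⁻¹ • x))
    obtain ⟨s, hs, he⟩ := out_inv_smul g x
    rw [logMap_inl, logMap_inl, eAct_coe, cv_rep, he, cn_mul_of_mem_sup hs _ ha]
    rfl
  · show _ = logMap T U a (Sum.inr ⟨q, g⁻¹ • x⟩)
    obtain ⟨s, hs, he⟩ := out_inv_smul g x
    rw [logMap_inr, logMap_inr, eAct_coe, cv_rep, nv_apply]
    show Real.log (nv q.1 (x.out⁻¹ * g) _) = Real.log (nv q.1 (g⁻¹ • x).out⁻¹ _)
    rw [he, nv_mul_of_mem_sup hs _ ha]

theorem logMap_of_isOfFinAddOrder {a : eUnits T U} (ha : IsOfFinAddOrder a) :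
    logMap T U a = 0 := by
  obtain ⟨n, hn, hna⟩ := isOfFinAddOrder_iff_nsmul_eq_zero.1 ha
  have h := congrArg (logMap T U) hna
  rw [map_nsmul, map_zero, smul_eq_zero] at h
  exact h.resolve_left hn.ne'

theorem natCard_idx (hQ : IsOpenLvl lvlQ U) [NumberField (fixedK U)] :
    Nat.card (Idx T U) = Units.rank (fixedK U) + 1 + (plFin T U).card := by
  haveI := finite_quot (U := U) (Subgroup.zpowers complexConjugation)
  haveI := fun q : {q : Nat.Primes // q ∈ T} => finite_quot (U := U) (loc q.1).range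
  rw [Nat.card_sum, Nat.card_sigma, card_plFin,
    ← Finset.sum_coe_sort T fun q => Nat.card (GQ ⧸ (U ⊔ (loc q).range)),
    Nat.card_eq_of_bijective (infPl U) (infPl_bijective hQ), Nat.card_eq_fintype_card, Units.rank,
    Nat.sub_add_cancel Fintype.card_pos]

theorem span_eq_top (hQ : IsOpenLvl lvlQ U) [NumberField (fixedK U)]
    (W : Submodule ℝ (Idx T U → ℝ)) (hone : Sum.elim (fun _ => (1 : ℝ)) (fun _ => 0) ∈ W)
    (hlog : ∀ a, logMap T U a ∈ W) : W = ⊤ := by
  classical
  -- functions supported at infinity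
  let J : (InfinitePlace (fixedK U) → ℝ) →ₗ[ℝ] (Idx T U → ℝ) :=
    { toFun := fun F => Sum.elim (fun x => F (infPl U x)) fun _ => 0
      map_add' := fun F G => by funext i; rcases i with i | i <;> simp
      map_smul' := fun r F => by funext i; rcases i with i | i <;> simp }
  have hJ : ∀ F, J F ∈ W := by
    intro F
    have hF : F ∈ Submodule.span ℝ (Set.range (FLTA.Herbrand.placeBasis (K := fixedK U))) := by
      rw [(FLTA.Herbrand.placeBasis (K := fixedK U)).span_eq]; trivial
    refine (Submodule.span_le (p := W.comap J)).2 ?_ hF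
    rintro _ ⟨o, rfl⟩
    rw [FLTA.Herbrand.placeBasis_apply]
    rcases o with _ | i
    · exact hone
    · show J (FLTA.Herbrand.logVec (Additive.ofMul (Units.fundSystem (fixedK U) i))) ∈ W
      set u := Units.fundSystem (fixedK U) i
      convert hlog (unitsToT U (plFin T U) (Additive.ofMul u)) using 1
      funext j
      rcases j with x | ⟨q, x⟩
      · show FLTA.Herbrand.logVec (Additive.ofMul u) (infPl U x) = _
        rw [FLTA.Herbrand.logVec_apply, infPl_apply, logMap_inl]
        rfl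
      · show (0 : ℝ) = Real.log (nv q.1 x.out⁻¹ (cv (unitVal U u)))
        rw [← abs_plOf q.1 x.out⁻¹ (unitVal_mem_fixedBy U u), abs_unitVal, Real.log_one]
  have hinl : ∀ x, Pi.single (Sum.inl x) (1 : ℝ) ∈ W := fun x => by
    convert hJ (Pi.single (infPl U x) (1 : ℝ) : InfinitePlace (fixedK U) → ℝ) using 1
    funext j
    rcases j with y | y
    · show _ = (Pi.single (infPl U x) (1 : ℝ) : InfinitePlace (fixedK U) → ℝ) (infPl U y)
      rw [Pi.single_apply, Pi.single_apply]
      simp [(infPl_bijective hQ).1.eq_iff]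
    · show _ = (0 : ℝ)
      simp
  have hinr : ∀ x, Pi.single (Sum.inr x) (1 : ℝ) ∈ W := by
    rintro ⟨q, x⟩
    obtain ⟨a, ha, ha'⟩ := exists_ord_eq_classNumber U hQ (plOf U q.1 x.out⁻¹)
    let e : eUnits T U := ⟨a, a.2, fun w hw =>
      (w.abs_eq_one_iff a).2 (ha' w fun h => hw (by rw [h]; exact mem_plFin.2 q.2))⟩
    set c := logMap T U e (Sum.inr ⟨q, x⟩) with hc
    have hc0 : c ≠ 0 := by
      rw [hc, logMap_inr, ne_eq, ← abs_plOf q.1 x.out⁻¹ a.2, Real.log_eq_zero]
      have hne : (plOf U q.1 x.out⁻¹).abs (a : Mq) ≠ 1 := fun h => by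
        rw [Pl.abs_eq_one_iff, ha] at h
        exact Nat.card_pos.ne' (by exact_mod_cast h)
      have hpos := absv_pos' q.1 ((plOf U q.1 x.out⁻¹).at (a : Mq))
      intro h
      rcases h with h | h | h
      · exact hpos.ne' h
      · exact hne h
      · change (0 : ℝ) < (plOf U q.1 x.out⁻¹).abs (a : Mq) at hpos
        linarith
    have hoff : ∀ y, y ≠ ⟨q, x⟩ → logMap T U e (Sum.inr y) = 0 := by
      rintro ⟨r, y⟩ hy
      rw [logMap_inr, ← abs_plOf r.1 y.out⁻¹ a.2,
        (Pl.abs_eq_one_iff _ _).2 (ha' _ fun h => hy ?_), Real.log_one]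
      rw [plOf_out_inv, plOf_out_inv] at h
      obtain ⟨h1, h2⟩ := Sigma.mk.inj_iff.1 h
      obtain rfl : r = q := Subtype.ext h1
      rw [(cosetPl U r.1).injective (eq_of_heq h2)]
    have e1 : logMap T U e =
        J (fun w => logMap T U e (Sum.inl ((Equiv.ofBijective _ (infPl_bijective hQ)).symm w))) +
          c • Pi.single (Sum.inr ⟨q, x⟩) 1 := by
      funext j
      rcases j with y | y
      · show _ = logMap T U e (Sum.inl
          ((Equiv.ofBijective _ (infPl_bijective hQ)).symm (infPl U y))) + _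
        rw [Equiv.ofBijective_symm_apply_apply]
        simp
      · show _ = (0 : ℝ) + _
        rcases eq_or_ne y ⟨q, x⟩ with rfl | hy
        · simp [← hc]
        · simp [hoff y hy, Pi.single_eq_of_ne (fun h => hy (Sum.inr.inj h))]
    have h2 : c • (Pi.single (Sum.inr ⟨q, x⟩) 1 : Idx T U → ℝ) ∈ W := by
      have h3 := W.sub_mem (hlog e) (hJ (fun w =>
        logMap T U e (Sum.inl ((Equiv.ofBijective _ (infPl_bijective hQ)).symm w))))
      convert h3 using 1
      rw [eq_sub_iff_add_eq, add_comm]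
      exact e1.symm
    have h4 := W.smul_mem c⁻¹ h2
    rwa [inv_smul_smul₀ hc0] at h4
  haveI := Fintype.ofFinite (Idx T U)
  refine eq_top_iff.2 fun F _ => ?_
  rw [pi_eq_sum_univ' F]
  refine W.sum_mem fun i _ => W.smul_mem _ ?_
  rcases i with x | x
  · exact hinl x
  · exact hinr x

/-- A lifted basis of the `T`-units modulo torsion, with the matrix of `g` and its characteristic
polynomial. -/
theorem exists_lattice_data (hQ : IsOpenLvl lvlQ U) (g : GQ) :
    ∃ (N : ℕ) (e : Fin N → eUnits T U) (M : Matrix (Fin N) (Fin N) ℤ),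
      (∀ a, ∃ c : Fin N → ℤ, IsOfFinAddOrder (a - ∑ i, c i • e i)) ∧
      (∀ (c : Fin N → ℤ) (n : ℤ) (b : eUnits T U),
        IsOfFinAddOrder ((∑ i, c i • e i) - n • b) → ∀ i, n ∣ c i) ∧
      (∀ j, IsOfFinAddOrder (eAct T U g (e j) - ∑ i, M i j • e i)) ∧
      (X - 1) * M.charpoly = permPoly ℤ (idxMap T U g) := by
  classical
  haveI := numberField_fixedK U hQ
  haveI : Module.Finite ℤ (eUnits T U) := finite_tUnits U hQ _
  let Q := (eUnits T U) ⧸ Submodule.torsion ℤ (eUnits T U)
  let N := Module.finrank ℤ Q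
  let bQ : Module.Basis (Fin N) ℤ Q := Module.finBasis ℤ Q
  choose e he using fun i => Submodule.Quotient.mk_surjective _ (bQ i)
  let π : eUnits T U →ₗ[ℤ] Q := (Submodule.torsion ℤ (eUnits T U)).mkQ
  have hπe : ∀ i, π (e i) = bQ i := he
  have htor : ∀ a, π a = 0 ↔ IsOfFinAddOrder a := by
    intro a
    show Submodule.Quotient.mk a = 0 ↔ _
    rw [Submodule.Quotient.mk_eq_zero, Submodule.mem_torsion_iff,
      isOfFinAddOrder_iff_zsmul_eq_zero]
    exact ⟨fun ⟨k, hk⟩ => ⟨k, nonZeroDivisors.ne_zero k.2, hk⟩,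
      fun ⟨k, hk, hk'⟩ => ⟨⟨k, mem_nonZeroDivisors_of_ne_zero hk⟩, hk'⟩⟩
  have hπsum : ∀ c : Fin N → ℤ, π (∑ i, c i • e i) = ∑ i, c i • bQ i := fun c => by
    rw [map_sum]
    exact Finset.sum_congr rfl fun i _ => by rw [map_zsmul, hπe]
  have hdec : ∀ a, IsOfFinAddOrder (a - ∑ i, bQ.repr (π a) i • e i) := fun a => by
    rw [← htor, map_sub, hπsum, bQ.sum_repr, sub_self]
  let M : Matrix (Fin N) (Fin N) ℤ := fun i j => bQ.repr (π (eAct T U g (e j))) i
  refine ⟨N, e, M, fun a => ⟨_, hdec a⟩, fun c n b hb i => ?_, fun j => hdec _, ?_⟩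
  · rw [← htor, map_sub, sub_eq_zero, hπsum, map_zsmul] at hb
    refine ⟨bQ.repr (π b) i, ?_⟩
    have h1 := congrArg (fun z => bQ.repr z i) hb
    simp only [map_sum, map_zsmul, Finsupp.coe_smul, Pi.smul_apply, smul_eq_mul] at h1
    rw [← h1, Finsupp.coe_finsetSum, Finset.sum_apply, Finset.sum_eq_single i]
    · simp
    · intro k _ hk; simp [hk.symm]
    · simp
  -- the real basis
  haveI := Fintype.ofFinite (Idx T U)
  let v : Unit ⊕ Fin N → (Idx T U → ℝ) :=
    Sum.elim (fun _ => Sum.elim (fun _ => (1 : ℝ)) fun _ => 0) fun i => logMap T U (e i)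
  have hlog : ∀ a, logMap T U a = ∑ i, (bQ.repr (π a) i : ℝ) • logMap T U (e i) := fun a => by
    have h := logMap_of_isOfFinAddOrder (hdec a)
    rw [map_sub, sub_eq_zero, map_sum] at h
    rw [h]
    exact Finset.sum_congr rfl fun i _ => by rw [map_zsmul, Int.cast_smul_eq_zsmul]
  have hspan : Submodule.span ℝ (Set.range v) = ⊤ := by
    refine span_eq_top hQ _ (Submodule.subset_span ⟨Sum.inl (), rfl⟩) fun a => ?_
    rw [hlog a]
    exact Submodule.sum_mem _ fun i _ =>
      Submodule.smul_mem _ _ (Submodule.subset_span ⟨Sum.inr i, rfl⟩)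
  have hcard : Fintype.card (Unit ⊕ Fin N) = Module.finrank ℝ (Idx T U → ℝ) := by
    rw [Module.finrank_pi, Fintype.card_sum, Fintype.card_unit, Fintype.card_fin,
      ← Nat.card_eq_fintype_card, natCard_idx hQ]
    show 1 + Module.finrank ℤ Q = _
    rw [finrank_quotient_eq_of_le_torsion le_rfl, finrank_tUnits_aux U _ hQ]
    omega
  let b := basisOfTopLeSpanOfCardEqFinrank v hspan.ge hcard
  have hb : (b : Unit ⊕ Fin N → (Idx T U → ℝ)) = v := coe_basisOfTopLeSpanOfCardEqFinrank v _ _
  have h := mul_charpoly_eq_permPoly (idxMap T U g) b (M.map (Int.castRingHom ℝ)) (fun x => by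
      rw [hb]
      rcases x with x | x <;> rfl)
    fun j x => by
      rw [hb]
      show logMap T U (e j) _ = _
      rw [← logMap_eAct, hlog, Finset.sum_apply]
      rfl
  refine Polynomial.map_injective (Int.castRingHom ℝ) Int.cast_injective ?_
  rw [Polynomial.map_mul, Polynomial.map_sub, Polynomial.map_X, Polynomial.map_one,
    ← Matrix.charpoly_map, permPoly_map]
  exact h

end

end FLTA.TW.EU

end
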