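import Fermat.Agent.TaylorWiles.EulerUnitsDefs
import Fermat.Agent.PoitouTate.NormBasics
import Fermat.Agent.PoitouTate.GlobalClassesGamma

/-!
# The `T`-units of a Galois number field and the places it has in `T` and at infinity

The places over `q` are the cosets of `U ⊔ range (loc q)`, the infinite places those of
`U ⊔ zpowers complexConjugation`; the coset of `h` gives the absolute value of `h⁻¹ x`.
-/

set_option autoImplicit false
set_option linter.style.haveILetI false

open ExtCitation NumberField IsDedekindDomain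

noncomputable section

namespace FLTA.TW.EU

open FLTA.PT FLTA.PT.GC FLTA.PT.NT

variable {T : Finset Nat.Primes} {U : Subgroup GQ}

/-- The finite places over `T`. -/
def plFin (T : Finset Nat.Primes) (U : Subgroup GQ) [U.FiniteIndex] : Finset (Pl U) :=
  T.sigma fun q =>
    haveI := Fintype.ofFinite (PlacesAt q U)
    Finset.univ

theorem mem_plFin [U.FiniteIndex] {v : Pl U} : v ∈ plFin T U ↔ v.1 ∈ T := by
  simp [plFin]

/-- The `T`-units. -/
abbrev eUnits (T : Finset Nat.Primes) (U : Subgroup GQ) [U.FiniteIndex] : AddSubgroup Mq :=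
  tUnits U (plFin T U)

theorem abs_plOf (q : Nat.Primes) (g : GQ) {a : Mq} (ha : a ∈ fixedBy unitsRep U) :
    (plOf U q g).abs a = nv q g (cv a) :=
  ((absv_atPlace_eq_abs q g ha).symm).trans (absv_atPlace q g a)

theorem mem_eUnits [U.FiniteIndex] {a : Mq} :
    a ∈ eUnits T U ↔
      a ∈ fixedBy unitsRep U ∧ ∀ q : Nat.Primes, q ∉ T → ∀ g, nv q g (cv a) = 1 := by
  constructor
  · rintro ⟨ha, h⟩
    refine ⟨ha, fun q hq g => ?_⟩
    rw [← abs_plOf q g ha]
    exact h _ (by rwa [mem_plFin])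
  · rintro ⟨ha, h⟩
    exact ⟨ha, fun v hv => h v.1 (by rwa [mem_plFin] at hv) v.rep⟩

section normal

variable [U.Normal]

theorem unitsRep_mem_fixedBy (g : GQ) {a : Mq} (ha : a ∈ fixedBy unitsRep U) :
    unitsRep g a ∈ fixedBy unitsRep U := fun s hs => by
  rw [← Module.End.mul_apply, ← map_mul, show s * g = g * (g⁻¹ * s * g) by group, map_mul,
    Module.End.mul_apply, ha _ (Subgroup.Normal.conj_mem' inferInstance s hs g)]

theorem nv_loc (q : Nat.Primes) (τ : Gl q) (g : GQ) (x : Qb) :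
    nv q (loc q τ * g) x = nv q g x := by
  haveI : Fact (q : ℕ).Prime := ⟨q.2⟩
  rw [nv, nv, AlgEquiv.mul_apply, iota_loc, norm_locAut]

theorem apply_fixed_conj {g u : GQ} (hu : u ∈ U) {a : Mq} (ha : a ∈ fixedBy unitsRep U) :
    (u * g) (cv a) = g (cv a) := by
  have h := congrArg cv (unitsRep_mem_fixedBy g ha u hu)
  rwa [cv_rep, cv_rep, ← AlgEquiv.mul_apply] at h

/-- The absolute values at `q` of a fixed element only depend on the cosets. -/
theorem nv_mul_of_mem_sup {q : Nat.Primes} {s : GQ} (hs : s ∈ U ⊔ (loc q).range) (g : GQ)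
    {a : Mq} (ha : a ∈ fixedBy unitsRep U) : nv q (s * g) (cv a) = nv q g (cv a) := by
  rw [sup_comm, Subgroup.mem_sup_of_normal_right] at hs
  obtain ⟨_, ⟨τ, rfl⟩, u, hu, rfl⟩ := hs
  rw [mul_assoc, nv_loc, nv, nv, apply_fixed_conj hu ha]

theorem out_inv_smul {H : Subgroup GQ} (g : GQ) (x : GQ ⧸ H) :
    ∃ s ∈ H, (g⁻¹ • x).out⁻¹ = s * (x.out⁻¹ * g) := by
  have h : ((g⁻¹ * x.out : GQ) : GQ ⧸ H) = g⁻¹ • x := by
    conv_rhs => rw [← x.out_eq']
    rfl
  obtain ⟨t, ht⟩ := QuotientGroup.mk_out_eq_mul H (g⁻¹ * x.out)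
  rw [h] at ht
  exact ⟨(t : GQ)⁻¹, inv_mem t.2, by rw [ht]; group⟩

theorem out_inv_mk {H : Subgroup GQ} (g : GQ) :
    ∃ s ∈ H, ((g⁻¹ : GQ) : GQ ⧸ H).out⁻¹ = s * g := by
  obtain ⟨t, ht⟩ := QuotientGroup.mk_out_eq_mul H g⁻¹
  exact ⟨(t : GQ)⁻¹, inv_mem t.2, by rw [ht]; group⟩

variable (U) in
/-- The places over `q` as cosets. -/
def cosetPl (q : Nat.Primes) : GQ ⧸ (U ⊔ (loc q).range) ≃ PlacesAt q U :=
  Equiv.ofBijective (fun x => (plOf U q x.out⁻¹).2) ⟨fun x y h => by
    have h' : plOf U q x.out⁻¹ = plOf U q y.out⁻¹ := Sigma.ext rfl (heq_of_eq h)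
    obtain ⟨τ, hτ⟩ := plOf_eq_iff.1 h'
    rw [inv_inv] at hτ
    rw [← x.out_eq', ← y.out_eq', QuotientGroup.eq]
    have e : x.out⁻¹ * y.out =
        (x.out⁻¹ * (x.out * loc q τ * y.out⁻¹)⁻¹ * x.out⁻¹⁻¹) * loc q τ := by group
    rw [e]
    exact mul_mem (Subgroup.mem_sup_left (Subgroup.Normal.conj_mem inferInstance _ (inv_mem hτ) _))
      (Subgroup.mem_sup_right ⟨τ, rfl⟩),
  fun o => by
    let v : Pl U := ⟨q, o⟩
    obtain ⟨s, hs, he⟩ := out_inv_mk (H := U ⊔ (loc q).range) v.rep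
    refine ⟨((v.rep⁻¹ : GQ) : GQ ⧸ (U ⊔ (loc q).range)), ?_⟩
    have h' : plOf U q ((v.rep⁻¹ : GQ) : GQ ⧸ (U ⊔ (loc q).range)).out⁻¹ = plOf U q v.rep := by
      rw [plOf_eq_iff, he]
      rw [sup_comm, Subgroup.mem_sup_of_normal_right] at hs
      obtain ⟨_, ⟨τ, rfl⟩, u, hu, rfl⟩ := hs
      refine ⟨τ, ?_⟩
      have e : (loc q τ * u * v.rep)⁻¹ * loc q τ * v.rep = v.rep⁻¹ * u⁻¹ * v.rep⁻¹⁻¹ := by group
      rw [e]
      exact Subgroup.Normal.conj_mem inferInstance _ (inv_mem hu) _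
    exact eq_of_heq (Sigma.mk.inj (h'.trans (plOf_rep v))).2⟩

theorem plOf_out_inv (q : Nat.Primes) (x : GQ ⧸ (U ⊔ (loc q).range)) :
    plOf U q x.out⁻¹ = ⟨q, cosetPl U q x⟩ := rfl

theorem card_plFin [U.FiniteIndex] :
    (plFin T U).card = ∑ q ∈ T, Nat.card (GQ ⧸ (U ⊔ (loc q).range)) := by
  rw [plFin, Finset.card_sigma]
  refine Finset.sum_congr rfl fun q _ => ?_
  letI := Fintype.ofFinite (PlacesAt q U)
  rw [Finset.card_univ, Fintype.card_eq_nat_card]
  exact Nat.card_congr (cosetPl U q).symm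

variable (T U) in
/-- The action of an automorphism on the `T`-units. -/
def eAct [U.FiniteIndex] (g : GQ) : eUnits T U →+ eUnits T U :=
  AddMonoidHom.mk' (fun a => ⟨unitsRep g (a : Mq), by
      obtain ⟨ha, h⟩ := mem_eUnits.1 a.2
      refine mem_eUnits.2 ⟨unitsRep_mem_fixedBy g ha, fun q hq h' => ?_⟩
      rw [cv_rep, nv_apply]
      exact h q hq _⟩)
    fun a b => Subtype.ext (map_add _ _ _)

theorem eAct_coe [U.FiniteIndex] (g : GQ) (a : eUnits T U) :
    (eAct T U g a : Mq) = unitsRep g (a : Mq) := rfl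

/-- The absolute value `x ↦ |g x|` at infinity. -/
def cn (g : GQ) (x : Qb) : ℝ := ‖complexEmbedding (g x)‖

theorem cn_pos (g : GQ) {x : Qb} (hx : x ≠ 0) : 0 < cn g x :=
  norm_pos_iff.2 ((map_ne_zero _).2 ((map_ne_zero_iff _ g.injective).2 hx))

theorem cn_mul (g : GQ) (x y : Qb) : cn g (x * y) = cn g x * cn g y := by
  rw [cn, map_mul, map_mul, norm_mul]; rfl

theorem cn_conj (g : GQ) (x : Qb) : cn (complexConjugation * g) x = cn g x := by
  rw [cn, AlgEquiv.mul_apply, complexEmbedding_complexConjugation, Complex.norm_conj]; rfl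

theorem cn_zpowers {d : GQ} (hd : d ∈ Subgroup.zpowers complexConjugation) (g : GQ) (x : Qb) :
    cn (d * g) x = cn g x := by
  obtain ⟨k, rfl⟩ := Subgroup.mem_zpowers_iff.1 hd
  rcases Int.even_or_odd k with h | h
  · obtain ⟨l, rfl⟩ := h
    rw [← two_mul, zpow_mul, zpow_two, complexConjugation_mul_self, one_zpow, one_mul]
  · obtain ⟨l, rfl⟩ := h
    rw [zpow_add, zpow_mul, zpow_two, complexConjugation_mul_self, one_zpow, one_mul, zpow_one,
      cn_conj]

/-- The absolute values at infinity of a fixed element only depend on the cosets. -/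
theorem cn_mul_of_mem_sup {s : GQ} (hs : s ∈ U ⊔ Subgroup.zpowers complexConjugation) (g : GQ)
    {a : Mq} (ha : a ∈ fixedBy unitsRep U) : cn (s * g) (cv a) = cn g (cv a) := by
  rw [sup_comm, Subgroup.mem_sup_of_normal_right] at hs
  obtain ⟨d, hd, u, hu, rfl⟩ := hs
  rw [mul_assoc, cn_zpowers hd, cn, apply_fixed_conj hu ha]
  rfl

/-- The embedding `x ↦ g x` of the fixed field. -/
def embOf (U : Subgroup GQ) (g : GQ) : fixedK U →+* ℂ :=
  (complexEmbedding.toRingHom.comp (g : Qb →+* Qb)).comp (fixedK U).val.toRingHom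

omit [U.Normal] in
theorem embOf_apply (g : GQ) (y : fixedK U) : embOf U g y = complexEmbedding (g (y : Qb)) := rfl

omit [U.Normal] in
theorem mem_of_apply_eq (hU : IsOpenLvl lvlQ U) {g₁ g₂ : GQ}
    (h : ∀ y : fixedK U, g₁ (y : Qb) = g₂ (y : Qb)) : g₁⁻¹ * g₂ ∈ U := by
  rw [← fixingSubgroup_fixedK U hU, IntermediateField.mem_fixingSubgroup_iff]
  intro y hy
  rw [AlgEquiv.mul_apply]
  show g₁.symm (g₂ y) = y
  rw [← h ⟨y, hy⟩, AlgEquiv.symm_apply_apply]

omit [U.Normal] in
theorem exists_embOf_eq (hU : IsOpenLvl lvlQ U) (φ : fixedK U →+* ℂ) : ∃ g, embOf U g = φ := by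
  haveI := numberField_fixedK U hU
  have hi : U.index ≠ 0 := by
    rw [← finrank_fixedK U hU]; exact Module.finrank_pos.ne'
  haveI : U.FiniteIndex := ⟨hi⟩
  let f : GQ ⧸ U → (fixedK U →+* ℂ) := fun x => embOf U x.out
  have hinj : Function.Injective f := fun x y h => by
    rw [← x.out_eq', ← y.out_eq', QuotientGroup.eq]
    exact mem_of_apply_eq hU fun z => complexEmbedding.injective (RingHom.congr_fun h z)
  have hcard : Nat.card (GQ ⧸ U) = Nat.card (fixedK U →+* ℂ) := by
    rw [Nat.card_eq_fintype_card (α := fixedK U →+* ℂ), Embeddings.card, finrank_fixedK U hU]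
    rfl
  obtain ⟨x, hx⟩ := (hinj.bijective_of_nat_card_le hcard.ge).2 φ
  exact ⟨x.out, hx⟩

variable (U) in
/-- The infinite places as cosets. -/
def infPl (x : GQ ⧸ (U ⊔ Subgroup.zpowers complexConjugation)) : InfinitePlace (fixedK U) :=
  InfinitePlace.mk (embOf U x.out⁻¹)

omit [U.Normal] in
theorem infPl_apply (x : GQ ⧸ (U ⊔ Subgroup.zpowers complexConjugation)) (y : fixedK U) :
    infPl U x y = cn x.out⁻¹ (y : Qb) := rfl

theorem infPl_bijective (hU : IsOpenLvl lvlQ U) : Function.Bijective (infPl U) := by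
  constructor
  · intro x y h
    rw [← x.out_eq', ← y.out_eq', QuotientGroup.eq]
    rcases InfinitePlace.mk_eq_iff.1 h with h | h
    · refine Subgroup.mem_sup_left ?_
      have h1 := mem_of_apply_eq hU (g₁ := y.out⁻¹) (g₂ := x.out⁻¹) fun z =>
        complexEmbedding.injective (RingHom.congr_fun h z).symm
      rw [inv_inv] at h1
      exact (Subgroup.Normal.mem_comm inferInstance) h1
    · have h1 := mem_of_apply_eq hU (g₁ := y.out⁻¹) (g₂ := complexConjugation * x.out⁻¹) fun z => by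
        refine complexEmbedding.injective ?_
        show complexEmbedding (y.out⁻¹ (z : Qb)) =
          complexEmbedding ((complexConjugation * x.out⁻¹) (z : Qb))
        rw [AlgEquiv.mul_apply, complexEmbedding_complexConjugation]
        exact (RingHom.congr_fun h z).symm
      rw [inv_inv, ← mul_assoc] at h1
      have h2 := (Subgroup.Normal.mem_comm inferInstance) h1
      rw [← mul_assoc] at h2
      have e : x.out⁻¹ * y.out = (x.out⁻¹ * y.out * complexConjugation) * complexConjugation := by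
        rw [mul_assoc _ complexConjugation, complexConjugation_mul_self, mul_one]
      rw [e]
      exact mul_mem (Subgroup.mem_sup_left h2)
        (Subgroup.mem_sup_right (Subgroup.mem_zpowers _))
  · intro w
    obtain ⟨g, hg⟩ := exists_embOf_eq hU w.embedding
    obtain ⟨s, hs, he⟩ := out_inv_mk (H := U ⊔ Subgroup.zpowers complexConjugation) g
    refine ⟨((g⁻¹ : GQ) : GQ ⧸ _), ?_⟩
    rw [← InfinitePlace.mk_embedding w, ← hg]
    refine InfinitePlace.ext _ _ fun y => ?_
    rw [infPl_apply, he]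
    rcases eq_or_ne (y : Qb) 0 with hy | hy
    · simp [cn, hy, embOf_apply]
    · exact cn_mul_of_mem_sup hs g (a := Additive.ofMul (Units.mk0 (y : Qb) hy))
        fun t ht => Hasse.mq_ext (mem_fixedK_iff.1 y.2 t ht)

end normal

theorem exists_torsion_generator [U.FiniteIndex] (hU : IsOpenLvl lvlQ U) :
    ∃ t : eUnits T U, IsOfFinAddOrder t ∧
      ∀ a : eUnits T U, IsOfFinAddOrder a → ∃ k : ℤ, a = k • t := by
  haveI := numberField_fixedK U hU
  obtain ⟨⟨z, hz⟩, hgen⟩ := IsCyclic.exists_generator (α := Units.torsion (fixedK U))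
  let f := unitsToT U (plFin T U)
  refine ⟨f (Additive.ofMul z), ?_, fun a ha => ?_⟩
  · exact f.toAddMonoidHom.isOfFinAddOrder
      (isOfFinAddOrder_ofMul_iff.2 ((CommGroup.mem_torsion _).1 hz))
  · have h0 : a ∈ LinearMap.ker (ordT U (plFin T U)) := by
      obtain ⟨n, hn, hna⟩ := isOfFinAddOrder_iff_nsmul_eq_zero.1 ha
      rw [LinearMap.mem_ker]
      have := congrArg (ordT U (plFin T U)) hna
      rw [map_nsmul, map_zero, smul_eq_zero] at this
      exact this.resolve_left hn.ne'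
    rw [← range_unitsToT U _ hU] at h0
    obtain ⟨u, hu⟩ := h0
    have hu' : IsOfFinAddOrder u := by
      obtain ⟨n, hn, hna⟩ := isOfFinAddOrder_iff_nsmul_eq_zero.1 ha
      refine isOfFinAddOrder_iff_nsmul_eq_zero.2 ⟨n, hn, unitsToT_injective U (plFin T U) ?_⟩
      rw [map_nsmul, hu, hna, map_zero]
    obtain ⟨k, hk⟩ := Subgroup.mem_zpowers_iff.1 (hgen ⟨Additive.toMul u,
      (CommGroup.mem_torsion _).2 (isOfFinAddOrder_ofMul_iff.1 hu')⟩)
    refine ⟨k, ?_⟩
    rw [← hu, ← map_zsmul, ← ofMul_zpow]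
    exact congrArg f (Additive.toMul.injective (congrArg Subtype.val hk).symm)

end FLTA.TW.EU

end
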