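import Fermat.Agent.TaylorWiles.FlatLocalTame
import Fermat.Agent.TaylorWiles.FlatLeading
import Mathlib.LinearAlgebra.Matrix.GeneralLinearGroup.Defs
import Mathlib.LinearAlgebra.Matrix.ToLin

/-!
# Flat first order deformations of a local residual representation

A first order deformation of `M` is `v + ε w ↦ M v + ε (M w + z M v)` on pairs of vectors;
`FlatDefo M z` says that it has an integral model, equivariant for inertia. The bound to prove is
`FlatBound M`.
-/

set_option autoImplicit false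
set_option linter.style.haveILetI false

open scoped NNReal Matrix

noncomputable section

namespace FLTA.TaylorWiles.Flat

open FLTA.PT (Gl Ql lvlLoc locAut)

attribute [local instance] FLTA.PT.factPrime

variable {q : Nat.Primes} {k : Type} [Field k]

/-- Pairs `(v, w)`, standing for `v + ε w`. -/
abbrev DV (k : Type) : Type := (Fin 2 → k) × (Fin 2 → k)

/-- Two by two matrices. -/
abbrev M2 (k : Type) : Type := Matrix (Fin 2) (Fin 2) k

/-- The action on `DV k` of the deformation given by `z`. -/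
def defoAct (M : Gl q →* (M2 k)) (z : Gl q → (M2 k)) (g : Gl q) : DV k →+ DV k where
  toFun x := (M g *ᵥ x.1, M g *ᵥ x.2 + (z g * M g) *ᵥ x.1)
  map_zero' := by simp
  map_add' x y := by
    simp only [Prod.fst_add, Prod.snd_add, Matrix.mulVec_add, Prod.mk_add_mk, Prod.mk.injEq,
      true_and]
    abel

@[simp] theorem defoAct_apply (M : Gl q →* (M2 k)) (z : Gl q → (M2 k)) (g : Gl q) (x : DV k) :
    defoAct M z g x = (M g *ᵥ x.1, M g *ᵥ x.2 + (z g * M g) *ᵥ x.1) := rfl

/-- Trace zero cocycles of the adjoint action. -/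
structure IsAdCoc (M : Gl q →* (M2 k)) (z : Gl q → (M2 k)) : Prop where
  trace : ∀ g, (z g).trace = 0
  coc : ∀ g h, z (g * h) = M g * z h * M g⁻¹ + z g
  level : ∃ U ∈ lvlLoc q, ∀ u ∈ U, z u = 0

/-- The coboundary of `X`. -/
def cobd (M : Gl q →* (M2 k)) (X : (M2 k)) (g : Gl q) : (M2 k) := M g * X * M g⁻¹ - X

/-- A deformation with an integral model. -/
structure FlatDefo (M : Gl q →* (M2 k)) (z : Gl q → (M2 k)) : Prop extends IsAdCoc M z where
  model : ∃ N : IntModel (Ql q) (DV k),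
    N.Equivariant (fun g : inerG q => defoAct M z (g : Gl q)) inerAut

/-- The standing hypotheses on the residual representation. -/
structure LocalRes [CharP k (q : ℕ)] (M : Gl q →* (M2 k)) : Prop where
  det : ∀ g, (M g).det = ((Tame.cy g : ℕ) : k)
  level : ∃ U ∈ lvlLoc q, ∀ u ∈ U, M u = 1

/-- The trace zero matrices fixed by `M`. -/
def adFixed (M : Gl q →* (M2 k)) : Set (M2 k) := {X | X.trace = 0 ∧ ∀ g, M g * X = X * M g}

/-- The coboundaries of trace zero matrices. -/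
def cobdGroup (M : Gl q →* (M2 k)) : AddSubgroup (Gl q → (M2 k)) where
  carrier := {f | ∃ X : (M2 k), X.trace = 0 ∧ f = cobd M X}
  zero_mem' := ⟨0, by simp, funext fun g => by simp [cobd]⟩
  add_mem' := by
    rintro _ _ ⟨X, hX, rfl⟩ ⟨Y, hY, rfl⟩
    exact ⟨X + Y, by simp [hX, hY], funext fun g => by
      simp only [Pi.add_apply, cobd, mul_add, add_mul]; abel⟩
  neg_mem' := by
    rintro _ ⟨X, hX, rfl⟩
    exact ⟨-X, by simp [hX], funext fun g => by
      simp only [Pi.neg_apply, cobd, mul_neg, neg_mul]; abel⟩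

/-- The flat classes fill at most `|k| · |H⁰|` classes: they lie in a group of cocycles `F` with
`|F| ≤ |k| · |H⁰| · |F ∩ B¹|`. -/
def FlatBound (M : Gl q →* (M2 k)) : Prop :=
  ∃ F : AddSubgroup (Gl q → (M2 k)), (∀ f ∈ F, IsAdCoc M f) ∧ Finite F ∧
    Nat.card F ≤ Nat.card k * Nat.card (adFixed M) * Nat.card (F ⊓ cobdGroup M : AddSubgroup _) ∧
    ∀ z, FlatDefo M z → ∃ X : (M2 k), X.trace = 0 ∧ z + cobd M X ∈ F

section basic

variable {M : Gl q →* (M2 k)} {z : Gl q → (M2 k)}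

theorem M_inv_mul (g : Gl q) : M g⁻¹ * M g = 1 := by rw [← map_mul, inv_mul_cancel, map_one]

theorem M_mul_inv (g : Gl q) : M g * M g⁻¹ = 1 := by rw [← map_mul, mul_inv_cancel, map_one]

theorem IsAdCoc.map_one (h : IsAdCoc M z) : z 1 = 0 := by
  have h1 := h.coc 1 1
  simp only [mul_one, inv_one, _root_.map_one, one_mul] at h1
  exact left_eq_add.mp h1

theorem IsAdCoc.map_inv (h : IsAdCoc M z) (g : Gl q) : z g⁻¹ = -(M g⁻¹ * z g * M g) := by
  have h1 := h.coc g⁻¹ g
  rw [inv_mul_cancel, h.map_one, inv_inv] at h1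
  exact eq_neg_of_add_eq_zero_right h1.symm

theorem isAdCoc_cobd (hM : ∃ U ∈ lvlLoc q, ∀ u ∈ U, M u = 1) (X : (M2 k)) (hX : X.trace = 0) :
    IsAdCoc M (cobd M X) := by
  refine ⟨fun g => ?_, fun g h => ?_, ?_⟩
  · rw [cobd, Matrix.trace_sub, Matrix.trace_mul_cycle, M_inv_mul, one_mul, sub_self]
  · simp only [cobd, mul_inv_rev, map_mul, mul_sub, sub_mul, mul_assoc]
    abel
  · obtain ⟨U, hU, h1⟩ := hM
    exact ⟨U, hU, fun u hu => by simp [cobd, h1 u hu, h1 u⁻¹ (inv_mem hu)]⟩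

theorem IsAdCoc.add {z' : Gl q → (M2 k)} (h : IsAdCoc M z) (h' : IsAdCoc M z') :
    IsAdCoc M (z + z') := by
  refine ⟨fun g => by simp [h.trace, h'.trace], fun a b => ?_, ?_⟩
  · simp only [Pi.add_apply, h.coc, h'.coc, mul_add, add_mul]; abel
  · obtain ⟨U, hU, h1⟩ := h.level
    obtain ⟨V, hV, h2⟩ := h'.level
    exact ⟨U ⊓ V, (lvlLoc q).inf_mem U hU V hV, fun u hu => by simp [h1 u hu.1, h2 u hu.2]⟩

theorem defoAct_one (h : IsAdCoc M z) (x : DV k) : defoAct M z 1 x = x := by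
  simp [h.map_one]

theorem defoAct_mul (h : IsAdCoc M z) (a b : Gl q) (x : DV k) :
    defoAct M z (a * b) x = defoAct M z a (defoAct M z b x) := by
  simp only [defoAct_apply, map_mul, h.coc, Matrix.mulVec_add, Matrix.mulVec_mulVec, add_mul,
    Matrix.add_mulVec, Prod.mk.injEq, true_and]
  rw [show M a * z b * M a⁻¹ * (M a * M b) = M a * (z b * M b) by
    rw [mul_assoc (M a * z b), ← mul_assoc (M a⁻¹), M_inv_mul, one_mul, mul_assoc],
    mul_assoc (z a)]
  abel

theorem prime_nsmul_DV [CharP k (q : ℕ)] (x : DV k) : (q : ℕ) • x = 0 := by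
  refine Prod.ext (funext fun i => ?_) (funext fun i => ?_) <;>
    simp

/-- Transport of an integral model along an equivariant isomorphism. -/
theorem exists_intModel_congr {X Y : Type} [AddCommGroup X] [AddCommGroup Y]
    {act : inerG q → X →+ X} {act' : inerG q → Y →+ Y} (e : X ≃+ Y)
    (he : ∀ g x, e (act g x) = act' g (e x)) {N : IntModel (Ql q) X}
    (hN : N.Equivariant act inerAut) :
    ∃ N' : IntModel (Ql q) Y, N'.Equivariant act' inerAut := by
  let L : (X → Ql q) ≃ₗ[Ql q] (Y → Ql q) := LinearEquiv.funCongrLeft (Ql q) (Ql q) e.symm.toEquiv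
  refine ⟨⟨N.ι, fun i y => N.e i (e.symm y), fun i y => N.norm_le_one i _, ?_, ?_, fun i => ?_⟩, ?_⟩
  · exact N.li.map' (L : (X → Ql q) →ₗ[Ql q] (Y → Ql q)) L.ker
  · rw [show (fun i y => N.e i (e.symm y)) = L ∘ N.e from rfl, Set.range_comp]
    exact (Submodule.span_image (L : (X → Ql q) →ₗ[Ql q] (Y → Ql q))).trans (by
      rw [N.span_top, Submodule.map_top, LinearEquiv.range])
  · obtain ⟨c, hc, hcom⟩ := N.comul i
    exact ⟨c, hc, fun a b => by rw [map_add]; exact hcom _ _⟩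
  · intro g i y
    show N.e i (e.symm (act' g y)) = inerAut g (N.e i (e.symm y))
    rw [← hN g i, show e.symm (act' g y) = act g (e.symm y) by
      rw [AddEquiv.symm_apply_eq, he, AddEquiv.apply_symm_apply]]

/-- Changing the lift of the basis adds a coboundary. -/
theorem FlatDefo.add_cobd (hM : ∃ U ∈ lvlLoc q, ∀ u ∈ U, M u = 1) (h : FlatDefo M z) (X : (M2 k))
    (hX : X.trace = 0) : FlatDefo M (z + cobd M X) := by
  obtain ⟨N, hN⟩ := h.model
  let e : DV k ≃+ DV k :=
    { toFun := fun x => (x.1, x.2 - X *ᵥ x.1)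
      invFun := fun x => (x.1, x.2 + X *ᵥ x.1)
      left_inv := fun x => Prod.ext rfl (sub_add_cancel x.2 _)
      right_inv := fun x => Prod.ext rfl (add_sub_cancel_right x.2 _)
      map_add' := fun x y => by
        refine Prod.ext rfl ?_
        simp only [Prod.fst_add, Prod.snd_add, Matrix.mulVec_add]
        abel }
  refine ⟨h.toIsAdCoc.add (isAdCoc_cobd hM X hX), exists_intModel_congr e (fun g x => ?_) hN⟩
  refine Prod.ext rfl ?_
  show M (g : Gl q) *ᵥ x.2 + (z g * M g) *ᵥ x.1 - X *ᵥ (M (g : Gl q) *ᵥ x.1) =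
    M (g : Gl q) *ᵥ (x.2 - X *ᵥ x.1) + ((z + cobd M X) g * M g) *ᵥ x.1
  rw [Pi.add_apply, cobd, Matrix.mulVec_sub, Matrix.mulVec_mulVec, Matrix.mulVec_mulVec, add_mul,
    sub_mul, mul_assoc (M (g : Gl q) * X), M_inv_mul, mul_one, Matrix.add_mulVec,
    Matrix.sub_mulVec]
  abel

/-- Conjugation by an invertible matrix. -/
def conjHom (P : GL (Fin 2) k) (M : Gl q →* (M2 k)) : Gl q →* (M2 k) where
  toFun g := (P⁻¹ : GL (Fin 2) k).1 * M g * P.1
  map_one' := by simp
  map_mul' a b := by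
    rw [map_mul]
    simp only [mul_assoc]
    rw [← mul_assoc P.1 (P⁻¹ : GL (Fin 2) k).1, Units.mul_inv, one_mul]

@[simp] theorem conjHom_apply (P : GL (Fin 2) k) (M : Gl q →* (M2 k)) (g : Gl q) :
    conjHom P M g = (P⁻¹ : GL (Fin 2) k).1 * M g * P.1 := rfl

theorem LocalRes.conj [CharP k (q : ℕ)] (P : GL (Fin 2) k) (h : LocalRes M) :
    LocalRes (conjHom P M) := by
  refine ⟨fun g => ?_, ?_⟩
  · rw [conjHom_apply, ← h.det g]
    exact Matrix.det_units_conj' P (M g)
  · obtain ⟨U, hU, h1⟩ := h.level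
    exact ⟨U, hU, fun u hu => by simp [h1 u hu]⟩

theorem FlatDefo.conj (P : GL (Fin 2) k) (h : FlatDefo M z) :
    FlatDefo (conjHom P M) fun g => (P⁻¹ : GL (Fin 2) k).1 * z g * P.1 := by
  have hPP : P.1 * (P⁻¹ : GL (Fin 2) k).1 = 1 := Units.mul_inv P
  have hPP' : (P⁻¹ : GL (Fin 2) k).1 * P.1 = 1 := Units.inv_mul P
  obtain ⟨N, hN⟩ := h.model
  refine ⟨⟨fun g => ?_, fun a b => ?_, ?_⟩, ?_⟩
  · exact (Matrix.trace_units_conj' P (z g)).trans (h.trace g)
  · simp only [conjHom_apply, h.coc, mul_add, add_mul, mul_assoc]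
    simp only [← mul_assoc P.1 (P⁻¹ : GL (Fin 2) k).1, hPP, one_mul]
  · obtain ⟨U, hU, h1⟩ := h.level
    exact ⟨U, hU, fun u hu => by simp [h1 u hu]⟩
  · let e : DV k ≃+ DV k :=
      { toFun := fun x => ((P⁻¹ : GL (Fin 2) k).1 *ᵥ x.1, (P⁻¹ : GL (Fin 2) k).1 *ᵥ x.2)
        invFun := fun x => (P.1 *ᵥ x.1, P.1 *ᵥ x.2)
        left_inv := fun x => by
          beta_reduce; rw [Matrix.mulVec_mulVec, Matrix.mulVec_mulVec, hPP,
          Matrix.one_mulVec, Matrix.one_mulVec]
        right_inv := fun x => by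
          beta_reduce; rw [Matrix.mulVec_mulVec, Matrix.mulVec_mulVec, hPP',
          Matrix.one_mulVec, Matrix.one_mulVec]
        map_add' := fun x y => by simp [Matrix.mulVec_add] }
    refine exists_intModel_congr e (fun g x => ?_) hN
    show ((P⁻¹ : GL (Fin 2) k).1 *ᵥ (M (g : Gl q) *ᵥ x.1),
      (P⁻¹ : GL (Fin 2) k).1 *ᵥ (M (g : Gl q) *ᵥ x.2 + (z g * M g) *ᵥ x.1)) = _
    simp only [e, AddEquiv.coe_mk, Equiv.coe_fn_mk, defoAct_apply, conjHom_apply,
      Matrix.mulVec_add, Matrix.mulVec_mulVec, mul_assoc]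
    simp only [← mul_assoc P.1 (P⁻¹ : GL (Fin 2) k).1, hPP, one_mul, mul_one]

theorem FlatBound.of_conj (P : GL (Fin 2) k) (h : FlatBound (conjHom P M)) : FlatBound M := by
  have hPP : P.1 * (P⁻¹ : GL (Fin 2) k).1 = 1 := Units.mul_inv P
  have hPP' : (P⁻¹ : GL (Fin 2) k).1 * P.1 = 1 := Units.inv_mul P
  let c : (M2 k) ≃+ (M2 k) :=
    { toFun := fun X => P.1 * X * (P⁻¹ : GL (Fin 2) k).1
      invFun := fun X => (P⁻¹ : GL (Fin 2) k).1 * X * P.1
      left_inv := fun X => by
        simp only [mul_assoc, hPP', mul_one]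
        rw [← mul_assoc (P⁻¹ : GL (Fin 2) k).1, hPP', one_mul]
      right_inv := fun X => by
        simp only [mul_assoc, hPP, mul_one]
        rw [← mul_assoc P.1, hPP, one_mul]
      map_add' := fun X Y => by simp [mul_add, add_mul] }
  have htr : ∀ X, (c X).trace = X.trace := fun X => Matrix.trace_units_conj P X
  have htr' : ∀ X, (c.symm X).trace = X.trace := fun X => Matrix.trace_units_conj' P X
  have hcobd : ∀ X g, c (cobd (conjHom P M) X g) = cobd M (c X) g := by
    intro X g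
    show P.1 * _ * (P⁻¹ : GL (Fin 2) k).1 = _ * (P.1 * X * (P⁻¹ : GL (Fin 2) k).1) * _ -
      P.1 * X * (P⁻¹ : GL (Fin 2) k).1
    simp only [cobd, conjHom_apply, mul_sub, sub_mul, mul_assoc]
    simp only [← mul_assoc P.1 (P⁻¹ : GL (Fin 2) k).1, hPP, one_mul, mul_one]
  let C : (Gl q → (M2 k)) ≃+ (Gl q → (M2 k)) := AddEquiv.arrowCongr (Equiv.refl _) c
  obtain ⟨F, hF, hfin, hcard, hflat⟩ := h
  refine ⟨F.map C.toAddMonoidHom, ?_, ?_, ?_, ?_⟩
  · rintro _ ⟨f, hf, rfl⟩
    refine ⟨fun g => (htr _).trans ((hF f hf).trace g), fun a b => ?_, ?_⟩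
    · show c (f (a * b)) = M a * c (f b) * M a⁻¹ + c (f a)
      rw [(hF f hf).coc, map_add]
      show P.1 * _ * (P⁻¹ : GL (Fin 2) k).1 + _ = _ * (P.1 * _ * (P⁻¹ : GL (Fin 2) k).1) * _ + _
      simp only [conjHom_apply, mul_assoc]
      simp only [← mul_assoc P.1 (P⁻¹ : GL (Fin 2) k).1, hPP, one_mul, mul_one]
    · obtain ⟨U, hU, h1⟩ := (hF f hf).level
      exact ⟨U, hU, fun u hu => by
        show c (f u) = 0
        rw [h1 u hu, map_zero]⟩
  · exact Finite.of_equiv F (F.equivMapOfInjective _ C.injective).toEquiv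
  · have h1 : Nat.card (adFixed (conjHom P M)) = Nat.card (adFixed M) := by
      refine Nat.card_congr (Equiv.subtypeEquiv c.toEquiv fun X => ?_)
      constructor
      · rintro ⟨h1, h2⟩
        refine ⟨(htr X).trans h1, fun g => ?_⟩
        have h3 := congrArg (fun Y => P.1 * Y * (P⁻¹ : GL (Fin 2) k).1) (h2 g)
        show M g * (P.1 * X * (P⁻¹ : GL (Fin 2) k).1) = P.1 * X * (P⁻¹ : GL (Fin 2) k).1 * M g
        simp only [conjHom_apply, mul_assoc, hPP, mul_one] at h3 ⊢
        simp only [← mul_assoc P.1 (P⁻¹ : GL (Fin 2) k).1, hPP, one_mul] at h3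
        exact h3
      · rintro ⟨h1, h2⟩
        refine ⟨(htr X).symm.trans h1, fun g => c.injective ?_⟩
        show P.1 * (_ * X) * (P⁻¹ : GL (Fin 2) k).1 = P.1 * (X * _) * (P⁻¹ : GL (Fin 2) k).1
        have h3 : M g * (P.1 * X * (P⁻¹ : GL (Fin 2) k).1) =
            P.1 * X * (P⁻¹ : GL (Fin 2) k).1 * M g := h2 g
        simp only [conjHom_apply, mul_assoc, hPP, mul_one] at h3 ⊢
        simp only [← mul_assoc P.1 (P⁻¹ : GL (Fin 2) k).1, hPP, one_mul]
        exact h3
    have h2 : Nat.card (F ⊓ cobdGroup (conjHom P M) : AddSubgroup _) =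
        Nat.card (F.map C.toAddMonoidHom ⊓ cobdGroup M : AddSubgroup _) := by
      refine Nat.card_congr (Equiv.subtypeEquiv C.toEquiv fun f => ?_)
      constructor
      · rintro ⟨h1, X, hX, rfl⟩
        exact ⟨⟨_, h1, rfl⟩, c X, (htr X).trans hX, funext fun g => hcobd X g⟩
      · rintro ⟨⟨f', hf', he⟩, Y, hY, hYe⟩
        obtain rfl : f' = f := C.injective he
        refine ⟨hf', c.symm Y, (htr' Y).trans hY, funext fun g => c.injective ?_⟩
        rw [hcobd, AddEquiv.apply_symm_apply]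
        exact congrFun hYe g
    rw [← h1, ← h2, ← Nat.card_congr (F.equivMapOfInjective _ C.injective).toEquiv]
    exact hcard
  · intro z hz
    obtain ⟨X, hX, hmem⟩ := hflat _ (hz.conj P)
    refine ⟨c X, (htr X).trans hX, _, hmem, funext fun g => ?_⟩
    show c (_ + cobd (conjHom P M) X g) = z g + cobd M (c X) g
    rw [map_add, hcobd]
    congr 1
    exact c.apply_symm_apply (z g)

end basic

end FLTA.TaylorWiles.Flat

end
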