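import Mathlib.FieldTheory.Finite.Trace
import Fermat.Agent.TaylorWiles.FlatDefo

/-!
# Characters of `H` attached to the entries of a cocycle

The functionals of `k` are `x ↦ Tr (μ x)`, so a `k`-valued additive function on `H` gives a family
`entryChar` of characters depending additively on `μ`.
-/

set_option autoImplicit false
set_option linter.style.haveILetI false

open scoped NNReal Matrix

noncomputable section

namespace FLTA.TaylorWiles.Flat

open FLTA.PT (Gl Ql lvlLoc locAut)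

attribute [local instance] FLTA.PT.factPrime

variable {q : Nat.Primes} {k : Type} [Field k] [CharP k (q : ℕ)]

/-- The trace to the prime field. -/
def trK (q : Nat.Primes) {k : Type} [Field k] [CharP k (q : ℕ)] : k →+ ZMod (q : ℕ) :=
  letI : Algebra (ZMod (q : ℕ)) k := ZMod.algebra k (q : ℕ)
  (Algebra.trace (ZMod (q : ℕ)) k).toAddMonoidHom

theorem trK_natCast_mul (n : ℕ) (x : k) : trK q ((n : k) * x) = (n : ZMod (q : ℕ)) * trK q x := by
  rw [← nsmul_eq_mul, map_nsmul, nsmul_eq_mul]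

theorem exists_trK_ne_zero [Finite k] {x : k} (hx : x ≠ 0) : ∃ μ : k, trK q (μ * x) ≠ 0 := by
  letI : Algebra (ZMod (q : ℕ)) k := ZMod.algebra k (q : ℕ)
  have htr := (traceForm_nondegenerate (ZMod (q : ℕ)) k).1 x
  by_contra h
  push Not at h
  refine hx (htr fun b => ?_)
  rw [Algebra.traceForm_apply, mul_comm]
  exact h b

/-- The character `σ ↦ Tr (μ (φ σ))`. -/
def entryChar (φ : Gl q → k) (μ : k) (σ : Gl q) : ZMod (q : ℕ) := trK q (μ * φ σ)

theorem entryChar_add (φ : Gl q → k) (μ ν : k) :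
    entryChar φ (μ + ν) = entryChar φ μ + entryChar φ ν := by
  funext σ; simp [entryChar, add_mul]

theorem entryChar_zero (φ : Gl q → k) : entryChar φ 0 = 0 := by
  funext σ; simp [entryChar]

theorem entryChar_sub (φ : Gl q → k) (μ ν : k) :
    entryChar φ (μ - ν) = entryChar φ μ - entryChar φ ν := by
  funext σ; simp [entryChar, sub_mul]

theorem entryChar_nsmul (φ : Gl q → k) (n : ℕ) (μ : k) :
    entryChar φ (n • μ) = n • entryChar φ μ := by
  funext σ; simp [entryChar, mul_assoc, trK_natCast_mul]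

theorem entryChar_fun_add (φ ψ : Gl q → k) (μ : k) :
    entryChar (φ + ψ) μ = entryChar φ μ + entryChar ψ μ := by
  funext σ; simp [entryChar, mul_add]

theorem eq_zero_of_entryChar [Finite k] {φ : Gl q → k} {σ : Gl q}
    (h : ∀ μ, entryChar φ μ σ = 0) : φ σ = 0 := by
  by_contra hne
  obtain ⟨μ, hμ⟩ := exists_trK_ne_zero (q := q) hne
  exact hμ (h μ)

namespace Tame

variable {T : Tame q}

theorem isHom_entryChar {φ : Gl q → k} (hadd : ∀ a ∈ T.H, ∀ b ∈ T.H, φ (a * b) = φ a + φ b)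
    (hlvl : ∃ U ∈ lvlLoc q, ∀ u ∈ U, u ∈ T.H → φ u = 0) (μ : k) : T.IsHom (entryChar φ μ) := by
  refine ⟨fun a ha b hb => by simp [entryChar, hadd a ha b hb, mul_add], ?_⟩
  obtain ⟨U, hU, h⟩ := hlvl
  exact ⟨U, hU, fun u hu huH => by simp [entryChar, h u hu huH]⟩

/-- If conjugation multiplies `φ` by `a`, the twisted conjugate of the character of `μ` is the
character of `c a μ`. -/
theorem conjTwist_entryChar {φ : Gl q → k} {g : Gl q} {a : k} {c : ℕ}
    (h : ∀ σ ∈ T.H, φ (g⁻¹ * σ * g) = a * φ σ) (μ : k) {σ : Gl q} (hσ : σ ∈ T.H) :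
    conjTwist g c (entryChar φ μ) σ = entryChar φ ((c : k) * a * μ) σ := by
  rw [conjTwist, entryChar, entryChar, h σ hσ, ← trK_natCast_mul]
  congr 1
  ring

/-- A class minus its conjugate has no valuation part. -/
theorem unitClass_conj_sub (T : Tame q) {χ : Gl q → ZMod (q : ℕ)} (hχ : T.IsHom χ) (g : Gl q) :
    T.UnitClass (conjTwist g (cy g) χ - χ) := by
  obtain ⟨α, hα⟩ := T.exists_kum hχ
  have hg := hα.conj g (T.locAut_zp g)
  refine ⟨locAut q g α / α, ⟨div_ne_zero hg.1 hα.1, fun σ hσ => ?_⟩, ?_⟩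
  · have h1 : T.zpw (conjTwist g (cy g) χ σ) =
        T.zpw ((conjTwist g (cy g) χ - χ) σ) * T.zpw (χ σ) := by
      rw [← T.zpw_add, Pi.sub_apply, sub_add_cancel]
    rw [map_div₀, hg.2 σ hσ, hα.2 σ hσ, h1, mul_div_assoc']
    rw [mul_assoc, mul_left_comm, mul_div_mul_left _ _ (T.zpw_ne_zero _)]
  · rw [nnnorm_div, nnnorm_locAut, div_self (nnnorm_ne_zero_iff.mpr hα.1)]

/-- If `δ ≠ 1` and conjugation by `g` sends the character of `μ` to that of `δ μ`, all the
characters are unit classes. -/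
theorem unitClass_entryChar {φ : Gl q → k} (hadd : ∀ a ∈ T.H, ∀ b ∈ T.H, φ (a * b) = φ a + φ b)
    (hlvl : ∃ U ∈ lvlLoc q, ∀ u ∈ U, u ∈ T.H → φ u = 0) {g : Gl q} {δ : k} (hδ : δ ≠ 1)
    (h : ∀ μ, ∀ σ ∈ T.H, conjTwist g (cy g) (entryChar φ μ) σ = entryChar φ (δ * μ) σ) (μ : k) :
    T.UnitClass (entryChar φ μ) := by
  have hd : δ - 1 ≠ 0 := sub_ne_zero.mpr hδ
  refine (unitClass_conj_sub T (isHom_entryChar hadd hlvl ((δ - 1)⁻¹ * μ)) g).congr fun σ hσ => ?_
  rw [Pi.sub_apply, h _ σ hσ, ← Pi.sub_apply, ← entryChar_sub]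
  congr 1
  field_simp

end Tame

section coc

variable {M : Gl q →* M2 k} {f : Gl q → M2 k}

omit [CharP k (q : ℕ)] in
/-- Conjugating an element on which `M` is trivial. -/
theorem IsAdCoc.apply_conj (hf : IsAdCoc M f) (g : Gl q) {h : Gl q} (hh : M h = 1) :
    f (g * h * g⁻¹) = M g * f h * M g⁻¹ := by
  rw [hf.coc (g * h) g⁻¹, hf.coc g h, map_mul, hh, mul_one, hf.map_inv,
    show M (g * h)⁻¹ = M g⁻¹ by
      rw [mul_inv_rev, map_mul, show M h⁻¹ = 1 by simpa [hh] using M_inv_mul (M := M) h, one_mul]]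
  simp only [mul_neg, neg_mul, ← mul_assoc, M_mul_inv, one_mul]
  rw [mul_assoc (f g), M_mul_inv, mul_one]
  abel

omit [CharP k (q : ℕ)] in
theorem IsAdCoc.apply_conj' (hf : IsAdCoc M f) (g : Gl q) {h : Gl q} (hh : M h = 1) :
    f (g⁻¹ * h * g) = M g⁻¹ * f h * M g := by
  simpa using hf.apply_conj g⁻¹ hh

omit [CharP k (q : ℕ)] in
theorem IsAdCoc.apply_mul_of_eq_one (hf : IsAdCoc M f) {a : Gl q} (ha : M a = 1) (b : Gl q) :
    f (a * b) = f b + f a := by
  rw [hf.coc, ha, show M a⁻¹ = 1 by simpa [ha] using M_inv_mul (M := M) a, one_mul, mul_one]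

omit [CharP k (q : ℕ)] in
theorem IsAdCoc.apply_mul_of_eq_zero (hf : IsAdCoc M f) (a : Gl q) {b : Gl q} (hb : f b = 0) :
    f (a * b) = f a := by
  rw [hf.coc, hb, mul_zero, zero_mul, zero_add]

end coc

end FLTA.TaylorWiles.Flat

end
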