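import Fermat.Agent.TaylorWiles.FlatReducible

/-!
# Normal form of an irreducible local residual representation

`IrrForm M`: in a suitable basis `M` is trivial on `H` for the frame of level `q ^ 2 - 1`, a
generator `s` of inertia acts by `diag (α, α ^ q)` and a Frobenius element is antidiagonal.
-/

set_option autoImplicit false
set_option linter.style.haveILetI false

open scoped NNReal Matrix

noncomputable section

namespace FLTA.TaylorWiles.Flat

open FLTA.PT (Gl Ql lvlLoc locAut)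

attribute [local instance] FLTA.PT.factPrime

variable {q : Nat.Primes} {k : Type} [Field k] [CharP k (q : ℕ)]

/-- The normal form. -/
structure IrrForm (M : Gl q →* M2 k) where
  local_res : LocalRes M
  T : Tame q
  he : T.e = (q : ℕ) ^ 2 - 1
  ξ : Ql q
  hξ : IsPrimitiveRoot ξ T.e
  s : Gl q
  hs : s ∈ inerG q
  hsπ : locAut q s T.π = ξ * T.π
  F : Gl q
  hF : ∀ (n : ℕ) (ζ : Ql q), ¬ (q : ℕ) ∣ n → ζ ^ n = 1 → locAut q F ζ = ζ ^ (q : ℕ)
  hFπ : locAut q F T.π = T.π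
  M_H : ∀ h ∈ T.H, M h = 1
  α : k
  Ms00 : M s 0 0 = α
  Ms11 : M s 1 1 = α ^ (q : ℕ)
  Ms01 : M s 0 1 = 0
  Ms10 : M s 1 0 = 0
  hα : α ^ (q : ℕ) ≠ α
  hα2 : α ^ ((q : ℕ) ^ 2 - 1) = 1
  MF00 : M F 0 0 = 0
  MF11 : M F 1 1 = 0

section matrices

omit [CharP k (q : ℕ)]

/-- Nilpotent two by two matrices. -/
theorem nilpotent_entries {N : M2 k} (h : IsNilpotent N) :
    N 1 1 = -N 0 0 ∧ N 0 0 ^ 2 + N 0 1 * N 1 0 = 0 := by
  have htr := (Matrix.isNilpotent_trace_of_isNilpotent h).eq_zero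
  obtain ⟨n, hn⟩ := h
  have hdet : N.det = 0 := by
    have h1 := congrArg Matrix.det hn
    rw [Matrix.det_pow, Matrix.det_zero] at h1
    exact eq_zero_of_pow_eq_zero h1
  rw [Matrix.trace_fin_two] at htr
  rw [Matrix.det_fin_two] at hdet
  exact ⟨eq_neg_of_add_eq_zero_right htr, by linear_combination N 0 0 * htr - hdet⟩

/-- Commonly isotropic nilpotent matrices have the same kernel. -/
theorem nilpotent_mulVec_eq_zero (h2 : (2 : k) ≠ 0) {N N' : M2 k} (hN : IsNilpotent N)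
    (hN' : IsNilpotent N') (htr : (N' * N).trace = 0) (hne : N ≠ 0) {v : Fin 2 → k}
    (hv : N *ᵥ v = 0) : N' *ᵥ v = 0 := by
  obtain ⟨hd, hq⟩ := nilpotent_entries hN
  obtain ⟨hd', hq'⟩ := nilpotent_entries hN'
  have hr : ∀ i, N i 0 * v 0 + N i 1 * v 1 = 0 := fun i => by
    have := congrFun hv i
    simpa [Matrix.mulVec, dotProduct, Fin.sum_univ_two] using this
  have h3 : 2 * N 0 0 * N' 0 0 + N 0 1 * N' 1 0 + N 1 0 * N' 0 1 = 0 := by
    rw [Matrix.trace_fin_two, mul_entry, mul_entry, hd, hd'] at htr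
    linear_combination htr
  have h0 := hr 0
  have h1 := hr 1
  rw [hd] at h1
  have key : N' 0 0 * v 0 + N' 0 1 * v 1 = 0 ∧ N' 1 0 * v 0 + -N' 0 0 * v 1 = 0 := by
    by_cases hb : N 0 1 = 0
    · have ha : N 0 0 = 0 := by
        rw [hb, zero_mul, add_zero] at hq
        exact eq_zero_of_pow_eq_zero hq
      have hc : N 1 0 ≠ 0 := fun hc => hne (Matrix.ext fun i j => by
        fin_cases i <;> fin_cases j <;> simp [ha, hb, hc, hd])
      have hv0 : v 0 = 0 := by
        refine (mul_eq_zero.mp ?_).resolve_left hc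
        linear_combination h1 + v 1 * ha
      have hb' : N' 0 1 = 0 := by
        refine (mul_eq_zero.mp ?_).resolve_left hc
        linear_combination h3 - 2 * N' 0 0 * ha - N' 1 0 * hb
      have ha' : N' 0 0 = 0 := by
        rw [hb', zero_mul, add_zero] at hq'
        exact eq_zero_of_pow_eq_zero hq'
      simp [hv0, ha', hb']
    · have hab : N 0 0 * N' 0 1 - N' 0 0 * N 0 1 = 0 := by
        refine eq_zero_of_pow_eq_zero (n := 2) ?_
        linear_combination N' 0 1 ^ 2 * hq + N 0 1 ^ 2 * hq' - N 0 1 * N' 0 1 * h3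
      have hbc : N 0 1 * N' 1 0 - N 1 0 * N' 0 1 = 0 := by
        refine (mul_eq_zero.mp ?_).resolve_left hb
        linear_combination N 0 1 * h3 - 2 * N' 0 1 * hq + 2 * N 0 0 * hab
      constructor
      · refine (mul_eq_zero.mp ?_).resolve_left hb
        linear_combination N' 0 1 * h0 - v 0 * hab
      · refine (mul_eq_zero.mp ?_).resolve_left hb
        linear_combination N' 0 1 * h1 + v 0 * hbc + v 1 * hab
  funext i
  fin_cases i
  · simpa [Matrix.mulVec, dotProduct, Fin.sum_univ_two] using key.1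
  · simpa [Matrix.mulVec, dotProduct, Fin.sum_univ_two, hd'] using key.2

/-- Proportionality in the plane. -/
theorem exists_smul_of_cross {v w : Fin 2 → k} (hv : v ≠ 0) (h : v 0 * w 1 = v 1 * w 0) :
    ∃ c : k, w = c • v := by
  by_cases h0 : v 0 = 0
  · have h1 : v 1 ≠ 0 := fun h1 => hv (funext fun i => by fin_cases i <;> simp [h0, h1])
    rw [h0, zero_mul, eq_comm, mul_eq_zero, or_iff_right h1] at h
    exact ⟨w 1 / v 1, funext fun i => by fin_cases i <;> simp [h0, h, h1]⟩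
  · refine ⟨w 0 / v 0, funext fun i => ?_⟩
    fin_cases i
    · simp [h0]
    · simp only [Fin.mk_one, Pi.smul_apply, smul_eq_mul]
      rw [div_mul_eq_mul_div, eq_div_iff h0]
      linear_combination h

/-- The kernel of a nonzero singular matrix is a line. -/
theorem exists_smul_of_mulVec_eq_zero {N : M2 k} (hN : N ≠ 0) {v w : Fin 2 → k} (hv0 : v ≠ 0)
    (hv : N *ᵥ v = 0) (hw : N *ᵥ w = 0) : ∃ c : k, w = c • v := by
  refine exists_smul_of_cross hv0 (sub_eq_zero.mp ?_)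
  by_contra hne
  have hcol : ∀ i, N i 0 * v 0 + N i 1 * v 1 = 0 ∧ N i 0 * w 0 + N i 1 * w 1 = 0 := fun i =>
    ⟨by simpa [Matrix.mulVec, dotProduct, Fin.sum_univ_two] using congrFun hv i,
      by simpa [Matrix.mulVec, dotProduct, Fin.sum_univ_two] using congrFun hw i⟩
  refine hN (Matrix.ext fun i j => ?_)
  obtain ⟨h1, h2⟩ := hcol i
  fin_cases j
  · refine (mul_eq_zero.mp ?_).resolve_right hne
    show N i 0 * _ = 0
    linear_combination w 1 * h1 - v 1 * h2
  · refine (mul_eq_zero.mp ?_).resolve_right hne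
    show N i 1 * _ = 0
    linear_combination -w 0 * h1 + v 0 * h2

/-- A matrix with split characteristic polynomial has an eigenvector. -/
theorem exists_eigenvector {S : M2 k} {a b : k}
    (h : S.charpoly = (Polynomial.X - Polynomial.C a) * (Polynomial.X - Polynomial.C b)) :
    ∃ v : Fin 2 → k, v ≠ 0 ∧ S *ᵥ v = a • v := by
  have hdet : (Matrix.scalar (Fin 2) a - S).det = 0 := by
    rw [← Matrix.eval_charpoly, h]; simp
  obtain ⟨v, hv, hv0⟩ := Matrix.exists_mulVec_eq_zero_iff.mpr hdet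
  refine ⟨v, hv, ?_⟩
  rw [Matrix.sub_mulVec, sub_eq_zero] at hv0
  rw [← hv0]
  funext i
  simp [Matrix.scalar_apply, Matrix.mulVec_diagonal]

/-- A zero off the diagonal persists in powers and products with diagonal matrices. -/
theorem off_diag_pow_mul {A : M2 k} {i l : Fin 2} (h : A i l = 0) (hil : i ≠ l) (n : ℕ) (x y : k) :
    (A ^ n * !![x, 0; 0, y]) i l = 0 := by
  have hn : ∀ n : ℕ, (A ^ n) i l = 0 := by
    intro n
    induction n with
    | zero => simp [hil]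
    | succ n ih =>
      rw [pow_succ, mul_entry]
      fin_cases i <;> fin_cases l <;> simp_all
  have h0 := hn n
  rw [mul_entry]
  fin_cases i <;> fin_cases l <;> simp_all

end matrices

/-- The kernel of the tame quotient of level `e` acts trivially. -/
theorem eq_one_of_mem_H (hq : (q : ℕ) ≠ 2) {M : Gl q →* M2 k}
    (hv : ¬ ∃ v : Fin 2 → k, v ≠ 0 ∧ ∀ g, ∃ c : k, M g *ᵥ v = c • v) {U : Subgroup (Gl q)}
    (hU1 : ∀ u ∈ U, M u = 1) (T : Tame q)
    (htame : ∀ h ∈ T.H, ∃ a : ℕ, h ^ (q : ℕ) ^ a ∈ U) {h : Gl q} (hh : h ∈ T.H) : M h = 1 := by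
  haveI : CharP (M2 k) (q : ℕ) := Matrix.charP (n := Fin 2) (R := k) (q : ℕ)
  haveI : ExpChar (M2 k) (q : ℕ) := ExpChar.prime q.2
  have h2 : (2 : k) ≠ 0 := by
    intro h0
    rw [← Nat.cast_ofNat, CharP.cast_eq_zero_iff k (q : ℕ)] at h0
    exact hq ((Nat.prime_dvd_prime_iff_eq q.2 Nat.prime_two).mp h0)
  have hnil : ∀ x ∈ T.H, IsNilpotent (M x - 1) := fun x hx => by
    obtain ⟨a, ha⟩ := htame x hx
    refine ⟨(q : ℕ) ^ a, ?_⟩
    rw [sub_pow_expChar_pow_of_commute _ _ (Commute.one_right _), one_pow, ← map_pow, hU1 _ ha,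
      sub_self]
  by_contra hne
  have hN : M h - 1 ≠ 0 := sub_ne_zero.mpr hne
  obtain ⟨hd, hq0⟩ := nilpotent_entries (hnil h hh)
  obtain ⟨v, hv0, hker⟩ := Matrix.exists_mulVec_eq_zero_iff.mpr
    (show (M h - 1).det = 0 by rw [Matrix.det_fin_two, hd]; linear_combination -hq0)
  have hfix : ∀ x ∈ T.H, M x *ᵥ v = v := by
    intro x hx
    have htr : ((M x - 1) * (M h - 1)).trace = 0 := by
      have ht : ∀ y ∈ T.H, (M y).trace = 2 := fun y hy => by
        have := (Matrix.isNilpotent_trace_of_isNilpotent (hnil y hy)).eq_zero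
        rw [Matrix.trace_sub, Matrix.trace_one, Fintype.card_fin, Nat.cast_ofNat,
          sub_eq_zero] at this
        exact this
      rw [sub_mul, mul_sub, one_mul, mul_one, ← map_mul, Matrix.trace_sub, Matrix.trace_sub,
        Matrix.trace_sub, ht _ (mul_mem hx hh), ht _ hx, ht _ hh, Matrix.trace_one,
        Fintype.card_fin, Nat.cast_ofNat]
      ring
    have h0 := nilpotent_mulVec_eq_zero h2 (hnil h hh) (hnil x hx) htr hN hker
    rwa [Matrix.sub_mulVec, Matrix.one_mulVec, sub_eq_zero] at h0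
  refine hv ⟨v, hv0, fun g => exists_smul_of_mulVec_eq_zero hN hv0 hker ?_⟩
  rw [Matrix.sub_mulVec, Matrix.one_mulVec, sub_eq_zero, Matrix.mulVec_mulVec, ← map_mul,
    show h * g = g * (g⁻¹ * h * g) by group, map_mul, ← Matrix.mulVec_mulVec,
    hfix _ (T.conj_mem_H' hh g)]

theorem exists_irrForm (hq : (q : ℕ) ≠ 2) {M : Gl q →* M2 k} (hM : LocalRes M)
    (hsplit : ∀ g, ∃ a b : k,
      (M g).charpoly = (Polynomial.X - Polynomial.C a) * (Polynomial.X - Polynomial.C b))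
    (hv : ¬ ∃ v : Fin 2 → k, v ≠ 0 ∧ ∀ g, ∃ c : k, M g *ᵥ v = c • v) :
    ∃ P : GL (Fin 2) k, Nonempty (IrrForm (conjHom P M)) := by
  have hq2 := q.2.two_le
  have hq3 : 3 ≤ (q : ℕ) := by omega
  have hqq : 9 ≤ (q : ℕ) ^ 2 := Nat.pow_le_pow_left hq3 2
  obtain ⟨U, hU, hU1⟩ := hM.level
  obtain ⟨e', he', htame⟩ := exists_tame_exponent hU
  have he2 : ¬ (q : ℕ) ∣ (q : ℕ) ^ 2 - 1 := fun h => by
    have h' := Nat.dvd_sub (dvd_pow_self (q : ℕ) two_ne_zero) h
    rw [Nat.sub_sub_self (by omega), Nat.dvd_one] at h'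
    omega
  have hdvd2 : (q : ℕ) - 1 ∣ (q : ℕ) ^ 2 - 1 := by
    simpa using Nat.sub_dvd_pow_sub_pow (q : ℕ) 1 2
  obtain ⟨T₀, hT₀⟩ := exists_tame (not_dvd_lcm he' he2) (hdvd2.trans (Nat.dvd_lcm_right e' _))
  obtain ⟨d', hd'⟩ := Nat.dvd_lcm_left e' ((q : ℕ) ^ 2 - 1)
  obtain ⟨d, hd⟩ := Nat.dvd_lcm_right e' ((q : ℕ) ^ 2 - 1)
  have hH₀ : ∀ h ∈ T₀.H, M h = 1 := fun h hh => eq_one_of_mem_H hq hv hU1 T₀
    (fun x hx => htame (T₀.π ^ d') (by rw [← pow_mul, mul_comm, ← hd', ← hT₀, T₀.π_pow]) x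
      (T₀.H_le_inerG hx) (by rw [map_pow, T₀.apply_of_mem_H hx T₀.π_mem_E])) hh
  haveI : NeZero (T₀.e : Ql q) := ⟨Nat.cast_ne_zero.2 T₀.e_pos.ne'⟩
  obtain ⟨ξ₀, hξ₀⟩ := HasEnoughRootsOfUnity.exists_primitiveRoot (Ql q) T₀.e
  obtain ⟨s, hs, hsπ₀⟩ := T₀.exists_generator hξ₀
  obtain ⟨F, hF, hFπ₀⟩ := T₀.exists_frobenius_fix
  have hiner : ∀ i ∈ inerG q, ∃ j, M i = M s ^ j ∧ locAut q i T₀.π = ξ₀ ^ j * T₀.π := by
    intro i hi
    obtain ⟨j, -, h, hh, rfl⟩ := T₀.exists_pow_mul_mem_H hs hξ₀ hsπ₀ hi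
    exact ⟨j, by rw [map_mul, hH₀ h hh, mul_one, map_pow],
      by rw [locAut_mul_apply, T₀.apply_of_mem_H hh T₀.π_mem_E,
        pow_apply_root hs T₀.not_dvd hξ₀.pow_eq_one hsπ₀]⟩
  have hgen : ∀ g, ∃ n j : ℕ, M g = M F ^ n * M s ^ j := by
    intro g
    obtain ⟨n, i, u, hi, hu, rfl⟩ := exists_frobenius_mul_inerG hF hU g
    obtain ⟨j, hj, -⟩ := hiner i hi
    exact ⟨n, j, by rw [map_mul, map_mul, hU1 u hu, mul_one, map_pow, hj]⟩
  have hFs : M F * M s = M s ^ (q : ℕ) * M F := by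
    have hh : (s ^ (q : ℕ))⁻¹ * (F * s * F⁻¹) ∈ T₀.H := by
      rw [T₀.mem_H_iff]
      refine ⟨mul_mem (inv_mem (pow_mem hs _)) (inerG_normal.conj_mem s hs F), ?_⟩
      rw [locAut_mul_apply, locAut_mul_apply, locAut_mul_apply, inv_apply_of_fix hFπ₀, hsπ₀,
        map_mul, hFπ₀, hF _ ξ₀ T₀.not_dvd hξ₀.pow_eq_one,
        ← pow_apply_root hs T₀.not_dvd hξ₀.pow_eq_one hsπ₀, ← locAut_mul_apply, inv_mul_cancel,
        map_one, AlgEquiv.one_apply]
    rw [← map_pow, ← map_mul, ← map_mul,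
      show F * s = s ^ (q : ℕ) * ((s ^ (q : ℕ))⁻¹ * (F * s * F⁻¹)) * F by group,
      map_mul, map_mul, hH₀ _ hh, mul_one, ← map_mul]
  -- two eigenlines of `s`
  obtain ⟨a, a', ha⟩ := hsplit s
  obtain ⟨v, hv0, hva⟩ := exists_eigenvector ha
  have hpowv : ∀ (j : ℕ) (x : Fin 2 → k) (c : k), M s *ᵥ x = c • x →
      M s ^ j *ᵥ x = c ^ j • x := by
    intro j x c hx
    induction j with
    | zero => simp
    | succ j ih => rw [pow_succ', ← Matrix.mulVec_mulVec, ih, Matrix.mulVec_smul, hx, smul_smul,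
        pow_succ]
  have heig : ∀ g, ∃ c : k, M s *ᵥ (M g *ᵥ v) = c • (M g *ᵥ v) := by
    intro g
    obtain ⟨j, hj, -⟩ := hiner (g⁻¹ * s * g) (by simpa using inerG_normal.conj_mem s hs g⁻¹)
    refine ⟨a ^ j, ?_⟩
    rw [Matrix.mulVec_mulVec, ← map_mul, show s * g = g * (g⁻¹ * s * g) by group, map_mul, hj,
      ← Matrix.mulVec_mulVec, hpowv j v a hva, Matrix.mulVec_smul]
  obtain ⟨w, b, hwb, hindep⟩ : ∃ (w : Fin 2 → k) (b : k), M s *ᵥ w = b • w ∧
      v 0 * w 1 - v 1 * w 0 ≠ 0 := by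
    by_contra hnone
    push Not at hnone
    refine hv ⟨v, hv0, fun g => ?_⟩
    obtain ⟨c, hc⟩ := heig g
    exact exists_smul_of_cross hv0 (sub_eq_zero.mp (hnone _ c hc))
  let P : GL (Fin 2) k := Matrix.GeneralLinearGroup.mkOfDetNeZero !![v 0, w 0; v 1, w 1]
    (by simpa [Matrix.det_fin_two, mul_comm (w 0)] using hindep)
  have hP : P.1 = !![v 0, w 0; v 1, w 1] := rfl
  have hMs : conjHom P M s = !![a, 0; 0, b] := by
    have h1 : M s * P.1 = P.1 * !![a, 0; 0, b] := by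
      have h0 := fun i => congrFun hva i
      have h0' := fun i => congrFun hwb i
      simp only [Matrix.mulVec, dotProduct, Fin.sum_univ_two, Pi.smul_apply, smul_eq_mul] at h0 h0'
      ext i j
      fin_cases i <;> fin_cases j <;> simp [hP, Matrix.mul_apply, Fin.sum_univ_two, h0, h0',
        mul_comm a, mul_comm b]
    rw [conjHom_apply, mul_assoc, h1, ← mul_assoc, Units.inv_mul, one_mul]
  set M' := conjHom P M with hM'
  have hgen' : ∀ g, ∃ n j : ℕ, M' g = M' F ^ n * M' s ^ j := fun g => by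
    obtain ⟨n, j, h⟩ := hgen g
    refine ⟨n, j, ?_⟩
    rw [← map_pow, ← map_pow, ← map_mul, hM', conjHom_apply, conjHom_apply, h, map_mul, map_pow,
      map_pow]
  have hMs' : ∀ j : ℕ, M' s ^ j = !![a ^ j, 0; 0, b ^ j] := by
    intro j
    induction j with
    | zero => rw [pow_zero]; ext i l; fin_cases i <;> fin_cases l <;> simp
    | succ j ih =>
      rw [pow_succ, ih, hMs]
      ext i l
      fin_cases i <;> fin_cases l <;> simp [pow_succ]
  have hcol : ∀ g, M g *ᵥ v = (M' g 0 0) • v + (M' g 1 0) • w ∧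
      M g *ᵥ w = (M' g 0 1) • v + (M' g 1 1) • w := by
    intro g
    have h1 : M g * P.1 = P.1 * M' g := by
      rw [hM', conjHom_apply, ← mul_assoc, ← mul_assoc, Units.mul_inv, one_mul]
    have hj : ∀ (x : Fin 2 → k) j, (∀ l, P.1 l j = x l) →
        M g *ᵥ x = (M' g 0 j) • v + (M' g 1 j) • w := by
      intro x j hx
      funext i
      have h2 := congrFun (congrFun h1 i) j
      rw [mul_entry, mul_entry, hx, hx] at h2
      fin_cases i <;> simp [hP, Matrix.mulVec, dotProduct, Fin.sum_univ_two] at h2 ⊢ <;>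
        linear_combination h2
    exact ⟨hj v 0 fun l => by fin_cases l <;> simp [hP],
      hj w 1 fun l => by fin_cases l <;> simp [hP]⟩
  have hw0 : w ≠ 0 := fun h => hindep (by simp [h])
  -- an off-diagonal zero of Frobenius gives a common eigenvector
  have hzero : ∀ i l : Fin 2, i ≠ l → M' F i l = 0 → ∀ g, M' g i l = 0 := by
    intro i l hil h g
    obtain ⟨n, j, hg⟩ := hgen' g
    rw [hg, hMs']
    exact off_diag_pow_mul h hil n _ _
  have h10 : M' F 1 0 ≠ 0 := fun h => hv ⟨v, hv0, fun g => ⟨M' g 0 0, by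
    rw [(hcol g).1, hzero 1 0 (by decide) h g, zero_smul, add_zero]⟩⟩
  have h01 : M' F 0 1 ≠ 0 := fun h => hv ⟨w, hw0, fun g => ⟨M' g 1 1, by
    rw [(hcol g).2, hzero 0 1 (by decide) h g, zero_smul, zero_add]⟩⟩
  have hrel : M' F * !![a, 0; 0, b] = !![a ^ (q : ℕ), 0; 0, b ^ (q : ℕ)] * M' F := by
    rw [← hMs, ← hMs', ← map_mul, ← map_pow, ← map_mul, hM', conjHom_apply, conjHom_apply,
      map_mul, map_mul, map_pow, hFs]
  have hab : b ^ (q : ℕ) = a := by
    have h := congrFun (congrFun hrel 1) 0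
    simp [Matrix.mul_apply, Fin.sum_univ_two] at h
    exact mul_right_cancel₀ h10 (by linear_combination -h)
  have hba : a ^ (q : ℕ) = b := by
    have h := congrFun (congrFun hrel 0) 1
    simp [Matrix.mul_apply, Fin.sum_univ_two] at h
    exact mul_right_cancel₀ h01 (by linear_combination -h)
  have hne : a ^ (q : ℕ) ≠ a := by
    intro h
    rw [hba] at h
    subst h
    obtain ⟨c, c', hc⟩ := hsplit F
    obtain ⟨x, hx0, hx⟩ := exists_eigenvector hc
    refine hv ⟨x, hx0, fun g => ?_⟩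
    obtain ⟨n, j, hg⟩ := hgen g
    have hsx : M s *ᵥ x = b • x := by
      have h1 : M s = b • (1 : M2 k) := by
        have h2 : M' s = b • (1 : M2 k) := by
          rw [hMs]; ext i l; fin_cases i <;> fin_cases l <;> simp
        calc M s = P.1 * M' s * (P⁻¹ : GL (Fin 2) k).1 := by
              rw [hM', conjHom_apply]; simp [mul_assoc]
          _ = b • 1 := by rw [h2, mul_smul_comm, mul_one, smul_mul_assoc, Units.mul_inv]
      rw [h1, Matrix.smul_mulVec, Matrix.one_mulVec]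
    have hFn : M F ^ n *ᵥ x = c ^ n • x := by
      clear hg
      induction n with
      | zero => simp
      | succ n ih => rw [pow_succ', ← Matrix.mulVec_mulVec, ih, Matrix.mulVec_smul, hx, smul_smul,
          pow_succ]
    exact ⟨b ^ j * c ^ n, by
      rw [hg, ← Matrix.mulVec_mulVec, hpowv j x b hsx, Matrix.mulVec_smul, hFn, smul_smul]⟩
  have ha0 : a ≠ 0 := fun h => hne (by rw [h, zero_pow q.2.ne_zero])
  have ha2 : a ^ ((q : ℕ) ^ 2 - 1) = 1 := by
    refine mul_right_cancel₀ ha0 ?_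
    rw [← pow_succ, Nat.sub_add_cancel (by omega), pow_two, pow_mul, hba, hab, one_mul]
  have hF00 : M' F 0 0 = 0 := by
    have h := congrFun (congrFun hrel 0) 0
    simp [Matrix.mul_apply, Fin.sum_univ_two] at h
    refine (mul_eq_zero.mp ?_).resolve_right (sub_ne_zero.mpr hne)
    linear_combination -h
  have hF11 : M' F 1 1 = 0 := by
    have h := congrFun (congrFun hrel 1) 1
    simp [Matrix.mul_apply, Fin.sum_univ_two] at h
    refine (mul_eq_zero.mp ?_).resolve_right (sub_ne_zero.mpr (?_ : b ^ (q : ℕ) ≠ b))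
    · linear_combination -h
    · rw [hab, ← hba]; exact hne.symm
  -- descend to level `q ^ 2 - 1`
  let T : Tame q := ⟨(q : ℕ) ^ 2 - 1, he2, hdvd2, T₀.π ^ d,
    by rw [← pow_mul, mul_comm, ← hd, ← hT₀, T₀.π_pow], T₀.zp, T₀.zp_prim⟩
  have hed : T₀.e = d * ((q : ℕ) ^ 2 - 1) := by rw [hT₀, hd, mul_comm]
  have hξ : IsPrimitiveRoot (ξ₀ ^ d) T.e := hξ₀.pow T₀.e_pos hed
  refine ⟨P, ⟨{
    local_res := hM.conj P, T := T, he := rfl, ξ := ξ₀ ^ d, hξ := hξ, s := s, hs := hs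
    hsπ := by rw [show T.π = T₀.π ^ d from rfl, map_pow, hsπ₀, mul_pow]
    F := F, hF := hF
    hFπ := by rw [show T.π = T₀.π ^ d from rfl, map_pow, hFπ₀]
    M_H := ?_, α := a
    Ms00 := by rw [← hM', hMs]; rfl
    Ms11 := by rw [← hM', hMs, hba]; rfl
    Ms01 := by rw [← hM', hMs]; rfl
    Ms10 := by rw [← hM', hMs]; rfl
    hα := hne, hα2 := ha2, MF00 := hF00, MF11 := hF11 }⟩⟩
  intro h hh
  obtain ⟨hhI, hhπ⟩ := T.mem_H_iff.mp hh
  obtain ⟨j, hj, hjπ⟩ := hiner h hhI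
  rw [show T.π = T₀.π ^ d from rfl, map_pow, hjπ, mul_pow, mul_left_eq_self₀,
    or_iff_left (pow_ne_zero _ T₀.π_ne_zero), ← pow_mul, mul_comm, pow_mul] at hhπ
  obtain ⟨l, hl⟩ := (hξ.pow_eq_one_iff_dvd j).mp hhπ
  have hb2 : b ^ ((q : ℕ) ^ 2 - 1) = 1 := by rw [← hba, ← pow_mul, mul_comm, pow_mul, ha2, one_pow]
  have h1 : M' h = M' s ^ j := by
    rw [← map_pow, hM', conjHom_apply, conjHom_apply, hj, map_pow]
  show M' h = 1
  rw [h1, hMs', hl, pow_mul, pow_mul, show T.e = (q : ℕ) ^ 2 - 1 from rfl, ha2, hb2, one_pow]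
  ext i l
  fin_cases i <;> fin_cases l <;> simp

end FLTA.TaylorWiles.Flat

end
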