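import Fermat.Agent.TaylorWiles.FlatIrreducibleForm
import Fermat.Agent.TaylorWiles.FlatClasses
import Fermat.Agent.TaylorWiles.FlatOrbit

/-!
# The irreducible case: the frame, the root relation and the possible layers

For a representation in normal form: `red ξ` is a root of the polynomial of inertia as soon as one
flat deformation exists, and the classes of the entries of a cocycle only live in the layers
`q + 1` (diagonal) and `2`, `q ^ 2 + 1` (off the diagonal).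
-/

set_option autoImplicit false
set_option linter.style.haveILetI false

open scoped NNReal Matrix

noncomputable section

namespace FLTA.TaylorWiles.Flat

open FLTA.PT (Gl Ql lvlLoc locAut)

attribute [local instance] FLTA.PT.factPrime

variable {q : Nat.Primes} {k : Type} [Field k] [CharP k (q : ℕ)]

/-- Equations between natural numbers move between the fields of characteristic `q`. -/
theorem natCast_transfer {R S : Type} [Field R] [Field S] [CharP R (q : ℕ)] [CharP S (q : ℕ)]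
    {a b : ℕ} (h : (a : R) = b) : (a : S) = b :=
  (CharP.natCast_eq_natCast S (q : ℕ)).mpr ((CharP.natCast_eq_natCast R (q : ℕ)).mp h)

/-- Elements fixed by the `q`-th power are natural numbers. -/
theorem exists_natCast_of_pow_eq {R : Type} [Field R] [CharP R (q : ℕ)] {x : R}
    (h : x ^ (q : ℕ) = x) : ∃ n : ℕ, (n : R) = x := by
  rw [← Subfield.mem_bot_iff_pow_eq_self (F := R) (p := (q : ℕ)),
    ← ZMod.fieldRange_castHom_eq_bot (K := R) (q : ℕ)] at h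
  obtain ⟨a, rfl⟩ := h
  exact ⟨a.val, by rw [← map_natCast (ZMod.castHom (dvd_refl _) R), ZMod.natCast_zmod_val]⟩

namespace Tame

variable {T : Tame q}

/-- The leading coefficients of a family of classes. -/
def leadHom {n : ℕ} (hn : 1 ≤ n) (hnt : n < T.top) (hqn : ¬ (q : ℕ) ∣ n) (φ : Gl q → k)
    (hd : ∀ μ, T.Deep (entryChar φ μ) n) : k →+ Res q where
  toFun μ := T.lead n (entryChar φ μ)
  map_zero' := by rw [entryChar_zero, lead_zero hn hnt hqn]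
  map_add' μ ν := by rw [entryChar_add, lead_add hn hnt hqn (hd μ) (hd ν)]

@[simp] theorem leadHom_apply {n : ℕ} (hn : 1 ≤ n) (hnt : n < T.top) (hqn : ¬ (q : ℕ) ∣ n)
    (φ : Gl q → k) (hd : ∀ μ, T.Deep (entryChar φ μ) n) (μ : k) :
    leadHom hn hnt hqn φ hd μ = T.lead n (entryChar φ μ) := rfl

/-- Climbing for a whole family. -/
theorem deep_family {φ : Gl q → k} {n N : ℕ} (hn : 1 ≤ n) (hN : N ≤ T.top)
    (h : ∀ μ, T.Deep (entryChar φ μ) n)
    (h0 : ∀ j, n ≤ j → j < N → ¬ (q : ℕ) ∣ j → (∀ μ, T.Deep (entryChar φ μ) j) →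
      ∀ μ, T.lead j (entryChar φ μ) = 0) : ∀ μ, T.Deep (entryChar φ μ) N := by
  induction N with
  | zero => exact fun μ => (h μ).mono (Nat.zero_le n)
  | succ N ih =>
    intro μ
    rcases Nat.lt_or_ge N n with hlt | hge
    · exact (h μ).mono (by omega)
    have hd : ∀ μ, T.Deep (entryChar φ μ) N :=
      ih (by omega) fun j h1 h2 h3 h4 => h0 j h1 (by omega) h3 h4
    by_cases hq : (q : ℕ) ∣ N
    · exact deep_succ_of_dvd (by omega) (by omega) hq (hd μ)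
    · exact deep_succ_of_lead (by omega) (by omega) hq (hd μ) (h0 N hge (by omega) hq hd μ)

/-- The leading coefficient of a conjugate family. -/
theorem lead_entryChar_conj {φ : Gl q → k} {n : ℕ} (hn : 1 ≤ n) (hnt : n < T.top)
    (hqn : ¬ (q : ℕ) ∣ n) {μ : k} (hd : T.Deep (entryChar φ μ) n) {g : Gl q} {δ : k}
    (h : ∀ σ ∈ T.H, conjTwist g (cy g) (entryChar φ μ) σ = entryChar φ (δ * μ) σ) :
    T.lead n (entryChar φ (δ * μ)) = T.lead n (conjTwist g (cy g) (entryChar φ μ)) :=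
  lead_congr hn hnt hqn (hd.conj g) h

end Tame

namespace IrrForm

variable {M : Gl q →* M2 k} (D : IrrForm M)

theorem three_le (hq : (q : ℕ) ≠ 2) : 3 ≤ (q : ℕ) := by have := q.2.two_le; omega

theorem sq_ge (hq : (q : ℕ) ≠ 2) : 3 * (q : ℕ) ≤ (q : ℕ) ^ 2 := by
  rw [pow_two]; exact Nat.mul_le_mul_right _ (three_le hq)

include D in
theorem f0_eq (hq : (q : ℕ) ≠ 2) : D.T.f0 = (q : ℕ) + 1 := by
  have := three_le hq
  refine Nat.eq_of_mul_eq_mul_right (show 0 < (q : ℕ) - 1 by omega) ?_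
  rw [D.T.f0_mul, D.he, pow_two, ← Nat.mul_self_sub_mul_self_eq, one_mul]

theorem top_eq (hq : (q : ℕ) ≠ 2) : D.T.top = (q : ℕ) ^ 2 + (q : ℕ) := by
  rw [Tame.top, D.f0_eq hq, mul_add, mul_one, pow_two]

theorem α_ne_zero : D.α ≠ 0 := fun h => D.hα (by rw [h, zero_pow q.2.ne_zero])

theorem α_pow_sq : (D.α ^ (q : ℕ)) ^ (q : ℕ) = D.α := by
  have := q.2.two_le
  rw [← pow_mul, ← pow_two, ← Nat.sub_add_cancel (Nat.one_le_pow 2 _ q.2.pos), pow_succ, D.hα2,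
    one_mul]

theorem α_ne_one : D.α ≠ 1 := fun h => D.hα (by rw [h, one_pow])

theorem αq_ne_one : D.α ^ (q : ℕ) ≠ 1 := fun h => D.α_ne_one (by
  rw [← D.α_pow_sq, h, one_pow])

theorem cy_s : ((Tame.cy D.s : ℕ) : k) = D.α ^ ((q : ℕ) + 1) := by
  rw [← D.local_res.det D.s, Matrix.det_fin_two, D.Ms00, D.Ms11, D.Ms01, D.Ms10, pow_succ]
  ring

theorem cy_s_res (hq : (q : ℕ) ≠ 2) :
    ((Tame.cy D.s : ℕ) : Res q) = red D.ξ ^ ((q : ℕ) + 1) := by
  rw [Tame.cy_inerG D.hs D.hξ.pow_eq_one D.hsπ, D.f0_eq hq]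

theorem cy_F : ((Tame.cy D.F : ℕ) : k) = 1 := by
  rw [natCast_transfer (R := Res q) (b := 1)
    (by rw [Tame.cy_frobenius (T := D.T) D.hF D.hFπ, Nat.cast_one]), Nat.cast_one]

theorem cy_F' : ((Tame.cy D.F : ℕ) : ZMod (q : ℕ)) = 1 := by
  rw [natCast_transfer (R := Res q) (b := 1)
    (by rw [Tame.cy_frobenius (T := D.T) D.hF D.hFπ, Nat.cast_one]), Nat.cast_one]

theorem exists_t : ∃ t : ℕ, (t : k) = D.α + D.α ^ (q : ℕ) := by
  refine exists_natCast_of_pow_eq (q := q) ?_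
  haveI : ExpChar k (q : ℕ) := ExpChar.prime q.2
  rw [add_pow_expChar, D.α_pow_sq, add_comm]

/-- The trace of the generator of inertia. -/
def t : ℕ := D.exists_t.choose

theorem t_spec : ((D.t : ℕ) : k) = D.α + D.α ^ (q : ℕ) := D.exists_t.choose_spec

theorem quad_α : D.α * D.α + ((Tame.cy D.s : ℕ) : k) = (D.t : k) * D.α := by
  rw [D.cy_s, D.t_spec, pow_succ]; ring

theorem M_s : M D.s = !![D.α, 0; 0, D.α ^ (q : ℕ)] := by
  ext i j
  fin_cases i <;> fin_cases j <;> simp [D.Ms00, D.Ms01, D.Ms10, D.Ms11]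

theorem M_s_pow (n : ℕ) : M D.s ^ n = !![D.α ^ n, 0; 0, (D.α ^ (q : ℕ)) ^ n] := by
  induction n with
  | zero => ext i j; fin_cases i <;> fin_cases j <;> simp
  | succ n ih =>
    rw [pow_succ, ih, D.M_s]
    ext i j
    fin_cases i <;> fin_cases j <;> simp [pow_succ]

theorem exists_M_inerG {g : Gl q} (hg : g ∈ inerG q) :
    ∃ n : ℕ, M g = !![D.α ^ n, 0; 0, (D.α ^ (q : ℕ)) ^ n] := by
  obtain ⟨n, -, h, hh, rfl⟩ := D.T.exists_pow_mul_mem_H D.hs D.hξ D.hsπ hg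
  exact ⟨n, by rw [map_mul, D.M_H h hh, mul_one, map_pow, D.M_s_pow]⟩

theorem M_sinv : M D.s⁻¹ = !![D.α⁻¹, 0; 0, (D.α ^ (q : ℕ))⁻¹] := by
  refine left_inv_eq_right_inv (M_inv_mul D.s) ?_
  rw [D.M_s]
  ext i j
  fin_cases i <;> fin_cases j <;> simp [D.α_ne_zero]

theorem MFinv_facts : M D.F⁻¹ 0 0 = 0 ∧ M D.F⁻¹ 1 1 = 0 ∧ M D.F⁻¹ 0 1 * M D.F 1 0 = 1 ∧
    M D.F⁻¹ 1 0 * M D.F 0 1 = 1 := by
  have h := fun i j => congrFun (congrFun (M_inv_mul (M := M) D.F) i) j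
  have h00 := h 0 0
  have h01 := h 0 1
  have h10 := h 1 0
  have h11 := h 1 1
  simp only [mul_entry, D.MF00, D.MF11, mul_zero, zero_add, add_zero, Matrix.one_apply_eq,
    Matrix.one_apply_ne (show (0 : Fin 2) ≠ 1 by decide),
    Matrix.one_apply_ne (show (1 : Fin 2) ≠ 0 by decide)] at h00 h01 h10 h11
  refine ⟨(mul_eq_zero.mp h01).resolve_right (right_ne_zero_of_mul_eq_one h11),
    (mul_eq_zero.mp h10).resolve_right (right_ne_zero_of_mul_eq_one h00), h00, h11⟩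

variable {z : Gl q → M2 k}

/-- Moved points are in the open ball. -/
theorem w_shift_lt {X : Type} [AddCommGroup X] {N : IntModel (Ql q) X}
    {act : inerG q → X →+ X} (hN : N.Equivariant act inerAut) (g : inerG q) (y : X) :
    N.w (act g y - y) < 1 :=
  N.w_act_sub_lt_one hN g (fun a ha => nnnorm_inerG_sub_lt g.2 ha) y

include D in
/-- A flat deformation forces `red ξ` to be an eigenvalue of inertia. -/
theorem root (hq : (q : ℕ) ≠ 2) (h : FlatDefo M z) :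
    red D.ξ ^ 2 + ((Tame.cy D.s : ℕ) : Res q) = (D.t : Res q) * red D.ξ := by
  obtain ⟨N, hN⟩ := h.model
  have h3 := three_le hq
  have hsq := sq_ge hq
  set s : inerG q := ⟨D.s, D.hs⟩
  set y : DV k := (0, ![1, 0]) with hy
  have hfix : D.T.HFixed (fun g : inerG q => defoAct M z (g : Gl q)) y := fun g hg => by
    simp [hy, D.M_H _ hg]
  have hact : ∀ a : k, defoAct M z D.s (0, ![a, 0]) = (0, ![D.α * a, 0]) := fun a => by
    refine Prod.ext (by simp) (funext fun i => ?_)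
    fin_cases i <;> simp [D.M_s, Matrix.mulVec, dotProduct, Fin.sum_univ_two, mul_comm]
  have hw : N.w y < 1 := by
    convert w_shift_lt hN s (0, ![(D.α - 1)⁻¹, 0]) using 2
    show y = defoAct M z D.s (0, ![(D.α - 1)⁻¹, 0]) - (0, ![(D.α - 1)⁻¹, 0])
    rw [hact]
    refine Prod.ext (by simp [hy]) (funext fun i => ?_)
    fin_cases i <;> simp [hy]
    rw [← sub_one_mul, mul_inv_cancel₀ (sub_ne_zero.mpr D.α_ne_one)]
  have hy0 : y ≠ 0 := fun h0 => by simpa [hy] using congrFun (congrArg Prod.snd h0) 0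
  obtain ⟨m, hm1, hmf, hm⟩ := Tame.exists_exponent hN hfix (prime_nsmul_DV y) hy0 hw
  have hr := Tame.quadratic_eq_zero hN hm1 hm s D.hξ.pow_eq_one D.hsπ
    (t := D.t) (c := Tame.cy D.s) (by
      show defoAct M z D.s (defoAct M z D.s y) + Tame.cy D.s • y = D.t • defoAct M z D.s y
      rw [hy, hact, hact]
      refine Prod.ext (by simp) (funext fun i => ?_)
      fin_cases i <;> simp
      rw [← D.quad_α])
  rw [D.f0_eq hq] at hmf
  set x := red D.ξ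
  have hx2 := Tame.root_frobenius hr
  have hne : x ^ m ≠ (x ^ m) ^ (q : ℕ) := by
    intro heq
    obtain ⟨n, hn⟩ := exists_natCast_of_pow_eq (q := q) heq.symm
    have h1 : ((n ^ 2 + Tame.cy D.s : ℕ) : k) = ((D.t * n : ℕ) : k) :=
      natCast_transfer (R := Res q) (by push_cast; rw [hn]; exact hr)
    push_cast at h1
    rw [D.cy_s, D.t_spec] at h1
    have h2 : ((n : k) - D.α) * ((n : k) - D.α ^ (q : ℕ)) = 0 := by
      rw [pow_succ] at h1; linear_combination h1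
    haveI : ExpChar k (q : ℕ) := ExpChar.prime q.2
    have hfix : ((n : k)) ^ (q : ℕ) = n := by rw [← frobenius_def, map_natCast]
    rcases mul_eq_zero.mp h2 with h4 | h4 <;> rw [sub_eq_zero] at h4 <;> rw [h4] at hfix
    · exact D.hα hfix
    · exact D.hα (by rw [D.α_pow_sq] at hfix; exact hfix.symm)
  have hsum : x ^ m + (x ^ m) ^ (q : ℕ) = (D.t : Res q) := by
    have : (x ^ m - (x ^ m) ^ (q : ℕ)) * (x ^ m + (x ^ m) ^ (q : ℕ) - (D.t : Res q)) = 0 := by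
      linear_combination hr - hx2
    exact sub_eq_zero.mp ((mul_eq_zero.mp this).resolve_left (sub_ne_zero.mpr hne))
  have hprod : x ^ (m * ((q : ℕ) + 1)) = x ^ ((q : ℕ) + 1) := by
    rw [← D.cy_s_res hq, pow_mul, pow_succ (x ^ m)]
    linear_combination x ^ m * hsum - hr
  have hmod := Tame.red_pow_inj D.T.not_dvd D.hξ hprod
  rw [D.he] at hmod
  have hdvd : ((q : ℕ) - 1) * ((q : ℕ) + 1) ∣ (m - 1) * ((q : ℕ) + 1) := by
    rw [Nat.sub_mul m, one_mul, mul_comm ((q : ℕ) - 1), ← Nat.sq_sub_sq, one_pow]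
    exact (Nat.modEq_iff_dvd' (Nat.le_mul_of_pos_left _ (by omega))).mp hmod.symm
  obtain ⟨l, hl⟩ := Nat.dvd_of_mul_dvd_mul_right (by omega) hdvd
  have hm' : m = 1 ∨ m = (q : ℕ) := by
    rcases l with _ | _ | l
    · left; omega
    · right; omega
    · have : ((q : ℕ) - 1) * 2 ≤ ((q : ℕ) - 1) * (l + 1 + 1) :=
        Nat.mul_le_mul_left _ (by omega)
      omega
  rcases hm' with rfl | rfl
  · rw [pow_one] at hr; exact hr
  · have hxx : (x ^ (q : ℕ)) ^ (q : ℕ) = x := by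
      rw [← pow_mul, ← pow_two, ← Nat.sub_add_cancel (Nat.one_le_pow 2 _ q.2.pos), pow_succ,
        ← red_pow (nnnorm_rootOfUnity D.T.e_pos.ne' D.hξ.pow_eq_one).le, ← D.he, D.hξ.pow_eq_one,
        red_one, one_mul]
    rwa [hxx] at hx2

/-! ### The classes of the entries of a cocycle -/

/-- The `(i, j)` entry. -/
def ent (z : Gl q → M2 k) (i j : Fin 2) : Gl q → k := fun σ => z σ i j

theorem ent_isHom (hz : IsAdCoc M z) (i j : Fin 2) :
    (∀ a ∈ D.T.H, ∀ b ∈ D.T.H, ent z i j (a * b) = ent z i j a + ent z i j b) ∧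
      ∃ U ∈ lvlLoc q, ∀ u ∈ U, u ∈ D.T.H → ent z i j u = 0 := by
  refine ⟨fun a ha b _ => ?_, ?_⟩
  · simp only [ent]; rw [hz.apply_mul_of_eq_one (D.M_H a ha), Matrix.add_apply, add_comm]
  · obtain ⟨U, hU, h⟩ := hz.level
    exact ⟨U, hU, fun u hu _ => by rw [ent, h u hu, Matrix.zero_apply]⟩

theorem twist_s00 (hz : IsAdCoc M z) (μ : k) {σ : Gl q} (hσ : σ ∈ D.T.H) :
    Tame.conjTwist D.s (Tame.cy D.s) (entryChar (ent z 0 0) μ) σ =
      entryChar (ent z 0 0) (((Tame.cy D.s : ℕ) : k) * μ) σ := by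
  rw [Tame.conjTwist_entryChar (a := 1) (fun τ hτ => ?_) μ hσ, mul_one]
  rw [ent, ent, hz.apply_conj' _ (D.M_H τ hτ), D.M_sinv, D.M_s, mul_entry, mul_entry, mul_entry]
  simp [D.α_ne_zero, mul_right_comm]

theorem twist_s01 (hz : IsAdCoc M z) (μ : k) {σ : Gl q} (hσ : σ ∈ D.T.H) :
    Tame.conjTwist D.s (Tame.cy D.s) (entryChar (ent z 0 1) μ) σ =
      entryChar (ent z 0 1) ((D.α ^ (q : ℕ)) ^ 2 * μ) σ := by
  rw [Tame.conjTwist_entryChar (a := D.α⁻¹ * D.α ^ (q : ℕ)) (fun τ hτ => ?_) μ hσ, D.cy_s]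
  · congr 2
    rw [pow_succ]
    field_simp [D.α_ne_zero]
  · rw [ent, ent, hz.apply_conj' _ (D.M_H τ hτ), D.M_sinv, D.M_s, mul_entry, mul_entry, mul_entry]
    simp
    ring

theorem ent_conj_F00 (hz : IsAdCoc M z) {τ : Gl q} (hτ : τ ∈ D.T.H) :
    z (D.F⁻¹ * τ * D.F) 0 0 = -z τ 0 0 := by
  obtain ⟨h00, h11, h1, h2⟩ := D.MFinv_facts
  have htr := hz.trace τ
  rw [Matrix.trace_fin_two] at htr
  rw [hz.apply_conj' _ (D.M_H τ hτ), mul_entry, mul_entry, mul_entry, h00, D.MF00]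
  linear_combination (M D.F⁻¹ 0 1 * M D.F 1 0) * htr - z τ 0 0 * h1

theorem ent_conj_F01 (hz : IsAdCoc M z) {τ : Gl q} (hτ : τ ∈ D.T.H) :
    z (D.F⁻¹ * τ * D.F) 0 1 = M D.F⁻¹ 0 1 * M D.F 0 1 * z τ 1 0 := by
  obtain ⟨h00, h11, h1, h2⟩ := D.MFinv_facts
  rw [hz.apply_conj' _ (D.M_H τ hτ), mul_entry, mul_entry, mul_entry, h00, D.MF11]
  ring

theorem ent_conj_F10 (hz : IsAdCoc M z) {τ : Gl q} (hτ : τ ∈ D.T.H) :
    z (D.F⁻¹ * τ * D.F) 1 0 = M D.F⁻¹ 1 0 * M D.F 1 0 * z τ 0 1 := by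
  obtain ⟨h00, h11, h1, h2⟩ := D.MFinv_facts
  rw [hz.apply_conj' _ (D.M_H τ hτ), mul_entry, mul_entry, mul_entry, h11, D.MF00]
  ring

theorem twist_F00 (hz : IsAdCoc M z) (μ : k) {σ : Gl q} (hσ : σ ∈ D.T.H) :
    Tame.conjTwist D.F (Tame.cy D.F) (entryChar (ent z 0 0) μ) σ =
      entryChar (ent z 0 0) (-1 * μ) σ := by
  rw [Tame.conjTwist_entryChar (a := -1) (fun τ hτ => ?_) μ hσ, D.cy_F, one_mul]
  rw [ent, ent, D.ent_conj_F00 hz hτ, neg_one_mul]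

theorem twist_FF01 (hz : IsAdCoc M z) (μ : k) {σ : Gl q} (hσ : σ ∈ D.T.H) :
    Tame.conjTwist D.F (Tame.cy D.F)
      (Tame.conjTwist D.F (Tame.cy D.F) (entryChar (ent z 0 1) μ)) σ =
      entryChar (ent z 0 1) μ σ := by
  obtain ⟨h00, h11, h1, h2⟩ := D.MFinv_facts
  simp only [Tame.conjTwist, D.cy_F', one_mul, entryChar, ent]
  rw [D.ent_conj_F01 hz (D.T.conj_mem_H' hσ _), D.ent_conj_F10 hz hσ]
  congr 2
  linear_combination z σ 0 1 * (M D.F⁻¹ 1 0 * M D.F 0 1) * h1 + z σ 0 1 * h2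

include D in
theorem cy_s_ne_one (hq : (q : ℕ) ≠ 2) : ((Tame.cy D.s : ℕ) : k) ≠ 1 := by
  intro h
  have h1 : red D.ξ ^ ((q : ℕ) + 1) = red D.ξ ^ 0 := by
    rw [← D.cy_s_res hq, pow_zero,
      natCast_transfer (R := k) (b := 1) (by rw [h, Nat.cast_one]), Nat.cast_one]
  have h2 := Tame.red_pow_inj D.T.not_dvd D.hξ h1
  have h3 := sq_ge hq
  have h4 := three_le hq
  rw [D.he, Nat.zero_mod, Nat.mod_eq_of_lt (by omega)] at h2
  omega

include D in
theorem t_res (hroot : red D.ξ ^ 2 + ((Tame.cy D.s : ℕ) : Res q) = (D.t : Res q) * red D.ξ)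
    (hq : (q : ℕ) ≠ 2) : (D.t : Res q) = red D.ξ + red D.ξ ^ (q : ℕ) := by
  refine mul_right_cancel₀
    (red_ne_zero (nnnorm_rootOfUnity D.T.e_pos.ne' D.hξ.pow_eq_one)) ?_
  rw [← hroot, D.cy_s_res hq, pow_succ]; ring

include D in
theorem αq_sq_pow_ne (hroot : red D.ξ ^ 2 + ((Tame.cy D.s : ℕ) : Res q) = (D.t : Res q) * red D.ξ)
    (hq : (q : ℕ) ≠ 2) : ((D.α ^ (q : ℕ)) ^ 2) ^ (q : ℕ) ≠ (D.α ^ (q : ℕ)) ^ 2 := by
  rw [← pow_mul, mul_comm 2, pow_mul, D.α_pow_sq]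
  intro h
  have h' : (D.α ^ (q : ℕ) - D.α) * (D.α ^ (q : ℕ) + D.α) = 0 := by linear_combination -h
  have h0 := (mul_eq_zero.mp h').resolve_left (sub_ne_zero.mpr D.hα)
  have ht : ((D.t : ℕ) : k) = ((0 : ℕ) : k) := by rw [D.t_spec, add_comm, h0, Nat.cast_zero]
  have hr := natCast_transfer (S := Res q) ht
  rw [D.t_res hroot hq, Nat.cast_zero, add_eq_zero_iff_eq_neg] at hr
  -- `x = -x ^ q` gives `x ^ 2 = x ^ (2 q)`
  have hx : red D.ξ ^ 2 = red D.ξ ^ (2 * (q : ℕ)) := by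
    rw [mul_comm, pow_mul]; linear_combination (red D.ξ - red D.ξ ^ (q : ℕ)) * hr
  have h2 := Tame.red_pow_inj D.T.not_dvd D.hξ hx
  have h3 := sq_ge hq
  have h4 := three_le hq
  rw [D.he, Nat.mod_eq_of_lt (show 2 < (q : ℕ) ^ 2 - 1 by omega),
    Nat.mod_eq_of_lt (show 2 * (q : ℕ) < (q : ℕ) ^ 2 - 1 by omega)] at h2
  omega

include D in
theorem αq_sq_ne_one : (D.α ^ (q : ℕ)) ^ 2 ≠ 1 := by
  intro h
  rcases sq_eq_one_iff.mp h with h1 | h1
  · exact D.αq_ne_one h1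
  · refine D.hα ?_
    have h2 := D.α_pow_sq
    rw [h1] at h2 ⊢
    haveI : ExpChar k (q : ℕ) := ExpChar.prime q.2
    rw [← frobenius_def, map_neg, map_one] at h2
    exact h2

theorem deep00 (hq : (q : ℕ) ≠ 2) (hz : IsAdCoc M z) (μ : k) :
    D.T.Deep (entryChar (ent z 0 0) μ) 1 :=
  (Tame.unitClass_entryChar (D.ent_isHom hz 0 0).1 (D.ent_isHom hz 0 0).2 (D.cy_s_ne_one hq)
    (fun ν _ hσ => D.twist_s00 hz ν hσ) μ).deep_one

/-- The diagonal entries live in layer `q + 1`, where the leading term is negated by Frobenius. -/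
theorem layer00 (hq : (q : ℕ) ≠ 2) (hz : IsAdCoc M z) {j : ℕ} (hj : 1 ≤ j) (hjt : j < D.T.top)
    (hqj : ¬ (q : ℕ) ∣ j) {μ : k} (hd : D.T.Deep (entryChar (ent z 0 0) μ) j) :
    (j ≠ (q : ℕ) + 1 → D.T.lead j (entryChar (ent z 0 0) μ) = 0) ∧
      D.T.lead j (entryChar (ent z 0 0) (-μ)) =
        D.T.lead j (entryChar (ent z 0 0) μ) ^ (q : ℕ) := by
  refine ⟨fun hne => ?_, ?_⟩
  · have h := Tame.lead_entryChar_conj hj hjt hqj hd (fun _ hσ => D.twist_s00 hz μ hσ)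
    rw [Tame.lead_conj_inerG hj hjt hqj hd D.hs D.hξ.pow_eq_one D.hsπ, ← nsmul_eq_mul,
      entryChar_nsmul, Tame.lead_nsmul hj hjt hqj hd, D.cy_s_res hq] at h
    by_contra hL
    have h' := Tame.red_pow_inj D.T.not_dvd D.hξ (mul_right_cancel₀ hL h.symm)
    have h3 := sq_ge hq
    have h4 := three_le hq
    rw [D.top_eq hq] at hjt
    rw [D.he, Nat.mod_eq_of_lt (show (q : ℕ) + 1 < (q : ℕ) ^ 2 - 1 by omega)] at h'
    rcases Nat.lt_or_ge j ((q : ℕ) ^ 2 - 1) with hlt | hge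
    · rw [Nat.mod_eq_of_lt hlt] at h'; exact hne h'
    · rw [Nat.mod_eq_sub_mod hge, Nat.mod_eq_of_lt (by omega)] at h'; omega
  · rw [← neg_one_mul μ, Tame.lead_entryChar_conj hj hjt hqj hd (fun _ hσ => D.twist_F00 hz μ hσ),
      Tame.lead_conj_frobenius hj hjt hqj hd D.hF D.hFπ]

theorem deep01 (hq : (q : ℕ) ≠ 2) (hz : IsAdCoc M z) (μ : k) :
    D.T.Deep (entryChar (ent z 0 1) μ) 1 :=
  (Tame.unitClass_entryChar (D.ent_isHom hz 0 1).1 (D.ent_isHom hz 0 1).2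
    D.αq_sq_ne_one
    (fun ν _ hσ => D.twist_s01 hz ν hσ) μ).deep_one

/-- The entries off the diagonal live in layers `2` and `q ^ 2 + 1`. -/
theorem layer01 (hq : (q : ℕ) ≠ 2) (hz : IsAdCoc M z) (hroot : red D.ξ ^ 2 +
    ((Tame.cy D.s : ℕ) : Res q) = (D.t : Res q) * red D.ξ) {j : ℕ} (hj : 1 ≤ j)
    (hjt : j < D.T.top) (hqj : ¬ (q : ℕ) ∣ j)
    (hd : ∀ μ, D.T.Deep (entryChar (ent z 0 1) μ) j) :
    (j ≠ 2 → j ≠ (q : ℕ) ^ 2 + 1 → ∀ μ, D.T.lead j (entryChar (ent z 0 1) μ) = 0) ∧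
    (∀ μ, D.T.lead j (entryChar (ent z 0 1) ((D.α ^ (q : ℕ)) ^ 2 * μ)) =
      red D.ξ ^ j * D.T.lead j (entryChar (ent z 0 1) μ)) ∧
    ∀ μ, D.T.lead j (entryChar (ent z 0 1) μ) ^ (q : ℕ) ^ 2 =
      D.T.lead j (entryChar (ent z 0 1) μ) := by
  have hδ : ∀ μ, D.T.lead j (entryChar (ent z 0 1) ((D.α ^ (q : ℕ)) ^ 2 * μ)) =
      red D.ξ ^ j * D.T.lead j (entryChar (ent z 0 1) μ) := fun μ => by
    rw [Tame.lead_entryChar_conj hj hjt hqj (hd μ) (fun _ hσ => D.twist_s01 hz μ hσ),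
      Tame.lead_conj_inerG hj hjt hqj (hd μ) D.hs D.hξ.pow_eq_one D.hsπ]
  refine ⟨fun h2 hq21 μ => ?_, hδ, fun μ => ?_⟩
  · by_contra hL
    set v := Tame.leadHom hj hjt hqj (ent z 0 1) hd with hv
    set δ := (D.α ^ (q : ℕ)) ^ 2
    set x := red D.ξ
    set c := Tame.cy D.s
    have hvδ : ∀ ν, v (δ * ν) = x ^ j * v ν := hδ
    have hk : δ * (δ * μ) + (2 * c) • (δ * μ) + (c * c) • μ = (D.t * D.t) • (δ * μ) := by
      simp only [nsmul_eq_mul, Nat.cast_mul, Nat.cast_ofNat, δ, c, D.cy_s, D.t_spec, pow_succ]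
      ring
    have h := congrArg v hk
    rw [map_add, map_add, map_nsmul, map_nsmul, map_nsmul] at h
    simp only [hvδ, nsmul_eq_mul, Nat.cast_mul, Nat.cast_ofNat] at h
    have hcr : (c : Res q) = x ^ ((q : ℕ) + 1) := D.cy_s_res hq
    have hxx : x ≠ 0 := red_ne_zero (nnnorm_rootOfUnity D.T.e_pos.ne' D.hξ.pow_eq_one)
    have htr : (D.t : Res q) = x + x ^ (q : ℕ) := D.t_res hroot hq
    rw [hcr, htr] at h
    have h' : ((x ^ j - x ^ 2) * (x ^ j - x ^ (2 * (q : ℕ)))) * v μ = 0 := by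
      rw [pow_succ] at h; rw [mul_comm 2, pow_mul x (q : ℕ)]
      linear_combination h
    have hmod := (mul_eq_zero.mp ((mul_eq_zero.mp h').resolve_right hL)).imp
      (fun e => Tame.red_pow_inj D.T.not_dvd D.hξ (sub_eq_zero.mp e))
      (fun e => Tame.red_pow_inj D.T.not_dvd D.hξ (sub_eq_zero.mp e))
    have h3 := sq_ge hq
    have h4 := three_le hq
    rw [D.top_eq hq] at hjt
    rw [D.he, Nat.mod_eq_of_lt (show 2 < (q : ℕ) ^ 2 - 1 by omega),
      Nat.mod_eq_of_lt (show 2 * (q : ℕ) < (q : ℕ) ^ 2 - 1 by omega)] at hmod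
    rcases Nat.lt_or_ge j ((q : ℕ) ^ 2 - 1) with hlt | hge
    · rw [Nat.mod_eq_of_lt hlt] at hmod
      rcases hmod with e | e
      · exact h2 e
      · exact hqj (e ▸ dvd_mul_left _ _)
    · rw [Nat.mod_eq_sub_mod hge, Nat.mod_eq_of_lt (by omega)] at hmod
      omega
  · have h1 := (hd μ).conj D.F
    rw [pow_two, pow_mul, ← Tame.lead_conj_frobenius hj hjt hqj (hd μ) D.hF D.hFπ,
      ← Tame.lead_conj_frobenius hj hjt hqj h1 D.hF D.hFπ,
      ← Tame.lead_congr hj hjt hqj (h1.conj D.F) fun σ hσ => D.twist_FF01 hz μ hσ]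

end IrrForm

end FLTA.TaylorWiles.Flat

end
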