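import Mathlib.Analysis.Normed.Field.Lemmas
import Mathlib.Analysis.Normed.Group.Ultra
import Mathlib.RingTheory.Polynomial.Basic
import Mathlib.Algebra.Polynomial.Div
import Mathlib.Algebra.Polynomial.RingDivision

/-!
# The jump lemma

For `z` in `E + E β + ⋯ + E β^(p-1)`, where the powers of `β` have norms outside the value group
of `E`, an automorphism fixing `E` which moves each power `β^k` by a factor at most `c` moves `z`
by a factor at most `c`, and strictly less if `z` is integral.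
-/

set_option autoImplicit false

open scoped NNReal

noncomputable section

namespace FLTA.TaylorWiles.Flat

variable {Ω : Type} [NormedField Ω] [IsUltrametricDist Ω]

/-- Orthogonality: terms of pairwise distinct nonzero norms. -/
theorem nnnorm_sum_eq_sup_of_ne {α : Type*} (s : Finset α) (f : α → Ω)
    (h : ∀ i ∈ s, ∀ j ∈ s, i ≠ j → f i ≠ 0 → f j ≠ 0 → ‖f i‖₊ ≠ ‖f j‖₊) :
    ‖∑ i ∈ s, f i‖₊ = s.sup fun i => ‖f i‖₊ := by
  classical
  rw [← Finset.sum_filter_ne_zero s,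
    IsUltrametricDist.nnnorm_sum_eq_sup_of_pairwise_ne fun i hi j hj hij => ?_]
  · refine le_antisymm (Finset.sup_mono (Finset.filter_subset _ _)) (Finset.sup_le fun i hi => ?_)
    by_cases hfi : f i = 0
    · simp [hfi]
    · exact Finset.le_sup (f := fun i => ‖f i‖₊) (Finset.mem_filter.mpr ⟨hi, hfi⟩)
  · rw [Finset.coe_filter] at hi hj
    exact h i hi.1 j hj.1 hij hi.2 hj.2

omit [IsUltrametricDist Ω] in
/-- Terms `a_k β^k` have distinct norms when the powers of `‖β‖` avoid the value group of `E`. -/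
theorem nnnorm_mul_pow_ne (E : Subfield Ω) {β : Ω} (hβ : β ≠ 0) {n : ℕ}
    (hout : ∀ k, 1 ≤ k → k < n → ∀ a ∈ E, ‖a‖₊ ≠ ‖β‖₊ ^ k)
    {a a' : Ω} (ha : a ∈ E) (ha' : a' ∈ E) (ha0 : a ≠ 0) {k l : ℕ} (hk : k < n) (hl : l < n)
    (hkl : k < l) : ‖a * β ^ k‖₊ ≠ ‖a' * β ^ l‖₊ := by
  intro h
  by_cases ha'0 : a' = 0
  · simp [ha'0, ha0, hβ] at h
  refine hout (l - k) (by omega) (by omega) (a / a') (div_mem ha ha') ?_
  have hβ' : ‖β‖₊ ≠ 0 := nnnorm_ne_zero_iff.mpr hβ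
  have hl' : ‖β‖₊ ^ l = ‖β‖₊ ^ (l - k) * ‖β‖₊ ^ k := by rw [← pow_add, Nat.sub_add_cancel hkl.le]
  rw [nnnorm_mul, nnnorm_mul, nnnorm_pow, nnnorm_pow, hl', ← mul_assoc] at h
  rw [nnnorm_div, div_eq_iff (nnnorm_ne_zero_iff.mpr ha'0), mul_comm]
  exact mul_right_cancel₀ (pow_ne_zero _ hβ') h

theorem nnnorm_sum_mul_pow (E : Subfield Ω) {β : Ω} (hβ : β ≠ 0) {n : ℕ}
    (hout : ∀ k, 1 ≤ k → k < n → ∀ a ∈ E, ‖a‖₊ ≠ ‖β‖₊ ^ k)
    (a : ℕ → Ω) (ha : ∀ k, a k ∈ E) :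
    ‖∑ k ∈ Finset.range n, a k * β ^ k‖₊ = (Finset.range n).sup fun k => ‖a k * β ^ k‖₊ := by
  refine nnnorm_sum_eq_sup_of_ne _ _ fun i hi j hj hij hi0 hj0 => ?_
  rw [Finset.mem_range] at hi hj
  rcases lt_or_gt_of_ne hij with h | h
  · exact nnnorm_mul_pow_ne E hβ hout (ha i) (ha j) (left_ne_zero_of_mul hi0) hi hj h
  · exact (nnnorm_mul_pow_ne E hβ hout (ha j) (ha i) (left_ne_zero_of_mul hj0) hj hi h).symm

/-- The jump lemma. -/
theorem nnnorm_apply_sub_lt (E : Subfield Ω) (τ : Ω →+* Ω) (hτ : ∀ a ∈ E, τ a = a)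
    {β : Ω} (hβ : β ≠ 0) {n : ℕ} (hout : ∀ k, 1 ≤ k → k < n → ∀ a ∈ E, ‖a‖₊ ≠ ‖β‖₊ ^ k)
    {c : ℝ≥0} (hc : 0 < c) (hmove : ∀ k, k < n → ‖τ (β ^ k) - β ^ k‖₊ ≤ c * ‖β ^ k‖₊)
    (a : ℕ → Ω) (ha : ∀ k, a k ∈ E)
    (hz : ‖∑ k ∈ Finset.range n, a k * β ^ k‖₊ ≤ 1) :
    ‖τ (∑ k ∈ Finset.range n, a k * β ^ k) - ∑ k ∈ Finset.range n, a k * β ^ k‖₊ < c := by
  rw [nnnorm_sum_mul_pow E hβ hout a ha] at hz
  have hterm : ∀ k < n, ‖τ (a k * β ^ k) - a k * β ^ k‖₊ < c := by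
    intro k hk
    rw [map_mul, hτ _ (ha k), ← mul_sub]
    rcases Nat.eq_zero_or_pos k with rfl | hk1
    · simpa using hc
    have hle : ‖a k * β ^ k‖₊ ≤ 1 :=
      (Finset.le_sup (f := fun k => ‖a k * β ^ k‖₊) (Finset.mem_range.mpr hk)).trans hz
    have hlt : ‖a k * β ^ k‖₊ < 1 := by
      refine lt_of_le_of_ne hle fun h1 => ?_
      have ha0 : a k ≠ 0 := fun h0 => by simp [h0] at h1
      refine hout k hk1 hk (a k)⁻¹ (inv_mem (ha k)) ?_
      rw [nnnorm_mul, nnnorm_pow] at h1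
      rw [nnnorm_inv]
      exact (eq_inv_of_mul_eq_one_right h1).symm
    calc ‖a k * (τ (β ^ k) - β ^ k)‖₊
        = ‖a k‖₊ * ‖τ (β ^ k) - β ^ k‖₊ := nnnorm_mul _ _
      _ ≤ ‖a k‖₊ * (c * ‖β ^ k‖₊) := by gcongr; exact hmove k hk
      _ = c * ‖a k * β ^ k‖₊ := by rw [nnnorm_mul]; ring
      _ < c * 1 := mul_lt_mul_of_pos_left hlt hc
      _ = c := mul_one c
  rw [map_sum, ← Finset.sum_sub_distrib]
  rcases Nat.eq_zero_or_pos n with rfl | hn
  · simpa using hc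
  obtain ⟨k, hk, hle⟩ := IsUltrametricDist.exists_norm_finset_sum_le_of_nonempty
    (Finset.nonempty_range_iff.mpr hn.ne') fun k => τ (a k * β ^ k) - a k * β ^ k
  exact lt_of_le_of_lt (by exact_mod_cast hle) (hterm k (Finset.mem_range.mp hk))

omit [IsUltrametricDist Ω] in
/-- Every element of `E(β)`, for `β` a root of a monic polynomial of degree `n` over `E`, is a
combination of the powers of `β` below `n`. -/
theorem exists_eq_sum_pow (E : Subfield Ω) {β : Ω} {n : ℕ} (P : Polynomial E) (hP : P.Monic)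
    (hdeg : P.natDegree = n) (hn : n ≠ 0) (hroot : Polynomial.eval₂ E.subtype β P = 0)
    {z : Ω} (hz : ∃ Q : Polynomial E, Polynomial.eval₂ E.subtype β Q = z) :
    ∃ a : ℕ → Ω, (∀ k, a k ∈ E) ∧ z = ∑ k ∈ Finset.range n, a k * β ^ k := by
  obtain ⟨Q, rfl⟩ := hz
  refine ⟨fun k => ((Polynomial.modByMonic Q P).coeff k : Ω), fun k => SetLike.coe_mem _, ?_⟩
  have h1 : Polynomial.eval₂ E.subtype β Q = Polynomial.eval₂ E.subtype β (Polynomial.modByMonic Q P) := by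
    conv_lhs => rw [← Polynomial.modByMonic_add_div Q P]
    rw [Polynomial.eval₂_add, Polynomial.eval₂_mul, hroot, zero_mul, add_zero]
  rw [h1, Polynomial.eval₂_eq_sum_range' E.subtype (n := n)]
  · rfl
  · refine lt_of_lt_of_le (Polynomial.natDegree_modByMonic_lt Q hP ?_) hdeg.le
    rintro rfl
    exact hn (by rw [← hdeg, Polynomial.natDegree_one])

end FLTA.TaylorWiles.Flat

end
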