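import Fermat.Agent.TaylorWiles.FlatLocalRoots
import Fermat.Agent.TaylorWiles.FlatJump

/-!
# The tame field `E = Knr(π)` and Kummer theory over it

`T : Tame q` fixes `e` prime to `q` and divisible by `q - 1`, a root `π` of `X ^ e + q` and a
primitive `q`-th root of unity. Characters of `T.H = Gal(ℚ̄_q / E)` of order `q` are described by
elements `α` with `α ^ q ∈ E`; `T.Deep χ n` says that `α ^ q` can be taken congruent to `1`
modulo `π ^ n`, and `T.lead n χ` is the residue of the leading coefficient.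
-/

set_option autoImplicit false
set_option linter.style.haveILetI false

open scoped NNReal
open Polynomial

noncomputable section

namespace FLTA.TaylorWiles.Flat

open FLTA.PT (Gl Ql lvlLoc locAut locAut_surjective locAut_injective isGalois_ql fld mem_fld
  mem_of_forall_fld IsOpenLvl)

attribute [local instance] FLTA.PT.factPrime

/-- The data of the tame field. -/
structure Tame (q : Nat.Primes) where
  e : ℕ
  not_dvd : ¬ (q : ℕ) ∣ e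
  dvd_e : (q : ℕ) - 1 ∣ e
  π : Ql q
  π_pow : π ^ e = -((q : ℕ) : Ql q)
  zp : Ql q
  zp_prim : IsPrimitiveRoot zp (q : ℕ)

variable {q : Nat.Primes}

theorem exists_tame {e : ℕ} (he : ¬ (q : ℕ) ∣ e) (hd : (q : ℕ) - 1 ∣ e) :
    ∃ T : Tame q, T.e = e := by
  obtain ⟨π, hπ⟩ := IsAlgClosed.exists_pow_nat_eq (-((q : ℕ) : Ql q))
    (Nat.pos_of_ne_zero (ne_zero_of_not_dvd he))
  haveI : NeZero ((q : ℕ) : Ql q) := ⟨Nat.cast_ne_zero.2 q.2.ne_zero⟩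
  obtain ⟨z, hz⟩ := HasEnoughRootsOfUnity.exists_primitiveRoot (Ql q) (q : ℕ)
  exact ⟨⟨e, he, hd, π, hπ, z, hz⟩, rfl⟩

namespace Tame

variable (T : Tame q)

theorem e_pos : 0 < T.e := Nat.pos_of_ne_zero (ne_zero_of_not_dvd T.not_dvd)

theorem π_ne_zero : T.π ≠ 0 := fun h => by
  have := T.π_pow
  rw [h, zero_pow T.e_pos.ne', eq_comm, neg_eq_zero, Nat.cast_eq_zero] at this
  exact q.2.ne_zero this

theorem nnnorm_π_pow : ‖T.π‖₊ ^ T.e = ‖((q : ℕ) : Ql q)‖₊ := by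
  rw [← nnnorm_pow, T.π_pow, nnnorm_neg]

theorem nnnorm_π_pos : 0 < ‖T.π‖₊ := nnnorm_pos.mpr T.π_ne_zero

theorem nnnorm_π_lt_one : ‖T.π‖₊ < 1 := by
  by_contra h
  have := one_le_pow₀ (not_lt.mp h) (n := T.e)
  rw [T.nnnorm_π_pow] at this
  exact absurd nnnorm_prime_lt_one (not_lt.mpr this)

theorem pow_π_le_pow {m n : ℕ} : ‖T.π‖₊ ^ m ≤ ‖T.π‖₊ ^ n ↔ n ≤ m :=
  pow_le_pow_iff_right_of_lt_one₀ T.nnnorm_π_pos T.nnnorm_π_lt_one

theorem pow_π_lt_pow {m n : ℕ} : ‖T.π‖₊ ^ m < ‖T.π‖₊ ^ n ↔ n < m :=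
  pow_lt_pow_iff_right_of_lt_one₀ T.nnnorm_π_pos T.nnnorm_π_lt_one

theorem zpow_π_inj {m n : ℤ} : ‖T.π‖₊ ^ m = ‖T.π‖₊ ^ n ↔ m = n :=
  (zpow_right_injective₀ T.nnnorm_π_pos T.nnnorm_π_lt_one.ne).eq_iff

/-- `Knr (π)`. -/
def E : IntermediateField ℚ_[(q : ℕ)] (Ql q) :=
  (IntermediateField.adjoin (Knr q) {T.π}).restrictScalars ℚ_[(q : ℕ)]

/-- The Galois group of `E`. -/
def H : Subgroup (Gl q) := (T.E.fixingSubgroup).comap (locAut q)

theorem π_mem_E : T.π ∈ T.E := IntermediateField.mem_adjoin_simple_self (Knr q) T.π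

theorem Knr_le_E {x : Ql q} (hx : x ∈ Knr q) : x ∈ T.E :=
  (IntermediateField.adjoin (Knr q) {T.π}).algebraMap_mem ⟨x, hx⟩

theorem mem_H_iff {s : Gl q} : s ∈ T.H ↔ s ∈ inerG q ∧ locAut q s T.π = T.π := by
  rw [H, Subgroup.mem_comap, IntermediateField.mem_fixingSubgroup_iff, mem_inerG]
  refine ⟨fun h => ⟨fun x hx => h x (T.Knr_le_E hx), h _ T.π_mem_E⟩, fun ⟨h1, h2⟩ x hx => ?_⟩
  rw [E, IntermediateField.mem_restrictScalars] at hx
  induction hx using IntermediateField.adjoin_induction with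
  | mem x hx => rw [Set.mem_singleton_iff] at hx; rw [hx, h2]
  | algebraMap r => exact h1 _ r.2
  | add a b _ _ ha hb => rw [map_add, ha, hb]
  | inv a _ ha => rw [map_inv₀, ha]
  | mul a b _ _ ha hb => rw [map_mul, ha, hb]

theorem apply_of_mem_H {s : Gl q} (hs : s ∈ T.H) {x : Ql q} (hx : x ∈ T.E) :
    locAut q s x = x :=
  (IntermediateField.mem_fixingSubgroup_iff _ _).mp hs x hx

theorem H_le_inerG : T.H ≤ inerG q := fun _ h => (T.mem_H_iff.mp h).1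

theorem mem_E_of_fixed {x : Ql q} (h : ∀ s ∈ T.H, locAut q s x = x) : x ∈ T.E := by
  haveI := isGalois_ql q
  rw [← InfiniteGalois.fixedField_fixingSubgroup T.E, IntermediateField.mem_fixedField_iff]
  intro g hg
  obtain ⟨s, rfl⟩ := locAut_surjective q g
  exact h s hg

/-- Every automorphism multiplies `π` by an `e`-th root of unity. -/
theorem exists_apply_π (g : Gl q) : ∃ ξ : Ql q, ξ ^ T.e = 1 ∧ locAut q g T.π = ξ * T.π := by
  refine ⟨locAut q g T.π / T.π, ?_, (div_mul_cancel₀ _ T.π_ne_zero).symm⟩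
  rw [div_pow, ← map_pow, T.π_pow, map_neg, map_natCast, div_self]
  rw [neg_ne_zero, Nat.cast_ne_zero]
  exact q.2.ne_zero

theorem conj_mem_H {s : Gl q} (hs : s ∈ T.H) (g : Gl q) : g * s * g⁻¹ ∈ T.H := by
  rw [T.mem_H_iff]
  refine ⟨inerG_normal.conj_mem s (T.H_le_inerG hs) g, ?_⟩
  obtain ⟨ξ, hξ, hπ⟩ := T.exists_apply_π g⁻¹
  rw [map_mul, map_mul, AlgEquiv.mul_apply, AlgEquiv.mul_apply, hπ, map_mul,
    T.apply_of_mem_H hs (T.Knr_le_E (root_mem_Knr T.not_dvd hξ)), T.apply_of_mem_H hs T.π_mem_E,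
    ← hπ, ← AlgEquiv.mul_apply, ← map_mul, mul_inv_cancel, map_one, AlgEquiv.one_apply]

theorem conj_mem_H' {s : Gl q} (hs : s ∈ T.H) (g : Gl q) : g⁻¹ * s * g ∈ T.H := by
  simpa using T.conj_mem_H hs g⁻¹

theorem apply_mem_E (g : Gl q) {x : Ql q} (hx : x ∈ T.E) : locAut q g x ∈ T.E := by
  refine T.mem_E_of_fixed fun s hs => ?_
  have h := T.apply_of_mem_H (T.conj_mem_H' hs g) hx
  rw [map_mul, map_mul, AlgEquiv.mul_apply, AlgEquiv.mul_apply] at h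
  have h' := congrArg (locAut q g) h
  rwa [← AlgEquiv.mul_apply, ← map_mul, mul_inv_cancel, map_one, AlgEquiv.one_apply] at h'

theorem nnnorm_mul_π_pow_ne {a : Ql q} (ha : a ∈ (Knr q).toSubfield) (ha0 : a ≠ 0) {k : ℕ}
    (h1 : 1 ≤ k) (hk : k < T.e) : ‖a‖₊ ≠ ‖T.π‖₊ ^ k := by
  intro h
  obtain ⟨j, hj⟩ := exists_zpow_nnnorm_Knr (q := q) ha ha0
  rw [hj, ← T.nnnorm_π_pow, ← zpow_natCast, ← zpow_mul, ← zpow_natCast, T.zpow_π_inj] at h
  rcases lt_trichotomy j 0 with hj0 | hj0 | hj0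
  · have : (T.e : ℤ) * j < 0 := mul_neg_of_pos_of_neg (by exact_mod_cast T.e_pos) hj0
    omega
  · subst hj0; omega
  · have : (T.e : ℤ) * 1 ≤ T.e * j := Int.mul_le_mul_of_nonneg_left (by omega) (by omega)
    omega

theorem hout_π : ∀ k, 1 ≤ k → k < T.e → ∀ a ∈ (Knr q).toSubfield, ‖a‖₊ ≠ ‖T.π‖₊ ^ k := by
  intro k h1 hk a ha
  by_cases ha0 : a = 0
  · rw [ha0, nnnorm_zero]; exact (pow_pos T.nnnorm_π_pos k).ne
  · exact T.nnnorm_mul_π_pow_ne ha ha0 h1 hk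

theorem exists_expansion {x : Ql q} (hx : x ∈ T.E) :
    ∃ a : ℕ → Ql q, (∀ k, a k ∈ Knr q) ∧ x = ∑ k ∈ Finset.range T.e, a k * T.π ^ k := by
  have halg : IsAlgebraic (Knr q) T.π :=
    (Algebra.IsAlgebraic.isAlgebraic (R := ℚ_[(q : ℕ)]) T.π).tower_top (L := Knr q)
  rw [E, IntermediateField.mem_restrictScalars, ← IntermediateField.mem_toSubalgebra,
    IntermediateField.adjoin_simple_toSubalgebra_of_isAlgebraic halg,
    Algebra.adjoin_singleton_eq_range_aeval, AlgHom.mem_range] at hx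
  obtain ⟨Q, rfl⟩ := hx
  let P : Polynomial (Knr q).toSubfield := X ^ T.e + C ((q : ℕ) : (Knr q).toSubfield)
  refine exists_eq_sum_pow (Knr q).toSubfield P ?_ ?_ T.e_pos.ne' ?_ ⟨Q, ?_⟩
  · exact monic_X_pow_add_C _ T.e_pos.ne'
  · exact natDegree_X_pow_add_C
  · rw [eval₂_add, eval₂_pow, eval₂_X, eval₂_C, map_natCast, T.π_pow, neg_add_cancel]
  · rfl

theorem nnnorm_expansion (a : ℕ → Ql q) (ha : ∀ k, a k ∈ Knr q) :
    ‖∑ k ∈ Finset.range T.e, a k * T.π ^ k‖₊ =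
      (Finset.range T.e).sup fun k => ‖a k * T.π ^ k‖₊ :=
  nnnorm_sum_mul_pow (Knr q).toSubfield T.π_ne_zero T.hout_π a ha

theorem exists_zpow_nnnorm {x : Ql q} (hx : x ∈ T.E) (hx0 : x ≠ 0) :
    ∃ k : ℤ, ‖x‖₊ = ‖T.π‖₊ ^ k := by
  obtain ⟨a, ha, rfl⟩ := T.exists_expansion hx
  obtain ⟨k, -, hk⟩ := Finset.exists_mem_eq_sup (Finset.range T.e)
    (Finset.nonempty_range_iff.mpr T.e_pos.ne') fun k => ‖a k * T.π ^ k‖₊
  have hne : a k ≠ 0 := by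
    intro h
    rw [← nnnorm_ne_zero_iff, T.nnnorm_expansion a ha, hk, h, zero_mul, nnnorm_zero] at hx0
    exact hx0 rfl
  obtain ⟨j, hj⟩ := exists_zpow_nnnorm_Knr (ha k) hne
  refine ⟨T.e * j + k, ?_⟩
  rw [T.nnnorm_expansion a ha, hk, nnnorm_mul, nnnorm_pow, hj, ← T.nnnorm_π_pow, ← zpow_natCast,
    ← zpow_mul, ← zpow_natCast _ k, zpow_add₀ T.nnnorm_π_pos.ne']

theorem exists_pow_nnnorm {x : Ql q} (hx : x ∈ T.E) (hx0 : x ≠ 0) (h1 : ‖x‖₊ ≤ 1) :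
    ∃ k : ℕ, ‖x‖₊ = ‖T.π‖₊ ^ k := by
  obtain ⟨k, hk⟩ := T.exists_zpow_nnnorm hx hx0
  rw [hk, zpow_le_one_iff_right_of_lt_one₀ T.nnnorm_π_pos T.nnnorm_π_lt_one] at h1
  exact ⟨k.toNat, by rw [hk, ← zpow_natCast, Int.toNat_of_nonneg h1]⟩

theorem nnnorm_lt_iff_le {x : Ql q} (hx : x ∈ T.E) (n : ℕ) :
    ‖x‖₊ < ‖T.π‖₊ ^ n ↔ ‖x‖₊ ≤ ‖T.π‖₊ ^ (n + 1) := by
  refine ⟨fun h => ?_, fun h => lt_of_le_of_lt h (T.pow_π_lt_pow.mpr (Nat.lt_succ_self n))⟩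
  rcases eq_or_ne x 0 with rfl | hx0
  · simp
  obtain ⟨k, hk⟩ := T.exists_zpow_nnnorm hx hx0
  rw [hk, ← zpow_natCast, zpow_lt_zpow_iff_right_of_lt_one₀ T.nnnorm_π_pos T.nnnorm_π_lt_one] at h
  rw [hk, ← zpow_natCast, zpow_le_zpow_iff_right_of_lt_one₀ T.nnnorm_π_pos T.nnnorm_π_lt_one]
  omega

/-- Inertia realises every `e`-th root of unity on `π`. -/
theorem exists_inerG_apply_π {ξ : Ql q} (hξ : ξ ^ T.e = 1) :
    ∃ s ∈ inerG q, locAut q s T.π = ξ * T.π := by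
  haveI := isGalois_ql q
  haveI : IsGalois (Knr q) (Ql q) := IsGalois.tower_top_intermediateField (Knr q)
  have halg : IsAlgebraic (Knr q) T.π :=
    (Algebra.IsAlgebraic.isAlgebraic (R := ℚ_[(q : ℕ)]) T.π).tower_top (L := Knr q)
  have hint := halg.isIntegral
  have hdeg : T.e ≤ (minpoly (Knr q) T.π).natDegree := by
    by_contra hlt
    rw [not_le] at hlt
    set d := (minpoly (Knr q) T.π).natDegree
    let a : ℕ → Ql q := fun k =>
      if k ≤ d then (((minpoly (Knr q) T.π).coeff k : Knr q) : Ql q) else 0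
    have hd : a d = 1 := by
      simp only [a, le_refl, if_true]
      rw [show (minpoly (Knr q) T.π).coeff d = 1 from minpoly.monic hint]
      rfl
    have h0 : ∑ k ∈ Finset.range T.e, a k * T.π ^ k = 0 := by
      have h := minpoly.aeval (Knr q) T.π
      rw [aeval_eq_sum_range] at h
      rw [← Finset.sum_subset (Finset.range_mono (show d + 1 ≤ T.e by omega))
        (fun k _ hk => by simp only [Finset.mem_range] at hk; simp [a, show ¬ k ≤ d by omega]),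
        ← h]
      refine Finset.sum_congr rfl fun k hk => ?_
      rw [Finset.mem_range] at hk
      simp only [a, show k ≤ d by omega, if_true]
      rfl
    have h1 := T.nnnorm_expansion a fun k => by
      simp only [a]; split_ifs
      · exact SetLike.coe_mem _
      · exact zero_mem _
    rw [h0, nnnorm_zero] at h1
    have h2 := Finset.le_sup (f := fun k => ‖a k * T.π ^ k‖₊) (Finset.mem_range.mpr hlt)
    rw [← h1, le_zero_iff, hd, one_mul, nnnorm_eq_zero] at h2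
    exact pow_ne_zero _ T.π_ne_zero h2
  have hmin : minpoly (Knr q) T.π = X ^ T.e + C ((q : ℕ) : Knr q) := by
    refine (Polynomial.eq_of_monic_of_dvd_of_natDegree_le (minpoly.monic hint)
      (monic_X_pow_add_C _ T.e_pos.ne') (minpoly.dvd _ _ ?_) ?_).symm
    · simp [T.π_pow]
    · rw [natDegree_X_pow_add_C]; exact hdeg
  obtain ⟨σ, hσ⟩ := minpoly.exists_algEquiv_of_root' (K := Knr q) halg (x := ξ * T.π) (by
    rw [hmin]; simp [mul_pow, hξ, T.π_pow])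
  obtain ⟨s, hs⟩ := locAut_surjective q (σ.restrictScalars ℚ_[(q : ℕ)])
  refine ⟨s, mem_inerG.mpr fun x hx => ?_, by rw [hs]; exact hσ⟩
  rw [hs]
  exact σ.commutes ⟨x, hx⟩

/-! ### Binomials -/

/-- `e / (q - 1)`: the exponent of `ζ_q - 1`. -/
def f0 : ℕ := T.e / ((q : ℕ) - 1)

/-- Beyond this exponent everything is a `q`-th power. -/
def top : ℕ := (q : ℕ) * T.f0

theorem f0_mul : T.f0 * ((q : ℕ) - 1) = T.e := Nat.div_mul_cancel T.dvd_e

theorem f0_pos : 0 < T.f0 :=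
  Nat.pos_of_ne_zero fun h => T.e_pos.ne' (by rw [← T.f0_mul, h, zero_mul])

theorem top_eq : T.top = T.e + T.f0 := by
  have hq := q.2.one_lt
  rw [top, ← T.f0_mul, ← Nat.mul_succ, Nat.succ_eq_add_one, Nat.sub_add_cancel hq.le, mul_comm]

theorem nnnorm_π_f0_pow : (‖T.π‖₊ ^ T.f0) ^ ((q : ℕ) - 1) = ‖((q : ℕ) : Ql q)‖₊ := by
  rw [← pow_mul, T.f0_mul, T.nnnorm_π_pow]

theorem nnnorm_add_one_pow_sub {x : Ql q} (hx : ‖x‖₊ ≤ 1) :
    ‖(1 + x) ^ (q : ℕ) - 1 - x ^ (q : ℕ)‖₊ ≤ ‖((q : ℕ) : Ql q)‖₊ * ‖x‖₊ := by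
  have e : (1 + x) ^ (q : ℕ) - 1 - x ^ (q : ℕ) =
      ∑ i ∈ Finset.Ico 1 (q : ℕ), x ^ i * ((q : ℕ).choose i : Ql q) := by
    rw [add_comm, add_pow, Finset.sum_range_succ, Nat.choose_self, Nat.cast_one, mul_one,
      Nat.sub_self, pow_zero, mul_one, Finset.range_eq_Ico,
      Finset.sum_eq_sum_Ico_succ_bot q.2.pos]
    simp
    ring
  rw [e]
  refine IsUltrametricDist.nnnorm_sum_le_of_forall_le fun i hi => ?_
  rw [Finset.mem_Ico] at hi
  obtain ⟨b, hb⟩ := q.2.dvd_choose_self (k := i) (by omega) hi.2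
  rw [hb, Nat.cast_mul, nnnorm_mul, nnnorm_mul, nnnorm_pow, mul_comm]
  calc ‖((q : ℕ) : Ql q)‖₊ * ‖(b : Ql q)‖₊ * ‖x‖₊ ^ i
      ≤ ‖((q : ℕ) : Ql q)‖₊ * 1 * ‖x‖₊ := by
        gcongr
        · exact nnnorm_natCast_le_one b
        · exact pow_le_of_le_one zero_le hx (by omega)
    _ = _ := by rw [mul_one]

theorem red_eq_one_of_pow_sub_lt {β : Ql q} (h : ‖β ^ (q : ℕ) - 1‖₊ < 1) :
    ‖β - 1‖₊ < 1 := by
  haveI : ExpChar (Res q) (q : ℕ) := ExpChar.prime q.2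
  have h1 : ‖β ^ (q : ℕ)‖₊ ≤ 1 := by
    rw [← sub_add_cancel (β ^ (q : ℕ)) 1]
    exact (IsUltrametricDist.nnnorm_add_le_max _ _).trans (max_le h.le nnnorm_one.le)
  have hβ : ‖β‖₊ ≤ 1 := by
    rw [nnnorm_pow] at h1
    exact (pow_le_one_iff q.2.ne_zero).mp h1
  rw [← red_eq_red_iff hβ nnnorm_one.le, red_one]
  have h2 := (red_eq_red_iff h1 nnnorm_one.le).mpr h
  rw [red_pow hβ, red_one] at h2
  refine sub_eq_zero.mp ((pow_eq_zero_iff q.2.ne_zero).mp ?_)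
  rw [sub_pow_expChar, one_pow, h2, sub_self]

/-- The level of a `q`-th power: exact below the top, and at least the top beyond. -/
theorem nnnorm_pow_sub_one_eq {β : Ql q} (h : ‖β - 1‖₊ ≤ 1)
    (hlt : ‖T.π‖₊ ^ T.f0 < ‖β - 1‖₊) :
    ‖β ^ (q : ℕ) - 1‖₊ = ‖β - 1‖₊ ^ (q : ℕ) := by
  set x := β - 1 with hx
  have hb := nnnorm_add_one_pow_sub h
  rw [show 1 + x = β by rw [hx]; ring] at hb
  have hlt' : ‖((q : ℕ) : Ql q)‖₊ * ‖x‖₊ < ‖x ^ (q : ℕ)‖₊ := by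
    rw [nnnorm_pow, ← T.nnnorm_π_f0_pow,
      show ‖x‖₊ ^ (q : ℕ) = ‖x‖₊ ^ ((q : ℕ) - 1) * ‖x‖₊ by
        rw [← pow_succ, Nat.sub_add_cancel q.2.one_lt.le]]
    exact mul_lt_mul_of_pos_right (pow_lt_pow_left₀ hlt zero_le (by have := q.2.two_le; omega))
      (lt_of_le_of_lt zero_le hlt)
  rw [show β ^ (q : ℕ) - 1 = (β ^ (q : ℕ) - 1 - x ^ (q : ℕ)) + x ^ (q : ℕ) by ring,
    IsUltrametricDist.nnnorm_add_eq_max_of_nnnorm_ne_nnnorm (lt_of_le_of_lt hb hlt').ne,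
    max_eq_right (hb.trans hlt'.le), nnnorm_pow]

theorem nnnorm_pow_sub_one_le_top {β : Ql q} (h : ‖β - 1‖₊ ≤ ‖T.π‖₊ ^ T.f0) :
    ‖β ^ (q : ℕ) - 1‖₊ ≤ ‖T.π‖₊ ^ T.top := by
  set x := β - 1 with hx
  have hx1 : ‖x‖₊ ≤ 1 := h.trans (pow_le_one₀ zero_le T.nnnorm_π_lt_one.le)
  have hb := nnnorm_add_one_pow_sub hx1
  rw [show 1 + x = β by rw [hx]; ring] at hb
  rw [show β ^ (q : ℕ) - 1 = (β ^ (q : ℕ) - 1 - x ^ (q : ℕ)) + x ^ (q : ℕ) by ring]
  refine (IsUltrametricDist.nnnorm_add_le_max _ _).trans (max_le (hb.trans ?_) ?_)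
  · rw [T.top_eq, pow_add, T.nnnorm_π_pow]
    exact mul_le_mul_of_nonneg_left h zero_le
  · rw [nnnorm_pow, top, mul_comm, pow_mul]
    exact pow_le_pow_left₀ zero_le h _

/-- Below the top a `q`-th power has level a multiple of `q`. -/
theorem pow_sub_one_lt {β : Ql q} (hβE : β ∈ T.E) {n : ℕ} (hn : 1 ≤ n) (hnt : n < T.top)
    (hqn : ¬ (q : ℕ) ∣ n) (h : ‖β ^ (q : ℕ) - 1‖₊ ≤ ‖T.π‖₊ ^ n) :
    ‖β ^ (q : ℕ) - 1‖₊ < ‖T.π‖₊ ^ n := by
  refine lt_of_le_of_ne h fun he => ?_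
  have h1 : ‖β - 1‖₊ < 1 := red_eq_one_of_pow_sub_lt
    (lt_of_le_of_lt h (pow_lt_one₀ zero_le T.nnnorm_π_lt_one (by omega)))
  by_cases hlt : ‖T.π‖₊ ^ T.f0 < ‖β - 1‖₊
  · rw [T.nnnorm_pow_sub_one_eq h1.le hlt] at he
    obtain ⟨k, hk⟩ := T.exists_pow_nnnorm (sub_mem hβE (one_mem _))
      (nnnorm_pos.mp (lt_of_le_of_lt zero_le hlt)) h1.le
    rw [hk, ← pow_mul] at he
    exact hqn ⟨k, by rw [(pow_right_injective₀ T.nnnorm_π_pos T.nnnorm_π_lt_one.ne he).symm, mul_comm]⟩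
  · have := T.nnnorm_pow_sub_one_le_top (not_lt.mp hlt)
    rw [he, T.pow_π_le_pow] at this
    omega

/-! ### Roots of unity of order `q` -/

/-- `zp ^ j`. -/
def zpw (j : ZMod (q : ℕ)) : Ql q := T.zp ^ j.val

theorem zpw_natCast (n : ℕ) : T.zpw (n : ZMod (q : ℕ)) = T.zp ^ n := by
  rw [zpw, ZMod.val_natCast, ← pow_eq_pow_mod n T.zp_prim.pow_eq_one]

theorem zpw_add (a b : ZMod (q : ℕ)) : T.zpw (a + b) = T.zpw a * T.zpw b := by
  rw [zpw, zpw, zpw, ← pow_add, ZMod.val_add, ← pow_eq_pow_mod _ T.zp_prim.pow_eq_one]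

@[simp] theorem zpw_zero : T.zpw 0 = 1 := by simp [zpw]

theorem zpw_ne_zero (a : ZMod (q : ℕ)) : T.zpw a ≠ 0 :=
  pow_ne_zero _ (T.zp_prim.ne_zero q.2.ne_zero)

theorem zpw_pow (a : ZMod (q : ℕ)) : T.zpw a ^ (q : ℕ) = 1 := by
  rw [zpw, ← pow_mul, mul_comm, pow_mul, T.zp_prim.pow_eq_one, one_pow]

theorem zpw_eq_one_iff {a : ZMod (q : ℕ)} : T.zpw a = 1 ↔ a = 0 := by
  refine ⟨fun h => ?_, fun h => by rw [h, T.zpw_zero]⟩
  have h1 := Nat.eq_zero_of_dvd_of_lt ((T.zp_prim.pow_eq_one_iff_dvd _).mp h) (ZMod.val_lt a)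
  exact (ZMod.val_eq_zero a).mp h1

theorem zpw_nnnorm (a : ZMod (q : ℕ)) : ‖T.zpw a‖₊ = 1 :=
  nnnorm_rootOfUnity q.2.ne_zero (T.zpw_pow a)

theorem nnnorm_zpw_sub_one {a : ZMod (q : ℕ)} (ha : a ≠ 0) :
    ‖T.zpw a - 1‖₊ = ‖T.π‖₊ ^ T.f0 := by
  set z := T.zpw a
  have hz : z ≠ 1 := fun h => ha (T.zpw_eq_one_iff.mp h)
  have hz1 : ‖z - 1‖₊ < 1 := red_eq_one_of_pow_sub_lt (by rw [T.zpw_pow, sub_self]; simp)
  set x := z - 1 with hx
  have hx0 : x ≠ 0 := sub_ne_zero.mpr hz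
  rcases lt_trichotomy (‖T.π‖₊ ^ T.f0) ‖x‖₊ with h | h | h
  · have := T.nnnorm_pow_sub_one_eq hz1.le h
    rw [T.zpw_pow, sub_self, nnnorm_zero] at this
    exact absurd this.symm (pow_ne_zero _ (nnnorm_ne_zero_iff.mpr hx0))
  · exact h.symm
  · exfalso
    have e : (1 + x) ^ (q : ℕ) - 1 = ∑ i ∈ Finset.Ico 1 ((q : ℕ) + 1),
        x ^ i * ((q : ℕ).choose i : Ql q) := by
      rw [add_comm, add_pow, Finset.range_eq_Ico,
        Finset.sum_eq_sum_Ico_succ_bot (Nat.succ_pos _)]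
      simp
    rw [show 1 + x = z by rw [hx]; ring, T.zpw_pow, sub_self,
      Finset.sum_eq_sum_Ico_succ_bot (by have := q.2.two_le; omega), pow_one,
      Nat.choose_one_right, eq_comm, add_eq_zero_iff_eq_neg] at e
    have hle : ‖x * ((q : ℕ) : Ql q)‖₊ < ‖x * ((q : ℕ) : Ql q)‖₊ := by
      conv_lhs => rw [e, nnnorm_neg]
      obtain ⟨i, hi, hle⟩ := IsUltrametricDist.exists_norm_finsetSum_le_of_nonempty
        (t := Finset.Ico (1 + 1) ((q : ℕ) + 1))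
        (Finset.nonempty_Ico.mpr (by have := q.2.two_le; omega))
        fun i => x ^ i * ((q : ℕ).choose i : Ql q)
      rw [← coe_nnnorm, ← coe_nnnorm, NNReal.coe_le_coe] at hle
      refine lt_of_le_of_lt hle ?_
      rw [Finset.mem_Ico] at hi
      rw [nnnorm_mul, nnnorm_mul, nnnorm_pow]
      have hxpos : 0 < ‖x‖₊ := nnnorm_pos.mpr hx0
      rcases Nat.lt_or_ge i (q : ℕ) with hiq | hiq
      · obtain ⟨b, hb⟩ := q.2.dvd_choose_self (k := i) (by omega) hiq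
        rw [hb, Nat.cast_mul, nnnorm_mul]
        calc ‖x‖₊ ^ i * (‖((q : ℕ) : Ql q)‖₊ * ‖(b : Ql q)‖₊)
            ≤ ‖x‖₊ ^ 2 * (‖((q : ℕ) : Ql q)‖₊ * 1) := by
              exact mul_le_mul (pow_le_pow_of_le_one zero_le hz1.le (by omega))
                (mul_le_mul_of_nonneg_left (nnnorm_natCast_le_one b) zero_le) zero_le zero_le
          _ = ‖x‖₊ * (‖x‖₊ * ‖((q : ℕ) : Ql q)‖₊) := by ring
          _ < 1 * (‖x‖₊ * ‖((q : ℕ) : Ql q)‖₊) :=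
              mul_lt_mul_of_pos_right hz1 (mul_pos hxpos nnnorm_prime_pos)
          _ = _ := one_mul _
      · obtain rfl : i = (q : ℕ) := by omega
        rw [Nat.choose_self, Nat.cast_one, nnnorm_one, mul_one, ← T.nnnorm_π_f0_pow,
          show ‖x‖₊ ^ (q : ℕ) = ‖x‖₊ * ‖x‖₊ ^ ((q : ℕ) - 1) by
            rw [← pow_succ', Nat.sub_add_cancel q.2.one_lt.le]]
        exact mul_lt_mul_of_pos_left
          (pow_lt_pow_left₀ h zero_le (by have := q.2.two_le; omega)) hxpos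
    exact lt_irrefl _ hle

/-- Elements close enough to `1` have their `q`-th roots in `E`. -/
theorem apply_eq_of_top {α : Ql q} (hα : ‖α ^ (q : ℕ) - 1‖₊ ≤ ‖T.π‖₊ ^ T.top)
    {σ : Gl q} (hσ : σ ∈ T.H) {j : ZMod (q : ℕ)} (hj : locAut q σ α = T.zpw j * α) :
    j = 0 := by
  have h1 : ‖α - 1‖₊ < 1 := red_eq_one_of_pow_sub_lt (lt_of_le_of_lt hα
    (pow_lt_one₀ zero_le T.nnnorm_π_lt_one (Nat.mul_pos q.2.pos T.f0_pos).ne'))
  have hle : ‖α - 1‖₊ ≤ ‖T.π‖₊ ^ T.f0 := by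
    by_contra h
    rw [T.nnnorm_pow_sub_one_eq h1.le (not_le.mp h), top, mul_comm, pow_mul] at hα
    exact h ((pow_le_pow_iff_left₀ zero_le zero_le q.2.ne_zero).mp hα)
  have hπ0 : T.π ^ T.f0 ≠ 0 := pow_ne_zero _ T.π_ne_zero
  have hy : ‖(α - 1) / T.π ^ T.f0‖₊ ≤ 1 := by
    rw [nnnorm_div, nnnorm_pow]
    exact div_le_one_of_le₀ hle zero_le
  have h2 := nnnorm_inerG_sub_lt (T.H_le_inerG hσ) hy
  rw [map_div₀, map_sub, map_one, map_pow, T.apply_of_mem_H hσ T.π_mem_E, hj, ← sub_div,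
    nnnorm_div, nnnorm_pow, div_lt_one (pow_pos T.nnnorm_π_pos _),
    show T.zpw j * α - 1 - (α - 1) = (T.zpw j - 1) * α by ring, nnnorm_mul] at h2
  by_contra hj0
  have hα1 : ‖α‖₊ = 1 := by
    rw [show α = 1 + (α - 1) by ring, IsUltrametricDist.nnnorm_add_eq_max_of_nnnorm_ne_nnnorm
      (by rw [nnnorm_one]; exact h1.ne'), nnnorm_one, max_eq_left h1.le]
  rw [hα1, mul_one, T.nnnorm_zpw_sub_one hj0] at h2
  exact lt_irrefl _ h2

theorem zp_mem_E : T.zp ∈ T.E := by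
  refine T.mem_E_of_fixed fun σ hσ => ?_
  have h : (locAut q σ T.zp) ^ (q : ℕ) = 1 := by
    rw [← map_pow, T.zp_prim.pow_eq_one, map_one]
  haveI : NeZero (q : ℕ) := ⟨q.2.ne_zero⟩
  obtain ⟨i, -, hi⟩ := T.zp_prim.eq_pow_of_pow_eq_one h
  rw [← hi]
  have hi1 : 1 ≤ i := by
    rcases Nat.eq_zero_or_pos i with rfl | h0
    · rw [pow_zero] at hi
      exact absurd ((map_eq_one_iff _ (locAut q σ).injective).mp hi.symm)
        (T.zp_prim.ne_one q.2.one_lt)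
    · exact h0
  have hj := T.apply_eq_of_top (α := T.zp) (by rw [T.zp_prim.pow_eq_one, sub_self]; simp) hσ
    (j := ((i - 1 : ℕ) : ZMod (q : ℕ)))
    (by rw [T.zpw_natCast, ← pow_succ, Nat.sub_add_cancel hi1, hi])
  have h0 := T.zpw_natCast (i - 1)
  rw [hj, T.zpw_zero] at h0
  rw [← Nat.sub_add_cancel hi1, pow_succ, ← h0, one_mul]

theorem zpw_mem_E (a : ZMod (q : ℕ)) : T.zpw a ∈ T.E := pow_mem T.zp_mem_E _

/-! ### Kummer elements -/

/-- An additive level-constant function on `H`. -/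
structure IsHom (χ : Gl q → ZMod (q : ℕ)) : Prop where
  add : ∀ a ∈ T.H, ∀ b ∈ T.H, χ (a * b) = χ a + χ b
  level : ∃ U ∈ lvlLoc q, ∀ u ∈ U, u ∈ T.H → χ u = 0

/-- `α` is a Kummer element of `χ`. -/
def Kum (χ : Gl q → ZMod (q : ℕ)) (α : Ql q) : Prop :=
  α ≠ 0 ∧ ∀ σ ∈ T.H, locAut q σ α = T.zpw (χ σ) * α

theorem IsHom.map_one {χ : Gl q → ZMod (q : ℕ)} (h : T.IsHom χ) : χ 1 = 0 := by
  have h1 := h.add 1 (one_mem _) 1 (one_mem _)
  rw [one_mul] at h1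
  exact left_eq_add.mp h1

theorem exists_kum {χ : Gl q → ZMod (q : ℕ)} (hχ : T.IsHom χ) : ∃ α, T.Kum χ α := by
  obtain ⟨U, hU, hUχ⟩ := hχ.level
  have hUn := (lvlLoc q).normal_of_mem U hU
  haveI := (lvlLoc q).finiteIndex_of_mem U hU
  let K : Subgroup T.H :=
    { carrier := {a | χ a = 0}
      mul_mem' := fun {a b} (ha : χ a = 0) (hb : χ b = 0) => by
        show χ ((a : Gl q) * b) = 0
        rw [hχ.add a a.2 b b.2, ha, hb, add_zero]
      one_mem' := hχ.map_one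
      inv_mem' := fun {a} (ha : χ a = 0) => by
        have h := hχ.add a a.2 (a⁻¹ : T.H) (a⁻¹ : T.H).2
        rw [Subgroup.coe_inv, mul_inv_cancel, hχ.map_one, ha, zero_add] at h
        exact h.symm }
  haveI hKn : K.Normal := ⟨fun n (hn : χ n = 0) g => by
    show χ ((g : Gl q) * n * ((g⁻¹ : T.H) : Gl q)) = 0
    rw [hχ.add _ (mul_mem g.2 n.2) _ (g⁻¹).2, hχ.add _ g.2 _ n.2, hn, add_zero,
      ← hχ.add _ g.2 _ (g⁻¹).2, Subgroup.coe_inv, mul_inv_cancel, hχ.map_one]⟩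
  have hUK : U.subgroupOf T.H ≤ K := fun a ha => hUχ a ha a.2
  haveI : K.FiniteIndex := Subgroup.finiteIndex_of_le hUK
  haveI : Finite (T.H ⧸ K) := Subgroup.finite_quotient_of_finiteIndex
  let a : T.H →* (Ql q →+* Ql q) :=
    { toFun := fun g => ((locAut q (g : Gl q)) : Ql q →+* Ql q)
      map_one' := rfl
      map_mul' := fun _ _ => rfl }
  let D : Subgroup (Gl q) := (K.map T.H.subtype) ⊔ U
  obtain ⟨β, hβ0, hβ⟩ := FLTA.PT.exists_of_cocycle_units a K (fun s hs => by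
      have hsD : (s : Gl q) ∉ D := by
        intro hmem
        haveI := hUn
        rw [← SetLike.mem_coe, Subgroup.mul_normal, Set.mem_mul] at hmem
        obtain ⟨_, ⟨k, hk, rfl⟩, u, hu, he⟩ := hmem
        have huH : u ∈ T.H := by
          have : u = (k : Gl q)⁻¹ * (s : Gl q) := by rw [← he]; simp
          rw [this]; exact mul_mem (inv_mem k.2) s.2
        apply hs
        show χ s = 0
        rw [← he, show (T.H.subtype k) = (k : Gl q) from rfl, hχ.add _ k.2 _ huH,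
          show χ k = 0 from hk, hUχ u hu huH, add_zero]
      by_contra h
      push Not at h
      exact hsD (mem_of_forall_fld (D := D) ⟨U, hU, le_sup_right⟩ fun θ hθ =>
        h θ fun u hu => mem_fld.1 hθ u (Subgroup.mem_sup_left ⟨u, hu, rfl⟩)))
    (fun g => T.zpw (χ g)) (fun g => T.zpw_ne_zero _)
    (fun g h => by
      show T.zpw (χ ((g : Gl q) * h)) = locAut q (g : Gl q) (T.zpw (χ h)) * T.zpw (χ g)
      rw [T.apply_of_mem_H g.2 (T.zpw_mem_E _), hχ.add _ g.2 _ h.2, T.zpw_add, mul_comm])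
    (fun g u (hu : χ u = 0) => by
      show T.zpw (χ ((g : Gl q) * u)) = _
      rw [hχ.add _ g.2 _ u.2, hu, add_zero])
  refine ⟨β, hβ0, fun σ hσ => ?_⟩
  rw [hβ ⟨σ, hσ⟩, div_mul_cancel₀ _ hβ0]
  rfl

variable {T}

theorem Kum.pow_mem {χ : Gl q → ZMod (q : ℕ)} {α : Ql q} (h : T.Kum χ α) :
    α ^ (q : ℕ) ∈ T.E :=
  T.mem_E_of_fixed fun σ hσ => by rw [map_pow, h.2 σ hσ, mul_pow, T.zpw_pow, one_mul]

theorem Kum.div_mem {χ : Gl q → ZMod (q : ℕ)} {α β : Ql q} (h : T.Kum χ α) (h' : T.Kum χ β) :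
    α / β ∈ T.E :=
  T.mem_E_of_fixed fun σ hσ => by
    rw [map_div₀, h.2 σ hσ, h'.2 σ hσ, mul_div_mul_left _ _ (T.zpw_ne_zero _)]

theorem Kum.mul {χ χ' : Gl q → ZMod (q : ℕ)} {α β : Ql q} (h : T.Kum χ α) (h' : T.Kum χ' β) :
    T.Kum (χ + χ') (α * β) :=
  ⟨mul_ne_zero h.1 h'.1, fun σ hσ => by
    rw [map_mul, h.2 σ hσ, h'.2 σ hσ, Pi.add_apply, T.zpw_add]; ring⟩

theorem Kum.mul_mem {χ : Gl q → ZMod (q : ℕ)} {α x : Ql q} (h : T.Kum χ α) (hx : x ∈ T.E)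
    (hx0 : x ≠ 0) : T.Kum χ (α * x) :=
  ⟨mul_ne_zero h.1 hx0, fun σ hσ => by rw [map_mul, h.2 σ hσ, T.apply_of_mem_H hσ hx, mul_assoc]⟩

variable (T)

theorem kum_zero : T.Kum 0 1 := ⟨one_ne_zero, fun σ _ => by simp⟩

/-- The conjugate character, twisted by the cyclotomic character. -/
def conjTwist (g : Gl q) (c : ℕ) (χ : Gl q → ZMod (q : ℕ)) (σ : Gl q) : ZMod (q : ℕ) :=
  (c : ZMod (q : ℕ)) * χ (g⁻¹ * σ * g)

theorem Kum.conj {T : Tame q} {χ : Gl q → ZMod (q : ℕ)} {α : Ql q} (h : T.Kum χ α) (g : Gl q)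
    {c : ℕ} (hc : locAut q g T.zp = T.zp ^ c) :
    T.Kum (conjTwist g c χ) (locAut q g α) := by
  refine ⟨(map_ne_zero_iff _ (locAut q g).injective).mpr h.1, fun σ hσ => ?_⟩
  have e : σ * g = g * (g⁻¹ * σ * g) := by group
  rw [← AlgEquiv.mul_apply, ← map_mul, e, map_mul, AlgEquiv.mul_apply,
    h.2 _ (T.conj_mem_H' hσ g), map_mul]
  congr 1
  rw [conjTwist, zpw, map_pow, hc, ← pow_mul, ← T.zpw_natCast]
  congr 1
  push_cast
  rw [ZMod.natCast_zmod_val]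

end Tame

end FLTA.TaylorWiles.Flat

end
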