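import Mathlib.LinearAlgebra.Lagrange
import Fermat.Agent.PoitouTate.LocalLattice
import Fermat.Agent.TaylorWiles.FlatLocalModel

/-!
# The maximal unramified extension inside `ℚ̄_q`

`Knr q` is generated by the roots of unity of order prime to `q`; `inerG q` is its fixing subgroup.
Nothing about completeness is needed: everything follows from the algebraic closedness of `ℚ̄_q`
and the ultrametric inequality.
-/

set_option autoImplicit false
set_option linter.style.haveILetI false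

open scoped NNReal
open Polynomial

noncomputable section

namespace FLTA.TaylorWiles.Flat

open FLTA.PT (Gl Ql locAut locAut_surjective locAut_injective isGalois_ql)

attribute [local instance] FLTA.PT.factPrime

variable {q : Nat.Primes}

theorem nnnorm_natCast_prime : ‖((q : ℕ) : Ql q)‖₊ = ((q : ℕ) : ℝ≥0)⁻¹ := by
  apply NNReal.eq
  rw [coe_nnnorm, ← map_natCast (algebraMap ℚ_[(q : ℕ)] (Ql q)), norm_algebraMap', Padic.norm_p]
  simp

theorem nnnorm_prime_pos : 0 < ‖((q : ℕ) : Ql q)‖₊ :=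
  nnnorm_pos.mpr (Nat.cast_ne_zero.mpr q.2.ne_zero)

theorem nnnorm_prime_lt_one : ‖((q : ℕ) : Ql q)‖₊ < 1 := by
  rw [nnnorm_natCast_prime]
  exact inv_lt_one_of_one_lt₀ (by exact_mod_cast q.2.one_lt)

theorem nnnorm_natCast_le_one (n : ℕ) : ‖(n : Ql q)‖₊ ≤ 1 := by
  rw [← NNReal.coe_le_coe, coe_nnnorm, ← map_natCast (algebraMap ℚ_[(q : ℕ)] (Ql q)),
    norm_algebraMap']
  exact_mod_cast Padic.norm_int_le_one (p := (q : ℕ)) (n : ℤ)

theorem nnnorm_intCast_le_one (n : ℤ) : ‖(n : Ql q)‖₊ ≤ 1 := by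
  rw [← NNReal.coe_le_coe, coe_nnnorm, ← map_intCast (algebraMap ℚ_[(q : ℕ)] (Ql q)),
    norm_algebraMap']
  exact Padic.norm_int_le_one n

theorem nnnorm_natCast_eq_one {n : ℕ} (hn : ¬ (q : ℕ) ∣ n) : ‖(n : Ql q)‖₊ = 1 := by
  refine le_antisymm (nnnorm_natCast_le_one n) (not_lt.mp fun h => hn ?_)
  rw [← NNReal.coe_lt_coe, coe_nnnorm, ← map_natCast (algebraMap ℚ_[(q : ℕ)] (Ql q)),
    norm_algebraMap'] at h
  exact_mod_cast (Padic.norm_intCast_lt_one_iff (p := (q : ℕ)) (k := (n : ℤ))).mp (by exact_mod_cast h)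

theorem not_dvd_of_dvd {m n : ℕ} (hn : ¬ (q : ℕ) ∣ n) (h : m ∣ n) : ¬ (q : ℕ) ∣ m :=
  fun h' => hn (h'.trans h)

theorem not_dvd_lcm {m n : ℕ} (hm : ¬ (q : ℕ) ∣ m) (hn : ¬ (q : ℕ) ∣ n) :
    ¬ (q : ℕ) ∣ m.lcm n :=
  fun h => (q.2.dvd_mul.mp (h.trans (Nat.lcm_dvd_mul m n))).elim hm hn

theorem ne_zero_of_not_dvd {n : ℕ} (hn : ¬ (q : ℕ) ∣ n) : n ≠ 0 :=
  fun h => hn (h ▸ dvd_zero _)

theorem nnnorm_rootOfUnity {n : ℕ} (hn : n ≠ 0) {ζ : Ql q} (h : ζ ^ n = 1) : ‖ζ‖₊ = 1 := by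
  have := congrArg (fun x : Ql q => ‖x‖₊) h
  simp only [nnnorm_pow, nnnorm_one] at this
  exact (pow_eq_one_iff.mp this).resolve_right hn

theorem nnnorm_pow_sub_one_le {x : Ql q} (hx : ‖x‖₊ ≤ 1) (i : ℕ) :
    ‖x ^ i - 1‖₊ ≤ ‖x - 1‖₊ := by
  rw [← geom_sum_mul, nnnorm_mul]
  refine mul_le_of_le_one_left zero_le ?_
  exact IsUltrametricDist.nnnorm_sum_le_of_forall_le fun j _ => by
    rw [nnnorm_pow]; exact pow_le_one₀ zero_le hx

/-- Roots of unity of order prime to `q` have distinct residues. -/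
theorem eq_of_nnnorm_sub_lt {n : ℕ} (hn : ¬ (q : ℕ) ∣ n) {ζ ξ : Ql q} (hζ : ζ ^ n = 1)
    (hξ : ξ ^ n = 1) (h : ‖ζ - ξ‖₊ < 1) : ζ = ξ := by
  have hn0 := ne_zero_of_not_dvd hn
  have hξ0 : ξ ≠ 0 := fun h0 => by rw [h0, zero_pow hn0] at hξ; exact zero_ne_one hξ
  set z := ζ / ξ with hz
  have hzn : z ^ n = 1 := by rw [hz, div_pow, hζ, hξ, div_one]
  have hz1 : ‖z - 1‖₊ < 1 := by
    rw [hz, div_sub_one hξ0, nnnorm_div, nnnorm_rootOfUnity hn0 hξ, div_one]
    exact h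
  by_contra hne
  have hz' : z ≠ 1 := fun h1 => hne (by rwa [hz, div_eq_one_iff_eq hξ0] at h1)
  have hsum : ∑ i ∈ Finset.range n, z ^ i = 0 := by
    refine (mul_eq_zero.mp ?_).resolve_right (sub_ne_zero.mpr hz')
    rw [geom_sum_mul, hzn, sub_self]
  have : (n : Ql q) = ∑ i ∈ Finset.range n, (1 - z ^ i) := by
    rw [Finset.sum_sub_distrib, hsum, sub_zero, Finset.sum_const, Finset.card_range, nsmul_one]
  have hle : ‖(n : Ql q)‖₊ ≤ ‖z - 1‖₊ := by
    rw [this]
    refine IsUltrametricDist.nnnorm_sum_le_of_forall_le fun i _ => ?_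
    rw [← nnnorm_neg, neg_sub]
    exact nnnorm_pow_sub_one_le (nnnorm_rootOfUnity hn0 hzn).le i
  rw [nnnorm_natCast_eq_one hn] at hle
  exact absurd hz1 (not_lt.mpr hle)

section residue

variable (q)

/-- The valuation ring. -/
def intRing : Subring (Ql q) where
  carrier := {x | ‖x‖₊ ≤ 1}
  mul_mem' ha hb := (nnnorm_mul_le _ _).trans (mul_le_one₀ ha zero_le hb)
  one_mem' := nnnorm_one.le
  add_mem' ha hb := (IsUltrametricDist.nnnorm_add_le_max _ _).trans (max_le ha hb)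
  zero_mem' := by simp
  neg_mem' ha := by simpa using ha

/-- The maximal ideal. -/
def maxIdeal : Ideal (intRing q) where
  carrier := {x | ‖(x : Ql q)‖₊ < 1}
  add_mem' ha hb := lt_of_le_of_lt (IsUltrametricDist.nnnorm_add_le_max _ _) (max_lt ha hb)
  zero_mem' := by simp
  smul_mem' c x hx := by
    show ‖(c : Ql q) * (x : Ql q)‖₊ < 1
    rw [nnnorm_mul]
    exact lt_of_le_of_lt (mul_le_of_le_one_left zero_le c.2) hx

instance maxIdeal_isMaximal : (maxIdeal q).IsMaximal := by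
  rw [Ideal.isMaximal_iff]
  refine ⟨fun h => lt_irrefl (1 : ℝ≥0) (by simpa [maxIdeal] using h), fun J x _ hx hxJ => ?_⟩
  have h1 : ‖(x : Ql q)‖₊ = 1 := le_antisymm x.2 (not_lt.mp hx)
  have hinv : (x : Ql q)⁻¹ ∈ intRing q := by
    show ‖(x : Ql q)⁻¹‖₊ ≤ 1
    rw [nnnorm_inv, h1, inv_one]
  have hmem := J.mul_mem_left ⟨_, hinv⟩ hxJ
  rwa [show (⟨_, hinv⟩ : intRing q) * x = 1 from Subtype.ext (inv_mul_cancel₀ fun h0 => by
    rw [h0, nnnorm_zero] at h1; exact zero_ne_one h1)] at hmem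

/-- The residue field of `ℚ̄_q`. -/
abbrev Res : Type := intRing q ⧸ maxIdeal q

instance fieldRes : Field (Res q) := Ideal.Quotient.field _

variable {q}

open Classical in
/-- Reduction, zero outside the valuation ring. -/
def red (x : Ql q) : Res q :=
  if h : ‖x‖₊ ≤ 1 then Ideal.Quotient.mk _ ⟨x, h⟩ else 0

theorem red_coe (x : intRing q) : red (x : Ql q) = Ideal.Quotient.mk _ x := dif_pos x.2

theorem red_of_le {x : Ql q} (h : ‖x‖₊ ≤ 1) : red x = Ideal.Quotient.mk _ ⟨x, h⟩ := dif_pos h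

theorem red_eq_zero_iff {x : Ql q} (h : ‖x‖₊ ≤ 1) : red x = 0 ↔ ‖x‖₊ < 1 := by
  rw [red_of_le h, Ideal.Quotient.eq_zero_iff_mem]
  exact Iff.rfl

theorem red_eq_red_iff {x y : Ql q} (hx : ‖x‖₊ ≤ 1) (hy : ‖y‖₊ ≤ 1) :
    red x = red y ↔ ‖x - y‖₊ < 1 := by
  rw [red_of_le hx, red_of_le hy, Ideal.Quotient.eq]
  exact Iff.rfl

@[simp] theorem red_zero : red (0 : Ql q) = 0 := by simp [red_eq_zero_iff]

@[simp] theorem red_one : red (1 : Ql q) = 1 := by
  rw [red_of_le nnnorm_one.le]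
  exact map_one _

theorem red_add {x y : Ql q} (hx : ‖x‖₊ ≤ 1) (hy : ‖y‖₊ ≤ 1) : red (x + y) = red x + red y := by
  have h : ‖x + y‖₊ ≤ 1 := (intRing q).add_mem hx hy
  rw [red_of_le hx, red_of_le hy, red_of_le h]
  exact map_add (Ideal.Quotient.mk (maxIdeal q)) ⟨x, hx⟩ ⟨y, hy⟩

theorem red_mul {x y : Ql q} (hx : ‖x‖₊ ≤ 1) (hy : ‖y‖₊ ≤ 1) : red (x * y) = red x * red y := by
  have h : ‖x * y‖₊ ≤ 1 := (intRing q).mul_mem hx hy
  rw [red_of_le hx, red_of_le hy, red_of_le h]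
  exact map_mul (Ideal.Quotient.mk (maxIdeal q)) ⟨x, hx⟩ ⟨y, hy⟩

theorem red_neg {x : Ql q} (hx : ‖x‖₊ ≤ 1) : red (-x) = -red x := by
  have h : ‖-x‖₊ ≤ 1 := (intRing q).neg_mem hx
  rw [red_of_le hx, red_of_le h]
  exact map_neg (Ideal.Quotient.mk (maxIdeal q)) ⟨x, hx⟩

theorem red_sub {x y : Ql q} (hx : ‖x‖₊ ≤ 1) (hy : ‖y‖₊ ≤ 1) : red (x - y) = red x - red y := by
  rw [sub_eq_add_neg, sub_eq_add_neg, red_add hx ((intRing q).neg_mem hy), red_neg hy]

theorem red_pow {x : Ql q} (hx : ‖x‖₊ ≤ 1) : ∀ n : ℕ, red (x ^ n) = red x ^ n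
  | 0 => by rw [pow_zero, pow_zero, red_one]
  | n + 1 => by rw [pow_succ, pow_succ, red_mul ((intRing q).pow_mem hx n) hx, red_pow hx n]

theorem red_natCast (n : ℕ) : red (n : Ql q) = n := by
  rw [red_of_le (nnnorm_natCast_le_one n)]
  exact map_natCast (Ideal.Quotient.mk (maxIdeal q)) n

theorem red_intCast (n : ℤ) : red (n : Ql q) = n := by
  rw [red_of_le (nnnorm_intCast_le_one n)]
  exact map_intCast (Ideal.Quotient.mk (maxIdeal q)) n

theorem red_ne_zero {x : Ql q} (h : ‖x‖₊ = 1) : red x ≠ 0 :=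
  fun h0 => ((red_eq_zero_iff h.le).mp h0).ne h

instance charP_res : CharP (Res q) (q : ℕ) :=
  (CharP.charP_iff_prime_eq_zero q.2).mpr (by
    rw [← red_natCast, red_eq_zero_iff (nnnorm_natCast_le_one _)]
    exact nnnorm_prime_lt_one)

theorem red_surjective (u : Res q) : ∃ x : Ql q, ‖x‖₊ ≤ 1 ∧ red x = u := by
  obtain ⟨x, rfl⟩ := Ideal.Quotient.mk_surjective u
  exact ⟨x, x.2, red_coe x⟩

/-- Every unit is congruent to a root of unity of order prime to `q`. -/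
theorem exists_root_congr {x : Ql q} (hx : ‖x‖₊ = 1) :
    ∃ (n : ℕ) (ζ : Ql q), ¬ (q : ℕ) ∣ n ∧ ζ ^ n = 1 ∧ ‖x - ζ‖₊ < 1 := by
  classical
  let L : IntermediateField ℚ_[(q : ℕ)] (Ql q) := IntermediateField.adjoin ℚ_[(q : ℕ)] {x}
  haveI : FiniteDimensional ℚ_[(q : ℕ)] L :=
    IntermediateField.adjoin.finiteDimensional (Algebra.IsAlgebraic.isAlgebraic x).isIntegral
  obtain ⟨t, ht, -, hcov⟩ := FLTA.PT.exists_finite_cover L 1 one_pos
  have hxL : x ∈ L := IntermediateField.mem_adjoin_simple_self _ x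
  have hpow : ∀ a : ℕ, ∃ y ∈ t, ‖x ^ a - y‖₊ < 1 := fun a => by
    obtain ⟨y, hy, hd⟩ := hcov (x ^ a) (pow_mem hxL a) (le_of_eq (by
      rw [norm_pow, ← coe_nnnorm, hx, NNReal.coe_one, one_pow]))
    exact ⟨y, hy, by exact_mod_cast hd⟩
  choose y hy hd using hpow
  obtain ⟨a, -, b, -, hab, hyab⟩ := Set.infinite_univ.exists_ne_map_eq_of_mapsTo
    (f := y) (t := t) (fun a _ => hy a) ht
  wlog hlt : a < b generalizing a b
  · exact this b a hab.symm hyab.symm (lt_of_le_of_ne (not_lt.mp hlt) hab.symm)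
  have hred : red x ^ (b - a) = 1 := by
    have h1 : red (x ^ a) = red (x ^ b) := by
      rw [red_eq_red_iff (by rw [nnnorm_pow, hx, one_pow]) (by rw [nnnorm_pow, hx, one_pow])]
      rw [← sub_add_sub_cancel (x ^ a) (y a) (x ^ b)]
      refine lt_of_le_of_lt (IsUltrametricDist.nnnorm_add_le_max _ _) (max_lt (hd a) ?_)
      rw [hyab, ← nnnorm_neg, neg_sub]
      exact hd b
    rw [red_pow hx.le, red_pow hx.le, ← Nat.sub_add_cancel hlt.le, pow_add] at h1
    exact (mul_right_cancel₀ (pow_ne_zero _ (red_ne_zero hx)) (h1.symm.trans (one_mul _).symm))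
  obtain ⟨c, n, hn, hcn⟩ := Nat.exists_eq_pow_mul_and_not_dvd
    (Nat.sub_ne_zero_of_lt hlt) (q : ℕ) q.2.ne_one
  haveI : ExpChar (Res q) (q : ℕ) := ExpChar.prime q.2
  have hredn : red x ^ n = 1 := by
    refine sub_eq_zero.mp ((pow_eq_zero_iff (pow_ne_zero c q.2.ne_zero)).mp ?_)
    rw [sub_pow_expChar_pow, one_pow, ← pow_mul, mul_comm, ← hcn, hred, sub_self]
  have hn0 := ne_zero_of_not_dvd hn
  have hlt' : ‖x ^ n - 1‖₊ < 1 := by
    rw [← red_eq_red_iff (by rw [nnnorm_pow, hx, one_pow]) nnnorm_one.le, red_pow hx.le, hredn,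
      red_one]
  obtain ⟨ξ, hξ⟩ : ∃ ξ : Ql q, IsPrimitiveRoot ξ n :=
    haveI : NeZero (n : Ql q) := ⟨Nat.cast_ne_zero.2 hn0⟩
    HasEnoughRootsOfUnity.exists_primitiveRoot (Ql q) n
  have hfac := congrArg (Polynomial.eval x) (Polynomial.X_pow_sub_one_eq_prod (Nat.pos_of_ne_zero hn0) hξ)
  rw [eval_sub, eval_pow, eval_X, eval_one, eval_prod] at hfac
  rw [hfac, nnnorm_prod] at hlt'
  by_contra hne
  push Not at hne
  refine absurd hlt' (not_lt.mpr (Finset.one_le_prod' fun ζ hζ => ?_))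
  rw [eval_sub, eval_X, eval_C]
  exact hne n ζ hn ((Polynomial.mem_nthRootsFinset (Nat.pos_of_ne_zero hn0) (1 : Ql q)).mp hζ)

theorem exists_root_red_eq {u : Res q} (hu : u ≠ 0) :
    ∃ (n : ℕ) (ζ : Ql q), ¬ (q : ℕ) ∣ n ∧ ζ ^ n = 1 ∧ red ζ = u := by
  obtain ⟨x, hx, rfl⟩ := red_surjective u
  have hx1 : ‖x‖₊ = 1 := le_antisymm hx (not_lt.mp fun h => hu ((red_eq_zero_iff hx).mpr h))
  obtain ⟨n, ζ, hn, hζ, h⟩ := exists_root_congr hx1
  exact ⟨n, ζ, hn, hζ, ((red_eq_red_iff hx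
    (nnnorm_rootOfUnity (ne_zero_of_not_dvd hn) hζ).le).mpr h).symm⟩

end residue

section Knr

variable (q)

/-- The roots of unity of order prime to `q`. -/
def tameRoots : Set (Ql q) := {ζ | ∃ n : ℕ, ¬ (q : ℕ) ∣ n ∧ ζ ^ n = 1}

/-- The maximal unramified extension. -/
def Knr : IntermediateField ℚ_[(q : ℕ)] (Ql q) :=
  IntermediateField.adjoin ℚ_[(q : ℕ)] (tameRoots q)

/-- The inertia group, as the fixing subgroup of `Knr`. -/
def inerG : Subgroup (Gl q) := ((Knr q).fixingSubgroup).comap (locAut q)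

variable {q}

theorem mem_inerG {s : Gl q} : s ∈ inerG q ↔ ∀ x ∈ Knr q, locAut q s x = x := by
  rw [inerG, Subgroup.mem_comap, IntermediateField.mem_fixingSubgroup_iff]

theorem root_mem_Knr {n : ℕ} (hn : ¬ (q : ℕ) ∣ n) {ζ : Ql q} (hζ : ζ ^ n = 1) : ζ ∈ Knr q :=
  IntermediateField.subset_adjoin _ _ ⟨n, hn, hζ⟩

theorem mem_inerG_of_roots {s : Gl q}
    (h : ∀ (n : ℕ) (ζ : Ql q), ¬ (q : ℕ) ∣ n → ζ ^ n = 1 → locAut q s ζ = ζ) : s ∈ inerG q := by
  rw [mem_inerG]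
  intro x hx
  induction hx using IntermediateField.adjoin_induction with
  | mem x hx => obtain ⟨n, hn, hx⟩ := hx; exact h n x hn hx
  | algebraMap r => exact AlgEquiv.commutes _ r
  | add a b _ _ ha hb => rw [map_add, ha, hb]
  | inv a _ ha => rw [map_inv₀, ha]
  | mul a b _ _ ha hb => rw [map_mul, ha, hb]

/-- Inertia acts trivially on residues. -/
theorem nnnorm_inerG_sub_lt {s : Gl q} (hs : s ∈ inerG q) {x : Ql q} (hx : ‖x‖₊ ≤ 1) :
    ‖locAut q s x - x‖₊ < 1 := by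
  rcases hx.lt_or_eq with h | h
  · refine lt_of_le_of_lt ?_ h
    rw [sub_eq_add_neg]
    exact (IsUltrametricDist.nnnorm_add_le_max _ _).trans
      (max_le (nnnorm_locAut q s x).le (nnnorm_neg x).le)
  · obtain ⟨n, ζ, hn, hζ, hlt⟩ := exists_root_congr h
    have e : locAut q s x - x = (locAut q s (x - ζ)) + (ζ - x) := by
      rw [map_sub, mem_inerG.mp hs ζ (root_mem_Knr hn hζ)]
      ring
    rw [e]
    refine lt_of_le_of_lt (IsUltrametricDist.nnnorm_add_le_max _ _) (max_lt ?_ ?_)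
    · rwa [nnnorm_locAut]
    · rwa [← nnnorm_neg, neg_sub]

theorem red_inerG {s : Gl q} (hs : s ∈ inerG q) {x : Ql q} (hx : ‖x‖₊ ≤ 1) :
    red (locAut q s x) = red x :=
  (red_eq_red_iff (by rwa [nnnorm_locAut]) hx).mpr (nnnorm_inerG_sub_lt hs hx)

/-- An automorphism maps a root of unity to one of its `q`-power powers. -/
theorem exists_apply_root_eq_pow {n : ℕ} (hn : ¬ (q : ℕ) ∣ n) {ζ : Ql q} (hζ : ζ ^ n = 1)
    (σ : Gl q) : ∃ a : ℕ, locAut q σ ζ = ζ ^ (q : ℕ) ^ a := by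
  classical
  haveI : ExpChar (Res q) (q : ℕ) := ExpChar.prime q.2
  have hn0 := ne_zero_of_not_dvd hn
  have hpow : ∀ j, (ζ ^ (q : ℕ) ^ j) ^ n = 1 := fun j => by
    rw [← pow_mul, mul_comm, pow_mul, hζ, one_pow]
  have hle : ∀ j, ‖ζ ^ (q : ℕ) ^ j‖₊ ≤ 1 := fun j => (nnnorm_rootOfUnity hn0 (hpow j)).le
  obtain ⟨f, hf, hfn⟩ : ∃ f : ℕ, 0 < f ∧ n ∣ (q : ℕ) ^ f - 1 := by
    have hcop : (q : ℕ).Coprime n := q.2.coprime_iff_not_dvd.mpr hn
    refine ⟨n.totient, Nat.totient_pos.mpr (Nat.pos_of_ne_zero hn0), ?_⟩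
    exact (Nat.modEq_iff_dvd' (Nat.one_le_pow _ _ q.2.pos)).mp (Nat.ModEq.pow_totient hcop).symm
  have hζf : ζ ^ (q : ℕ) ^ f = ζ := by
    obtain ⟨c, hc⟩ := hfn
    rw [← Nat.sub_add_cancel (Nat.one_le_pow f _ q.2.pos), hc, pow_add, pow_mul, hζ, one_pow,
      one_mul, pow_one]
  -- the residual polynomial with roots the conjugate residues has coefficients in `𝔽_q`
  set u : ℕ → Res q := fun j => red (ζ ^ (q : ℕ) ^ j) with hu
  let h : (Res q)[X] := ∏ j ∈ Finset.range f, (X - C (u j))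
  have hu1 : ∀ j, u j ^ (q : ℕ) = u (j + 1) := fun j => by
    rw [hu, ← red_pow (hle j), ← pow_mul, ← pow_succ]
  have hfrob : h.map (frobenius (Res q) (q : ℕ)) = h := by
    simp only [h, Polynomial.map_prod, Polynomial.map_sub, map_X, map_C, frobenius_def, hu1]
    have h1 := Finset.prod_range_succ' (fun j => (X - C (u j) : (Res q)[X])) f
    have h2 := Finset.prod_range_succ (fun j => (X - C (u j) : (Res q)[X])) f
    rw [h1, show u f = u 0 by simp only [hu, hζf, pow_zero, pow_one]] at h2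
    exact mul_right_cancel₀ (X_sub_C_ne_zero _) h2
  have hcoef : ∀ i, ∃ a : ℕ, h.coeff i = a := by
    intro i
    have hfix : h.coeff i ^ (q : ℕ) = h.coeff i := by
      have := congrArg (fun P => Polynomial.coeff P i) hfrob
      simpa [coeff_map, frobenius_def] using this
    let φ : ZMod (q : ℕ) →+* Res q := ZMod.castHom (dvd_refl _) (Res q)
    by_contra hne
    push Not at hne
    have hP : (X ^ (q : ℕ) - X : (Res q)[X]) ≠ 0 := FiniteField.X_pow_card_sub_X_ne_zero _ q.2.one_lt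
    let S : Finset (Res q) := insert (h.coeff i) ((Finset.univ : Finset (ZMod (q : ℕ))).image φ)
    have hsub : S.val ⊆ (X ^ (q : ℕ) - X : (Res q)[X]).roots := by
      intro x hx
      rw [mem_roots hP, IsRoot, eval_sub, eval_pow, eval_X, sub_eq_zero]
      rcases Finset.mem_insert.mp hx with rfl | hx
      · exact hfix
      · obtain ⟨a, -, rfl⟩ := Finset.mem_image.mp hx
        rw [← map_pow, ZMod.pow_card]
    have hcard : S.card = (q : ℕ) + 1 := by
      rw [Finset.card_insert_of_notMem, Finset.card_image_of_injective _ φ.injective,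
        Finset.card_univ, ZMod.card]
      intro hx
      obtain ⟨a, -, ha⟩ := Finset.mem_image.mp hx
      exact hne a.val (by rw [← ha, ← map_natCast φ, ZMod.natCast_zmod_val])
    have := Polynomial.card_le_degree_of_subset_roots hsub
    rw [hcard, FiniteField.X_pow_card_sub_X_natDegree_eq _ q.2.one_lt] at this
    omega
  choose a ha using hcoef
  let g : (Ql q)[X] := ∑ i ∈ Finset.range (h.natDegree + 1), C (a i : Ql q) * X ^ i
  have hg_red : ∀ x : Ql q, ‖x‖₊ ≤ 1 →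
      ∃ hle : ‖g.eval x‖₊ ≤ 1, red (g.eval x) = h.eval (red x) := by
    intro x hx
    have hterm : ∀ i, ‖(a i : Ql q) * x ^ i‖₊ ≤ 1 := fun i => by
      rw [nnnorm_mul, nnnorm_pow]
      exact mul_le_one₀ (nnnorm_natCast_le_one _) zero_le (pow_le_one₀ zero_le hx)
    simp only [g, eval_finsetSum, eval_mul, eval_C, eval_pow, eval_X]
    refine ⟨IsUltrametricDist.nnnorm_sum_le_of_forall_le fun i _ => hterm i, ?_⟩
    rw [eval_eq_sum_range (x := red x)]
    have : ∀ s : Finset ℕ, red (∑ i ∈ s, (a i : Ql q) * x ^ i) = ∑ i ∈ s, h.coeff i * red x ^ i := by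
      intro s
      induction s using Finset.induction with
      | empty => simp
      | insert i s hi ih =>
        rw [Finset.sum_insert hi, Finset.sum_insert hi, red_add (hterm i)
          (IsUltrametricDist.nnnorm_sum_le_of_forall_le fun i _ => hterm i), ih,
          red_mul (nnnorm_natCast_le_one _) (by rw [nnnorm_pow]; exact pow_le_one₀ zero_le hx),
          red_pow hx, red_natCast, ha]
    exact this _
  have hζle : ‖ζ‖₊ ≤ 1 := (nnnorm_rootOfUnity hn0 hζ).le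
  obtain ⟨hle0, hred0⟩ := hg_red ζ hζle
  have hzero : red (g.eval ζ) = 0 := by
    rw [hred0]
    simp only [h, eval_prod]
    exact Finset.prod_eq_zero (Finset.mem_range.mpr hf) (by simp [hu])
  have hσg : locAut q σ (g.eval ζ) = g.eval (locAut q σ ζ) := by
    simp only [g, eval_finsetSum, eval_mul, eval_pow, eval_X, map_sum, map_mul, map_pow,
      map_natCast, eval_natCast]
  have hσle : ‖locAut q σ ζ‖₊ ≤ 1 := by rwa [nnnorm_locAut]
  obtain ⟨hle1, hred1⟩ := hg_red _ hσle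
  have hz1 : red (g.eval (locAut q σ ζ)) = 0 := by
    rw [red_eq_zero_iff hle1, ← hσg, nnnorm_locAut]
    exact (red_eq_zero_iff hle0).mp hzero
  rw [hred1] at hz1
  simp only [h, eval_prod, Finset.prod_eq_zero_iff, eval_sub, eval_X, eval_C, sub_eq_zero] at hz1
  obtain ⟨j, -, hj⟩ := hz1
  exact ⟨j, eq_of_nnnorm_sub_lt hn (by rw [← map_pow, hζ, map_one]) (hpow j)
    ((red_eq_red_iff hσle (hle j)).mp hj)⟩

theorem natCast_pow_prime_eq (m : ℕ) : ((m : Res q)) ^ (q : ℕ) = m := by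
  have h := congrArg (ZMod.castHom (dvd_refl (q : ℕ)) (Res q)) (ZMod.pow_card (m : ZMod (q : ℕ)))
  rwa [map_pow, map_natCast] at h

theorem exists_red_algebraMap_eq_natCast {c : ℚ_[(q : ℕ)]}
    (hi : ‖algebraMap ℚ_[(q : ℕ)] (Ql q) c‖₊ ≤ 1) :
    ∃ m : ℕ, red (algebraMap ℚ_[(q : ℕ)] (Ql q) c) = (m : Res q) := by
  have hz : ‖c‖ ≤ 1 := by
    rw [← norm_algebraMap' (Ql q)]
    exact_mod_cast hi
  obtain ⟨z, hz'⟩ : ∃ z : ℤ_[(q : ℕ)], (z : ℚ_[(q : ℕ)]) = c := ⟨⟨_, hz⟩, rfl⟩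
  refine ⟨PadicInt.zmodRepr z, ?_⟩
  have hm := PadicInt.sub_zmodRepr_mem z
  rw [IsLocalRing.mem_maximalIdeal, PadicInt.mem_nonunits, PadicInt.norm_def, PadicInt.coe_sub,
    PadicInt.coe_natCast, hz'] at hm
  rw [← red_natCast, red_eq_red_iff hi (nnnorm_natCast_le_one _), ← NNReal.coe_lt_coe, coe_nnnorm,
    ← map_natCast (algebraMap ℚ_[(q : ℕ)] (Ql q)), ← map_sub, norm_algebraMap', NNReal.coe_one]
  exact hm

theorem exists_algEquiv_apply_of_mem_roots {ζ r : Ql q}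
    (hr : r ∈ ((minpoly ℚ_[(q : ℕ)] ζ).map (algebraMap ℚ_[(q : ℕ)] (Ql q))).roots) :
    ∃ t : Gl q, locAut q t ζ = r := by
  haveI := isGalois_ql q
  rw [mem_roots'] at hr
  obtain ⟨σ, hσ⟩ := minpoly.exists_algEquiv_of_root' (K := ℚ_[(q : ℕ)])
    (Algebra.IsAlgebraic.isAlgebraic ζ) (x := r) (by rw [aeval_def, ← eval_map]; exact hr.2)
  obtain ⟨t, ht⟩ := locAut_surjective q σ
  exact ⟨t, by rw [ht, hσ]⟩

/-- Some automorphism maps a given root of unity to its `q`-th power. -/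
theorem exists_apply_root_frobenius {n : ℕ} (hn : ¬ (q : ℕ) ∣ n) {ζ : Ql q} (hζ : ζ ^ n = 1) :
    ∃ σ : Gl q, locAut q σ ζ = ζ ^ (q : ℕ) := by
  classical
  haveI := isGalois_ql q
  have hn0 := ne_zero_of_not_dvd hn
  have hint : IsIntegral ℚ_[(q : ℕ)] ζ := (Algebra.IsAlgebraic.isAlgebraic ζ).isIntegral
  set P := minpoly ℚ_[(q : ℕ)] ζ
  set R := (P.map (algebraMap ℚ_[(q : ℕ)] (Ql q))).roots with hR
  have hroot : ∀ r ∈ R, r ^ n = 1 := by
    intro r hr
    obtain ⟨t, rfl⟩ := exists_algEquiv_apply_of_mem_roots hr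
    rw [← map_pow, hζ, map_one]
  have hcoef : ∀ i, ‖(P.map (algebraMap ℚ_[(q : ℕ)] (Ql q))).coeff i‖₊ ≤ 1 := by
    intro i
    rw [(IsAlgClosed.splits _).eq_prod_roots_of_monic ((minpoly.monic hint).map _), ← hR]
    have : ∀ s : Multiset (Ql q), (∀ r ∈ s, r ^ n = 1) →
        ∀ i, ‖((s.map fun r => X - C r).prod).coeff i‖₊ ≤ 1 := by
      intro s
      induction s using Multiset.induction with
      | empty => intro _ i; rw [Multiset.map_zero, Multiset.prod_zero, coeff_one]; split_ifs <;> simp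
      | cons r s ih =>
        intro hs i
        rw [Multiset.map_cons, Multiset.prod_cons, sub_mul, coeff_sub, coeff_C_mul]
        have ihs := ih fun r hr => hs r (Multiset.mem_cons_of_mem hr)
        rw [sub_eq_add_neg]
        refine (IsUltrametricDist.nnnorm_add_le_max _ _).trans (max_le ?_ ?_)
        · cases i with
          | zero => simp
          | succ i => rw [coeff_X_mul]; exact ihs i
        · rw [nnnorm_neg, nnnorm_mul, nnnorm_rootOfUnity hn0 (hs r (Multiset.mem_cons_self r s)),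
            one_mul]
          exact ihs i
    exact this R hroot i
  haveI : ExpChar (Res q) (q : ℕ) := ExpChar.prime q.2
  -- `P (ζ ^ q)` is congruent to `P (ζ) ^ q`
  have hP : ∀ x : Ql q, ‖x‖₊ ≤ 1 →
      red ((P.map (algebraMap ℚ_[(q : ℕ)] (Ql q))).eval x) =
        ∑ i ∈ Finset.range (P.natDegree + 1),
          red ((P.map (algebraMap ℚ_[(q : ℕ)] (Ql q))).coeff i) * red x ^ i := by
    intro x hx
    rw [eval_eq_sum_range' (n := P.natDegree + 1) (by rw [natDegree_map]; omega)]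
    have hterm : ∀ i, ‖(P.map (algebraMap ℚ_[(q : ℕ)] (Ql q))).coeff i * x ^ i‖₊ ≤ 1 := fun i => by
      rw [nnnorm_mul, nnnorm_pow]
      exact mul_le_one₀ (hcoef i) zero_le (pow_le_one₀ zero_le hx)
    have : ∀ s : Finset ℕ, red (∑ i ∈ s, (P.map (algebraMap ℚ_[(q : ℕ)] (Ql q))).coeff i * x ^ i) =
        ∑ i ∈ s, red ((P.map (algebraMap ℚ_[(q : ℕ)] (Ql q))).coeff i) * red x ^ i := by
      intro s
      induction s using Finset.induction with
      | empty => simp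
      | insert i s hi ih =>
        rw [Finset.sum_insert hi, Finset.sum_insert hi, red_add (hterm i)
          (IsUltrametricDist.nnnorm_sum_le_of_forall_le fun i _ => hterm i), ih,
          red_mul (hcoef i) (by rw [nnnorm_pow]; exact pow_le_one₀ zero_le hx), red_pow hx]
    exact this _
  have hfix : ∀ i, red ((P.map (algebraMap ℚ_[(q : ℕ)] (Ql q))).coeff i) ^ (q : ℕ) =
      red ((P.map (algebraMap ℚ_[(q : ℕ)] (Ql q))).coeff i) := by
    intro i
    have hi := hcoef i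
    rw [coeff_map] at hi ⊢
    obtain ⟨m, hm⟩ := exists_red_algebraMap_eq_natCast hi
    rw [hm]
    exact natCast_pow_prime_eq m
  have hζle : ‖ζ‖₊ ≤ 1 := (nnnorm_rootOfUnity hn0 hζ).le
  have hζq : ‖ζ ^ (q : ℕ)‖₊ ≤ 1 := by rw [nnnorm_pow]; exact pow_le_one₀ zero_le hζle
  have h0 : red ((P.map (algebraMap ℚ_[(q : ℕ)] (Ql q))).eval (ζ ^ (q : ℕ))) = 0 := by
    rw [hP _ hζq, red_pow hζle]
    calc _ = (∑ i ∈ Finset.range (P.natDegree + 1),
          red ((P.map (algebraMap ℚ_[(q : ℕ)] (Ql q))).coeff i) * red ζ ^ i) ^ (q : ℕ) := by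
          rw [sum_pow_char]
          refine Finset.sum_congr rfl fun i _ => ?_
          rw [mul_pow, hfix, ← pow_mul, ← pow_mul, mul_comm (q : ℕ) i]
      _ = 0 := by
          rw [← hP _ hζle, eval_map, ← aeval_def, minpoly.aeval, red_zero, zero_pow q.2.ne_zero]
  have hPle : ‖(P.map (algebraMap ℚ_[(q : ℕ)] (Ql q))).eval (ζ ^ (q : ℕ))‖₊ ≤ 1 := by
    rw [eval_eq_sum_range]
    refine IsUltrametricDist.nnnorm_sum_le_of_forall_le fun i _ => ?_
    rw [nnnorm_mul, nnnorm_pow]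
    exact mul_le_one₀ (hcoef i) zero_le (pow_le_one₀ zero_le hζq)
  rw [red_eq_zero_iff hPle, (IsAlgClosed.splits _).eq_prod_roots_of_monic ((minpoly.monic hint).map _),
    eval_multiset_prod, ← hR, Multiset.map_map] at h0
  obtain ⟨r, hr, hrlt⟩ : ∃ r ∈ R, ‖ζ ^ (q : ℕ) - r‖₊ < 1 := by
    by_contra hne
    push Not at hne
    refine absurd h0 (not_lt.mpr ?_)
    clear_value R
    clear hR hroot h0
    induction R using Multiset.induction with
    | empty => simp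
    | cons r s ih =>
      rw [Multiset.map_cons, Multiset.prod_cons, nnnorm_mul]
      refine one_le_mul (by simpa using hne r (Multiset.mem_cons_self r s)) (ih fun r hr => hne r (Multiset.mem_cons_of_mem hr))
  obtain ⟨s, hs⟩ := exists_algEquiv_apply_of_mem_roots hr
  refine ⟨s, ?_⟩
  rw [hs]
  exact (eq_of_nnnorm_sub_lt hn (by rw [← pow_mul, mul_comm, pow_mul, hζ, one_pow]) (hroot r hr)
    hrlt).symm

/-- There is a Frobenius element: it raises all roots of unity of order prime to `q` to the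
`q`-th power. -/
theorem exists_frobenius : ∃ σ : Gl q, ∀ (n : ℕ) (ζ : Ql q), ¬ (q : ℕ) ∣ n → ζ ^ n = 1 →
    locAut q σ ζ = ζ ^ (q : ℕ) := by
  classical
  haveI := isGalois_ql q
  let ι := {n : ℕ // ¬ (q : ℕ) ∣ n}
  have hprim : ∀ n : ι, ∃ ξ : Ql q, IsPrimitiveRoot ξ n.1 := fun n =>
    haveI : NeZero (n.1 : Ql q) := ⟨Nat.cast_ne_zero.2 (ne_zero_of_not_dvd n.2)⟩
    HasEnoughRootsOfUnity.exists_primitiveRoot (Ql q) n.1
  choose ξ hξ using hprim
  let S : ι → Set (Gal(Ql q/ℚ_[(q : ℕ)])) := fun n => {g | g (ξ n) = ξ n ^ (q : ℕ)}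
  have hSclosed : ∀ n, IsClosed (S n) := by
    intro n
    by_cases hne : (S n).Nonempty
    · obtain ⟨g₀, hg₀⟩ := hne
      let F : IntermediateField ℚ_[(q : ℕ)] (Ql q) := IntermediateField.adjoin _ {ξ n}
      haveI : FiniteDimensional ℚ_[(q : ℕ)] F :=
        IntermediateField.adjoin.finiteDimensional (Algebra.IsAlgebraic.isAlgebraic _).isIntegral
      have he : S n = (fun g => g₀⁻¹ * g) ⁻¹' (F.fixingSubgroup : Set _) := by
        ext g
        simp only [S, Set.mem_preimage, SetLike.mem_coe, Set.mem_ofPred_eq,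
          IntermediateField.mem_fixingSubgroup_iff]
        constructor
        · intro hg x hx
          induction hx using IntermediateField.adjoin_induction with
          | mem x hx =>
            rw [Set.mem_singleton_iff] at hx; subst hx
            rw [AlgEquiv.mul_apply, hg, ← hg₀]
            exact g₀.symm_apply_apply _
          | algebraMap r => exact AlgEquiv.commutes _ r
          | add a b _ _ ha hb => rw [map_add, ha, hb]
          | inv a _ ha => rw [map_inv₀, ha]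
          | mul a b _ _ ha hb => rw [map_mul, ha, hb]
        · intro hg
          have h1 := hg _ (IntermediateField.mem_adjoin_simple_self _ (ξ n))
          rw [AlgEquiv.mul_apply] at h1
          have h2 := congrArg g₀ h1
          rw [hg₀] at h2
          exact (g₀.apply_symm_apply _).symm.trans h2
      rw [he]
      exact (Subgroup.isClosed_of_isOpen _ (IntermediateField.fixingSubgroup_isOpen F)).preimage
        (continuous_const.mul continuous_id)
    · rw [Set.not_nonempty_iff_eq_empty.mp hne]; exact isClosed_empty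
  have hfin : ∀ T : Finset ι, (⋂ n ∈ T, S n).Nonempty := by
    intro T
    let N := T.lcm fun n => n.1
    have hN : ¬ (q : ℕ) ∣ N := by
      induction T using Finset.induction with
      | empty => simp [N, q.2.ne_one]
      | insert m T _ ih =>
        simp only [N, Finset.lcm_insert]
        exact not_dvd_lcm m.2 ih
    obtain ⟨s, hs⟩ := exists_apply_root_frobenius hN (hξ ⟨N, hN⟩).pow_eq_one
    refine ⟨locAut q s, Set.mem_iInter₂.mpr fun n hn => ?_⟩
    haveI : NeZero N := ⟨ne_zero_of_not_dvd hN⟩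
    obtain ⟨c, hc⟩ : n.1 ∣ N := Finset.dvd_lcm hn
    obtain ⟨i, -, hi⟩ := (hξ ⟨N, hN⟩).eq_pow_of_pow_eq_one
      (show ξ n ^ N = 1 by rw [hc, pow_mul, (hξ n).pow_eq_one, one_pow])
    show locAut q s (ξ n) = ξ n ^ (q : ℕ)
    rw [← hi, map_pow, hs, ← pow_mul, ← pow_mul, mul_comm]
  obtain ⟨g, hg⟩ := CompactSpace.iInter_nonempty hSclosed hfin
  obtain ⟨s, rfl⟩ := locAut_surjective q g
  refine ⟨s, fun n ζ hn hζ => ?_⟩
  haveI : NeZero n := ⟨ne_zero_of_not_dvd hn⟩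
  obtain ⟨i, -, hi⟩ := (hξ ⟨n, hn⟩).eq_pow_of_pow_eq_one hζ
  have := Set.mem_iInter.mp hg ⟨n, hn⟩
  rw [← hi, map_pow, show locAut q s (ξ ⟨n, hn⟩) = ξ ⟨n, hn⟩ ^ (q : ℕ) from this, ← pow_mul,
    ← pow_mul, mul_comm]

/-- Every element of `Knr` is a polynomial in one root of unity. -/
theorem exists_root_adjoin {x : Ql q} (hx : x ∈ Knr q) :
    ∃ (n : ℕ) (ζ : Ql q), ¬ (q : ℕ) ∣ n ∧ IsPrimitiveRoot ζ n ∧
      x ∈ IntermediateField.adjoin ℚ_[(q : ℕ)] {ζ} := by
  have hprim : ∀ n : ℕ, ¬ (q : ℕ) ∣ n → ∃ ξ : Ql q, IsPrimitiveRoot ξ n := fun n hn =>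
    haveI : NeZero (n : Ql q) := ⟨Nat.cast_ne_zero.2 (ne_zero_of_not_dvd hn)⟩
    HasEnoughRootsOfUnity.exists_primitiveRoot (Ql q) n
  have hmono : ∀ {m n : ℕ} {ζ ξ : Ql q}, IsPrimitiveRoot ξ n → ¬ (q : ℕ) ∣ n → m ∣ n → ζ ^ m = 1 →
      IntermediateField.adjoin ℚ_[(q : ℕ)] {ζ} ≤ IntermediateField.adjoin ℚ_[(q : ℕ)] {ξ} := by
    intro m n ζ ξ hξ hn hmn hζ
    rw [IntermediateField.adjoin_simple_le_iff]
    haveI : NeZero n := ⟨ne_zero_of_not_dvd hn⟩
    obtain ⟨c, hc⟩ := hmn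
    obtain ⟨i, -, hi⟩ := hξ.eq_pow_of_pow_eq_one (show ζ ^ n = 1 by rw [hc, pow_mul, hζ, one_pow])
    rw [← hi]
    exact pow_mem (IntermediateField.mem_adjoin_simple_self _ ξ) i
  induction hx using IntermediateField.adjoin_induction with
  | mem x hx =>
    obtain ⟨n, hn, hx⟩ := hx
    obtain ⟨ξ, hξ⟩ := hprim n hn
    exact ⟨n, ξ, hn, hξ, hmono hξ hn dvd_rfl hx (IntermediateField.mem_adjoin_simple_self _ x)⟩
  | algebraMap r =>
    exact ⟨1, 1, fun h => q.2.ne_one (Nat.eq_one_of_dvd_one h), IsPrimitiveRoot.one,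
      IntermediateField.algebraMap_mem _ r⟩
  | inv a _ ha =>
    obtain ⟨n, ξ, hn, hξ, ha⟩ := ha
    exact ⟨n, ξ, hn, hξ, inv_mem ha⟩
  | add a b _ _ ha hb =>
    obtain ⟨m, ζ, hm, hζ, ha⟩ := ha
    obtain ⟨n, ξ, hn, hξ, hb⟩ := hb
    obtain ⟨η, hη⟩ := hprim _ (not_dvd_lcm hm hn)
    exact ⟨_, η, not_dvd_lcm hm hn, hη, add_mem
      (hmono hη (not_dvd_lcm hm hn) (Nat.dvd_lcm_left m n) hζ.pow_eq_one ha)
      (hmono hη (not_dvd_lcm hm hn) (Nat.dvd_lcm_right m n) hξ.pow_eq_one hb)⟩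
  | mul a b _ _ ha hb =>
    obtain ⟨m, ζ, hm, hζ, ha⟩ := ha
    obtain ⟨n, ξ, hn, hξ, hb⟩ := hb
    obtain ⟨η, hη⟩ := hprim _ (not_dvd_lcm hm hn)
    exact ⟨_, η, not_dvd_lcm hm hn, hη, mul_mem
      (hmono hη (not_dvd_lcm hm hn) (Nat.dvd_lcm_left m n) hζ.pow_eq_one ha)
      (hmono hη (not_dvd_lcm hm hn) (Nat.dvd_lcm_right m n) hξ.pow_eq_one hb)⟩

theorem apply_mem_Knr (g : Gl q) {x : Ql q} (hx : x ∈ Knr q) : locAut q g x ∈ Knr q := by
  induction hx using IntermediateField.adjoin_induction with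
  | mem x hx =>
    obtain ⟨n, hn, hx⟩ := hx
    exact root_mem_Knr hn (by rw [← map_pow, hx, map_one])
  | algebraMap r => rw [AlgEquiv.commutes]; exact IntermediateField.algebraMap_mem _ r
  | add a b _ _ ha hb => rw [map_add]; exact add_mem ha hb
  | inv a _ ha => rw [map_inv₀]; exact inv_mem ha
  | mul a b _ _ ha hb => rw [map_mul]; exact mul_mem ha hb

/-- `Knr` is unramified: its norms are powers of `q`. -/
theorem exists_zpow_nnnorm_Knr {x : Ql q} (hx : x ∈ Knr q) (hx0 : x ≠ 0) :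
    ∃ k : ℤ, ‖x‖₊ = ‖((q : ℕ) : Ql q)‖₊ ^ k := by
  classical
  haveI := isGalois_ql q
  obtain ⟨n, ζ, hn, hprim, hxζ⟩ := exists_root_adjoin hx
  have hint : IsIntegral ℚ_[(q : ℕ)] ζ := (Algebra.IsAlgebraic.isAlgebraic ζ).isIntegral
  rw [← IntermediateField.mem_toSubalgebra,
    IntermediateField.adjoin_simple_toSubalgebra_of_isAlgebraic hint.isAlgebraic,
    Algebra.adjoin_singleton_eq_range_aeval, AlgHom.mem_range] at hxζ
  obtain ⟨Q, rfl⟩ := hxζ
  set P := minpoly ℚ_[(q : ℕ)] ζ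
  set g := Q %ₘ P
  have hg : aeval ζ g = aeval ζ Q := by
    conv_rhs => rw [← Polynomial.modByMonic_add_div Q P]
    rw [map_add, map_mul, minpoly.aeval, zero_mul, add_zero]
  rw [← hg] at hx0 ⊢
  set s := (P.map (algebraMap ℚ_[(q : ℕ)] (Ql q))).roots.toFinset
  have hsep : (P.map (algebraMap ℚ_[(q : ℕ)] (Ql q))).roots.Nodup :=
    nodup_roots (Polynomial.Separable.map (Algebra.IsSeparable.isSeparable ℚ_[(q : ℕ)] ζ))
  have hscard : s.card = P.natDegree := by
    rw [Multiset.toFinset_card_of_nodup hsep, splits_iff_card_roots.mp (IsAlgClosed.splits _),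
      natDegree_map]
  have hconj : ∀ r ∈ s, ∃ σ : Gal(Ql q/ℚ_[(q : ℕ)]), σ ζ = r := by
    intro r hr
    obtain ⟨t, ht⟩ := exists_algEquiv_apply_of_mem_roots (ζ := ζ) (Multiset.mem_toFinset.mp hr)
    exact ⟨locAut q t, ht⟩
  have hroot : ∀ r ∈ s, r ^ n = 1 := by
    intro r hr
    obtain ⟨σ, rfl⟩ := hconj r hr
    rw [← map_pow, hprim.pow_eq_one, map_one]
  set G := g.map (algebraMap ℚ_[(q : ℕ)] (Ql q))
  have hGdeg : G.degree < s.card := by
    rw [hscard, Polynomial.degree_map, ← degree_eq_natDegree (minpoly.ne_zero hint)]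
    exact degree_modByMonic_lt Q (minpoly.monic hint)
  have hval : ∀ r ∈ s, ‖G.eval r‖₊ = ‖aeval ζ g‖₊ := by
    intro r hr
    obtain ⟨σ, rfl⟩ := hconj r hr
    obtain ⟨t, rfl⟩ := locAut_surjective q σ
    rw [eval_map, ← aeval_def, aeval_algHom_apply]
    exact nnnorm_locAut q t _
  have hG := Lagrange.eq_interpolate (v := fun r : Ql q => r) (Set.injOn_id _) hGdeg
  have hbasis : ∀ r ∈ s, ∀ i, ‖(Lagrange.basis s (fun r : Ql q => r) r).coeff i‖₊ ≤ 1 := by
    intro r hr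
    rw [Lagrange.basis]
    refine Finset.prod_induction (s := s.erase r) _ (fun Q : (Ql q)[X] => ∀ i, ‖Q.coeff i‖₊ ≤ 1)
      ?_ ?_ ?_
    · intro A B hA hB i
      rw [coeff_mul]
      refine IsUltrametricDist.nnnorm_sum_le_of_forall_le fun m _ => ?_
      rw [nnnorm_mul]
      exact mul_le_one₀ (hA _) zero_le (hB _)
    · intro i; rw [coeff_one]; split_ifs <;> simp
    · intro r' hr' i
      have hne : r ≠ r' := (Finset.ne_of_mem_erase hr').symm
      have hr'r := hroot r' (Finset.mem_of_mem_erase hr')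
      have h1 : ‖r - r'‖₊ = 1 := by
        refine le_antisymm ?_ (not_lt.mp fun hlt => hne (eq_of_nnnorm_sub_lt hn (hroot r hr) hr'r hlt))
        rw [sub_eq_add_neg]
        exact (IsUltrametricDist.nnnorm_add_le_max _ _).trans (max_le
          (nnnorm_rootOfUnity (ne_zero_of_not_dvd hn) (hroot r hr)).le (by
            rw [nnnorm_neg]; exact (nnnorm_rootOfUnity (ne_zero_of_not_dvd hn) hr'r).le))
      rw [Lagrange.basisDivisor, coeff_C_mul, nnnorm_mul, nnnorm_inv, h1, inv_one, one_mul,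
        coeff_sub]
      rcases i with _ | _ | i
      · simpa using (nnnorm_rootOfUnity (ne_zero_of_not_dvd hn) hr'r).le
      · simp [coeff_C]
      · simp [coeff_X, coeff_C]
  have hle : ∀ i, ‖G.coeff i‖₊ ≤ ‖aeval ζ g‖₊ := by
    intro i
    conv_lhs => rw [hG]
    rw [Lagrange.interpolate_apply, finsetSum_coeff]
    refine IsUltrametricDist.nnnorm_sum_le_of_forall_le fun r hr => ?_
    rw [coeff_C_mul, nnnorm_mul, hval r hr]
    exact mul_le_of_le_one_right zero_le (hbasis r hr i)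
  have hge : ∃ i, ‖aeval ζ g‖₊ ≤ ‖G.coeff i‖₊ := by
    have hval' : aeval ζ g = G.eval ζ := by rw [eval_map, aeval_def]
    rw [hval', eval_eq_sum_range]
    obtain ⟨i, -, hi⟩ := IsUltrametricDist.exists_norm_finsetSum_le_of_nonempty
      (Finset.nonempty_range_iff.mpr (Nat.succ_ne_zero G.natDegree)) fun i => G.coeff i * ζ ^ i
    rw [← coe_nnnorm, ← coe_nnnorm, NNReal.coe_le_coe] at hi
    refine ⟨i, hi.trans ?_⟩
    rw [nnnorm_mul, nnnorm_pow, nnnorm_rootOfUnity (ne_zero_of_not_dvd hn) hprim.pow_eq_one,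
      one_pow, mul_one]
  obtain ⟨i, hi⟩ := hge
  have heq := le_antisymm hi (hle i)
  have hne : g.coeff i ≠ 0 := by
    intro h
    rw [coeff_map, h, map_zero, nnnorm_zero, nnnorm_eq_zero] at heq
    exact hx0 heq
  refine ⟨(g.coeff i).valuation, ?_⟩
  apply NNReal.eq
  rw [NNReal.coe_zpow, coe_nnnorm, coe_nnnorm, ← map_natCast (algebraMap ℚ_[(q : ℕ)] (Ql q)),
    norm_algebraMap', Padic.norm_p]
  rw [show ‖aeval ζ g‖ = ‖G.coeff i‖ from congrArg NNReal.toReal heq, coeff_map, norm_algebraMap',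
    Padic.norm_eq_zpow_neg_valuation hne, inv_zpow']

/-- An element fixed by inertia lies in `Knr`. -/
theorem mem_Knr_of_fixed {x : Ql q} (h : ∀ s ∈ inerG q, locAut q s x = x) : x ∈ Knr q := by
  haveI := isGalois_ql q
  rw [← InfiniteGalois.fixedField_fixingSubgroup (Knr q), IntermediateField.mem_fixedField_iff]
  intro g hg
  obtain ⟨s, rfl⟩ := locAut_surjective q g
  exact h s hg

theorem inerG_normal : (inerG q).Normal := by
  refine ⟨fun s hs g => mem_inerG.mpr fun x hx => ?_⟩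
  rw [map_mul, map_mul, AlgEquiv.mul_apply, AlgEquiv.mul_apply,
    mem_inerG.mp hs _ (apply_mem_Knr _ hx), ← AlgEquiv.mul_apply,
    ← map_mul, mul_inv_cancel, map_one, AlgEquiv.one_apply]

end Knr

end FLTA.TaylorWiles.Flat

end
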