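import Mathlib.Analysis.Normed.Field.Lemmas
import Mathlib.Analysis.Normed.Group.Ultra
import Mathlib.LinearAlgebra.Dimension.Finite
import Mathlib.LinearAlgebra.FiniteDimensional.Basic
import Mathlib.Data.Nat.Choose.Sum
import Mathlib.Data.Nat.Prime.Basic
import Mathlib.Data.Nat.Choose.Dvd

/-!
# Integral models of finite groups inside functions to a non-archimedean field

A model is a basis of the functions `X → Ω` with values of norm at most one whose comultiplication
has coefficients of norm at most one. Everything used about finite flat group schemes in the flat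
deformation bound follows from these two properties: a translation invariant ultrametric on `X`,
additivity of leading terms, and the bound `|p| ≤ w(x)^(p-1)`.
-/

set_option autoImplicit false

open scoped NNReal

noncomputable section

namespace FLTA.TaylorWiles.Flat

/-- An integral model of a group inside functions with values in `Ω`. -/
structure IntModel (Ω : Type) [NormedField Ω] (X : Type) [AddCommGroup X] where
  ι : Type
  [fintypeι : Fintype ι]
  e : ι → X → Ω
  norm_le_one : ∀ i x, ‖e i x‖₊ ≤ 1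
  li : LinearIndependent Ω e
  span_top : Submodule.span Ω (Set.range e) = ⊤
  comul : ∀ i, ∃ c : ι → ι → Ω, (∀ j l, ‖c j l‖₊ ≤ 1) ∧
    ∀ x y, e i (x + y) = ∑ j, ∑ l, c j l * (e j x * e l y)

attribute [instance] IntModel.fintypeι

namespace IntModel

variable {Ω : Type} [NormedField Ω] [IsUltrametricDist Ω] {X : Type} [AddCommGroup X]
  (M : IntModel Ω X)

omit [IsUltrametricDist Ω] in
/-- Coordinates vanishing at zero. -/
def G (i : M.ι) (x : X) : Ω := M.e i x - M.e i 0

omit [IsUltrametricDist Ω] in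
/-- The distance between two points. -/
def dist (x y : X) : ℝ≥0 := Finset.univ.sup fun i => ‖M.e i x - M.e i y‖₊

omit [IsUltrametricDist Ω] in
/-- The distance to zero. -/
def w (x : X) : ℝ≥0 := M.dist x 0

omit [IsUltrametricDist Ω] in
theorem le_dist (i : M.ι) (x y : X) : ‖M.e i x - M.e i y‖₊ ≤ M.dist x y :=
  Finset.le_sup (f := fun i => ‖M.e i x - M.e i y‖₊) (Finset.mem_univ i)

omit [IsUltrametricDist Ω] in
theorem norm_G_le (i : M.ι) (x : X) : ‖M.G i x‖₊ ≤ M.w x := M.le_dist i x 0

omit [IsUltrametricDist Ω] in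
theorem dist_comm (x y : X) : M.dist x y = M.dist y x :=
  Finset.sup_congr rfl fun i _ => by rw [← nnnorm_neg, neg_sub]

theorem dist_triangle (x y z : X) : M.dist x z ≤ max (M.dist x y) (M.dist y z) := by
  refine Finset.sup_le fun i _ => ?_
  rw [← sub_add_sub_cancel (M.e i x) (M.e i y) (M.e i z)]
  exact (IsUltrametricDist.nnnorm_add_le_max _ _).trans
    (max_le_max (M.le_dist i x y) (M.le_dist i y z))

omit [IsUltrametricDist Ω] in
theorem dist_self (x : X) : M.dist x x = 0 :=
  le_antisymm (Finset.sup_le fun i _ => by simp) bot_le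

theorem dist_le_one (x y : X) : M.dist x y ≤ 1 :=
  Finset.sup_le fun i _ => by
    rw [sub_eq_add_neg]
    exact (IsUltrametricDist.nnnorm_add_le_max _ _).trans
      (max_le (M.norm_le_one i x) (by rw [nnnorm_neg]; exact M.norm_le_one i y))

theorem eq_of_dist_eq_zero {x y : X} (h : M.dist x y = 0) : x = y := by
  classical
  by_contra hxy
  have hi : ∀ i, M.e i x = M.e i y := fun i =>
    sub_eq_zero.mp (nnnorm_eq_zero.mp (le_antisymm ((M.le_dist i x y).trans h.le) bot_le))
  have hall : ∀ f ∈ Submodule.span Ω (Set.range M.e), f x = f y := by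
    intro f hf
    induction hf using Submodule.span_induction with
    | mem f hf => obtain ⟨i, rfl⟩ := hf; exact hi i
    | zero => rfl
    | add f g _ _ hf hg => simp [hf, hg]
    | smul a f _ hf => simp [hf]
  have h1 := hall (Pi.single x 1) (by rw [M.span_top]; trivial)
  rw [Pi.single_eq_same, Pi.single_eq_of_ne (Ne.symm hxy)] at h1
  exact one_ne_zero h1

theorem nnnorm_sum_le {α : Type*} {s : Finset α} {f : α → Ω} {b : ℝ≥0}
    (h : ∀ a ∈ s, ‖f a‖₊ ≤ b) : ‖∑ a ∈ s, f a‖₊ ≤ b :=
  IsUltrametricDist.nnnorm_sum_le_of_forall_le h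

theorem dist_add_right_le (x y h : X) : M.dist (x + h) (y + h) ≤ M.dist x y := by
  refine Finset.sup_le fun i _ => ?_
  obtain ⟨c, hc, hcom⟩ := M.comul i
  rw [hcom, hcom, ← Finset.sum_sub_distrib]
  refine nnnorm_sum_le fun j _ => ?_
  rw [← Finset.sum_sub_distrib]
  refine nnnorm_sum_le fun l _ => ?_
  rw [← mul_sub, ← sub_mul, nnnorm_mul, nnnorm_mul]
  calc ‖c j l‖₊ * (‖M.e j x - M.e j y‖₊ * ‖M.e l h‖₊)
      ≤ 1 * (M.dist x y * 1) := by gcongr; exacts [hc j l, M.le_dist j x y, M.norm_le_one l h]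
    _ = M.dist x y := by rw [one_mul, mul_one]

theorem dist_add_right (x y h : X) : M.dist (x + h) (y + h) = M.dist x y := by
  refine le_antisymm (M.dist_add_right_le x y h) ?_
  have := M.dist_add_right_le (x + h) (y + h) (-h)
  rwa [add_neg_cancel_right, add_neg_cancel_right] at this

theorem dist_eq_w_sub (x y : X) : M.dist x y = M.w (x - y) := by
  rw [w, ← M.dist_add_right (x - y) 0 y, sub_add_cancel, zero_add]

omit [IsUltrametricDist Ω] in
@[simp] theorem w_zero : M.w 0 = 0 := M.dist_self 0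

theorem w_eq_zero_iff {x : X} : M.w x = 0 ↔ x = 0 :=
  ⟨fun h => M.eq_of_dist_eq_zero h, fun h => by rw [h, w_zero]⟩

theorem w_le_one (x : X) : M.w x ≤ 1 := M.dist_le_one x 0

theorem w_neg (x : X) : M.w (-x) = M.w x := by
  rw [← zero_sub, ← M.dist_eq_w_sub, M.dist_comm]
  rfl

theorem w_add_le (x y : X) : M.w (x + y) ≤ max (M.w x) (M.w y) := by
  calc M.w (x + y) = M.dist (x + y) 0 := rfl
    _ ≤ max (M.dist (x + y) (0 + y)) (M.dist (0 + y) 0) := M.dist_triangle _ _ _
    _ = _ := by rw [M.dist_add_right, zero_add]; rfl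

theorem w_sub_le (x y : X) : M.w (x - y) ≤ max (M.w x) (M.w y) := by
  rw [sub_eq_add_neg, ← M.w_neg y]
  exact M.w_add_le x (-y)

theorem w_nsmul_le (n : ℕ) (x : X) : M.w (n • x) ≤ M.w x := by
  induction n with
  | zero => simp
  | succ n ih => rw [succ_nsmul]; exact (M.w_add_le _ _).trans (max_le ih le_rfl)

/-- The coordinates are additive up to products. -/
theorem quad (i : M.ι) :
    ∃ c : M.ι → M.ι → Ω, (∀ j l, ‖c j l‖₊ ≤ 1) ∧
      ∀ x y, M.G i (x + y) = M.G i x + M.G i y + ∑ j, ∑ l, c j l * (M.G j x * M.G l y) := by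
  obtain ⟨c, hc, hcom⟩ := M.comul i
  refine ⟨c, hc, fun x y => ?_⟩
  have hx := hcom x 0
  have hy := hcom 0 y
  have h0 := hcom 0 0
  rw [add_zero] at hx h0
  rw [zero_add] at hy
  have hexp : ∑ j, ∑ l, c j l * (M.G j x * M.G l y) =
      (∑ j, ∑ l, c j l * (M.e j x * M.e l y)) - (∑ j, ∑ l, c j l * (M.e j x * M.e l 0))
        - (∑ j, ∑ l, c j l * (M.e j 0 * M.e l y)) + ∑ j, ∑ l, c j l * (M.e j 0 * M.e l 0) := by
    simp only [← Finset.sum_sub_distrib, ← Finset.sum_add_distrib]
    refine Finset.sum_congr rfl fun j _ => Finset.sum_congr rfl fun l _ => ?_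
    rw [G, G]
    ring
  rw [hexp, ← hcom, ← hx, ← hy, ← h0]
  simp only [G]
  ring

theorem norm_quad (i : M.ι) (x y : X) :
    ‖M.G i (x + y) - M.G i x - M.G i y‖₊ ≤ M.w x * M.w y := by
  obtain ⟨c, hc, h⟩ := M.quad i
  have e : ∀ a b d : Ω, a + b + d - a - b = d := fun a b d => by ring
  rw [h, e]
  refine nnnorm_sum_le fun j _ => nnnorm_sum_le fun l _ => ?_
  rw [nnnorm_mul, nnnorm_mul]
  calc ‖c j l‖₊ * (‖M.G j x‖₊ * ‖M.G l y‖₊) ≤ 1 * (M.w x * M.w y) := by
        gcongr; exacts [hc j l, M.norm_G_le j x, M.norm_G_le l y]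
    _ = _ := one_mul _

/-- A point of order `p` close to zero is at distance at least `|p|^(1/(p-1))`. -/
theorem nnnorm_prime_le_w_pow {p : ℕ} (hp : p.Prime) (hle : ∀ n : ℕ, ‖(n : Ω)‖₊ ≤ 1)
    {x : X} (hx : p • x = 0) (hx0 : x ≠ 0) (hw : M.w x < 1) :
    ‖(p : Ω)‖₊ ≤ M.w x ^ (p - 1) := by
  choose c hc hquad using M.quad
  let N : (M.ι → Ω) → M.ι → Ω := fun u i => ∑ j, ∑ l, c i j l * (u j * M.G l x)
  let v : ℕ → M.ι → Ω := fun k => N^[k] fun i => M.G i x
  have hv : ∀ k i, ‖v k i‖₊ ≤ M.w x ^ (k + 1) := by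
    intro k
    induction k with
    | zero => intro i; simpa [v] using M.norm_G_le i x
    | succ k ih =>
      intro i
      simp only [v, Function.iterate_succ', Function.comp_apply, N]
      refine nnnorm_sum_le fun j _ => nnnorm_sum_le fun l _ => ?_
      rw [nnnorm_mul, nnnorm_mul, pow_succ]
      calc ‖c i j l‖₊ * (‖v k j‖₊ * ‖M.G l x‖₊) ≤ 1 * (M.w x ^ (k + 1) * M.w x) := by
            gcongr; exacts [hc i j l, ih j, M.norm_G_le l x]
        _ = _ := one_mul _
  have hG : ∀ n i, M.G i (n • x) = ∑ k ∈ Finset.range n, (n.choose (k + 1) : Ω) * v k i := by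
    intro n
    induction n with
    | zero => intro i; simp [G]
    | succ n ih =>
      intro i
      have hN : ∑ j, ∑ l, c i j l * (M.G j (n • x) * M.G l x) =
          ∑ k ∈ Finset.range n, (n.choose (k + 1) : Ω) * v (k + 1) i := by
        simp only [ih, v, Function.iterate_succ', Function.comp_apply, N, Finset.sum_mul,
          Finset.mul_sum]
        rw [Finset.sum_comm]
        refine Eq.trans (Finset.sum_congr rfl fun l _ => Finset.sum_comm) ?_
        rw [Finset.sum_comm]
        refine Finset.sum_congr rfl fun k _ => ?_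
        rw [Finset.sum_comm]
        exact Finset.sum_congr rfl fun j _ => Finset.sum_congr rfl fun l _ => by ring
      rw [succ_nsmul, hquad, ih, hN]
      have hrhs : ∑ k ∈ Finset.range (n + 1), ((n + 1).choose (k + 1) : Ω) * v k i =
          (∑ k ∈ Finset.range (n + 1), (n.choose k : Ω) * v k i) +
            ∑ k ∈ Finset.range (n + 1), (n.choose (k + 1) : Ω) * v k i := by
        rw [← Finset.sum_add_distrib]
        exact Finset.sum_congr rfl fun k _ => by rw [Nat.choose_succ_succ', Nat.cast_add, add_mul]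
      rw [hrhs, Finset.sum_range_succ' (fun k => (n.choose k : Ω) * v k i),
        Finset.sum_range_succ (fun k => (n.choose (k + 1) : Ω) * v k i),
        Nat.choose_eq_zero_of_lt (Nat.lt_succ_self n), Nat.choose_zero_right, Nat.cast_zero,
        zero_mul, add_zero, Nat.cast_one, one_mul]
      have : v 0 i = M.G i x := rfl
      rw [this]
      ring
  have hwpos : 0 < M.w x := pos_iff_ne_zero.mpr (mt M.w_eq_zero_iff.mp hx0)
  obtain ⟨i, -, hi⟩ := Finset.exists_mem_eq_sup (Finset.univ : Finset M.ι)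
    (Finset.univ_nonempty_iff.mpr (by
      by_contra hempty
      rw [not_nonempty_iff] at hempty
      exact hwpos.ne' (le_antisymm (Finset.sup_le fun j _ => isEmptyElim j) bot_le)))
    (fun i => ‖M.e i x - M.e i 0‖₊)
  have hi' : ‖M.G i x‖₊ = M.w x := hi.symm
  have hp2 := hp.two_le
  have h0 := hG p i
  rw [hx, show M.G i 0 = 0 from sub_self _, show p = (p - 1) + 1 by omega,
    Finset.sum_range_succ', show p - 1 + 1 = p by omega, Nat.choose_one_right,
    show v 0 i = M.G i x from rfl, eq_comm, add_comm, add_eq_zero_iff_eq_neg] at h0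
  have hle1 : ‖(p : Ω)‖₊ * M.w x ≤ max (‖(p : Ω)‖₊ * M.w x ^ 2) (M.w x ^ p) := by
    rw [← hi', ← nnnorm_mul, h0, nnnorm_neg, hi']
    refine nnnorm_sum_le fun k hk => ?_
    rw [Finset.mem_range] at hk
    rw [nnnorm_mul]
    by_cases hkp : k + 2 = p
    · refine le_max_of_le_right ?_
      calc ‖(p.choose (k + 1 + 1) : Ω)‖₊ * ‖v (k + 1) i‖₊ ≤ 1 * M.w x ^ (k + 1 + 1) := by
            gcongr; exacts [hle _, hv _ _]
        _ = M.w x ^ p := by rw [one_mul, show k + 1 + 1 = p by omega]
    · refine le_max_of_le_left ?_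
      obtain ⟨b, hb⟩ := hp.dvd_choose_self (k := k + 1 + 1) (by omega) (by omega)
      rw [hb, Nat.cast_mul, nnnorm_mul]
      calc ‖(p : Ω)‖₊ * ‖(b : Ω)‖₊ * ‖v (k + 1) i‖₊
          ≤ ‖(p : Ω)‖₊ * 1 * M.w x ^ (k + 1 + 1) := by
            gcongr; exacts [hle b, hv _ _]
        _ ≤ ‖(p : Ω)‖₊ * M.w x ^ 2 := by
            rw [mul_one]
            exact mul_le_mul_of_nonneg_left (pow_le_pow_of_le_one zero_le hw.le (by omega)) zero_le
  by_contra hlt
  rw [not_le] at hlt
  have hppos : 0 < ‖(p : Ω)‖₊ := lt_of_le_of_lt zero_le hlt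
  rcases le_max_iff.mp hle1 with h | h
  · rw [pow_two, ← mul_assoc] at h
    exact absurd h (not_le.mpr (mul_lt_of_lt_one_right (mul_pos hppos hwpos) hw))
  · rw [show p = p - 1 + 1 by omega, pow_succ, show p - 1 + 1 = p by omega] at h
    exact absurd (le_of_mul_le_mul_right h hwpos) (not_le.mpr hlt)

end IntModel

/-- Galois equivariance of a model. -/
def IntModel.Equivariant {Ω : Type} [NormedField Ω] {X : Type} [AddCommGroup X]
    (M : IntModel Ω X) {Γ : Type} (act : Γ → X →+ X) (aut : Γ → Ω →+* Ω) : Prop :=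
  ∀ g i x, M.e i (act g x) = aut g (M.e i x)

namespace IntModel

variable {Ω : Type} [NormedField Ω] [IsUltrametricDist Ω] {X : Type} [AddCommGroup X]
  (M : IntModel Ω X) {Γ : Type} {act : Γ → X →+ X} {aut : Γ → Ω →+* Ω}

omit [IsUltrametricDist Ω] in
theorem G_act (hM : M.Equivariant act aut) (g : Γ) (i : M.ι) (x : X) :
    M.G i (act g x) = aut g (M.G i x) := by
  rw [G, G, map_sub, ← hM g i x, ← hM g i 0, map_zero]

omit [IsUltrametricDist Ω] in
theorem w_act (hM : M.Equivariant act aut) (g : Γ) (hiso : ∀ a, ‖aut g a‖₊ = ‖a‖₊) (x : X) :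
    M.w (act g x) = M.w x :=
  Finset.sup_congr rfl fun i _ => by
    show ‖M.G i (act g x)‖₊ = ‖M.G i x‖₊
    rw [M.G_act hM, hiso]

/-- An element acting trivially on residues moves every point within the open unit ball. -/
theorem w_act_sub_lt_one (hM : M.Equivariant act aut) (g : Γ)
    (hg : ∀ a, ‖a‖₊ ≤ 1 → ‖aut g a - a‖₊ < 1) (x : X) : M.w (act g x - x) < 1 := by
  rw [← M.dist_eq_w_sub]
  refine (Finset.sup_lt_iff zero_lt_one).mpr fun i _ => ?_
  rw [hM]
  exact hg _ (M.norm_le_one i x)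

end IntModel

end FLTA.TaylorWiles.Flat

end
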