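import Fermat.Agent.TaylorWiles.FlatReducibleModel
import Fermat.Agent.TaylorWiles.FlatCount
import Mathlib.FieldTheory.Finite.Trace

/-!
# The flat bound for a reducible residual representation
-/

set_option autoImplicit false
set_option linter.style.haveILetI false

open scoped NNReal Matrix

noncomputable section

namespace FLTA.TaylorWiles.Flat

open FLTA.PT (Gl Ql lvlLoc locAut)

attribute [local instance] FLTA.PT.factPrime

variable {q : Nat.Primes} {k : Type} [Field k] {M : Gl q →* M2 k} {z : Gl q → M2 k}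

theorem cobd_mul (X : M2 k) (g : Gl q) : cobd M X g * M g = M g * X - X * M g := by
  rw [cobd, sub_mul, mul_assoc, M_inv_mul, mul_one]

theorem tri_diag_ne_zero (hM : ∀ g, M g 1 0 = 0) (g : Gl q) : M g 0 0 ≠ 0 ∧ M g 1 1 ≠ 0 := by
  have h : (M g).det * (M g⁻¹).det = 1 := by rw [← Matrix.det_mul, M_mul_inv, Matrix.det_one]
  have h0 : (M g).det ≠ 0 := fun h0 => by rw [h0, zero_mul] at h; exact zero_ne_one h
  rw [RedFrame.det_tri hM] at h0
  exact mul_ne_zero_iff.mp h0

theorem conjHom_mul_eq (P : GL (Fin 2) k) (M : Gl q →* M2 k) (g : Gl q) :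
    P.1 * conjHom P M g = M g * P.1 := by
  rw [conjHom_apply, ← mul_assoc, ← mul_assoc, Units.mul_inv, one_mul]

/-- The unipotent change of basis. -/
def unip (t : k) : GL (Fin 2) k where
  val := !![1, t; 0, 1]
  inv := !![1, -t; 0, 1]
  val_inv := by ext i j; fin_cases i <;> fin_cases j <;> simp [Matrix.mul_apply]
  inv_val := by ext i j; fin_cases i <;> fin_cases j <;> simp [Matrix.mul_apply]

/-- The exchange of the two basis vectors. -/
def swapGL (k : Type) [Field k] : GL (Fin 2) k where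
  val := !![0, 1; 1, 0]
  inv := !![0, 1; 1, 0]
  val_inv := by ext i j; fin_cases i <;> fin_cases j <;> simp [Matrix.mul_apply]
  inv_val := by ext i j; fin_cases i <;> fin_cases j <;> simp [Matrix.mul_apply]

theorem exists_tri_conj (M : Gl q →* M2 k)
    (hv : ∃ v : Fin 2 → k, v ≠ 0 ∧ ∀ g, ∃ c : k, M g *ᵥ v = c • v) :
    ∃ P : GL (Fin 2) k, ∀ g, conjHom P M g 1 0 = 0 := by
  obtain ⟨v, hv0, hv⟩ := hv
  have hex : ∃ P : GL (Fin 2) k, ∀ i, P.1 i 0 = v i := by
    by_cases h0 : v 0 = 0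
    · have h1 : v 1 ≠ 0 := fun h1 => hv0 (funext fun i => by fin_cases i <;> simp [h0, h1])
      refine ⟨Matrix.GeneralLinearGroup.mkOfDetNeZero !![0, 1; v 1, 0]
        (by simp [Matrix.det_fin_two, h1]), fun i => ?_⟩
      fin_cases i <;> simp [Matrix.GeneralLinearGroup.mkOfDetNeZero, h0]
    · refine ⟨Matrix.GeneralLinearGroup.mkOfDetNeZero !![v 0, 0; v 1, 1]
        (by simp [Matrix.det_fin_two, h0]), fun i => ?_⟩
      fin_cases i <;> simp [Matrix.GeneralLinearGroup.mkOfDetNeZero]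
  obtain ⟨P, hP⟩ := hex
  refine ⟨P, fun g => ?_⟩
  obtain ⟨c, hc⟩ := hv g
  have h1 : ∀ i, (M g * P.1) i 0 = c * P.1 i 0 := fun i => by
    have h2 := congrFun hc i
    rw [Pi.smul_apply, smul_eq_mul] at h2
    rw [hP, ← h2, mul_entry, hP, hP]
    simp [Matrix.mulVec, dotProduct, Fin.sum_univ_two]
  have h3 := congrFun (congrFun (Units.inv_mul P) 1) 0
  rw [mul_entry, Matrix.one_apply_ne (by decide)] at h3
  rw [conjHom_apply, mul_assoc, mul_entry, h1, h1]
  linear_combination c * h3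

theorem conj_unip (hM : ∀ g, M g 1 0 = 0) (t : k) (g : Gl q) :
    conjHom (unip t) M g 1 0 = 0 ∧ conjHom (unip t) M g 0 0 = M g 0 0 ∧
      conjHom (unip t) M g 1 1 = M g 1 1 ∧
      conjHom (unip t) M g 0 1 = M g 0 1 + t * (M g 0 0 - M g 1 1) := by
  simp only [conjHom_apply, mul_entry, unip, Units.inv_mk]
  simp [hM]
  ring

theorem conj_swap (g : Gl q) (i j : Fin 2) :
    conjHom (swapGL k) M g i j = M g i.rev j.rev := by
  simp only [conjHom_apply, mul_entry, swapGL, Units.inv_mk]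
  fin_cases i <;> fin_cases j <;> simp

variable [CharP k (q : ℕ)] {R : RedFrame q}

theorem RedFrame.det_s (hl : LocalRes M) (hM : ∀ g, M g 1 0 = 0) :
    M R.s 0 0 * M R.s 1 1 = R.ω k := by
  rw [← RedFrame.det_tri hM, hl.det]
  rfl

theorem RedFrame.ω_ne_zero (hl : LocalRes M) (hM : ∀ g, M g 1 0 = 0) : R.ω k ≠ 0 := by
  rw [← R.det_s hl hM]
  exact mul_ne_zero (tri_diag_ne_zero hM _).1 (tri_diag_ne_zero hM _).2

/-- A stable nonzero subgroup has a point fixed by `H`. -/
theorem exists_fixed_point (hl : LocalRes M) (hM : ∀ g, M g 1 0 = 0) (z : Gl q → M2 k)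
    (Y : AddSubgroup (DV k)) (hY : ∀ h ∈ R.T.H, ∀ y ∈ Y, defoAct M z h y ∈ Y)
    {y : DV k} (hy : y ∈ Y) (hy0 : y ≠ 0) :
    ∃ x ∈ Y, x ≠ 0 ∧ ∀ h ∈ R.T.H, defoAct M z h x = x := by
  have hd : ∀ h ∈ R.T.H, M h 0 0 = 1 ∧ M h 1 1 = 1 := fun h hh => R.diag_H hM hl hh
  have fix : ∀ (p : DV k → Prop) (x : DV k), x ∈ Y → (∀ d ∈ Y, p d → d = 0) →
      (∀ h ∈ R.T.H, p (defoAct M z h x - x)) → ∀ h ∈ R.T.H, defoAct M z h x = x :=
    fun p x hx hp hpx h hh => sub_eq_zero.mp (hp _ (Y.sub_mem (hY h hh x hx) hx) (hpx h hh))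
  by_cases h3 : ∃ x ∈ Y, x ≠ 0 ∧ x.1 = 0 ∧ x.2 1 = 0
  · obtain ⟨x, hx, hx0, h1, h2⟩ := h3
    refine ⟨x, hx, hx0, fun h hh => Prod.ext (funext fun i => ?_) (funext fun i => ?_)⟩
    · rw [defo_fst, h1]; simp
    · rw [defo_snd, h1]; fin_cases i <;> simp [h2, (hd h hh).1, hM]
  push Not at h3
  by_cases h2 : ∃ x ∈ Y, x ≠ 0 ∧ x.1 = 0
  · obtain ⟨x, hx, hx0, h1⟩ := h2
    refine ⟨x, hx, hx0, fix (fun d => d.1 = 0 ∧ d.2 1 = 0) x hx
      (fun d hd hp => by by_contra h; exact h3 d hd h hp.1 hp.2) fun h hh => ⟨funext fun i => ?_, ?_⟩⟩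
    · rw [Prod.fst_sub, Pi.sub_apply, defo_fst, h1]; simp
    · rw [Prod.snd_sub, Pi.sub_apply, defo_snd, h1]; simp [(hd h hh).2, hM]
  push Not at h2
  by_cases h1 : ∃ x ∈ Y, x ≠ 0 ∧ x.1 1 = 0
  · obtain ⟨x, hx, hx0, h1⟩ := h1
    refine ⟨x, hx, hx0, fix (fun d => d.1 = 0) x hx
      (fun d hd hp => by by_contra h; exact h2 d hd h hp) fun h hh => funext fun i => ?_⟩
    rw [Prod.fst_sub, Pi.sub_apply, defo_fst]
    fin_cases i <;> simp [h1, (hd h hh).1, hM]
  push Not at h1
  refine ⟨y, hy, hy0, fix (fun d => d.1 1 = 0) y hy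
    (fun d hd hp => by by_contra h; exact h1 d hd h hp) fun h hh => ?_⟩
  rw [Prod.fst_sub, Pi.sub_apply, defo_fst]
  simp [(hd h hh).2, hM]

/-- The cyclotomic eigenvalue occurs at `s`. -/
theorem RedFrame.eigen_s (hl : LocalRes M) (hM : ∀ g, M g 1 0 = 0) (h : FlatDefo M z) :
    M R.s 0 0 = R.ω k ∨ M R.s 1 1 = R.ω k := by
  obtain ⟨N, hN⟩ := h.model
  have hz := h.toIsAdCoc
  let Y : AddSubgroup (DV k) :=
    { carrier := {x | N.w x < 1}
      add_mem' := fun {x y} hx hy => lt_of_le_of_lt (N.w_add_le x y) (max_lt hx hy)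
      zero_mem' := show N.w 0 < 1 by rw [IntModel.w_zero]; exact zero_lt_one
      neg_mem' := fun {x} (hx : N.w x < 1) => show N.w (-x) < 1 by rwa [N.w_neg] }
  by_cases hY : ∀ x ∈ Y, x = 0
  · exfalso
    have hfix : ∀ g : inerG q, ∀ x, defoAct M z (g : Gl q) x = x :=
      fun g x => sub_eq_zero.mp (hY _ (w_sub_lt hN g x))
    have h00 : M R.s 0 0 = 1 := by
      have h1 := congrArg (fun x : DV k => x.1 0) (hfix ⟨R.s, R.hs⟩ (![1, 0], 0))
      simpa [defo_fst] using h1
    have h11 : M R.s 1 1 = 1 := by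
      have h1 := congrArg (fun x : DV k => x.1 1) (hfix ⟨R.s, R.hs⟩ (![0, 1], 0))
      simpa [defo_fst] using h1
    exact R.ω_ne_one (by rw [← R.det_s hl hM, h00, h11, one_mul])
  push Not at hY
  obtain ⟨y₁, hy₁, hy₁0⟩ := hY
  obtain ⟨y, hy, hy0, hyH⟩ := exists_fixed_point (R := R) hl hM z Y
    (fun a ha x (hx : N.w x < 1) => (Tame.w_act_eq hN ⟨a, R.T.H_le_inerG ha⟩ x).trans_lt hx) hy₁ hy₁0
  have hs := Tame.act_eq_nsmul hN R.f0_eq (y := y) (fun g hg => hyH g hg)
    (fun a b x => defoAct_mul hz (a : Gl q) b x) prime_nsmul_DV hy ⟨R.s, R.hs⟩ R.hξ.pow_eq_one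
    R.hsπ R.cy_s_res
  have hf : ∀ i, (defoAct M z R.s y).1 i = R.ω k * y.1 i := fun i => by
    rw [show defoAct M z R.s y = Tame.cy R.s • y from hs, Prod.smul_fst, Pi.smul_apply, nsmul_eq_mul]
    rfl
  have hsn : ∀ i, (defoAct M z R.s y).2 i = R.ω k * y.2 i := fun i => by
    rw [show defoAct M z R.s y = Tame.cy R.s • y from hs, Prod.smul_snd, Pi.smul_apply, nsmul_eq_mul]
    rfl
  by_cases a1 : y.1 1 = 0
  · by_cases a0 : y.1 0 = 0
    · have hy1 : y.1 = 0 := funext fun i => by fin_cases i <;> simp [a0, a1]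
      by_cases b1 : y.2 1 = 0
      · have b0 : y.2 0 ≠ 0 := fun b0 => hy0 (Prod.ext hy1
          (funext fun i => by fin_cases i <;> simp [b0, b1]))
        left
        have h1 := hsn 0
        rw [defo_snd, hy1, b1] at h1
        exact mul_right_cancel₀ b0 (by simpa using h1)
      · right
        have h1 := hsn 1
        rw [defo_snd, hy1, hM] at h1
        exact mul_right_cancel₀ b1 (by simpa using h1)
    · left
      have h1 := hf 0
      rw [defo_fst, a1] at h1
      exact mul_right_cancel₀ a0 (by simpa using h1)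
  · right
    have h1 := hf 1
    rw [defo_fst, hM] at h1
    exact mul_right_cancel₀ a1 (by simpa using h1)

/-- When `s` acts through the cyclotomic character on the quotient line, `H` acts trivially. -/
theorem RedFrame.H01_eq_zero (hl : LocalRes M) (hM : ∀ g, M g 1 0 = 0) (h : FlatDefo M z)
    (h00 : M R.s 0 0 = 1) {σ : Gl q} (hσ : σ ∈ R.T.H) : M σ 0 1 = 0 := by
  obtain ⟨N, hN⟩ := h.model
  have hz := h.toIsAdCoc
  let x : DV k := (0, ![0, 1])
  let y : DV k := (0, ![M σ 0 1, 0])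
  have hy : defoAct M z σ x - x = y := by
    refine Prod.ext (funext fun i => ?_) (funext fun i => ?_)
    · rw [Prod.fst_sub, Pi.sub_apply, defo_fst]; simp [x, y]
    · rw [Prod.snd_sub, Pi.sub_apply, defo_snd]
      fin_cases i <;> simp [x, y, (R.diag_H hM hl hσ).2]
  have hfix : ∀ g : inerG q, defoAct M z (g : Gl q) y = y := fun g =>
    R.gen_iner (P := fun g => defoAct M z g y = y)
      (fun a b ha hb => by rw [defoAct_mul hz, hb, ha])
      (Prod.ext (funext fun i => by rw [defo_fst]; simp [y])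
        (funext fun i => by rw [defo_snd]; fin_cases i <;> simp [y, h00, hM]))
      (fun a ha => Prod.ext (funext fun i => by rw [defo_fst]; simp [y])
        (funext fun i => by rw [defo_snd]; fin_cases i <;> simp [y, (R.diag_H hM hl ha).1, hM]))
      g.2
  have h0 : y = 0 := Tame.eq_zero_of_inerG_fixed hN R.f0_lt_e hfix (prime_nsmul_DV y)
    (hy ▸ w_sub_lt hN ⟨σ, R.T.H_le_inerG hσ⟩ x)
  simpa [y] using congrArg (fun v : DV k => v.2 0) h0

/-- The normal form. -/
theorem exists_redNormal (hl : LocalRes M) (hM : ∀ g, M g 1 0 = 0) (h : FlatDefo M z) :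
    ∃ P : GL (Fin 2) k, RedNormal R (conjHom P M) := by
  have hω0 := R.ω_ne_zero hl hM
  have hdet := R.det_s hl hM
  by_cases ha : M R.s 0 0 = R.ω k
  · have hd : M R.s 1 1 = 1 := by
      rw [ha] at hdet
      exact mul_left_cancel₀ hω0 (hdet.trans (mul_one _).symm)
    set t := M R.s 0 1 / (1 - R.ω k) with ht
    have hne : (1 - R.ω k) ≠ 0 := sub_ne_zero.mpr R.ω_ne_one.symm
    refine ⟨unip t, hl.conj _, fun g => (conj_unip hM t g).1, ?_, ?_, ?_, fun a hh => ?_, fun a hh => ?_⟩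
    · rw [(conj_unip hM t _).2.1, ha]
    · rw [(conj_unip hM t _).2.2.1, hd]
    · rw [(conj_unip hM t _).2.2.2, ha, hd, ht]
      field_simp
      ring
    · rw [(conj_unip hM t _).2.1, (R.diag_H hM hl hh).1]
    · rw [(conj_unip hM t _).2.2.1, (R.diag_H hM hl hh).2]
  · have hd := (R.eigen_s hl hM h).resolve_left ha
    have ha1 : M R.s 0 0 = 1 := by
      rw [hd] at hdet
      exact mul_right_cancel₀ hω0 (hdet.trans (one_mul _).symm)
    set t := M R.s 0 1 / (R.ω k - 1) with ht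
    have hne : (R.ω k - 1) ≠ 0 := sub_ne_zero.mpr R.ω_ne_one
    set M₂ := conjHom (unip t) M with hM₂
    have hl₂ : LocalRes M₂ := hl.conj _
    have hT₂ : ∀ g, M₂ g 1 0 = 0 := fun g => (conj_unip hM t g).1
    have s00 : M₂ R.s 0 0 = 1 := by rw [hM₂, (conj_unip hM t _).2.1, ha1]
    have s11 : M₂ R.s 1 1 = R.ω k := by rw [hM₂, (conj_unip hM t _).2.2.1, hd]
    have s01 : M₂ R.s 0 1 = 0 := by
      rw [hM₂, (conj_unip hM t _).2.2.2, ha1, hd, ht]
      field_simp
      ring
    have hH : ∀ σ ∈ R.T.H, M₂ σ 0 1 = 0 := fun σ hσ =>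
      R.H01_eq_zero hl₂ hT₂ (h.conj (unip t)) s00 hσ
    have hF : M₂ R.F 0 1 = 0 := by
      obtain ⟨a, hha, hcomm⟩ := R.exists_comm
      have h1 := (RedFrame.mul_diag hT₂ R.F R.s).2.2
      rw [hcomm, (RedFrame.mul_diag hT₂ R.s _).2.2, (RedFrame.mul_diag hT₂ a R.F).2.2, s00, s01,
        s11, (R.diag_H hT₂ hl₂ hha).1, hH a hha] at h1
      have h2 : M₂ R.F 0 1 * (R.ω k - 1) = 0 := by linear_combination -h1
      exact (mul_eq_zero.mp h2).resolve_right hne
    obtain ⟨U, hU, hU1⟩ := hl₂.level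
    have hdiag : ∀ g, M₂ g 0 1 = 0 := fun g => R.gen (P := fun g => M₂ g 0 1 = 0)
      (fun a b ha hb => by rw [(RedFrame.mul_diag hT₂ a b).2.2, ha, hb]; ring) s01 hF hH hU
      (fun u hu => by simp [hU1 u hu]) g
    have hcc : ∀ g, conjHom (unip t * swapGL k) M g = conjHom (swapGL k) M₂ g := fun g => by
      simp only [hM₂, conjHom_apply, mul_inv_rev, Units.val_mul, mul_assoc]
    have hentry : ∀ g i j, conjHom (unip t * swapGL k) M g i j = M₂ g i.rev j.rev :=
      fun g i j => by rw [hcc, conj_swap]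
    refine ⟨unip t * swapGL k, hl.conj _, fun g => ?_, ?_, ?_, ?_, fun a hh => ?_, fun a hh => ?_⟩
    · rw [hentry]; exact hdiag g
    · rw [hentry]; exact s11
    · rw [hentry]; exact s00
    · rw [hentry]; exact hT₂ _
    · rw [hentry]; exact (R.diag_H hT₂ hl₂ hh).2
    · rw [hentry]; exact (R.diag_H hT₂ hl₂ hh).1

section group

variable (hn : RedNormal R M)

/-- The group of normalised ordinary cocycles with unit Kummer classes. -/
def redGroup : AddSubgroup (Gl q → M2 k) where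
  carrier := {f | IsAdCoc M f ∧ f R.s = 0 ∧ (∀ g, f g 1 0 = 0) ∧ (∀ h ∈ R.T.H, f h 1 1 = 0) ∧
    ∀ φ : k →+ ZMod (q : ℕ), R.T.UnitClass fun σ => φ (f σ 0 1)}
  zero_mem' := by
    obtain ⟨U, hU, -⟩ := hn.local_res.level
    exact ⟨⟨fun g => by simp, fun a b => by simp, U, hU, fun u _ => rfl⟩, rfl, fun g => rfl,
      fun h _ => rfl, fun φ => R.T.unitClass_zero.congr fun σ _ => (map_zero φ).symm⟩
  add_mem' := fun {f f'} ⟨h1, h2, h3, h4, h5⟩ ⟨h1', h2', h3', h4', h5'⟩ =>
    ⟨h1.add h1', by simp [h2, h2'], fun g => by simp [h3, h3'],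
      fun h hh => by simp [h4 h hh, h4' h hh],
      fun φ => ((h5 φ).add (h5' φ)).congr fun σ _ => (map_add φ _ _).symm⟩
  neg_mem' := fun {f} ⟨h1, h2, h3, h4, h5⟩ => by
    refine ⟨⟨fun g => ?_, fun a b => ?_, ?_⟩, by simp [h2], fun g => by simp [h3],
      fun h hh => by simp [h4 h hh], fun φ => ?_⟩
    · simp [h1.trace]
    · simp only [Pi.neg_apply, h1.coc, mul_neg, neg_mul]; abel
    · obtain ⟨U, hU, hU1⟩ := h1.level
      exact ⟨U, hU, fun u hu => by simp [hU1 u hu]⟩
    · refine ((h5 φ).nsmul ((q : ℕ) - 1)).congr fun σ _ => ?_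
      rw [Pi.smul_apply, nsmul_eq_mul, Nat.cast_sub q.2.one_lt.le, ZMod.natCast_self, zero_sub,
        Nat.cast_one, neg_one_mul, ← map_neg]
      rfl

/-- Those with trivial diagonal. -/
def redKer : AddSubgroup (Gl q → M2 k) where
  carrier := {f | f ∈ redGroup hn ∧ f R.F 0 0 = 0}
  zero_mem' := ⟨zero_mem _, rfl⟩
  add_mem' := fun {f f'} h h' => ⟨add_mem h.1 h'.1, by simp [h.2, h'.2]⟩
  neg_mem' := fun {f} h => ⟨neg_mem h.1, by simp [h.2]⟩

variable {hn}

theorem redGroup.H_entries {f : Gl q → M2 k} (hf : f ∈ redGroup hn) {σ : Gl q}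
    (hσ : σ ∈ R.T.H) : f σ 1 1 = 0 ∧ f σ 0 0 = 0 := by
  refine ⟨hf.2.2.2.1 σ hσ, ?_⟩
  have h := hf.1.trace σ
  rwa [Matrix.trace_fin_two, hf.2.2.2.1 σ hσ, add_zero] at h

theorem redKer.F11 {f : Gl q → M2 k} (hf : f ∈ redKer hn) : f R.F 1 1 = 0 := by
  have h := hf.1.1.trace R.F
  rwa [Matrix.trace_fin_two, hf.2, zero_add] at h

/-- The transformation of the upper entry under conjugation by `s` and `F`. -/
theorem redGroup.twist {f : Gl q → M2 k} (hf : f ∈ redGroup hn) {g : Gl q} (h0 : f g 0 0 = 0)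
    (h1 : f g 1 1 = 0) {σ : Gl q} (hσ : σ ∈ R.T.H) :
    M g 0 0 * f (g⁻¹ * σ * g) 0 1 = f σ 0 1 * M g 1 1 := by
  have hτ := R.T.conj_mem_H' hσ g
  have hEσ := redGroup.H_entries hf hσ
  have hEτ := redGroup.H_entries hf hτ
  obtain ⟨hfc, -, h10, -, -⟩ := hf
  have hA0 := congrFun (congrFun (hfc.coc_mul σ g) 0) 0
  rw [mul_entry, Matrix.add_apply, mul_entry, mul_entry, hn.tri, hn.H00 σ hσ, h0, h10,
    hEσ.2] at hA0
  have hA1 := congrFun (congrFun (hfc.coc_mul σ g) 0) 1
  rw [mul_entry, Matrix.add_apply, mul_entry, mul_entry, hn.H00 σ hσ, hn.H11 σ hσ, h1,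
    hEσ.2] at hA1
  have e1 : f (σ * g) 0 0 = 0 := by simpa using hA0
  rw [e1] at hA1
  have e2 : f (σ * g) 0 1 = f g 0 1 + f σ 0 1 := by simpa using hA1
  have hB := congrFun (congrFun (hfc.coc_mul g (g⁻¹ * σ * g)) 0) 1
  rw [show g * (g⁻¹ * σ * g) = σ * g by group, mul_entry, Matrix.add_apply, mul_entry, mul_entry,
    e1, e2, h0, hEτ.1] at hB
  linear_combination -hB

end group

section main

variable [Finite k] {hn : RedNormal R M}

local instance algZMod : Algebra (ZMod (q : ℕ)) k := ZMod.algebra k (q : ℕ)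

/-- The functional `u ↦ Tr(x u)`. -/
def trFun (x : k) : k →+ ZMod (q : ℕ) :=
  (Algebra.trace (ZMod (q : ℕ)) k).toAddMonoidHom.comp (AddMonoidHom.mulLeft x)

omit [Finite k] in
theorem trFun_apply (x u : k) :
    trFun (q := q) x u = Algebra.trace (ZMod (q : ℕ)) k (x * u) := rfl

omit [Finite k] in
theorem redKer.deep {f : Gl q → M2 k} (hf : f ∈ redKer hn) (φ : k →+ ZMod (q : ℕ)) :
    R.T.Deep (fun σ => φ (f σ 0 1)) ((q : ℕ) - 1) := by
  have hq := q.2.two_le
  refine Tame.deep_of_leads le_rfl (by rw [R.top_eq]; omega) (hf.1.2.2.2.2 φ).deep_one ?_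
  intro j hj1 hj2 hqj hd
  have htop : j < R.T.top := by rw [R.top_eq]; omega
  have hfix : ∀ σ ∈ R.T.H, Tame.conjTwist R.s (Tame.cy R.s) (fun σ => φ (f σ 0 1)) σ =
      φ (f σ 0 1) := fun σ hσ => by
    have h1 := redGroup.twist hf.1 (g := R.s) (by simp [hf.1.2.1]) (by simp [hf.1.2.1]) hσ
    rw [hn.s00, hn.s11, mul_one] at h1
    rw [Tame.conjTwist, ← h1, RedFrame.ω, ← nsmul_eq_mul, ← map_nsmul, nsmul_eq_mul]
  have h1 := Tame.lead_conj_inerG (T := R.T) hj1 htop hqj hd R.hs R.hξ.pow_eq_one R.hsπ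
  rw [← Tame.lead_congr hj1 htop hqj (hd.conj R.s) hfix] at h1
  have hξj : red R.ξ ^ j ≠ (1 : Res q) := by
    have hle := (nnnorm_rootOfUnity R.T.e_pos.ne' R.hξ.pow_eq_one).le
    rw [← red_pow hle, ← red_one]
    intro he
    refine R.hξ.pow_ne_one_of_pos_of_lt (by omega) (by rw [R.he]; omega)
      (eq_of_nnnorm_sub_lt R.T.not_dvd ?_ (one_pow _)
        ((red_eq_red_iff (by rw [nnnorm_pow]; exact pow_le_one₀ zero_le hle) nnnorm_one.le).mp he))
    rw [← pow_mul, mul_comm, pow_mul, R.hξ.pow_eq_one, one_pow]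
  have h2 : (red R.ξ ^ j - 1) * R.T.lead j (fun σ => φ (f σ 0 1)) = 0 := by
    rw [sub_one_mul, ← h1, sub_self]
  exact (mul_eq_zero.mp h2).resolve_left (sub_ne_zero.mpr hξj)

theorem lead_hyp (R : RedFrame q) :
    1 ≤ (q : ℕ) - 1 ∧ (q : ℕ) - 1 < R.T.top ∧ ¬ (q : ℕ) ∣ (q : ℕ) - 1 := by
  have := q.2.two_le
  exact ⟨by omega, by rw [R.top_eq]; omega, Nat.not_dvd_of_pos_of_lt (by omega) (by omega)⟩

/-- The top layers of the classes of a cocycle. -/
def leadMap (f : redKer hn) : k →+ Res q where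
  toFun x := R.T.lead ((q : ℕ) - 1) fun σ => trFun x (f.1 σ 0 1)
  map_zero' := by
    obtain ⟨h1, h2, h3⟩ := lead_hyp R
    rw [show (fun σ => trFun (q := q) (0 : k) (f.1 σ 0 1)) = 0 from funext fun σ => by
      simp [trFun_apply]]
    exact Tame.lead_zero h1 h2 h3
  map_add' x y := by
    obtain ⟨h1, h2, h3⟩ := lead_hyp R
    rw [show (fun σ => trFun (q := q) (x + y) (f.1 σ 0 1)) =
      (fun σ => trFun x (f.1 σ 0 1)) + fun σ => trFun y (f.1 σ 0 1) from funext fun σ => by
        simp [trFun_apply, add_mul]]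
    exact Tame.lead_add h1 h2 h3 (redKer.deep f.2 _) (redKer.deep f.2 _)

omit [Finite k] in
theorem leadMap_apply (f : redKer hn) (x : k) :
    leadMap f x = R.T.lead ((q : ℕ) - 1) fun σ => trFun x (f.1 σ 0 1) := rfl

omit [Finite k] in
theorem leadMap_frobenius (f : redKer hn) (x : k) :
    leadMap f ((M R.F 1 1 / M R.F 0 0) * x) = leadMap f x ^ (q : ℕ) := by
  obtain ⟨h1, h2, h3⟩ := lead_hyp R
  rw [leadMap_apply, leadMap_apply,
    ← Tame.lead_conj_frobenius h1 h2 h3 (redKer.deep f.2 _) R.hF R.hFπ]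
  refine Tame.lead_congr h1 h2 h3 ((redKer.deep f.2 _).conj _) fun σ hσ => ?_
  have ha := redGroup.twist f.2.1 (g := R.F) f.2.2 (redKer.F11 f.2) hσ
  have hne := (tri_diag_ne_zero hn.tri R.F).1
  rw [Tame.conjTwist, R.cy_F, one_mul, trFun_apply, trFun_apply]
  congr 1
  field_simp
  linear_combination x * ha

theorem eq_zero_of_leadMap (f : redKer hn) (h : leadMap f = 0) : f = 0 := by
  obtain ⟨h1, h2, h3⟩ := lead_hyp R
  have hu : ∀ σ ∈ R.T.H, f.1 σ 0 1 = 0 := by
    intro σ hσ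
    haveI : Module.Finite (ZMod (q : ℕ)) k := Module.Finite.of_finite
    refine (traceForm_nondegenerate (ZMod (q : ℕ)) k).1 _ fun x => ?_
    rw [Algebra.traceForm_apply, mul_comm]
    have hd := Tame.deep_succ_of_lead h1 h2 h3 (redKer.deep f.2 (trFun x))
      (by rw [← leadMap_apply, h]; rfl)
    exact Tame.Deep.eq_zero (hd.mono (by rw [R.top_eq]; omega)) hσ
  have hH : ∀ σ ∈ R.T.H, f.1 σ = 0 := fun σ hσ => by
    obtain ⟨a, b⟩ := redGroup.H_entries f.2.1 hσ
    ext i j
    fin_cases i <;> fin_cases j <;> simp [a, b, hu σ hσ, f.2.1.2.2.1 σ]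
  obtain ⟨hc, hs, h10, -, -⟩ := f.2.1
  have hF : f.1 R.F = 0 := by
    obtain ⟨a, ha, hcomm⟩ := R.exists_comm
    have e0 : f.1 (a * R.F) * M a = M a * f.1 R.F := by
      rw [hc.coc_mul, hH a ha, zero_mul, add_zero]
    have e1 : f.1 R.F * M R.s = M R.s * f.1 (a * R.F) := by
      have h1 : f.1 (R.F * R.s) = f.1 R.F := by rw [hc.coc, hs, mul_zero, zero_mul, zero_add]
      have h2 := hc.coc_mul R.s (a * R.F)
      rw [← hcomm, h1, hs, zero_mul, add_zero] at h2
      exact h2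
    have a00 := congrFun (congrFun e0 0) 0
    have a01 := congrFun (congrFun e0 0) 1
    have s01 := congrFun (congrFun e1 0) 1
    simp only [mul_entry, hn.tri, hn.H00 a ha, hn.H11 a ha, hn.s00, hn.s01, hn.s11, f.2.2,
      redKer.F11 f.2, h10, mul_zero, mul_one, one_mul, zero_mul, add_zero, zero_add] at a00 a01 s01
    rw [a00, zero_mul, zero_add] at a01
    rw [a01] at s01
    have hx : f.1 R.F 0 1 * (R.ω k - 1) = 0 := by linear_combination -s01
    ext i j
    fin_cases i <;> fin_cases j <;>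
      simp [f.2.2, redKer.F11 f.2, h10, (mul_eq_zero.mp hx).resolve_right
        (sub_ne_zero.mpr R.ω_ne_one)]
  obtain ⟨U, hU, hU1⟩ := hc.level
  exact Subtype.ext (funext fun g => R.gen (P := fun g => f.1 g = 0)
    (fun a b ha hb => by rw [hc.coc, ha, hb, mul_zero, zero_mul, zero_add]) hs hF hH hU hU1 g)

theorem natCard_redKer_le : Finite (redKer hn) ∧ Nat.card (redKer hn) ≤ Nat.card k := by
  have hinj : Function.Injective (leadMap (hn := hn)) := by
    intro f f' h
    refine sub_eq_zero.mp (eq_zero_of_leadMap (f - f') (AddMonoidHom.ext fun x => ?_))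
    obtain ⟨h1, h2, h3⟩ := lead_hyp R
    have e : (fun σ => trFun (q := q) x (f.1 σ 0 1)) =
        (fun σ => trFun x ((f - f').1 σ 0 1)) + fun σ => trFun x (f'.1 σ 0 1) :=
      funext fun σ => by simp
    have h4 := Tame.lead_add h1 h2 h3 (redKer.deep (f - f').2 (trFun x)) (redKer.deep f'.2 (trFun x))
    rw [← e, ← leadMap_apply, ← leadMap_apply, ← leadMap_apply, h] at h4
    exact right_eq_add.mp h4
  obtain ⟨hfin, hle⟩ := natCard_frobenius_semilinear_le (p := (q : ℕ)) (M R.F 1 1 / M R.F 0 0)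
    (Set.range (leadMap (hn := hn))) (by rintro _ ⟨f, rfl⟩ x; exact leadMap_frobenius f x)
  have := hfin.to_subtype
  have hi : Function.Injective fun f => (⟨leadMap f, f, rfl⟩ : Set.range (leadMap (hn := hn))) :=
    fun a b h => hinj (congrArg Subtype.val h)
  exact ⟨Finite.of_injective _ hi, (Nat.card_le_card_of_injective _ hi).trans hle⟩

theorem natCard_redGroup_le :
    Finite (redGroup hn) ∧ Nat.card (redGroup hn) ≤ Nat.card k * Nat.card k := by
  obtain ⟨hfin, hle⟩ := natCard_redKer_le (hn := hn)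
  let ψ : redGroup hn → k := fun f => f.1 R.F 0 0
  let r : redGroup hn → redGroup hn := fun f => Function.invFun ψ (ψ f)
  have hr : ∀ f, ψ (r f) = ψ f := fun f => Function.invFun_eq ⟨f, rfl⟩
  let L : redGroup hn → k × redKer hn := fun f => (ψ f, ⟨f.1 - (r f).1, sub_mem f.2 (r f).2, by
    rw [Pi.sub_apply, Matrix.sub_apply, sub_eq_zero]
    exact (hr f).symm⟩)
  have hinj : Function.Injective L := by
    intro a b h
    have h1 : ψ a = ψ b := congrArg Prod.fst h
    have h2 : a.1 - (r a).1 = b.1 - (r b).1 := congrArg (fun x => x.2.1) h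
    have h3 : r a = r b := congrArg (Function.invFun ψ) h1
    exact Subtype.ext (by rw [h3] at h2; exact sub_left_inj.mp h2)
  refine ⟨Finite.of_injective L hinj, (Nat.card_le_card_of_injective L hinj).trans ?_⟩
  rw [Nat.card_prod]
  exact Nat.mul_le_mul_left _ hle

omit [Finite k] in
/-- Every flat deformation is normalised up to a coboundary. -/
theorem RedNormal.exists_translate (hn : RedNormal R M) (h : FlatDefo M z) :
    ∃ X : M2 k, X.trace = 0 ∧ FlatDefo M (z + cobd M X) ∧ z + cobd M X ∈ redGroup hn := by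
  have hω := R.ω_ne_zero hn.local_res hn.tri
  have hne : R.ω k - 1 ≠ 0 := sub_ne_zero.mpr R.ω_ne_one
  let X : M2 k := !![0, -(z R.s 0 1) / (R.ω k - 1); z R.s 1 0 * R.ω k / (R.ω k - 1), 0]
  have hX : X.trace = 0 := by simp [X, Matrix.trace_fin_two]
  have hflat := h.add_cobd hn.local_res.level X hX
  have e01 : (z + cobd M X) R.s 0 1 = 0 := by
    have h1 := congrFun (congrFun (cobd_mul (M := M) X R.s) 0) 1
    rw [mul_entry, Matrix.sub_apply, mul_entry, mul_entry, hn.s11, hn.s01, hn.s00] at h1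
    have h2 : cobd M X R.s 0 1 = (R.ω k - 1) * X 0 1 := by linear_combination h1
    rw [Pi.add_apply, Matrix.add_apply, h2]
    simp only [X, Matrix.of_apply, Matrix.cons_val', Matrix.cons_val_zero, Matrix.cons_val_one,
      Matrix.cons_val_fin_one]
    field_simp
    ring
  have e10 : (z + cobd M X) R.s 1 0 = 0 := by
    have h1 := congrFun (congrFun (cobd_mul (M := M) X R.s) 1) 0
    rw [mul_entry, Matrix.sub_apply, mul_entry, mul_entry, hn.tri, hn.s00, hn.s11] at h1
    have h2 : cobd M X R.s 1 0 * R.ω k = (1 - R.ω k) * X 1 0 := by linear_combination h1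
    refine mul_right_cancel₀ hω ?_
    rw [Pi.add_apply, Matrix.add_apply, add_mul, h2, zero_mul]
    simp only [X, Matrix.of_apply, Matrix.cons_val', Matrix.cons_val_zero, Matrix.cons_val_one,
      Matrix.cons_val_fin_one]
    field_simp
    ring
  obtain ⟨hs, h10, hH⟩ := hn.ordinary hflat e01 e10
  exact ⟨X, hX, hflat, hflat.toIsAdCoc, hs, h10, fun a ha => (hH a ha).1,
    fun φ => hn.unitClass hflat hs h10 hH (φ.comp (AddMonoidHom.snd k k))⟩

/-- The diagonal matrices give enough invariants and coboundaries. -/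
theorem RedNormal.natCard_le_fixed_mul_cobd (hn : RedNormal R M) (h : FlatDefo M z) :
    Nat.card k ≤ Nat.card (adFixed M) * Nat.card (redKer hn ⊓ cobdGroup M : AddSubgroup _) := by
  classical
  obtain ⟨hfin, -⟩ := natCard_redKer_le (hn := hn)
  haveI : Finite (adFixed M) := Subtype.finite
  haveI : Finite (redKer hn ⊓ cobdGroup M : AddSubgroup _) :=
    Finite.of_injective (fun f => (⟨f.1, f.2.1⟩ : redKer hn))
      fun a b e => Subtype.ext (congrArg (fun x : redKer hn => x.1) e)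
  let D : k → M2 k := fun t => !![t, 0; 0, -t]
  have hD : ∀ t, (D t).trace = 0 := fun t => by simp [D, Matrix.trace_fin_two]
  by_cases hb : ∀ σ ∈ R.T.H, M σ 0 1 = 0
  · have hF : M R.F 0 1 = 0 := by
      obtain ⟨a, hha, hcomm⟩ := R.exists_comm
      have h1 := (RedFrame.mul_diag hn.tri R.F R.s).2.2
      rw [hcomm, (RedFrame.mul_diag hn.tri R.s _).2.2, (RedFrame.mul_diag hn.tri a R.F).2.2,
        hn.s00, hn.s01, hn.s11, hn.H00 a hha, hb a hha] at h1
      have h2 : M R.F 0 1 * (R.ω k - 1) = 0 := by linear_combination h1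
      exact (mul_eq_zero.mp h2).resolve_right (sub_ne_zero.mpr R.ω_ne_one)
    obtain ⟨U, hU, hU1⟩ := hn.local_res.level
    have hdiag : ∀ g, M g 0 1 = 0 := fun g => R.gen (P := fun g => M g 0 1 = 0)
      (fun a b ha hb => by rw [(RedFrame.mul_diag hn.tri a b).2.2, ha, hb]; ring) hn.s01 hF hb hU
      (fun u hu => by simp [hU1 u hu]) g
    let L : k → adFixed M := fun t => ⟨D t, hD t, fun g => by
      ext i j
      fin_cases i <;> fin_cases j <;> simp [D, Matrix.mul_apply, hdiag, hn.tri, mul_comm]⟩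
    have hL : Function.Injective L := fun a b e => by
      simpa [L, D] using congrArg (fun x : adFixed M => x.1 0 0) e
    calc Nat.card k = Nat.card k * 1 := (mul_one _).symm
      _ ≤ _ := Nat.mul_le_mul (Nat.card_le_card_of_injective L hL) Nat.card_pos
  · push Not at hb
    obtain ⟨σ₀, hσ₀, hb₀⟩ := hb
    obtain ⟨X₀, -, hflat, -, hs₀, h10₀, hH₀, -⟩ := hn.exists_translate h
    obtain ⟨-, -, hH₀⟩ := hn.ordinary hflat (by rw [hs₀]; rfl) (h10₀ _)
    have hent : ∀ t g, cobd M (D t) g 1 0 = 0 ∧ cobd M (D t) g 1 1 = 0 ∧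
        cobd M (D t) g 0 0 = 0 ∧ cobd M (D t) g 0 1 * M g 1 1 = -(2 * t * M g 0 1) := by
      intro t g
      obtain ⟨ha, hd⟩ := tri_diag_ne_zero hn.tri g
      have e := fun i j => congrFun (congrFun (cobd_mul (M := M) (D t) g) i) j
      have e10 := e 1 0
      have e11 := e 1 1
      have e00 := e 0 0
      have e01 := e 0 1
      have d00 : D t 0 0 = t := by simp [D]
      have d01 : D t 0 1 = 0 := by simp [D]
      have d10 : D t 1 0 = 0 := by simp [D]
      have d11 : D t 1 1 = -t := by simp [D]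
      rw [mul_entry, Matrix.sub_apply, mul_entry, mul_entry, d00, d10] at e00 e10
      rw [mul_entry, Matrix.sub_apply, mul_entry, mul_entry, d01, d11] at e01 e11
      simp [d00, d01, d10, d11, hn.tri, mul_comm] at e10 e11 e00 e01
      have h10 : cobd M (D t) g 1 0 = 0 := by simpa [ha] using e10
      have h00 : cobd M (D t) g 0 0 = 0 := by simpa [ha] using e00
      refine ⟨h10, ?_, h00, ?_⟩
      · simpa [h10, hd] using e11
      · rw [h00] at e01
        linear_combination e01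
    have hmem : ∀ t, cobd M (D t) ∈ redGroup hn := fun t =>
      ⟨isAdCoc_cobd hn.local_res.level _ (hD t), by
        obtain ⟨a, b, c, d⟩ := hent t R.s
        rw [hn.s11, hn.s01, mul_one, mul_zero, neg_zero] at d
        ext i j
        fin_cases i <;> fin_cases j <;> simp [a, b, c, d],
        fun g => (hent t g).1, fun g _ => (hent t g).2.1, fun φ =>
        (hn.unitClass hflat hs₀ h10₀ hH₀
          ((φ.comp (AddMonoidHom.mulLeft (-(2 * t)))).comp (AddMonoidHom.fst k k))).congr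
          fun σ hσ => by
            have d := (hent t σ).2.2.2
            rw [hn.H11 σ hσ, mul_one] at d
            simp [d]⟩
    let L : k → (redKer hn ⊓ cobdGroup M : AddSubgroup _) := fun t =>
      ⟨cobd M (D t), ⟨hmem t, (hent t R.F).2.2.1⟩, D t, hD t, rfl⟩
    have h2 : (2 : k) ≠ 0 := Ring.two_ne_zero (by
      rw [ringChar.eq k (q : ℕ)]; exact R.odd)
    have hL : Function.Injective L := fun a b e => by
      have e1 := congrArg (fun f : (redKer hn ⊓ cobdGroup M : AddSubgroup _) => f.1 σ₀ 0 1) e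
      have da := (hent a σ₀).2.2.2
      have db := (hent b σ₀).2.2.2
      rw [show cobd M (D a) σ₀ 0 1 = cobd M (D b) σ₀ 0 1 from e1, db] at da
      have h3 : 2 * M σ₀ 0 1 * (a - b) = 0 := by linear_combination da
      exact sub_eq_zero.mp ((mul_eq_zero.mp h3).resolve_left (mul_ne_zero h2 hb₀))
    haveI : Nonempty (adFixed M) := ⟨⟨0, by simp, fun g => by simp⟩⟩
    calc Nat.card k = 1 * Nat.card k := (one_mul _).symm
      _ ≤ _ := Nat.mul_le_mul Nat.card_pos (Nat.card_le_card_of_injective L hL)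

/-- The bound in normal form. -/
theorem RedNormal.flatBound (hn : RedNormal R M) (h : FlatDefo M z) : FlatBound M := by
  obtain ⟨hfin, hle⟩ := natCard_redGroup_le (hn := hn)
  haveI : Finite (redGroup hn ⊓ cobdGroup M : AddSubgroup _) :=
    Finite.of_injective (fun f => (⟨f.1, f.2.1⟩ : redGroup hn))
      fun a b e => Subtype.ext (congrArg (fun x : redGroup hn => x.1) e)
  refine ⟨redGroup hn, fun f hf => hf.1, hfin, hle.trans ?_, fun w hw => ?_⟩
  · rw [mul_assoc]
    refine Nat.mul_le_mul_left _ ((hn.natCard_le_fixed_mul_cobd h).trans ?_)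
    refine Nat.mul_le_mul_left _ (Nat.card_le_card_of_injective
      (fun f => (⟨f.1, f.2.1.1, f.2.2⟩ : (redGroup hn ⊓ cobdGroup M : AddSubgroup _)))
      fun a b e => Subtype.ext (congrArg (fun x : (redGroup hn ⊓ cobdGroup M : AddSubgroup _) => x.1) e))
  · obtain ⟨X, hX, -, hmem⟩ := hn.exists_translate hw
    exact ⟨X, hX, hmem⟩

/-- The flat bound for a residual representation with a stable line. -/
theorem flatBound_of_eigenvector (hq : (q : ℕ) ≠ 2) (hM : LocalRes M)
    (hv : ∃ v : Fin 2 → k, v ≠ 0 ∧ ∀ g, ∃ c : k, M g *ᵥ v = c • v) : FlatBound M := by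
  classical
  by_cases hex : ∃ z, FlatDefo M z
  · obtain ⟨z, hz⟩ := hex
    obtain ⟨R⟩ := nonempty_redFrame hq
    obtain ⟨P, hP⟩ := exists_tri_conj M hv
    obtain ⟨P', hn⟩ := exists_redNormal (R := R) (hM.conj P) hP (hz.conj P)
    exact FlatBound.of_conj P (FlatBound.of_conj P' (hn.flatBound ((hz.conj P).conj P')))
  · haveI : Finite (adFixed M) := Subtype.finite
    haveI : Nonempty (adFixed M) := ⟨⟨0, by simp, fun g => by simp⟩⟩
    refine ⟨⊥, fun f hf => ?_, inferInstance, ?_, fun z hz => absurd ⟨z, hz⟩ hex⟩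
    · rw [AddSubgroup.mem_bot] at hf
      obtain ⟨U, hU, -⟩ := hM.level
      subst hf
      exact ⟨fun g => by simp, fun a b => by simp, U, hU, fun u _ => rfl⟩
    · rw [bot_inf_eq]
      simp only [AddSubgroup.card_bot, mul_one]
      exact Nat.one_le_iff_ne_zero.mpr (mul_ne_zero Nat.card_pos.ne' Nat.card_pos.ne')

end main

end FLTA.TaylorWiles.Flat

end
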