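import Fermat.Agent.TaylorWiles.FlatReducibleFrame

/-!
# The reducible flat bound: what an integral model forces on a deformation
-/

set_option autoImplicit false
set_option linter.style.haveILetI false

open scoped NNReal Matrix

noncomputable section

namespace FLTA.TaylorWiles.Flat

open FLTA.PT (Gl Ql lvlLoc locAut)

attribute [local instance] FLTA.PT.factPrime

variable {q : Nat.Primes} {k : Type} [Field k] {M : Gl q →* M2 k} {z : Gl q → M2 k}

/-- The cocycle relation without inverses. -/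
theorem IsAdCoc.coc_mul (hz : IsAdCoc M z) (a b : Gl q) :
    z (a * b) * M a = M a * z b + z a * M a := by
  rw [hz.coc, add_mul, mul_assoc, M_inv_mul, mul_one]

theorem defo_fst (g : Gl q) (x : DV k) (i : Fin 2) :
    (defoAct M z g x).1 i = M g i 0 * x.1 0 + M g i 1 * x.1 1 := by
  fin_cases i <;> simp

theorem defo_snd (g : Gl q) (x : DV k) (i : Fin 2) :
    (defoAct M z g x).2 i = M g i 0 * x.2 0 + M g i 1 * x.2 1 +
      ((z g * M g) i 0 * x.1 0 + (z g * M g) i 1 * x.1 1) := by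
  fin_cases i <;> simp

theorem mul_entry (A B : M2 k) (i j : Fin 2) : (A * B) i j = A i 0 * B 0 j + A i 1 * B 1 j := by
  simp [Matrix.mul_apply, Fin.sum_univ_two]

variable [CharP k (q : ℕ)] {R : RedFrame q}

omit [CharP k (q : ℕ)] in
theorem iner_one {P : Gl q → k} (hs : P R.s = 1) (hH : ∀ h ∈ R.T.H, P h = 1)
    (hmul : ∀ a b, P (a * b) = P a * P b) {g : Gl q} (hg : g ∈ inerG q) : P g = 1 :=
  R.gen_iner (P := fun g => P g = 1) (fun a b ha hb => by rw [hmul, ha, hb, one_mul]) hs hH hg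

section model

variable (hz : IsAdCoc M z) {N : IntModel (Ql q) (DV k)}
  (hN : N.Equivariant (fun g : inerG q => defoAct M z (g : Gl q)) inerAut)

include hN

omit [CharP k (q : ℕ)] in
theorem w_sub_lt (g : inerG q) (x : DV k) : N.w (defoAct M z (g : Gl q) x - x) < 1 :=
  N.w_act_sub_lt_one hN g (fun _ ha => nnnorm_inerG_sub_lt g.2 ha) x

include hz in
/-- A point of the open ball fixed by inertia modulo a stable subgroup lies in it. -/
theorem mem_of_fixed_mod (R : RedFrame q) (Y : AddSubgroup (DV k))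
    (hY : ∀ g ∈ inerG q, ∀ y ∈ Y, defoAct M z g y ∈ Y) {x : DV k}
    (hx : ∀ g ∈ inerG q, defoAct M z g x - x ∈ Y) (hw : N.w x < 1) : x ∈ Y := by
  obtain ⟨act', N', hN', hcomm, -, -, hw'⟩ := exists_quotient_model hN
    (fun x => defoAct_one hz x) (fun a b x => defoAct_mul hz (a : Gl q) b x) Y
    (fun g y hy => hY g g.2 y hy)
  rw [← QuotientAddGroup.eq_zero_iff]
  refine Tame.eq_zero_of_inerG_fixed hN' R.f0_lt_e (fun g => ?_) ?_ (lt_of_le_of_lt (hw' x) hw)
  · rw [hcomm]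
    exact (QuotientAddGroup.eq_iff_sub_mem).mpr (hx g g.2)
  · rw [← QuotientAddGroup.mk_nsmul, prime_nsmul_DV]
    rfl

end model

/-- A flat deformation in normal form, with `z s` diagonal, is ordinary. -/
theorem RedNormal.ordinary (hn : RedNormal R M) (h : FlatDefo M z) (h01 : z R.s 0 1 = 0)
    (h10 : z R.s 1 0 = 0) :
    z R.s = 0 ∧ (∀ g, z g 1 0 = 0) ∧ ∀ h ∈ R.T.H, z h 1 1 = 0 ∧ z h 0 0 = 0 := by
  obtain ⟨N, hN⟩ := h.model
  have hz := h.toIsAdCoc
  have hM11 : ∀ g ∈ inerG q, M g 1 1 = 1 := fun g hg =>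
    iner_one (R := R) (P := fun g => M g 1 1) hn.s11 hn.H11
      (fun a b => (RedFrame.mul_diag hn.tri a b).2.1) hg
  let Y₁ : AddSubgroup (DV k) :=
    { carrier := {x | x.1 1 = 0}
      add_mem' := fun {x y} (hx : x.1 1 = 0) (hy : y.1 1 = 0) => show (x + y).1 1 = 0 by
        simp [hx, hy]
      zero_mem' := rfl
      neg_mem' := fun {x} (hx : x.1 1 = 0) => show (-x).1 1 = 0 by simp [hx] }
  let Y₂ : AddSubgroup (DV k) :=
    { carrier := {x | x.1 = 0 ∧ x.2 1 = 0}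
      add_mem' := fun {x y} hx hy => ⟨by simp [hx.1, hy.1], by simp [hx.2, hy.2]⟩
      zero_mem' := ⟨rfl, rfl⟩
      neg_mem' := fun {x} hx => ⟨by simp [hx.1], by simp [hx.2]⟩ }
  -- the open ball lies in the first line
  have hball : ∀ x : DV k, N.w x < 1 → x.1 1 = 0 ∧ x.2 1 = 0 := by
    intro x hx
    have h1 : x ∈ Y₁ := by
      refine mem_of_fixed_mod hz hN R Y₁ (fun g hg y (hy : y.1 1 = 0) => ?_) (fun g hg => ?_) hx
      · show (defoAct M z g y).1 1 = 0
        rw [defo_fst, hn.tri, hy, zero_mul, mul_zero, add_zero]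
      · show (defoAct M z g x - x).1 1 = 0
        rw [Prod.fst_sub, Pi.sub_apply, defo_fst, hn.tri, hM11 g hg]
        ring
    replace h1 : x.1 1 = 0 := h1
    let c := x.2 1
    let x₀ : DV k := defoAct M z R.s x - Tame.cy R.s • x
    have hfst : x₀.1 = 0 := funext fun i => by
      rw [Prod.fst_sub, Pi.sub_apply, defo_fst, Prod.smul_fst, Pi.smul_apply, nsmul_eq_mul]
      fin_cases i <;> simp [h1, hn.s00, hn.tri, RedFrame.ω]
    have hsnd : x₀.2 1 = (1 - R.ω k) * c := by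
      rw [Prod.snd_sub, Pi.sub_apply, defo_snd, Prod.smul_snd, Pi.smul_apply, nsmul_eq_mul,
        mul_entry, mul_entry]
      simp [h1, hn.s11, hn.tri, h10, c, RedFrame.ω, sub_mul]
    have hx₀ : N.w x₀ < 1 := by
      refine lt_of_le_of_lt (N.w_sub_le _ _) (max_lt ?_ (lt_of_le_of_lt (N.w_nsmul_le _ _) hx))
      exact (Tame.w_act_eq hN ⟨R.s, R.hs⟩ x).trans_lt hx
    have h2 : x₀ ∈ Y₂ := by
      refine mem_of_fixed_mod hz hN R Y₂ (fun g hg y hy => ⟨funext fun i => ?_, ?_⟩)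
        (fun g hg => ⟨funext fun i => ?_, ?_⟩) hx₀
      · rw [defo_fst, hy.1]; simp
      · rw [defo_snd, hy.1, hy.2, hn.tri]; simp
      · rw [Prod.fst_sub, Pi.sub_apply, defo_fst, hfst]; simp
      · rw [Prod.snd_sub, Pi.sub_apply, defo_snd, hn.tri, hM11 g hg, hfst]; simp
    have h3 : (1 - R.ω k) * c = 0 := hsnd.symm.trans h2.2
    exact ⟨h1, (mul_eq_zero.mp h3).resolve_left (sub_ne_zero.mpr R.ω_ne_one.symm)⟩
  have hmove : ∀ g ∈ inerG q, ∀ x : DV k,
      (defoAct M z g x).1 1 = x.1 1 ∧ (defoAct M z g x).2 1 = x.2 1 := by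
    intro g hg x
    obtain ⟨a, b⟩ := hball _ (w_sub_lt hN ⟨g, hg⟩ x)
    exact ⟨sub_eq_zero.mp a, sub_eq_zero.mp b⟩
  have he1 : ∀ g ∈ inerG q, z g 1 0 * M g 0 0 = 0 := fun g hg => by
    have h1 := (hmove g hg (![1, 0], 0)).2
    rw [defo_snd, mul_entry, mul_entry, hn.tri] at h1
    simpa using h1
  have he2 : ∀ g ∈ inerG q, z g 1 0 * M g 0 1 + z g 1 1 = 0 := fun g hg => by
    have h1 := (hmove g hg (![0, 1], 0)).2
    rw [defo_snd, mul_entry, mul_entry, hM11 g hg] at h1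
    simpa using h1
  have hzs : z R.s = 0 := by
    have h11 : z R.s 1 1 = 0 := by simpa [hn.s01] using he2 _ R.hs
    have h00 : z R.s 0 0 = 0 := by
      have := hz.trace R.s
      rwa [Matrix.trace_fin_two, h11, add_zero] at this
    ext i j
    fin_cases i <;> fin_cases j <;> simp [h00, h01, h10, h11]
  have hH10 : ∀ g ∈ R.T.H, z g 1 0 = 0 := fun g hg => by
    simpa [hn.H00 g hg] using he1 g (R.T.H_le_inerG hg)
  have hH : ∀ g ∈ R.T.H, z g 1 1 = 0 ∧ z g 0 0 = 0 := fun g hg => by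
    have h1 : z g 1 1 = 0 := by simpa [hH10 g hg] using he2 g (R.T.H_le_inerG hg)
    refine ⟨h1, ?_⟩
    have := hz.trace g
    rwa [Matrix.trace_fin_two, h1, add_zero] at this
  have hF10 : z R.F 1 0 = 0 := by
    obtain ⟨a, ha, hcomm⟩ := R.exists_comm
    have h1 : z (R.F * R.s) = z R.F := by rw [hz.coc, hzs, mul_zero, zero_mul, zero_add]
    have h2 := congrArg (· * M R.s) h1
    beta_reduce at h2
    rw [hcomm, hz.coc_mul, hzs, zero_mul, add_zero] at h2
    have h3 := congrFun (congrFun h2 1) 0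
    rw [mul_entry, mul_entry, hn.tri, hn.s11, hn.s00] at h3
    have h4 := congrFun (congrFun (hz.coc_mul a R.F) 1) 0
    rw [mul_entry, Matrix.add_apply, mul_entry, mul_entry, hn.tri, hn.H00 a ha, hn.H11 a ha,
      hH10 a ha] at h4
    have h5 : z (a * R.F) 1 0 = z R.F 1 0 * R.ω k := by simpa using h3
    have h6 : z (a * R.F) 1 0 = z R.F 1 0 := by simpa using h4
    have h7 : z R.F 1 0 * (R.ω k - 1) = 0 := by rw [mul_sub, ← h5, h6, mul_one, sub_self]
    exact (mul_eq_zero.mp h7).resolve_right (sub_ne_zero.mpr R.ω_ne_one)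
  obtain ⟨U, hU, hU1⟩ := hz.level
  refine ⟨hzs, fun g => ?_, hH⟩
  refine R.gen (P := fun g => z g 1 0 = 0) (fun a b ha hb => ?_) (by simp [hzs]) hF10 hH10 hU
    (fun u hu => by simp [hU1 u hu]) g
  have h1 := congrFun (congrFun (hz.coc_mul a b) 1) 0
  rw [mul_entry, Matrix.add_apply, mul_entry, mul_entry, hn.tri, ha, hb] at h1
  have hne : M a 0 0 ≠ 0 := fun h0 => by
    have := congrFun (congrFun (M_mul_inv (M := M) a⁻¹) 0) 0
    rw [mul_entry, inv_inv, hn.tri, h0] at this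
    simp at this
  simpa [hne] using h1

/-- Every functional of the classes `(b₀, u)` of a flat deformation in normal form is a unit
class. -/
theorem RedNormal.unitClass (hn : RedNormal R M) (h : FlatDefo M z) (hs : z R.s = 0)
    (h10 : ∀ g, z g 1 0 = 0) (hH : ∀ a ∈ R.T.H, z a 1 1 = 0 ∧ z a 0 0 = 0)
    (Φ : k × k →+ ZMod (q : ℕ)) : R.T.UnitClass fun σ => Φ (M σ 0 1, z σ 0 1) := by
  obtain ⟨N, hN⟩ := h.model
  have hz := h.toIsAdCoc
  set χ : Gl q → ZMod (q : ℕ) := fun σ => Φ (M σ 0 1, z σ 0 1) with hχ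
  have hadd : ∀ a ∈ R.T.H, ∀ b ∈ R.T.H, χ (a * b) = χ a + χ b := by
    intro a ha b hb
    have h1 : M (a * b) 0 1 = M a 0 1 + M b 0 1 := by
      rw [(RedFrame.mul_diag hn.tri a b).2.2, hn.H00 a ha, hn.H11 b hb]; ring
    have h2 := congrFun (congrFun (hz.coc_mul a b) 0) 1
    rw [mul_entry, Matrix.add_apply, mul_entry, mul_entry, hn.H00 a ha, hn.H11 a ha,
      (hH b hb).1, (hH a ha).2, (hH _ (mul_mem ha hb)).2] at h2
    have h3 : z (a * b) 0 1 = z a 0 1 + z b 0 1 := by simpa [add_comm] using h2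
    rw [hχ]
    beta_reduce
    rw [h1, h3, ← map_add, Prod.mk_add_mk]
  have hhom : R.T.IsHom χ := by
    refine ⟨hadd, ?_⟩
    obtain ⟨U, hU, hU1⟩ := hz.level
    obtain ⟨V, hV, hV1⟩ := hn.local_res.level
    exact ⟨U ⊓ V, (lvlLoc q).inf_mem U hU V hV, fun u hu _ => by
      show Φ (M u 0 1, z u 0 1) = 0
      rw [hV1 u hu.2, hU1 u hu.1]
      simp [Prod.mk_zero_zero]⟩
  by_cases h0 : ∀ τ ∈ R.T.H, χ τ = 0
  · exact R.T.unitClass_zero.congr fun τ hτ => (h0 τ hτ).symm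
  push Not at h0
  obtain ⟨τ, hτ, hτ0⟩ := h0
  rcases R.T.unitClass_or_valuation hhom with hu | ⟨α, m, hα, hm1, hmq, hαm⟩
  · exact hu
  exfalso
  let Y : AddSubgroup (DV k) :=
    { carrier := {x | x.1 1 = 0 ∧ x.2 1 = 0 ∧ Φ (x.1 0, x.2 0) = 0}
      add_mem' := fun {x y} hx hy => ⟨by simp [hx.1, hy.1], by simp [hx.2.1, hy.2.1], by
        rw [Prod.fst_add, Prod.snd_add, Pi.add_apply, Pi.add_apply, ← Prod.mk_add_mk, map_add,
          hx.2.2, hy.2.2, add_zero]⟩
      zero_mem' := ⟨rfl, rfl, map_zero Φ⟩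
      neg_mem' := fun {x} hx => ⟨by simp [hx.1], by simp [hx.2.1], by
        rw [Prod.fst_neg, Prod.snd_neg, Pi.neg_apply, Pi.neg_apply, ← Prod.neg_mk, map_neg,
          hx.2.2, neg_zero]⟩ }
  have hfixX₀ : ∀ σ ∈ R.T.H, ∀ y : DV k, y.1 1 = 0 → y.2 1 = 0 → defoAct M z σ y = y := by
    intro σ hσ y h1 h2
    refine Prod.ext (funext fun i => ?_) (funext fun i => ?_)
    · rw [defo_fst]; fin_cases i <;> simp [h1, hn.tri, hn.H00 σ hσ]
    · rw [defo_snd, mul_entry, mul_entry]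
      fin_cases i <;> simp [h1, h2, hn.tri, hn.H00 σ hσ, (hH σ hσ).2, h10]
  have hY : ∀ g ∈ inerG q, ∀ y ∈ Y, defoAct M z g y ∈ Y := by
    intro g hg
    refine R.gen_iner (P := fun g => ∀ y ∈ Y, defoAct M z g y ∈ Y)
      (fun a b ha hb y hy => by rw [defoAct_mul hz]; exact ha _ (hb y hy)) (fun y hy => ?_)
      (fun σ hσ y hy => by rw [hfixX₀ σ hσ y hy.1 hy.2.1]; exact hy) hg
    have e : defoAct M z R.s y = Tame.cy R.s • y := by
      refine Prod.ext (funext fun i => ?_) (funext fun i => ?_)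
      · rw [defo_fst, Prod.smul_fst, Pi.smul_apply, nsmul_eq_mul]
        fin_cases i <;> simp [hy.1, hn.s00, hn.tri, RedFrame.ω]
      · rw [defo_snd, hs, Prod.smul_snd, Pi.smul_apply, nsmul_eq_mul]
        fin_cases i <;> simp [hy.1, hy.2.1, hn.s00, hn.tri, RedFrame.ω]
    rw [e]
    exact Y.nsmul_mem hy _
  obtain ⟨act', N', hN', hcomm, -, hmul', hw'⟩ := exists_quotient_model hN
    (fun x => defoAct_one hz x) (fun a b x => defoAct_mul hz (a : Gl q) b x) Y
    (fun g y hy => hY g g.2 y hy)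
  let x : DV k := (![0, 1], 0)
  have hdiff : ∀ σ ∈ R.T.H,
      defoAct M z σ x - x = (![M σ 0 1, 0], ![z σ 0 1, 0]) := by
    intro σ hσ
    refine Prod.ext (funext fun i => ?_) (funext fun i => ?_)
    · rw [Prod.fst_sub, Pi.sub_apply, defo_fst]
      fin_cases i <;> simp [x, hn.H11 σ hσ]
    · rw [Prod.snd_sub, Pi.sub_apply, defo_snd, mul_entry, mul_entry]
      fin_cases i <;> simp [x, hn.H11 σ hσ, (hH σ hσ).1, (hH σ hσ).2, h10]
  let gτ : inerG q := ⟨τ, R.T.H_le_inerG hτ⟩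
  let y : DV k ⧸ Y := QuotientAddGroup.mk (defoAct M z τ x - x)
  have hy0 : y ≠ 0 := fun h0 => hτ0 (by
    have h1 : defoAct M z τ x - x ∈ Y := (QuotientAddGroup.eq_zero_iff _).mp h0
    rw [hdiff τ hτ] at h1
    simpa [hχ] using h1.2.2)
  have hyH : R.T.HFixed act' y := fun g hg => by
    show act' g (QuotientAddGroup.mk _) = QuotientAddGroup.mk _
    rw [hcomm, hdiff τ hτ, hfixX₀ g hg _ (by simp) (by simp)]
  have hyq : (q : ℕ) • y = 0 := by
    rw [← QuotientAddGroup.mk_nsmul, prime_nsmul_DV]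
    rfl
  have hyw : N'.w y < 1 := lt_of_le_of_lt (hw' _) (w_sub_lt hN gτ x)
  obtain ⟨e, he1, hef, hew⟩ := Tame.exists_exponent hN' hyH hyq hy0 hyw
  obtain rfl : e = 1 := by rw [R.f0_eq] at hef; omega
  have hlt : N'.dist (act' gτ (QuotientAddGroup.mk x)) (QuotientAddGroup.mk x) < ‖R.T.π‖₊ ^ 1 := by
    refine (Finset.sup_lt_iff (pow_pos R.T.nnnorm_π_pos 1)).mpr fun i _ => ?_
    rw [hN', inerAut_apply, ← R.f0_eq]
    refine R.T.move_lt_of_valuation hα (Nat.not_dvd_of_pos_of_lt hm1 hmq) hαm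
      (N'.norm_le_one i _) (fun σ hσ hσ0 => ?_) hτ
    rw [← inerAut_apply ⟨σ, R.T.H_le_inerG hσ⟩, ← hN', hcomm]
    congr 1
    refine (QuotientAddGroup.eq_iff_sub_mem).mpr ?_
    rw [hdiff σ hσ]
    exact ⟨by simp, by simp, by simpa [hχ] using hσ0⟩
  rw [N'.dist_eq_w_sub, hcomm, ← QuotientAddGroup.mk_sub] at hlt
  exact hlt.ne hew

end FLTA.TaylorWiles.Flat

end
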