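import Fermat.Agent.TaylorWiles.FlatReducible

/-!
# Deformations which are both flat and strictly ordinary

They lie in a group `F` of cocycles with `|F| ≤ |H⁰| · |F ∩ B¹|`: one dimension less than the flat
ones.
-/

set_option autoImplicit false
set_option linter.style.haveILetI false

open scoped Matrix

noncomputable section

namespace FLTA.TaylorWiles.Flat

open FLTA.PT (Gl lvlLoc)

attribute [local instance] FLTA.PT.factPrime

variable {q : Nat.Primes} {k : Type} [Field k] {M : Gl q →* M2 k} {z : Gl q → M2 k}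

/-- The classes satisfying `Q` lie in a group `F` of cocycles with
`|F| ≤ n · |H⁰| · |F ∩ B¹|`. -/
def BoundBy (M : Gl q →* M2 k) (n : ℕ) (Q : (Gl q → M2 k) → Prop) : Prop :=
  ∃ F : AddSubgroup (Gl q → (M2 k)), (∀ f ∈ F, IsAdCoc M f) ∧ Finite F ∧
    Nat.card F ≤ n * Nat.card (adFixed M) * Nat.card (F ⊓ cobdGroup M : AddSubgroup _) ∧
    ∀ z, Q z → ∃ X : (M2 k), X.trace = 0 ∧ z + cobd M X ∈ F

theorem BoundBy.of_conj {n : ℕ} {Q Q' : (Gl q → M2 k) → Prop} (P : GL (Fin 2) k)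
    (hQ : ∀ z, Q z → Q' fun g => (P⁻¹ : GL (Fin 2) k).1 * z g * P.1)
    (h : BoundBy (conjHom P M) n Q') : BoundBy M n Q := by
  have hPP : P.1 * (P⁻¹ : GL (Fin 2) k).1 = 1 := Units.mul_inv P
  have hPP' : (P⁻¹ : GL (Fin 2) k).1 * P.1 = 1 := Units.inv_mul P
  let c : (M2 k) ≃+ (M2 k) :=
    { toFun := fun X => P.1 * X * (P⁻¹ : GL (Fin 2) k).1
      invFun := fun X => (P⁻¹ : GL (Fin 2) k).1 * X * P.1
      left_inv := fun X => by
        simp only [mul_assoc, hPP', mul_one]
        rw [← mul_assoc (P⁻¹ : GL (Fin 2) k).1, hPP', one_mul]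
      right_inv := fun X => by
        simp only [mul_assoc, hPP, mul_one]
        rw [← mul_assoc P.1, hPP, one_mul]
      map_add' := fun X Y => by simp [mul_add, add_mul] }
  have htr : ∀ X, (c X).trace = X.trace := fun X => Matrix.trace_units_conj P X
  have htr' : ∀ X, (c.symm X).trace = X.trace := fun X => Matrix.trace_units_conj' P X
  have hcobd : ∀ X g, c (cobd (conjHom P M) X g) = cobd M (c X) g := by
    intro X g
    show P.1 * _ * (P⁻¹ : GL (Fin 2) k).1 = _ * (P.1 * X * (P⁻¹ : GL (Fin 2) k).1) * _ -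
      P.1 * X * (P⁻¹ : GL (Fin 2) k).1
    simp only [cobd, conjHom_apply, mul_sub, sub_mul, mul_assoc]
    simp only [← mul_assoc P.1 (P⁻¹ : GL (Fin 2) k).1, hPP, one_mul, mul_one]
  let C : (Gl q → (M2 k)) ≃+ (Gl q → (M2 k)) := AddEquiv.arrowCongr (Equiv.refl _) c
  obtain ⟨F, hF, hfin, hcard, hflat⟩ := h
  refine ⟨F.map C.toAddMonoidHom, ?_, ?_, ?_, ?_⟩
  · rintro _ ⟨f, hf, rfl⟩
    refine ⟨fun g => (htr _).trans ((hF f hf).trace g), fun a b => ?_, ?_⟩
    · show c (f (a * b)) = M a * c (f b) * M a⁻¹ + c (f a)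
      rw [(hF f hf).coc, map_add]
      show P.1 * _ * (P⁻¹ : GL (Fin 2) k).1 + _ = _ * (P.1 * _ * (P⁻¹ : GL (Fin 2) k).1) * _ + _
      simp only [conjHom_apply, mul_assoc]
      simp only [← mul_assoc P.1 (P⁻¹ : GL (Fin 2) k).1, hPP, one_mul, mul_one]
    · obtain ⟨U, hU, h1⟩ := (hF f hf).level
      exact ⟨U, hU, fun u hu => by
        show c (f u) = 0
        rw [h1 u hu, map_zero]⟩
  · exact Finite.of_equiv F (F.equivMapOfInjective _ C.injective).toEquiv
  · have h1 : Nat.card (adFixed (conjHom P M)) = Nat.card (adFixed M) := by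
      refine Nat.card_congr (Equiv.subtypeEquiv c.toEquiv fun X => ?_)
      constructor
      · rintro ⟨h1, h2⟩
        refine ⟨(htr X).trans h1, fun g => ?_⟩
        have h3 := congrArg (fun Y => P.1 * Y * (P⁻¹ : GL (Fin 2) k).1) (h2 g)
        show M g * (P.1 * X * (P⁻¹ : GL (Fin 2) k).1) = P.1 * X * (P⁻¹ : GL (Fin 2) k).1 * M g
        simp only [conjHom_apply, mul_assoc, hPP, mul_one] at h3 ⊢
        simp only [← mul_assoc P.1 (P⁻¹ : GL (Fin 2) k).1, hPP, one_mul] at h3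
        exact h3
      · rintro ⟨h1, h2⟩
        refine ⟨(htr X).symm.trans h1, fun g => c.injective ?_⟩
        show P.1 * (_ * X) * (P⁻¹ : GL (Fin 2) k).1 = P.1 * (X * _) * (P⁻¹ : GL (Fin 2) k).1
        have h3 : M g * (P.1 * X * (P⁻¹ : GL (Fin 2) k).1) =
            P.1 * X * (P⁻¹ : GL (Fin 2) k).1 * M g := h2 g
        simp only [conjHom_apply, mul_assoc, hPP, mul_one] at h3 ⊢
        simp only [← mul_assoc P.1 (P⁻¹ : GL (Fin 2) k).1, hPP, one_mul]
        exact h3
    have h2 : Nat.card (F ⊓ cobdGroup (conjHom P M) : AddSubgroup _) =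
        Nat.card (F.map C.toAddMonoidHom ⊓ cobdGroup M : AddSubgroup _) := by
      refine Nat.card_congr (Equiv.subtypeEquiv C.toEquiv fun f => ?_)
      constructor
      · rintro ⟨h1, X, hX, rfl⟩
        exact ⟨⟨_, h1, rfl⟩, c X, (htr X).trans hX, funext fun g => hcobd X g⟩
      · rintro ⟨⟨f', hf', he⟩, Y, hY, hYe⟩
        obtain rfl : f' = f := C.injective he
        refine ⟨hf', c.symm Y, (htr' Y).trans hY, funext fun g => c.injective ?_⟩
        rw [hcobd, AddEquiv.apply_symm_apply]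
        exact congrFun hYe g
    rw [← h1, ← h2, ← Nat.card_congr (F.equivMapOfInjective _ C.injective).toEquiv]
    exact hcard
  · intro z hz
    obtain ⟨X, hX, hmem⟩ := hflat _ (hQ z hz)
    refine ⟨c X, (htr X).trans hX, _, hmem, funext fun g => ?_⟩
    show c (_ + cobd (conjHom P M) X g) = z g + cobd M (c X) g
    rw [map_add, hcobd]
    congr 1
    exact c.apply_symm_apply (z g)

/-- A line on which inertia acts by the cyclotomic character, into whose nilpotent the cocycle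
moves by a coboundary. -/
def StrictLineDefo (M : Gl q →* M2 k) (z : Gl q → M2 k) : Prop :=
  ∃ v : Fin 2 → k, v ≠ 0 ∧ (∀ g, ∃ c : k, M g *ᵥ v = c • v) ∧
    (∀ g ∈ inerG q, M g *ᵥ v = ((Tame.cy g : ℕ) : k) • v) ∧
    ∃ u : M2 k, u.trace = 0 ∧ ∀ g, (z + cobd M u) g *ᵥ v = 0

theorem StrictLineDefo.conj (P : GL (Fin 2) k) (h : StrictLineDefo M z) :
    StrictLineDefo (conjHom P M) fun g => (P⁻¹ : GL (Fin 2) k).1 * z g * P.1 := by
  have hPP : P.1 * (P⁻¹ : GL (Fin 2) k).1 = 1 := Units.mul_inv P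
  obtain ⟨v, hv0, hv, hI, u, hu, hzu⟩ := h
  set Q := (P⁻¹ : GL (Fin 2) k).1
  have hQ : ∀ A : M2 k, (Q * A * P.1) *ᵥ (Q *ᵥ v) = Q *ᵥ (A *ᵥ v) := fun A => by
    rw [Matrix.mulVec_mulVec, Matrix.mulVec_mulVec, mul_assoc, hPP, mul_one]
  refine ⟨Q *ᵥ v, fun h0 => hv0 ?_, fun g => ?_, fun g hg => ?_, Q * u * P.1, ?_, fun g => ?_⟩
  · rw [← Matrix.one_mulVec v, ← hPP, ← Matrix.mulVec_mulVec, h0, Matrix.mulVec_zero]
  · obtain ⟨c, hc⟩ := hv g
    exact ⟨c, by rw [conjHom_apply, hQ, hc, Matrix.mulVec_smul]⟩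
  · rw [conjHom_apply, hQ, hI g hg, Matrix.mulVec_smul]
  · exact (Matrix.trace_units_conj' P u).trans hu
  · have e : Q * z g * P.1 + cobd (conjHom P M) (Q * u * P.1) g = Q * ((z + cobd M u) g) * P.1 := by
      simp only [cobd, conjHom_apply, Pi.add_apply, mul_add, add_mul, mul_sub, sub_mul, Q, mul_assoc]
      simp only [← mul_assoc P.1 (P⁻¹ : GL (Fin 2) k).1, Units.mul_inv, one_mul]
    show (Q * z g * P.1 + cobd (conjHom P M) (Q * u * P.1) g) *ᵥ (Q *ᵥ v) = 0
    rw [e, hQ, hzu, Matrix.mulVec_zero]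

variable [CharP k (q : ℕ)] [Finite k] {R : RedFrame q}

omit [Finite k] in
/-- In normal form, the translate of a strict deformation has no diagonal. -/
theorem RedNormal.exists_translate_ker (hn : RedNormal R M) (h : FlatDefo M z)
    (hs : StrictLineDefo M z) : ∃ X : M2 k, X.trace = 0 ∧ z + cobd M X ∈ redKer hn := by
  obtain ⟨v, hv0, -, hI, u, -, hzu⟩ := hs
  obtain ⟨X, hX, -, hmem⟩ := hn.exists_translate h
  have h1ω : (1 - R.ω k) ≠ 0 := sub_ne_zero.mpr R.ω_ne_one.symm
  have hvs := congrFun (hI R.s R.hs) 1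
  simp only [Matrix.mulVec, dotProduct, Fin.sum_univ_two, hn.tri, hn.s11, Pi.smul_apply,
    smul_eq_mul, zero_mul, one_mul, zero_add] at hvs
  have hv1 : v 1 = 0 :=
    (mul_eq_zero.mp (show (1 - R.ω k) * v 1 = 0 by rw [RedFrame.ω, sub_mul, one_mul, ← hvs,
      sub_self])).resolve_left h1ω
  have hv00 : v 0 ≠ 0 := fun h0 => hv0 (funext fun i => by fin_cases i <;> simp [h0, hv1])
  have hcol : ∀ g i, (z + cobd M u) g i 0 = 0 := fun g i => by
    have e := congrFun (hzu g) i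
    simp only [Matrix.mulVec, dotProduct, Fin.sum_univ_two, hv1, mul_zero, add_zero,
      Pi.zero_apply] at e
    exact (mul_eq_zero.mp e).resolve_right hv00
  set Y := X - u
  have hsplit : ∀ g, (z + cobd M X) g = (z + cobd M u) g + cobd M Y g := fun g => by
    simp only [Pi.add_apply, cobd, Y, mul_sub, sub_mul]
    abel
  have hC : ∀ g i, (z + cobd M X) g i 0 = cobd M Y g i 0 := fun g i => by
    rw [hsplit, Matrix.add_apply, hcol, zero_add]
  have hY : Y 1 0 = 0 := by
    have e := congrFun (congrFun (cobd_mul (M := M) Y R.s) 1) 0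
    rw [mul_entry, Matrix.sub_apply, mul_entry, mul_entry, ← hC R.s 1, hmem.2.2.1, hn.tri, hn.s00,
      hn.s11] at e
    have e2 : (1 - R.ω k) * Y 1 0 = 0 := by linear_combination -e
    exact (mul_eq_zero.mp e2).resolve_left h1ω
  refine ⟨X, hX, hmem, ?_⟩
  have e := congrFun (congrFun (cobd_mul (M := M) Y R.F) 0) 0
  rw [mul_entry, Matrix.sub_apply, mul_entry, mul_entry, ← hC R.F 0, hY, hn.tri] at e
  have e2 : (z + cobd M X) R.F 0 0 * M R.F 0 0 = 0 := by linear_combination e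
  exact (mul_eq_zero.mp e2).resolve_right (tri_diag_ne_zero hn.tri R.F).1

/-- The bound in normal form. -/
theorem RedNormal.strictBound (hn : RedNormal R M) (h : FlatDefo M z) :
    BoundBy M 1 fun w => FlatDefo M w ∧ StrictLineDefo M w := by
  obtain ⟨hfin, hle⟩ := natCard_redKer_le (hn := hn)
  refine ⟨redKer hn, fun f hf => hf.1.1, hfin, ?_, fun w hw => hn.exists_translate_ker hw.1 hw.2⟩
  rw [one_mul]
  exact hle.trans (hn.natCard_le_fixed_mul_cobd h)

/-- Flat strictly ordinary deformations fill at most `|H⁰|` classes. -/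
theorem strictFlatBound (hq : (q : ℕ) ≠ 2) (hM : LocalRes M) :
    BoundBy M 1 fun w => FlatDefo M w ∧ StrictLineDefo M w := by
  classical
  by_cases hex : ∃ w, FlatDefo M w ∧ StrictLineDefo M w
  · obtain ⟨w, hw, hws⟩ := hex
    obtain ⟨R⟩ := nonempty_redFrame hq
    obtain ⟨v, hv0, hv, -⟩ := hws
    obtain ⟨P, hP⟩ := exists_tri_conj M ⟨v, hv0, hv⟩
    obtain ⟨P', hn⟩ := exists_redNormal (R := R) (hM.conj P) hP (hw.conj P)
    exact BoundBy.of_conj (Q' := fun u => FlatDefo (conjHom P M) u ∧ StrictLineDefo (conjHom P M) u)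
      P (fun z hz => ⟨hz.1.conj P, hz.2.conj P⟩)
      (BoundBy.of_conj (Q' := fun u => FlatDefo (conjHom P' (conjHom P M)) u ∧
          StrictLineDefo (conjHom P' (conjHom P M)) u)
        P' (fun z hz => ⟨hz.1.conj P', hz.2.conj P'⟩)
        (hn.strictBound ((hw.conj P).conj P')))
  · haveI : Finite (adFixed M) := Subtype.finite
    haveI : Nonempty (adFixed M) := ⟨⟨0, by simp, fun g => by simp⟩⟩
    refine ⟨⊥, fun f hf => ?_, inferInstance, ?_, fun z hz => absurd ⟨z, hz⟩ hex⟩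
    · rw [AddSubgroup.mem_bot] at hf
      obtain ⟨U, hU, -⟩ := hM.level
      subst hf
      exact ⟨fun g => by simp, fun a b => by simp, U, hU, fun u _ => rfl⟩
    · rw [bot_inf_eq]
      simp only [AddSubgroup.card_bot, mul_one, one_mul]
      exact Nat.card_pos

end FLTA.TaylorWiles.Flat

end
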