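import Fermat.Agent.Deformation.Generators
import Mathlib.RingTheory.Ideal.Quotient.Index
import Mathlib.RingTheory.AdicCompletion.RingHom

/-!
# Generators of a complete local algebra from its maps to the dual numbers
-/

set_option autoImplicit false

noncomputable section

open IsLocalRing Module

namespace FLTA.TW

variable {𝒪 : Type} [CommRing 𝒪] [IsLocalRing 𝒪]
variable {R : Type} [CommRing R] [IsLocalRing R] [Algebra 𝒪 R]

theorem map_maximalIdeal_le [IsLocalHom (algebraMap 𝒪 R)] :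
    (maximalIdeal 𝒪).map (algebraMap 𝒪 R) ≤ maximalIdeal R :=
  Ideal.map_le_iff_le_comap.mpr fun a ha => map_nonunit (algebraMap 𝒪 R) a ha

variable [IsNoetherianRing R] [IsLocalHom (algebraMap 𝒪 R)]

theorem finite_quotient_of_sq_le [Finite (ResidueField 𝒪)]
    (hres : Function.Surjective (residue R ∘ algebraMap 𝒪 R)) {J : Ideal R}
    (hJ : maximalIdeal R ^ 2 ≤ J) : Finite (R ⧸ J) := by
  have : Finite (ResidueField R) :=
    Finite.of_surjective (ResidueField.map (algebraMap 𝒪 R)) fun y => by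
      obtain ⟨x, rfl⟩ := hres y
      exact ⟨residue 𝒪 x, ResidueField.map_residue _ x⟩
  have : Finite (R ⧸ maximalIdeal R) := inferInstanceAs (Finite (ResidueField R))
  have : Finite (R ⧸ maximalIdeal R ^ 2) :=
    Ideal.finite_quotient_pow (IsNoetherian.noetherian _) 2
  exact Finite.of_surjective _ (Ideal.Quotient.factor_surjective hJ)

/-- If the maps to the dual numbers killing `E` inject into a set of cardinality at most
`|k| ^ g`, then `g` elements, `E` and `𝒪` generate the maximal ideal. -/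
theorem exists_generators_of_injective [Finite (ResidueField 𝒪)]
    (hres : Function.Surjective (residue R ∘ algebraMap 𝒪 R))
    (E : Set R) (hE : E ⊆ maximalIdeal R) {Z : Type} [Finite Z] {g : ℕ}
    (hZ : Nat.card Z ≤ Nat.card (ResidueField 𝒪) ^ g)
    (c : letI := Deformation.dualAlgebra 𝒪
      {φ : R →ₐ[𝒪] DualNumber (ResidueField 𝒪) //
        IsLocalHom (φ : R →+* DualNumber (ResidueField 𝒪)) ∧ ∀ e ∈ E, φ e = 0} → Z)
    (hc : Function.Injective c) :
    ∃ a : Fin g → R, (∀ i, a i ∈ maximalIdeal R) ∧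
      maximalIdeal R = Ideal.span (Set.range a) ⊔
        (Ideal.span E ⊔ (maximalIdeal 𝒪).map (algebraMap 𝒪 R)) := by
  classical
  letI := Deformation.dualAlgebra 𝒪
  set m := maximalIdeal R
  let J : Ideal R := Ideal.span E ⊔ (maximalIdeal 𝒪).map (algebraMap 𝒪 R) ⊔ m ^ 2
  have hJm : J ≤ m := sup_le (sup_le (Ideal.span_le.mpr hE) map_maximalIdeal_le)
    (Ideal.pow_le_self two_ne_zero)
  have : Finite (R ⧸ J) := finite_quotient_of_sq_le hres le_sup_right
  -- `R ⧸ J` is an algebra over the residue field, with augmentation `π`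
  let ι : ResidueField 𝒪 →+* R ⧸ J :=
    Ideal.Quotient.lift (maximalIdeal 𝒪) ((Ideal.Quotient.mk J).comp (algebraMap 𝒪 R))
      fun a ha => Ideal.Quotient.eq_zero_iff_mem.mpr
        (Ideal.mem_sup_left (Ideal.mem_sup_right (Ideal.mem_map_of_mem _ ha)))
  have hι : ∀ a : 𝒪, ι (residue 𝒪 a) = Ideal.Quotient.mk J (algebraMap 𝒪 R a) := fun _ => rfl
  let : Algebra (ResidueField 𝒪) (R ⧸ J) := ι.toAlgebra
  let e : ResidueField 𝒪 ≃+* ResidueField R :=
    RingEquiv.ofBijective (ResidueField.map (algebraMap 𝒪 R))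
      ⟨RingHom.injective _, fun y => by
        obtain ⟨x, rfl⟩ := hres y
        exact ⟨residue 𝒪 x, ResidueField.map_residue _ x⟩⟩
  let π₀ : R →+* ResidueField 𝒪 := e.symm.toRingHom.comp (residue R)
  have hπ₀ : ∀ r, π₀ r = 0 ↔ r ∈ m := fun r => by simp [π₀, residue_eq_zero_iff, m]
  have hπ₀a : ∀ a : 𝒪, π₀ (algebraMap 𝒪 R a) = residue 𝒪 a := fun a => by
    show e.symm (residue R (algebraMap 𝒪 R a)) = _
    rw [RingEquiv.symm_apply_eq]
    exact (ResidueField.map_residue (algebraMap 𝒪 R) a).symm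
  let π : R ⧸ J →ₐ[ResidueField 𝒪] ResidueField 𝒪 :=
    { Ideal.Quotient.lift J π₀ fun r hr => (hπ₀ r).mpr (hJm hr) with
      commutes' := fun x => by
        obtain ⟨a, rfl⟩ := residue_surjective x
        exact hπ₀a a }
  have hπmk : ∀ r, π (Ideal.Quotient.mk J r) = π₀ r := fun _ => rfl
  let P : Submodule (ResidueField 𝒪) (R ⧸ J) := LinearMap.ker π.toLinearMap
  have hP : ∀ r, Ideal.Quotient.mk J r ∈ P ↔ r ∈ m := fun r => by
    rw [LinearMap.mem_ker, AlgHom.toLinearMap_apply, hπmk, hπ₀]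
  have hPmul : ∀ x ∈ P, ∀ y ∈ P, x * y = 0 := by
    intro x hx y hy
    obtain ⟨r, rfl⟩ := Ideal.Quotient.mk_surjective x
    obtain ⟨s, rfl⟩ := Ideal.Quotient.mk_surjective y
    rw [← map_mul, Ideal.Quotient.eq_zero_iff_mem]
    refine Ideal.mem_sup_right ?_
    rw [pow_two]
    exact Ideal.mul_mem_mul ((hP r).mp hx) ((hP s).mp hy)
  let proj : R ⧸ J →ₗ[ResidueField 𝒪] P :=
    LinearMap.codRestrict P
      (LinearMap.id - (Algebra.linearMap (ResidueField 𝒪) (R ⧸ J)).comp π.toLinearMap)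
      fun x => by simp [P, π.commutes]
  have hproj : ∀ x, (proj x : R ⧸ J) = x - algebraMap (ResidueField 𝒪) (R ⧸ J) (π x) := fun _ => rfl
  have hprojP : ∀ x : P, proj x = x := fun x => Subtype.ext <| by
    rw [hproj, show π (x : R ⧸ J) = 0 from x.2, map_zero, sub_zero]
  have hprojι : ∀ x, proj (algebraMap (ResidueField 𝒪) (R ⧸ J) x) = 0 := fun x => Subtype.ext <| by
    rw [hproj, π.commutes, Algebra.algebraMap_self, RingHom.id_apply, sub_self, Submodule.coe_zero]
  have hprojmul : ∀ x y, proj (x * y) = π x • proj y + π y • proj x := fun x y => Subtype.ext <| by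
    have h0 := hPmul _ (proj x).2 _ (proj y).2
    rw [hproj, hproj] at h0
    simp only [Submodule.coe_add, Submodule.coe_smul, hproj, Algebra.smul_def, map_mul]
    linear_combination h0
  -- every functional on `P` gives a map to the dual numbers
  let φ : Module.Dual (ResidueField 𝒪) P → (R →ₐ[𝒪] DualNumber (ResidueField 𝒪)) := fun l =>
    { toFun := fun r => TrivSqZeroExt.inl (π₀ r) +
        TrivSqZeroExt.inr (l (proj (Ideal.Quotient.mk J r)))
      map_one' := by
        have h : proj (1 : R ⧸ J) = 0 := by simpa using hprojι 1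
        rw [map_one, map_one, h, map_zero, TrivSqZeroExt.inl_one, TrivSqZeroExt.inr_zero, add_zero]
      map_mul' := fun r s => by
        refine TrivSqZeroExt.ext (by simp) ?_
        simp [hprojmul, hπmk, mul_comm (π₀ s)]
      map_zero' := by simp
      map_add' := fun r s => by
        refine TrivSqZeroExt.ext (by simp) ?_
        simp
      commutes' := fun a => by
        show TrivSqZeroExt.inl (π₀ (algebraMap 𝒪 R a)) + TrivSqZeroExt.inr
          (l (proj (algebraMap (ResidueField 𝒪) (R ⧸ J) (residue 𝒪 a)))) =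
            TrivSqZeroExt.inl (residue 𝒪 a)
        rw [hπ₀a, hprojι, map_zero, TrivSqZeroExt.inr_zero, add_zero] }
  have hφ : ∀ l, IsLocalHom (φ l : R →+* DualNumber (ResidueField 𝒪)) ∧
      ∀ e ∈ E, φ l e = 0 := fun l => by
    refine ⟨⟨fun r hr => ?_⟩, fun e he => ?_⟩
    · have h1 : π₀ r ≠ 0 := by
        simpa [φ, TrivSqZeroExt.isUnit_iff_isUnit_fst] using hr
      by_contra h2
      exact h1 ((hπ₀ r).mpr h2)
    · have h1 : Ideal.Quotient.mk J e = 0 :=
        Ideal.Quotient.eq_zero_iff_mem.mpr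
          (Ideal.mem_sup_left (Ideal.mem_sup_left (Ideal.subset_span he)))
      show TrivSqZeroExt.inl (π₀ e) + TrivSqZeroExt.inr (l (proj (Ideal.Quotient.mk J e))) = 0
      rw [(hπ₀ e).mpr (hE he), h1, map_zero, map_zero]
      simp
  have hφinj : Function.Injective φ := fun l l' h => by
    refine LinearMap.ext fun x => ?_
    obtain ⟨r, hr⟩ := Ideal.Quotient.mk_surjective (x : R ⧸ J)
    have h1 := congrArg TrivSqZeroExt.snd (AlgHom.congr_fun h r)
    simpa [φ, hr, hprojP] using h1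
  -- counting
  have hcard : Nat.card (Module.Dual (ResidueField 𝒪) P) ≤ Nat.card Z :=
    Nat.card_le_card_of_injective (fun l => c ⟨φ l, hφ l⟩) fun l l' h => by
      have := hc h
      exact hφinj (congrArg Subtype.val this)
  rw [Module.natCard_eq_pow_finrank (K := ResidueField 𝒪), Subspace.dual_finrank_eq] at hcard
  have hn : finrank (ResidueField 𝒪) P ≤ g :=
    (Nat.pow_le_pow_iff_right Finite.one_lt_card).mp (hcard.trans hZ)
  obtain ⟨b, hb⟩ : ∃ b : Fin g → P, Submodule.span (ResidueField 𝒪) (Set.range b) = ⊤ := by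
    let B := Module.finBasis (ResidueField 𝒪) P
    refine ⟨fun i => if h : (i : ℕ) < finrank (ResidueField 𝒪) P then B ⟨i, h⟩ else 0, ?_⟩
    refine eq_top_iff.mpr (B.span_eq.ge.trans (Submodule.span_mono ?_))
    rintro _ ⟨i, rfl⟩
    exact ⟨Fin.castLE hn i, by simp⟩
  choose a ha using fun i => Ideal.Quotient.mk_surjective (b i : R ⧸ J)
  have ham : ∀ i, a i ∈ m := fun i => (hP _).mp (by rw [ha]; exact (b i).2)
  refine ⟨a, ham, le_antisymm ?_
    (sup_le (Ideal.span_le.mpr (Set.range_subset_iff.mpr ham))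
      (sup_le (Ideal.span_le.mpr hE) map_maximalIdeal_le))⟩
  set N := Ideal.span (Set.range a) ⊔ (Ideal.span E ⊔ (maximalIdeal 𝒪).map (algebraMap 𝒪 R))
  have hmN : m ≤ N ⊔ m • m := by
    intro r hr
    have h1 : (⟨Ideal.Quotient.mk J r, (hP r).mpr hr⟩ : P) ∈
        Submodule.span (ResidueField 𝒪) (Set.range b) := hb ▸ Submodule.mem_top
    obtain ⟨co, hco⟩ := (Submodule.mem_span_range_iff_exists_fun (ResidueField 𝒪)).mp h1
    choose w hw using fun i => residue_surjective (co i)
    have h2 : r - ∑ i, algebraMap 𝒪 R (w i) * a i ∈ J := by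
      rw [← Ideal.Quotient.eq_zero_iff_mem, map_sub, sub_eq_zero, map_sum]
      have h3 : ((∑ i, co i • b i : P) : R ⧸ J) = Ideal.Quotient.mk J r :=
        congrArg Subtype.val hco
      rw [← h3, Submodule.coe_sum]
      refine Finset.sum_congr rfl fun i _ => ?_
      rw [Submodule.coe_smul, Algebra.smul_def, ← ha, ← hw, map_mul]
      rfl
    have hJle : J ≤ N ⊔ m • m := sup_le (le_sup_left.trans' le_sup_right)
      (le_sup_right.trans' (by rw [pow_two, smul_eq_mul]))
    have h4 : ∑ i, algebraMap 𝒪 R (w i) * a i ∈ N ⊔ m • m :=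
      Ideal.sum_mem _ fun i _ => Ideal.mul_mem_left _ _ <|
        Ideal.mem_sup_left (Ideal.mem_sup_left (Ideal.subset_span ⟨i, rfl⟩))
    simpa using add_mem (hJle h2) h4
  exact Submodule.le_of_le_smul_of_le_jacobson_bot (IsNoetherian.noetherian m)
    (maximalIdeal_le_jacobson ⊥) hmN

end FLTA.TW

end

section Surjection

noncomputable section

open IsLocalRing

namespace FLTA.TW

variable {𝒪 : Type} [CommRing 𝒪] [IsDomain 𝒪] [IsDiscreteValuationRing 𝒪]
  [IsAdicComplete (maximalIdeal 𝒪) 𝒪]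
variable {R : Type} [CommRing R] [IsLocalRing R] [IsAdicComplete (maximalIdeal R) R] [Algebra 𝒪 R]
  [IsLocalHom (algebraMap 𝒪 R)]

/-- Power series surject onto a complete local algebra whose maximal ideal is generated by the
uniformiser and `g` elements. -/
theorem exists_algHom_surjective (hres : Function.Surjective (residue R ∘ algebraMap 𝒪 R))
    {g : ℕ} (a : Fin g → R) (ha : ∀ i, a i ∈ maximalIdeal R)
    (hgen : maximalIdeal R ≤ Ideal.span (Set.range a) ⊔ (maximalIdeal 𝒪).map (algebraMap 𝒪 R)) :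
    ∃ γ : MvPowerSeries (Fin g) 𝒪 →ₐ[𝒪] R, Function.Surjective γ ∧
      ∀ i, γ (MvPowerSeries.X i) = a i := by
  let m := maximalIdeal R
  have hker : ∀ (n : ℕ), ∀ q ∈ MvPolynomial.idealOfVars (Fin g) 𝒪 ^ n,
      ((Ideal.Quotient.mkₐ 𝒪 (m ^ n)).comp (MvPolynomial.aeval a)) q = 0 := fun n q hq => by
    refine Ideal.Quotient.eq_zero_iff_mem.mpr ?_
    have h1 : (MvPolynomial.idealOfVars (Fin g) 𝒪).map (MvPolynomial.aeval a).toRingHom ≤ m := by
      rw [MvPolynomial.idealOfVars, Ideal.map_span, Ideal.span_le]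
      rintro _ ⟨_, ⟨i, rfl⟩, rfl⟩
      simpa [m] using ha i
    have h2 := Ideal.mem_map_of_mem (MvPolynomial.aeval a).toRingHom hq
    rw [Ideal.map_pow] at h2
    exact Ideal.pow_right_mono h1 n h2
  let f : ∀ n : ℕ, MvPowerSeries (Fin g) 𝒪 →ₐ[𝒪] R ⧸ m ^ n := fun n =>
    (Ideal.Quotient.liftₐ (MvPolynomial.idealOfVars (Fin g) 𝒪 ^ n)
      ((Ideal.Quotient.mkₐ 𝒪 (m ^ n)).comp (MvPolynomial.aeval a)) (hker n)).comp
      ((MvPowerSeries.truncTotalAlgHom (Fin g) 𝒪 n).restrictScalars 𝒪)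
  have hfpoly : ∀ n (q : MvPolynomial (Fin g) 𝒪),
      f n (q : MvPowerSeries (Fin g) 𝒪) = Ideal.Quotient.mk (m ^ n) (MvPolynomial.aeval a q) := by
    intro n q
    have h : (q : MvPowerSeries (Fin g) 𝒪) =
        algebraMap (MvPolynomial (Fin g) 𝒪) (MvPowerSeries (Fin g) 𝒪) q := by
      simp [MvPowerSeries.algebraMap_apply', MvPowerSeries.map_id]
    simp only [f, AlgHom.comp_apply, AlgHom.restrictScalars_apply]
    rw [h, AlgHom.commutes]
    rfl
  have hfX : ∀ n i, f n (MvPowerSeries.X i) = Ideal.Quotient.mk (m ^ n) (a i) := fun n i => by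
    simpa using hfpoly n (MvPolynomial.X i)
  have hfvar : ∀ n (x : MvPowerSeries (Fin g) 𝒪), x ∈ Deformation.varIdeal 𝒪 g ^ n → f n x = 0 := by
    intro n x hx
    have h1 : (Deformation.varIdeal 𝒪 g).map (f n).toRingHom ≤ m.map (Ideal.Quotient.mk (m ^ n)) := by
      rw [Deformation.varIdeal, Ideal.map_span, Ideal.span_le]
      rintro _ ⟨_, ⟨i, rfl⟩, rfl⟩
      show f n (MvPowerSeries.X i) ∈ _
      rw [hfX]
      exact Ideal.mem_map_of_mem _ (ha i)
    have h2 := Ideal.mem_map_of_mem (f n).toRingHom hx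
    rw [Ideal.map_pow] at h2
    have h3 := Ideal.pow_right_mono h1 n h2
    rwa [← Ideal.map_pow, Ideal.map_quotient_self, Ideal.mem_bot] at h3
  have hf : ∀ {i n : ℕ} (hle : i ≤ n),
      (Ideal.Quotient.factorₐ 𝒪 (Ideal.pow_le_pow_right hle)).comp (f n) = f i := by
    intro i n hle
    refine AlgHom.ext fun x => ?_
    set t := MvPowerSeries.truncTotal n x
    have hx := Deformation.sub_trunc_mem_pow x n
    have e : x = (x - (t : MvPowerSeries (Fin g) 𝒪)) + (t : MvPowerSeries (Fin g) 𝒪) :=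
      (sub_add_cancel _ _).symm
    rw [e, map_add, map_add, AlgHom.comp_apply, hfvar n _ hx,
      hfvar i _ (Ideal.pow_le_pow_right hle hx), map_zero, zero_add, zero_add, AlgHom.comp_apply,
      hfpoly, hfpoly]
    rfl
  let γ : MvPowerSeries (Fin g) 𝒪 →ₐ[𝒪] R := IsAdicComplete.liftAlgHom m f hf
  have hγX : ∀ i, γ (MvPowerSeries.X i) = a i := fun i => by
    refine sub_eq_zero.mp (IsHausdorff.haus (I := m) inferInstance _ fun n => ?_)
    rw [SModEq.zero, smul_eq_mul, Ideal.mul_top, ← Ideal.Quotient.eq_zero_iff_mem, map_sub,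
      IsAdicComplete.mk_liftAlgHom, hfX, sub_self]
  refine ⟨γ, ?_, hγX⟩
  have := Deformation.isAdicComplete_powerSeries 𝒪 g
  have hmap : (maximalIdeal (MvPowerSeries (Fin g) 𝒪)).map (γ : MvPowerSeries (Fin g) 𝒪 →+* R) =
      m := by
    rw [Deformation.maximalIdeal_eq, Ideal.map_sup, Ideal.map_map, Ideal.map_span,
      ← Set.range_comp]
    have h1 : (γ : MvPowerSeries (Fin g) 𝒪 →+* R).comp MvPowerSeries.C = algebraMap 𝒪 R :=
      RingHom.ext fun c => by
        simpa [MvPowerSeries.algebraMap_apply] using γ.commutes c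
    have h2 : ((γ : MvPowerSeries (Fin g) 𝒪 →+* R) ∘ MvPowerSeries.X) = a := funext hγX
    rw [h1, h2]
    exact le_antisymm (sup_le map_maximalIdeal_le (Ideal.span_le.mpr (Set.range_subset_iff.mpr ha)))
      (hgen.trans (le_of_eq (sup_comm _ _)))
  refine surjective_of_mk_map_comp_surjective (I := maximalIdeal (MvPowerSeries (Fin g) 𝒪))
    (γ : MvPowerSeries (Fin g) 𝒪 →+* R) (haus := by rw [hmap]; infer_instance) ?_
  rw [hmap]
  intro y
  obtain ⟨c, hc⟩ := hres y
  exact ⟨algebraMap 𝒪 _ c, by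
    rw [RingHom.comp_apply, RingHom.coe_coe, γ.commutes]
    exact hc⟩

end FLTA.TW

end

end Surjection
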