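import Fermat.Agent.TaylorWiles.OrdinaryLinAlg

/-!
The block representation `[[ρ, z ρ], [0, ρ]]` attached to a cocycle `z` of the adjoint action.
-/

set_option autoImplicit false

noncomputable section

namespace FLTA.TaylorWiles

variable {k V : Type} [Field k] [AddCommGroup V] [Module k V] {G : Type} [Group G]

/-- The adjoint action. -/
def adConj (ρ : G →* Module.End k V) (g : G) : Module.End k V →ₗ[k] Module.End k V :=
  (LinearMap.mulRight k (ρ g⁻¹)).comp (LinearMap.mulLeft k (ρ g))

theorem adConj_apply (ρ : G →* Module.End k V) (g : G) (c : Module.End k V) :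
    adConj ρ g c = ρ g * c * ρ g⁻¹ := rfl

theorem adConj_mul (ρ : G →* Module.End k V) (g h : G) (c : Module.End k V) :
    adConj ρ (g * h) c = adConj ρ g (adConj ρ h c) := by
  simp only [adConj_apply, map_mul, _root_.mul_inv_rev, mul_assoc]

/-- Cocycles for the adjoint action. -/
def IsAdCocycle (ρ : G →* Module.End k V) (z : G → Module.End k V) : Prop :=
  ∀ g h, z (g * h) = z g + adConj ρ g (z h)

theorem map_inv_mul_map_self (ρ : G →* Module.End k V) (g : G) : ρ g⁻¹ * ρ g = 1 := by
  rw [← map_mul, inv_mul_cancel, map_one]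

theorem map_self_mul_map_inv (ρ : G →* Module.End k V) (g : G) : ρ g * ρ g⁻¹ = 1 := by
  rw [← map_mul, mul_inv_cancel, map_one]

namespace IsAdCocycle

variable {ρ : G →* Module.End k V} {z : G → Module.End k V} (hz : IsAdCocycle ρ z)
include hz

theorem apply_one : z 1 = 0 := by
  have h := hz 1 1
  simpa [adConj_apply] using h

theorem apply_inv (g : G) : z g⁻¹ = -(adConj ρ g⁻¹ (z g)) := by
  have h := hz g⁻¹ g
  rw [inv_mul_cancel, hz.apply_one] at h
  exact eq_neg_of_add_eq_zero_left h.symm

theorem apply_eq_zero_of_pow {g : G} (hg : z g = 0) : ∀ m : ℕ, z (g ^ m) = 0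
  | 0 => by rw [pow_zero, hz.apply_one]
  | m + 1 => by rw [pow_succ, hz, hg, apply_eq_zero_of_pow hg m, map_zero, add_zero]

theorem apply_eq_zero_of_zpow {g : G} (hg : z g = 0) : ∀ m : ℤ, z (g ^ m) = 0
  | (m : ℕ) => by rw [zpow_natCast]; exact hz.apply_eq_zero_of_pow hg m
  | Int.negSucc m => by
    rw [zpow_negSucc, hz.apply_inv, hz.apply_eq_zero_of_pow hg, map_zero, neg_zero]

end IsAdCocycle

/-- The block endomorphism `(x, y) ↦ (a x + b y, a y)`. -/
def blockEnd (a b : Module.End k V) : Module.End k (V × V) :=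
  (a.comp (LinearMap.fst k V V) + b.comp (LinearMap.snd k V V)).prod
    (a.comp (LinearMap.snd k V V))

theorem blockEnd_mul (a b a' b' : Module.End k V) :
    blockEnd a b * blockEnd a' b' = blockEnd (a * a') (a * b' + b * a') := by
  refine LinearMap.ext fun x => Prod.ext ?_ ?_
  · simp [blockEnd, Module.End.mul_apply, add_assoc]
  · simp [blockEnd, Module.End.mul_apply]

theorem blockEnd_one : blockEnd (1 : Module.End k V) 0 = 1 := by
  refine LinearMap.ext fun x => Prod.ext ?_ ?_ <;> simp [blockEnd]

theorem blockEnd_injective {a b a' b' : Module.End k V} (h : blockEnd a b = blockEnd a' b') :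
    a = a' ∧ b = b' := by
  refine ⟨LinearMap.ext fun v => ?_, LinearMap.ext fun v => ?_⟩
  · simpa [blockEnd] using congrArg Prod.fst (LinearMap.congr_fun h (v, 0))
  · have := congrArg Prod.fst (LinearMap.congr_fun h (0, v))
    simpa [blockEnd] using this

theorem blockEnd_pow (a b : Module.End k V) (ha : a = 1) :
    ∀ m : ℕ, blockEnd a b ^ m = blockEnd 1 (m • b)
  | 0 => by rw [pow_zero, zero_smul, blockEnd_one]
  | m + 1 => by
    rw [pow_succ, blockEnd_pow a b ha m, blockEnd_mul, ha, one_mul, one_mul, mul_one, succ_nsmul,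
      add_comm]

/-- The representation attached to a cocycle. -/
def blockRep (ρ : G →* Module.End k V) (z : G → Module.End k V) (hz : IsAdCocycle ρ z) :
    G →* Module.End k (V × V) where
  toFun g := blockEnd (ρ g) (z g * ρ g)
  map_one' := by rw [map_one, hz.apply_one, zero_mul, blockEnd_one]
  map_mul' g h := by
    rw [blockEnd_mul, map_mul, hz g h, adConj_apply]
    congr 1
    simp only [add_mul, mul_assoc]
    rw [← mul_assoc (ρ g⁻¹) (ρ g), map_inv_mul_map_self, one_mul, add_comm]

theorem blockRep_apply (ρ : G →* Module.End k V) (z : G → Module.End k V) (hz : IsAdCocycle ρ z)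
    (g : G) : blockRep ρ z hz g = blockEnd (ρ g) (z g * ρ g) := rfl

theorem eq_of_blockRep_eq {ρ : G →* Module.End k V} {z : G → Module.End k V}
    {hz : IsAdCocycle ρ z} {g h : G} (e : blockRep ρ z hz g = blockRep ρ z hz h) :
    ρ g = ρ h ∧ z g = z h := by
  obtain ⟨h1, h2⟩ := blockEnd_injective e
  refine ⟨h1, ?_⟩
  rw [h1] at h2
  have := congrArg (· * ρ h⁻¹) h2
  simpa [mul_assoc, map_self_mul_map_inv] using this

end FLTA.TaylorWiles

end
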