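import Mathlib

/-!
Linear algebra on trace-zero endomorphisms of a plane, for the local tangent bounds.
-/

set_option autoImplicit false

namespace FLTA.TaylorWiles

variable {k V : Type*} [Field k] [AddCommGroup V] [Module k V]

/-- Trace-zero endomorphisms. -/
noncomputable def slEnd (k V : Type*) [Field k] [AddCommGroup V] [Module k V] :
    Submodule k (Module.End k V) :=
  LinearMap.ker (LinearMap.trace k V)

theorem mem_slEnd {c : Module.End k V} : c ∈ slEnd k V ↔ LinearMap.trace k V c = 0 := Iff.rfl

theorem exists_basis_of_sq_eq_zero (hV : Module.finrank k V = 2) {n : Module.End k V}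
    (hn : n * n = 0) (hn0 : n ≠ 0) :
    ∃ b : Module.Basis (Fin 2) k V, n (b 0) = b 1 ∧ n (b 1) = 0 := by
  obtain ⟨v, hv⟩ : ∃ v, n v ≠ 0 := by
    by_contra h
    push Not at h
    exact hn0 (LinearMap.ext fun x => by simp [h x])
  have hnn : n (n v) = 0 := by
    rw [← Module.End.mul_apply, hn]; rfl
  have hli : LinearIndependent k ![v, n v] := by
    rw [LinearIndependent.pair_iff]
    intro s t hst
    have h := congrArg n hst
    simp only [map_add, map_smul, hnn, smul_zero, add_zero, map_zero] at h
    have hs : s = 0 := (smul_eq_zero.1 h).resolve_right hv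
    subst hs
    simp only [zero_smul, zero_add] at hst
    exact ⟨rfl, (smul_eq_zero.1 hst).resolve_right hv⟩
  let b := basisOfLinearIndependentOfCardEqFinrank hli (by simp [hV])
  refine ⟨b, ?_, ?_⟩
  · simp [b]
  · simp [b, hnn]

theorem finrank_slEnd (hV : Module.finrank k V = 2) : Module.finrank k (slEnd k V) = 3 := by
  have : Module.Finite k V := Module.finite_of_finrank_eq_succ hV
  have h := LinearMap.finrank_range_add_finrank_ker (LinearMap.trace k V)
  have hr : LinearMap.range (LinearMap.trace k V) = ⊤ := by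
    refine LinearMap.range_eq_top.2 fun c => ?_
    let b := Module.finBasisOfFinrankEq k V hV
    exact ⟨(LinearMap.toMatrix b b).symm (Matrix.single 0 0 c), by
      rw [LinearMap.trace_eq_matrix_trace k b, LinearEquiv.apply_symm_apply,
        Matrix.trace_single_eq_same]⟩
  rw [hr, finrank_top, Module.finrank_self, Module.finrank_linearMap, hV] at h
  change Module.finrank k ↥(LinearMap.ker (LinearMap.trace k V)) = 3
  omega

/-- The commutant of a nonzero square-zero endomorphism inside trace zero is its line. -/
theorem mem_span_of_commute (hV : Module.finrank k V = 2) (h2 : (2 : k) ≠ 0) {n c : Module.End k V}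
    (hn : n * n = 0) (hn0 : n ≠ 0) (hc : c ∈ slEnd k V) (hcomm : Commute c n) :
    c ∈ k ∙ n := by
  obtain ⟨b, h0, h1⟩ := exists_basis_of_sq_eq_zero hV hn hn0
  set a := b.repr (c (b 0)) 0
  set e := b.repr (c (b 0)) 1
  have hcb0 : c (b 0) = a • b 0 + e • b 1 := by
    conv_lhs => rw [← b.sum_repr (c (b 0)), Fin.sum_univ_two]
  have hcb1 : c (b 1) = a • b 1 := by
    have : c (n (b 0)) = n (c (b 0)) := LinearMap.congr_fun hcomm.eq (b 0)
    rw [h0, hcb0, map_add, map_smul, map_smul, h0, h1, smul_zero, add_zero] at this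
    exact this
  have htr : LinearMap.trace k V c = a + a := by
    rw [LinearMap.trace_eq_matrix_trace k b, Matrix.trace_fin_two, LinearMap.toMatrix_apply,
      LinearMap.toMatrix_apply, hcb0, hcb1]
    simp
  rw [mem_slEnd, htr, ← two_mul, mul_eq_zero] at hc
  have ha : a = 0 := hc.resolve_left h2
  refine Submodule.mem_span_singleton.2 ⟨e, b.ext fun i => ?_⟩
  fin_cases i
  · simp [hcb0, ha, h0]
  · simp [hcb1, ha, h1]

variable [Module.Finite k V]

/-- The range of `a ↦ U a - a U` on trace-zero endomorphisms has dimension at least two. -/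
theorem two_le_finrank_commutator (hV : Module.finrank k V = 2) (h2 : (2 : k) ≠ 0)
    {n : Module.End k V} (hn : n * n = 0) (hn0 : n ≠ 0) :
    2 ≤ Module.finrank k (LinearMap.range
      ((LinearMap.mulLeft k n - LinearMap.mulRight k n).comp (slEnd k V).subtype)) := by
  set f := (LinearMap.mulLeft k n - LinearMap.mulRight k n).comp (slEnd k V).subtype
  have hker : LinearMap.ker f ≤ (k ∙ n).comap (slEnd k V).subtype := by
    intro c hc
    exact mem_span_of_commute hV h2 hn hn0 c.2 (sub_eq_zero.1 (LinearMap.mem_ker.1 hc)).symm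
  have h1 : Module.finrank k (LinearMap.ker f) ≤ 1 := by
    refine (Submodule.finrank_mono hker).trans ?_
    rw [(Submodule.equivMapOfInjective _ (slEnd k V).injective_subtype _).finrank_eq]
    refine (Submodule.finrank_mono (Submodule.map_comap_le _ _)).trans ?_
    exact (finrank_span_le_card ({n} : Set (Module.End k V))).trans (by simp)
  have := LinearMap.finrank_range_add_finrank_ker f
  rw [finrank_slEnd hV] at this
  omega

/-- The trace pairing with a nonzero square-zero endomorphism is nonzero on trace zero. -/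
theorem finrank_slEnd_inf_ker_trace_mul (hV : Module.finrank k V = 2) {n : Module.End k V}
    (hn : n * n = 0) (hn0 : n ≠ 0) :
    Module.finrank k ↥(slEnd k V ⊓
      LinearMap.ker ((LinearMap.trace k V).comp (LinearMap.mulRight k n))) ≤ 2 := by
  obtain ⟨b, h0, h1⟩ := exists_basis_of_sq_eq_zero hV hn hn0
  set W := slEnd k V ⊓ LinearMap.ker ((LinearMap.trace k V).comp (LinearMap.mulRight k n))
  have hlt : W < slEnd k V := by
    refine lt_of_le_not_ge inf_le_left fun hle => ?_
    let c : Module.End k V := b.constr k ![0, b 0]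
    have hc0 : c (b 0) = 0 := by simp [c]
    have hc1 : c (b 1) = b 0 := by simp [c]
    have hc : c ∈ slEnd k V := by
      rw [mem_slEnd, LinearMap.trace_eq_matrix_trace k b, Matrix.trace_fin_two,
        LinearMap.toMatrix_apply, LinearMap.toMatrix_apply, hc0, hc1]
      simp
    have h : LinearMap.trace k V (c * n) = 0 := LinearMap.mem_ker.1 (hle hc).2
    rw [LinearMap.trace_eq_matrix_trace k b, Matrix.trace_fin_two, LinearMap.toMatrix_apply,
      LinearMap.toMatrix_apply, Module.End.mul_apply, Module.End.mul_apply, h0, h1, hc1] at h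
    simp at h
  have := Submodule.finrank_lt_finrank_of_lt hlt
  rw [finrank_slEnd hV] at this
  omega

/-- At a prime `q` different from `p`: the space of values `(z F, z U)` of cocycles satisfying
the relation `F U F⁻¹ = U ^ q` and the unipotence condition has dimension at most three. -/
theorem finrank_unipotent_values_le (hV : Module.finrank k V = 2) (h2 : (2 : k) ≠ 0) (q : ℕ)
    (hq : (q : k) ≠ 0) {n : Module.End k V} (hn : n * n = 0) (hn0 : n ≠ 0)
    (Ψ : Module.End k V →ₗ[k] Module.End k V)
    (W : Submodule k (Module.End k V × Module.End k V))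
    (hW : ∀ w ∈ W, w.1 ∈ slEnd k V ∧ w.2 ∈ slEnd k V ∧ LinearMap.trace k V (w.2 * n) = 0 ∧
      (1 + (q : k) • n) * w.1 * (1 - (q : k) • n) - w.1 = Ψ w.2) :
    Module.finrank k W ≤ 3 := by
  set C := slEnd k V ⊓ LinearMap.ker ((LinearMap.trace k V).comp (LinearMap.mulRight k n))
  set u : Module.End k V := 1 + (q : k) • n
  set u' : Module.End k V := 1 - (q : k) • n
  let conjMap : Module.End k V →ₗ[k] Module.End k V :=
    (LinearMap.mulRight k u').comp (LinearMap.mulLeft k u) - LinearMap.id
  let Φ : (↥(slEnd k V) × ↥C) →ₗ[k] Module.End k V :=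
    (conjMap.comp (slEnd k V).subtype).coprod (-(Ψ.comp C.subtype))
  let emb : ↥(slEnd k V) × ↥C →ₗ[k] Module.End k V × Module.End k V :=
    (slEnd k V).subtype.prodMap C.subtype
  have hsub : W ≤ (LinearMap.ker Φ).map emb := by
    intro w hw
    obtain ⟨h1, h2', h3, h4⟩ := hW w hw
    refine ⟨(⟨w.1, h1⟩, ⟨w.2, h2', h3⟩), ?_, rfl⟩
    simp only [SetLike.mem_coe, LinearMap.mem_ker, Φ, LinearMap.coprod_apply, LinearMap.comp_apply,
      LinearMap.neg_apply, Submodule.coe_subtype, conjMap, LinearMap.sub_apply,
      LinearMap.mulRight_apply, LinearMap.mulLeft_apply, LinearMap.id_apply]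
    rw [h4, add_neg_cancel]
  refine (Submodule.finrank_mono hsub).trans ((Submodule.finrank_map_le _ _).trans ?_)
  have hrn := LinearMap.finrank_range_add_finrank_ker Φ
  rw [Module.finrank_prod, finrank_slEnd hV] at hrn
  have hC : Module.finrank k ↥C ≤ 2 := finrank_slEnd_inf_ker_trace_mul hV hn hn0
  -- the range of `Φ` is large
  have hR : 2 ≤ Module.finrank k (LinearMap.range Φ) := by
    have hinc : LinearMap.range (conjMap.comp (slEnd k V).subtype) ≤ LinearMap.range Φ := by
      rintro _ ⟨a, rfl⟩
      exact ⟨(a, 0), by simp [Φ]⟩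
    refine le_trans ?_ (Submodule.finrank_mono hinc)
    refine le_trans ?_ (Submodule.finrank_map_le ((q : k)⁻¹ • LinearMap.mulRight k u) _)
    suffices heq : LinearMap.range
        ((LinearMap.mulLeft k n - LinearMap.mulRight k n).comp (slEnd k V).subtype) =
        (LinearMap.range (conjMap.comp (slEnd k V).subtype)).map
          ((q : k)⁻¹ • LinearMap.mulRight k u) by
      rw [← heq]
      exact two_le_finrank_commutator hV h2 hn hn0
    ext x
    simp only [Submodule.mem_map, LinearMap.mem_range, LinearMap.comp_apply, Submodule.coe_subtype,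
      LinearMap.sub_apply, LinearMap.mulLeft_apply, LinearMap.mulRight_apply]
    have hu : u' * u = 1 := by
      simp [u, u', sub_mul, mul_add, smul_mul_smul_comm, hn]
    have key : ∀ a : Module.End k V,
        ((q : k)⁻¹ • LinearMap.mulRight k u) (conjMap a) = n * a - a * n := by
      intro a
      simp only [conjMap, LinearMap.smul_apply, LinearMap.sub_apply, LinearMap.comp_apply,
        LinearMap.mulRight_apply, LinearMap.mulLeft_apply, LinearMap.id_apply, sub_mul,
        mul_assoc, hu, mul_one]
      simp [u, add_mul, mul_add, smul_mul_assoc, mul_smul_comm, ← smul_sub, hq, inv_smul_smul₀]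
    constructor
    · rintro ⟨a, rfl⟩
      exact ⟨_, ⟨a, rfl⟩, key a⟩
    · rintro ⟨_, ⟨a, rfl⟩, rfl⟩
      exact ⟨a, (key a).symm⟩
  omega

end FLTA.TaylorWiles
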